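import Fermat.Agent.Frob.Odd
import Fermat.Agent.Density.Places

/-!
An irreducible mod `p` representation of an elliptic curve is not Eisenstein on primes congruent
to `1` modulo any given number.
-/

set_option autoImplicit false

namespace FA.HeckeH1

open WeierstrassCurve Polynomial
open scoped WeierstrassCurve.Affine

noncomputable section

local notation "Qb" => AlgebraicClosure ℚ
local notation "GQ" => AlgebraicClosure ℚ ≃ₐ[ℚ] AlgebraicClosure ℚ

section linear

variable {k : Type*} [Field k] {V : Type*} [AddCommGroup V] [Module k V]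

/-- A group of unipotent operators of a plane fixes a nonzero vector. -/
theorem exists_fixed_of_unipotent (hV : Module.finrank k V = 2) (S : Set (Module.End k V))
    (hmul : ∀ f ∈ S, ∀ g ∈ S, f * g ∈ S)
    (h : ∀ f ∈ S, LinearMap.trace k V f = 2 ∧ LinearMap.det f = 1) :
    ∃ v : V, v ≠ 0 ∧ ∀ f ∈ S, f v = v := by
  classical
  have : Module.Finite k V := Module.finite_of_finrank_eq_succ (n := 1) hV
  let b := Module.finBasisOfFinrankEq k V hV
  let A : Module.End k V → Matrix (Fin 2) (Fin 2) k := fun f => LinearMap.toMatrix b b f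
  have hA : ∀ f ∈ S, A f 1 1 = 2 - A f 0 0 ∧
      (A f 0 0 - 1) ^ 2 + A f 0 1 * A f 1 0 = 0 := by
    intro f hf
    obtain ⟨ht, hd⟩ := h f hf
    rw [LinearMap.trace_eq_matrix_trace k b, Matrix.trace_fin_two] at ht
    rw [← LinearMap.det_toMatrix b, Matrix.det_fin_two] at hd
    exact ⟨by linear_combination ht, by linear_combination (A f 0 0) * ht - hd⟩
  have hpair : ∀ f ∈ S, ∀ g ∈ S,
      2 * (A f 0 0 - 1) * (A g 0 0 - 1) + A f 0 1 * A g 1 0 + A f 1 0 * A g 0 1 = 0 := by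
    intro f hf g hg
    have h1 := (h _ (hmul f hf g hg)).1
    rw [LinearMap.trace_eq_matrix_trace k b, LinearMap.toMatrix_mul, Matrix.trace_fin_two,
      Matrix.mul_apply, Matrix.mul_apply, Fin.sum_univ_two, Fin.sum_univ_two] at h1
    linear_combination h1 - A g 1 1 * (hA f hf).1 - (2 - A f 0 0) * (hA g hg).1
  -- a common fixed column
  obtain ⟨x, y, hxy, hfix⟩ : ∃ x y : k, (x ≠ 0 ∨ y ≠ 0) ∧ ∀ f ∈ S,
      (A f 0 0 - 1) * x + A f 0 1 * y = 0 ∧ A f 1 0 * x + (A f 1 1 - 1) * y = 0 := by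
    by_cases hb : ∃ f₀ ∈ S, A f₀ 0 1 ≠ 0
    · obtain ⟨f₀, hf₀, hb⟩ := hb
      refine ⟨A f₀ 0 1, -(A f₀ 0 0 - 1), Or.inl hb, fun f hf => ?_⟩
      obtain ⟨e₁, e₂⟩ := hA f hf
      obtain ⟨e₁', e₂'⟩ := hA f₀ hf₀
      have e₃ := hpair f₀ hf₀ f hf
      have h1 : (A f 0 0 - 1) * A f₀ 0 1 + A f 0 1 * (-(A f₀ 0 0 - 1)) = 0 := by
        refine sq_eq_zero_iff.1 ?_
        linear_combination (A f₀ 0 1) ^ 2 * e₂ + (A f 0 1) ^ 2 * e₂' -
          A f 0 1 * A f₀ 0 1 * e₃
      refine ⟨h1, mul_left_cancel₀ hb ?_⟩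
      rw [mul_zero, e₁]
      linear_combination (A f₀ 0 1) * e₃ - (A f₀ 0 0 - 1) * h1 - A f 0 1 * e₂'
    · simp only [not_exists, not_and, not_not] at hb
      refine ⟨0, 1, Or.inr one_ne_zero, fun f hf => ?_⟩
      obtain ⟨e₁, e₂⟩ := hA f hf
      rw [hb f hf, zero_mul, add_zero, sq_eq_zero_iff] at e₂
      exact ⟨by simp [hb f hf], by linear_combination e₁ - e₂⟩
  refine ⟨b.equivFun.symm ![x, y], fun h0 => ?_, fun f hf => ?_⟩
  · rw [LinearEquiv.map_eq_zero_iff] at h0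
    rcases hxy with hx | hy
    · exact hx (congrFun h0 0)
    · exact hy (congrFun h0 1)
  · refine b.repr.injective (Finsupp.ext fun i => ?_)
    rw [← LinearMap.toMatrix_mulVec_repr b b f]
    have hr : ⇑(b.repr (b.equivFun.symm ![x, y])) = ![x, y] := b.equivFun.apply_symm_apply _
    rw [hr]
    obtain ⟨e₁, e₂⟩ := hfix f hf
    fin_cases i <;>
      simp only [Matrix.mulVec, dotProduct, Fin.sum_univ_two, Matrix.cons_val_zero,
        Matrix.cons_val_one, Fin.zero_eta, Fin.mk_one]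
    · linear_combination e₁
    · linear_combination e₂

/-- Powers of a unipotent operator of a plane have trace two. -/
theorem trace_pow_of_sq (hV : Module.finrank k V = 2) {f : Module.End k V}
    (hf : (f - 1) ^ 2 = 0) (n : ℕ) : LinearMap.trace k V (f ^ n) = 2 := by
  have : Module.Finite k V := Module.finite_of_finrank_eq_succ (n := 1) hV
  have hnil : IsNilpotent (f ^ n - 1) := by
    refine ⟨2, ?_⟩
    rw [← geom_sum_mul, Commute.mul_pow, hf, mul_zero]
    exact Commute.sum_left _ _ _ fun i _ =>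
      ((Commute.refl f).sub_right (Commute.one_right f)).pow_left i
  have h := (LinearMap.isNilpotent_trace_of_isNilpotent hnil).eq_zero
  rw [map_sub, LinearMap.trace_one, hV, sub_eq_zero] at h
  rw [h, Nat.cast_ofNat]

end linear

/-- The Galois automorphisms fixing the `L`-th roots of unity. -/
def fixMu (L : ℕ) : Subgroup GQ where
  carrier := {σ | ∀ ζ : Qb, ζ ^ L = 1 → σ ζ = ζ}
  one_mem' _ _ := rfl
  mul_mem' {a b} ha hb ζ hζ := by rw [AlgEquiv.mul_apply, hb ζ hζ, ha ζ hζ]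
  inv_mem' {a} ha ζ hζ := by
    conv_lhs => rw [← ha ζ hζ]
    rw [← AlgEquiv.mul_apply, inv_mul_cancel]
    rfl

theorem mem_fixMu {L : ℕ} {σ : GQ} : σ ∈ fixMu L ↔ ∀ ζ : Qb, ζ ^ L = 1 → σ ζ = ζ := Iff.rfl

instance fixMu_normal (L : ℕ) : (fixMu L).Normal := ⟨fun σ hσ g ζ hζ => by
  rw [AlgEquiv.mul_apply, AlgEquiv.mul_apply, hσ (g⁻¹ ζ) (by rw [← map_pow, hζ, map_one]),
    ← AlgEquiv.mul_apply, mul_inv_cancel]
  rfl⟩

theorem isOpen_fixMu {L : ℕ} (hL : 0 < L) : IsOpen (fixMu L : Set GQ) := by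
  let S : Set Qb := {x | x ^ L = 1}
  have hfin : S.Finite := by
    refine ((Polynomial.X ^ L - 1 : Qb[X]).roots.toFinset.finite_toSet).subset fun x hx => ?_
    simp only [Finset.mem_coe, Multiset.mem_toFinset, mem_roots']
    exact ⟨by simpa using X_pow_sub_C_ne_zero hL (1 : Qb), by simp [show x ^ L = 1 from hx]⟩
  have : FiniteDimensional ℚ (IntermediateField.adjoin ℚ S) := by
    have : Finite S := hfin.to_subtype
    exact IntermediateField.finiteDimensional_adjoin fun x _ =>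
      ((AlgebraicClosure.isAlgebraic ℚ).isAlgebraic x).isIntegral
  exact Subgroup.isOpen_mono (H₁ := (IntermediateField.adjoin ℚ S).fixingSubgroup) (fun σ hσ ζ hζ =>
    (IntermediateField.mem_fixingSubgroup_iff _ _).mp hσ _ (IntermediateField.subset_adjoin ℚ S hζ))
    (IntermediateField.fixingSubgroup_isOpen _)

/-- Commutators fix the roots of unity. -/
theorem commutator_mem_fixMu {L : ℕ} (hL : 0 < L) (σ τ : GQ) :
    σ * τ * σ⁻¹ * τ⁻¹ ∈ fixMu L := by
  intro ζ hζ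
  have : NeZero L := ⟨hL.ne'⟩
  obtain ⟨μ, hμ⟩ := HasEnoughRootsOfUnity.exists_primitiveRoot Qb L
  have hval : ∀ g : GQ, ∃ a : ℕ, g μ = μ ^ a := fun g => by
    obtain ⟨a, -, ha⟩ := hμ.eq_pow_of_pow_eq_one
      (show (g μ) ^ L = 1 by rw [← map_pow, hμ.pow_eq_one, map_one])
    exact ⟨a, ha.symm⟩
  obtain ⟨i, -, rfl⟩ := hμ.eq_pow_of_pow_eq_one hζ
  rw [map_pow]
  congr 1
  obtain ⟨a, ha⟩ := hval σ
  obtain ⟨b, hb⟩ := hval τ
  have hcomm : σ (τ μ) = τ (σ μ) := by
    rw [hb, map_pow, ha, map_pow, hb, ← pow_mul, ← pow_mul, mul_comm]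
  obtain ⟨c, hc⟩ := hval (σ⁻¹ * τ⁻¹)
  have h2 : ∀ z : Qb, (σ * τ) z = σ (τ z) := fun z => AlgEquiv.mul_apply σ τ z
  calc (σ * τ * σ⁻¹ * τ⁻¹) μ = (σ * τ) ((σ⁻¹ * τ⁻¹) μ) := by
        rw [mul_assoc (σ * τ), AlgEquiv.mul_apply]
    _ = (τ * σ) ((σ⁻¹ * τ⁻¹) μ) := by
        rw [hc, map_pow, map_pow, h2, AlgEquiv.mul_apply, hcomm]
    _ = μ := by
        rw [← AlgEquiv.mul_apply, show τ * σ * (σ⁻¹ * τ⁻¹) = 1 by group]
        rfl

/-- A Frobenius at `q` fixing the `L`-th roots of unity forces `q ≡ 1` modulo `L`. -/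
theorem modEq_one_of_frobenius {L q : ℕ} (hL : 0 < L) (hq : q.Prime) (hqL : ¬ q ∣ L)
    {A : ValuationSubring Qb} (hA : A.LiesOverPrime q) {σ : GQ} (hσ : A.IsFrobeniusAt σ q)
    (hfix : σ ∈ fixMu L) : q ≡ 1 [MOD L] := by
  have : NeZero L := ⟨hL.ne'⟩
  obtain ⟨ζ, hζ'⟩ := HasEnoughRootsOfUnity.exists_primitiveRoot Qb L
  have hζ := hζ'.pow_eq_one
  have hζ0 : ζ ≠ 0 := hζ'.ne_zero hL.ne'
  have hmem : ∀ {x : Qb}, x ^ L = 1 → x ∈ A := fun {x} hx => by
    rw [← A.valuation_le_one_iff]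
    by_contra hc
    have := one_lt_pow₀ (not_le.mp hc) hL.ne'
    rw [← map_pow, hx, map_one] at this
    exact lt_irrefl _ this
  have h := FA.Density.sub_pow_mem_nonunits hσ (hmem hζ)
  rw [hfix ζ hζ] at h
  set μ := ζ / ζ ^ q with hμ
  have hμp : μ ^ L = 1 := by
    rw [hμ, div_pow, hζ, ← pow_mul, mul_comm, pow_mul, hζ, one_pow, div_one]
  have hv : A.valuation (ζ ^ q) = 1 := by
    rw [map_pow]
    have : A.valuation ζ ^ L = 1 := by rw [← map_pow, hζ, map_one]
    rw [(pow_eq_one_iff.mp this).resolve_right hL.ne', one_pow]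
  have h1 : A.valuation (μ - 1) < 1 := by
    rw [hμ, div_sub_one (pow_ne_zero _ hζ0), map_div₀, hv, div_one]
    exact A.mem_nonunits_iff.mp h
  have hone : μ = 1 := by
    by_contra hne
    have hsum : ∑ i ∈ Finset.range L, μ ^ i = 0 := by
      rw [geom_sum_eq hne, hμp, sub_self, zero_div]
    have hle : A.valuation μ ≤ 1 := (A.valuation_le_one_iff μ).mpr (hmem hμp)
    have hpow : ∀ i : ℕ, A.valuation (μ ^ i - 1) < 1 := fun i => by
      rw [← geom_sum_mul μ i, map_mul]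
      refine lt_of_le_of_lt (mul_le_of_le_one_left' (A.valuation.map_sum_le fun j _ => ?_)) h1
      rw [map_pow]; exact pow_le_one₀ zero_le hle
    have hs : A.valuation (∑ i ∈ Finset.range L, (μ ^ i - 1)) < 1 :=
      A.valuation.map_sum_lt one_ne_zero fun i _ => hpow i
    rw [Finset.sum_sub_distrib, hsum, Finset.sum_const, Finset.card_range, nsmul_one, zero_sub,
      A.valuation.map_neg, ← Int.cast_natCast,
      FA.Frob.valuation_intCast_of_liesOverPrime hq hA
        fun hd => hqL (Int.natCast_dvd_natCast.mp hd)] at hs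
    exact lt_irrefl _ hs
  rw [hμ, div_eq_one_iff_eq (pow_ne_zero _ hζ0)] at hone
  have h2 := hone.symm.trans (pow_one ζ).symm
  rw [pow_eq_pow_mod q hζ, pow_eq_pow_mod 1 hζ] at h2
  exact hζ'.pow_inj (Nat.mod_lt _ hL) (Nat.mod_lt _ hL) h2

/-- **Non-Eisenstein primes.** Above any bound there are primes `l ≡ 1` modulo `L` with
`a_l ≢ 2` modulo `p`. -/
theorem exists_prime_trace_ne_two (E : WeierstrassCurve ℚ) [E.IsElliptic] {W : WeierstrassCurve ℤ}
    (hW : W.IsIntegralModelOf E) {p : ℕ} (hp : p.Prime) (hp2 : p ≠ 2)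
    (hirr : Affine.Point.GaloisRepIsIrreducible (K := Qb) ℚ E.toAffine p)
    {L : ℕ} (hL : 0 < L) (S : Finset ℕ) :
    ∃ l : ℕ, l.Prime ∧ l ∉ S ∧ W.IsGoodPrimeFor l ∧ l ≠ p ∧ l ≡ 1 [MOD L * p] ∧
      (W.apOfModel l : ZMod p) ≠ 2 := by
  classical
  haveI := Fact.mk hp
  have : NeZero p := ⟨hp.ne_zero⟩
  let ρ := Affine.Point.galoisRepModuleEnd (K := Qb) ℚ E.toAffine p
  let U := fixMu (L * p)
  have hU : U.Normal := fixMu_normal _
  have hLp : 0 < L * p := Nat.mul_pos hL hp.pos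
  have hn : Nat.card (rootsOfUnity p Qb) = p := IsAlgClosed.card_rootsOfUnity_eq Qb p
  have hdet : ∀ σ ∈ U, LinearMap.det (ρ σ) = 1 := fun σ hσ => by
    rw [FA.Frob.det_galoisRepModuleEnd p E hn]
    have h1 : ((FA.Frob.cycloChar p hn σ : (ZMod p)ˣ) : ZMod p) = 1 := by
      rw [FA.Frob.cycloChar_apply]
      symm
      refine modularCyclotomicCharacter.unique Qb hn _ fun t ht => ?_
      rw [ZMod.val_one, pow_one]
      refine hσ (t : Qb) ?_
      rw [mul_comm, pow_mul, ← Units.val_pow_eq_pow_val, (mem_rootsOfUnity p t).mp ht,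
        Units.val_one, one_pow]
    exact h1
  have hV := FA.EC.finrank_torsion E p
  obtain ⟨s, hsU, hs⟩ : ∃ s ∈ U, LinearMap.trace (ZMod p) _ (ρ s) ≠ 2 := by
    by_contra hcon
    simp only [not_exists, not_and, not_not] at hcon
    obtain ⟨v, hv0, hv⟩ := exists_fixed_of_unipotent hV (ρ '' (U : Set GQ))
      (by rintro _ ⟨a, ha, rfl⟩ _ ⟨b, hb, rfl⟩; exact ⟨a * b, U.mul_mem ha hb, map_mul ρ a b⟩)
      (by rintro _ ⟨a, ha, rfl⟩; exact ⟨hcon a ha, hdet a ha⟩)
    -- the fixed vectors are Galois stable, so everything is fixed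
    let W₀ : Submodule (ZMod p) (Submodule.torsionBy ℤ (E.toAffine⁄Qb).Point p) :=
      ⨅ σ ∈ U, LinearMap.ker (ρ σ - 1)
    have hmem : ∀ x, x ∈ W₀ ↔ ∀ σ ∈ U, ρ σ x = x := fun x => by
      simp [W₀, Submodule.mem_iInf, sub_eq_zero]
    have htop : W₀ = ⊤ := by
      refine (hirr.2 W₀ fun g x hx => (hmem _).2 fun σ hσ => ?_).resolve_left fun h => hv0 ?_
      · show ρ σ (ρ g x) = ρ g x
        rw [← Module.End.mul_apply, ← map_mul, show σ * g = g * (g⁻¹ * σ * g) by group, map_mul,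
          Module.End.mul_apply, (hmem x).1 hx _ (by simpa using hU.conj_mem σ hσ g⁻¹)]
      · have : v ∈ W₀ := (hmem v).2 fun σ hσ => hv _ ⟨σ, hσ, rfl⟩
        rwa [h, Submodule.mem_bot] at this
    have hcomm : ∀ a b : GQ, ρ a * ρ b = ρ b * ρ a := fun a b => by
      have h1 : ρ (a * b * a⁻¹ * b⁻¹) = 1 := LinearMap.ext fun x =>
        (hmem x).1 (by rw [htop]; trivial) _ (commutator_mem_fixMu hLp a b)
      rw [← map_mul, ← map_mul,
        show a * b = (a * b * a⁻¹ * b⁻¹) * (b * a) by group, map_mul ρ (a * b * a⁻¹ * b⁻¹), h1,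
        one_mul]
    obtain ⟨c, hc, hc1⟩ := FA.Frob.exists_involution
    have hdc : LinearMap.det (ρ c) = -1 := FA.Frob.det_invol hc hc1 hp2 E
    have hne : (1 : ZMod p) ≠ -1 := fun h => by
      have h2 : ((2 : ℕ) : ZMod p) = 0 := by push_cast; linear_combination h
      exact hp2 ((Nat.prime_dvd_prime_iff_eq hp Nat.prime_two).1
        ((ZMod.natCast_eq_zero_iff 2 p).1 h2))
    rcases hirr.2 (LinearMap.ker (ρ c - 1)) (fun g x hx => by
      rw [LinearMap.mem_ker, LinearMap.sub_apply, sub_eq_zero] at hx ⊢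
      show ρ c (ρ g x) = ρ g x
      rw [← Module.End.mul_apply, hcomm, Module.End.mul_apply, hx, Module.End.one_apply]) with h | h
    · have hall : ∀ x, ρ c x = -x := fun x => by
        have h0 : ρ c x + x ∈ LinearMap.ker (ρ c - 1) := by
          rw [LinearMap.mem_ker, LinearMap.sub_apply, Module.End.one_apply, map_add,
            ← Module.End.mul_apply, ← map_mul, hc, map_one, Module.End.one_apply,
            add_comm x, sub_self]
        rw [h, Submodule.mem_bot] at h0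
        exact eq_neg_of_add_eq_zero_left h0
      have hce : ρ c = (-1 : ZMod p) • (1 : Module.End (ZMod p) _) :=
        LinearMap.ext fun x => by rw [hall x]; simp
      rw [hce, LinearMap.det_smul, map_one, mul_one, hV] at hdc
      exact hne (by linear_combination hdc)
    · rw [LinearMap.ker_eq_top, sub_eq_zero] at h
      rw [h, map_one] at hdc
      exact hne hdc
  let N : Subgroup GQ := ρ.ker ⊓ U
  have : N.Normal := inferInstance
  have hN : IsOpen (N : Set GQ) := by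
    obtain ⟨K, hK, h⟩ := FA.EC.galoisFactorsThroughFiniteLevel E (n := p) hp.ne_zero
    refine IsOpen.inter ?_ (isOpen_fixMu hLp)
    exact Subgroup.isOpen_mono (H₁ := K.fixingSubgroup) (fun σ hσ =>
      h σ ((IntermediateField.mem_fixingSubgroup_iff _ _).mp hσ))
      (IntermediateField.fixingSubgroup_isOpen K)
  obtain ⟨l, A, σ, n, hl, hlS, hA, hσ, hk, j, hj⟩ :=
    FA.Density.exists_frobenius_generating N hN s
      (S ∪ (L * p).primeFactors ∪ W.Δ.natAbs.divisors)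
  simp only [Finset.mem_union, not_or, Nat.mem_primeFactors, Nat.mem_divisors] at hlS
  obtain ⟨⟨hlS, hlL⟩, hlΔ⟩ := hlS
  have hlL' : ¬ l ∣ L * p := fun h => hlL ⟨hl, h, hLp.ne'⟩
  have hlp : l ≠ p := fun h => hlL' (by rw [h]; exact dvd_mul_left p L)
  have hgood : W.IsGoodPrimeFor l := fun h =>
    hlΔ ⟨Int.natCast_dvd.mp h, Int.natAbs_ne_zero.mpr (FA.Frob.Δ_ne_zero_of_model hW)⟩
  have hσU : σ ∈ U := by
    have := U.mul_mem (U.pow_mem hsU j) hj.2
    rwa [mul_inv_cancel_left] at this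
  have hl1 := modEq_one_of_frobenius hLp hl hlL' hA hσ hσU
  refine ⟨l, hl, hlS, hgood, hlp, hl1, fun hap => hs ?_⟩
  have hcp := LinearMap.aeval_self_charpoly (ρ σ)
  have hl1' : (l : ZMod p) = 1 := by
    rw [← Nat.cast_one, ZMod.natCast_eq_natCast_iff]
    exact hl1.of_mul_left L
  rw [FA.Frob.charpoly_galoisRep_of_model hW hl hgood (Ne.symm hlp) hA hσ, hap, hl1'] at hcp
  have hsq : (ρ σ - 1) ^ 2 = 0 := by
    rw [← hcp]
    simp only [map_add, map_sub, map_mul, map_pow, map_one, map_ofNat, aeval_X, pow_two]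
    noncomm_ring
  have hks : ρ s = ρ σ ^ n := by
    have h1 : ρ ((σ ^ n)⁻¹ * s) = 1 := hk.1
    rw [← map_pow, show s = σ ^ n * ((σ ^ n)⁻¹ * s) by group, map_mul, h1, mul_one]
  rw [hks]
  exact trace_pow_of_sq hV hsq n

end

end FA.HeckeH1
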