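import Fermat.Agent.HeckeH1.Periods
import Fermat.Agent.JTorsion.Eigen

/-!
Level raising for eigenforms of weight two.
-/

set_option autoImplicit false

noncomputable section

namespace FA.HeckeH1

open CongruenceSubgroup ModularCurve
open FA.JTorsion (FormPair heckeForm)
open scoped MatrixGroups

local notation "O" => integralClosure ℤ ℂ

/-- Preimages of maximal ideals of the algebraic integers are maximal. -/
theorem isMaximal_comap_algInt {R : Type*} [CommRing R] (φ : R →+* O) (m : Ideal O)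
    [m.IsMaximal] : (m.comap φ).IsMaximal := by
  letI : Algebra R O := φ.toAlgebra
  have : IsScalarTower ℤ R O := IsScalarTower.of_algebraMap_eq' (RingHom.ext_int _ _)
  have : Algebra.IsIntegral R O :=
    ⟨fun x => (Algebra.IsIntegral.isIntegral (R := ℤ) x).tower_top⟩
  exact Ideal.isMaximal_comap_of_isIntegral_of_isMaximal m

/-- An operator with image in `p P` satisfies an equation `t ^ n + p (...) = 0`. -/
theorem exists_zero_of_range {R : Type*} [CommRing R] {P : Type*} [AddCommGroup P]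
    [Module.Finite ℤ P] (φ : R →+* Module.End ℤ P) {p : ℕ} (t : R)
    (ht : ∀ v, ∃ y, φ t v = p • y) :
    ∃ t₀, φ t₀ = 0 ∧ ∀ m : Ideal R, m.IsPrime → (p : R) ∈ m → t₀ ∈ m → t ∈ m := by
  have hT : LinearMap.range (φ t) ≤ Ideal.span {(p : ℤ)} • (⊤ : Submodule ℤ P) := by
    rintro _ ⟨v, rfl⟩
    obtain ⟨y, hy⟩ := ht v
    rw [hy, ← natCast_zsmul]
    exact Submodule.smul_mem_smul (Ideal.mem_span_singleton_self _) Submodule.mem_top
  obtain ⟨Pol, hmon, -, hcoeff, hzero⟩ :=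
    LinearMap.exists_monic_and_natDegree_eq_and_coeff_mem_pow_and_aeval_eq_zero ℤ (φ t) _ hT
  refine ⟨Polynomial.aeval t Pol,
    (Polynomial.aeval_algHom_apply φ.toIntAlgHom t Pol).symm.trans hzero, fun m hm hpm hmem => ?_⟩
  refine hm.mem_of_pow_mem Pol.natDegree ?_
  have e : Polynomial.aeval t Pol = t ^ Pol.natDegree +
      ∑ k ∈ Finset.range Pol.natDegree, (Pol.coeff k : R) * t ^ k := by
    rw [Polynomial.aeval_eq_sum_range, Finset.sum_range_succ, hmon.coeff_natDegree, one_smul,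
      add_comm]
    simp [zsmul_eq_mul]
  have hsum : ∑ k ∈ Finset.range Pol.natDegree, (Pol.coeff k : R) * t ^ k ∈ m := by
    refine Submodule.sum_mem _ fun k hk => Ideal.mul_mem_right _ _ ?_
    have h1 := hcoeff k
    rw [Ideal.span_singleton_pow, Ideal.mem_span_singleton] at h1
    obtain ⟨u, hu⟩ :=
      (dvd_pow_self (p : ℤ) (Nat.sub_ne_zero_of_lt (Finset.mem_range.1 hk))).trans h1
    rw [hu]
    push_cast
    exact m.mul_mem_right _ hpm
  rw [e] at hmem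
  exact (Ideal.add_mem_iff_left m hsum).1 hmem

section rename

variable {A : Type*} [CommRing A] {M : ℕ} {H : Subgroup (ZMod M)ˣ}

/-- Forgetting good primes. -/
theorem hact_rename {N N' : ℕ} (ι : GP N' → GP N) (hι : ∀ ℓ, (ι ℓ).1 = ℓ.1)
    (r : MvPolynomial (GP N') ℤ) :
    hact A M H N (MvPolynomial.rename ι r) = hact A M H N' r := by
  induction r using MvPolynomial.induction_on with
  | C n => rw [MvPolynomial.rename_C, hact, hact, evalComm_C, evalComm_C]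
  | add p q hp hq => simp [hp, hq]
  | mul_X p i hp =>
    rw [map_mul, map_mul, map_mul, hp, MvPolynomial.rename_X, hact_X, hact_X]
    congr 1
    obtain ⟨⟨l, hl⟩, rfl⟩ : ∃ x, x = i := ⟨i, rfl⟩
    have h1 := hι ⟨l, hl⟩
    rcases hj : ι ⟨l, hl⟩ with ⟨l', hl'⟩
    obtain rfl : l' = l := by rw [hj] at h1; exact h1
    rfl

end rename

section scale

variable {N : ℕ} [NeZero N]

open FA.Deform in
/-- A simultaneous eigenvector is a multiple of a normalised eigenform. -/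
theorem exists_smul_normalized {v : CuspForm (Gamma0 N) 2} (hv : v ≠ 0)
    (χ : CuspForm.heckeAlgebra N 2 ∅ →+* ℂ)
    (heig : ∀ t : CuspForm.heckeAlgebra N 2 ∅,
      (t : Module.End ℂ (CuspForm (Gamma0 N) 2)) v = χ t • v) :
    ∃ c : ℂ, (c • v).IsNormalizedEigenform := by
  classical
  let lam : ℕ → ℂ := fun p => if hp : p.Prime then
    (if h : p ∣ N then χ (CuspForm.heckeAlgebra.U hp h (Set.notMem_empty _))
      else χ (CuspForm.heckeAlgebra.T hp h (Set.notMem_empty _))) else 0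
  have hrec : ∀ p : ℕ, p.Prime → ∀ n,
      qLin N v (n * p) + (if p ∣ n then cor N p * qLin N v (n / p) else 0) = lam p * qLin N v n := by
    intro p hp n
    by_cases hpN : p ∣ N
    · have h := congrArg (fun w => qLin N w n) (heig (CuspForm.heckeAlgebra.U hp hpN
        (Set.notMem_empty _)))
      simp only [CuspForm.heckeAlgebra.coe_U, map_smul, Pi.smul_apply, smul_eq_mul,
        qLin_heckeU hp hpN] at h
      simpa [lam, hp, hpN, cor] using h
    · have h := congrArg (fun w => qLin N w n) (heig (CuspForm.heckeAlgebra.T hp hpN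
        (Set.notMem_empty _)))
      simp only [CuspForm.heckeAlgebra.coe_T, map_smul, Pi.smul_apply, smul_eq_mul,
        qLin_heckeT hp hpN] at h
      simpa [lam, hp, hpN, cor] using h
  have hc1 : qLin N v 1 ≠ 0 := by
    intro h1
    apply hv
    apply qLin_injective
    funext n
    induction n using Nat.strong_induction_on with
    | _ n ih =>
      rw [map_zero, Pi.zero_apply]
      rcases Nat.eq_zero_or_pos n with rfl | hn
      · exact qLin_zero_apply v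
      rcases eq_or_ne n 1 with rfl | hne
      · exact h1
      obtain ⟨p, hp, k, rfl⟩ := Nat.exists_prime_and_dvd hne
      have hk : k < p * k := lt_mul_of_one_lt_left (Nat.pos_of_mul_pos_left hn) hp.one_lt
      have e := hrec p hp k
      simpa [mul_comm p k, ih k hk, ih _ ((Nat.div_le_self k p).trans_lt hk)] using e
  refine ⟨(qLin N v 1)⁻¹, ?_⟩
  set f := (qLin N v 1)⁻¹ • v
  have hf : ∀ n, ModularFormClass.qCoeff f n = (qLin N v 1)⁻¹ * qLin N v n := fun n => by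
    rw [← qLin_apply, map_smul, Pi.smul_apply, smul_eq_mul]
  let c : ℕ → ℂ := fun n => ModularFormClass.qCoeff f n
  have hone : c 1 = 1 := by simp only [c, hf]; exact inv_mul_cancel₀ hc1
  have hrec' : ∀ p : ℕ, p.Prime → ∀ n,
      c (n * p) + (if p ∣ n then cor N p * c (n / p) else 0) = lam p * c n := by
    intro p hp n
    have e := hrec p hp n
    simp only [c, hf]
    split_ifs with h
    · rw [if_pos h] at e
      linear_combination (qLin N v 1)⁻¹ * e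
    · rw [if_neg h] at e
      linear_combination (qLin N v 1)⁻¹ * e
  have hcp : ∀ p : ℕ, p.Prime → c p = lam p := by
    intro p hp
    have e := hrec' p hp 1
    rwa [one_mul, if_neg (fun h => hp.ne_one (Nat.dvd_one.mp h)), add_zero, hone, mul_one] at e
  have hpow : ∀ p r : ℕ, p.Prime →
      c (p ^ (r + 2)) = c p * c (p ^ (r + 1)) - cor N p * c (p ^ r) := by
    intro p r hp
    have e := hrec' p hp (p ^ (r + 1))
    rw [if_pos (dvd_pow_self p (Nat.succ_ne_zero r)), pow_succ p r,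
      Nat.mul_div_cancel _ hp.pos] at e
    rw [hcp p hp, show p ^ (r + 2) = p ^ r * p * p by ring, pow_succ p r]
    linear_combination e
  exact ⟨hone, mul_of_coprime_of_rec (qLin_zero_apply f) hone hrec',
    fun p r hp hpN => by simpa [c, cor, hpN] using hpow p r hp,
    fun p r hp hpN => by simpa [c, cor, hpN] using hpow p r hp⟩

/-- The common kernel of some Hecke conditions contains a common eigenvector. -/
theorem exists_normalized_mem (S : Submodule ℂ (CuspForm (Gamma0 N) 2)) (hS : S ≠ ⊥)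
    (hst : ∀ t : CuspForm.heckeAlgebra N 2 ∅, ∀ v ∈ S,
      (t : Module.End ℂ (CuspForm (Gamma0 N) 2)) v ∈ S) :
    ∃ g ∈ S, CuspForm.IsNormalizedEigenform g := by
  have : FiniteDimensional ℂ (CuspForm (Gamma0 N) 2) := by
    haveI := FA.Dim.parabolicHoms_finite N
    exact Module.Finite.of_injective
      (((periodHomPair N).codRestrict (Period.parabolicHoms ℂ (Gamma0 N) ℂ) fun p =>
        (Fermat.Agent.S21.result N).2 ▸ LinearMap.mem_range_self _ _).comp (LinearMap.inl ℂ _ _))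
      (fun _ _ h => LinearMap.inl_injective
        ((Fermat.Agent.S21.result N).1 (congrArg Subtype.val h)))
  let act : CuspForm.heckeAlgebra N 2 ∅ →+* Module.End ℂ S :=
    { toFun := fun t => (t : Module.End ℂ (CuspForm (Gamma0 N) 2)).restrict (hst t)
      map_one' := rfl
      map_mul' := fun _ _ => rfl
      map_zero' := rfl
      map_add' := fun _ _ => rfl }
  have hne : RingHom.ker act ≠ ⊤ := by
    rw [Ne, Ideal.eq_top_iff_one]
    intro h
    obtain ⟨v, hv, hv0⟩ := S.exists_mem_ne_zero_of_ne_bot hS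
    exact hv0 (congrArg Subtype.val (LinearMap.congr_fun (RingHom.mem_ker.1 h) (⟨v, hv⟩ : S)))
  obtain ⟨m, hm, hle⟩ := Ideal.exists_le_maximal _ hne
  have := hm.isPrime
  obtain ⟨⟨v, hvS⟩, χ, hv0, hev, -⟩ :=
    FA.Deform.exists_eigenvector_of_prime act m fun t ht => hle (RingHom.mem_ker.2 ht)
  obtain ⟨c, hc⟩ := exists_smul_normalized (v := v) (fun h => hv0 (Subtype.ext h)) χ
    fun t => congrArg Subtype.val (hev t)
  exact ⟨c • v, S.smul_mem c hvS, hc⟩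

end scale

section main

variable {N q p : ℕ} [NeZero N]

/-- The good primes of `N q` are good for `N`. -/
def gpDown (ℓ : GP (N * q)) : GP N := ⟨ℓ.1, ℓ.2.1, fun h => ℓ.2.2 (h.mul_right q)⟩

theorem eq_top_of_up {M : ℕ} : Hup M q (⊤ : Subgroup (ZMod M)ˣ) = ⊤ := by simp [Hup]

variable [Fact q.Prime]

/-- The pairs of traces vanish and the polynomials killing this part lie in `m`. -/
theorem exists_system (hp : p.Prime) (hqN : ¬ q ∣ N) (f : CuspForm (Gamma0 N) 2)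
    (hf : f.IsNormalizedEigenform) (𝔪 : Ideal O) [𝔪.IsMaximal] (hpm : (p : O) ∈ 𝔪)
    (a : GP N → O) (ha : ∀ ℓ, (a ℓ : ℂ) = ModularFormClass.qCoeff f ℓ.1)
    (hLR : a ⟨q, Fact.out, hqN⟩ ^ 2 - ((q : O) + 1) ^ 2 ∈ 𝔪)
    (hNE : ∀ L : ℕ, 0 < L → ∃ l : GP (N * q), l.1 ≡ 1 [MOD L] ∧
      a (gpDown l) - ((l.1 : O) + 1) ∉ 𝔪)
    (s : MvPolynomial (GP (N * q)) ℤ)
    (hs : (MvPolynomial.eval₂Hom (Int.castRingHom O) fun ℓ => a (gpDown ℓ)) s ∉ 𝔪) :
    ∃ x : Par (GamUp N q ⊤) ℤ, (Corr.cores (Γ := GamH N ⊤)).act x.1 = 0 ∧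
      (J2 ⊤ hqN).act x.1 = 0 ∧ hact ℤ (N * q) (Hup N q ⊤) (N * q) s x ≠ 0 := by
  have hq : q.Prime := Fact.out
  let R := MvPolynomial (GP N) ℤ
  let χ : R →+* O := MvPolynomial.eval₂Hom (Int.castRingHom O) a
  let z₀ : Par (GamH N ⊤) ℂ := ⟨perP N ⊤ (f, 0), perP_mem_Par _⟩
  have hz0 : z₀ ≠ 0 := fun h => hf.ne_zero (by
    have h1 := perP_injective (M := N) rfl
      ((congrArg Subtype.val h).trans (map_zero (perP N ⊤)).symm)
    exact congrArg Prod.fst h1)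
  have heig : ∀ r : R, hact ℂ N ⊤ N r z₀ = (χ r : ℂ) • z₀ := fun r => by
    induction r using MvPolynomial.induction_on with
    | C n =>
      rw [hact, evalComm_C, Module.End.intCast_apply]
      rw [show χ (MvPolynomial.C n) = (n : O) from MvPolynomial.eval₂Hom_C _ _ n]
      push_cast
      exact (Int.cast_smul_eq_zsmul ℂ n z₀).symm
    | add r s hr hs => simp [hr, hs, add_smul]
    | mul_X r ℓ hr =>
      haveI : NeZero ℓ.1 := ⟨ℓ.2.1.ne_zero⟩
      have hX : TPar ℂ N ⊤ ℓ.1 z₀ = (a ℓ : ℂ) • z₀ := by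
        refine Subtype.ext ?_
        show (Tc N ⊤ ℓ.1).act (perP N ⊤ (f, 0)) = (a ℓ : ℂ) • perP N ⊤ (f, 0)
        rw [perP_Tc (fun _ => coprime_mem_top ℓ.2.1 ℓ.2.2), heckeForm, dif_neg ℓ.2.2,
          FA.JTorsion.heckeT_eigen hf ℓ.2.1 ℓ.2.2, map_zero, ha, FA.Deform.qLin_apply,
          ← map_smul, Prod.smul_mk, smul_zero]
      rw [map_mul, hact_X, Module.End.mul_apply, hX, map_smul, hr, smul_smul, map_mul,
        show χ (MvPolynomial.X ℓ) = a ℓ from MvPolynomial.eval₂Hom_X' _ _ ℓ, MulMemClass.coe_mul,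
        mul_comm]
  let m₀ : Ideal R := 𝔪.comap χ
  have hm₀ : m₀.IsMaximal := isMaximal_comap_algInt χ 𝔪
  have hpm₀ : (p : R) ∈ m₀ := by simpa [m₀] using hpm
  letI : Module R (Par (GamH N ⊤) ℤ) := Module.compHom _ (hact ℤ N ⊤ N)
  let pP : Submodule R (Par (GamH N ⊤) ℤ) := LinearMap.range ((p : R) • LinearMap.id)
  have hmemp : ∀ v, v ∈ pP ↔ ∃ y, v = p • y := fun v => by
    constructor
    · rintro ⟨y, rfl⟩
      exact ⟨y, Nat.cast_smul_eq_nsmul R p y⟩
    · rintro ⟨y, rfl⟩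
      exact ⟨y, Nat.cast_smul_eq_nsmul R p y⟩
  have : Finite (Par (GamH N ⊤) ℤ ⧸ pP) := by
    haveI : Module.Finite ℤ (Par (GamH N ⊤) ℤ ⧸ pP) := Module.Finite.of_surjective
      pP.mkQ.toAddMonoidHom.toIntLinearMap pP.mkQ_surjective
    refine Module.finite_of_fg_torsion (M := Par (GamH N ⊤) ℤ ⧸ pP) fun u => ?_
    refine ⟨⟨(p : ℤ), mem_nonZeroDivisors_of_ne_zero (Int.natCast_ne_zero.2 hp.ne_zero)⟩, ?_⟩
    obtain ⟨v, rfl⟩ := pP.mkQ_surjective u
    show (p : ℤ) • pP.mkQ v = 0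
    rw [natCast_zsmul, ← map_nsmul, Submodule.mkQ_apply, Submodule.Quotient.mk_eq_zero, hmemp]
    exact ⟨v, rfl⟩
  obtain ⟨w', hw0, hwk⟩ := exists_killed (Q := Par (GamH N ⊤) ℤ ⧸ pP) m₀ fun r hr => by
    obtain ⟨t₀, ht₀, hback⟩ := exists_zero_of_range (p := p) (hact ℤ N ⊤ N) r fun v =>
      (hmemp _).1 ((Submodule.Quotient.mk_eq_zero pP).1 (hr (pP.mkQ v)))
    refine hback m₀ hm₀.isPrime hpm₀ ?_
    have h1 := hact_complex_eq_zero t₀ [] (fun x _ => by rw [ht₀]; rfl) z₀ (by simp)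
    rw [heig, smul_eq_zero, or_iff_left hz0] at h1
    show χ t₀ ∈ 𝔪
    rw [show χ t₀ = 0 from Subtype.ext h1]
    exact 𝔪.zero_mem
  obtain ⟨w, rfl⟩ := pP.mkQ_surjective w'
  have hw : ¬ ∃ y, w = p • y := fun h => hw0 ((Submodule.Quotient.mk_eq_zero _).2 ((hmemp w).2 h))
  have hwk' : ∀ r ∈ m₀, ∃ y, hact ℤ N ⊤ N r w = p • y := fun r hr =>
    (hmemp _).1 ((Submodule.Quotient.mk_eq_zero _).1 (hwk r hr))
  let qN : GP N := ⟨q, hq, hqN⟩
  obtain ⟨c, hc, hcm⟩ : ∃ c : ℤ, c * c = 1 ∧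
      MvPolynomial.X qN - MvPolynomial.C (c * ((q : ℤ) + 1)) ∈ m₀ := by
    have hsplit : (a qN - ((q : O) + 1)) * (a qN + ((q : O) + 1)) ∈ 𝔪 := by
      convert hLR using 1
      ring
    have hval : ∀ c : ℤ, χ (MvPolynomial.X qN - MvPolynomial.C (c * ((q : ℤ) + 1))) =
        a qN - (c : O) * ((q : O) + 1) := fun c => by
      rw [map_sub, show χ (MvPolynomial.X qN) = a qN from MvPolynomial.eval₂Hom_X' _ _ qN,
        show χ (MvPolynomial.C (c * ((q : ℤ) + 1))) = _ from MvPolynomial.eval₂Hom_C _ _ _]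
      simp
    rcases Ideal.IsPrime.mem_or_mem inferInstance hsplit with h | h
    · exact ⟨1, rfl, show χ _ ∈ 𝔪 by rw [hval]; simpa using h⟩
    · refine ⟨-1, rfl, show χ _ ∈ 𝔪 from ?_⟩
      rw [hval]
      convert h using 1
      push_cast
      ring
  have hq' : ∃ y : Par (GamH N ⊤) ℤ, TPar ℤ N ⊤ q w = (c * ((q : ℤ) + 1)) • w + p • y := by
    obtain ⟨y, hy⟩ := hwk' _ hcm
    refine ⟨y, ?_⟩
    rw [map_sub, hact_X, LinearMap.sub_apply, hact, evalComm_C, Module.End.intCast_apply] at hy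
    rw [← hy, add_sub_cancel]
  let ρ := MvPolynomial.rename (gpDown (N := N) (q := q)) (R := ℤ)
  let χ' : MvPolynomial (GP (N * q)) ℤ →+* O :=
    MvPolynomial.eval₂Hom (Int.castRingHom O) fun ℓ => a (gpDown ℓ)
  have hχ : ∀ r, χ (ρ r) = χ' r := fun r =>
    MvPolynomial.eval₂Hom_rename (Int.castRingHom O) gpDown a r
  let m := 𝔪.comap χ'
  have hm : m.IsMaximal := isMaximal_comap_algInt χ' 𝔪
  obtain ⟨l, hl1, hlm⟩ := hNE (iharaMod q N p) (iharaMod_pos hq (NeZero.pos N) hp)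
  obtain ⟨l', hl'1, hl'm⟩ := hNE (q * iharaMod q N p * l.1)
    (Nat.mul_pos (Nat.mul_pos hq.pos (iharaMod_pos hq (NeZero.pos N) hp)) l.2.1.pos)
  have hmod : ∀ {x L : ℕ}, x ≡ 1 [MOD L] → 1 < L → x % L = 1 := fun {x L} hx hL => by
    rw [hx, Nat.mod_eq_of_lt hL]
  have h1I := one_lt_iharaMod (q := q) (N := N) (p := p) hq (NeZero.pos N) hp
  have hiI : 1 < q * iharaMod q N p * l.1 :=
    lt_of_lt_of_le h1I ((Nat.le_mul_of_pos_left _ hq.pos).trans
      (Nat.le_mul_of_pos_right _ l.2.1.pos))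
  refine raise_ker hqN hp m (by simpa [m] using hpm) l l' (hmod hl1 h1I) (hmod hl'1 hiI)
    (by simpa [m, χ'] using hlm) (by simpa [m, χ'] using hl'm) w hw (fun r hr => ?_) c hc hq' s hs
  obtain ⟨y, hy⟩ := hwk' (ρ r) (show χ (ρ r) ∈ 𝔪 by rw [hχ]; exact hr)
  exact ⟨y, by rw [← hy, hact_rename gpDown (fun _ => rfl)]⟩

/-- **Level raising for eigenforms.** -/
theorem raise_eigenform (hp : p.Prime) (hqN : ¬ q ∣ N) (f : CuspForm (Gamma0 N) 2)
    (hf : f.IsNormalizedEigenform) (𝔪 : Ideal O) [𝔪.IsMaximal] (hpm : (p : O) ∈ 𝔪)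
    (a : GP N → O) (ha : ∀ ℓ, (a ℓ : ℂ) = ModularFormClass.qCoeff f ℓ.1)
    (hLR : a ⟨q, Fact.out, hqN⟩ ^ 2 - ((q : O) + 1) ^ 2 ∈ 𝔪)
    (hNE : ∀ L : ℕ, 0 < L → ∃ l : GP (N * q), l.1 ≡ 1 [MOD L] ∧
      a (gpDown l) - ((l.1 : O) + 1) ∉ 𝔪) :
    ∃ (g : CuspForm (Gamma0 (N * q)) 2) (𝔪' : Ideal O), g.IsNormalizedEigenform ∧
      𝔪'.IsMaximal ∧ (p : O) ∈ 𝔪' ∧ ModularFormClass.qCoeff g q ^ 2 = 1 ∧
      ∀ ℓ : GP (N * q), ∃ b : O, (b : ℂ) = ModularFormClass.qCoeff g ℓ.1 ∧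
        ∀ z : ℤ, a (gpDown ℓ) - (z : O) ∈ 𝔪 → b - (z : O) ∈ 𝔪' := by
  have hq : q.Prime := Fact.out
  haveI : NeZero (N * q) := ⟨mul_ne_zero (NeZero.ne N) hq.ne_zero⟩
  haveI : NeZero q := ⟨hq.ne_zero⟩
  let R := MvPolynomial (GP (N * q)) ℤ
  let χ' : R →+* O := MvPolynomial.eval₂Hom (Int.castRingHom O) fun ℓ => a (gpDown ℓ)
  let m : Ideal R := 𝔪.comap χ'
  have hm : m.IsMaximal := isMaximal_comap_algInt χ' 𝔪
  have hH : (-1 : (ZMod N)ˣ) ∈ (⊤ : Subgroup (ZMod N)ˣ) := Subgroup.mem_top _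
  let K : Submodule ℂ (Hom1 (GamUp N q ⊤) ℂ) :=
    Par (GamUp N q ⊤) ℂ ⊓ (LinearMap.ker (Corr.cores (Γ := GamH N ⊤)).actLin ⊓
      LinearMap.ker (J2 ⊤ hqN).actLin)
  have hK : ∀ z : Hom1 (GamUp N q ⊤) ℂ, z ∈ K ↔ z ∈ Par (GamUp N q ⊤) ℂ ∧
      (Corr.cores (Γ := GamH N ⊤)).act z = 0 ∧ (J2 ⊤ hqN).act z = 0 := fun z => by
    simp [K, Corr.actLin_apply]
  have hst : ∀ (ℓ : GP (N * q)), ∀ z ∈ K, (Tc (N * q) (Hup N q ⊤) ℓ.1).actLin z ∈ K :=
    fun ℓ z hz => by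
    have hJ := J_Tc hqN hH ℓ.2.2 (coprime_mem_top ℓ.2.1 fun h => ℓ.2.2 (h.mul_right q)) z
    rw [hK] at hz ⊢
    rw [Corr.actLin_apply]
    exact ⟨Par_act _ hz.1, by rw [← hJ.1, hz.2.1, map_zero], by rw [← hJ.2, hz.2.2, map_zero]⟩
  let opK : GP (N * q) → Module.End ℂ K := fun ℓ =>
    (Tc (N * q) (Hup N q ⊤) ℓ.1).actLin.restrict (hst ℓ)
  have hopK : ∀ i j, Commute (opK i) (opK j) := fun i j => by
    rcases eq_or_ne i j with rfl | hne
    · exact Commute.refl _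
    · exact LinearMap.ext fun z => Subtype.ext
        (Tc_comm (N * q) (Hup N q ⊤) (fun h => hne (Subtype.ext h)) z.1)
  let actK : R →+* Module.End ℂ K := evalComm opK hopK
  let toPar : K →+ Par (GamUp N q ⊤) ℂ :=
    AddMonoidHom.mk' (fun z => ⟨z.1, ((hK z.1).1 z.2).1⟩) (fun _ _ => rfl)
  have hsub : ∀ r (z : K), toPar (actK r z) =
      hact ℂ (N * q) (Hup N q ⊤) (N * q) r (toPar z) := fun r z =>
    evalComm_intertwine opK hopK _ (fun _ _ => TPar_commute _ _ _ _)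
      toPar (fun _ _ => rfl) r z
  have hker : ∀ r, actK r = 0 → r ∈ m := fun r hr => by
    by_contra hrm
    obtain ⟨x, hx1, hx2, hx3⟩ := exists_system hp hqN f hf 𝔪 hpm a ha hLR hNE r hrm
    let ic : ℤ →+ ℂ := Int.castAddHom ℂ
    let xc : Par (GamUp N q ⊤) ℂ := ⟨ic.comp x.1, Par_comp ic x.2⟩
    have hxc : xc.1 ∈ K := by
      rw [hK]
      exact ⟨xc.2, by rw [Corr.act_comp_hom, hx1, AddMonoidHom.comp_zero],
        by rw [Corr.act_comp_hom, hx2, AddMonoidHom.comp_zero]⟩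
    have h1 := hsub r ⟨xc.1, hxc⟩
    rw [hr, LinearMap.zero_apply, map_zero, show toPar ⟨xc.1, hxc⟩ = xc from rfl] at h1
    have h2 := hact_comp ic (N * q) (Hup N q ⊤) (N * q) r x
    rw [← h1] at h2
    exact hx3 (Subtype.ext (AddMonoidHom.ext fun γ =>
      Int.cast_injective (α := ℂ) ((DFunLike.congr_fun h2 γ).trans Int.cast_zero.symm)))
  obtain ⟨v, χv, hv0, hev, hkerv⟩ := FA.Deform.exists_eigenvector_of_prime actK m hker
  -- back to forms
  obtain ⟨⟨f₁, g₁⟩, hfg⟩ := exists_perP_eq (M := N * q) eq_top_of_up ((hK v.1).1 v.2).1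
  have hinj := perP_injective (M := N * q) (H := Hup N q ⊤) eq_top_of_up
  have hmemU : ∀ {ℓ : ℕ}, ℓ.Prime → ¬ ℓ ∣ N * q →
      ∃ u ∈ Hup N q ⊤, (u : ZMod (N * q)) = (ℓ : ZMod (N * q)) := fun hℓ h => by
    rw [eq_top_of_up]; exact coprime_mem_top hℓ h
  let S : Submodule ℂ (CuspForm (Gamma0 (N * q)) 2) :=
    (⨅ ℓ : GP (N * q), LinearMap.ker (CuspForm.heckeTLin 2 ℓ.2.1 ℓ.2.2 -
      χv (MvPolynomial.X ℓ) • 1)) ⊓
    LinearMap.ker (CuspForm.heckeULin 2 (dvd_mul_left q N) *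
      CuspForm.heckeULin 2 (dvd_mul_left q N) - 1)
  have hS : ∀ x, x ∈ S ↔
      (∀ ℓ : GP (N * q), CuspForm.heckeTLin 2 ℓ.2.1 ℓ.2.2 x = χv (MvPolynomial.X ℓ) • x) ∧
      CuspForm.heckeULin 2 (dvd_mul_left q N) (CuspForm.heckeULin 2 (dvd_mul_left q N) x) = x :=
    fun x => by simp [S, Submodule.mem_iInf, sub_eq_zero]
  have hT : ∀ ℓ : GP (N * q),
      (CuspForm.heckeTLin 2 ℓ.2.1 ℓ.2.2 f₁, CuspForm.heckeTLin 2 ℓ.2.1 ℓ.2.2 g₁) =
        χv (MvPolynomial.X ℓ) • (f₁, g₁) := fun ℓ => by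
    haveI : NeZero ℓ.1 := ⟨ℓ.2.1.ne_zero⟩
    apply hinj
    have h2 := congrArg (fun z : Par (GamUp N q ⊤) ℂ => z.1)
      ((hsub _ v).symm.trans (congrArg toPar (hev (MvPolynomial.X ℓ))))
    rw [hact_X] at h2
    have h3 := perP_Tc (M := N * q) (H := Hup N q ⊤) (ℓ := ℓ.1)
      (fun h => hmemU ℓ.2.1 h) (f₁, g₁)
    rw [heckeForm, dif_neg ℓ.2.2] at h3
    rw [← h3, map_smul, hfg]
    exact h2
  have hU : (CuspForm.heckeULin 2 (dvd_mul_left q N) (CuspForm.heckeULin 2 (dvd_mul_left q N) f₁),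
      CuspForm.heckeULin 2 (dvd_mul_left q N) (CuspForm.heckeULin 2 (dvd_mul_left q N) g₁)) =
        (f₁, g₁) := by
    apply hinj
    have h3 := fun x => perP_Tc (M := N * q) (H := Hup N q ⊤) (ℓ := q)
      (fun h => absurd (dvd_mul_left q N) h) x
    simp only [heckeForm, dif_pos (dvd_mul_left q N)] at h3
    rw [← h3 (_, _), ← h3 (f₁, g₁), hfg]
    exact U_sq_of_ker hqN (coprime_mem_top hq hqN) v.1 ((hK v.1).1 v.2).2.1 ((hK v.1).1 v.2).2.2
  have hSne : S ≠ ⊥ := by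
    intro h
    have h1 : f₁ ∈ S := (hS f₁).2 ⟨fun ℓ => congrArg Prod.fst (hT ℓ), congrArg Prod.fst hU⟩
    have h2 : g₁ ∈ S := (hS g₁).2 ⟨fun ℓ => congrArg Prod.snd (hT ℓ), congrArg Prod.snd hU⟩
    rw [h, Submodule.mem_bot] at h1 h2
    rw [h1, h2, show ((0, 0) : FormPair (N * q)) = 0 from rfl, map_zero] at hfg
    exact hv0 (Subtype.ext hfg.symm)
  obtain ⟨g, hgS, hg⟩ := exists_normalized_mem S hSne fun t x hx => by
    rw [hS] at hx ⊢
    have hcom : ∀ u : CuspForm.heckeAlgebra (N * q) 2 ∅,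
        (u : Module.End ℂ (CuspForm (Gamma0 (N * q)) 2)) (t.1 x) = t.1 (u.1 x) := fun u => by
      rw [← Module.End.mul_apply, ← Module.End.mul_apply, ← MulMemClass.coe_mul,
        ← MulMemClass.coe_mul, mul_comm u t]
    refine ⟨fun ℓ => ?_, ?_⟩
    · have := hcom (CuspForm.heckeAlgebra.T ℓ.2.1 ℓ.2.2 (Set.notMem_empty _))
      rw [CuspForm.heckeAlgebra.coe_T] at this
      rw [this, hx.1, map_smul]
    · have := hcom (CuspForm.heckeAlgebra.U hq (dvd_mul_left q N) (Set.notMem_empty _) *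
        CuspForm.heckeAlgebra.U hq (dvd_mul_left q N) (Set.notMem_empty _))
      simp only [MulMemClass.coe_mul, Module.End.mul_apply, CuspForm.heckeAlgebra.coe_U] at this
      rw [this, hx.2]
  obtain ⟨hgT, hgU⟩ := (hS g).1 hgS
  have hg0 := hg.ne_zero
  have hqU : ModularFormClass.qCoeff g q ^ 2 = 1 := by
    rw [FA.JTorsion.heckeU_eigen hg hq, map_smul, FA.JTorsion.heckeU_eigen hg hq, smul_smul] at hgU
    exact (sq _).trans (smul_left_injective ℂ hg0 (hgU.trans (one_smul ℂ g).symm))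
  obtain ⟨ψ, hψ⟩ := FA.JTorsion.exists_eigenChar ∅ hg
  let b : GP (N * q) → O := fun ℓ =>
    ψ (CuspForm.heckeAlgebra.T ℓ.2.1 ℓ.2.2 (Set.notMem_empty _))
  let χg : R →+* O := MvPolynomial.eval₂Hom (Int.castRingHom O) b
  have hχg : ∀ r, (χg r : ℂ) = χv r := by
    have : ((integralClosure ℤ ℂ).val.toRingHom).comp χg = χv := by
      refine MvPolynomial.ringHom_ext (fun n => by simp [χg]) fun ℓ => ?_
      have h1 := hgT ℓ
      rw [FA.JTorsion.heckeT_eigen hg ℓ.2.1 ℓ.2.2] at h1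
      have h2 : FA.Deform.qLin (N * q) g ℓ.1 = χv (MvPolynomial.X ℓ) :=
        smul_left_injective ℂ hg0 h1
      simp [χg, b, hψ, ← h2, FA.Deform.qLin_apply]
    exact fun r => RingHom.congr_fun this r
  letI : Algebra R O := χg.toAlgebra
  have : IsScalarTower ℤ R O := IsScalarTower.of_algebraMap_eq' (RingHom.ext_int _ _)
  have : Algebra.IsIntegral R O :=
    ⟨fun x => (Algebra.IsIntegral.isIntegral (R := ℤ) x).tower_top⟩
  obtain ⟨𝔪', hm', hover⟩ :=
    Ideal.exists_ideal_over_maximal_of_isIntegral (S := O) m (fun r hr => hkerv (by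
      rw [RingHom.mem_ker, ← hχg, show χg r = 0 from hr, ZeroMemClass.coe_zero]))
  have hmem : ∀ r : R, χg r ∈ 𝔪' ↔ r ∈ m := fun r => by rw [← hover]; rfl
  refine ⟨g, 𝔪', hg, hm', ?_, hqU, fun ℓ => ⟨b ℓ, hψ ℓ.1 ℓ.2.1 ℓ.2.2 _, fun z hz => ?_⟩⟩
  · have := (hmem (p : R)).2 (by simpa [m] using hpm)
    simpa using this
  · have := (hmem (MvPolynomial.X ℓ - MvPolynomial.C z)).2 (show χ' _ ∈ 𝔪 by
      rw [map_sub, show χ' (MvPolynomial.X ℓ) = a (gpDown ℓ) from MvPolynomial.eval₂Hom_X' _ _ ℓ,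
        show χ' (MvPolynomial.C z) = (z : O) from MvPolynomial.eval₂Hom_C _ _ z]
      exact hz)
    rwa [map_sub, show χg (MvPolynomial.X ℓ) = b ℓ from MvPolynomial.eval₂Hom_X' _ _ ℓ,
      show χg (MvPolynomial.C z) = (z : O) from MvPolynomial.eval₂Hom_C _ _ z] at this

end main

end FA.HeckeH1

end
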