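import Fermat.Agent.HeckeH1.Perfect

/-!
Neat levels: every finite order element is `± 1`, or only up to orders invertible in the
coefficients (`IsNeatOn`). Homomorphisms killing `-1` are then given by Manin functions, hence
lift along corestrictions and along surjections of the coefficients.
-/

set_option autoImplicit false

noncomputable section

namespace FA.HeckeH1

open ModularGroup
open scoped MatrixGroups

/-- All elements of finite order are `± 1`. -/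
def IsNeat (Γ : Subgroup SL(2, ℤ)) : Prop :=
  ∀ γ ∈ Γ, IsOfFinOrder γ → γ = 1 ∨ γ = -1

theorem IsNeat.mono {Γ Γ' : Subgroup SL(2, ℤ)} (h : IsNeat Γ) (hle : Γ' ≤ Γ) : IsNeat Γ' :=
  fun γ hγ => h γ (hle hγ)

/-- Elements of finite order are `± 1` up to orders invertible in `A`. -/
def IsNeatOn (A : Type*) [CommRing A] (Γ : Subgroup SL(2, ℤ)) : Prop :=
  ∀ γ ∈ Γ, IsOfFinOrder γ → ∃ m : ℕ, IsUnit (m : A) ∧ (γ ^ m = 1 ∨ γ ^ m = -1)

theorem IsNeatOn.mono {A : Type*} [CommRing A] {Γ Γ' : Subgroup SL(2, ℤ)} (h : IsNeatOn A Γ)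
    (hle : Γ' ≤ Γ) : IsNeatOn A Γ' := fun γ hγ => h γ (hle hγ)

theorem IsNeatOn.map {A B : Type*} [CommRing A] [CommRing B] (f : A →+* B)
    {Γ : Subgroup SL(2, ℤ)} (h : IsNeatOn A Γ) : IsNeatOn B Γ := fun γ hγ hfin => by
  obtain ⟨m, hm, hp⟩ := h γ hγ hfin
  exact ⟨m, map_natCast f m ▸ hm.map f, hp⟩

theorem IsNeat.on {Γ : Subgroup SL(2, ℤ)} (h : IsNeat Γ) (A : Type*) [CommRing A] :
    IsNeatOn A Γ := fun γ hγ hfin => ⟨1, by simp, by simpa using h γ hγ hfin⟩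

/-- In trace at least `3` in absolute value the order is infinite. -/
theorem trace_abs_le_two {g : SL(2, ℤ)} (hg : IsOfFinOrder g) :
    |(g : Matrix (Fin 2) (Fin 2) ℤ).trace| ≤ 2 := by
  by_contra hlt
  have ht : 3 ≤ |(g : Matrix (Fin 2) (Fin 2) ℤ).trace| := by omega
  set t := (g : Matrix (Fin 2) (Fin 2) ℤ).trace with htdef
  let a : ℕ → ℤ := fun n => ((g ^ n : SL(2, ℤ)) : Matrix (Fin 2) (Fin 2) ℤ).trace
  have hrec : ∀ n, a (n + 2) = t * a (n + 1) - a n := fun n => by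
    simp only [a, pow_succ, Matrix.SpecialLinearGroup.coe_mul, htdef, Matrix.trace_fin_two,
      Matrix.mul_apply, Fin.sum_univ_two]
    have hd := g.2
    rw [Matrix.det_fin_two] at hd
    linear_combination (-(((g ^ n : SL(2, ℤ)) : Matrix (Fin 2) (Fin 2) ℤ) 0 0) -
      ((g ^ n : SL(2, ℤ)) : Matrix (Fin 2) (Fin 2) ℤ) 1 1) * hd
  have hgrow : ∀ n, |a n| < |a (n + 1)| ∧ 2 ≤ |a n| := by
    intro n
    induction n with
    | zero =>
      have h0 : a 0 = 2 := by simp [a]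
      have h1 : a 1 = t := by simp [a, htdef]
      rw [h0, h1]
      exact ⟨by rw [show |(2 : ℤ)| = 2 from rfl]; omega, le_rfl⟩
    | succ n ih =>
      refine ⟨?_, le_trans ih.2 ih.1.le⟩
      rw [hrec]
      calc |a (n + 1)| < 3 * |a (n + 1)| - |a n| := by linarith [ih.1, ih.2]
        _ ≤ |t| * |a (n + 1)| - |a n| := by
          linarith [mul_le_mul_of_nonneg_right ht (abs_nonneg (a (n + 1)))]
        _ = |t * a (n + 1)| - |a n| := by rw [abs_mul]
        _ ≤ |t * a (n + 1) - a n| := abs_sub_abs_le_abs_sub _ _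
  obtain ⟨m, hm, hpow⟩ := isOfFinOrder_iff_pow_eq_one.1 hg
  have hmon : StrictMono fun n => |a n| := strictMono_nat_of_lt_succ fun n => (hgrow n).1
  have := hmon hm
  simp only [a, hpow, pow_zero] at this
  exact lt_irrefl _ this

theorem eq_one_or_neg_one_of_trace {g : SL(2, ℤ)} (hg : IsOfFinOrder g) {ε : ℤ} (hε : ε * ε = 1)
    (h : (g : Matrix (Fin 2) (Fin 2) ℤ).trace = 2 * ε) : g = 1 ∨ g = -1 := by
  set N : Matrix (Fin 2) (Fin 2) ℤ := ε • (g : Matrix (Fin 2) (Fin 2) ℤ) - 1 with hN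
  have hN2 : N * N = 0 := by
    have hd := g.2
    rw [Matrix.det_fin_two] at hd
    rw [Matrix.trace_fin_two] at h
    rw [hN]
    ext i j
    simp only [Matrix.mul_apply, Fin.sum_univ_two, Matrix.sub_apply, Matrix.smul_apply, smul_eq_mul,
      Matrix.one_apply, Matrix.zero_apply]
    fin_cases i <;> fin_cases j <;> simp
    · linear_combination (g.1 0 0 * ε * ε) * h + (-(ε * ε)) * hd + (2 * ε * g.1 0 0 - 1) * hε
    · linear_combination (g.1 0 1 * ε * ε) * h + (2 * ε * g.1 0 1) * hε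
    · linear_combination (g.1 1 0 * ε * ε) * h + (2 * ε * g.1 1 0) * hε
    · linear_combination (g.1 1 1 * ε * ε) * h + (-(ε * ε)) * hd + (2 * ε * g.1 1 1 - 1) * hε
  obtain ⟨m, hm, hpow⟩ := isOfFinOrder_iff_pow_eq_one.1 hg
  have hp : ∀ n : ℕ, (1 + N) ^ n = 1 + n • N := by
    intro n
    induction n with
    | zero => simp
    | succ n ih =>
      rw [pow_succ, ih, add_mul, one_mul, mul_add, mul_one, smul_mul_assoc, hN2, smul_zero, add_zero,
        succ_nsmul]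
      abel
  have h1 : (1 + N) ^ (2 * m) = 1 := by
    rw [hN, add_sub_cancel, smul_pow, ← Matrix.SpecialLinearGroup.coe_pow, mul_comm, pow_mul g, hpow,
      one_pow, mul_comm, pow_mul, sq, hε, one_pow, one_smul, Matrix.SpecialLinearGroup.coe_one]
  rw [hp, add_eq_left] at h1
  replace h1 : N = 0 := by
    ext i j
    have h2 := congrFun (congrFun h1 i) j
    simp only [Matrix.smul_apply, Matrix.zero_apply, nsmul_eq_mul] at h2
    exact (mul_eq_zero.1 h2).resolve_left (by exact_mod_cast (by omega : 2 * m ≠ 0))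
  rw [hN, sub_eq_zero] at h1
  rcases Int.eq_one_or_neg_one_of_mul_eq_one hε with rfl | rfl
  · exact Or.inl (Subtype.ext (by simpa using h1))
  · refine Or.inr (Subtype.ext ?_)
    rw [Matrix.SpecialLinearGroup.coe_neg, Matrix.SpecialLinearGroup.coe_one, ← h1, neg_smul,
      one_smul, neg_neg]

/-- Criterion: no element of trace `0`, `± 1`. -/
theorem isNeat_of_trace {Γ : Subgroup SL(2, ℤ)}
    (h : ∀ γ ∈ Γ, ∀ t : ℤ, (t = -1 ∨ t = 0 ∨ t = 1) →
      (γ : Matrix (Fin 2) (Fin 2) ℤ).trace ≠ t) : IsNeat Γ := fun γ hγ hfin => by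
  have hb := abs_le.1 (trace_abs_le_two hfin)
  have h0 := h γ hγ _ (Or.inl rfl)
  have h1 := h γ hγ _ (Or.inr (Or.inl rfl))
  have h2 := h γ hγ _ (Or.inr (Or.inr rfl))
  rcases (show (γ : Matrix (Fin 2) (Fin 2) ℤ).trace = 2 * (-1) ∨
    (γ : Matrix (Fin 2) (Fin 2) ℤ).trace = 2 * 1 by omega) with e | e
  · exact eq_one_or_neg_one_of_trace hfin (by norm_num) e
  · exact eq_one_or_neg_one_of_trace hfin (by norm_num) e

/-- Criterion: trace `0` absent or `2` invertible, traces `± 1` absent or `3` invertible. -/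
theorem isNeatOn_of_trace {A : Type*} [CommRing A] {Γ : Subgroup SL(2, ℤ)}
    (h₀ : IsUnit (2 : A) ∨ ∀ γ ∈ Γ, (γ : Matrix (Fin 2) (Fin 2) ℤ).trace ≠ 0)
    (h₁ : IsUnit (3 : A) ∨ ∀ γ ∈ Γ,
      |(γ : Matrix (Fin 2) (Fin 2) ℤ).trace| ≠ 1) : IsNeatOn A Γ := fun γ hγ hfin => by
  obtain ⟨t, ht⟩ : ∃ t, (γ : Matrix (Fin 2) (Fin 2) ℤ).trace = t := ⟨_, rfl⟩
  have hsq : ((γ * γ : SL(2, ℤ)) : Matrix (Fin 2) (Fin 2) ℤ) = t • γ.1 - 1 := by
    have hd := γ.2
    rw [Matrix.det_fin_two] at hd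
    rw [Matrix.trace_fin_two] at ht
    subst ht
    ext i j
    simp only [Matrix.SpecialLinearGroup.coe_mul, Matrix.mul_apply, Fin.sum_univ_two,
      Matrix.sub_apply, Matrix.smul_apply, smul_eq_mul, Matrix.one_apply]
    fin_cases i <;> fin_cases j <;> simp <;> linarith
  have hb := abs_le.1 (trace_abs_le_two hfin)
  rw [ht] at hb
  rcases (show t = -2 ∨ t = -1 ∨ t = 0 ∨ t = 1 ∨ t = 2 by omega) with e | e | e | e | e
  · have h' := eq_one_or_neg_one_of_trace hfin (ε := -1) (by norm_num) (by rw [ht, e]; norm_num)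
    exact ⟨1, by simp, by simpa using h'⟩
  · refine ⟨3, by simpa using h₁.resolve_right fun h => h γ hγ (by rw [ht, e]; rfl),
      Or.inl (Subtype.ext ?_)⟩
    rw [pow_succ, pow_two, Matrix.SpecialLinearGroup.coe_mul, hsq, e, sub_mul, smul_mul_assoc,
      ← Matrix.SpecialLinearGroup.coe_mul, hsq, e]
    simp
  · exact ⟨2, by simpa using h₀.resolve_right fun h => h γ hγ (by rw [ht, e]),
      Or.inr (Subtype.ext (by rw [pow_two, hsq, e]; simp))⟩
  · refine ⟨3, by simpa using h₁.resolve_right fun h => h γ hγ (by rw [ht, e]; rfl),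
      Or.inr (Subtype.ext ?_)⟩
    rw [pow_succ, pow_two, Matrix.SpecialLinearGroup.coe_mul, hsq, e, sub_mul, smul_mul_assoc,
      ← Matrix.SpecialLinearGroup.coe_mul, hsq, e]
    simp
  · have h' := eq_one_or_neg_one_of_trace hfin (ε := 1) (by norm_num) (by rw [ht, e]; norm_num)
    exact ⟨1, by simp, by simpa using h'⟩

/-- The trace of an element of a subgroup of `Γ₀(r)`. -/
theorem trace_mod_of_lower {r : ℕ} {γ : SL(2, ℤ)} (h : (r : ℤ) ∣ γ.1 1 0) :
    ((γ : Matrix (Fin 2) (Fin 2) ℤ).trace : ZMod r) * (γ.1 0 0 : ZMod r) =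
      (γ.1 0 0 : ZMod r) ^ 2 + 1 := by
  have hd := congrArg (fun x : ℤ => (x : ZMod r)) γ.2
  simp only [Matrix.det_fin_two, Int.cast_sub, Int.cast_mul, Int.cast_one,
    (ZMod.intCast_zmod_eq_zero_iff_dvd _ _).2 h, mul_zero, sub_zero] at hd
  rw [Matrix.trace_fin_two, Int.cast_add]
  linear_combination hd

/-- No trace `0` below a prime `≡ 3` modulo `4`. -/
theorem trace_ne_zero_of_prime {r : ℕ} [Fact r.Prime] (hr : r % 4 = 3) {γ : SL(2, ℤ)}
    (h : (r : ℤ) ∣ γ.1 1 0) : (γ : Matrix (Fin 2) (Fin 2) ℤ).trace ≠ 0 := fun e => by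
  have h1 := trace_mod_of_lower h
  rw [e, Int.cast_zero, zero_mul] at h1
  exact ZMod.exists_sq_eq_neg_one_iff.1 ⟨(γ.1 0 0 : ZMod r), by linear_combination h1⟩ hr

/-- No trace `± 1` below a prime `≡ 2` modulo `3`. -/
theorem trace_abs_ne_one_of_prime {r : ℕ} [Fact r.Prime] (hr : r % 3 = 2) {γ : SL(2, ℤ)}
    (h : (r : ℤ) ∣ γ.1 1 0) : |(γ : Matrix (Fin 2) (Fin 2) ℤ).trace| ≠ 1 := fun e => by
  have h1 := trace_mod_of_lower h
  set a : ZMod r := (γ.1 0 0 : ZMod r)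
  obtain ⟨s, hs, hs3⟩ : ∃ s : ZMod r, s ^ 2 + s + 1 = 0 ∧ s ^ 3 = 1 := by
    rcases (abs_eq zero_le_one).1 e with e | e <;> rw [e] at h1
    · exact ⟨-a, by push_cast at h1; linear_combination -h1,
        by push_cast at h1; linear_combination (a + 1) * h1⟩
    · exact ⟨a, by push_cast at h1; linear_combination -h1,
        by push_cast at h1; linear_combination (1 - a) * h1⟩
  have hs0 : s ≠ 0 := by rintro rfl; simp at hs3
  have h3 : ((3 : ℕ) : ZMod r) ≠ 0 := fun h0 => by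
    rw [ZMod.natCast_eq_zero_iff, Nat.prime_dvd_prime_iff_eq Fact.out Nat.prime_three] at h0
    omega
  have hord : orderOf s = 3 := by
    refine orderOf_eq_prime hs3 fun h1' => h3 ?_
    rw [h1'] at hs
    push_cast
    linear_combination hs
  have hdvd := orderOf_dvd_card (x := Units.mk0 s hs0)
  rw [ZMod.card_units, ← orderOf_units, Units.val_mk0, hord] at hdvd
  have := (Fact.out : r.Prime).two_le
  omega

section El

variable {Γ : Subgroup SL(2, ℤ)} {A : Type*} [CommRing A]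

variable (Γ A) in
/-- Homomorphisms killing the elements of finite order. -/
def El : Submodule A (Hom1 Γ A) where
  carrier := {z | Ell z}
  add_mem' {a b} ha hb γ hγ := by
    show hv a γ + hv b γ = 0
    rw [ha γ hγ, hb γ hγ, add_zero]
  zero_mem' _ _ := rfl
  smul_mem' c a ha γ hγ := by
    show c * hv a γ = 0
    rw [ha γ hγ, mul_zero]

theorem mem_El {z : Hom1 Γ A} : z ∈ El Γ A ↔ Ell z := Iff.rfl

theorem mem_El_iff_neat (hn : IsNeatOn A Γ) (hΓ : -1 ∈ Γ) {z : Hom1 Γ A} :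
    z ∈ El Γ A ↔ hv z ⟨-1, hΓ⟩ = 0 := by
  refine ⟨fun hz => hz _ ?_, fun hz γ hγ => ?_⟩
  · exact isOfFinOrder_iff_pow_eq_one.2 ⟨2, two_pos, by simp [sq]⟩
  · obtain ⟨m, hm, e⟩ := hn γ γ.2 hγ
    have hpow : hv z (γ ^ m) = m • hv z γ := map_nsmul z m (Additive.ofMul γ)
    rw [← hm.mul_right_eq_zero, ← nsmul_eq_mul, ← hpow]
    rcases e with e | e
    · rw [show γ ^ m = 1 from Subtype.ext e, hv_one]
    · rw [show γ ^ m = ⟨-1, hΓ⟩ from Subtype.ext e, hz]

/-- The Manin function of a homomorphism killing the elements of finite order. -/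
theorem exists_fun_of_mem_El {z : Hom1 Γ A} (hz : z ∈ El Γ A) :
    ∃ F : SL(2, ℤ) → A, LInv Γ F ∧ (∀ g, F (-g) = F g) ∧ IsFun z F := by
  refine ⟨pairFun z, fun γ hγ g => ?_, fun g => ?_, pot S z, pot Ug z,
    fun γ g => pot_left S_finOrder hz γ g,
    fun g => pot_right S_finOrder hz g (Subgroup.mem_zpowers S),
    fun γ g => pot_left Ug_finOrder hz γ g,
    fun g => pot_right Ug_finOrder hz g (Subgroup.mem_zpowers Ug), fun g => rfl⟩
  · simp only [pairFun, pot_left S_finOrder hz ⟨γ, hγ⟩ g, pot_left Ug_finOrder hz ⟨γ, hγ⟩ g]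
    abel
  · simp only [pairFun, show -g = g * (-1) by simp,
      pot_right S_finOrder hz g neg_one_mem_zpowers_S,
      pot_right Ug_finOrder hz g neg_one_mem_zpowers_Ug]

theorem IsFun.hv_neg_one {z : Hom1 Γ A} {F : SL(2, ℤ) → A} (h : IsFun z F) (hΓ : -1 ∈ Γ) :
    hv z ⟨-1, hΓ⟩ = 0 := by
  obtain ⟨P, Q, hP, hPS, -, -, -⟩ := h
  have h1 := hP ⟨-1, hΓ⟩ 1
  rw [mul_one] at h1
  have h2 : P (-1) = P 1 := by rw [← S_sq, hPS, ← one_mul S, hPS]
  rw [h2] at h1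
  exact right_eq_add.1 h1.symm.symm

theorem IsFun.mem_El {z : Hom1 Γ A} {F : SL(2, ℤ) → A} (h : IsFun z F) (hn : IsNeatOn A Γ)
    (hΓ : -1 ∈ Γ) : z ∈ El Γ A := (mem_El_iff_neat hn hΓ).2 (h.hv_neg_one hΓ)

/-- Correspondences preserve vanishing at `-1`. -/
theorem act_hv_neg_one {Γ' : Subgroup SL(2, ℤ)} (C : Corr Γ Γ') (hΓ : -1 ∈ Γ) (hΓ' : -1 ∈ Γ')
    {z : Hom1 Γ A} (hz : hv z ⟨-1, hΓ⟩ = 0) : hv (C.act z) ⟨-1, hΓ'⟩ = 0 := by
  rw [C.act_eq z ⟨-1, hΓ'⟩ 1 (fun _ => ⟨-1, hΓ⟩) fun i => ?_]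
  · simp [hz]
  · simp only [Equiv.Perm.one_apply]
    have e : glQ (-1) = Matrix.GeneralLinearGroup.scalar (Fin 2) (-1 : ℚˣ) := by
      ext a b
      fin_cases a <;> fin_cases b <;> simp
    rw [e]
    ext a b
    simp [Matrix.mul_diagonal, Matrix.diagonal_mul, mul_comm]

theorem El_act {Γ' : Subgroup SL(2, ℤ)} (C : Corr Γ Γ') (hn' : IsNeatOn A Γ') (hΓ : -1 ∈ Γ)
    (hΓ' : -1 ∈ Γ') {z : Hom1 Γ A} (hz : z ∈ El Γ A) : C.act z ∈ El Γ' A :=
  (mem_El_iff_neat hn' hΓ').2 (act_hv_neg_one C hΓ hΓ' (hz _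
    (isOfFinOrder_iff_pow_eq_one.2 ⟨2, two_pos, by simp [sq]⟩)))

/-- Surjections of the coefficients give surjections on homomorphisms killing finite orders. -/
theorem El_lift {B : Type*} [CommRing B] (f : A →+* B) (hf : Function.Surjective f)
    (hn : IsNeatOn A Γ) (hΓ : -1 ∈ Γ) {w : Hom1 Γ B} (hw : w ∈ El Γ B) :
    ∃ z ∈ El Γ A, f.toAddMonoidHom.comp z = w := by
  classical
  obtain ⟨G, hG, hGn, hGw⟩ := exists_fun_of_mem_El hw
  let F : SL(2, ℤ) → A := fun g => Function.surjInv hf (G g)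
  obtain ⟨z, hz⟩ := exists_isFun (Γ := Γ) (F := F)
    (fun γ hγ g => congrArg (Function.surjInv hf) (hG γ hγ g))
    (fun g => congrArg (Function.surjInv hf) (hGn g))
  refine ⟨z, hz.mem_El hn hΓ, IsFun.unique ?_ hGw⟩
  obtain ⟨P, Q, hP, hPS, hQ, hQU, hF⟩ := hz
  refine ⟨fun g => f (P g), fun g => f (Q g), fun γ g => ?_, fun g => by simp only [hPS],
    fun γ g => ?_, fun g => by simp only [hQU], fun g => ?_⟩
  · show f (P (γ * g)) = f (hv z γ) + f (P g)
    rw [hP, map_add]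
  · show f (Q (γ * g)) = f (hv z γ) + f (Q g)
    rw [hQ, map_add]
  · rw [← map_sub, ← hF, Function.surjInv_eq hf]

/-- Corestriction is surjective. -/
theorem cores_surjective {Γ' : Subgroup SL(2, ℤ)} (hle : Γ' ≤ Γ) [Finite (Γ ⧸ Γ'.subgroupOf Γ)]
    (hn : IsNeatOn A Γ) (hΓ' : -1 ∈ Γ') {w : Hom1 Γ A} (hw : w ∈ El Γ A) :
    ∃ z ∈ El Γ' A, (Corr.cores (Γ := Γ) (Γ' := Γ')).act z = w := by
  classical
  let : Fintype (Γ ⧸ Γ'.subgroupOf Γ) := Fintype.ofFinite _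
  obtain ⟨G, hG, hGn, hGw⟩ := exists_fun_of_mem_El hw
  let r : Setoid SL(2, ℤ) := QuotientGroup.rightRel Γ
  -- the chosen sheet
  let On : SL(2, ℤ) → Prop := fun g => g * (Quotient.mk r g).out⁻¹ ∈ Γ'
  have hmk : ∀ γ ∈ Γ, ∀ g, Quotient.mk r (γ * g) = Quotient.mk r g := fun γ hγ g =>
    Quotient.sound (QuotientGroup.rightRel_apply.2 (by simpa using hγ))
  have hOn : ∀ γ ∈ Γ', ∀ g, (On (γ * g) ↔ On g) := fun γ hγ g => by
    simp only [On, hmk γ (hle hγ) g, mul_assoc]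
    exact Subgroup.mul_mem_cancel_left Γ' hγ
  let F : SL(2, ℤ) → A := fun g => if On g then G g else 0
  have hF : LInv Γ' F := fun γ hγ g => by simp only [F, hOn γ hγ g, hG γ (hle hγ) g]
  have hFn : ∀ g, F (-g) = F g := fun g => by
    rw [show -g = (-1 : SL(2, ℤ)) * g by simp, hF _ hΓ' g]
  have hsum : ∀ g, ∑ y : Γ ⧸ Γ'.subgroupOf Γ, F (((y.out : Γ) : SL(2, ℤ))⁻¹ * g) = G g := by
    intro g
    have hδ : g * (Quotient.mk r g).out⁻¹ ∈ Γ := by
      exact QuotientGroup.rightRel_apply.1 (Quotient.exact (Quotient.out_eq (Quotient.mk r g)))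
    set δ : Γ := ⟨_, hδ⟩
    have hOny : ∀ y : Γ ⧸ Γ'.subgroupOf Γ,
        On (((y.out : Γ) : SL(2, ℤ))⁻¹ * g) ↔ y = QuotientGroup.mk δ := fun y => by
      simp only [On, hmk _ (inv_mem (y.out).2) g, mul_assoc]
      conv_rhs => rw [← QuotientGroup.out_eq' y, QuotientGroup.eq, Subgroup.mem_subgroupOf]
      rfl
    rw [Finset.sum_eq_single (QuotientGroup.mk δ)]
    · simp only [F, (hOny _).2 rfl, if_true]
      exact hG _ (inv_mem (SetLike.coe_mem _)) g
    · exact fun y _ hy => if_neg fun h => hy ((hOny y).1 h)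
    · exact fun h => absurd (Finset.mem_univ _) h
  obtain ⟨z, hz⟩ := exists_isFun hF hFn
  refine ⟨z, hz.mem_El (hn.mono hle) hΓ', IsFun.unique ?_ hGw⟩
  obtain ⟨P, Q, hP, hPS, hQ, hQU, hPQ⟩ := hz
  let C : Corr Γ' Γ := Corr.cores (Γ := Γ) (Γ' := Γ')
  have key : ∀ (R : SL(2, ℤ) → A), (∀ (γ : Γ') g, R (γ * g) = hv z γ + R g) → ∀ (γ : Γ) g,
      ∑ y : Γ ⧸ Γ'.subgroupOf Γ, R (((y.out : Γ) : SL(2, ℤ))⁻¹ * (γ * g)) = hv (C.act z) γ +
        ∑ y : Γ ⧸ Γ'.subgroupOf Γ, R (((y.out : Γ) : SL(2, ℤ))⁻¹ * g) := by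
    intro R hR γ g
    have hy : ∀ y : C.ι, R (((y.out : Γ) : SL(2, ℤ))⁻¹ * (γ * g)) = hv z (C.fac γ y) +
        R ((((C.perm γ y).out : Γ) : SL(2, ℤ))⁻¹ * g) := fun y => by
      rw [← hR, ← mul_assoc, ← mul_assoc]
      congr 2
      apply glQ_injective
      rw [map_mul, map_mul]
      exact C.fac_spec γ y
    rw [C.act_apply]
    refine (Finset.sum_congr rfl fun y _ => hy y).trans ?_
    rw [Finset.sum_add_distrib]
    have e := Equiv.sum_comp (C.perm γ)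
      (fun y : C.ι => R (((y.out : Γ) : SL(2, ℤ))⁻¹ * g))
    convert congrArg (∑ y : C.ι, hv z (C.fac γ y) + ·) e using 0
    exact Iff.rfl
  refine ⟨fun g => ∑ y : Γ ⧸ Γ'.subgroupOf Γ, P (((y.out : Γ) : SL(2, ℤ))⁻¹ * g),
    fun g => ∑ y : Γ ⧸ Γ'.subgroupOf Γ, Q (((y.out : Γ) : SL(2, ℤ))⁻¹ * g),
    key P hP, fun g => ?_, key Q hQ, fun g => ?_, fun g => ?_⟩
  · simp only [← mul_assoc, hPS]
  · simp only [← mul_assoc, hQU]
  · simp only [← Finset.sum_sub_distrib, ← hPQ]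
    exact (hsum g).symm

end El

/-- Homomorphisms form a finite module over any noetherian ring. -/
theorem hom1_finite_of_noetherian (Γ : Subgroup SL(2, ℤ)) [Γ.FiniteIndex] (A : Type*) [CommRing A]
    [IsNoetherianRing A] : Module.Finite A (Hom1 Γ A) := by
  have := group_fg'
  have hfg : Group.FG Γ := inferInstance
  obtain ⟨S, hS⟩ := hfg.out
  let L : Hom1 Γ A →ₗ[A] (S → A) :=
    { toFun := fun z s => hv z s.1
      map_add' := fun _ _ => rfl
      map_smul' := fun _ _ => rfl }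
  refine Module.Finite.of_injective L fun z w h => ?_
  apply AddMonoidHom.ext
  intro γ
  have hmem : (γ.toMul : Γ) ∈ Subgroup.closure (S : Set Γ) := by rw [hS]; trivial
  show hv z γ.toMul = hv w γ.toMul
  refine Subgroup.closure_induction (p := fun x _ => hv z x = hv w x) ?_ ?_ ?_ ?_ hmem
  · exact fun x hx => congrFun h ⟨x, hx⟩
  · rw [hv_one, hv_one]
  · intro x y _ _ hx hy
    rw [hv_mul, hv_mul, hx, hy]
  · intro x _ hx
    rw [hv_inv, hv_inv, hx]
where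
  group_fg' : Group.FG SL(2, ℤ) :=
    Group.fg_iff.2 ⟨{S, Ug}, closure_S_Ug, (Set.finite_singleton _).insert _⟩

end FA.HeckeH1

end
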