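import Fermat.Agent.HeckeH1.Degeneracy

/-!
Atkin-Lehner at a prime exactly dividing the level, naturality of Hecke correspondences.
-/

set_option autoImplicit false

noncomputable section

namespace FA.HeckeH1

open Matrix CongruenceSubgroup
open scoped MatrixGroups

variable {M q : ℕ} {H : Subgroup (ZMod M)ˣ} [Fact q.Prime]

/-- The Atkin-Lehner matrix. -/
def wMat (hqM : ¬ q ∣ M) : MatZ := rep M q ⟨none, fun _ => hqM⟩

theorem wMat_col (hqM : ¬ q ∣ M) (r : Fin 2) : (q : ℤ) ∣ wMat hqM r 0 := by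
  have h := col_of_none (ℓ := q) (M := M) (Y := (1 : MatZ)) (hi := fun _ => hqM) r
  rwa [Matrix.one_mul] at h

theorem wMat_conj (hqM : ¬ q ∣ M) : ∀ γ ∈ GamUp M q H, ∃ δ ∈ GamUp M q H,
    gl (wMat hqM) * glQ γ = glQ δ * gl (wMat hqM) := by
  intro γ hγ
  obtain ⟨hγM, hγq⟩ := (mem_GamUp hqM).1 hγ
  obtain ⟨i, h, hh, e⟩ := exists_class_low (H := H) hqM (rep_mem Fact.out H ⟨none, fun _ => hqM⟩)
    (rep_bottom _) γ hγM
  have e' : wMat hqM * γ.1 = h.1 * rep M q i :=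
    mul_glQ_eq (rep_det Fact.out _) (rep_det Fact.out i) e
  obtain ⟨_ | j, hi⟩ := i
  · exact ⟨h, hh, e⟩
  · exfalso
    obtain ⟨r, hr⟩ := exists_col_of_some (not_dvd_det_one (Fact.out : q.Prime) h.2)
    apply hr
    rw [← (mul_rep_some h.1 j hi r).1, ← e', Matrix.mul_apply, Fin.sum_univ_two]
    exact dvd_add ((wMat_col hqM r).mul_right _) (hγq.mul_left _)

/-- The Atkin-Lehner correspondence. -/
def Wc (H : Subgroup (ZMod M)ˣ) (hqM : ¬ q ∣ M) : Corr (GamUp M q H) (GamUp M q H) :=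
  Corr.single (gl (wMat hqM)) (wMat_conj hqM)

/-- `cores ∘ W = J2`. -/
theorem Wc_cores [NeZero M] (hqM : ¬ q ∣ M) :
    ((Wc H hqM).comp (Corr.cores (Γ := GamH M H) (Γ' := GamUp M q H))).Same (J2 H hqM) := by
  have : NeZero (M * q) := ⟨mul_ne_zero (NeZero.ne M) (Fact.out : q.Prime).ne_zero⟩
  refine same_double GamUp_le _ _ (J2 H hqM)
    (fun γ hγ => exists_class_low hqM (rep_mem Fact.out H _) (rep_bottom _) γ hγ) (fun i => ?_)
    (fun γ hγ h hh e => ?_) (fun i k hik => ?_)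
  · obtain ⟨γ₁, hγ₁, e₁⟩ := exists_del_mul_eq_rep (H := H) hqM i
    obtain ⟨γ₀, hγ₀, e₀⟩ := exists_del_mul_eq_rep (H := H) hqM ⟨none, fun _ => hqM⟩
    refine ⟨γ₀⁻¹ * γ₁, mul_mem (inv_mem hγ₀) hγ₁, 1, one_mem _, ?_⟩
    show gl (rep M q _) * _ = _
    rw [← e₀, map_mul, map_inv, mul_assoc, mul_inv_cancel_left, e₁, map_one, one_mul]
    rfl
  · refine (mem_GamUp hqM).2 ⟨hγ, ?_⟩
    have e' : wMat hqM * γ.1 = h.1 * wMat hqM :=
      mul_glQ_eq (rep_det Fact.out _) (rep_det Fact.out _) e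
    have h1 : (q : ℤ) ∣ (wMat hqM * γ.1) 0 0 := by
      rw [e', Matrix.mul_apply, Fin.sum_univ_two]
      exact dvd_add ((wMat_col hqM 0).mul_left _) ((wMat_col hqM 1).mul_left _)
    rw [Matrix.mul_apply, Fin.sum_univ_two] at h1
    have h2 : (q : ℤ) ∣ wMat hqM 0 1 * γ.1 1 0 :=
      (dvd_add_right ((wMat_col hqM 0).mul_right _)).1 h1
    refine ((Nat.prime_iff_prime_int.1 Fact.out).dvd_mul.1 h2).resolve_left fun hb => ?_
    have hbz := bezout_eq (Fact.out : q.Prime) hqM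
    have hb' : (q : ℤ) ∣ Nat.gcdB q M := by simpa [wMat, rep] using hb
    have h3 : (q : ℤ) ∣ 1 := hbz ▸ dvd_add (dvd_mul_right _ _) (hb'.mul_left _)
    exact (Fact.out : q.Prime).not_dvd_one (Int.natCast_dvd_natCast.1 h3)
  · obtain ⟨h, -, e⟩ := hik
    exact rep_class_inj Fact.out e

theorem cores_Wc [NeZero M] (hqM : ¬ q ∣ M) {A : Type*} [AddCommGroup A]
    (z : Hom1 (GamUp M q H) A) :
    (Corr.cores (Γ := GamH M H) (Γ' := GamUp M q H)).act ((Wc H hqM).act z) =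
      (J2 H hqM).act z := by
  rw [← Corr.comp_act]
  exact (Wc_cores hqM).act_eq z

theorem wMat_sq (hqM : ¬ q ∣ M) (hqH : ∃ u ∈ H, (u : ZMod M) = (q : ZMod M)) :
    ∃ G ∈ GamUp M q H, wMat hqM * wMat hqM = (q : ℤ) • (G : SL(2, ℤ)).1 := by
  have hq : q.Prime := Fact.out
  have hbz := bezout_eq hq hqM
  obtain ⟨u, hu, huq⟩ := hqH
  let G : SL(2, ℤ) := ⟨!![Nat.gcdA q M * Nat.gcdA q M * q - Nat.gcdB q M * M,
      -Nat.gcdB q M * (Nat.gcdA q M + 1);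
      (M : ℤ) * q * (Nat.gcdA q M + 1), -Nat.gcdB q M * M + q], by
    rw [det_fin_two_of]
    linear_combination ((q : ℤ) * Nat.gcdA q M + (M : ℤ) * Nat.gcdB q M + 1) * hbz⟩
  refine ⟨G, (mem_GamUp hqM).2 ⟨⟨G.2, by simp [G]; exact ⟨q * (Nat.gcdA q M + 1), by ring⟩,
    u⁻¹, inv_mem hu, ?_⟩, by simp [G]; exact ⟨M * (Nat.gcdA q M + 1), by ring⟩⟩, ?_⟩
  · have h1 : (q : ZMod M) * (Nat.gcdA q M : ZMod M) = 1 := by
      have := congrArg (fun x : ℤ => (x : ZMod M)) hbz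
      simpa using this
    have h2 : ((u⁻¹ : (ZMod M)ˣ) : ZMod M) = (Nat.gcdA q M : ZMod M) :=
      Units.inv_eq_of_mul_eq_one_right (by rw [huq]; exact h1)
    simp [G, h2]
    linear_combination (-(Nat.gcdA q M : ZMod M)) * h1
  · ext r s
    fin_cases r <;> fin_cases s <;>
      simp [G, wMat, rep, Matrix.mul_apply, Fin.sum_univ_two] <;> ring

theorem Wc_sq (hqM : ¬ q ∣ M) (hqH : ∃ u ∈ H, (u : ZMod M) = (q : ZMod M))
    {A : Type*} [AddCommGroup A] (z : Hom1 (GamUp M q H) A) :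
    (Wc H hqM).act ((Wc H hqM).act z) = z := by
  obtain ⟨G, hG, e⟩ := wMat_sq hqM hqH
  rw [← Corr.comp_act]
  apply AddMonoidHom.ext
  intro γ
  let Gs : GamUp M q H := ⟨G, hG⟩
  show hv (((Wc H hqM).comp (Wc H hqM)).act z) γ.toMul = hv z γ.toMul
  rw [Corr.act_eq _ z γ.toMul 1 (fun _ => Gs * γ.toMul * Gs⁻¹) (fun i => ?_)]
  · refine (Finset.sum_eq_single (PUnit.unit, PUnit.unit) (fun b _ hb => absurd rfl hb)
      (fun h => absurd (Finset.mem_univ _) h)).trans ?_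
    simp only [hv_mul, hv_inv]
    abel
  · show gl (wMat hqM) * gl (wMat hqM) * glQ γ.toMul =
      glQ ((Gs * γ.toMul * Gs⁻¹ : GamUp M q H) : SL(2, ℤ)) * (gl (wMat hqM) * gl (wMat hqM))
    have hd : (wMat hqM).det ≠ 0 := by
      rw [wMat, rep_det Fact.out]; exact gl_det_ne
    have hWW : gl (wMat hqM) * gl (wMat hqM) =
        Matrix.GeneralLinearGroup.scalar (Fin 2)
          (Units.mk0 (q : ℚ) (by exact_mod_cast (Fact.out : q.Prime).ne_zero)) * glQ G := by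
      rw [← gl_mul hd hd, e]
      apply Units.ext
      rw [coe_gl (by rw [← e, det_mul]; exact mul_ne_zero hd hd)]
      ext r s
      fin_cases r <;> fin_cases s <;>
        simp [Matrix.GeneralLinearGroup.scalar, Matrix.mul_apply, Fin.sum_univ_two,
          Matrix.natCast_apply]
    rw [hWW]
    simp only [Gs, Subgroup.coe_mul, Subgroup.coe_inv, map_mul, map_inv]
    generalize glQ ((γ.toMul : GamUp M q H) : SL(2, ℤ)) = a
    generalize glQ G = b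
    generalize Units.mk0 (q : ℚ) _ = c
    rw [scal_comm c b]
    rw [mul_assoc b _ a, scal_comm c a]
    group

/-- `res ∘ J2 = U + W`. -/
theorem J2_res [NeZero M] (hqM : ¬ q ∣ M) {A : Type*} [AddCommGroup A]
    (z : Hom1 (GamUp M q H) A) :
    (Corr.res (GamUp_le (H := H) (q := q))).act ((J2 H hqM).act z) =
      (Tc (M * q) (Hup M q H) q).act z + (Wc H hqM).act z := by
  rw [← Corr.comp_act, ← Corr.add_act]
  refine Corr.Same.act_eq ?_ z
  have hd : ¬ ¬ q ∣ M * q := not_not.2 (dvd_mul_left q M)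
  let f : RIdx M q × PUnit → RIdx (M * q) q ⊕ PUnit := fun x => match x.1 with
    | ⟨some j, _⟩ => Sum.inl ⟨some j, by simp⟩
    | ⟨none, _⟩ => Sum.inr PUnit.unit
  let g : RIdx (M * q) q ⊕ PUnit → RIdx M q × PUnit := fun x => match x with
    | Sum.inl ⟨some j, _⟩ => (⟨some j, by simp⟩, PUnit.unit)
    | Sum.inl ⟨none, h⟩ => absurd (h rfl) hd
    | Sum.inr _ => (⟨none, fun _ => hqM⟩, PUnit.unit)
  refine ⟨⟨f, g, fun x => ?_, fun x => ?_⟩, fun x => ⟨1, ?_⟩⟩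
  · obtain ⟨⟨_ | j, hi⟩, u⟩ := x <;> rfl
  · rcases x with ⟨_ | j, h⟩ | u
    · exact absurd (h rfl) hd
    · rfl
    · rfl
  · rw [Subgroup.coe_one, map_one, one_mul]
    show gl (rep M q x.1) * 1 = _
    rw [mul_one]
    obtain ⟨⟨_ | j, hi⟩, u⟩ := x <;> rfl

section natural

variable {M' : ℕ} {H' : Subgroup (ZMod M')ˣ} {ℓ : ℕ} [Fact ℓ.Prime]

/-- Naturality of Hecke correspondences for a matrix conjugating the bigger level into the
smaller one. -/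
theorem Tc_natural (B : MatZ) (hB : ¬ (ℓ : ℤ) ∣ B.det) (hiff : ℓ ∣ M ↔ ℓ ∣ M')
    (h : ∀ γ ∈ GamH M' H', ∃ δ ∈ GamH M H, gl B * glQ γ = glQ δ * gl B)
    (hrep : ∀ i : RIdx M' ℓ, ∃ Y ∈ Dl M H ℓ, B * rep M' ℓ i = Y * B) :
    ((Corr.single (gl B) h).comp (Tc M' H' ℓ)).Same ((Tc M H ℓ).comp (Corr.single (gl B) h)) := by
  have hℓ : ℓ.Prime := Fact.out
  have hB0 : B.det ≠ 0 := fun h0 => hB (by rw [h0]; exact dvd_zero _)
  choose Y hY hBY using hrep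
  choose k g hgk using fun i => exists_class hℓ (hY i)
  have hY0 : ∀ i, (Y i).det ≠ 0 := fun i => Dl.det_ne gl_det_ne (hY i)
  have hYk : ∀ i, Y i = (g i : SL(2, ℤ)).1 * rep M ℓ (k i) := fun i => by
    have := hgk i
    rw [(mul_glQ (rep_det hℓ (k i)) _).2] at this
    exact gl_inj (hY0 i)
      (by rw [det_mul, (g i : SL(2, ℤ)).2, one_mul, rep_det hℓ]; exact gl_det_ne) this
  have hk : Function.Injective k := by
    intro i i' hii
    have e : B * rep M' ℓ i =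
        ((g i * (g i')⁻¹ : GamH M H) : SL(2, ℤ)).1 * B * rep M' ℓ i' := by
      rw [Matrix.mul_assoc (_ : MatZ) B (rep M' ℓ i'), hBY i', hBY i, hYk i, hYk i', hii,
        Subgroup.coe_mul, Subgroup.coe_inv, ← Matrix.mul_assoc, ← Matrix.mul_assoc,
        ← Matrix.SpecialLinearGroup.coe_mul, inv_mul_cancel_right]
    exact rep_inj hℓ e hB
      (by rw [det_mul, ((g i * (g i')⁻¹ : GamH M H) : SL(2, ℤ)).2, one_mul]; exact hB)
  let eI : RIdx M' ℓ ≃ RIdx M ℓ :=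
    Equiv.subtypeEquivRight fun x => by rw [hiff]
  have hbij : Function.Bijective k :=
    (Fintype.bijective_iff_injective_and_card k).2 ⟨hk, Fintype.card_congr eI⟩
  refine ⟨(Equiv.prodComm _ _).trans ((Equiv.ofBijective k hbij).prodCongr (Equiv.refl _)),
    fun x => ⟨g x.2, ?_⟩⟩
  show gl B * gl (rep M' ℓ x.2) = glQ (g x.2 : SL(2, ℤ)) * (gl (rep M ℓ (k x.2)) * gl B)
  rw [← mul_assoc, ← hgk, ← gl_mul hB0 (by rw [rep_det hℓ]; exact gl_det_ne), hBY,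
    gl_mul (hY0 _) hB0]

end natural

section commute

variable {ℓ : ℕ} [Fact ℓ.Prime] {A : Type*} [AddCommGroup A]

theorem ne_of_not_dvd (hℓ : ¬ ℓ ∣ M * q) : ¬ ℓ ∣ M ∧ ℓ ≠ q :=
  ⟨fun h => hℓ (h.mul_right q), fun h => hℓ (h ▸ dvd_mul_left q M)⟩

theorem iff_of_not_dvd (hℓ : ¬ ℓ ∣ M * q) : ℓ ∣ M ↔ ℓ ∣ M * q :=
  iff_of_false (ne_of_not_dvd hℓ).1 hℓ

theorem res_Tc_same (hℓ : ¬ ℓ ∣ M * q) :
    ((Corr.res (GamUp_le (H := H) (q := q))).comp (Tc (M * q) (Hup M q H) ℓ)).Same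
      ((Tc M H ℓ).comp (Corr.res (GamUp_le (H := H) (q := q)))) := by
  have h1 : gl (1 : MatZ) = 1 := by
    apply Units.ext; rw [coe_gl (by simp)]; simp
  have key := Tc_natural (H := H) (H' := Hup M q H) (1 : MatZ)
    (not_dvd_det_one Fact.out det_one) (iff_of_not_dvd hℓ)
    (fun γ hγ => ⟨γ, GamUp_le hγ, by rw [h1, one_mul, mul_one]⟩)
    (fun i => by
      obtain ⟨hd, hc, u, hu, hua⟩ := rep_mem Fact.out (Hup M q H) i
      refine ⟨rep (M * q) ℓ i, ⟨hd, (dvd_mul_right (M : ℤ) q).trans (by exact_mod_cast hc), _, hu,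
        ?_⟩, by rw [Matrix.one_mul, Matrix.mul_one]⟩
      simp [ZMod.unitsMap, hua])
  obtain ⟨e, he⟩ := key
  refine ⟨e, fun x => ?_⟩
  obtain ⟨h, hh⟩ := he x
  refine ⟨h, ?_⟩
  have hh' : gl (1 : MatZ) * gl (rep (M * q) ℓ x.2) =
      glQ (h : SL(2, ℤ)) * (gl (rep M ℓ (e x).1) * gl (1 : MatZ)) := hh
  exact (congrArg (· * gl (rep (M * q) ℓ x.2)) h1).symm.trans
    (hh'.trans (congrArg (fun t => glQ (h : SL(2, ℤ)) * (gl (rep M ℓ (e x).1) * t)) h1))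

theorem res_Tc (hℓ : ¬ ℓ ∣ M * q) (z : Hom1 (GamH M H) A) :
    (Tc (M * q) (Hup M q H) ℓ).act ((Corr.res GamUp_le).act z) =
      (Corr.res (GamUp_le (H := H) (q := q))).act ((Tc M H ℓ).act z) := by
  rw [← Corr.comp_act, ← Corr.comp_act]
  exact (res_Tc_same hℓ).act_eq z

theorem res_Tc_symb (hℓ : ¬ ℓ ∣ M * q) (φ : Symb (GamH M H) A) :
    (Tc (M * q) (Hup M q H) ℓ).symb ((Corr.res GamUp_le).symb φ) =
      (Corr.res (GamUp_le (H := H) (q := q))).symb ((Tc M H ℓ).symb φ) := by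
  rw [← Corr.comp_symb, ← Corr.comp_symb]
  exact (res_Tc_same hℓ).symb_eq φ

theorem I2_Tc_same (hqM : ¬ q ∣ M) (hℓ : ¬ ℓ ∣ M * q) :
    ((I2 H hqM).comp (Tc (M * q) (Hup M q H) ℓ)).Same ((Tc M H ℓ).comp (I2 H hqM)) := by
  refine Tc_natural (eps q) ?_ (iff_of_not_dvd hℓ) _ fun i => ?_
  · rw [eps_det]
    exact_mod_cast fun h => (ne_of_not_dvd hℓ).2
      ((Nat.prime_dvd_prime_iff_eq Fact.out Fact.out).1 h)
  · obtain ⟨hd, hc, u, hu, hua⟩ := rep_mem Fact.out (Hup M q H) i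
    obtain ⟨c, hc⟩ := hc
    refine ⟨!![rep (M * q) ℓ i 0 0, (q : ℤ) * rep (M * q) ℓ i 0 1; (M : ℤ) * c,
      rep (M * q) ℓ i 1 1], ⟨?_, by simp, _, hu, ?_⟩, ?_⟩
    · rw [det_fin_two_of, ← hd, det_fin_two, hc]; push_cast; ring
    · simp [ZMod.unitsMap, hua]
    · ext r s
      fin_cases r <;> fin_cases s <;>
        simp [eps, Matrix.mul_apply, Fin.sum_univ_two, hc] <;> ring

theorem I2_Tc (hqM : ¬ q ∣ M) (hℓ : ¬ ℓ ∣ M * q) (z : Hom1 (GamH M H) A) :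
    (Tc (M * q) (Hup M q H) ℓ).act ((I2 H hqM).act z) = (I2 H hqM).act ((Tc M H ℓ).act z) := by
  rw [← Corr.comp_act, ← Corr.comp_act]
  exact (I2_Tc_same hqM hℓ).act_eq z

theorem I2_Tc_symb (hqM : ¬ q ∣ M) (hℓ : ¬ ℓ ∣ M * q) (φ : Symb (GamH M H) A) :
    (Tc (M * q) (Hup M q H) ℓ).symb ((I2 H hqM).symb φ) =
      (I2 H hqM).symb ((Tc M H ℓ).symb φ) := by
  rw [← Corr.comp_symb, ← Corr.comp_symb]
  exact (I2_Tc_same hqM hℓ).symb_eq φ

variable {R : Type*} [CommRing R] [IsAddTorsionFree R] [IsDomain R] [IsPrincipalIdealRing R]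
  [NeZero M]

theorem eq_of_pr (hH : (-1 : (ZMod M)ˣ) ∈ H) {x y : Hom1 (GamH M H) R}
    (h : ∀ φ, pr x φ = pr y φ) : x = y :=
  (prLin_bijective (neg_one_mem_GamH hH)).1 (LinearMap.ext h)

/-- The traces commute with `T ℓ`. -/
theorem J_Tc (hqM : ¬ q ∣ M) (hH : (-1 : (ZMod M)ˣ) ∈ H) (hℓ : ¬ ℓ ∣ M * q)
    (hℓH : ∃ u ∈ H, (u : ZMod M) = (ℓ : ZMod M)) (z : Hom1 (GamUp M q H) R) :
    (Tc M H ℓ).act ((Corr.cores (Γ := GamH M H)).act z) =
        (Corr.cores (Γ := GamH M H)).act ((Tc (M * q) (Hup M q H) ℓ).act z) ∧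
      (Tc M H ℓ).act ((J2 H hqM).act z) =
        (J2 H hqM).act ((Tc (M * q) (Hup M q H) ℓ).act z) := by
  have : NeZero (M * q) := ⟨mul_ne_zero (NeZero.ne M) (Fact.out : q.Prime).ne_zero⟩
  have hℓH' := natCast_mem_Hup (H := H) (q := q)
    ((Fact.out : ℓ.Prime).coprime_iff_not_dvd.2 hℓ) hℓH
  constructor
  · refine eq_of_pr hH fun φ => ?_
    rw [pr_Tc_self (ne_of_not_dvd hℓ).1 hH hℓH, pr_cores GamUp_le, pr_cores GamUp_le,
      ← res_Tc_symb hℓ, pr_Tc_self hℓ (neg_one_mem_Hup hH) hℓH']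
  · refine eq_of_pr hH fun φ => ?_
    rw [pr_Tc_self (ne_of_not_dvd hℓ).1 hH hℓH, pr_J2 hqM hH, pr_J2 hqM hH,
      ← I2_Tc_symb hqM hℓ, pr_Tc_self hℓ (neg_one_mem_Hup hH) hℓH']

end commute

end FA.HeckeH1

end
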