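import Fermat.Agent.HeckeH1.Ihara
import Fermat.Agent.HeckeH1.AtkinLehner

/-!
Ihara's lemma at level `Γ_H(M)`: the kernel of the sum of the two degeneracy maps on homomorphisms
of exponent `p` is killed by products `(T l' - l' - 1) (T l - l - 1)`.
-/

set_option autoImplicit false

noncomputable section

namespace FA.HeckeH1

open Matrix CongruenceSubgroup
open scoped MatrixGroups

/-- `T ℓ - ℓ - 1` on homomorphisms. -/
def Eop (M : ℕ) (H : Subgroup (ZMod M)ˣ) (ℓ : ℕ) [Fact ℓ.Prime] {A : Type*} [AddCommGroup A] :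
    Hom1 (GamH M H) A →+ Hom1 (GamH M H) A :=
  (Tc M H ℓ).act - ((ℓ + 1 : ℕ) • AddMonoidHom.id _)

theorem Eop_apply {M : ℕ} {H : Subgroup (ZMod M)ˣ} {ℓ : ℕ} [Fact ℓ.Prime] {A : Type*}
    [AddCommGroup A] (z : Hom1 (GamH M H) A) :
    Eop M H ℓ z = (Tc M H ℓ).act z - (ℓ + 1 : ℕ) • z := rfl

theorem Eop_hv {M : ℕ} {H : Subgroup (ZMod M)ˣ} {ℓ : ℕ} [Fact ℓ.Prime] {A : Type*}
    [AddCommGroup A] (z : Hom1 (GamH M H) A) (γ : GamH M H) :
    hv (Eop M H ℓ z) γ = hv ((Tc M H ℓ).act z) γ - (ℓ + 1 : ℕ) • hv z γ := rfl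

theorem not_dvd_of_mod_one {M L l : ℕ} (hl : l.Prime) (hM : M ∣ L) (h : l % L = 1) : ¬ l ∣ M := by
  intro hd
  have h1 : l ∣ L * (l / L) + l % L := (Nat.div_add_mod l L).symm ▸ dvd_rfl
  rw [h] at h1
  have h2 := (Nat.dvd_add_right ((hd.trans hM).mul_right _)).1 h1
  exact hl.not_dvd_one h2

variable {M : ℕ} {H : Subgroup (ZMod M)ˣ}

theorem card_RIdx {l : ℕ} (h : ¬ l ∣ M) : Fintype.card (RIdx M l) = l + 1 := by
  rw [Fintype.card_congr (Equiv.subtypeUnivEquiv fun x _ => h), Fintype.card_option, Fintype.card_fin]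

/-- Reduction modulo `L`. -/
abbrev redMat (L : ℕ) : MatZ →+* Matrix (Fin 2) (Fin 2) (ZMod L) :=
  (Int.castRingHom (ZMod L)).mapMatrix

theorem mem_Gamma_of_redMat {L : ℕ} {g : SL(2, ℤ)} (h : redMat L g.1 = 1) : g ∈ Gamma L := by
  rw [Gamma_mem]
  have e := fun i j => congrFun (congrFun h i) j
  exact ⟨by simpa using e 0 0, by simpa using e 0 1, by simpa using e 1 0, by simpa using e 1 1⟩

/-- A homomorphism vanishing on `Γ(L)` is killed by `T l - l - 1` for `l ≡ 1 mod L`. -/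
theorem Eop_eq_zero_of_kills {A : Type*} [AddCommGroup A] {L l : ℕ} [Fact l.Prime] (hML : M ∣ L)
    (hl : l % L = 1) (z : Hom1 (GamH M H) A)
    (hz : ∀ γ : GamH M H, (γ : SL(2, ℤ)) ∈ Gamma L → hv z γ = 0) : Eop M H l z = 0 := by
  have hlp : l.Prime := Fact.out
  have hlM := not_dvd_of_mod_one hlp hML hl
  apply AddMonoidHom.ext
  intro γ
  show hv (Eop M H l z) γ.toMul = 0
  rw [Eop_hv, sub_eq_zero, Corr.act_apply]
  generalize γ.toMul = γ
  choose p hp hpe using fun i : RIdx M l => exists_del_mul_eq_rep (H := H) hlM i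
  have hl1 : (l : ZMod L) = 1 := by
    rw [← ZMod.natCast_mod l L, hl, Nat.cast_one]
  have hdel : redMat L (del l) = 1 := by
    ext r s
    fin_cases r <;> fin_cases s <;> simp [del, hl1]
  have hmap : ∀ i, redMat L (rep M l i) = redMat L (p i).1 := fun i => by
    have e := hpe i
    rw [(mul_glQ (del_det l) _).1] at e
    rw [← gl_inj (by rw [det_mul, del_det, (p i).2, mul_one]; exact gl_det_ne)
      (by rw [rep_det hlp]; exact gl_det_ne) e, map_mul, hdel, one_mul]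
  have key : ∀ i : RIdx M l, hv z ((Tc M H l).fac γ i) + hv z ⟨p ((Tc M H l).perm γ i), hp _⟩ =
      hv z ⟨p i, hp i⟩ + hv z γ := by
    intro i
    rw [← hv_mul, ← hv_mul, ← sub_eq_zero, sub_eq_add_neg, ← hv_inv, ← hv_mul]
    refine hz _ (mem_Gamma_of_redMat ?_)
    have e : rep M l i * (γ : SL(2, ℤ)).1 =
        ((Tc M H l).fac γ i : SL(2, ℤ)).1 * rep M l ((Tc M H l).perm γ i) :=
      mul_glQ_eq (rep_det hlp _) (rep_det hlp _) ((Tc M H l).fac_spec γ i)
    have e' : redMat L ((((Tc M H l).fac γ i : SL(2, ℤ)) * p ((Tc M H l).perm γ i) : SL(2, ℤ)).1) =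
        redMat L ((p i * (γ : SL(2, ℤ)) : SL(2, ℤ)).1) := by
      have h1 := congrArg (redMat L) e
      rw [map_mul, map_mul, hmap i] at h1
      rw [Matrix.SpecialLinearGroup.coe_mul, Matrix.SpecialLinearGroup.coe_mul, map_mul, map_mul,
        h1]
      exact congrArg _ (hmap _).symm
    simp only [Subgroup.coe_mul, Subgroup.coe_inv]
    rw [Matrix.SpecialLinearGroup.coe_mul]
    refine (map_mul (redMat L) _ _).trans ?_
    rw [show redMat L ((((Tc M H l).fac γ i : SL(2, ℤ)) * p ((Tc M H l).perm γ i) : SL(2, ℤ)).1) = _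
      from e', ← map_mul, ← Matrix.SpecialLinearGroup.coe_mul, mul_inv_cancel,
      Matrix.SpecialLinearGroup.coe_one, map_one]
  have hsum := (Finset.sum_add_distrib.symm.trans (Fintype.sum_congr _ _ key)).trans
    Finset.sum_add_distrib
  have hperm : ∑ i, hv z ⟨p ((Tc M H l).perm γ i), hp _⟩ = ∑ i, hv z ⟨p i, hp i⟩ :=
    Equiv.sum_comp ((Tc M H l).perm γ) (fun i : RIdx M l => hv z ⟨p i, hp i⟩)
  rw [Finset.sum_const, Finset.card_univ, card_RIdx hlM, add_comm] at hsum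
  exact add_left_cancel ((congrArg (· + ∑ i, hv z ((Tc M H l).fac γ i)) hperm.symm).trans hsum)

variable {q : ℕ} [Fact q.Prime]

/-- **Ihara's lemma** at level `Γ_H(M)`. -/
theorem ihara_level [NeZero M] (hqM : ¬ q ∣ M) {A : Type*} [AddCommGroup A] {p : ℕ} (hp : p.Prime)
    (hA : ∀ x : A, p • x = 0) (u v : Hom1 (GamH M H) A)
    (h0 : (Corr.res (GamUp_le (H := H) (q := q))).act u + (I2 H hqM).act v = 0)
    {l l' : ℕ} [Fact l.Prime] [Fact l'.Prime] (hlq : l ≠ q) (hl : l % iharaMod q M p = 1)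
    (hl' : l' % (q * iharaMod q M p * l) = 1) :
    Eop M H l' (Eop M H l u) = 0 ∧ Eop M H l' (Eop M H l v) = 0 := by
  classical
  have hq : q.Prime := Fact.out
  have hlp : l.Prime := Fact.out
  have hlM := not_dvd_of_mod_one hlp (dvd_iharaMod q M p) hl
  set L := iharaMod q M p with hL
  have hML : M ∣ L := dvd_iharaMod q M p
  have hGle : Gamma M ≤ GamH M H := Gamma_le_GamH
  let ext_ : Hom1 (GamH M H) A → SL(2, ℤ) → A := fun z g =>
    if h : g ∈ Gamma M then hv z ⟨g, hGle h⟩ else 0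
  have hext : ∀ z g (h : g ∈ Gamma M), ext_ z g = hv z ⟨g, hGle h⟩ := fun z g h => dif_pos h
  have hadd : ∀ z, ∀ γ ∈ Gamma M, ∀ δ ∈ Gamma M, ext_ z (γ * δ) = ext_ z γ + ext_ z δ := by
    intro z γ hγ δ hδ
    rw [hext z _ (mul_mem hγ hδ), hext z _ hγ, hext z _ hδ, ← hv_mul]
    rfl
  have hcompat : ∀ (u v : Hom1 (GamH M H) A),
      (Corr.res (GamUp_le (H := H) (q := q))).act u + (I2 H hqM).act v = 0 →
      ∀ γ (hγ : γ ∈ GamH M H), ∀ δ (hδ : δ ∈ GamUp M q H), δ.1 0 0 = γ.1 0 0 →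
        (q : ℤ) * δ.1 0 1 = γ.1 0 1 → δ.1 1 0 = q * γ.1 1 0 → δ.1 1 1 = γ.1 1 1 →
        hv u ⟨δ, GamUp_le hδ⟩ + hv v ⟨γ, hγ⟩ = 0 := by
    intro u v h γ hγ δ hδ e00 e01 e10 e11
    have h1 := DFunLike.congr_fun h (Additive.ofMul (⟨δ, hδ⟩ : GamUp M q H))
    rw [AddMonoidHom.add_apply, AddMonoidHom.zero_apply] at h1
    have h2 : hv ((I2 H hqM).act v) ⟨δ, hδ⟩ = hv v ⟨γ, hγ⟩ := by
      refine Corr.single_act _ _ v ⟨δ, hδ⟩ ⟨γ, hγ⟩ ?_
      rw [(mul_glQ (eps_det q) _).1, (mul_glQ (eps_det q) _).2]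
      congr 1
      ext r s
      fin_cases r <;> fin_cases s <;>
        simp [eps, Matrix.mul_apply, Fin.sum_univ_two, e00, e10, e11, ← e01, mul_comm]
    rw [← h2, ← Corr.res_act GamUp_le u ⟨δ, hδ⟩]
    exact h1
  -- vanishing of `Eop u` on a congruence subgroup
  have hu1 : ∀ γ : GamH M H, (γ : SL(2, ℤ)) ∈ Gamma (L * l) → hv (Eop M H l u) γ = 0 := by
    intro γ hγ
    have hcop : q.Coprime M := hq.coprime_iff_not_dvd.2 hqM
    have hγe : ∀ r s, ∃ x : ℤ, (γ : SL(2, ℤ)).1 r s = (1 : MatZ) r s + ((L * l : ℕ) : ℤ) * x := by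
      obtain ⟨a, b, c, d⟩ := Gamma_mem.1 hγ
      intro r s
      have : (((γ : SL(2, ℤ)).1 r s - (1 : MatZ) r s : ℤ) : ZMod (L * l)) = 0 := by
        fin_cases r <;> fin_cases s <;> simp [a, b, c, d]
      obtain ⟨x, hx⟩ := (ZMod.intCast_zmod_eq_zero_iff_dvd _ _).1 this
      exact ⟨x, by linear_combination hx⟩
    choose X hX using hγe
    have hγX : (γ : SL(2, ℤ)).1 = 1 + ((L * l : ℕ) : ℤ) • (Matrix.of X) := by
      ext r s
      rw [hX]
      simp [Matrix.add_apply, Matrix.smul_apply, Matrix.one_apply]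
    have hrl : ∀ i : RIdx M l, ∃ h : SL(2, ℤ), h ∈ Gamma M ∧
        rep M l i * (γ : SL(2, ℤ)).1 = h.1 * rep M l i := by
      intro i
      let Y : MatZ := 1 + (L : ℤ) • (rep M l i * Matrix.of X * (rep M l i).adjugate)
      have e : Y * rep M l i = rep M l i * (γ : SL(2, ℤ)).1 := by
        simp only [Y]
        rw [hγX, Matrix.add_mul, Matrix.one_mul, Matrix.mul_add, Matrix.mul_one, Matrix.smul_mul,
          Matrix.mul_assoc _ (rep M l i).adjugate, adjugate_mul, rep_det hlp, Matrix.mul_smul,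
          Matrix.mul_one, Matrix.mul_smul, smul_smul]
        push_cast
        rfl
      have hdet : Y.det = 1 := by
        have := congrArg Matrix.det e
        rw [det_mul, det_mul, (γ : SL(2, ℤ)).2, mul_one, rep_det hlp] at this
        exact mul_right_cancel₀ (gl_det_ne (ℓ := l)) (this.trans (one_mul _).symm)
      refine ⟨⟨Y, hdet⟩, mem_Gamma_of_redMat ?_, e.symm⟩
      have hL0 : ((L : ℤ) : ZMod M) = 0 := by
        rw [Int.cast_natCast, ZMod.natCast_eq_zero_iff]; exact hML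
      show redMat M Y = 1
      simp only [Y]
      rw [map_add, map_one, map_zsmul, ← Int.cast_smul_eq_zsmul (ZMod M), hL0, zero_smul, add_zero]
    choose h hh hhe using hrl
    rw [Eop_hv, Corr.act_eq _ u γ 1 (fun i => ⟨h i, hGle (hh i)⟩) (fun i => ?_),
      sub_eq_zero]
    · have hγM : (γ : SL(2, ℤ)) ∈ Gamma M := gamma_le_gamma (dvd_mul_of_dvd_left hML l) hγ
      have : ∀ i, hv u ⟨h i, hGle (hh i)⟩ = hv u γ := by
        intro i
        rw [← hext u (h i) (hh i)]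
        refine (ihara (C := A) (N := M) hq hcop (NeZero.pos M) hp hA (ext_ u) (ext_ (-v))
          (hadd u) (hadd (-v)) (fun γ hγ δ hδ e00 e01 e10 e11 => ?_) hlp hlq hl hγ (hh i)
          (rep M l i) (rep_det hlp i) (hhe i)).trans (by rw [hext u _ hγM])
        have hδU : δ ∈ GamUp M q H := (mem_GamUp hqM).2 ⟨hGle hδ, ⟨_, e10⟩⟩
        rw [hext u δ hδ, hext (-v) γ hγ]
        have := hcompat u v h0 γ (hGle hγ) δ hδU e00 e01 e10 e11
        exact eq_neg_of_add_eq_zero_left this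
      refine (Fintype.sum_congr _ _ this).trans ?_
      rw [Finset.sum_const, Finset.card_univ]
      exact congrArg (· • hv u γ) (card_RIdx hlM)
    · show gl (rep M l i) * _ = glQ (h i) * gl (rep M l i)
      rw [(mul_glQ (rep_det hlp i) _).1, (mul_glQ (rep_det hlp i) _).2, hhe i]
  have h1 : (Corr.res (GamUp_le (H := H) (q := q))).act (Eop M H l u) +
      (I2 H hqM).act (Eop M H l v) = 0 := by
    have hlMq : ¬ l ∣ M * q := fun h => (hlp.dvd_mul.1 h).elim hlM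
      fun h' => hlq ((Nat.prime_dvd_prime_iff_eq hlp hq).1 h')
    rw [Eop_apply, Eop_apply, map_sub, map_sub, map_nsmul, map_nsmul, ← res_Tc hlMq,
      ← I2_Tc hqM hlMq, sub_add_sub_comm, ← map_add, ← nsmul_add, h0, map_zero, nsmul_zero,
      sub_zero]
  have hv1 : ∀ γ : GamH M H, (γ : SL(2, ℤ)) ∈ Gamma (q * L * l) → hv (Eop M H l v) γ = 0 := by
    intro γ hγ
    obtain ⟨a, b, c, d⟩ := Gamma_mem.1 hγ
    obtain ⟨k, hk⟩ := (ZMod.intCast_zmod_eq_zero_iff_dvd _ _).1 b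
    let δ : SL(2, ℤ) := ⟨!![(γ : SL(2, ℤ)).1 0 0, ((L * l : ℕ) : ℤ) * k;
      (q : ℤ) * (γ : SL(2, ℤ)).1 1 0, (γ : SL(2, ℤ)).1 1 1], by
        have h2 := (γ : SL(2, ℤ)).2
        rw [det_fin_two, hk] at h2
        rw [det_fin_two_of]
        push_cast at h2 ⊢
        linear_combination h2⟩
    have hδL : δ ∈ Gamma (L * l) := by
      have hd : L * l ∣ q * L * l := ⟨q, by ring⟩
      obtain ⟨a', -, c', d'⟩ := Gamma_mem.1 (gamma_le_gamma hd hγ)
      refine Gamma_mem.2 ⟨by simp [δ, a'], ?_, by simp [δ, c'], by simp [δ, d']⟩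
      simp only [δ, Matrix.of_apply, Matrix.cons_val_zero, Matrix.cons_val_one,
        Matrix.cons_val_fin_one]
      rw [Int.cast_mul, Int.cast_natCast, ZMod.natCast_self, zero_mul]
    have hδU : δ ∈ GamUp M q H := (mem_GamUp hqM).2
      ⟨hGle (gamma_le_gamma (dvd_mul_of_dvd_left hML l) hδL), by simp [δ]⟩
    have h2 := hcompat _ _ h1 γ γ.2 δ hδU (by simp [δ])
      (by simp [δ]; rw [hk]; push_cast; ring) (by simp [δ]) (by simp [δ])
    rwa [hu1 ⟨δ, GamUp_le hδU⟩ hδL, zero_add] at h2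
  have hML' : M ∣ q * L * l := dvd_mul_of_dvd_left (dvd_mul_of_dvd_right hML q) l
  exact ⟨Eop_eq_zero_of_kills hML' hl' _ fun γ hγ =>
      hu1 γ (gamma_le_gamma ⟨q, by ring⟩ hγ), Eop_eq_zero_of_kills hML' hl' _ hv1⟩

end FA.HeckeH1

end
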