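import Fermat.Agent.HeckeH1.Par
import Fermat.Agent.HeckeH1.IharaLevel

/-!
Polynomials in commuting operators; the Hecke action on parabolic homomorphisms.
-/

set_option autoImplicit false

noncomputable section

namespace FA.HeckeH1

section evalComm

variable {ι E : Type*} [Ring E] (f : ι → E) (hf : ∀ i j, Commute (f i) (f j))

/-- Evaluation of polynomials at commuting elements of a ring. -/
def evalComm : MvPolynomial ι ℤ →+* E :=
  letI : CommRing (Algebra.adjoin ℤ (Set.range f)) :=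
    Algebra.adjoinCommRingOfComm ℤ (by rintro _ ⟨i, rfl⟩ _ ⟨j, rfl⟩; exact hf i j)
  (Algebra.adjoin ℤ (Set.range f)).val.toRingHom.comp
    (MvPolynomial.eval₂Hom (Int.castRingHom _) fun i => ⟨f i, Algebra.subset_adjoin ⟨i, rfl⟩⟩)

theorem evalComm_X (i : ι) : evalComm f hf (MvPolynomial.X i) = f i := by
  simp [evalComm]

theorem evalComm_C (n : ℤ) : evalComm f hf (MvPolynomial.C n) = (n : E) := by
  simp [evalComm]

end evalComm

/-- Additive maps intertwining the generators intertwine all polynomials. -/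
theorem evalComm_intertwine {ι : Type*} {S S' : Type*} [Semiring S] [Semiring S'] {V V' : Type*}
    [AddCommGroup V] [Module S V] [AddCommGroup V'] [Module S' V']
    (f : ι → Module.End S V) (hf : ∀ i j, Commute (f i) (f j))
    (g : ι → Module.End S' V') (hg : ∀ i j, Commute (g i) (g j))
    (φ : V →+ V') (h : ∀ i v, φ (f i v) = g i (φ v)) (r : MvPolynomial ι ℤ) (v : V) :
    φ (evalComm f hf r v) = evalComm g hg r (φ v) := by
  induction r using MvPolynomial.induction_on generalizing v with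
  | C n =>
    rw [evalComm_C, evalComm_C, Module.End.intCast_apply, Module.End.intCast_apply, map_zsmul]
  | add p q hp hq => simp [hp, hq]
  | mul_X p i hp =>
    rw [map_mul, map_mul, evalComm_X, evalComm_X, Module.End.mul_apply, Module.End.mul_apply, hp, h]

open CongruenceSubgroup
open scoped MatrixGroups

/-- Good primes of a level. -/
abbrev GP (N : ℕ) : Type := {ℓ : ℕ // ℓ.Prime ∧ ¬ ℓ ∣ N}

instance GP.fact {N : ℕ} (ℓ : GP N) : Fact ℓ.1.Prime := ⟨ℓ.2.1⟩

variable {A : Type*} [CommRing A]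

/-- A correspondence as a linear map. -/
def Corr.actLin {Γ Γ' : Subgroup SL(2, ℤ)} (C : Corr Γ Γ') : Hom1 Γ A →ₗ[A] Hom1 Γ' A where
  toFun := C.act
  map_add' := map_add _
  map_smul' := C.act_smul

theorem Corr.actLin_apply {Γ Γ' : Subgroup SL(2, ℤ)} (C : Corr Γ Γ') (z : Hom1 Γ A) :
    C.actLin z = C.act z := rfl

/-- A correspondence on parabolic homomorphisms. -/
def Corr.parLin {Γ Γ' : Subgroup SL(2, ℤ)} (C : Corr Γ Γ') : Par Γ A →ₗ[A] Par Γ' A :=
  (C.actLin.comp (Par Γ A).subtype).codRestrict (Par Γ' A) fun z => Par_act C z.2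

theorem Corr.coe_parLin {Γ Γ' : Subgroup SL(2, ℤ)} (C : Corr Γ Γ') (z : Par Γ A) :
    (C.parLin z : Hom1 Γ' A) = C.act z.1 := rfl

variable (A) in
/-- The operator `T ℓ` on parabolic homomorphisms. -/
def TPar (M : ℕ) (H : Subgroup (ZMod M)ˣ) (ℓ : ℕ) [Fact ℓ.Prime] :
    Module.End A (Par (GamH M H) A) := (Tc M H ℓ).parLin

theorem TPar_commute (M : ℕ) (H : Subgroup (ZMod M)ˣ) (ℓ r : ℕ) [Fact ℓ.Prime] [Fact r.Prime] :
    Commute (TPar A M H ℓ) (TPar A M H r) := by
  rcases eq_or_ne ℓ r with rfl | hne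
  · exact Commute.refl _
  · exact LinearMap.ext fun z => Subtype.ext (Tc_comm M H hne z.1)

/-- The action of polynomials in the `T ℓ`, `ℓ ∤ N`. -/
def hact (A : Type*) [CommRing A] (M : ℕ) (H : Subgroup (ZMod M)ˣ) (N : ℕ) :
    MvPolynomial (GP N) ℤ →+* Module.End A (Par (GamH M H) A) :=
  evalComm (fun ℓ => TPar A M H ℓ.1) (fun _ _ => TPar_commute M H _ _)

theorem hact_X (M : ℕ) (H : Subgroup (ZMod M)ˣ) {N : ℕ} (ℓ : GP N) :
    hact A M H N (MvPolynomial.X ℓ) = TPar A M H ℓ.1 := evalComm_X _ _ _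

/-- Change of coefficients commutes with the action. -/
theorem hact_comp {B : Type*} [CommRing B] (g : A →+ B) (M : ℕ) (H : Subgroup (ZMod M)ˣ) (N : ℕ)
    (r : MvPolynomial (GP N) ℤ) (z : Par (GamH M H) A) :
    g.comp (hact A M H N r z).1 =
      (hact B M H N r ⟨g.comp z.1, Par_comp g z.2⟩).1 := by
  let φ : Par (GamH M H) A →+ Par (GamH M H) B :=
    AddMonoidHom.mk' (fun z => ⟨g.comp z.1, Par_comp g z.2⟩) (fun x y => Subtype.ext (by
      apply AddMonoidHom.ext
      intro γ
      exact map_add g _ _))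
  exact congrArg Subtype.val (evalComm_intertwine
    (fun ℓ : GP N => TPar A M H ℓ.1) (fun _ _ => TPar_commute M H _ _)
    (fun ℓ : GP N => TPar B M H ℓ.1) (fun _ _ => TPar_commute M H _ _) φ
    (fun i v => Subtype.ext ((Tc M H i.1).act_comp_hom g v.1).symm) r z)

variable {M : ℕ} {H : Subgroup (ZMod M)ˣ} [NeZero M]

/-- If a polynomial kills an integral parabolic lattice then it kills the complex one, and this
holds on every subspace cut out by correspondences. -/
theorem hact_complex_eq_zero {N : ℕ} (r : MvPolynomial (GP N) ℤ)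
    (C : List (Σ Γ' : Subgroup SL(2, ℤ), Corr (GamH M H) Γ'))
    (h : ∀ x : Par (GamH M H) ℤ, (∀ c ∈ C, c.2.act x.1 = 0) → hact ℤ M H N r x = 0)
    (z : Par (GamH M H) ℂ) (hz : ∀ c ∈ C, c.2.act z.1 = 0) : hact ℂ M H N r z = 0 := by
  obtain ⟨n, co, zk, hsum, hfac⟩ := exists_coord z.1
  have hpar : ∀ k, zk k ∈ Par (GamH M H) ℤ := fun k γ s hs => by
    obtain ⟨f, hf⟩ := hfac k
    have : z.1.rangeRestrict (Additive.ofMul γ) = 0 := Subtype.ext (z.2 γ s hs)
    rw [hf]
    show f (z.1.rangeRestrict (Additive.ofMul γ)) = 0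
    rw [this, map_zero]
  have hC : ∀ k, ∀ c ∈ C, c.2.act (zk k) = 0 := fun k c hc => by
    obtain ⟨f, hf⟩ := hfac k
    have h1 : c.2.act z.1.rangeRestrict = 0 := by
      apply AddMonoidHom.ext
      intro γ
      apply Subtype.ext
      have h2 := DFunLike.congr_fun (c.2.act_comp_hom z.1.range.subtype z.1.rangeRestrict) γ
      rw [show z.1.range.subtype.comp z.1.rangeRestrict = z.1 from rfl, hz c hc] at h2
      exact h2.symm
    rw [hf, c.2.act_comp_hom, h1, AddMonoidHom.comp_zero]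
  have hz' : z = ∑ k, co k •
      (⟨(Int.castAddHom ℂ).comp (zk k), Par_comp _ (hpar k)⟩ : Par (GamH M H) ℂ) := by
    apply Subtype.ext
    rw [hsum, Submodule.coe_sum]
    rfl
  rw [hz', map_sum]
  refine Finset.sum_eq_zero fun k _ => ?_
  have h0 := h ⟨zk k, hpar k⟩ (hC k)
  rw [map_smul]
  refine smul_eq_zero_of_right _ (Subtype.ext ?_)
  rw [← hact_comp (Int.castAddHom ℂ) M H N r ⟨zk k, hpar k⟩, h0]
  exact AddMonoidHom.comp_zero _

end FA.HeckeH1

end
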