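import Fermat.Agent.HeckeH1.Par
import Fermat.Agent.HeckeH1.Ops
import Fermat.Agent.HeckeH1.Neat

/-!
Common eigenvectors: a character of a commutative algebra acting faithfully on a lattice of
homomorphisms is attained on a homomorphism with values in the ring of the character.
-/

set_option autoImplicit false

noncomputable section

namespace FA.HeckeH1

open Matrix
open scoped MatrixGroups TensorProduct

section vector

variable {O : Type} [CommRing O] [IsDomain O] [IsPrincipalIdealRing O] {A : Type} [CommRing A]
  [Algebra O A] {O' : Type} [CommRing O'] [IsDomain O'] [Algebra O O'] [Module.IsTorsionFree O O']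

/-- A character vanishing on the kernel of a representation has an eigenvector. -/
theorem exists_common_eigenvector {Y : Type} [Fintype Y] [DecidableEq Y]
    (R : A →ₐ[O] Matrix Y Y O) (f : A →ₐ[O] O') (hker : ∀ a, R a = 0 → f a = 0) :
    ∃ w : Y → O', w ≠ 0 ∧ ∀ a, (R a).map (algebraMap O O') *ᵥ w = f a • w := by
  classical
  let K := FractionRing O'
  let J : Ideal A := RingHom.ker R
  let Rb : A ⧸ J →ₐ[O] Matrix Y Y O := Ideal.Quotient.liftₐ J R fun _ h => h
  have hRb : Function.Injective Rb := RingHom.lift_injective_of_ker_le_ideal _ _ le_rfl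
  let fb : A ⧸ J →ₐ[O] K := Ideal.Quotient.liftₐ J ((IsScalarTower.toAlgHom O O' K).comp f)
    fun a h => by
      show algebraMap O' K (f a) = 0
      rw [hker a h, map_zero]
  have : Module.Finite O (A ⧸ J) := Module.Finite.of_injective Rb.toLinearMap hRb
  have : Module.IsTorsionFree O K := .of_smul_eq_zero fun c x h => by
    rw [Algebra.smul_def, mul_eq_zero, IsScalarTower.algebraMap_apply O O' K,
      map_eq_zero_iff _ (IsFractionRing.injective O' K)] at h
    exact h.imp_left fun h0 => by
      rw [Algebra.algebraMap_eq_smul_one] at h0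
      exact (smul_eq_zero.1 h0).resolve_right one_ne_zero
  have : Module.Flat O K :=
    Module.Flat.flat_iff_torsion_eq_bot_of_isBezout.2
      (Submodule.isTorsionFree_iff_torsion_eq_bot.1 inferInstance)
  let φ : K ⊗[O] (A ⧸ J) →ₐ[O] Matrix Y Y K :=
    (matrixEquivTensor Y O K).symm.toAlgHom.comp (Algebra.TensorProduct.map (AlgHom.id O K) Rb)
  have hφinj : Function.Injective φ := (matrixEquivTensor Y O K).symm.injective.comp
    (Module.Flat.lTensor_preserves_injective_linearMap (M := K) Rb.toLinearMap hRb)
  have hφ : ∀ (c : K) (x : A ⧸ J), φ (c ⊗ₜ x) = c • (Rb x).map (algebraMap O K) := fun c x =>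
    matrixEquivTensor_apply_symm Y O K c (Rb x)
  let ψ : K ⊗[O] (A ⧸ J) →+* Module.End K (Y → K) :=
    (Matrix.toLinAlgEquiv' (R := K) (n := Y)).toRingEquiv.toRingHom.comp φ.toRingHom
  letI : Module (K ⊗[O] (A ⧸ J)) (Y → K) := Module.compHom (Y → K) ψ
  have hsmul : ∀ (b : K ⊗[O] (A ⧸ J)) (v : Y → K), b • v = φ b *ᵥ v := fun b v => rfl
  have : IsScalarTower K (K ⊗[O] (A ⧸ J)) (Y → K) := ⟨fun c b v => by
    rw [hsmul, hsmul]
    induction b using TensorProduct.induction_on with
    | zero => simp
    | tmul d x => rw [TensorProduct.smul_tmul', hφ, hφ, smul_eq_mul, mul_smul, smul_mulVec]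
    | add x y hx hy => rw [smul_add, map_add, map_add, add_mulVec, add_mulVec, hx, hy, smul_add]⟩
  have : Module.Finite (K ⊗[O] (A ⧸ J)) (Y → K) := Module.Finite.of_restrictScalars_finite K _ _
  have : IsArtinianRing (K ⊗[O] (A ⧸ J)) := IsArtinianRing.of_finite K _
  let g : K ⊗[O] (A ⧸ J) →ₐ[O] K :=
    Algebra.TensorProduct.lift (AlgHom.id O K) fb fun _ _ => Commute.all _ _
  have hP : (RingHom.ker g).IsPrime := RingHom.ker_isPrime g
  have hann : Module.annihilator (K ⊗[O] (A ⧸ J)) (Y → K) = ⊥ := by
    rw [eq_bot_iff]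
    intro b hb
    rw [Module.mem_annihilator] at hb
    refine Ideal.mem_bot.2 (hφinj ?_)
    rw [map_zero]
    exact Matrix.ext_of_mulVec_single fun j => by rw [← hsmul, hb, zero_mulVec]
  have hmin : RingHom.ker g ∈ (Module.annihilator (K ⊗[O] (A ⧸ J)) (Y → K)).minimalPrimes := by
    rw [hann]
    exact Ideal.mem_minimalPrimes_of_krullDimLE_zero _
  obtain ⟨-, x, hx⟩ := isAssociatedPrime_iff.1
    (Module.associatedPrimes.minimalPrimes_annihilator_subset_associatedPrimes _ _ hmin)
  have hx0 : x ≠ 0 := by
    rintro rfl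
    refine hP.ne_top ?_
    rw [hx]
    exact Ideal.eq_top_iff_one _ |>.2 (Submodule.mem_colon_singleton.2 (by simp))
  have heig : ∀ a, (R a).map (algebraMap O K) *ᵥ x = algebraMap O' K (f a) • x := fun a => by
    have h : ((1 : K) ⊗ₜ[O] Ideal.Quotient.mk J a -
        (algebraMap O' K (f a)) ⊗ₜ[O] (1 : A ⧸ J)) ∈ RingHom.ker g := by
      rw [RingHom.mem_ker, map_sub, Algebra.TensorProduct.lift_tmul, Algebra.TensorProduct.lift_tmul]
      show (1 : K) * algebraMap O' K (f a) - algebraMap O' K (f a) * fb 1 = 0
      rw [map_one, one_mul, mul_one, sub_self]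
    rw [hx, Submodule.mem_colon_singleton, Submodule.mem_bot, hsmul, map_sub, hφ, hφ, one_smul,
      map_one, sub_mulVec, Matrix.map_one _ (map_zero _) (map_one _), smul_mulVec, one_mulVec,
      sub_eq_zero] at h
    exact h
  obtain ⟨c, hc⟩ := IsLocalization.exist_integer_multiples_of_finite (nonZeroDivisors O') x
  choose w hw using hc
  refine ⟨w, fun h0 => hx0 (funext fun j => ?_), fun a => funext fun j => ?_⟩
  · have h1 := hw j
    rw [h0, Pi.zero_apply, map_zero, Algebra.smul_def, eq_comm, mul_eq_zero,
      map_eq_zero_iff _ (IsFractionRing.injective O' K)] at h1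
    exact h1.resolve_left (nonZeroDivisors.ne_zero c.2)
  · refine IsFractionRing.injective O' K ?_
    have h1 : (fun i => algebraMap O' K (w i)) = algebraMap O' K (c : O') • x := funext fun i => by
      rw [hw i, Algebra.smul_def]; rfl
    rw [RingHom.map_mulVec, Matrix.map_map, ← RingHom.coe_comp, ← IsScalarTower.algebraMap_eq,
      show algebraMap O' K ∘ w = fun i => algebraMap O' K (w i) from rfl, h1, mulVec_smul, heig]
    simp only [Pi.smul_apply, smul_eq_mul, map_mul]
    rw [show algebraMap O' K (w j) = algebraMap O' K (c : O') * x j from congrFun h1 j]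
    ring

end vector

section hom

variable {O : Type} [CommRing O] [IsDomain O] [IsPrincipalIdealRing O] {A : Type} [CommRing A]
  [Algebra O A] {O' : Type} [CommRing O'] [IsDomain O'] [Algebra O O'] [Module.IsTorsionFree O O']
  {Γ : Subgroup SL(2, ℤ)}

omit [IsDomain O'] in
/-- Coordinates of linearly independent homomorphisms stay independent in the extension. -/
theorem eq_zero_of_sum_comp {Y : Type} [Fintype Y] (v : Y → Hom1 Γ O) (hv' : LinearIndependent O v)
    (w : Y → O') (h : ∑ i, w i • (algebraMap O O').toAddMonoidHom.comp (v i) = 0) : w = 0 := by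
  classical
  let W : Submodule O O' := Submodule.span O (Set.range w)
  have : Module.Finite O W := Module.Finite.span_of_finite O (Set.finite_range w)
  let wW : Y → W := fun i => ⟨w i, Submodule.subset_span ⟨i, rfl⟩⟩
  let bW := Module.Free.chooseBasis O W
  funext i
  suffices hi : wW i = 0 from congrArg Subtype.val hi
  refine bW.ext_elem fun k => ?_
  rw [map_zero, Finsupp.zero_apply]
  refine Fintype.linearIndependent_iff.1 hv' (fun i => bW.repr (wW i) k) ?_ i
  apply AddMonoidHom.ext
  intro γ
  have h1 : ∑ i, v i γ • wW i = 0 := by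
    apply Subtype.ext
    rw [Submodule.coe_sum, ZeroMemClass.coe_zero]
    have h2 := DFunLike.congr_fun h γ
    rw [AddMonoidHom.finsetSum_apply] at h2
    refine Eq.trans (Finset.sum_congr rfl fun i _ => ?_) h2
    show v i γ • w i = w i * algebraMap O O' (v i γ)
    rw [Algebra.smul_def, mul_comm]
  have h3 := congrArg (fun z => bW.repr z k) h1
  simp only [map_sum, map_smul, map_zero, Finsupp.coe_zero, Pi.zero_apply,
    Finsupp.coe_finsetSum, Finset.sum_apply, Finsupp.smul_apply, smul_eq_mul] at h3
  rw [AddMonoidHom.finsetSum_apply, AddMonoidHom.zero_apply]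
  refine Eq.trans (Finset.sum_congr rfl fun i _ => ?_) h3
  show bW.repr (wW i) k * v i γ = _
  rw [mul_comm]

/-- **Eigen homomorphisms of a character.** For an algebra acting on a lattice `V` of
homomorphisms, a character vanishing on the annihilator of `V` is attained by a combination of
elements of `V`. -/
theorem exists_eigen_hom [Γ.FiniteIndex] [IsNoetherianRing O] (V : Submodule O (Hom1 Γ O))
    (op : A →ₐ[O] Module.End O (Hom1 Γ O)) (hV : ∀ a, ∀ v ∈ V, op a v ∈ V) (f : A →ₐ[O] O')
    (hker : ∀ a, (∀ v ∈ V, op a v = 0) → f a = 0) :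
    ∃ (n : ℕ) (v : Fin n → Hom1 Γ O) (w : Fin n → O'), (∀ i, v i ∈ V) ∧
      ∑ i, w i • (algebraMap O O').toAddMonoidHom.comp (v i) ≠ 0 ∧
      ∀ a, ∑ i, w i • (algebraMap O O').toAddMonoidHom.comp (op a (v i)) =
        f a • ∑ i, w i • (algebraMap O O').toAddMonoidHom.comp (v i) := by
  classical
  have : Module.Finite O (Hom1 Γ O) := hom1_finite_of_noetherian Γ O
  have : Module.IsTorsionFree O (Hom1 Γ O) :=
    .of_smul_eq_zero fun c z h => (eq_or_ne c 0).imp id fun hc => AddMonoidHom.ext fun γ =>
      (mul_eq_zero.1 (DFunLike.congr_fun h γ)).resolve_left hc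
  let n := Module.finrank O V
  let bV : Module.Basis (Fin n) O V := Module.finBasis O V
  let rV : A →ₐ[O] Module.End O V :=
    { toFun := fun a => (op a).restrict fun v hv => hV a v hv
      map_one' := LinearMap.ext fun v => Subtype.ext (by simp)
      map_mul' := fun a b => LinearMap.ext fun v => Subtype.ext (by simp)
      map_zero' := LinearMap.ext fun v => Subtype.ext (by simp)
      map_add' := fun a b => LinearMap.ext fun v => Subtype.ext (by simp)
      commutes' := fun c => LinearMap.ext fun v => Subtype.ext (by simp) }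
  let R : A →ₐ[O] Matrix (Fin n) (Fin n) O := (LinearMap.toMatrixAlgEquiv bV).toAlgHom.comp rV
  obtain ⟨w, hw0, hw⟩ := exists_common_eigenvector R f fun a ha => hker a fun v hv => by
    have h : rV a = 0 := (LinearMap.toMatrixAlgEquiv bV).injective (by rw [map_zero]; exact ha)
    exact congrArg Subtype.val (LinearMap.congr_fun h ⟨v, hv⟩)
  refine ⟨n, fun i => (bV i).1, w, fun i => (bV i).2, fun h => hw0 ?_, fun a => ?_⟩
  · exact eq_zero_of_sum_comp _ (bV.linearIndependent.map' V.subtype V.ker_subtype) w h
  · have hop : ∀ i, op a (bV i).1 = ∑ j, R a j i • (bV j).1 := fun i => by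
      have h := (bV.sum_repr (rV a (bV i))).symm
      have h2 := congrArg Subtype.val h
      rw [Submodule.coe_sum] at h2
      simpa [R, rV, LinearMap.toMatrixAlgEquiv_apply] using h2
    have hcomp : ∀ i, (algebraMap O O').toAddMonoidHom.comp (op a (bV i).1) =
        ∑ j, algebraMap O O' (R a j i) • (algebraMap O O').toAddMonoidHom.comp (bV j).1 :=
      fun i => by
        apply AddMonoidHom.ext
        intro γ
        rw [hop]
        simp [Algebra.smul_def]
    simp only [hcomp, Finset.smul_sum, smul_smul]
    rw [Finset.sum_comm]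
    refine Finset.sum_congr rfl fun j _ => ?_
    rw [← Finset.sum_smul]
    congr 1
    have h := congrFun (hw a) j
    simp only [Matrix.mulVec, dotProduct, Matrix.map_apply, Pi.smul_apply, smul_eq_mul] at h
    rw [← h]
    exact Finset.sum_congr rfl fun i _ => mul_comm _ _

end hom

end FA.HeckeH1

end
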