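import Fermat.Agent.HeckeH1.Central

/-!
`SL(2, 𝔽_l)`: cardinality, normaliser of the split torus, lifting to congruence subgroups.
-/

set_option autoImplicit false

namespace FA.HeckeH1

section field

variable (F : Type*) [Field F]

/-- `SL(2, F)`. -/
abbrev SLF := Matrix.SpecialLinearGroup (Fin 2) F

variable {F}

/-- Constructor of elements of `SL(2, F)`. -/
def mkF (a b c d : F) (h : a * d - b * c = 1) : SLF F :=
  ⟨!![a, b; c, d], by rw [Matrix.det_fin_two_of]; exact h⟩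

@[simp] theorem mkF_00 (a b c d : F) (h) : (mkF a b c d h).1 0 0 = a := rfl
@[simp] theorem mkF_01 (a b c d : F) (h) : (mkF a b c d h).1 0 1 = b := rfl
@[simp] theorem mkF_10 (a b c d : F) (h) : (mkF a b c d h).1 1 0 = c := rfl
@[simp] theorem mkF_11 (a b c d : F) (h) : (mkF a b c d h).1 1 1 = d := rfl

theorem slf_ext {g k : SLF F} (h00 : g.1 0 0 = k.1 0 0) (h01 : g.1 0 1 = k.1 0 1)
    (h10 : g.1 1 0 = k.1 1 0) (h11 : g.1 1 1 = k.1 1 1) : g = k := by
  apply Subtype.ext
  ext i j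
  fin_cases i <;> fin_cases j <;> assumption

theorem detF (g : SLF F) : g.1 0 0 * g.1 1 1 - g.1 0 1 * g.1 1 0 = 1 := by
  rw [← Matrix.det_fin_two]; exact g.2

/-- `diag(u, u⁻¹)`. -/
def dF : Fˣ →* SLF F where
  toFun u := mkF (u : F) 0 0 ((u⁻¹ : Fˣ) : F) (by simp)
  map_one' := by apply slf_ext <;> simp
  map_mul' u v := by
    apply slf_ext <;>
      simp only [mkF_00, mkF_01, mkF_10, mkF_11, Matrix.SpecialLinearGroup.coe_mul, Matrix.mul_apply,
        Fin.sum_univ_two, mul_inv_rev, Units.val_mul] <;> ring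

/-- The Weyl element. -/
def wF : SLF F := mkF 0 (-1) 1 0 (by simp)

theorem dF_injective : Function.Injective (dF (F := F)) := fun u v h =>
  Units.ext (congrArg (fun g : SLF F => g.1 0 0) h)

theorem wF_mul_dF (u : Fˣ) : wF * dF u * (wF : SLF F)⁻¹ = dF u⁻¹ := by
  rw [mul_inv_eq_iff_eq_mul]
  apply slf_ext <;> simp [wF, dF, Matrix.mul_apply, Fin.sum_univ_two]

theorem wF_sq : (wF : SLF F) * wF = dF (-1) := by
  apply slf_ext <;> simp [wF, dF, Matrix.mul_apply, Fin.sum_univ_two, Units.val_inv_eq_inv_val]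

/-- Normaliser of the diagonal torus. -/
def NT (F : Type*) [Field F] : Subgroup (SLF F) where
  carrier := {g | (g.1 0 1 = 0 ∧ g.1 1 0 = 0) ∨ (g.1 0 0 = 0 ∧ g.1 1 1 = 0)}
  one_mem' := by simp
  mul_mem' := by
    rintro g k (⟨g1, g2⟩ | ⟨g1, g2⟩) (⟨k1, k2⟩ | ⟨k1, k2⟩) <;>
      simp [Matrix.mul_apply, Fin.sum_univ_two, g1, g2, k1, k2]
  inv_mem' := by
    rintro g (⟨g1, g2⟩ | ⟨g1, g2⟩) <;>
      simp [Matrix.SpecialLinearGroup.coe_inv, Matrix.adjugate_fin_two, g1, g2]

theorem dF_mem (u : Fˣ) : dF u ∈ NT F := Or.inl ⟨rfl, rfl⟩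

theorem wF_mem : (wF : SLF F) ∈ NT F := Or.inr ⟨rfl, rfl⟩

theorem mem_NT_iff {g : SLF F} : g ∈ NT F ↔ ∃ u, g = dF u ∨ g = dF u * wF := by
  constructor
  · intro hg
    have h := detF g
    rcases hg with ⟨g1, g2⟩ | ⟨g1, g2⟩
    · rw [g1, zero_mul, sub_zero] at h
      refine ⟨⟨g.1 0 0, g.1 1 1, h, by rw [mul_comm, h]⟩, Or.inl ?_⟩
      apply slf_ext <;> simp [dF, g1, g2]
      exact eq_inv_of_mul_eq_one_right h
    · rw [g1, zero_mul, zero_sub] at h
      refine ⟨⟨-g.1 0 1, g.1 1 0, by rw [neg_mul, h], by rw [mul_neg, mul_comm, h]⟩, Or.inr ?_⟩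
      apply slf_ext <;> simp [dF, wF, g1, g2, Matrix.mul_apply, Fin.sum_univ_two]
      rw [← inv_neg]
      exact eq_inv_of_mul_eq_one_right (by linear_combination h)
  · rintro ⟨u, rfl | rfl⟩
    · exact dF_mem u
    · exact mul_mem (dF_mem u) wF_mem

theorem card_NT [Fintype F] : Nat.card (NT F) = 2 * (Nat.card F - 1) := by
  classical
  have hbij : Function.Bijective (fun x : Fˣ × Bool =>
      (⟨if x.2 then dF x.1 else dF x.1 * wF, mem_NT_iff.2 ⟨x.1, by cases x.2 <;> simp⟩⟩ : NT F)) := by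
    constructor
    · rintro ⟨u, _ | _⟩ ⟨v, _ | _⟩ h
      · simp only [Subtype.mk.injEq, Bool.false_eq_true, if_false, mul_left_inj] at h
        rw [dF_injective h]
      · have := congrArg (fun g : NT F => g.1.1 0 0) h
        simp [dF, wF, Matrix.mul_apply, Fin.sum_univ_two] at this
        all_goals exact absurd this.symm v.ne_zero
      · have := congrArg (fun g : NT F => g.1.1 0 0) h
        simp [dF, wF, Matrix.mul_apply, Fin.sum_univ_two] at this
      · simp only [Subtype.mk.injEq, if_true] at h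
        rw [dF_injective h]
    · rintro ⟨g, hg⟩
      obtain ⟨u, rfl | rfl⟩ := mem_NT_iff.1 hg
      · exact ⟨(u, true), by simp⟩
      · exact ⟨(u, false), by simp⟩
  rw [← Nat.card_eq_of_bijective _ hbij, Nat.card_prod, Nat.card_units]
  simp [mul_comm]

theorem card_SLF [Fintype F] :
    Nat.card (SLF F) = Nat.card F * (Nat.card F - 1) * (Nat.card F + 1) := by
  classical
  have hbij : Function.Bijective (fun x : (Fˣ × F × F) ⊕ (Fˣ × F) =>
      Sum.elim
        (fun x : Fˣ × F × F => mkF (x.1 : F) x.2.1 x.2.2 ((1 + x.2.1 * x.2.2) / (x.1 : F))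
          (by field_simp; ring))
        (fun x : Fˣ × F => mkF 0 (x.1 : F) (-((x.1 : F))⁻¹) x.2 (by simp)) x) := by
    constructor
    · rintro (⟨u, b, c⟩ | ⟨u, d⟩) (⟨v, b', c'⟩ | ⟨v, d'⟩) h
      · have h1 := congrArg (fun g : SLF F => g.1 0 0) h
        have h2 := congrArg (fun g : SLF F => g.1 0 1) h
        have h3 := congrArg (fun g : SLF F => g.1 1 0) h
        simp only [Sum.elim_inl, mkF_00, mkF_01, mkF_10] at h1 h2 h3
        rw [Units.ext h1, h2, h3]
      · have h1 := congrArg (fun g : SLF F => g.1 0 0) h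
        simp at h1
      · have h1 := congrArg (fun g : SLF F => g.1 0 0) h
        simp at h1
        all_goals exact absurd h1.symm v.ne_zero
      · have h1 := congrArg (fun g : SLF F => g.1 0 1) h
        have h2 := congrArg (fun g : SLF F => g.1 1 1) h
        simp only [Sum.elim_inr, mkF_01, mkF_11] at h1 h2
        rw [Units.ext h1, h2]
    · intro g
      have h := detF g
      by_cases ha : g.1 0 0 = 0
      · rw [ha, zero_mul, zero_sub] at h
        have hb : g.1 0 1 ≠ 0 := by intro hb; simp [hb] at h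
        refine ⟨Sum.inr (Units.mk0 _ hb, g.1 1 1), ?_⟩
        apply slf_ext <;> simp [ha]
        field_simp
        linear_combination h
      · refine ⟨Sum.inl (Units.mk0 _ ha, g.1 0 1, g.1 1 0), ?_⟩
        apply slf_ext <;> simp
        field_simp
        linear_combination -h
  rw [← Nat.card_eq_of_bijective _ hbij, Nat.card_sum, Nat.card_prod, Nat.card_prod, Nat.card_prod,
    Nat.card_units]
  obtain ⟨k, hk⟩ : ∃ k, Nat.card F = k + 1 := ⟨Nat.card F - 1, by have := Nat.card_pos (α := F); omega⟩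
  rw [hk]
  simp only [Nat.add_sub_cancel]
  ring

theorem index_NT_mul_two [Fintype F] :
    (NT F).index * 2 = Nat.card F * (Nat.card F + 1) := by
  have h := (NT F).card_mul_index
  rw [card_NT, card_SLF] at h
  have h1 : 0 < Nat.card F - 1 := by
    have := Finite.one_lt_card (α := F); omega
  apply Nat.eq_of_mul_eq_mul_left h1
  calc (Nat.card F - 1) * ((NT F).index * 2) = 2 * (Nat.card F - 1) * (NT F).index := by ring
    _ = Nat.card F * (Nat.card F - 1) * (Nat.card F + 1) := h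
    _ = _ := by ring

end field


theorem toSLQ_mem_Lvl {q N : ℕ} {g : Matrix.SpecialLinearGroup (Fin 2) ℤ}
    (hg : g ∈ CongruenceSubgroup.Gamma N) : toSLQ g ∈ Lvl q N := by
  obtain ⟨a, b, c, d⟩ := CongruenceSubgroup.Gamma_mem.1 hg
  have key : ∀ x y : ℤ, (x : ZMod N) = y → Idl q N ((x : ℚ) - y) := by
    intro x y h
    obtain ⟨k, hk⟩ := (ZMod.intCast_eq_intCast_iff_dvd_sub y x N).1 h.symm
    exact ⟨k, int_mem_QInt k, by exact_mod_cast hk⟩
  refine ⟨?_, ?_, ?_, ?_⟩
  · simpa using key (g.1 0 0) 1 (by simpa using a)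
  · simpa using key (g.1 0 1) 0 (by simpa using b)
  · simpa using key (g.1 1 0) 0 (by simpa using c)
  · simpa using key (g.1 1 1) 1 (by simpa using d)

/-- Reduction of integral matrices modulo `l`. -/
def toF (l : ℕ) : Matrix.SpecialLinearGroup (Fin 2) ℤ →* Matrix.SpecialLinearGroup (Fin 2) (ZMod l) :=
  Matrix.SpecialLinearGroup.map (Int.castRingHom (ZMod l))

@[simp] theorem toF_apply (l : ℕ) (g : Matrix.SpecialLinearGroup (Fin 2) ℤ) (i j : Fin 2) :
    (toF l g).1 i j = (g.1 i j : ZMod l) := rfl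

theorem exists_lift {N l : ℕ} [hl : Fact l.Prime] (hN : l.Coprime N) (s : SLF (ZMod l)) :
    ∃ g ∈ CongruenceSubgroup.Gamma N, toF l g = s := by
  have hNl : (N : ZMod l) ≠ 0 := by
    rw [Ne, ZMod.natCast_eq_zero_iff]
    exact fun h => hl.out.coprime_iff_not_dvd.1 hN h
  have hlift : ∀ t : ZMod l, ∃ z : ℤ, (z : ZMod l) = t ∧ (z : ZMod N) = 0 := by
    intro t
    obtain ⟨z, hz⟩ := ZMod.intCast_surjective (t / (N : ZMod l))
    exact ⟨(N : ℤ) * z, by push_cast; rw [hz]; field_simp, by simp⟩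
  let U : ℤ → Matrix.SpecialLinearGroup (Fin 2) ℤ := fun z =>
    ⟨!![1, z; 0, 1], by simp⟩
  let L : ℤ → Matrix.SpecialLinearGroup (Fin 2) ℤ := fun z =>
    ⟨!![1, 0; z, 1], by simp⟩
  have hU : ∀ z : ℤ, (z : ZMod N) = 0 → U z ∈ CongruenceSubgroup.Gamma N := fun z hz =>
    CongruenceSubgroup.Gamma_mem.2 ⟨by simp [U], by simp [U, hz], by simp [U], by simp [U]⟩
  have hL : ∀ z : ℤ, (z : ZMod N) = 0 → L z ∈ CongruenceSubgroup.Gamma N := fun z hz =>
    CongruenceSubgroup.Gamma_mem.2 ⟨by simp [L], by simp [L], by simp [L, hz], by simp [L]⟩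
  have hUF : ∀ z : ℤ, toF l (U z) = mkF 1 (z : ZMod l) 0 1 (by ring) := fun z => by
    apply slf_ext <;> rw [toF_apply] <;> simp [U]
  have hLF : ∀ z : ℤ, toF l (L z) = mkF 1 0 (z : ZMod l) 1 (by ring) := fun z => by
    apply slf_ext <;> rw [toF_apply] <;> simp [L]
  have main : ∀ s : SLF (ZMod l), s.1 1 0 ≠ 0 →
      ∃ g ∈ CongruenceSubgroup.Gamma N, toF l g = s := by
    intro s hc
    obtain ⟨x, hx, hx'⟩ := hlift ((s.1 0 0 - 1) / s.1 1 0)
    obtain ⟨y, hy, hy'⟩ := hlift (s.1 1 0)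
    obtain ⟨z, hz, hz'⟩ := hlift ((s.1 1 1 - 1) / s.1 1 0)
    refine ⟨U x * L y * U z, mul_mem (mul_mem (hU x hx') (hL y hy')) (hU z hz'), ?_⟩
    have hd := detF s
    rw [map_mul, map_mul, hUF, hUF, hLF, hx, hy, hz]
    apply slf_ext <;>
      simp [Matrix.mul_apply, Fin.sum_univ_two] <;>
      field_simp <;> try (first | ring1 | linear_combination hd | linear_combination -hd)
  by_cases hc : s.1 1 0 = 0
  · obtain ⟨e, he, he'⟩ := hlift 1
    have hd := detF s
    rw [hc, mul_zero, sub_zero] at hd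
    have ha : s.1 0 0 ≠ 0 := left_ne_zero_of_mul_eq_one hd
    obtain ⟨g, hg, hgs⟩ := main (toF l (L e) * s) (by
      rw [hLF]
      simp [Matrix.mul_apply, Fin.sum_univ_two, hc, he, ha])
    exact ⟨(L e)⁻¹ * g, mul_mem (inv_mem (hL e he')) hg, by rw [map_mul, map_inv, hgs]; group⟩
  · exact main s hc

end FA.HeckeH1
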