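import Fermat.Agent.HeckeH1.TWLevel
import Fermat.Agent.HeckeH1.SLMod

/-!
Degeneracy maps between `Γ_H(M)` and `Γ_H(M) ∩ Γ₀(q)` for an arbitrary `H`: the composites involve
the diamond operator of `q`; everything commutes with corestriction to `Γ₀`.
-/

set_option autoImplicit false

noncomputable section

namespace FA.HeckeH1

open Matrix CongruenceSubgroup
open scoped MatrixGroups

section general

variable {Γ Γ' Δ Δ' : Subgroup SL(2, ℤ)} {A : Type*} [AddCommGroup A]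

/-- Corestriction commutes with a matrix under which the cosets correspond. -/
theorem cores_single (α : GL (Fin 2) ℚ)
    (h : ∀ γ ∈ Δ, ∃ δ ∈ Γ, α * glQ γ = glQ δ * α) (h' : ∀ γ ∈ Δ', ∃ δ ∈ Γ', α * glQ γ = glQ δ * α)
    (hΔ : Δ' ≤ Δ) [Finite (Γ ⧸ Γ'.subgroupOf Γ)] [Finite (Δ ⧸ Δ'.subgroupOf Δ)]
    (hmem : ∀ γ ∈ Δ, ∀ δ ∈ Γ', α * glQ γ = glQ δ * α → γ ∈ Δ')
    (hsurj : ∀ x ∈ Γ, ∃ k ∈ Γ', ∃ γ ∈ Δ, α * glQ γ = glQ (x * k) * α) (z : Hom1 Γ' A) :
    (Corr.single α h).act ((Corr.cores (Γ := Γ)).act z) =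
      (Corr.cores (Γ := Δ)).act ((Corr.single α h').act z) := by
  classical
  rw [← Corr.comp_act, ← Corr.comp_act]
  have h₀ := h
  choose d hd hde using h₀
  have uniq : ∀ {γ : SL(2, ℤ)} (hγ : γ ∈ Δ) {δ : SL(2, ℤ)}, α * glQ γ = glQ δ * α → δ = d γ hγ :=
    fun hγ δ e => glQ_injective (mul_right_cancel (e.symm.trans (hde _ hγ)))
  let f : Δ ⧸ Δ'.subgroupOf Δ → Γ ⧸ Γ'.subgroupOf Γ := fun x =>
    QuotientGroup.mk ⟨d (x.out : Δ) x.out.2, hd _ _⟩
  have hf : Function.Bijective f := by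
    constructor
    · intro x y hxy
      have h1 : (d (x.out : Δ) x.out.2)⁻¹ * d (y.out : Δ) y.out.2 ∈ Γ' :=
        Subgroup.mem_subgroupOf.1 (QuotientGroup.eq.1 hxy)
      have h2 : ((x.out : Δ) : SL(2, ℤ))⁻¹ * ((y.out : Δ) : SL(2, ℤ)) ∈ Δ' := by
        refine hmem _ (mul_mem (inv_mem x.out.2) y.out.2) _ h1 ?_
        rw [map_mul, map_mul, map_inv, map_inv]
        have ex := hde _ x.out.2
        have ey := hde _ y.out.2
        generalize glQ (d (x.out : Δ) x.out.2) = P at ex ⊢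
        generalize glQ (d (y.out : Δ) y.out.2) = R at ey ⊢
        generalize glQ ((x.out : Δ) : SL(2, ℤ)) = X at ex ⊢
        generalize glQ ((y.out : Δ) : SL(2, ℤ)) = Y at ey ⊢
        have hP : P = α * X * α⁻¹ := by rw [ex]; group
        have hR : R = α * Y * α⁻¹ := by rw [ey]; group
        rw [hP, hR]
        group
      rw [← QuotientGroup.out_eq' x, ← QuotientGroup.out_eq' y]
      exact QuotientGroup.eq.2 (Subgroup.mem_subgroupOf.2 (by simpa using h2))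
    · intro c
      obtain ⟨k, hk, γ, hγ, e⟩ := hsurj _ (c.out : Γ).2
      refine ⟨QuotientGroup.mk ⟨γ, hγ⟩, ?_⟩
      set x : Δ ⧸ Δ'.subgroupOf Δ := QuotientGroup.mk ⟨γ, hγ⟩ with hx
      have h1 : γ⁻¹ * ((x.out : Δ) : SL(2, ℤ)) ∈ Δ' :=
        Subgroup.mem_subgroupOf.1 (QuotientGroup.eq.1 (hx.symm.trans (QuotientGroup.out_eq' x).symm))
      obtain ⟨δ', hδ', e'⟩ := h' _ h1
      have h2 : d (x.out : Δ) x.out.2 = (c.out : Γ) * k * δ' := by
        refine (uniq x.out.2 ?_).symm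
        rw [show ((x.out : Δ) : SL(2, ℤ)) = γ * (γ⁻¹ * ((x.out : Δ) : SL(2, ℤ))) by group,
          map_mul, ← mul_assoc, e, map_mul _ _ δ', mul_assoc, e', mul_assoc]
      conv_rhs => rw [← QuotientGroup.out_eq' c]
      refine (QuotientGroup.eq.2 (Subgroup.mem_subgroupOf.2 ?_)).symm
      show ((c.out : Γ) : SL(2, ℤ))⁻¹ * d (x.out : Δ) x.out.2 ∈ Γ'
      rw [h2, mul_assoc, inv_mul_cancel_left]
      exact mul_mem hk hδ'
  refine (Corr.Same.act_eq ⟨((Equiv.punitProd _).trans (Equiv.ofBijective f hf)).trans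
    (Equiv.prodPUnit _).symm, fun x => ?_⟩ z).symm
  set y := f x.2
  have hy : (d (x.2.out : Δ) x.2.out.2)⁻¹ * ((y.out : Γ) : SL(2, ℤ)) ∈ Γ' :=
    Subgroup.mem_subgroupOf.1 (QuotientGroup.eq.1 (QuotientGroup.out_eq' y).symm)
  refine ⟨⟨_, hy⟩, ?_⟩
  show α * glQ ((x.2.out : Δ) : SL(2, ℤ))⁻¹ =
    glQ ((d (x.2.out : Δ) x.2.out.2)⁻¹ * ((y.out : Γ) : SL(2, ℤ))) *
      (glQ ((y.out : Γ) : SL(2, ℤ))⁻¹ * α)
  rw [map_mul, map_inv glQ ((y.out : Γ) : SL(2, ℤ)), mul_assoc, mul_inv_cancel_left, map_inv,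
    map_inv, mul_inv_eq_iff_eq_mul, mul_assoc, hde _ x.2.out.2, inv_mul_cancel_left]

/-- Restriction to a subgroup of finite index is injective without torsion. -/
theorem res_injective_of_finite (hle : Γ' ≤ Γ) [Finite (Γ ⧸ Γ'.subgroupOf Γ)] [IsAddTorsionFree A] :
    Function.Injective ((Corr.res hle).act (A := A)) := by
  rw [injective_iff_map_eq_zero]
  intro w hw
  refine AddMonoidHom.ext fun γ => ?_
  show hv w γ.toMul = 0
  generalize γ.toMul = g
  obtain ⟨m, n, hmn, he⟩ := Finite.exists_ne_map_eq_of_infinite fun k : ℕ =>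
    (QuotientGroup.mk (g ^ k) : Γ ⧸ Γ'.subgroupOf Γ)
  wlog hlt : m < n generalizing m n
  · exact this n m hmn.symm he.symm (lt_of_le_of_ne (not_lt.1 hlt) hmn.symm)
  have h1 : ((g ^ (n - m) : Γ) : SL(2, ℤ)) ∈ Γ' := by
    have h2 := Subgroup.mem_subgroupOf.1 (QuotientGroup.eq.1 he)
    rwa [show (g ^ m)⁻¹ * g ^ n = g ^ (n - m) by
      rw [← pow_sub_mul_pow g hlt.le, ← mul_assoc]
      have : Commute (g ^ m)⁻¹ (g ^ (n - m)) := ((Commute.refl g).pow_pow _ _).inv_left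
      rw [this.eq, inv_mul_cancel_right]] at h2
  have h : hv ((Corr.res hle).act w) ⟨_, h1⟩ = 0 := by rw [hw]; rfl
  rw [Corr.res_act] at h
  have h' : (n - m) • hv w g = 0 := by
    rw [← h, ← show hv w (g ^ (n - m)) = (n - m) • hv w g from map_nsmul w _ (Additive.ofMul g)]
  exact (smul_eq_zero.1 h').resolve_left (by omega)

end general

section basic

variable {M q : ℕ} [NeZero M] [Fact q.Prime] {H : Subgroup (ZMod M)ˣ} {O : Type} [CommRing O]

theorem GamUp_top_le : GamH (M * q) (⊤ : Subgroup (ZMod (M * q))ˣ) ≤ GamH M ⊤ :=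
  GamH_top_le_of_dvd (dvd_mul_right M q)

/-- The diamond group of level `M q` maps to that of level `M`. -/
def deltaMap (H : Subgroup (ZMod M)ˣ) (q : ℕ) :
    (ZMod (M * q))ˣ ⧸ Hup M q H →* (ZMod M)ˣ ⧸ H :=
  QuotientGroup.map _ _ (ZMod.unitsMap (dvd_mul_right M q)) le_rfl

theorem deltaMap_mk (u : (ZMod (M * q))ˣ) :
    deltaMap H q (QuotientGroup.mk u) = QuotientGroup.mk (ZMod.unitsMap (dvd_mul_right M q) u) := rfl

theorem ulHom_down (g : GamH (M * q) ⊤) :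
    ulHom M ⟨(g : SL(2, ℤ)), GamUp_top_le g.2⟩ =
      ZMod.unitsMap (dvd_mul_right M q) (ulHom (M * q) g) :=
  Units.ext (by simp [ulHom_val, ZMod.unitsMap])

/-- The diamond of `q`. -/
def qDia (M : ℕ) [NeZero M] (H : Subgroup (ZMod M)ˣ) {q : ℕ} [Fact q.Prime] (hqM : ¬ q ∣ M) :
    (ZMod M)ˣ ⧸ H :=
  QuotientGroup.mk (ZMod.unitOfCoprime q ((Fact.out : q.Prime).coprime_iff_not_dvd.2 hqM))

/-- Restriction commutes with diamonds. -/
theorem res_dia (x : (ZMod (M * q))ˣ ⧸ Hup M q H) (z : Hom1 (GamH M H) O) :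
    diaHom (M * q) (Hup M q H) O x ((Corr.res GamUp_le).act z) =
      (Corr.res (GamUp_le (H := H) (q := q))).act (diaHom M H O (deltaMap H q x) z) := by
  have : NeZero (M * q) := ⟨mul_ne_zero (NeZero.ne M) (Fact.out : q.Prime).ne_zero⟩
  obtain ⟨u, rfl⟩ := QuotientGroup.mk_surjective x
  obtain ⟨g, rfl⟩ := ulHom_surjective (M * q) u
  rw [diaHom_mk, deltaMap_mk, ← ulHom_down, diaHom_mk]
  apply AddMonoidHom.ext
  intro γ
  show hv (dia (M * q) (Hup M q H) O g _) γ.toMul = hv _ γ.toMul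
  rw [dia_apply, Corr.res_act, Corr.res_act, dia_apply]
  exact congrArg (hv z) (Subtype.ext rfl)

/-- `W ∘ res = I2 ∘ ⟨q⟩`. -/
theorem Wc_res_dia (hqM : ¬ q ∣ M) (z : Hom1 (GamH M H) O) :
    (Wc H hqM).act ((Corr.res GamUp_le).act z) =
      (I2 H hqM).act (diaHom M H O (qDia M H hqM) z) := by
  have hb := bezout_eq (Fact.out : q.Prime) hqM
  let h : SL(2, ℤ) := ⟨!![Nat.gcdA q M, -Nat.gcdB q M; (M : ℤ), (q : ℤ)],
    by rw [Matrix.det_fin_two_of]; linear_combination hb⟩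
  have h1 : (q : ZMod M) * (Nat.gcdA q M : ZMod M) = 1 := by
    have := congrArg (fun x : ℤ => (x : ZMod M)) hb
    simpa using this
  have hh : h ∈ GamH M ⊤ := by
    rw [GamH_top, Gamma0_mem]
    simp [h]
  let g : GamH M ⊤ := ⟨h, hh⟩
  have hg : ulHom M g⁻¹ = ZMod.unitOfCoprime q ((Fact.out : q.Prime).coprime_iff_not_dvd.2 hqM) := by
    rw [map_inv, inv_eq_iff_mul_eq_one]
    refine Units.ext ?_
    rw [Units.val_mul, ulHom_val, ZMod.coe_unitOfCoprime, Units.val_one]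
    simp [g, h]
    rw [mul_comm]
    exact h1
  rw [qDia, ← hg, diaHom_mk]
  apply AddMonoidHom.ext
  intro γ
  show hv ((Wc H hqM).act _) γ.toMul = hv _ γ.toMul
  obtain ⟨δ, hδ, e⟩ := eps_conj (H := H) hqM _ γ.toMul.2
  obtain ⟨δ', hδ', e'⟩ := wMat_conj (H := H) hqM _ γ.toMul.2
  rw [Wc, Corr.single_act _ _ _ γ.toMul ⟨δ', hδ'⟩ e', Corr.res_act, I2,
    Corr.single_act _ _ _ γ.toMul ⟨δ, hδ⟩ e, dia_apply]
  refine congrArg (hv z) (Subtype.ext ?_)
  have he : gl (wMat hqM) = glQ h * gl (eps q) := by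
    rw [(mul_glQ (eps_det q) h).2]
    congr 1
    ext r s
    fin_cases r <;> fin_cases s <;> simp [wMat, rep, h, eps, Matrix.mul_apply, Fin.sum_univ_two]
  refine glQ_injective (mul_right_cancel (b := gl (wMat hqM)) ?_)
  rw [← e', inv_inv]
  show _ = glQ (h * δ * h⁻¹) * _
  simp only [he, map_mul, map_inv, mul_assoc, inv_mul_cancel_left]
  rw [e]

/-- The square of the Atkin-Lehner operator is the diamond of `q`. -/
theorem exists_Wc_sq (hqM : ¬ q ∣ M) :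
    ∃ x : (ZMod (M * q))ˣ ⧸ Hup M q H, deltaMap H q x = qDia M H hqM ∧
      ∀ z : Hom1 (GamUp M q H) O,
        (Wc H hqM).act ((Wc H hqM).act z) = diaHom (M * q) (Hup M q H) O x z := by
  have : NeZero (M * q) := ⟨mul_ne_zero (NeZero.ne M) (Fact.out : q.Prime).ne_zero⟩
  have hq : q.Prime := Fact.out
  obtain ⟨G, hG, e⟩ := wMat_sq (M := M) (q := q) (H := ⊤) hqM (coprime_mem_top hq hqM)
  have hG' : G ∈ GamH (M * q) (⊤ : Subgroup (ZMod (M * q))ˣ) := GamH_le_top hG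
  let g : GamH (M * q) ⊤ := (⟨G, hG'⟩)⁻¹
  refine ⟨QuotientGroup.mk (ulHom (M * q) g), ?_, fun z => ?_⟩
  · rw [deltaMap_mk, ← ulHom_down, qDia]
    refine congrArg _ ?_
    rw [show (⟨(g : SL(2, ℤ)), GamUp_top_le g.2⟩ : GamH M ⊤) = (⟨G, GamUp_top_le hG'⟩)⁻¹ from
      Subtype.ext (by simp [g]), map_inv]
    · rw [inv_eq_iff_mul_eq_one]
      refine Units.ext ?_
      rw [Units.val_mul, ulHom_val, ZMod.coe_unitOfCoprime, Units.val_one]
      have e00 := congrArg (fun X : MatZ => ((X 0 0 : ℤ) : ZMod M)) e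
      have hb := congrArg (fun x : ℤ => (x : ZMod M)) (bezout_eq hq hqM)
      simp [wMat, rep, Matrix.mul_apply, Fin.sum_univ_two] at e00 hb
      show (G.1 0 0 : ZMod M) * _ = 1
      linear_combination -e00 + ((q : ZMod M) * (Nat.gcdA q M : ZMod M) + 1) * hb
  · rw [diaHom_mk, ← Corr.comp_act]
    apply AddMonoidHom.ext
    intro γ
    show hv (((Wc H hqM).comp (Wc H hqM)).act z) γ.toMul =
      hv (dia (M * q) (Hup M q H) O g z) γ.toMul
    rw [dia_apply, Corr.act_eq _ z γ.toMul 1 (fun _ => conjGam (M * q) (Hup M q H) g⁻¹ γ.toMul)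
      (fun i => ?_)]
    · exact (Finset.sum_eq_single (PUnit.unit, PUnit.unit) (fun b _ hb => absurd rfl hb)
        (fun h => absurd (Finset.mem_univ _) h))
    · show gl (wMat hqM) * gl (wMat hqM) * glQ γ.toMul =
        glQ ((conjGam (M * q) (Hup M q H) g⁻¹ γ.toMul : GamUp M q H) : SL(2, ℤ)) *
          (gl (wMat hqM) * gl (wMat hqM))
      have hd : (wMat hqM).det ≠ 0 := by
        rw [wMat, rep_det Fact.out]; exact gl_det_ne
      have hWW : gl (wMat hqM) * gl (wMat hqM) =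
          Matrix.GeneralLinearGroup.scalar (Fin 2)
            (Units.mk0 (q : ℚ) (by exact_mod_cast hq.ne_zero)) * glQ G := by
        rw [← gl_mul hd hd, e]
        apply Units.ext
        rw [coe_gl (by rw [← e, det_mul]; exact mul_ne_zero hd hd)]
        ext r s
        fin_cases r <;> fin_cases s <;>
          simp [Matrix.GeneralLinearGroup.scalar, Matrix.mul_apply, Fin.sum_univ_two,
            Matrix.natCast_apply]
      rw [hWW, show ((conjGam (M * q) (Hup M q H) g⁻¹ γ.toMul : GamUp M q H) : SL(2, ℤ)) =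
        G * (γ.toMul : SL(2, ℤ)) * G⁻¹ by simp [conjGam, g]]
      simp only [map_mul, map_inv]
      generalize glQ ((γ.toMul : GamUp M q H) : SL(2, ℤ)) = a
      generalize glQ G = b
      generalize Units.mk0 (q : ℚ) _ = c
      rw [scal_comm c b]
      rw [mul_assoc b _ a, scal_comm c a]
      group

/-- The Atkin-Lehner operator commutes with diamonds. -/
theorem Wc_dia (hqM : ¬ q ∣ M) (x : (ZMod (M * q))ˣ ⧸ Hup M q H) (z : Hom1 (GamUp M q H) O) :
    (Wc H hqM).act (diaHom (M * q) (Hup M q H) O x z) =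
      diaHom (M * q) (Hup M q H) O x ((Wc H hqM).act z) := by
  have : NeZero (M * q) := ⟨mul_ne_zero (NeZero.ne M) (Fact.out : q.Prime).ne_zero⟩
  obtain ⟨u, rfl⟩ := QuotientGroup.mk_surjective x
  obtain ⟨g, rfl⟩ := ulHom_surjective (M * q) u
  obtain ⟨g', hg', e⟩ := wMat_conj (H := (⊤ : Subgroup (ZMod M)ˣ)) hqM _
    (show (g : SL(2, ℤ)) ∈ GamUp M q ⊤ by rw [GamUp, Hup, Subgroup.comap_top]; exact g.2)
  let g₁ : GamH (M * q) ⊤ := ⟨g', GamH_le_top hg'⟩
  have hu : (ulHom (M * q) g)⁻¹ * ulHom (M * q) g₁ ∈ Hup M q H := by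
    rw [Hup, Subgroup.mem_comap, map_mul, map_inv, ← ulHom_down, ← ulHom_down]
    convert one_mem H
    rw [inv_mul_eq_one]
    refine Units.ext ?_
    rw [ulHom_val, ulHom_val]
    have hb := congrArg (fun x : ℤ => (x : ZMod M)) (bezout_eq (Fact.out : q.Prime) hqM)
    have e1 : wMat hqM * (g : SL(2, ℤ)).1 = g'.1 * wMat hqM :=
      mul_glQ_eq (rep_det Fact.out _) (rep_det Fact.out _) e
    have e00 := congrArg (fun X : MatZ => ((X 0 0 : ℤ) : ZMod M)) e1
    have hc : ((g : SL(2, ℤ)).1 1 0 : ZMod M) = 0 :=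
      (ZMod.intCast_zmod_eq_zero_iff_dvd _ _).2 (GamUp_top_le g.2).2.1
    simp [wMat, rep, Matrix.mul_apply, Fin.sum_univ_two, hc] at e00 hb
    show ((g : SL(2, ℤ)).1 0 0 : ZMod M) = (g'.1 0 0 : ZMod M)
    linear_combination e00 - (((g : SL(2, ℤ)).1 0 0 : ZMod M) - (g'.1 0 0 : ZMod M)) * hb
  rw [diaHom_mk, diaHom_mk]
  apply AddMonoidHom.ext
  intro γ
  show hv ((Wc H hqM).act _) γ.toMul = hv (dia (M * q) (Hup M q H) O g _) γ.toMul
  obtain ⟨δ, hδ, eδ⟩ := wMat_conj (H := H) hqM _ γ.toMul.2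
  rw [dia_apply, ← dia_congr hu z, Wc, Corr.single_act _ _ _ γ.toMul ⟨δ, hδ⟩ eδ, dia_apply,
    Corr.single_act _ _ _ (conjGam (M * q) (Hup M q H) g⁻¹ γ.toMul)
      (conjGam (M * q) (Hup M q H) g₁⁻¹ ⟨δ, hδ⟩)]
  show gl (wMat hqM) * glQ ((g : SL(2, ℤ))⁻¹ * (γ.toMul : SL(2, ℤ)) * ((g : SL(2, ℤ))⁻¹)⁻¹) =
    glQ (g'⁻¹ * δ * (g'⁻¹)⁻¹) * gl (wMat hqM)
  simp only [inv_inv, map_mul, map_inv]
  generalize glQ ((γ.toMul : GamUp M q H) : SL(2, ℤ)) = a at eδ ⊢
  generalize glQ δ = b at eδ ⊢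
  generalize glQ (g : SL(2, ℤ)) = c at e ⊢
  generalize glQ g' = d at e ⊢
  generalize gl (wMat hqM) = w at e eδ ⊢
  have hd' : d = w * c * w⁻¹ := by rw [e]; group
  have hb' : b = w * a * w⁻¹ := by rw [eδ]; group
  rw [hd', hb']
  group

/-- `I2` commutes with diamonds. -/
theorem I2_dia (hqM : ¬ q ∣ M) (x : (ZMod (M * q))ˣ ⧸ Hup M q H) (z : Hom1 (GamH M H) O) :
    diaHom (M * q) (Hup M q H) O x ((I2 H hqM).act z) =
      (I2 H hqM).act (diaHom M H O (deltaMap H q x) z) := by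
  have hz : z = diaHom M H O (qDia M H hqM) (diaHom M H O (qDia M H hqM)⁻¹ z) := by
    rw [← Module.End.mul_apply, ← map_mul, mul_inv_cancel, map_one, Module.End.one_apply]
  conv_lhs => rw [hz, ← Wc_res_dia hqM, ← Wc_dia hqM, res_dia, Wc_res_dia hqM]
  rw [← Module.End.mul_apply, ← Module.End.mul_apply, ← map_mul, ← map_mul]
  congr 3
  exact mul_inv_cancel_comm (qDia M H hqM) (deltaMap H q x)

/-- `I2` commutes with the correspondences away from `q`. -/
theorem I2_Tc_dia {ℓ : ℕ} [Fact ℓ.Prime] (hqM : ¬ q ∣ M) (hℓq : ℓ ≠ q)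
    (z : Hom1 (GamH M H) O) :
    (Tc (M * q) (Hup M q H) ℓ).act ((I2 H hqM).act z) =
      (I2 H hqM).act ((Tc M H ℓ).act z) := by
  have hd : ∀ (y : (ZMod M)ˣ ⧸ H) v, (Tc M H ℓ).act (diaHom M H O y v) =
      diaHom M H O y ((Tc M H ℓ).act v) := fun y v => Tc_diaHom M H O ⟨ℓ, Fact.out⟩ y v
  have hz : ∀ v, v = diaHom M H O (qDia M H hqM) (diaHom M H O (qDia M H hqM)⁻¹ v) := fun v => by
    rw [← Module.End.mul_apply, ← map_mul, mul_inv_cancel, map_one, Module.End.one_apply]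
  rw [hz z, ← Wc_res_dia hqM, Wc_Tc hqM hℓq, res_Tc_ne hℓq, Wc_res_dia hqM]
  simp only [hd]

variable [IsAddTorsionFree O]

theorem res_injective_GamUp :
    Function.Injective ((Corr.res (GamUp_le (M := M) (q := q) (H := H))).act (A := O)) :=
  have : NeZero (M * q) := ⟨mul_ne_zero (NeZero.ne M) (Fact.out : q.Prime).ne_zero⟩
  res_injective_of_finite _

/-- `J2` commutes with diamonds. -/
theorem J2_dia (hqM : ¬ q ∣ M) (x : (ZMod (M * q))ˣ ⧸ Hup M q H) (z : Hom1 (GamUp M q H) O) :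
    (J2 H hqM).act (diaHom (M * q) (Hup M q H) O x z) =
      diaHom M H O (deltaMap H q x) ((J2 H hqM).act z) := by
  have : NeZero (M * q) := ⟨mul_ne_zero (NeZero.ne M) (Fact.out : q.Prime).ne_zero⟩
  refine res_injective_GamUp (M := M) (q := q) (H := H) ?_
  rw [← res_dia, J2_res hqM, J2_res hqM, map_add, Wc_dia hqM]
  exact congrArg (· + _) (Tc_diaHom (M * q) (Hup M q H) O ⟨q, Fact.out⟩ x z)

/-- `J2` commutes with the correspondences away from `q`. -/
theorem J2_Tc {ℓ : ℕ} [Fact ℓ.Prime] (hqM : ¬ q ∣ M) (hℓq : ℓ ≠ q) (z : Hom1 (GamUp M q H) O) :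
    (J2 H hqM).act ((Tc (M * q) (Hup M q H) ℓ).act z) =
      (Tc M H ℓ).act ((J2 H hqM).act z) := by
  refine res_injective_GamUp (M := M) (q := q) (H := H) ?_
  rw [← res_Tc_ne hℓq, J2_res hqM, J2_res hqM, map_add, Wc_Tc hqM hℓq,
    Tc_comm (M * q) (Hup M q H) hℓq]

omit [IsAddTorsionFree O] in
/-- Corestriction is `J2` after the inverse of `W`. -/
theorem exists_cores_eq (hqM : ¬ q ∣ M) :
    ∃ x : (ZMod (M * q))ˣ ⧸ Hup M q H, deltaMap H q x = qDia M H hqM ∧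
      ∀ z : Hom1 (GamUp M q H) O, (Corr.cores (Γ := GamH M H)).act z =
        (J2 H hqM).act ((Wc H hqM).act (diaHom (M * q) (Hup M q H) O x⁻¹ z)) := by
  obtain ⟨x, hx, hW⟩ := exists_Wc_sq (H := H) (O := O) hqM
  refine ⟨x, hx, fun z => ?_⟩
  rw [← cores_Wc hqM, hW, ← Module.End.mul_apply, ← map_mul, mul_inv_cancel, map_one,
    Module.End.one_apply]

/-- Corestriction commutes with diamonds. -/
theorem cores_dia_up (hqM : ¬ q ∣ M) (y : (ZMod (M * q))ˣ ⧸ Hup M q H)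
    (z : Hom1 (GamUp M q H) O) :
    (Corr.cores (Γ := GamH M H)).act (diaHom (M * q) (Hup M q H) O y z) =
      diaHom M H O (deltaMap H q y) ((Corr.cores (Γ := GamH M H)).act z) := by
  obtain ⟨x, -, h⟩ := exists_cores_eq (H := H) (O := O) hqM
  rw [h, h, ← J2_dia hqM, ← Wc_dia hqM, ← Module.End.mul_apply, ← map_mul, mul_comm x⁻¹ y, map_mul,
    Module.End.mul_apply]

/-- Corestriction commutes with the correspondences away from `q`. -/
theorem cores_Tc_up {ℓ : ℕ} [Fact ℓ.Prime] (hqM : ¬ q ∣ M) (hℓq : ℓ ≠ q)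
    (z : Hom1 (GamUp M q H) O) :
    (Corr.cores (Γ := GamH M H)).act ((Tc (M * q) (Hup M q H) ℓ).act z) =
      (Tc M H ℓ).act ((Corr.cores (Γ := GamH M H)).act z) := by
  have : NeZero (M * q) := ⟨mul_ne_zero (NeZero.ne M) (Fact.out : q.Prime).ne_zero⟩
  obtain ⟨x, -, h⟩ := exists_cores_eq (H := H) (O := O) hqM
  rw [h, h, ← show (Tc (M * q) (Hup M q H) ℓ).act (diaHom _ _ O x⁻¹ z) = _ from
    Tc_diaHom (M * q) (Hup M q H) O ⟨ℓ, Fact.out⟩ x⁻¹ z, ← Wc_Tc hqM hℓq, J2_Tc hqM hℓq]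

omit [IsAddTorsionFree O] in
/-- `cores ∘ res = q + 1`. -/
theorem cores_res_up (hqM : ¬ q ∣ M) (z : Hom1 (GamH M H) O) :
    (Corr.cores (Γ := GamH M H)).act ((Corr.res (GamUp_le (H := H) (q := q))).act z) =
      (q + 1 : ℕ) • z := by
  obtain ⟨x, hx, h⟩ := exists_cores_eq (H := H) (O := O) hqM
  rw [h, res_dia, Wc_res_dia hqM, J2_of_I2, ← Module.End.mul_apply, ← map_mul, map_inv, hx,
    mul_inv_cancel, map_one, Module.End.one_apply]

omit [IsAddTorsionFree O] in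
/-- `cores ∘ I2 = T q ⟨q⟩⁻¹`. -/
theorem cores_I2_up (hqM : ¬ q ∣ M) (z : Hom1 (GamH M H) O) :
    (Corr.cores (Γ := GamH M H)).act ((I2 H hqM).act z) =
      (Tc M H q).act (diaHom M H O (qDia M H hqM)⁻¹ z) := by
  have : NeZero (M * q) := ⟨mul_ne_zero (NeZero.ne M) (Fact.out : q.Prime).ne_zero⟩
  conv_lhs => rw [show z = diaHom M H O (qDia M H hqM) (diaHom M H O (qDia M H hqM)⁻¹ z) by
    rw [← Module.End.mul_apply, ← map_mul, mul_inv_cancel, map_one, Module.End.one_apply],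
    ← Wc_res_dia hqM, cores_Wc hqM, J2_of_res]

end basic

section mackey

variable {N M q : ℕ} [NeZero N] [NeZero M] [Fact q.Prime] {H : Subgroup (ZMod M)ˣ}
  {A : Type*} [AddCommGroup A]

theorem GamH_le_of_dvd {N M : ℕ} {H : Subgroup (ZMod M)ˣ} (h : N ∣ M) : GamH M H ≤ GamH N ⊤ :=
  GamH_le_top.trans (GamH_top_le_of_dvd h)

omit [NeZero N] [NeZero M] in
theorem GamUp_le_of_dvd (h : N ∣ M) : GamUp M q H ≤ GamUp N q ⊤ := by
  have e : Hup N q (⊤ : Subgroup (ZMod N)ˣ) = ⊤ := Subgroup.comap_top _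
  intro g hg
  show g ∈ GamH (N * q) (Hup N q ⊤)
  rw [e]
  exact GamH_le_of_dvd (Nat.mul_dvd_mul_right h q) hg

omit [NeZero N] [NeZero M] in
/-- Every coset meets the matrices congruent to one modulo `q`. -/
theorem exists_cong_one (hqM : ¬ q ∣ M) (x : SL(2, ℤ)) :
    ∃ k ∈ GamH M H, (q : ℤ) ∣ (x * k).1 1 0 ∧ (q : ℤ) ∣ (x * k).1 0 1 := by
  obtain ⟨k, hk, he⟩ := exists_lift (l := q) ((Fact.out : q.Prime).coprime_iff_not_dvd.2 hqM)
    (toF q x⁻¹)
  have h1 : toF q (x * k) = 1 := by rw [map_mul, he, ← map_mul, mul_inv_cancel, map_one]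
  refine ⟨k, Gamma_le_GamH hk, ?_, ?_⟩ <;> rw [← ZMod.intCast_zmod_eq_zero_iff_dvd]
  · have h := congrFun (congrFun (congrArg Subtype.val h1) 1) 0
    rw [toF_apply] at h
    exact h.trans (by simp)
  · have h := congrFun (congrFun (congrArg Subtype.val h1) 0) 1
    rw [toF_apply] at h
    exact h.trans (by simp)

/-- Restriction to `q` in the level commutes with corestriction. -/
theorem res_cores_up (hNM : N ∣ M) (hqM : ¬ q ∣ M) (z : Hom1 (GamH M H) A) :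
    haveI : NeZero (M * q) := ⟨mul_ne_zero (NeZero.ne M) (Fact.out : q.Prime).ne_zero⟩
    (Corr.res (GamUp_le (H := (⊤ : Subgroup (ZMod N)ˣ)) (q := q))).act
        ((Corr.cores (Γ := GamH N ⊤)).act z) =
      (Corr.cores (Γ := GamUp N q ⊤)).act ((Corr.res (GamUp_le (H := H) (q := q))).act z) := by
  have : NeZero (M * q) := ⟨mul_ne_zero (NeZero.ne M) (Fact.out : q.Prime).ne_zero⟩
  have hqN : ¬ q ∣ N := fun h => hqM (h.trans hNM)
  refine cores_single 1 _ _ (GamUp_le_of_dvd hNM) (fun γ hγ δ hδ e => ?_) (fun x hx => ?_) z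
  · rw [one_mul, mul_one] at e
    rw [← glQ_injective e] at hδ
    exact (mem_GamUp hqM).2 ⟨hδ, ((mem_GamUp hqN).1 hγ).2⟩
  · obtain ⟨k, hk, h10, -⟩ := exists_cong_one (H := H) hqM x
    exact ⟨k, hk, x * k, (mem_GamUp hqN).2 ⟨mul_mem hx (GamH_le_of_dvd hNM hk), h10⟩, by
      rw [one_mul, mul_one]⟩

/-- The second degeneracy map commutes with corestriction. -/
theorem I2_cores_up (hNM : N ∣ M) (hqM : ¬ q ∣ M) (hqN : ¬ q ∣ N) (z : Hom1 (GamH M H) A) :
    haveI : NeZero (M * q) := ⟨mul_ne_zero (NeZero.ne M) (Fact.out : q.Prime).ne_zero⟩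
    (I2 ⊤ hqN).act ((Corr.cores (Γ := GamH N ⊤)).act z) =
      (Corr.cores (Γ := GamUp N q ⊤)).act ((I2 H hqM).act z) := by
  have : NeZero (M * q) := ⟨mul_ne_zero (NeZero.ne M) (Fact.out : q.Prime).ne_zero⟩
  refine cores_single (gl (eps q)) (eps_conj hqN) (eps_conj hqM) (GamUp_le_of_dvd hNM)
    (fun γ hγ δ hδ e => ?_) (fun x hx => ?_) z
  · have e01 := congrFun (congrFun (mul_glQ_eq (eps_det q) (eps_det q) e) 0) 1
    simp [eps, Matrix.mul_apply, Fin.sum_univ_two] at e01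
    obtain ⟨h, hh, e'⟩ := del_conj_up (H := H) hqM δ ⟨hδ, ⟨γ.1 0 1, e01.symm⟩⟩
    suffices γ = h by rwa [this]
    refine glQ_injective ?_
    rw [eps_eq_scalar] at e
    generalize glQ γ = g at e ⊢
    generalize glQ h = r at e' ⊢
    generalize glQ δ = b at e e'
    generalize gl (del q) = D at e e'
    generalize Units.mk0 (q : ℚ) _ = c at e
    rw [← mul_assoc b, ← scal_comm c b, mul_assoc, mul_assoc, mul_left_cancel_iff] at e
    have hg : g = D * (b * D⁻¹) := by rw [← e]; group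
    rw [hg, ← mul_assoc, e', mul_inv_cancel_right]
  · obtain ⟨k, hk, -, h01⟩ := exists_cong_one (H := H) hqM x
    obtain ⟨h, hh, e⟩ := del_conj_up (H := (⊤ : Subgroup (ZMod N)ˣ)) hqN (x * k)
      ⟨mul_mem hx (GamH_le_of_dvd hNM hk), h01⟩
    refine ⟨k, hk, h, hh, ?_⟩
    rw [eps_eq_scalar]
    generalize glQ (x * k) = b at e ⊢
    generalize glQ h = r at e ⊢
    generalize gl (del q) = D at e ⊢
    generalize Units.mk0 (q : ℚ) _ = c
    have hr : r = D * b * D⁻¹ := by rw [e]; group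
    rw [hr, mul_assoc, ← mul_assoc b, ← scal_comm c b, mul_assoc]
    group

/-- The second trace commutes with corestriction. -/
theorem J2_cores_up (hNM : N ∣ M) (hqM : ¬ q ∣ M) (hqN : ¬ q ∣ N) (z : Hom1 (GamUp M q H) A) :
    haveI : NeZero (M * q) := ⟨mul_ne_zero (NeZero.ne M) (Fact.out : q.Prime).ne_zero⟩
    (Corr.cores (Γ := GamH N ⊤)).act ((J2 H hqM).act z) =
      (J2 ⊤ hqN).act ((Corr.cores (Γ := GamUp N q ⊤)).act z) := by
  have : NeZero (M * q) := ⟨mul_ne_zero (NeZero.ne M) (Fact.out : q.Prime).ne_zero⟩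
  have : NeZero q := ⟨(Fact.out : q.Prime).ne_zero⟩
  have hle : GamH M H ⊓ upGam q ≤ GamH N ⊤ ⊓ upGam q := inf_le_inf_right _ (GamH_le_of_dvd hNM)
  have : Finite (GamH N ⊤ ⧸ (GamH M H ⊓ upGam q).subgroupOf (GamH N ⊤)) := inferInstance
  have : Finite (↥(GamH N ⊤ ⊓ upGam q) ⧸ (GamH M H ⊓ upGam q).subgroupOf (GamH N ⊤ ⊓ upGam q)) :=
    inferInstance
  have e1 : (J2 H hqM).act z = (Corr.cores (Γ := GamH M H) (Γ' := GamH M H ⊓ upGam q)).act
      ((Corr.single (gl (del q)) (del_conj_up (H := H) hqM)).act z) := by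
    rw [← (J2_double (H := H) hqM).act_eq z, Corr.comp_act]
  have e2 : ∀ w : Hom1 (GamUp N q ⊤) A, (J2 ⊤ hqN).act w =
      (Corr.cores (Γ := GamH N ⊤) (Γ' := GamH N ⊤ ⊓ upGam q)).act
        ((Corr.single (gl (del q)) (del_conj_up (H := (⊤ : Subgroup (ZMod N)ˣ)) hqN)).act w) :=
    fun w => by
      rw [← (J2_double (H := (⊤ : Subgroup (ZMod N)ˣ)) hqN).act_eq w, Corr.comp_act]
  rw [e1, e2, cores_trans (GamH_le_of_dvd hNM) inf_le_left,
    cores_single (gl (del q)) (del_conj_up (H := (⊤ : Subgroup (ZMod N)ˣ)) hqN)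
      (del_conj_up (H := H) hqM) hle (fun γ hγ δ hδ e => ?_) (fun x hx => ?_) z,
    cores_trans inf_le_left hle]
  · obtain ⟨γ', hγ', e'⟩ := del_conj_up_inv (H := H) hqM δ hδ
    suffices γ = γ' by rwa [this]
    refine glQ_injective ?_
    generalize glQ γ = g at e ⊢
    generalize glQ γ' = g' at e' ⊢
    generalize glQ δ = b at e e'
    generalize gl (del q) = D at e e'
    rw [← mul_right_cancel_iff (a := D⁻¹), ← e', eq_inv_mul_iff_mul_eq, ← mul_assoc, e,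
      mul_inv_cancel_right]
  · obtain ⟨γ, hγ, e⟩ := del_conj_up_inv (H := (⊤ : Subgroup (ZMod N)ˣ)) hqN x hx
    refine ⟨1, one_mem _, γ, hγ, ?_⟩
    rw [mul_one]
    generalize glQ γ = g at e ⊢
    generalize glQ x = b at e ⊢
    generalize gl (del q) = D at e ⊢
    have hb : b = D * g * D⁻¹ := by rw [mul_assoc, ← e]; group
    rw [hb, inv_mul_cancel_right]

end mackey

/-- The level `M'` is `M` with the prime `q` added, with the same diamonds. -/
structure IsStep (M q : ℕ) (H : Subgroup (ZMod M)ˣ) (M' : ℕ) (H' : Subgroup (ZMod M')ˣ) : Prop where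
  not_dvd : ¬ q ∣ M
  eq : M' = M * q
  dvd : M ∣ M'
  mem : ∀ u : (ZMod M')ˣ, u ∈ H' ↔ ZMod.unitsMap dvd u ∈ H

namespace IsStep

variable {M q : ℕ} [NeZero M] [Fact q.Prime] {H : Subgroup (ZMod M)ˣ} {M' : ℕ} [NeZero M']
  {H' : Subgroup (ZMod M')ˣ} (s : IsStep M q H M' H')

omit [NeZero M] [Fact q.Prime] [NeZero M'] in
theorem eq_Hup {H'' : Subgroup (ZMod (M * q))ˣ} (s : IsStep M q H (M * q) H'') :
    H'' = Hup M q H := SetLike.ext fun u => (s.mem u).trans Subgroup.mem_comap.symm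

include s in
omit [NeZero M] [NeZero M'] in
theorem le : GamH M' H' ≤ GamH M H := by
  obtain rfl := s.eq
  obtain rfl := s.eq_Hup
  exact GamUp_le

include s in
omit [NeZero M] [NeZero M'] in
theorem eps_mem : ∀ γ ∈ GamH M' H', ∃ δ ∈ GamH M H,
    gl (eps q) * glQ γ = glQ δ * gl (eps q) := by
  obtain rfl := s.eq
  obtain rfl := s.eq_Hup
  exact eps_conj s.not_dvd

/-- The first degeneracy map. -/
def res : Corr (GamH M H) (GamH M' H') := Corr.res s.le

/-- The second degeneracy map. -/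
def I2' : Corr (GamH M H) (GamH M' H') := Corr.single (gl (eps q)) s.eps_mem

include s in
omit [NeZero M] [NeZero M'] in
theorem rep_perm : ∀ γ : GamH M H, ∃ σ : Equiv.Perm (RIdx M q), ∀ i, ∃ h : GamH M' H',
    gl (rep M q i) * glQ γ = glQ h * gl (rep M q (σ i)) := by
  obtain rfl := s.eq
  obtain rfl := s.eq_Hup
  exact (J2 H s.not_dvd).exists_perm

/-- The second trace. -/
def J2' : Corr (GamH M' H') (GamH M H) where
  ι := RIdx M q
  α i := gl (rep M q i)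
  exists_perm := s.rep_perm

/-- The diamonds of the two levels. -/
def delta : (ZMod M')ˣ ⧸ H' →* (ZMod M)ˣ ⧸ H :=
  QuotientGroup.map _ _ (ZMod.unitsMap s.dvd) fun u hu => (s.mem u).1 hu

omit [NeZero M] [Fact q.Prime] [NeZero M'] in
theorem delta_mk (u : (ZMod M')ˣ) :
    s.delta (QuotientGroup.mk u) = QuotientGroup.mk (ZMod.unitsMap s.dvd u) := rfl

variable {O : Type} [CommRing O]

theorem res_diaHom (x : (ZMod M')ˣ ⧸ H') (z : Hom1 (GamH M H) O) :
    diaHom M' H' O x (s.res.act z) = s.res.act (diaHom M H O (s.delta x) z) := by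
  obtain rfl := s.eq
  obtain rfl := s.eq_Hup
  exact res_dia x z

theorem I2_diaHom (x : (ZMod M')ˣ ⧸ H') (z : Hom1 (GamH M H) O) :
    diaHom M' H' O x (s.I2'.act z) = s.I2'.act (diaHom M H O (s.delta x) z) := by
  obtain rfl := s.eq
  obtain rfl := s.eq_Hup
  exact I2_dia s.not_dvd x z

theorem res_Tc {ℓ : ℕ} [Fact ℓ.Prime] (hℓq : ℓ ≠ q) (z : Hom1 (GamH M H) O) :
    (Tc M' H' ℓ).act (s.res.act z) = s.res.act ((Tc M H ℓ).act z) := by
  obtain rfl := s.eq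
  obtain rfl := s.eq_Hup
  exact res_Tc_ne hℓq z

theorem I2_Tc {ℓ : ℕ} [Fact ℓ.Prime] (hℓq : ℓ ≠ q) (z : Hom1 (GamH M H) O) :
    (Tc M' H' ℓ).act (s.I2'.act z) = s.I2'.act ((Tc M H ℓ).act z) := by
  obtain rfl := s.eq
  obtain rfl := s.eq_Hup
  exact I2_Tc_dia s.not_dvd hℓq z

theorem J2_res' (z : Hom1 (GamH M H) O) : s.J2'.act (s.res.act z) = (Tc M H q).act z := by
  obtain rfl := s.eq
  obtain rfl := s.eq_Hup
  exact J2_of_res s.not_dvd z

theorem J2_I2' (z : Hom1 (GamH M H) O) : s.J2'.act (s.I2'.act z) = (q + 1 : ℕ) • z := by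
  obtain rfl := s.eq
  obtain rfl := s.eq_Hup
  exact J2_of_I2 s.not_dvd z

theorem cores_res' (z : Hom1 (GamH M H) O) :
    (Corr.cores (Γ := GamH M H)).act (s.res.act z) = (q + 1 : ℕ) • z := by
  obtain rfl := s.eq
  obtain rfl := s.eq_Hup
  exact cores_res_up s.not_dvd z

theorem cores_I2' (z : Hom1 (GamH M H) O) :
    (Corr.cores (Γ := GamH M H)).act (s.I2'.act z) =
      (Tc M H q).act (diaHom M H O (qDia M H s.not_dvd)⁻¹ z) := by
  obtain rfl := s.eq
  obtain rfl := s.eq_Hup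
  exact cores_I2_up s.not_dvd z

variable [IsAddTorsionFree O]

theorem cores_diaHom' (x : (ZMod M')ˣ ⧸ H') (z : Hom1 (GamH M' H') O) :
    (Corr.cores (Γ := GamH M H)).act (diaHom M' H' O x z) =
      diaHom M H O (s.delta x) ((Corr.cores (Γ := GamH M H)).act z) := by
  obtain rfl := s.eq
  obtain rfl := s.eq_Hup
  exact cores_dia_up s.not_dvd x z

theorem J2_diaHom (x : (ZMod M')ˣ ⧸ H') (z : Hom1 (GamH M' H') O) :
    s.J2'.act (diaHom M' H' O x z) = diaHom M H O (s.delta x) (s.J2'.act z) := by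
  obtain rfl := s.eq
  obtain rfl := s.eq_Hup
  exact J2_dia s.not_dvd x z

include s in
theorem cores_Tc {ℓ : ℕ} [Fact ℓ.Prime] (hℓq : ℓ ≠ q) (z : Hom1 (GamH M' H') O) :
    (Corr.cores (Γ := GamH M H)).act ((Tc M' H' ℓ).act z) =
      (Tc M H ℓ).act ((Corr.cores (Γ := GamH M H)).act z) := by
  obtain rfl := s.eq
  obtain rfl := s.eq_Hup
  exact cores_Tc_up s.not_dvd hℓq z

theorem J2_Tc' {ℓ : ℕ} [Fact ℓ.Prime] (hℓq : ℓ ≠ q) (z : Hom1 (GamH M' H') O) :
    s.J2'.act ((Tc M' H' ℓ).act z) = (Tc M H ℓ).act (s.J2'.act z) := by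
  obtain rfl := s.eq
  obtain rfl := s.eq_Hup
  exact J2_Tc s.not_dvd hℓq z

section base

variable {N N' : ℕ} [NeZero N] [NeZero N'] {K' : Subgroup (ZMod N')ˣ}
  (sN : IsStep N q (⊤ : Subgroup (ZMod N)ˣ) N' K') (hNM : N ∣ M) {A : Type*} [AddCommGroup A]

include hNM in
omit [IsAddTorsionFree O] in
theorem res_cores' (z : Hom1 (GamH M H) A) :
    sN.res.act ((Corr.cores (Γ := GamH N ⊤)).act z) =
      (Corr.cores (Γ := GamH N' K')).act (s.res.act z) := by
  obtain rfl := s.eq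
  obtain rfl := s.eq_Hup
  obtain rfl := sN.eq
  obtain rfl := sN.eq_Hup
  exact res_cores_up hNM s.not_dvd z

include hNM in
omit [IsAddTorsionFree O] in
theorem I2_cores' (z : Hom1 (GamH M H) A) :
    sN.I2'.act ((Corr.cores (Γ := GamH N ⊤)).act z) =
      (Corr.cores (Γ := GamH N' K')).act (s.I2'.act z) := by
  obtain rfl := s.eq
  obtain rfl := s.eq_Hup
  obtain rfl := sN.eq
  obtain rfl := sN.eq_Hup
  exact I2_cores_up hNM s.not_dvd sN.not_dvd z

include hNM in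
omit [IsAddTorsionFree O] in
theorem J2_cores' (z : Hom1 (GamH M' H') A) :
    (Corr.cores (Γ := GamH N ⊤)).act (s.J2'.act z) =
      sN.J2'.act ((Corr.cores (Γ := GamH N' K')).act z) := by
  obtain rfl := s.eq
  obtain rfl := s.eq_Hup
  obtain rfl := sN.eq
  obtain rfl := sN.eq_Hup
  exact J2_cores_up hNM s.not_dvd sN.not_dvd z

include s sN hNM in
omit [IsAddTorsionFree O] in
theorem cores_cores' (z : Hom1 (GamH M' H') A) :
    (Corr.cores (Γ := GamH N ⊤)).act ((Corr.cores (Γ := GamH M H)).act z) =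
      (Corr.cores (Γ := GamH N ⊤)).act ((Corr.cores (Γ := GamH N' K')).act z) := by
  obtain rfl := s.eq
  obtain rfl := s.eq_Hup
  obtain rfl := sN.eq
  obtain rfl := sN.eq_Hup
  have h1 : GamUp M q H ≤ GamH M H := GamUp_le
  have h2 : GamUp N q ⊤ ≤ GamH N ⊤ := GamUp_le
  have h3 : GamUp M q H ≤ GamUp N q ⊤ := GamUp_le_of_dvd hNM
  have : Finite (GamH N ⊤ ⧸ (GamUp M q H).subgroupOf (GamH N ⊤)) := inferInstance
  exact (cores_trans (GamH_le_of_dvd hNM) h1 z).trans (cores_trans h2 h3 z).symm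

end base

end IsStep

end FA.HeckeH1

end
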