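import Fermat.Agent.HeckeH1.Periods
import Fermat.Agent.HeckeH1.Neat

/-!
Diamond operators on `Γ_H(M)`: norm, commutation with the Hecke correspondences, and the
extension of invariant homomorphisms up to Eisenstein operators.
-/

set_option autoImplicit false

noncomputable section

namespace FA.HeckeH1

open CongruenceSubgroup
open scoped MatrixGroups

variable {M : ℕ} {H : Subgroup (ZMod M)ˣ}

theorem GamH_mono {H' : Subgroup (ZMod M)ˣ} (h : H ≤ H') : GamH M H ≤ GamH M H' :=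
  fun _ ⟨hd, hc, u, hu, hua⟩ => ⟨hd, hc, u, h hu, hua⟩

theorem GamH_le_top : GamH M H ≤ GamH M ⊤ := GamH_mono le_top

/-- The upper left unit of an element of `Γ₀(M)`. -/
def ulHom (M : ℕ) : GamH M ⊤ →* (ZMod M)ˣ where
  toFun γ := γ.2.2.2.choose
  map_one' := Units.ext (by
    rw [(1 : GamH M ⊤).2.2.2.choose_spec.2]
    simp)
  map_mul' a b := Units.ext (by
    rw [(a * b).2.2.2.choose_spec.2, Units.val_mul, a.2.2.2.choose_spec.2, b.2.2.2.choose_spec.2,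
      Subgroup.coe_mul, Matrix.SpecialLinearGroup.coe_mul, Matrix.mul_apply, Fin.sum_univ_two,
      Int.cast_add, Int.cast_mul, Int.cast_mul,
      (ZMod.intCast_zmod_eq_zero_iff_dvd _ _).2 b.2.2.1, mul_zero, add_zero])

theorem ulHom_val (γ : GamH M ⊤) : (ulHom M γ : ZMod M) = ((γ : SL(2, ℤ)).1 0 0 : ZMod M) :=
  γ.2.2.2.choose_spec.2

theorem mem_GamH_iff (γ : GamH M ⊤) : (γ : SL(2, ℤ)) ∈ GamH M H ↔ ulHom M γ ∈ H := by
  constructor
  · rintro ⟨-, -, u, hu, hua⟩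
    rwa [show ulHom M γ = u from Units.ext ((ulHom_val γ).trans hua.symm)]
  · intro h
    exact ⟨γ.2.1, γ.2.2.1, _, h, ulHom_val γ⟩

theorem ulHom_surjective (M : ℕ) [NeZero M] : Function.Surjective (ulHom M) := by
  intro u
  have hcop : (u : ZMod M).val.Coprime M := ZMod.val_coe_unit_coprime u
  obtain ⟨x, y, hxy⟩ := Int.isCoprime_iff_nat_coprime.2
    (show Nat.Coprime ((u : ZMod M).val : ℤ).natAbs (M : ℤ).natAbs by simpa [-ZMod.natCast_val] using hcop)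
  have hdet : ((!![((u : ZMod M).val : ℤ), -y; (M : ℤ), x] : MatZ)).det = 1 := by
    rw [Matrix.det_fin_two_of]; linear_combination hxy
  refine ⟨⟨⟨_, hdet⟩, hdet, by simp, u, Subgroup.mem_top _, by simp⟩, Units.ext ?_⟩
  rw [ulHom_val]
  simp

/-- Upper left entries of the representatives are `1`. -/
theorem rep_ul {ℓ : ℕ} (hℓ : ℓ.Prime) (i : RIdx M ℓ) : ((rep M ℓ i) 0 0 : ZMod M) = 1 := by
  obtain ⟨_ | j, hi⟩ := i
  · have := congrArg (fun x : ℤ => (x : ZMod M)) (bezout_eq hℓ (hi rfl))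
    simp only [Int.cast_add, Int.cast_mul, Int.cast_natCast, ZMod.natCast_self, zero_mul,
      add_zero, Int.cast_one] at this
    simp [rep, ← this, mul_comm]
  · simp [rep]

theorem Dl_change {n : ℤ} {H' : Subgroup (ZMod M)ˣ} {X : MatZ} (hX : X ∈ Dl M H' n)
    {v : (ZMod M)ˣ} (hv : v ∈ H) (he : (v : ZMod M) = (X 0 0 : ZMod M)) : X ∈ Dl M H n :=
  ⟨hX.1, hX.2.1, v, hv, he⟩

section res

variable {A : Type*} [AddCommGroup A] {ℓ : ℕ} [Fact ℓ.Prime]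

theorem Tc_fac_ul (γ : GamH M ⊤) (i : RIdx M ℓ) :
    ulHom M ((Tc M ⊤ ℓ).fac γ i) = ulHom M γ := by
  have hℓ : ℓ.Prime := Fact.out
  set h := (Tc M ⊤ ℓ).fac γ i
  set j := (Tc M ⊤ ℓ).perm γ i
  have hd : ∀ k, (rep M ℓ k).det ≠ 0 := fun k => by
    rw [rep_det hℓ]; exact_mod_cast hℓ.ne_zero
  have e : gl (rep M ℓ i) * glQ (γ : SL(2, ℤ)) = glQ (h : SL(2, ℤ)) * gl (rep M ℓ j) :=
    (Tc M ⊤ ℓ).fac_spec γ i
  rw [← gl_coe, ← gl_coe, ← gl_mul (hd i) (by rw [(γ : SL(2, ℤ)).2]; exact one_ne_zero),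
    ← gl_mul (by rw [(h : SL(2, ℤ)).2]; exact one_ne_zero) (hd j)] at e
  have e1 := gl_inj (by rw [Matrix.det_mul, (γ : SL(2, ℤ)).2, mul_one]; exact hd i)
    (by rw [Matrix.det_mul, (h : SL(2, ℤ)).2, one_mul]; exact hd j) e
  have e2 := congrArg (fun X : MatZ => (X 0 0 : ZMod M)) e1
  simp only [Matrix.mul_apply, Fin.sum_univ_two, Int.cast_add, Int.cast_mul, rep_ul hℓ,
    (ZMod.intCast_zmod_eq_zero_iff_dvd _ _).2 γ.2.2.1, mul_zero, add_zero, one_mul,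
    (ZMod.intCast_zmod_eq_zero_iff_dvd _ _).2 (rep_mem hℓ (⊤ : Subgroup (ZMod M)ˣ) j).2.1,
    mul_one] at e2
  exact Units.ext (by rw [ulHom_val, ulHom_val]; exact e2.symm)

theorem res_Tc_diamond (z : Hom1 (GamH M ⊤) A) :
    (Tc M H ℓ).act ((Corr.res GamH_le_top).act z) =
      (Corr.res (GamH_le_top (H := H))).act ((Tc M ⊤ ℓ).act z) := by
  apply AddMonoidHom.ext
  intro γ
  show hv _ γ.toMul = hv _ γ.toMul
  generalize γ.toMul = γ
  rw [Corr.res_act]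
  let γ₀ : GamH M ⊤ := ⟨γ.1, GamH_le_top γ.2⟩
  have hmem : ∀ i, ((Tc M ⊤ ℓ).fac γ₀ i : SL(2, ℤ)) ∈ GamH M H := fun i => by
    rw [mem_GamH_iff, Tc_fac_ul]
    exact (mem_GamH_iff γ₀).1 γ.2
  rw [(Tc M H ℓ).act_eq _ γ ((Tc M ⊤ ℓ).perm γ₀) (fun i => ⟨_, hmem i⟩)
    (fun i => (Tc M ⊤ ℓ).fac_spec γ₀ i)]
  show ∑ i, hv ((Corr.res GamH_le_top).act z) ⟨_, hmem i⟩ = ∑ i, hv z ((Tc M ⊤ ℓ).fac γ₀ i)
  exact Finset.sum_congr rfl fun i _ => Corr.res_act _ _ _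

end res

section dia

theorem diaConj_mem (g : GamH M ⊤) (x : GamH M H) :
    (g : SL(2, ℤ)) * x * (g : SL(2, ℤ))⁻¹ ∈ GamH M H := by
  let x₀ : GamH M ⊤ := ⟨x.1, GamH_le_top x.2⟩
  show ((g * x₀ * g⁻¹ : GamH M ⊤) : SL(2, ℤ)) ∈ GamH M H
  rw [mem_GamH_iff, map_mul, map_mul, map_inv, mul_inv_cancel_comm]
  exact (mem_GamH_iff x₀).1 x.2

variable (M H) in
/-- Conjugation by an element of `Γ₀(M)`. -/
def conjGam (g : GamH M ⊤) : GamH M H →* GamH M H where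
  toFun x := ⟨_, diaConj_mem g x⟩
  map_one' := Subtype.ext (by simp)
  map_mul' a b := Subtype.ext (by simp [mul_assoc])

variable {A : Type*} [CommRing A]

variable (M H A) in
/-- The diamond operator of an element of `Γ₀(M)`. -/
def dia (g : GamH M ⊤) : Hom1 (GamH M H) A →ₗ[A] Hom1 (GamH M H) A where
  toFun z := z.comp (MonoidHom.toAdditive (conjGam M H g⁻¹))
  map_add' _ _ := rfl
  map_smul' _ _ := rfl

theorem dia_apply (g : GamH M ⊤) (z : Hom1 (GamH M H) A) (x : GamH M H) :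
    hv (dia M H A g z) x = hv z (conjGam M H g⁻¹ x) := rfl

theorem dia_mul (g h : GamH M ⊤) (z : Hom1 (GamH M H) A) :
    dia M H A (g * h) z = dia M H A g (dia M H A h z) := by
  apply AddMonoidHom.ext
  intro x
  show hv z (conjGam M H (g * h)⁻¹ x.toMul) = hv z (conjGam M H h⁻¹ (conjGam M H g⁻¹ x.toMul))
  refine congrArg (fun t => hv z t) (Subtype.ext ?_)
  simp only [conjGam, MonoidHom.coe_mk, OneHom.coe_mk, Subgroup.coe_mul, Subgroup.coe_inv]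
  group

theorem dia_of_mem {g : GamH M ⊤} (hg : (g : SL(2, ℤ)) ∈ GamH M H) (z : Hom1 (GamH M H) A) :
    dia M H A g z = z := by
  apply AddMonoidHom.ext
  intro x
  show hv z (conjGam M H g⁻¹ x.toMul) = hv z x.toMul
  rw [show conjGam M H g⁻¹ x.toMul = (⟨_, hg⟩ : GamH M H)⁻¹ * x.toMul * ⟨_, hg⟩ from
    Subtype.ext (by simp [conjGam]), hv_mul, hv_mul, hv_inv]
  abel

theorem dia_congr {g g' : GamH M ⊤} (h : (ulHom M g)⁻¹ * ulHom M g' ∈ H)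
    (z : Hom1 (GamH M H) A) : dia M H A g' z = dia M H A g z := by
  have hm : ((g⁻¹ * g' : GamH M ⊤) : SL(2, ℤ)) ∈ GamH M H := by
    rw [mem_GamH_iff, map_mul, map_inv]; exact h
  conv_lhs => rw [show g' = g * (g⁻¹ * g') by group, dia_mul, dia_of_mem hm]

theorem Tc_dia {ℓ : ℕ} [Fact ℓ.Prime] (g : GamH M ⊤) (z : Hom1 (GamH M H) A) :
    (Tc M H ℓ).act (dia M H A g z) = dia M H A g ((Tc M H ℓ).act z) := by
  have hℓ : ℓ.Prime := Fact.out
  have hd : ∀ i, (rep M ℓ i).det ≠ 0 := fun i => by rw [rep_det hℓ]; exact_mod_cast hℓ.ne_zero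
  obtain ⟨a, ha⟩ : ∃ a : GamH M ⊤, a = g⁻¹ := ⟨_, rfl⟩
  have hstep : ∀ i : RIdx M ℓ,
      (a : SL(2, ℤ)).1 * rep M ℓ i * ((a⁻¹ : GamH M ⊤) : SL(2, ℤ)).1 ∈ Dl M H ℓ := fun i => by
    have h := Dl.mul (Dl.mul a.2 (rep_mem hℓ (⊤ : Subgroup (ZMod M)ˣ) i)) (a⁻¹).2
    rw [one_mul, mul_one] at h
    refine Dl_change h (one_mem H) ?_
    have hc := (ZMod.intCast_zmod_eq_zero_iff_dvd _ _).2 (a⁻¹).2.2.1
    have hr := (ZMod.intCast_zmod_eq_zero_iff_dvd _ _).2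
      (rep_mem hℓ (⊤ : Subgroup (ZMod M)ˣ) i).2.1
    simp only [Matrix.mul_apply, Fin.sum_univ_two, Int.cast_add, Int.cast_mul, hc, hr, mul_zero,
      add_zero, rep_ul hℓ, mul_one, ← ulHom_val]
    rw [Units.val_one, ← Units.val_mul, ← map_mul, mul_inv_cancel, map_one, Units.val_one]
  have h1 : ∀ i : RIdx M ℓ, ∃ k : RIdx M ℓ, ∃ h : GamH M H,
      glQ (a : SL(2, ℤ)) * gl (rep M ℓ i) * (glQ (a : SL(2, ℤ)))⁻¹ =
        glQ (h : SL(2, ℤ)) * gl (rep M ℓ k) := fun i => by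
    obtain ⟨k, h, e⟩ := exists_class hℓ (hstep i)
    refine ⟨k, h, ?_⟩
    rw [← e, gl_mul (by rw [Matrix.det_mul, (a : SL(2, ℤ)).2, one_mul]; exact hd i)
      (by rw [((a⁻¹ : GamH M ⊤) : SL(2, ℤ)).2]; exact one_ne_zero),
      gl_mul (by rw [(a : SL(2, ℤ)).2]; exact one_ne_zero) (hd i), gl_coe, gl_coe,
      Subgroup.coe_inv, map_inv]
  choose σ k e using h1
  have hσ : Function.Injective σ := fun i i' hii => by
    refine rep_class_inj hℓ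
      (g := (a : SL(2, ℤ))⁻¹ * ((k i : SL(2, ℤ)) * (k i' : SL(2, ℤ))⁻¹) * (a : SL(2, ℤ))) ?_
    have e1 := e i
    have e2 := e i'
    rw [← hii] at e2
    simp only [map_mul, map_inv]
    generalize glQ (a : SL(2, ℤ)) = J at e1 e2 ⊢
    generalize glQ (k i : SL(2, ℤ)) = P at e1 e2 ⊢
    generalize glQ (k i' : SL(2, ℤ)) = Q at e1 e2 ⊢
    generalize gl (rep M ℓ (σ i)) = R at e1 e2 ⊢
    generalize gl (rep M ℓ i) = X at e1 ⊢
    generalize gl (rep M ℓ i') = X' at e2 ⊢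
    have hX : X = J⁻¹ * (P * R) * J := by rw [← e1]; group
    have hX' : X' = J⁻¹ * (Q * R) * J := by rw [← e2]; group
    rw [hX, hX']
    group
  have key := fun γ => Corr.act_conjugate (Tc M H ℓ) (conjGam M H a) (glQ (a : SL(2, ℤ)))
    (fun γ => by simp [conjGam]) (Equiv.ofBijective σ (Finite.injective_iff_bijective.1 hσ))
    k e z γ
  subst ha
  exact AddMonoidHom.ext fun γ => key γ.toMul

end dia

section norm

variable {A : Type*} [CommRing A] [NeZero M]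

/-- Restriction after corestriction is the norm. -/
theorem res_cores [hfin : Fintype (GamH M ⊤ ⧸ (GamH M H).subgroupOf (GamH M ⊤))] (z : Hom1 (GamH M H) A) :
    (Corr.res GamH_le_top).act ((Corr.cores (Γ := GamH M ⊤)).act z) =
      ∑ x : GamH M ⊤ ⧸ (GamH M H).subgroupOf (GamH M ⊤), dia M H A x.out z := by
  apply AddMonoidHom.ext
  intro γ
  rw [AddMonoidHom.finsetSum_apply]
  show hv _ γ.toMul = ∑ x, hv (dia M H A _ z) γ.toMul
  generalize γ.toMul = γ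
  rw [Corr.res_act]
  let C : Corr (GamH M H) (GamH M ⊤) := Corr.cores (Γ := GamH M ⊤)
  rw [C.act_eq z ⟨γ.1, GamH_le_top γ.2⟩ 1 (fun x => conjGam M H x.out⁻¹ γ) fun x => ?_]
  · exact @Fintype.sum_equiv _ _ _ C.fin hfin _ (Equiv.refl _) _ _ fun _ => rfl
  · show glQ ((x.out : GamH M ⊤) : SL(2, ℤ))⁻¹ * glQ γ.1 =
      glQ ((conjGam M H x.out⁻¹ γ : GamH M H) : SL(2, ℤ)) *
        glQ ((x.out : GamH M ⊤) : SL(2, ℤ))⁻¹
    simp [conjGam]

omit [NeZero M] in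
/-- Corestriction commutes with the correspondences. -/
theorem cores_Tc_diamond {ℓ : ℕ} [Fact ℓ.Prime]
    [Finite (GamH M ⊤ ⧸ (GamH M H).subgroupOf (GamH M ⊤))] (z : Hom1 (GamH M H) A) :
    (Tc M ⊤ ℓ).act ((Corr.cores (Γ := GamH M ⊤)).act z) =
      (Corr.cores (Γ := GamH M ⊤)).act ((Tc M H ℓ).act z) := by
  classical
  have hℓ : ℓ.Prime := Fact.out
  have hd : ∀ i, (rep M ℓ i).det ≠ 0 := fun i => by rw [rep_det hℓ]; exact_mod_cast hℓ.ne_zero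
  let C : Corr (GamH M H) (GamH M ⊤) := Corr.cores (Γ := GamH M ⊤)
  rw [← Corr.comp_act, ← Corr.comp_act]
  refine Corr.Same.act_eq ?_ z
  have h1 : ∀ x : C.ι × RIdx M ℓ, ∃ k : RIdx M ℓ, ∃ h : GamH M H,
      glQ ((x.1.out : GamH M ⊤) : SL(2, ℤ))⁻¹ * gl (rep M ℓ x.2) =
        glQ (h : SL(2, ℤ)) * (gl (rep M ℓ k) * glQ ((x.1.out : GamH M ⊤) : SL(2, ℤ))⁻¹) := by
    intro x
    set r : GamH M ⊤ := x.1.out
    have h := Dl.mul (Dl.mul (r⁻¹).2 (rep_mem hℓ (⊤ : Subgroup (ZMod M)ˣ) x.2)) r.2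
    rw [one_mul, mul_one] at h
    have hmem := Dl_change (H := H) h (one_mem H) (by
      have hc := (ZMod.intCast_zmod_eq_zero_iff_dvd _ _).2 r.2.2.1
      have hr := (ZMod.intCast_zmod_eq_zero_iff_dvd _ _).2
        (rep_mem hℓ (⊤ : Subgroup (ZMod M)ˣ) x.2).2.1
      simp only [Matrix.mul_apply, Fin.sum_univ_two, Int.cast_add, Int.cast_mul, hc, hr, mul_zero,
        add_zero, rep_ul hℓ, mul_one, ← ulHom_val]
      rw [Units.val_one, ← Units.val_mul, map_inv, inv_mul_cancel, Units.val_one])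
    obtain ⟨k, g, e⟩ := exists_class hℓ hmem
    refine ⟨k, g, ?_⟩
    rw [gl_mul (by rw [Matrix.det_mul, ((r⁻¹ : GamH M ⊤) : SL(2, ℤ)).2, one_mul]; exact hd _)
      (by rw [(r : SL(2, ℤ)).2]; exact one_ne_zero),
      gl_mul (by rw [((r⁻¹ : GamH M ⊤) : SL(2, ℤ)).2]; exact one_ne_zero) (hd _), gl_coe, gl_coe,
      Subgroup.coe_inv] at e
    rw [← mul_assoc, ← e, mul_assoc _ (glQ (r : SL(2, ℤ))), map_inv, mul_inv_cancel, mul_one]
  choose k g e using h1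
  let y : C.ι × RIdx M ℓ → RIdx M ℓ × C.ι := fun x => (k x, x.1)
  have hy : Function.Injective y := fun x x' hxx => by
    obtain ⟨hk, hx1⟩ := Prod.ext_iff.1 hxx
    refine Prod.ext hx1 ?_
    let r : GamH M ⊤ := x.1.out
    refine rep_class_inj hℓ
      (g := (r : SL(2, ℤ)) * ((g x : SL(2, ℤ)) * (g x' : SL(2, ℤ))⁻¹) * (r : SL(2, ℤ))⁻¹) ?_
    have e1 := e x
    have e2 := e x'
    rw [← show k x = k x' from hk, ← show x.1 = x'.1 from hx1] at e2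
    simp only [map_mul, map_inv] at e1 e2 ⊢
    generalize glQ (r : SL(2, ℤ)) = J at e1 e2 ⊢
    generalize gl (rep M ℓ x.2) = X at e1 e2 ⊢
    generalize gl (rep M ℓ x'.2) = X' at e1 e2 ⊢
    generalize glQ (g x : SL(2, ℤ)) = P at e1 e2 ⊢
    generalize glQ (g x' : SL(2, ℤ)) = Q at e1 e2 ⊢
    generalize gl (rep M ℓ (k x)) = K at e1 e2 ⊢
    rw [inv_mul_eq_iff_eq_mul] at e1 e2
    rw [e1, e2]
    group
  exact ⟨Equiv.ofBijective y ((Fintype.bijective_iff_injective_and_card y).2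
    ⟨hy, by rw [Fintype.card_prod, Fintype.card_prod, mul_comm]⟩), fun x => ⟨g x, e x⟩⟩

/-- **Invariant homomorphisms extend up to an Eisenstein operator.** -/
theorem exists_extension (ℓ : ℕ) [Fact ℓ.Prime] (hℓM : ¬ ℓ ∣ M) (ψ : Hom1 (GamH M H) A)
    (hinv : ∀ g : GamH M ⊤, dia M H A g ψ = ψ) :
    ∃ w : Hom1 (GamH M ⊤) A,
      (Corr.res GamH_le_top).act w = (Tc M H ℓ).act ψ - (ℓ + 1 : ℕ) • ψ := by
  classical
  have hℓ : ℓ.Prime := Fact.out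
  -- a section of the upper left character modulo `H`
  choose s hs using fun u : (ZMod M)ˣ ⧸ H => (ulHom_surjective M) u.out
  let cls : GamH M ⊤ → (ZMod M)ˣ ⧸ H := fun γ => QuotientGroup.mk (ulHom M γ)
  have hmem : ∀ γ : GamH M ⊤, (((s (cls γ))⁻¹ * γ : GamH M ⊤) : SL(2, ℤ)) ∈ (GamH M H) := fun γ => by
    rw [mem_GamH_iff, map_mul, map_inv, hs]
    exact QuotientGroup.eq.1 (QuotientGroup.out_eq' (cls γ))
  let Φ : GamH M ⊤ → A := fun γ => hv ψ ⟨_, hmem γ⟩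
  -- the defect depends on the classes only
  have hright : ∀ (γ : GamH M ⊤) (n : (GamH M H)), Φ (γ * ⟨n.1, GamH_le_top n.2⟩) = Φ γ + hv ψ n := by
    intro γ n
    have hc : cls (γ * ⟨n.1, GamH_le_top n.2⟩) = cls γ := by
      simp only [cls, map_mul, QuotientGroup.mk_mul]
      rw [(QuotientGroup.eq_one_iff _).2 ((mem_GamH_iff (⟨n.1, GamH_le_top n.2⟩ : GamH M ⊤)).1 n.2)]
      exact mul_one (QuotientGroup.mk (ulHom M γ) : (ZMod M)ˣ ⧸ H)
    rw [← hv_mul]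
    refine congrArg (fun x => hv ψ x) (Subtype.ext ?_)
    show (((s (cls _))⁻¹ * (γ * _) : GamH M ⊤) : SL(2, ℤ)) =
      (((s (cls γ))⁻¹ * γ : GamH M ⊤) : SL(2, ℤ)) * n.1
    rw [hc, ← mul_assoc]
    rfl
  have hleft : ∀ (n : (GamH M H)) (γ : GamH M ⊤), Φ (⟨n.1, GamH_le_top n.2⟩ * γ) = hv ψ n + Φ γ := by
    intro n γ
    have e : (⟨n.1, GamH_le_top n.2⟩ : GamH M ⊤) * γ =
        γ * ⟨(conjGam M H γ⁻¹ n).1, GamH_le_top (conjGam M H γ⁻¹ n).2⟩ :=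
      Subtype.ext (by simp [conjGam, ← mul_assoc])
    rw [e, hright, ← dia_apply, hinv, add_comm]
  let f : (ZMod M)ˣ ⧸ H → (ZMod M)ˣ ⧸ H → A := fun a b => Φ (s a * s b) - Φ (s a) - Φ (s b)
  have hf : ∀ γ δ : GamH M ⊤, Φ (γ * δ) = Φ γ + Φ δ + f (cls γ) (cls δ) := by
    intro γ δ
    have hdec : ∀ γ : GamH M ⊤, γ = s (cls γ) * ⟨_, GamH_le_top (hmem γ)⟩ := fun γ =>
      Subtype.ext (by simp)
    have hΦ : ∀ γ, Φ γ = Φ (s (cls γ)) + hv ψ ⟨_, hmem γ⟩ := fun γ => by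
      conv_lhs => rw [hdec γ]
      exact hright _ ⟨_, hmem γ⟩
    set m : (GamH M H) := ⟨_, hmem γ⟩
    set n : (GamH M H) := ⟨_, hmem δ⟩
    conv_lhs => rw [hdec γ, hdec δ]
    have e : s (cls γ) * (⟨m.1, GamH_le_top m.2⟩ : GamH M ⊤) *
        (s (cls δ) * ⟨n.1, GamH_le_top n.2⟩) = s (cls γ) * s (cls δ) *
        ⟨(conjGam M H (s (cls δ))⁻¹ m).1, GamH_le_top (conjGam M H (s (cls δ))⁻¹ m).2⟩ *
        ⟨n.1, GamH_le_top n.2⟩ := Subtype.ext (by simp [conjGam, mul_assoc])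
    rw [e, hright, hright, ← dia_apply, hinv, hΦ γ, hΦ δ]
    simp only [f]
    abel
  -- the correspondence of the extension
  let C := Tc M ⊤ ℓ
  let CΦ : GamH M ⊤ → A := fun γ => ∑ i : RIdx M ℓ, Φ (C.fac γ i)
  have hperm : ∀ (γ δ : GamH M ⊤) (i : RIdx M ℓ),
      C.fac (γ * δ) i = C.fac γ i * C.fac δ (C.perm γ i) ∧
        C.perm (γ * δ) i = C.perm δ (C.perm γ i) := by
    intro γ δ i
    have e1 := C.fac_spec γ i
    have e2 := C.fac_spec δ (C.perm γ i)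
    have e3 := C.fac_spec (γ * δ) i
    rw [Subgroup.coe_mul, map_mul, ← mul_assoc, e1, mul_assoc, e2, ← mul_assoc] at e3
    have hk : C.perm δ (C.perm γ i) = C.perm (γ * δ) i := rep_class_inj hℓ
      (g := ((C.fac γ i * C.fac δ (C.perm γ i))⁻¹ * C.fac (γ * δ) i : GamH M ⊤)) (by
        show C.α (C.perm δ (C.perm γ i)) = _ * C.α (C.perm (γ * δ) i)
        rw [Subgroup.coe_mul, map_mul, Subgroup.coe_inv, map_inv, Subgroup.coe_mul, map_mul,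
          mul_assoc, ← e3, ← mul_assoc, inv_mul_cancel, one_mul])
    rw [← hk] at e3
    refine ⟨Subtype.ext (glQ_injective ?_), hk.symm⟩
    rw [Subgroup.coe_mul, map_mul]
    exact (mul_right_cancel e3).symm
  have hCΦ : ∀ γ δ, CΦ (γ * δ) = CΦ γ + CΦ δ + (ℓ + 1 : ℕ) • f (cls γ) (cls δ) := by
    intro γ δ
    have hcls : ∀ (γ : GamH M ⊤) (i : RIdx M ℓ), cls (C.fac γ i) = cls γ := fun γ i => by
      simp only [cls, C, Tc_fac_ul]
    simp only [CΦ, (hperm γ δ _).1, hf, hcls, Finset.sum_add_distrib, Finset.sum_const,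
      Finset.card_univ, card_RIdx hℓM]
    congr 2
    exact Equiv.sum_comp (C.perm γ) (fun i : RIdx M ℓ => Φ (C.fac δ i))
  refine ⟨AddMonoidHom.mk' (fun γ => CΦ γ.toMul - (ℓ + 1 : ℕ) • Φ γ.toMul) (fun γ δ => ?_), ?_⟩
  · rw [toMul_add, hCΦ, hf, smul_add, smul_add]; abel
  apply AddMonoidHom.ext
  intro γ
  show hv _ γ.toMul = hv ((Tc M H ℓ).act ψ - (ℓ + 1 : ℕ) • ψ) γ.toMul
  generalize γ.toMul = γ
  rw [Corr.res_act]
  let γ₀ : GamH M ⊤ := ⟨γ.1, GamH_le_top γ.2⟩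
  show CΦ γ₀ - (ℓ + 1 : ℕ) • Φ γ₀ = hv ((Tc M H ℓ).act ψ) γ - (ℓ + 1 : ℕ) • hv ψ γ
  have hres : ∀ n : (GamH M H), Φ ⟨n.1, GamH_le_top n.2⟩ = hv ψ n + Φ 1 := fun n => by
    rw [← hleft, mul_one]
  have hmem' : ∀ i, (C.fac γ₀ i : SL(2, ℤ)) ∈ (GamH M H) := fun i => by
    rw [mem_GamH_iff, Tc_fac_ul]
    exact (mem_GamH_iff γ₀).1 γ.2
  have e : CΦ γ₀ = hv ((Tc M H ℓ).act ψ) γ + (ℓ + 1 : ℕ) • Φ 1 := by
    rw [(Tc M H ℓ).act_eq ψ γ (C.perm γ₀) (fun i => ⟨_, hmem' i⟩) (fun i => C.fac_spec γ₀ i)]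
    simp only [CΦ, hres ⟨_, hmem' _⟩]
    rw [← card_RIdx hℓM, ← Finset.card_univ, ← Finset.sum_const]
    exact Finset.sum_add_distrib
  rw [e, hres γ, smul_add]
  abel

end norm

end FA.HeckeH1

end
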