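import Fermat.Agent.HeckeH1.DiamondDegeneracy

/-!
On classes killed by both traces at `q` the square of `U_q` is the diamond of `q`.
-/

set_option autoImplicit false

noncomputable section

namespace FA.HeckeH1

open scoped MatrixGroups

namespace IsStep

variable {M q : ℕ} [NeZero M] [Fact q.Prime] {H : Subgroup (ZMod M)ˣ} {M' : ℕ} [NeZero M']
  {H' : Subgroup (ZMod M')ˣ} (s : IsStep M q H M' H')

omit [NeZero M] [Fact q.Prime] [NeZero M'] in
/-- The diamonds of the two levels are the same group. -/
theorem delta_injective : Function.Injective s.delta := by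
  rw [injective_iff_map_eq_one]
  intro y hy
  obtain ⟨u, rfl⟩ := QuotientGroup.mk_surjective y
  rw [s.delta_mk, QuotientGroup.eq_one_iff] at hy
  exact (QuotientGroup.eq_one_iff u).2 ((s.mem u).2 hy)

variable {O : Type} [CommRing O] [IsAddTorsionFree O]

/-- **`U_q² = ⟨q⟩` on classes killed by both traces.** -/
theorem U_sq_of_killed (z : Hom1 (GamH M' H') O)
    (hc : (Corr.cores (Γ := GamH M H)).act z = 0) (hJ : s.J2'.act z = 0) :
    ∃ x, s.delta x = qDia M H s.not_dvd ∧
      (Tc M' H' q).act ((Tc M' H' q).act z) = diaHom M' H' O x z := by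
  obtain rfl := s.eq
  obtain rfl := s.eq_Hup
  obtain ⟨x, hx, hWW⟩ := exists_Wc_sq (H := H) (O := O) s.not_dvd
  refine ⟨x, hx, ?_⟩
  have key : ∀ w : Hom1 (GamUp M q H) O, (J2 H s.not_dvd).act w = 0 →
      (Tc (M * q) (Hup M q H) q).act w = -(Wc H s.not_dvd).act w := fun w hw => by
    have e := J2_res (H := H) s.not_dvd w
    rw [hw, map_zero] at e
    exact eq_neg_of_add_eq_zero_left e.symm
  have hJW : (J2 H s.not_dvd).act ((Wc H s.not_dvd).act z) = 0 := by
    rw [← cores_Wc s.not_dvd, hWW]
    have e := s.cores_diaHom' x z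
    rw [hc, map_zero] at e
    exact e
  rw [key z hJ, map_neg, key _ hJW, neg_neg, hWW]

end IsStep

end FA.HeckeH1

end
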