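import Fermat.Agent.HeckeH1.PieceMaps

/-!
Every map commuting with the operators away from `S` carries the piece of the residual system
into the piece: it vanishes where the system does not occur at the target.
-/

set_option autoImplicit false

noncomputable section

namespace FA.HeckeH1

open IsLocalRing
open scoped MatrixGroups

variable {O : Type} [CommRing O] [IsDomain O] [IsDiscreteValuationRing O]
  [IsAdicComplete (maximalIdeal O) O] [CharZero O] {S : Finset Nat.Primes}
  {c : Nat.Primes → ResidueField O} {N : ℕ} [NeZero N]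

omit [IsAdicComplete (maximalIdeal O) O] [CharZero O] in
/-- The system occurs as soon as the relations among the operators hold residually. -/
theorem hasSys_of_ker_le (φ : MvPolynomial Nat.Primes O →ₐ[O] ResidueField O)
    (hφ : ∀ ℓ, ℓ ∉ S → φ (.X ℓ) = c ℓ)
    (hker : ∀ x, heckePoly N ⊤ O S x = 0 → φ x = 0) : HasSys S c N := by
  have hsurj := heckePoly_surjective N ⊤ O S
  refine ⟨(Ideal.Quotient.liftₐ (RingHom.ker (heckePoly N ⊤ O S)) φ
    (fun x hx => hker x hx)).comp (Ideal.quotientKerAlgEquivOfSurjective hsurj).symm.toAlgHom,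
    fun ℓ hℓ => ?_⟩
  rw [AlgHom.comp_apply,
    show (Ideal.quotientKerAlgEquivOfSurjective hsurj).symm.toAlgHom (Tgen N ⊤ O S ℓ) =
      Ideal.Quotient.mk _ (.X ℓ) from (Ideal.quotientKerAlgEquivOfSurjective hsurj).injective
        (((Ideal.quotientKerAlgEquivOfSurjective hsurj).apply_symm_apply _).trans
          (MvPolynomial.aeval_X _ ℓ).symm)]
  exact hφ ℓ hℓ

variable {N' : ℕ} [NeZero N'] (f : Hom1 (GamH N ⊤) O →ₗ[O] Hom1 (GamH N' ⊤) O)
  (hint : ∀ ℓ : Nat.Primes, ℓ ∉ S → ∀ z,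
    f ((Tc N ⊤ (ℓ : ℕ)).act z) = (Tc N' ⊤ (ℓ : ℕ)).act (f z))

include hint in
/-- **Maps commuting with the operators carry the piece into the piece.** -/
theorem sys_stable (z : Hom1 (GamH N ⊤) O) :
    sysIdem S c N' (f (sysIdem S c N z)) = f (sysIdem S c N z) := by
  classical
  by_cases h : HasSys S c N
  swap
  · rw [sysIdem_of_not S c h]
    simp
  by_cases h' : HasSys S c N'
  · rw [← sysIdem_intertwine h h' f hint, sysIdem_idem]
  rw [sysIdem_of_not S c h', LinearMap.zero_apply]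
  obtain ⟨χ, e, hχ, he, hee⟩ := exists_sysPiece h
  obtain ⟨x, hx0, hx⟩ : ∃ x, heckePoly N' ⊤ O S x = 0 ∧ χ (heckePoly N ⊤ O S x) ≠ 0 := by
    by_contra hcon
    push Not at hcon
    exact h' (hasSys_of_ker_le (χ.comp (heckePoly N ⊤ O S)) (fun ℓ hℓ => by
      rw [AlgHom.comp_apply, show heckePoly N ⊤ O S (.X ℓ) = Tgen N ⊤ O S ℓ from
        MvPolynomial.aeval_X _ ℓ, hχ ℓ hℓ]) hcon)
  have hall : ∀ y w, f ((heckePoly N ⊤ O S y).1 w) = (heckePoly N' ⊤ O S y).1 (f w) := by
    intro y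
    induction y using MvPolynomial.induction_on with
    | C r =>
      intro w
      simp only [heckePoly, MvPolynomial.aeval_C]
      exact f.map_smul r w
    | add y y' hy hy' =>
      intro w
      rw [map_add, map_add]
      show f (_ + _) = _ + _
      rw [map_add, hy, hy']
    | mul_X y ℓ hy =>
      intro w
      rw [map_mul, map_mul]
      show f ((heckePoly N ⊤ O S y).1 ((heckePoly N ⊤ O S (.X ℓ)).1 w)) =
        (heckePoly N' ⊤ O S y).1 ((heckePoly N' ⊤ O S (.X ℓ)).1 (f w))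
      rw [hy, show heckePoly N ⊤ O S (.X ℓ) = Tgen N ⊤ O S ℓ from MvPolynomial.aeval_X _ ℓ,
        show heckePoly N' ⊤ O S (.X ℓ) = Tgen N' ⊤ O S ℓ from MvPolynomial.aeval_X _ ℓ]
      congr 1
      by_cases hℓ : ℓ ∈ S
      · rw [Tgen_apply_mem N ⊤ O S hℓ, Tgen_apply_mem N' ⊤ O S hℓ, map_zero]
      · rw [Tgen_apply N ⊤ O S hℓ, Tgen_apply N' ⊤ O S hℓ, hint ℓ hℓ]
  obtain ⟨t, ht⟩ := he.inv _ hx
  obtain ⟨y, rfl⟩ := heckePoly_surjective N ⊤ O S t
  rw [← map_mul] at ht
  have e1 : e.1 z = (heckePoly N ⊤ O S (y * x)).1 (e.1 z) :=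
    (LinearMap.congr_fun (congrArg Subtype.val ht) z).symm
  rw [← hee, e1, hall, map_mul, hx0, mul_zero]
  rfl

end FA.HeckeH1

end
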