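import Fermat.Agent.HeckeH1.DepthTower
import Fermat.Agent.HeckeH1.SysStable
import Fermat.Agent.HeckeH1.NewClass

/-!
A residual system absent at a base level is absent from the Taylor-Wiles levels above it, and maps
commuting with the operators carry Taylor-Wiles pieces into Taylor-Wiles pieces.
-/

set_option autoImplicit false
set_option linter.unusedSectionVars false

noncomputable section

namespace FA.HeckeH1

open IsLocalRing
open scoped MatrixGroups

section trace

variable {M q : ℕ} [NeZero M] [Fact q.Prime] {M' : ℕ} [NeZero M'] {H' : Subgroup (ZMod M')ˣ}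
  (s : IsStep M q (⊤ : Subgroup (ZMod M)ˣ) M' H') {O : Type} [CommRing O] [IsAddTorsionFree O]

/-- `cores ∘ U = q J2`. -/
theorem IsStep.cores_U (z : Hom1 (GamH M' H') O) :
    (Corr.cores (Γ := GamH M ⊤)).act ((Tc M' H' q).act z) = q • s.J2'.act z := by
  obtain rfl := s.eq
  obtain rfl := s.eq_Hup
  have h := congrArg (Corr.cores (Γ := GamH M ⊤) (Γ' := GamUp M q ⊤)).act
    (J2_res (H := (⊤ : Subgroup (ZMod M)ˣ)) s.not_dvd z)
  rw [cores_res_up s.not_dvd, map_add, cores_Wc s.not_dvd, succ_nsmul] at h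
  exact (add_right_cancel h).symm

/-- `J2 ∘ U = T ∘ J2 - cores`. -/
theorem IsStep.J2_U (z : Hom1 (GamH M' H') O) :
    s.J2'.act ((Tc M' H' q).act z) =
      (Tc M ⊤ q).act (s.J2'.act z) - (Corr.cores (Γ := GamH M ⊤)).act z := by
  obtain rfl := s.eq
  obtain rfl := s.eq_Hup
  obtain ⟨x, -, hWW⟩ := exists_Wc_sq (H := (⊤ : Subgroup (ZMod M)ˣ)) (O := O) s.not_dvd
  have : Subsingleton ((ZMod M)ˣ ⧸ (⊤ : Subgroup (ZMod M)ˣ)) :=
    QuotientGroup.subsingleton_quotient_top
  have hJW : (J2 _ s.not_dvd).act ((Wc _ s.not_dvd).act z) =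
      (Corr.cores (Γ := GamH M ⊤)).act z := by
    rw [← cores_Wc s.not_dvd, hWW]
    have e := s.cores_diaHom' x z
    rw [Subsingleton.elim (s.delta x) 1, map_one, Module.End.one_apply] at e
    exact e
  rw [eq_sub_iff_add_eq]
  have h := congrArg (J2 (⊤ : Subgroup (ZMod M)ˣ) s.not_dvd).act
    (J2_res (H := (⊤ : Subgroup (ZMod M)ˣ)) s.not_dvd z)
  rw [J2_of_res s.not_dvd, map_add, hJW] at h
  exact h.symm

include s in
/-- `T ∘ cores ∘ U = cores ∘ (U² + q)`. -/
theorem IsStep.T_cores_U (z : Hom1 (GamH M' H') O) :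
    (Tc M ⊤ q).act ((Corr.cores (Γ := GamH M ⊤)).act ((Tc M' H' q).act z)) =
      (Corr.cores (Γ := GamH M ⊤)).act ((Tc M' H' q).act ((Tc M' H' q).act z) + q • z) := by
  rw [map_add, map_nsmul, s.cores_U z, s.cores_U, s.J2_U, map_nsmul, smul_sub, sub_add_cancel]

end trace

section descend

variable {O A B k : Type} [CommRing O] [CommRing A] [Algebra O A] [CommRing B] [Algebra O B]
  [CommRing k] [Algebra O k]

/-- Characters killing the kernel of a surjection descend. -/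
theorem exists_descend_hom {π : A →ₐ[O] B} (hπ : Function.Surjective π) (χ : A →ₐ[O] k)
    (h : ∀ x, π x = 0 → χ x = 0) : ∃ χ' : B →ₐ[O] k, ∀ x, χ' (π x) = χ x := by
  refine ⟨(Ideal.Quotient.liftₐ (RingHom.ker π) χ fun x hx => h x hx).comp
    (Ideal.quotientKerAlgEquivOfSurjective hπ).symm.toAlgHom, fun x => ?_⟩
  rw [AlgHom.comp_apply, show (Ideal.quotientKerAlgEquivOfSurjective hπ).symm.toAlgHom (π x) =
    Ideal.Quotient.mk _ x from (Ideal.quotientKerAlgEquivOfSurjective hπ).injective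
      (((Ideal.quotientKerAlgEquivOfSurjective hπ).apply_symm_apply _).trans rfl)]
  rfl

end descend

section carried

variable {O : Type} [CommRing O] [IsDomain O] [IsDiscreteValuationRing O]
  [IsAdicComplete (maximalIdeal O) O] [CharZero O]
  (S : Finset Nat.Primes) (c : Nat.Primes → ResidueField O) (α : Nat.Primes → O)

open scoped Classical in
/-- The residual values: `α` at the primes of `Q`, the system at the others, zero on `S`. -/
def resVal (Q : Finset Nat.Primes) : MvPolynomial Nat.Primes O →ₐ[O] ResidueField O :=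
  MvPolynomial.aeval fun ℓ => if ℓ ∈ S then 0 else if ℓ ∈ Q then residue O (α ℓ) else c ℓ

/-- A space of classes on which the operators have the residual values: stable, and every operator
with nonzero value is onto. -/
structure Carried (Q : Finset Nat.Primes) (M : ℕ) [NeZero M]
    (V : Submodule O (Hom1 (GamH M ⊤) O)) : Prop where
  stable : ∀ x, ∀ v ∈ V, (heckePoly M ⊤ O S x).1 v ∈ V
  onto : ∀ x, resVal S c α Q x ≠ 0 → ∀ v ∈ V, ∃ u ∈ V, (heckePoly M ⊤ O S x).1 u = v

variable {S c α}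

theorem heckePoly_X_apply {M : ℕ} [NeZero M] {ℓ : Nat.Primes} (h : ℓ ∉ S)
    (z : Hom1 (GamH M ⊤) O) :
    (heckePoly M ⊤ O S (.X ℓ)).1 z = (Tc M ⊤ (ℓ : ℕ)).act z := by
  rw [heckePoly, MvPolynomial.aeval_X, Tgen_apply M ⊤ O S h]

theorem heckePoly_mul_apply {M : ℕ} [NeZero M] (x y : MvPolynomial Nat.Primes O)
    (z : Hom1 (GamH M ⊤) O) :
    (heckePoly M ⊤ O S (x * y)).1 z = (heckePoly M ⊤ O S x).1 ((heckePoly M ⊤ O S y).1 z) := by
  rw [map_mul]
  rfl

theorem heckePoly_add_apply {M : ℕ} [NeZero M] (x y : MvPolynomial Nat.Primes O)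
    (z : Hom1 (GamH M ⊤) O) :
    (heckePoly M ⊤ O S (x + y)).1 z =
      (heckePoly M ⊤ O S x).1 z + (heckePoly M ⊤ O S y).1 z := by
  rw [map_add]
  rfl

/-- **A system absent at level `N` is absent at level `N ∏ q`.** -/
theorem Carried.eq_bot {N : ℕ} [NeZero N] (hN : ¬ HasSys S c N) (Q : Finset Nat.Primes)
    (hQN : ∀ q ∈ Q, ¬ (q : ℕ) ∣ N) (hQS : ∀ q ∈ Q, q ∉ S)
    (hroot : ∀ q ∈ Q, residue O (α q) ^ 2 - c q * residue O (α q) + ((q : ℕ) : ResidueField O) = 0)
    (hsimple : ∀ q ∈ Q, 2 * residue O (α q) - c q ≠ 0)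
    (hq1 : ∀ q ∈ Q, ((q : ℕ) : ResidueField O) = 1)
    (M : ℕ) [NeZero M] (hM : M = N * ∏ q ∈ Q, (q : ℕ)) (V : Submodule O (Hom1 (GamH M ⊤) O))
    (hV : Carried S c α Q M V) : V = ⊥ := by
  classical
  induction Q using Finset.induction_on generalizing M with
  | empty =>
    obtain rfl : M = N := by simpa using hM
    obtain ⟨x, hx0, hx⟩ : ∃ x, heckePoly M ⊤ O S x = 0 ∧ resVal S c α ∅ x ≠ 0 := by
      by_contra hcon
      push Not at hcon
      exact hN (hasSys_of_ker_le (resVal S c α ∅) (fun ℓ hℓ => by simp [resVal, hℓ]) hcon)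
    refine (Submodule.eq_bot_iff _).2 fun v hv => ?_
    obtain ⟨u, -, hu⟩ := hV.onto x hx v hv
    rw [← hu, hx0]
    rfl
  | @insert r Q hrQ ih =>
    set M₀ := N * ∏ q ∈ Q, (q : ℕ) with hM₀
    have hMr : M = M₀ * (r : ℕ) := by rw [hM, Finset.prod_insert hrQ, hM₀]; ring
    have : NeZero M₀ := ⟨left_ne_zero_of_mul (hMr ▸ NeZero.ne M)⟩
    have hrM₀ : ¬ (r : ℕ) ∣ M₀ := fun h => by
      rcases (Nat.Prime.dvd_mul r.2).1 h with h | h
      · exact hQN r (Finset.mem_insert_self r Q) h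
      · obtain ⟨q, hq, hd⟩ := (Prime.dvd_finsetProd_iff r.2.prime _).1 h
        exact hrQ (by rwa [show r = q from Subtype.ext ((Nat.prime_dvd_prime_iff_eq r.2 q.2).1 hd)])
    have st : IsStep M₀ (r : ℕ) (⊤ : Subgroup (ZMod M₀)ˣ) M (⊤ : Subgroup (ZMod M)ˣ) :=
      ⟨hrM₀, hMr, ⟨_, hMr⟩, fun _ => iff_of_true (Subgroup.mem_top _) (Subgroup.mem_top _)⟩
    have hrS : r ∉ S := hQS r (Finset.mem_insert_self r Q)
    set a := residue O (α r) with ha
    have hroot' : a ^ 2 - c r * a + 1 = 0 := by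
      have := hroot r (Finset.mem_insert_self r Q)
      rwa [hq1 r (Finset.mem_insert_self r Q)] at this
    have hrr := hq1 r (Finset.mem_insert_self r Q)
    have ha0 : a ≠ 0 := fun h => by simp [h] at hroot'
    let C : Hom1 (GamH M ⊤) O →ₗ[O] Hom1 (GamH M₀ ⊤) O :=
      (Corr.cores (Γ := GamH M₀ ⊤)).actLin
    let φ := resVal S c α (insert r Q)
    let φ₀ := resVal S c α Q
    let U : MvPolynomial Nat.Primes O := .X r
    have hφU : φ U = a := by simp [φ, U, resVal, hrS, ha]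
    have claim : ∀ x, ∃ (n : ℕ) (y : MvPolynomial Nat.Primes O), φ y = a ^ n * φ₀ x ∧
        ∀ u : Hom1 (GamH M ⊤) O, (heckePoly M₀ ⊤ O S x).1 (C ((heckePoly M ⊤ O S (U ^ n)).1 u)) =
          C ((heckePoly M ⊤ O S y).1 u) := by
      intro x
      induction x using MvPolynomial.induction_on with
      | C t =>
        refine ⟨0, .C t, by simp [φ, φ₀, resVal], fun u => ?_⟩
        rw [pow_zero, map_one]
        simp only [heckePoly, MvPolynomial.aeval_C]
        exact (C.map_smul t u).symm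
      | add x₁ x₂ h₁ h₂ =>
        obtain ⟨n₁, y₁, e₁, f₁⟩ := h₁
        obtain ⟨n₂, y₂, e₂, f₂⟩ := h₂
        refine ⟨n₁ + n₂, y₁ * U ^ n₂ + y₂ * U ^ n₁, ?_, fun u => ?_⟩
        · rw [map_add, map_mul, map_mul, map_pow, map_pow, hφU, e₁, e₂, map_add, pow_add]
          ring
        · rw [heckePoly_add_apply, heckePoly_add_apply, map_add, heckePoly_mul_apply y₁,
            heckePoly_mul_apply y₂, ← f₁, ← f₂, ← heckePoly_mul_apply, ← heckePoly_mul_apply,
            ← pow_add, ← pow_add, add_comm n₂ n₁]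
      | mul_X x ℓ h =>
        obtain ⟨n, y, e, f⟩ := h
        by_cases hℓS : ℓ ∈ S
        · refine ⟨0, 0, by simp [φ₀, resVal, hℓS], fun u => ?_⟩
          rw [map_mul, show heckePoly M₀ ⊤ O S (.X ℓ) = 0 by
            rw [heckePoly, MvPolynomial.aeval_X, Tgen_eq_zero hℓS]]
          simp
        by_cases hℓr : ℓ = r
        · subst hℓr
          refine ⟨n + 1, y * (U ^ 2 + ((ℓ : ℕ) : MvPolynomial Nat.Primes O)), ?_, fun u => ?_⟩
          · have h0 : φ₀ (.X ℓ) = c ℓ := by simp [φ₀, resVal, hℓS, hrQ]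
            rw [map_mul, e, map_add, map_pow, hφU, map_natCast, hrr, map_mul, h0, pow_succ]
            linear_combination (a ^ n * φ₀ x) * hroot'
          · have hUn : ∀ w, (heckePoly M ⊤ O S U).1 w = (Tc M ⊤ (ℓ : ℕ)).act w :=
              heckePoly_X_apply hrS
            rw [heckePoly_mul_apply, heckePoly_X_apply hℓS, pow_succ', heckePoly_mul_apply, hUn]
            show (heckePoly M₀ ⊤ O S x).1 ((Tc M₀ ⊤ (ℓ : ℕ)).act
              ((Corr.cores (Γ := GamH M₀ ⊤)).act ((Tc M ⊤ (ℓ : ℕ)).act _))) = _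
            rw [st.T_cores_U, ← hUn, ← hUn, ← heckePoly_mul_apply, ← heckePoly_mul_apply,
              heckePoly_mul_apply y, ← f, ← heckePoly_mul_apply (U ^ n)]
            congr 1
            show C _ = C _
            congr 1
            rw [mul_add, heckePoly_add_apply, mul_comm (U ^ n) (U ^ 2), pow_two,
              mul_comm (U ^ n) ((ℓ : ℕ) : MvPolynomial Nat.Primes O), ← nsmul_eq_mul, map_nsmul,
              mul_assoc]
            rfl
        · refine ⟨n, y * .X ℓ, ?_, fun u => ?_⟩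
          · rw [map_mul, map_mul, e, show φ (.X ℓ) = φ₀ (.X ℓ) by
              simp [φ, φ₀, resVal, hℓr]]
            ring
          · rw [heckePoly_mul_apply, heckePoly_mul_apply, heckePoly_X_apply hℓS,
              heckePoly_X_apply hℓS, ← f, ← heckePoly_X_apply (M := M) hℓS, ← heckePoly_mul_apply,
              mul_comm, heckePoly_mul_apply, heckePoly_X_apply hℓS]
            congr 1
            exact (st.cores_Tc (fun h => hℓr (Subtype.ext h)) _).symm
    have hφone : ∀ n, φ (U ^ n) ≠ 0 := fun n => by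
      rw [map_pow, hφU]; exact pow_ne_zero n ha0
    have hV₀ : Carried S c α Q M₀ (V.map C) := by
      refine ⟨fun x => ?_, fun x hx => ?_⟩
      · rintro _ ⟨v, hv, rfl⟩
        obtain ⟨n, y, -, f⟩ := claim x
        obtain ⟨u, hu, rfl⟩ := hV.onto _ (hφone n) v hv
        exact ⟨_, hV.stable y u hu, (f u).symm⟩
      · rintro _ ⟨v, hv, rfl⟩
        obtain ⟨n, y, e, f⟩ := claim x
        obtain ⟨u, hu, rfl⟩ := hV.onto y (by rw [e]; exact mul_ne_zero (pow_ne_zero n ha0) hx) v hv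
        exact ⟨_, Submodule.mem_map_of_mem (hV.stable _ u hu), f u⟩
    have hC0 := ih (fun q hq => hQN q (Finset.mem_insert_of_mem hq))
      (fun q hq => hQS q (Finset.mem_insert_of_mem hq))
      (fun q hq => hroot q (Finset.mem_insert_of_mem hq))
      (fun q hq => hsimple q (Finset.mem_insert_of_mem hq))
      (fun q hq => hq1 q (Finset.mem_insert_of_mem hq)) M₀ rfl (V.map C) hV₀
    have hC : ∀ v ∈ V, (Corr.cores (Γ := GamH M₀ ⊤)).act v = 0 := fun v hv =>
      (Submodule.mem_bot O).1 (hC0 ▸ Submodule.mem_map_of_mem (f := C) hv)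
    have hJ : ∀ v ∈ V, st.J2'.act v = 0 := fun v hv => by
      have h := hC _ (hV.stable U v hv)
      rw [heckePoly_X_apply hrS, st.cores_U] at h
      refine AddMonoidHom.ext fun γ => ?_
      have hγ : (r : ℕ) • (st.J2'.act v γ) = 0 := DFunLike.congr_fun h γ
      exact (smul_eq_zero.1 hγ).resolve_left r.2.ne_zero
    refine (Submodule.eq_bot_iff _).2 fun v hv => ?_
    obtain ⟨u, hu, rfl⟩ := hV.onto (U * U - 1) (by
      show φ _ ≠ 0
      rw [map_sub, map_mul, map_one, hφU]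
      intro h
      refine hsimple r (Finset.mem_insert_self r Q) ((mul_eq_zero.1 ?_).resolve_left ha0)
      linear_combination hroot' + h) v hv
    obtain ⟨x, -, hx⟩ := st.U_sq_of_killed u (hC u hu) (hJ u hu)
    have : Subsingleton ((ZMod M)ˣ ⧸ (⊤ : Subgroup (ZMod M)ˣ)) :=
      QuotientGroup.subsingleton_quotient_top
    rw [map_sub, map_one]
    show (heckePoly M ⊤ O S (U * U)).1 u - u = 0
    rw [heckePoly_mul_apply, heckePoly_X_apply hrS, heckePoly_X_apply hrS, hx,
      Subsingleton.elim x 1, map_one, Module.End.one_apply, sub_self]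

section away

variable {M : ℕ} [NeZero M] {H : Subgroup (ZMod M)ˣ}

/-- A residual piece at a level above `N ∏ q` vanishes at level `Γ₀`. -/
theorem piece_snd_eq_zero [Finite (GamH M ⊤ ⧸ (GamH M H).subgroupOf (GamH M ⊤))] {N : ℕ} [NeZero N]
    (hN : ¬ HasSys S c N) (Q : Finset Nat.Primes)
    (hQN : ∀ q ∈ Q, ¬ (q : ℕ) ∣ N) (hQS : ∀ q ∈ Q, q ∉ S)
    (hroot : ∀ q ∈ Q, residue O (α q) ^ 2 - c q * residue O (α q) + ((q : ℕ) : ResidueField O) = 0)
    (hsimple : ∀ q ∈ Q, 2 * residue O (α q) - c q ≠ 0)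
    (hq1 : ∀ q ∈ Q, ((q : ℕ) : ResidueField O) = 1) (hM : M = N * ∏ q ∈ Q, (q : ℕ))
    (χ : pairAway M H O S →ₐ[O] ResidueField O)
    (hχ : ∀ ℓ, χ (Tp M H O S ℓ) = resVal S c α Q (.X ℓ)) (e : pairAway M H O S)
    (he : IsPiece χ e) : e.1.2 = 0 := by
  let ι : MvPolynomial Nat.Primes O →ₐ[O] pairAway M H O S := MvPolynomial.aeval (Tp M H O S)
  have hι : ∀ x, (ι x).1.2 = (heckePoly M ⊤ O S x).1 := fun x =>
    (sndHom_val _ _ _ _ (ι x)).symm.trans (congrArg Subtype.val (AlgHom.congr_fun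
      (MvPolynomial.algHom_ext (f := (sndHom M H O S).comp ι) (g := heckePoly M ⊤ O S)
        fun ℓ => by simp [ι, heckePoly, sndHom_Tp]) x))
  have hχι : χ.comp ι = resVal S c α Q := MvPolynomial.algHom_ext fun ℓ => by
    simp only [AlgHom.comp_apply, ι, MvPolynomial.aeval_X]
    exact hχ ℓ
  have hW : Carried S c α Q M (LinearMap.range e.1.2) := by
    refine ⟨fun x => ?_, fun x hx => ?_⟩
    · rintro _ ⟨w, rfl⟩
      refine ⟨(heckePoly _ ⊤ O S x).1 w, ?_⟩
      rw [← hι]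
      exact LinearMap.congr_fun (congrArg (fun y : pairAway M H O S => y.1.2) (mul_comm e (ι x))) w
    · rintro _ ⟨w, rfl⟩
      obtain ⟨s, hs⟩ := he.inv (ι x) (by rwa [← AlgHom.comp_apply, hχι])
      refine ⟨(e * s).1.2 w, ⟨s.1.2 w, rfl⟩, ?_⟩
      rw [← hι]
      exact LinearMap.congr_fun (congrArg (fun y : pairAway M H O S => y.1.2)
        (show ι x * (e * s) = e by rw [mul_comm e s, ← mul_assoc, mul_comm (ι x) s, hs])) w
  exact LinearMap.range_eq_bot.1 (hW.eq_bot hN Q hQN hQS hroot hsimple hq1 M hM _)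

/-- A piece which is not Eisenstein and vanishes at level `Γ₀` vanishes. -/
theorem piece_fst_eq_zero [Finite (GamH M ⊤ ⧸ (GamH M H).subgroupOf (GamH M ⊤))]
    [Fintype ((ZMod M)ˣ ⧸ H)] {p : ℕ} [Fact p.Prime] [CharP (ResidueField O) p]
    (hL : GoodLevel M H O) (hG : IsPGroup p ((ZMod M)ˣ ⧸ H))
    (χ : pairAway M H O S →ₐ[O] ResidueField O) (e : pairAway M H O S) (he : IsPiece χ e)
    {ℓ : Nat.Primes} (hℓM : ¬ (ℓ : ℕ) ∣ M) (hℓS : ℓ ∉ S)
    (hℓ : χ (Tp M H O S ℓ) ≠ ((ℓ : ℕ) : ResidueField O) + 1) (hsnd : e.1.2 = 0) : e.1.1 = 0 := by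
  obtain ⟨s, hs⟩ := he.inv (Tp M H O S ℓ - ((ℓ : ℕ) + 1 : ℕ)) (by
    rw [map_sub, map_natCast, sub_ne_zero, Nat.cast_add, Nat.cast_one]
    exact hℓ)
  have hs' : incl M H O S s * (⟨_, Tpair_mem M H O ℓ⟩ - ((ℓ : ℕ) + 1 : ℕ)) * incl M H O S e =
      incl M H O S e := by
    have h := congrArg (incl M H O S) hs
    rwa [map_mul, map_mul, map_sub, map_natCast, Tp_incl M H O S hℓS] at h
  obtain ⟨D⟩ := exists_freeData (p := p) hL hG (he.idem.map (incl M H O S)) hℓM hs'
  have hd : IsEmpty (Fin D.d) := ⟨fun i => D.bu_linearIndependent.ne_zero i (by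
    rw [← D.e_bu i, incl_val, hsnd]; rfl)⟩
  refine LinearMap.ext fun w => ?_
  obtain ⟨a, ha⟩ := D.span (e.1.1 w) (by
    rw [incl_val]
    exact LinearMap.congr_fun (congrArg (fun y : pairAway M H O S => y.1.1) he.idem.eq) w)
  rw [← ha, combo_apply, Finset.univ_eq_empty, Finset.sum_empty]
  rfl

end away

end carried

section depth

variable {O : Type} [CommRing O] [IsDomain O] [IsDiscreteValuationRing O]
  [IsAdicComplete (maximalIdeal O) O] [CharZero O] {X : Type} [DecidableEq X] {qn : X → ℕ}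
  {bad : Finset ℕ} {L : LevelSet qn bad} {c : Nat.Primes → ResidueField O} {G : Type}
  [CommGroup G] {bad' : Finset ℕ} {Y : Type} [DecidableEq Y] {qn₂ : Y → ℕ} {bad₂ : Finset ℕ}
  {L₂ : LevelSet qn₂ bad₂} {bad₂' : Finset ℕ}

namespace TWPart

/-- The generators of the operators away from `S`. -/
def pgen (T : TWPart L c G bad') (U : Finset X) :
    Nat.Primes ⊕ G → pairAway (T.lvl U) (T.H U) O L.S :=
  Sum.elim (Tp _ _ O L.S) fun g => diaP _ _ O L.S ((T.iota U).symm g)

theorem pgen_adjoin (T : TWPart L c G bad') (U : Finset X)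
    (x : pairAway (T.lvl U) (T.H U) O L.S) : x ∈ Algebra.adjoin O (Set.range (T.pgen U)) := by
  obtain ⟨x, hx⟩ := x
  induction hx using Algebra.adjoin_induction with
  | mem y hy =>
    rcases hy with ⟨ℓ, rfl⟩ | ⟨g, rfl⟩
    · exact Algebra.subset_adjoin ⟨.inl ℓ, rfl⟩
    · refine Algebra.subset_adjoin ⟨.inr (T.iota U g), ?_⟩
      show diaP _ _ O L.S ((T.iota U).symm (T.iota U g)) = _
      rw [MulEquiv.symm_apply_apply]
      rfl
  | algebraMap r => exact Subalgebra.algebraMap_mem _ r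
  | add a b ha' hb' ha hb => exact add_mem ha hb
  | mul a b ha' hb' ha hb => exact mul_mem ha hb

/-- The operators on the classes at the level. -/
abbrev popH (T : TWPart L c G bad') (U : Finset X) :
    pairAway (T.lvl U) (T.H U) O L.S →ₐ[O] Module.End O (Hom1 (GamH (T.lvl U) (T.H U)) O) :=
  (AlgHom.fst O (Module.End O (Hom1 (GamH (T.lvl U) (T.H U)) O))
    (Module.End O (Hom1 (GamH (T.lvl U) ⊤) O))).comp (pairAway (T.lvl U) (T.H U) O L.S).val

/-- The residual values of a piece on the generators. -/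
def pval (T : TWPart L c G bad') : Nat.Primes ⊕ G → ResidueField O := by
  classical
  exact Sum.elim (fun ℓ => if ℓ ∈ L.S then 0 else if ℓ ∈ T.Q then residue O (T.α ℓ) else c ℓ)
    fun _ => 1

theorem tw_pgen (T : TWPart L c G bad') (U : Finset X) (h : HasSys L.S c (L.lvl U))
    (i : Nat.Primes ⊕ G) : (T.tw U h).χ (T.pgen U i) = T.pval i := by
  classical
  rcases i with ℓ | g
  · show (T.tw U h).χ (Tp _ _ O L.S ℓ) = ite _ _ _
    split_ifs with hℓ hℓQ
    · rw [Tp_of_mem _ _ _ _ hℓ, map_zero]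
    · exact (T.tw U h).χ_U ℓ hℓQ
    · rw [(T.tw U h).χ_T ℓ hℓQ, T.chi₀_spec U h ℓ hℓ]
  · exact (T.tw U h).χ_dia _

/-- **A residual character with the values of a piece has its piece in the frame**, zero where the
system does not occur. -/
theorem frame_e_of_char (T : TWPart L c G bad') (U : Finset X)
    (χ : pairAway (T.lvl U) (T.H U) O L.S →ₐ[O] ResidueField O)
    (hχ : ∀ i, χ (T.pgen U i) = T.pval i) (e : pairAway (T.lvl U) (T.H U) O L.S)
    (he : IsPiece χ e) : (T.frame U).e = T.popH U e := by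
  classical
  by_cases hV : HasSys L.S c (L.lvl U)
  · have h1 : χ = (T.tw U hV).χ := AlgHom.ext fun x => by
      have hx := T.pgen_adjoin U x
      induction hx using Algebra.adjoin_induction with
      | mem y hy =>
        obtain ⟨i, rfl⟩ := hy
        rw [hχ, T.tw_pgen U hV]
      | algebraMap r => rw [AlgHom.commutes, AlgHom.commutes]
      | add a b _ _ ha hb => rw [map_add, map_add, ha, hb]
      | mul a b _ _ ha hb => rw [map_mul, map_mul, ha, hb]
    subst h1
    rw [T.frame_e_of U hV, he.unique (T.tw U hV).piece]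
    rfl
  classical
  rw [T.frame_of_not U hV]
  obtain ⟨ℓ, hℓL, -, hℓ⟩ := T.nonEis (T.lvl U * ∏ r ∈ L.S, (r : ℕ))
    (mul_ne_zero (NeZero.ne _) (Finset.prod_ne_zero_iff.2 fun r _ => r.2.ne_zero))
  have hℓM : ¬ (ℓ : ℕ) ∣ T.lvl U := fun h => hℓL (h.mul_right _)
  have hℓS : ℓ ∉ L.S := fun h => hℓL ((Finset.dvd_prod_of_mem _ h).mul_left _)
  have hℓQ : ℓ ∉ T.Q := fun h => hℓM (T.Q_dvd U h)
  have := Fact.mk T.hp
  have := T.charP
  have hL : GoodLevel (T.lvl U) (T.H U) O := by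
    refine ⟨?_, T.neat.mono (GamH_top_le_of_dvd ((L.dvd_lvl U).trans (T.base_dvd U)))⟩
    show T.κU U (-1) = 1
    rw [κU, MonoidHom.comp_apply]
    convert T.neg_one
    exact Units.ext (by simp [ZMod.unitsMap])
  have hχT : ∀ ℓ, χ (Tp _ _ O L.S ℓ) = resVal L.S c T.α T.Q (.X ℓ) := fun ℓ => by
    rw [resVal, MvPolynomial.aeval_X]
    exact (hχ (.inl ℓ)).trans (by simp [pval])
  have hM : T.lvl U = L.lvl U * ∏ q ∈ T.Q, (q : ℕ) := rfl
  have hsnd := piece_snd_eq_zero (M := T.lvl U) (H := T.H U) (N := L.lvl U) hV T.Q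
    (fun q hq => T.Q_not_dvd U hq) T.notMem_S T.root T.simple T.q_one hM χ hχT e he
  have hne : χ (Tp _ _ O L.S ℓ) ≠ ((ℓ : ℕ) : ResidueField O) + 1 := by
    rw [hχT, resVal, MvPolynomial.aeval_X, if_neg hℓS, if_neg hℓQ]
    exact hℓ
  exact (piece_fst_eq_zero hL (isPGroup_quotient_ker (T.κU_surjective U) T.isPGroup) χ e he hℓM
    hℓS hne hsnd).symm

variable (T : TWPart L c G bad') (T₂ : TWPart L₂ c G bad₂')

/-- **Maps commuting with the operators and the group carry pieces into pieces**, also where the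
system is absent from the source or the target. -/
theorem frame_stable₂ (hS : L₂.S = L.S) (hQ : T₂.Q = T.Q) (hα : T₂.α = T.α) {U : Finset X}
    {V : Finset Y}
    (f : Hom1 (GamH (T.lvl U) (T.H U)) O →ₗ[O] Hom1 (GamH (T₂.lvl V) (T₂.H V)) O)
    (hT : ∀ ℓ : Nat.Primes, ℓ ∉ L.S → ∀ z,
      f ((Tc (T.lvl U) (T.H U) (ℓ : ℕ)).act z) = (Tc (T₂.lvl V) (T₂.H V) (ℓ : ℕ)).act (f z))
    (hG : ∀ g z, f (T.dHomG U g z) = T₂.dHomG V g (f z))
    (z : Hom1 (GamH (T.lvl U) (T.H U)) O) :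
    (T₂.frame V).e (f ((T.frame U).e z)) = f ((T.frame U).e z) := by
  classical
  by_cases hU : HasSys L.S c (L.lvl U)
  swap
  · rw [T.frame_of_not U hU]
    show (T₂.frame V).e (f 0) = f 0
    rw [map_zero, map_zero]
  have := pairAlg_finite (M := T.lvl U) (H := T.H U) (O := O)
  have := pairAway_finite (T.lvl U) (T.H U) O L.S
  have := pairAlg_finite (M := T₂.lvl V) (H := T₂.H V) (O := O)
  have := pairAway_finite (T₂.lvl V) (T₂.H V) O L₂.S
  have hval : ∀ i, T₂.pval i = T.pval i := by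
    rintro (ℓ | g)
    · show ite _ _ _ = ite _ _ _
      simp only [hS, hQ, hα]
    · rfl
  have hint : ∀ i w, f (T.popH U (T.pgen U i) w) = T₂.popH V (T₂.pgen V i) (f w) := by
    rintro (ℓ | g) w
    · show f ((Tp _ _ O L.S ℓ).1.1 w) = (Tp _ _ O L₂.S ℓ).1.1 (f w)
      by_cases hℓ : ℓ ∈ L.S
      · rw [Tp_of_mem _ _ _ _ hℓ, Tp_of_mem _ _ _ _ (hS ▸ hℓ)]
        simp
      · rw [Tp_apply _ _ _ _ hℓ, Tp_apply _ _ _ _ (hS ▸ hℓ), hT ℓ hℓ]
    · exact hG g w
  let aA : MvPolynomial (Nat.Primes ⊕ G) O →ₐ[O] pairAway (T.lvl U) (T.H U) O L.S :=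
    MvPolynomial.aeval (T.pgen U)
  let aB : MvPolynomial (Nat.Primes ⊕ G) O →ₐ[O] pairAway (T₂.lvl V) (T₂.H V) O L₂.S :=
    MvPolynomial.aeval (T₂.pgen V)
  have hall : ∀ x w, f (T.popH U (aA x) w) = T₂.popH V (aB x) (f w) := by
    intro x
    induction x using MvPolynomial.induction_on with
    | C r => exact fun w => by simp [aA, aB]
    | add x y hx hy => exact fun w => by simp only [map_add, LinearMap.add_apply, hx, hy]
    | mul_X x i hx =>
      intro w
      simp only [map_mul, Module.End.mul_apply, hx]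
      simp only [aA, aB, MvPolynomial.aeval_X, hint]
  have hsA : Function.Surjective aA := fun x => by
    have h := T.pgen_adjoin U x
    rw [Algebra.adjoin_range_eq_range_aeval] at h
    exact h
  have hsB : Function.Surjective aB := fun x => by
    have h := T₂.pgen_adjoin V x
    rw [Algebra.adjoin_range_eq_range_aeval] at h
    exact h
  rw [T.frame_e_of U hU]
  show (T₂.frame V).e (f (T.popH U (T.tw U hU).e z)) = f (T.popH U (T.tw U hU).e z)
  by_cases hk : ∃ x, aB x = 0 ∧ (T.tw U hU).χ (aA x) ≠ 0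
  · obtain ⟨x, hx0, hx⟩ := hk
    obtain ⟨s, hs⟩ := (T.tw U hU).piece.inv _ hx
    obtain ⟨y, rfl⟩ := hsA s
    have e1 : f (T.popH U (T.tw U hU).e z) = 0 := by
      rw [← hs, map_mul, ← map_mul aA, Module.End.mul_apply, hall, map_mul, hx0, mul_zero,
        map_zero, LinearMap.zero_apply]
    rw [e1, map_zero]
  push Not at hk
  obtain ⟨χB, hdesc⟩ := exists_descend_hom hsB ((T.tw U hU).χ.comp aA) hk
  have hχB : ∀ i, χB (T₂.pgen V i) = T₂.pval i := fun i => by
    have h1 := hdesc (.X i)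
    rw [AlgHom.comp_apply] at h1
    simp only [aA, aB, MvPolynomial.aeval_X] at h1
    rw [h1, hval, T.tw_pgen]
  obtain ⟨e₂, he₂⟩ := exists_piece χB
  have hgen : ∀ i, (T.tw U hU).χ (T.pgen U i) = χB (T₂.pgen V i) := fun i => by
    rw [T.tw_pgen, hχB, hval]
  have hmove : f (T.popH U (T.tw U hU).e z) = T₂.popH V e₂ (f z) :=
    piece_intertwine (T.pgen U) (T₂.pgen V) (T.pgen_adjoin U) (T₂.pgen_adjoin V) (T.popH U)
      (T₂.popH V) f hint hgen (T.tw U hU).piece he₂ z
  rw [T₂.frame_e_of_char V χB hχB e₂ he₂, hmove, ← Module.End.mul_apply, ← map_mul, he₂.idem.eq]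

end TWPart

end depth

end FA.HeckeH1

end
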