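import Fermat.Agent.HeckeH1.PLevelsBase
import Fermat.Agent.HeckeH1.DepthStable

/-!
The old parts at `p` at the Taylor-Wiles levels, their reduction to the base, and eigenclasses of
the algebra of the quotient by them.
-/

set_option autoImplicit false
set_option linter.unusedSectionVars false

noncomputable section

namespace FA.HeckeH1

open IsLocalRing
open scoped MatrixGroups

section two

variable {O : Type} [CommRing O] [IsDomain O] [IsDiscreteValuationRing O]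
  [IsAdicComplete (maximalIdeal O) O] [CharZero O] {X : Type} [DecidableEq X] {qn : X → ℕ}
  {bad : Finset ℕ} {L : LevelSet qn bad} {c : Nat.Primes → ResidueField O} {G : Type}
  [CommGroup G] {bad' : Finset ℕ} {Y : Type} [DecidableEq Y] {qn₂ : Y → ℕ} {bad₂ : Finset ℕ}
  {L₂ : LevelSet qn₂ bad₂} {bad₂' : Finset ℕ} (T : TWPart L c G bad') (T₂ : TWPart L₂ c G bad₂')

/-- Transferred maps intertwine the twisted Hecke elements of two towers. -/
theorem TWPart.transfer_TD₂ (hσ : T₂.σ = T.σ) {V : Finset X} {W : Finset Y}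
    (f : Hom1 (GamH (T.lvl V) (T.H V)) O →ₗ[O] Hom1 (GamH (T₂.lvl W) (T₂.H W)) O)
    (hf : ∀ r z, f (T.rho V r z) = T₂.rho W r (f z))
    {ℓ : ℕ} [Fact ℓ.Prime] (hc : ℓ ∈ L.core) (hc₂ : ℓ ∈ L₂.core) (hV : ¬ ℓ ∣ T.lvl V)
    (hW : ¬ ℓ ∣ T₂.lvl W)
    (hint : ∀ z, f ((Tc (T.lvl V) (T.H V) ℓ).act z) = (Tc (T₂.lvl W) (T₂.H W) ℓ).act (f z))
    (hG : ∀ g z, f (T.dHomG V g z) = T₂.dHomG W g (f z))
    (a : Fin (T.frame V).d → MonoidAlgebra O G) :
    (T.frame V).transfer (T₂.frame W) f hf (T.actD V (T.TD V ℓ) a) =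
      T₂.actD W (T₂.TD W ℓ) ((T.frame V).transfer (T₂.frame W) f hf a) := by
  have hint' : ∀ z, f (goodOp (T.lvl V) (T.H V) O (T.Tlift V ⟨ℓ, Fact.out, hV⟩) z) =
      goodOp (T₂.lvl W) (T₂.H W) O (T₂.Tlift W ⟨ℓ, Fact.out, hW⟩) (f z) := fun z => by
    rw [T.goodOp_Tlift, T₂.goodOp_Tlift, hG, hint, hσ]
  have h : (T.frame V).transfer (T₂.frame W) f hf
        (goodAct (T.frame V) (T.goodOp_rho V) (T.goodOp_frame_e V)
          (Ideal.Quotient.mk _ (T.Tlift V ⟨ℓ, Fact.out, hV⟩)) a) =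
      goodAct (T₂.frame W) (T₂.goodOp_rho W) (T₂.goodOp_frame_e W)
          (Ideal.Quotient.mk _ (T₂.Tlift W ⟨ℓ, Fact.out, hW⟩))
        ((T.frame V).transfer (T₂.frame W) f hf a) :=
    transfer_goodAct (T.frame V) (T.goodOp_rho V) (T.goodOp_frame_e V) (T₂.frame W)
      (T₂.goodOp_rho W) (T₂.goodOp_frame_e W) f hf (T.Tlift V ⟨ℓ, Fact.out, hV⟩)
      (T₂.Tlift W ⟨ℓ, Fact.out, hW⟩) hint' a
  have gen : ∀ (y : T.alg V) (y' : T₂.alg W),
      y.1 = Ideal.Quotient.mk _ (T.Tlift V ⟨ℓ, Fact.out, hV⟩) →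
      y'.1 = Ideal.Quotient.mk _ (T₂.Tlift W ⟨ℓ, Fact.out, hW⟩) →
      (T.frame V).transfer (T₂.frame W) f hf (T.actD V y a) =
        T₂.actD W y' ((T.frame V).transfer (T₂.frame W) f hf a) := by
    intro y y' hy hy'
    show (T.frame V).transfer (T₂.frame W) f hf
        (goodAct (T.frame V) (T.goodOp_rho V) (T.goodOp_frame_e V) y.1 a) =
      goodAct (T₂.frame W) (T₂.goodOp_rho W) (T₂.goodOp_frame_e W) y'.1
        ((T.frame V).transfer (T₂.frame W) f hf a)
    rw [hy, hy']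
    exact h
  exact gen (T.TD V ℓ) (T₂.TD W ℓ) (T.TD_mk V ⟨Fact.out, hV⟩ hc)
    (T₂.TD_mk W ⟨Fact.out, hW⟩ hc₂)

/-- The action on the coordinates, as `O`-linear maps. -/
def TWPart.actO (U : Finset X) :
    T.alg U →ₐ[O] Module.End O (Fin (T.frame U).d → MonoidAlgebra O G) where
  toFun a := (T.actD U a).restrictScalars O
  map_one' := LinearMap.ext fun z => by simp
  map_mul' a b := LinearMap.ext fun z => by simp
  map_zero' := LinearMap.ext fun z => by simp
  map_add' a b := LinearMap.ext fun z => by simp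
  commutes' r := LinearMap.ext fun z => by simp [Module.algebraMap_end_apply]

theorem TWPart.actD_exists_rep (U : Finset X) (a : T.alg U) :
    ∃ a' : pairGood (T.lvl U) (T.H U) O, ∀ x, T.actD U a x =
      (T.frame U).coord (goodOp (T.lvl U) (T.H U) O a' ((T.frame U).emb x)) := by
  obtain ⟨a', ha'⟩ := Ideal.Quotient.mk_surjective a.1
  refine ⟨a', fun x => ?_⟩
  show goodAct (T.frame U) (T.goodOp_rho U) (T.goodOp_frame_e U) a.1 x = _
  rw [← ha']
  rfl

/-- The operators of the diamonds commute with extension of the coefficients. -/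
theorem diaHom_comp_alg {M : ℕ} [NeZero M] {H : Subgroup (ZMod M)ˣ} {O : Type} [CommRing O]
    (O' : Type) [CommRing O'] [Algebra O O'] (x : (ZMod M)ˣ ⧸ H) (v : Hom1 (GamH M H) O) :
    diaHom M H O' x ((algebraMap O O').toAddMonoidHom.comp v) =
      (algebraMap O O').toAddMonoidHom.comp (diaHom M H O x v) := rfl

/-- A space of classes stable under the generators of the good operators is stable. -/
theorem goodOp_stable {M : ℕ} [NeZero M] {H : Subgroup (ZMod M)ˣ} {O : Type} [CommRing O]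
    (K : Submodule O (Hom1 (GamH M H) O))
    (hT : ∀ ℓ, ∀ z ∈ K, goodOp M H O (goodTp M H O ℓ) z ∈ K)
    (hD : ∀ g, ∀ z ∈ K, goodOp M H O (goodDp M H O g) z ∈ K) (x : pairGood M H O) :
    ∀ z ∈ K, goodOp M H O x z ∈ K := by
  obtain ⟨x, hx⟩ := x
  induction hx using Algebra.adjoin_induction with
  | mem y hy =>
    rcases hy with ⟨ℓ, rfl⟩ | ⟨g, rfl⟩
    · exact hT ℓ
    · exact hD g
  | algebraMap r => exact fun z hz => K.smul_mem r hz
  | add a b ha hb iha ihb => exact fun z hz => K.add_mem (iha z hz) (ihb z hz)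
  | mul a b ha hb iha ihb => exact fun z hz => iha _ (ihb z hz)

theorem TWPart.emb_actD_dia (U : Finset X) (g : G) (v : Fin (T.frame U).d → MonoidAlgebra O G) :
    (T.frame U).emb (T.actD U (T.dia U g) v) =
      diaHom (T.lvl U) (T.H U) O ((T.iota U).symm g) ((T.frame U).emb v) := by
  rw [T.actD_dia, Frame.emb_smul, T.rho_single, T.dHomG_apply]

theorem TWPart.emb_of_coord_T (U : Finset X) {ℓ : ℕ} [Fact ℓ.Prime] (hℓ : ¬ ℓ ∣ T.lvl U) (g : G)
    (x y : Fin (T.frame U).d → MonoidAlgebra O G)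
    (hy : y = (T.frame U).coord
      (T.dHomG U g ((Tc (T.lvl U) (T.H U) ℓ).act ((T.frame U).emb x)))) :
    (T.frame U).emb y = diaHom (T.lvl U) (T.H U) O ((T.iota U).symm g)
      ((Tc (T.lvl U) (T.H U) ℓ).act ((T.frame U).emb x)) := by
  have h₁ := T.goodOp_frame_e U (goodTp _ _ O ⟨ℓ, Fact.out, hℓ⟩) ((T.frame U).emb x)
  rw [goodOp_goodTp, goodOp_goodTp, Frame.e_emb] at h₁
  have h₂ := T.goodOp_frame_e U (goodDp _ _ O ((T.iota U).symm g))
    ((Tc (T.lvl U) (T.H U) ℓ).act ((T.frame U).emb x))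
  rw [goodOp_goodDp, goodOp_goodDp] at h₂
  rw [hy, Frame.emb_coord, T.dHomG_apply, ← h₂, ← h₁]

end two

namespace PPart

variable {O : Type} [CommRing O] [IsDomain O] [IsDiscreteValuationRing O]
  [IsAdicComplete (maximalIdeal O) O] [CharZero O] {X : Type} [DecidableEq X] {qn : X → ℕ}
  {bad : Finset ℕ} {L : LevelSet qn bad} {c : Nat.Primes → ResidueField O} {G : Type}
  [CommGroup G] {bad' : Finset ℕ} (P : PPart L) (T : TWPart L c G bad')
  (hneat : IsNeatOn O (GamH P.L0 ⊤))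

/-- The Taylor-Wiles data over the levels without `p`. -/
def oldTW : TWPart P.old c G bad' where
  p := T.p
  hp := T.hp
  charP := T.charP
  nonEis := T.nonEis
  neat := hneat
  Q := T.Q
  α := T.α
  not_dvd q hq h := T.not_dvd q hq (P.eq ▸ h.mul_right _)
  ne_qn := T.ne_qn
  notMem_S := T.notMem_S
  root := T.root
  simple := T.simple
  q_one := T.q_one
  κ := T.κ
  surj := T.surj
  neg_one := T.neg_one
  isPGroup := T.isPGroup
  σ := T.σ
  sq := T.sq
  sub_bad := T.sub_bad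
  mem_bad := T.mem_bad

variable (U : Finset X)

include P in
theorem coprime_prodQ : P.p.Coprime T.prodQ := by
  refine P.hp.coprime_iff_not_dvd.2 fun h => ?_
  obtain ⟨r, hr, hd⟩ := (Prime.dvd_finsetProd_iff P.hp.prime _).1 h
  exact P.ne_of_not_mem r (T.notMem_S r hr) ((Nat.prime_dvd_prime_iff_eq P.hp r.2).1 hd).symm

theorem p_dvd_twLvl : P.p ∣ T.lvl U := (P.p_dvd U).trans (T.base_dvd U)

theorem kU_eq (h : (P.oldTW T hneat).lvl U ∣ T.lvl U) (u : (ZMod (T.lvl U))ˣ) :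
    (P.oldTW T hneat).κU U (ZMod.unitsMap h u) = T.κU U u := by
  show T.κ (ZMod.unitsMap _ (ZMod.unitsMap h u)) = T.κ (ZMod.unitsMap _ u)
  rw [← MonoidHom.comp_apply (ZMod.unitsMap _), ZMod.unitsMap_comp]

/-- Removing `p` is a step. -/
theorem isStepD :
    IsStep ((P.oldTW T hneat).lvl U) P.p ((P.oldTW T hneat).H U) (T.lvl U) (T.H U) := by
  have heq : T.lvl U = (P.oldTW T hneat).lvl U * P.p := by
    show L.lvl U * T.prodQ = P.old.lvl U * T.prodQ * P.p
    rw [P.lvl_eq, mul_right_comm]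
  refine ⟨fun h => ?_, heq, ⟨_, heq⟩, fun u => ?_⟩
  · rcases P.hp.dvd_mul.1 h with h | h
    · exact P.not_dvd_lvl U h
    · exact P.hp.coprime_iff_not_dvd.1 (P.coprime_prodQ T) h
  · show u ∈ (T.κU U).ker ↔ ZMod.unitsMap _ u ∈ ((P.oldTW T hneat).κU U).ker
    rw [MonoidHom.mem_ker, MonoidHom.mem_ker, P.kU_eq T hneat U _ u]

theorem delta_iota (g : G) :
    haveI : Fact P.p.Prime := ⟨P.hp⟩
    (P.isStepD T hneat U).delta ((T.iota U).symm g) = ((P.oldTW T hneat).iota U).symm g := by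
  have : Fact P.p.Prime := ⟨P.hp⟩
  apply ((P.oldTW T hneat).iota U).injective
  rw [MulEquiv.apply_symm_apply]
  obtain ⟨u, hu⟩ := QuotientGroup.mk_surjective ((T.iota U).symm g)
  rw [← hu, (P.isStepD T hneat U).delta_mk, TWPart.iota_mk]
  have hg : T.κU U u = g := by
    rw [← T.iota_mk, hu, MulEquiv.apply_symm_apply]
  rw [← hg]
  exact P.kU_eq T hneat U _ u

/-- The diamond of `p` is `σ p ^ 2`. -/
theorem qDia_eq :
    haveI : Fact P.p.Prime := ⟨P.hp⟩
    qDia ((P.oldTW T hneat).lvl U) ((P.oldTW T hneat).H U) (P.isStepD T hneat U).not_dvd =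
      ((P.oldTW T hneat).iota U).symm (T.σ P.p ^ 2) := by
  have : Fact P.p.Prime := ⟨P.hp⟩
  apply ((P.oldTW T hneat).iota U).injective
  rw [MulEquiv.apply_symm_apply]
  refine Eq.trans ?_ (T.sq P.p P.hp (P.coprime_prodQ T)).symm
  show (P.oldTW T hneat).κU U (ZMod.unitOfCoprime P.p _) = _
  rw [TWPart.κU, MonoidHom.comp_apply]
  show T.κ _ = T.κ _
  congr 1
  exact Units.ext (by simp [ZMod.unitsMap]; rfl)

/-- Restriction at `p`. -/
def r₁ : Hom1 (GamH ((P.oldTW T hneat).lvl U) ((P.oldTW T hneat).H U)) O →ₗ[O]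
    Hom1 (GamH (T.lvl U) (T.H U)) O :=
  haveI : Fact P.p.Prime := ⟨P.hp⟩
  (P.isStepD T hneat U).res.actLin

/-- The twisted second degeneracy map at `p`. -/
def r₂ : Hom1 (GamH ((P.oldTW T hneat).lvl U) ((P.oldTW T hneat).H U)) O →ₗ[O]
    Hom1 (GamH (T.lvl U) (T.H U)) O :=
  haveI : Fact P.p.Prime := ⟨P.hp⟩
  (P.isStepD T hneat U).I2'.actLin.comp ((P.oldTW T hneat).dHomG U (T.σ P.p))

/-- The first trace at `p`. -/
def c₁ : Hom1 (GamH (T.lvl U) (T.H U)) O →ₗ[O]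
    Hom1 (GamH ((P.oldTW T hneat).lvl U) ((P.oldTW T hneat).H U)) O :=
  (Corr.cores (Γ := GamH ((P.oldTW T hneat).lvl U) ((P.oldTW T hneat).H U))).actLin

/-- The twisted second trace at `p`. -/
def c₂ : Hom1 (GamH (T.lvl U) (T.H U)) O →ₗ[O]
    Hom1 (GamH ((P.oldTW T hneat).lvl U) ((P.oldTW T hneat).H U)) O :=
  haveI : Fact P.p.Prime := ⟨P.hp⟩
  ((P.oldTW T hneat).dHomG U (T.σ P.p)⁻¹).comp (P.isStepD T hneat U).J2'.actLin

theorem r₁_dHomG (g : G) (z : Hom1 (GamH ((P.oldTW T hneat).lvl U) ((P.oldTW T hneat).H U)) O) :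
    P.r₁ T hneat U ((P.oldTW T hneat).dHomG U g z) = T.dHomG U g (P.r₁ T hneat U z) := by
  have : Fact P.p.Prime := ⟨P.hp⟩
  have h := (P.isStepD T hneat U).res_diaHom ((T.iota U).symm g) z
  rw [P.delta_iota] at h
  exact h.symm

theorem r₂_dHomG (g : G) (z : Hom1 (GamH ((P.oldTW T hneat).lvl U) ((P.oldTW T hneat).H U)) O) :
    P.r₂ T hneat U ((P.oldTW T hneat).dHomG U g z) = T.dHomG U g (P.r₂ T hneat U z) := by
  have : Fact P.p.Prime := ⟨P.hp⟩
  rw [r₂, LinearMap.comp_apply, LinearMap.comp_apply, TWPart.dHomG_comm]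
  have h := (P.isStepD T hneat U).I2_diaHom ((T.iota U).symm g)
    ((P.oldTW T hneat).dHomG U (T.σ P.p) z)
  rw [P.delta_iota] at h
  exact h.symm

theorem c₁_dHomG (g : G) (z : Hom1 (GamH (T.lvl U) (T.H U)) O) :
    P.c₁ T hneat U (T.dHomG U g z) = (P.oldTW T hneat).dHomG U g (P.c₁ T hneat U z) := by
  have : Fact P.p.Prime := ⟨P.hp⟩
  have h := (P.isStepD T hneat U).cores_diaHom' ((T.iota U).symm g) z
  rw [P.delta_iota] at h
  exact h

theorem c₂_dHomG (g : G) (z : Hom1 (GamH (T.lvl U) (T.H U)) O) :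
    P.c₂ T hneat U (T.dHomG U g z) = (P.oldTW T hneat).dHomG U g (P.c₂ T hneat U z) := by
  have : Fact P.p.Prime := ⟨P.hp⟩
  have h := (P.isStepD T hneat U).J2_diaHom ((T.iota U).symm g) z
  rw [P.delta_iota] at h
  rw [c₂, LinearMap.comp_apply, LinearMap.comp_apply, Corr.actLin_apply, Corr.actLin_apply,
    TWPart.dHomG_apply T, h, ← TWPart.dHomG_apply, TWPart.dHomG_comm]

theorem r₁_Tc {ℓ : ℕ} [Fact ℓ.Prime] (hne : ℓ ≠ P.p)
    (z : Hom1 (GamH ((P.oldTW T hneat).lvl U) ((P.oldTW T hneat).H U)) O) :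
    P.r₁ T hneat U ((Tc _ _ ℓ).act z) = (Tc (T.lvl U) (T.H U) ℓ).act (P.r₁ T hneat U z) :=
  haveI : Fact P.p.Prime := ⟨P.hp⟩
  ((P.isStepD T hneat U).res_Tc hne z).symm

theorem r₂_Tc {ℓ : ℕ} [Fact ℓ.Prime] (hne : ℓ ≠ P.p)
    (z : Hom1 (GamH ((P.oldTW T hneat).lvl U) ((P.oldTW T hneat).H U)) O) :
    P.r₂ T hneat U ((Tc _ _ ℓ).act z) = (Tc (T.lvl U) (T.H U) ℓ).act (P.r₂ T hneat U z) := by
  have : Fact P.p.Prime := ⟨P.hp⟩
  rw [r₂, LinearMap.comp_apply, LinearMap.comp_apply, ← TWPart.Tc_dHomG]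
  exact ((P.isStepD T hneat U).I2_Tc hne _).symm

theorem c₁_Tc {ℓ : ℕ} [Fact ℓ.Prime] (hne : ℓ ≠ P.p) (z : Hom1 (GamH (T.lvl U) (T.H U)) O) :
    P.c₁ T hneat U ((Tc (T.lvl U) (T.H U) ℓ).act z) =
      (Tc _ _ ℓ).act (P.c₁ T hneat U z) :=
  haveI : Fact P.p.Prime := ⟨P.hp⟩
  (P.isStepD T hneat U).cores_Tc hne z

theorem c₂_Tc {ℓ : ℕ} [Fact ℓ.Prime] (hne : ℓ ≠ P.p) (z : Hom1 (GamH (T.lvl U) (T.H U)) O) :
    P.c₂ T hneat U ((Tc (T.lvl U) (T.H U) ℓ).act z) =
      (Tc _ _ ℓ).act (P.c₂ T hneat U z) := by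
  have : Fact P.p.Prime := ⟨P.hp⟩
  rw [c₂, LinearMap.comp_apply, LinearMap.comp_apply, TWPart.Tc_dHomG, Corr.actLin_apply,
    Corr.actLin_apply, (P.isStepD T hneat U).J2_Tc' hne]

theorem r₁_stable (z : Hom1 (GamH ((P.oldTW T hneat).lvl U) ((P.oldTW T hneat).H U)) O) :
    (T.frame U).e (P.r₁ T hneat U (((P.oldTW T hneat).frame U).e z)) =
      P.r₁ T hneat U (((P.oldTW T hneat).frame U).e z) :=
  (P.oldTW T hneat).frame_stable₂ T rfl rfl rfl _
    (fun ℓ hℓ => P.r₁_Tc T hneat U (P.ne_of_not_mem ℓ hℓ)) (P.r₁_dHomG T hneat U) z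

theorem r₂_stable (z : Hom1 (GamH ((P.oldTW T hneat).lvl U) ((P.oldTW T hneat).H U)) O) :
    (T.frame U).e (P.r₂ T hneat U (((P.oldTW T hneat).frame U).e z)) =
      P.r₂ T hneat U (((P.oldTW T hneat).frame U).e z) :=
  (P.oldTW T hneat).frame_stable₂ T rfl rfl rfl _
    (fun ℓ hℓ => P.r₂_Tc T hneat U (P.ne_of_not_mem ℓ hℓ)) (P.r₂_dHomG T hneat U) z

theorem c₁_stable (z : Hom1 (GamH (T.lvl U) (T.H U)) O) :
    ((P.oldTW T hneat).frame U).e (P.c₁ T hneat U ((T.frame U).e z)) =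
      P.c₁ T hneat U ((T.frame U).e z) :=
  T.frame_stable₂ (P.oldTW T hneat) rfl rfl rfl _
    (fun ℓ hℓ => P.c₁_Tc T hneat U (P.ne_of_not_mem ℓ hℓ)) (P.c₁_dHomG T hneat U) z

theorem c₂_stable (z : Hom1 (GamH (T.lvl U) (T.H U)) O) :
    ((P.oldTW T hneat).frame U).e (P.c₂ T hneat U ((T.frame U).e z)) =
      P.c₂ T hneat U ((T.frame U).e z) :=
  T.frame_stable₂ (P.oldTW T hneat) rfl rfl rfl _
    (fun ℓ hℓ => P.c₂_Tc T hneat U (P.ne_of_not_mem ℓ hℓ)) (P.c₂_dHomG T hneat U) z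

/-- The coordinates of a level without `p`. -/
abbrev MFd : Type := Fin ((P.oldTW T hneat).frame U).d → MonoidAlgebra O G

/-- The first map up at `p`. -/
def upP₁ : P.MFd T hneat U →ₗ[MonoidAlgebra O G] (Fin (T.frame U).d → MonoidAlgebra O G) :=
  ((P.oldTW T hneat).frame U).transfer (T.frame U) (P.r₁ T hneat U) fun r z =>
    lift_intertwine ((P.oldTW T hneat).dHomG U) (T.dHomG U) _ (P.r₁_dHomG T hneat U) r z

/-- The second map up at `p`. -/
def upP₂ : P.MFd T hneat U →ₗ[MonoidAlgebra O G] (Fin (T.frame U).d → MonoidAlgebra O G) :=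
  ((P.oldTW T hneat).frame U).transfer (T.frame U) (P.r₂ T hneat U) fun r z =>
    lift_intertwine ((P.oldTW T hneat).dHomG U) (T.dHomG U) _ (P.r₂_dHomG T hneat U) r z

/-- The sum of the two maps. -/
def upD : (P.MFd T hneat U × P.MFd T hneat U) →ₗ[MonoidAlgebra O G]
    (Fin (T.frame U).d → MonoidAlgebra O G) :=
  (P.upP₁ T hneat U).coprod (P.upP₂ T hneat U)

/-- The first trace at `p` on coordinates. -/
def downP₁ : (Fin (T.frame U).d → MonoidAlgebra O G) →ₗ[MonoidAlgebra O G] P.MFd T hneat U :=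
  (T.frame U).transfer ((P.oldTW T hneat).frame U) (P.c₁ T hneat U) fun r z =>
    lift_intertwine (T.dHomG U) ((P.oldTW T hneat).dHomG U) _ (P.c₁_dHomG T hneat U) r z

/-- The second trace at `p` on coordinates. -/
def downP₂ : (Fin (T.frame U).d → MonoidAlgebra O G) →ₗ[MonoidAlgebra O G] P.MFd T hneat U :=
  (T.frame U).transfer ((P.oldTW T hneat).frame U) (P.c₂ T hneat U) fun r z =>
    lift_intertwine (T.dHomG U) ((P.oldTW T hneat).dHomG U) _ (P.c₂_dHomG T hneat U) r z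

/-- The pair of the traces at `p`. -/
def downD : (Fin (T.frame U).d → MonoidAlgebra O G) →ₗ[MonoidAlgebra O G]
    (P.MFd T hneat U × P.MFd T hneat U) :=
  (P.downP₁ T hneat U).prod (P.downP₂ T hneat U)

/-- The operator `⟨p⟩^{-1/2} T_p` on a level without `p`. -/
def TpD : Module.End (MonoidAlgebra O G) (P.MFd T hneat U) :=
  goodAct ((P.oldTW T hneat).frame U) ((P.oldTW T hneat).goodOp_rho U)
    ((P.oldTW T hneat).goodOp_frame_e U)
    (Ideal.Quotient.mk _ ((P.oldTW T hneat).Tlift U ⟨P.p, P.hp, (P.isStepD T hneat U).not_dvd⟩))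

theorem TpD_apply (a : P.MFd T hneat U) :
    haveI : Fact P.p.Prime := ⟨P.hp⟩
    P.TpD T hneat U a = ((P.oldTW T hneat).frame U).coord
      ((P.oldTW T hneat).dHomG U (T.σ P.p)⁻¹ ((Tc _ _ P.p).act
        (((P.oldTW T hneat).frame U).emb a))) := by
  have : Fact P.p.Prime := ⟨P.hp⟩
  rw [TpD, goodAct_apply, TWPart.goodOp_Tlift]
  rfl

theorem emb_TpD (a : P.MFd T hneat U) :
    haveI : Fact P.p.Prime := ⟨P.hp⟩
    ((P.oldTW T hneat).frame U).emb (P.TpD T hneat U a) =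
      (P.oldTW T hneat).dHomG U (T.σ P.p)⁻¹ ((Tc _ _ P.p).act
        (((P.oldTW T hneat).frame U).emb a)) := by
  have : Fact P.p.Prime := ⟨P.hp⟩
  have h := (P.oldTW T hneat).goodOp_frame_e U
    ((P.oldTW T hneat).Tlift U ⟨P.p, P.hp, (P.isStepD T hneat U).not_dvd⟩)
    (((P.oldTW T hneat).frame U).emb a)
  rw [TWPart.goodOp_Tlift, Frame.e_emb] at h
  rw [P.TpD_apply, Frame.emb_coord]
  exact h.symm

theorem downP₁_upP₁ (a : P.MFd T hneat U) :
    P.downP₁ T hneat U (P.upP₁ T hneat U a) = (P.p + 1 : ℕ) • a := by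
  have : Fact P.p.Prime := ⟨P.hp⟩
  rw [downP₁, upP₁, Frame.transfer_comp _ _ _ _ _ _ _ (P.r₁_stable T hneat U), r₁, c₁,
    Corr.actLin_apply, Corr.actLin_apply, (P.isStepD T hneat U).cores_res', map_nsmul,
    Frame.coord_emb]

theorem downP₁_upP₂ (b : P.MFd T hneat U) :
    P.downP₁ T hneat U (P.upP₂ T hneat U b) = P.TpD T hneat U b := by
  have : Fact P.p.Prime := ⟨P.hp⟩
  rw [downP₁, upP₂, Frame.transfer_comp _ _ _ _ _ _ _ (P.r₂_stable T hneat U), r₂, c₁,
    LinearMap.comp_apply, Corr.actLin_apply, Corr.actLin_apply,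
    (P.isStepD T hneat U).cores_I2', P.qDia_eq, ← map_inv, ← TWPart.dHomG_apply,
    TWPart.dHomG_mul, TWPart.Tc_dHomG, P.TpD_apply,
    show (T.σ P.p ^ 2)⁻¹ * T.σ P.p = (T.σ P.p)⁻¹ by group]

theorem downP₂_upP₁ (a : P.MFd T hneat U) :
    P.downP₂ T hneat U (P.upP₁ T hneat U a) = P.TpD T hneat U a := by
  have : Fact P.p.Prime := ⟨P.hp⟩
  rw [downP₂, upP₁, Frame.transfer_comp _ _ _ _ _ _ _ (P.r₁_stable T hneat U), r₁, c₂,
    LinearMap.comp_apply, Corr.actLin_apply, Corr.actLin_apply,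
    (P.isStepD T hneat U).J2_res', P.TpD_apply]

theorem downP₂_upP₂ (b : P.MFd T hneat U) :
    P.downP₂ T hneat U (P.upP₂ T hneat U b) = (P.p + 1 : ℕ) • b := by
  have : Fact P.p.Prime := ⟨P.hp⟩
  rw [downP₂, upP₂, Frame.transfer_comp _ _ _ _ _ _ _ (P.r₂_stable T hneat U), r₂, c₂,
    LinearMap.comp_apply, LinearMap.comp_apply, Corr.actLin_apply, Corr.actLin_apply,
    (P.isStepD T hneat U).J2_I2', map_nsmul, TWPart.dHomG_mul, inv_mul_cancel, map_one,
    Module.End.one_apply, map_nsmul, Frame.coord_emb]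

/-- The composite of the maps at `p`. -/
theorem downD_upD (a b : P.MFd T hneat U) :
    P.downD T hneat U (P.upD T hneat U (a, b)) =
      ((P.p + 1 : ℕ) • a + P.TpD T hneat U b, P.TpD T hneat U a + (P.p + 1 : ℕ) • b) := by
  simp only [upD, downD, LinearMap.coprod_apply, LinearMap.prod_apply, Function.prod_apply,
    map_add, P.downP₁_upP₁, P.downP₁_upP₂, P.downP₂_upP₁, P.downP₂_upP₂, Prod.mk_add_mk]

/-- The condition that `(p + 1)² ⟨p⟩ - T_p²` is injective on the piece without `p`. -/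
def DetD : Prop :=
  haveI : Fact P.p.Prime := ⟨P.hp⟩
  ∀ z, ((P.oldTW T hneat).frame U).e z = z →
    (Tc ((P.oldTW T hneat).lvl U) ((P.oldTW T hneat).H U) P.p).act
        ((Tc ((P.oldTW T hneat).lvl U) ((P.oldTW T hneat).H U) P.p).act z) =
      ((P.p + 1) * (P.p + 1) : ℕ) • diaHom _ _ O
        (qDia ((P.oldTW T hneat).lvl U) ((P.oldTW T hneat).H U)
          (P.isStepD T hneat U).not_dvd) z → z = 0

/-- The composite is injective when `(p + 1)² ⟨p⟩ - T_p²` is. -/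
theorem downD_upD_injective (hdet : P.DetD T hneat U) :
    Function.Injective (P.downD T hneat U ∘ₗ P.upD T hneat U) := by
  have : Fact P.p.Prime := ⟨P.hp⟩
  have hdet' : ∀ a, P.TpD T hneat U (P.TpD T hneat U a) =
      ((P.p + 1) * (P.p + 1) : ℕ) • a → a = 0 := fun a h =>
    ((P.oldTW T hneat).frame U).emb_injective (by
      rw [map_zero]
      refine hdet _ (((P.oldTW T hneat).frame U).e_emb a) ?_
      have h1 := congrArg ((P.oldTW T hneat).dHomG U (T.σ P.p ^ 2))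
        (congrArg ((P.oldTW T hneat).frame U).emb h)
      rw [P.emb_TpD, P.emb_TpD, TWPart.Tc_dHomG, TWPart.dHomG_mul, TWPart.dHomG_mul,
        show T.σ P.p ^ 2 * (T.σ P.p)⁻¹ * (T.σ P.p)⁻¹ = 1 by group, map_one,
        Module.End.one_apply, map_nsmul, map_nsmul] at h1
      rw [P.qDia_eq, ← TWPart.dHomG_apply]
      exact h1)
  rw [injective_iff_map_eq_zero]
  rintro ⟨a, b⟩ h
  rw [LinearMap.comp_apply, P.downD_upD] at h
  set S := P.TpD T hneat U
  have h1 : S b = -((P.p + 1 : ℕ) • a) := eq_neg_of_add_eq_zero_right (congrArg Prod.fst h)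
  have h2 : S a = -((P.p + 1 : ℕ) • b) := eq_neg_of_add_eq_zero_left (congrArg Prod.snd h)
  have ha : a = 0 := hdet' a (by rw [h2, map_neg, map_nsmul, h1, smul_neg, neg_neg, mul_smul])
  have hb : b = 0 := hdet' b (by rw [h1, map_neg, map_nsmul, h2, smul_neg, neg_neg, mul_smul])
  rw [ha, hb]
  rfl

theorem upD_comm {ℓ : ℕ} (hℓ : ℓ.Prime) (hb : ℓ ∉ bad') (a b : P.MFd T hneat U) :
    P.upD T hneat U ((P.oldTW T hneat).actD U ((P.oldTW T hneat).TD U ℓ) a,
        (P.oldTW T hneat).actD U ((P.oldTW T hneat).TD U ℓ) b) =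
      T.actD U (T.TD U ℓ) (P.upD T hneat U (a, b)) := by
  have : Fact ℓ.Prime := ⟨hℓ⟩
  have h₁ := (P.oldTW T hneat).not_dvd_of_not_bad hℓ hb U
  have h₂ := T.not_dvd_of_not_bad hℓ hb U
  have hne : ℓ ≠ P.p := fun e => hb (e ▸ T.sub_bad P.mem_bad)
  have hc₁ : ℓ ∈ P.old.core := P.old.core_of_not_bad fun h => hb (T.sub_bad h)
  have hc₂ : ℓ ∈ L.core := L.core_of_not_bad fun h => hb (T.sub_bad h)
  simp only [upD, LinearMap.coprod_apply, map_add]
  exact congrArg₂ (· + ·)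
    (TWPart.transfer_TD₂ (P.oldTW T hneat) T rfl _ _ hc₁ hc₂ h₁ h₂ (P.r₁_Tc T hneat U hne)
      (P.r₁_dHomG T hneat U) a)
    (TWPart.transfer_TD₂ (P.oldTW T hneat) T rfl _ _ hc₁ hc₂ h₁ h₂ (P.r₂_Tc T hneat U hne)
      (P.r₂_dHomG T hneat U) b)

theorem upD_range_stable (a : T.alg U) :
    ∀ v ∈ LinearMap.range (P.upD T hneat U), T.actD U a v ∈ LinearMap.range (P.upD T hneat U) := by
  have : Fact P.p.Prime := ⟨P.hp⟩
  have key : ∀ (x : pairGood (T.lvl U) (T.H U) O)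
      (x' : pairGood ((P.oldTW T hneat).lvl U) ((P.oldTW T hneat).H U) O),
      (∀ z, P.r₁ T hneat U (goodOp _ _ O x' z) = goodOp _ _ O x (P.r₁ T hneat U z)) →
      (∀ z, P.r₂ T hneat U (goodOp _ _ O x' z) = goodOp _ _ O x (P.r₂ T hneat U z)) →
      ∀ v ∈ LinearMap.range (P.upD T hneat U),
        goodAct (T.frame U) (T.goodOp_rho U) (T.goodOp_frame_e U) (Ideal.Quotient.mk _ x) v ∈
          LinearMap.range (P.upD T hneat U) := by
    rintro x x' h₁ h₂ _ ⟨⟨u, w⟩, rfl⟩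
    refine ⟨(goodAct _ ((P.oldTW T hneat).goodOp_rho U) ((P.oldTW T hneat).goodOp_frame_e U)
        (Ideal.Quotient.mk _ x') u, goodAct _ ((P.oldTW T hneat).goodOp_rho U)
        ((P.oldTW T hneat).goodOp_frame_e U) (Ideal.Quotient.mk _ x') w), ?_⟩
    simp only [upD, LinearMap.coprod_apply, map_add]
    exact congrArg₂ (· + ·)
      (transfer_goodAct _ ((P.oldTW T hneat).goodOp_rho U) ((P.oldTW T hneat).goodOp_frame_e U)
        (T.frame U) (T.goodOp_rho U) (T.goodOp_frame_e U) _ _ x' x h₁ u)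
      (transfer_goodAct _ ((P.oldTW T hneat).goodOp_rho U) ((P.oldTW T hneat).goodOp_frame_e U)
        (T.frame U) (T.goodOp_rho U) (T.goodOp_frame_e U) _ _ x' x h₂ w)
  refine goodAct_stable (T.frame U) (T.goodOp_rho U) (T.goodOp_frame_e U) _
    (fun ℓ => ?_) (fun g => ?_) a.1
  · have : Fact ℓ.1.Prime := ⟨ℓ.2.1⟩
    have hℓ : ¬ ℓ.1 ∣ (P.oldTW T hneat).lvl U := fun h =>
      ℓ.2.2 (h.trans (P.isStepD T hneat U).dvd)
    have hne : ℓ.1 ≠ P.p := fun e => ℓ.2.2 (e.symm ▸ P.p_dvd_twLvl T U)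
    exact key (goodTp _ _ O ℓ) (goodTp _ _ O ⟨ℓ.1, ℓ.2.1, hℓ⟩)
      (fun z => P.r₁_Tc T hneat U hne z) (fun z => P.r₂_Tc T hneat U hne z)
  · obtain ⟨g, rfl⟩ := (T.iota U).symm.surjective g
    exact key (goodDp _ _ O ((T.iota U).symm g)) (goodDp _ _ O (((P.oldTW T hneat).iota U).symm g))
      (P.r₁_dHomG T hneat U g) (P.r₂_dHomG T hneat U g)

/-- The algebra acting on the quotient by the old part. -/
abbrev newAlgD : Type :=
  QuotAlg (T.actD U) (LinearMap.range (P.upD T hneat U)) (P.upD_range_stable T hneat U)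

/-- The old parts at `p` at the Taylor-Wiles levels. -/
def pLevelsD : FA.RT.PLevels T.depthLevels where
  MF U := P.MFd T hneat U
  AF U := (P.oldTW T hneat).alg U
  actF U := (P.oldTW T hneat).actD U
  TF U ℓ := (P.oldTW T hneat).TD U ℓ
  upP U := P.upD T hneat U
  upP_comm U _ hℓ hb a b := P.upD_comm T hneat U hℓ hb a b
  AS U := P.newAlgD T hneat U
  actS U := quotAlgAct (T.actD U) (LinearMap.range (P.upD T hneat U)) (P.upD_range_stable T hneat U)
  TS U ℓ := Ideal.Quotient.mk _ (T.TD U ℓ)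
  actS_mk U ℓ _ _ z := quotAlgAct_mk (T.actD U) (LinearMap.range (P.upD T hneat U))
    (P.upD_range_stable T hneat U) (T.TD U ℓ) z

/-- The diamonds of the new part. -/
def diaNew : G →* P.newAlgD T hneat U :=
  (Ideal.Quotient.mk (RingHom.ker (quotAct (T.actD U) (LinearMap.range (P.upD T hneat U))
    (P.upD_range_stable T hneat U)))).toMonoidHom.comp (T.dia U)

theorem act_diaNew (g : G)
    (z : (Fin (T.frame U).d → MonoidAlgebra O G) ⧸ LinearMap.range (P.upD T hneat U)) :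
    quotAlgAct (T.actD U) (LinearMap.range (P.upD T hneat U)) (P.upD_range_stable T hneat U)
        (P.diaNew T hneat U g) z = (MonoidAlgebra.single g 1 : MonoidAlgebra O G) • z := by
  obtain ⟨v, rfl⟩ := Submodule.Quotient.mk_surjective _ z
  refine (quotAlgAct_mk (T.actD U) (LinearMap.range (P.upD T hneat U))
    (P.upD_range_stable T hneat U) (T.dia U g) v).trans ?_
  rw [T.actD_dia]
  rfl

/-- The old parts reduce to those at the base. -/
theorem redL_upD (a b : P.MFd T hneat U) :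
    T.redL U (P.upD T hneat U (a, b)) =
      P.upB c U ((P.oldTW T hneat).redL U a, (P.oldTW T hneat).redL U b) := by
  have : Fact P.p.Prime := ⟨P.hp⟩
  simp only [upD, PPart.upB, LinearMap.coprod_apply, map_add]
  refine congrArg₂ (· + ·) ?_ ?_
  · exact ((P.oldTW T hneat).frame U).red_transfer (T.frame U) (P.old.frame c U) T.aug
      ((P.oldTW T hneat).frame_d U) (L.frame c U) (T.frame_d U) ((P.oldTW T hneat).corU U)
      (T.corU U) ((P.oldTW T hneat).corU_emb U) (T.corU_emb U) (P.r₁ T hneat U) _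
      (P.isStep U).res.actLin _ (P.r₁_stable T hneat U) (fun z =>
        ((P.isStepD T hneat U).res_cores' (P.isStep U) ((P.oldTW T hneat).base_dvd U) z).symm) a
  · refine ((P.oldTW T hneat).frame U).red_transfer (T.frame U) (P.old.frame c U) T.aug
      ((P.oldTW T hneat).frame_d U) (L.frame c U) (T.frame_d U) ((P.oldTW T hneat).corU U)
      (T.corU U) ((P.oldTW T hneat).corU_emb U) (T.corU_emb U) (P.r₂ T hneat U) _
      (P.isStep U).I2'.actLin _ (P.r₂_stable T hneat U) (fun z => ?_) b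
    show T.corU U ((P.isStepD T hneat U).I2'.act ((P.oldTW T hneat).dHomG U (T.σ P.p) z)) =
      (P.isStep U).I2'.act ((P.oldTW T hneat).corU U z)
    rw [← (P.oldTW T hneat).corU_dHomG U (T.σ P.p) z]
    exact ((P.isStepD T hneat U).I2_cores' (P.isStep U) ((P.oldTW T hneat).base_dvd U) _).symm

theorem exists_kill_factorD (hdet : P.DetD T hneat U) :
    ∃ D : O, D ≠ 0 ∧ ∀ a : T.alg U,
      (∀ v, P.downD T hneat U v = 0 → T.actD U a v = 0) →
        ∀ v, D • T.actD U a v ∈ LinearMap.range (P.upD T hneat U) := by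
  have : Finite G := Finite.of_surjective T.κ T.surj
  have hinj := P.downD_upD_injective T hneat U hdet
  obtain ⟨D, hD, h⟩ := exists_smul_apply_mem (O := O) (W := P.MFd T hneat U × P.MFd T hneat U)
    (V := Fin (T.frame U).d → MonoidAlgebra O G) ((P.upD T hneat U).restrictScalars O)
    ((P.downD T hneat U).restrictScalars O) hinj
  refine ⟨D, hD, fun a ha v => ?_⟩
  obtain ⟨u, hu⟩ := h ((T.actD U a).restrictScalars O)
    (fun w hw => by
      obtain ⟨u, rfl⟩ := hw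
      exact P.upD_range_stable T hneat U a _ ⟨u, rfl⟩)
    (fun w hw => ha w hw) v
  exact ⟨u, hu⟩

theorem point_eq_zeroD (hdet : P.DetD T hneat U)
    {O' : Type} [CommRing O'] [IsDomain O'] [Algebra O O'] [Module.IsTorsionFree O O']
    (f : P.newAlgD T hneat U →ₐ[O] O') (a : T.alg U)
    (ha : ∀ v, P.downD T hneat U v = 0 → T.actD U a v = 0) : f (Ideal.Quotient.mk _ a) = 0 := by
  have h0 := P.exists_kill_factorD T hneat U
  have h1 := h0 hdet
  obtain ⟨D, hD, h⟩ := h1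
  have h2 := h a ha
  have key := apply_eq_zero_of_smul_mem (O := O) (R := MonoidAlgebra O G) (A := T.alg U)
    (W := Fin (T.frame U).d → MonoidAlgebra O G) (O' := O') (T.actD U)
    (LinearMap.range (P.upD T hneat U)) (P.upD_range_stable T hneat U) f hD a
  exact key h2

theorem emb_killed {v : Fin (T.frame U).d → MonoidAlgebra O G}
    (hv : P.downD T hneat U v = 0) :
    P.c₁ T hneat U ((T.frame U).emb v) = 0 ∧ P.c₂ T hneat U ((T.frame U).emb v) = 0 := by
  constructor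
  · have h : ((P.oldTW T hneat).frame U).emb (P.downP₁ T hneat U v) = 0 := by
      rw [show P.downP₁ T hneat U v = 0 from congrArg Prod.fst hv, map_zero]
    rw [downP₁, Frame.emb_transfer] at h
    have e := P.c₁_stable T hneat U ((T.frame U).emb v)
    rw [Frame.e_emb] at e
    exact e.symm.trans h
  · have h : ((P.oldTW T hneat).frame U).emb (P.downP₂ T hneat U v) = 0 := by
      rw [show P.downP₂ T hneat U v = 0 from congrArg Prod.snd hv, map_zero]
    rw [downP₂, Frame.emb_transfer] at h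
    have e := P.c₂_stable T hneat U ((T.frame U).emb v)
    rw [Frame.e_emb] at e
    exact e.symm.trans h

theorem killed_stable (x : pairGood (T.lvl U) (T.H U) O) :
    ∀ z, P.c₁ T hneat U z = 0 → P.c₂ T hneat U z = 0 →
      P.c₁ T hneat U (goodOp _ _ O x z) = 0 ∧ P.c₂ T hneat U (goodOp _ _ O x z) = 0 := by
  intro z h₁ h₂
  refine Submodule.mem_inf.1 (goodOp_stable
    (LinearMap.ker (P.c₁ T hneat U) ⊓ LinearMap.ker (P.c₂ T hneat U)) (fun ℓ w hw => ?_)
    (fun g w hw => ?_) x z (Submodule.mem_inf.2 ⟨h₁, h₂⟩))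
  · have : Fact ℓ.1.Prime := ⟨ℓ.2.1⟩
    have hne : ℓ.1 ≠ P.p := fun e => ℓ.2.2 (e.symm ▸ P.p_dvd_twLvl T U)
    obtain ⟨w₁, w₂⟩ := Submodule.mem_inf.1 hw
    rw [LinearMap.mem_ker] at w₁ w₂
    rw [goodOp_goodTp, Submodule.mem_inf, LinearMap.mem_ker, LinearMap.mem_ker,
      P.c₁_Tc T hneat U hne, P.c₂_Tc T hneat U hne, w₁, w₂, map_zero]
    exact ⟨rfl, rfl⟩
  · obtain ⟨g, rfl⟩ := (T.iota U).symm.surjective g
    obtain ⟨w₁, w₂⟩ := Submodule.mem_inf.1 hw
    rw [LinearMap.mem_ker] at w₁ w₂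
    rw [goodOp_goodDp, ← T.dHomG_apply, Submodule.mem_inf, LinearMap.mem_ker, LinearMap.mem_ker,
      P.c₁_dHomG T hneat U, P.c₂_dHomG T hneat U, w₁, w₂, map_zero]
    exact ⟨rfl, rfl⟩

theorem ker_downD_stable (a : T.alg U) :
    ∀ v, P.downD T hneat U v = 0 → P.downD T hneat U (T.actD U a v) = 0 := by
  intro v hv
  obtain ⟨a', ha'⟩ := T.actD_exists_rep U a
  obtain ⟨h₁, h₂⟩ := P.emb_killed T hneat U hv
  obtain ⟨k₁, k₂⟩ := P.killed_stable T hneat U a' _ h₁ h₂
  have e : (T.frame U).e (goodOp _ _ O a' ((T.frame U).emb v)) =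
      goodOp _ _ O a' ((T.frame U).emb v) := by
    rw [← T.goodOp_frame_e, Frame.e_emb]
  rw [ha']
  refine Prod.ext ?_ ?_
  · show P.downP₁ T hneat U _ = 0
    rw [downP₁, Frame.transfer_apply, Frame.emb_coord, e, k₁, map_zero]
  · show P.downP₂ T hneat U _ = 0
    rw [downP₂, Frame.transfer_apply, Frame.emb_coord, e, k₂, map_zero]

/-- **Points of the quotient by the old part at a Taylor-Wiles level** are eigenclasses killed by
both traces at `p`, with `U_p² = ⟨p⟩`. -/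
theorem exists_new_eigenclassD (hdet : P.DetD T hneat U)
    {O' : Type} [CommRing O'] [IsDomain O'] [Algebra O O'] [Module.IsTorsionFree O O']
    (f : P.newAlgD T hneat U →ₐ[O] O') :
    haveI : Fact P.p.Prime := ⟨P.hp⟩
    ∃ z : Hom1 (GamH (T.lvl U) (T.H U)) O', z ∈ Par (GamH (T.lvl U) (T.H U)) O' ∧ z ≠ 0 ∧
      (∀ g, diaHom (T.lvl U) (T.H U) O' ((T.iota U).symm g) z =
        f (P.diaNew T hneat U g) • z) ∧
      (∀ (ℓ : ℕ) [Fact ℓ.Prime], ¬ ℓ ∣ T.lvl U → ∀ (g : G) (a : T.alg U),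
        (∀ x, T.actD U a x = (T.frame U).coord
          (T.dHomG U g ((Tc (T.lvl U) (T.H U) ℓ).act ((T.frame U).emb x)))) →
        diaHom (T.lvl U) (T.H U) O' ((T.iota U).symm g) ((Tc (T.lvl U) (T.H U) ℓ).act z) =
          f (Ideal.Quotient.mk _ a) • z) ∧
      (Corr.cores (Γ := GamH ((P.oldTW T hneat).lvl U) ((P.oldTW T hneat).H U))).act z = 0 ∧
      (P.isStepD T hneat U).J2'.act z = 0 ∧
      (Tc (T.lvl U) (T.H U) P.p).act ((Tc (T.lvl U) (T.H U) P.p).act z) =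
        f (P.diaNew T hneat U (T.σ P.p ^ 2)) • z := by
  have : Fact P.p.Prime := ⟨P.hp⟩
  have : Finite G := Finite.of_surjective T.κ T.surj
  let q : T.alg U →ₐ[O] P.newAlgD T hneat U := Ideal.Quotient.mkₐ O _
  let f' : T.alg U →ₐ[O] O' := AlgHom.comp f q
  let V : Submodule O (Fin (T.frame U).d → MonoidAlgebra O G) :=
    LinearMap.ker ((P.downD T hneat U).restrictScalars O)
  have hV : ∀ a, ∀ v ∈ V, T.actO U a v ∈ V := fun a v hv =>
    P.ker_downD_stable T hneat U a v hv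
  have hker : ∀ a, (∀ v ∈ V, T.actO U a v = 0) → f' a = 0 := fun a ha => by
    have h0 := P.point_eq_zeroD T hneat U (O' := O')
    have h2 := h0 hdet f a fun v hv => ha v hv
    exact h2
  have hpar : ∀ v ∈ V, (T.frame U).emb v ∈ Par (GamH (T.lvl U) (T.H U)) O := fun v _ => by
    rw [← (T.frame U).e_emb v]
    exact T.frame_mem_Par U _
  have h0 := exists_eigenclass_sub (O' := O') (T.frame U).emb (T.frame U).emb_injective
    (T.actO U) V
  have h1 := h0 hV hpar f' hker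
  obtain ⟨z, hz, hne, hT, hC⟩ := h1
  have hcz := hC (Corr.cores (Γ := GamH ((P.oldTW T hneat).lvl U) ((P.oldTW T hneat).H U)))
    fun v hv => (P.emb_killed T hneat U hv).1
  have hjz := hC (P.isStepD T hneat U).J2' fun v hv => by
    have h := congrArg ((P.oldTW T hneat).dHomG U (T.σ P.p)) (P.emb_killed T hneat U hv).2
    rw [c₂, LinearMap.comp_apply, TWPart.dHomG_mul, mul_inv_cancel, map_one,
      Module.End.one_apply, map_zero, Corr.actLin_apply] at h
    exact h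
  have hdia : ∀ g, diaHom (T.lvl U) (T.H U) O' ((T.iota U).symm g) z =
      f (P.diaNew T hneat U g) • z := fun g =>
    hT (T.dia U g) (diaHom (T.lvl U) (T.H U) O' ((T.iota U).symm g)) fun v _ =>
      (diaHom_comp_alg O' _ _).trans (congrArg _ (T.emb_actD_dia U g v).symm)
  have : CharZero O' := charZero_of_injective_algebraMap (FaithfulSMul.algebraMap_injective O O')
  refine ⟨z, hz, hne, hdia, fun ℓ _ hℓ g a ha => ?_, hcz, hjz, ?_⟩
  · refine hT a ((diaHom (T.lvl U) (T.H U) O' ((T.iota U).symm g)).comp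
      (Tc (T.lvl U) (T.H U) ℓ).actLin) fun v _ => ?_
    rw [LinearMap.comp_apply, Corr.actLin_apply, Corr.act_comp_hom, diaHom_comp_alg]
    exact congrArg _ (T.emb_of_coord_T U hℓ g v _ (ha v)).symm
  · obtain ⟨x, hx, hU⟩ := (P.isStepD T hneat U).U_sq_of_killed z hcz hjz
    rw [hU, show x = (T.iota U).symm (T.σ P.p ^ 2) from (P.isStepD T hneat U).delta_injective
      (hx.trans ((P.qDia_eq T hneat U).trans (P.delta_iota T hneat U _).symm))]
    exact hdia _

end PPart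

section setup

open FA.RT

local notation "GQ" => AlgebraicClosure ℚ ≃ₐ[ℚ] AlgebraicClosure ℚ
local notation "M2" => Matrix (Fin 2) (Fin 2)

variable {O : Type} [CommRing O] [IsDomain O] [IsDiscreteValuationRing O]
  [IsAdicComplete (maximalIdeal O) O] [CharZero O] {S : Setup O} {Q : Type} [DecidableEq Q]
  {emb : Q → ↥S.Sig} {bad : Finset ℕ}
  {AtP GoodF GoodS : ∀ (B : Type) [CommRing B] [IsLocalRing B] [Algebra O B], (GQ →* M2 B) → Prop}
  {L : LevelSet (fun x => (emb x).1) bad} {P : PPart L} {c : Nat.Primes → ResidueField O}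
  {hNE : ∀ N : ℕ, N ≠ 0 → ∃ ℓ : Nat.Primes, ¬ (ℓ : ℕ) ∣ N ∧
    ((ℓ : ℕ) : ZMod N) = 1 ∧ c ℓ ≠ ((ℓ : ℕ) : ResidueField O) + 1}
  {sep₀ : ∀ U, S.Separation emb (L.baseLevels c) U (S.BaseAllowed AtP)}
  {sepF₀ : ∀ U, S.PartSep ((P.pLevels c).TF U) bad
      fun B _ _ _ m => S.BaseAllowed AtP B m ∧ GoodF B m}
  {sepS₀ : ∀ U, S.PartSep ((P.pLevels c).TS U) bad
      fun B _ _ _ m => S.BaseAllowed AtP B m ∧ GoodS B m}
  {r n : ℕ} {D : S.TWSet r n} {ab : Fin r → ResidueField O}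

/-- **The old and new parts at `p` at one set of Taylor-Wiles primes**, given separating lifts. -/
def PPart.pDepth
    (T : haveI : NeZero S.p := ⟨S.hp.ne_zero⟩
      TWPart L c (DGroup S.p D.expo) (bad ∪ Finset.univ.image D.qv))
    (hneat : IsNeatOn O (GamH P.L0 ⊤))
    (sep : haveI : NeZero S.p := ⟨S.hp.ne_zero⟩
      ∀ U, S.Separation emb T.depthLevels U (D.Allowed AtP))
    (ev_dia : haveI : NeZero S.p := ⟨S.hp.ne_zero⟩
      ∀ U (i : Fin r) (j : (sep U).pts.J), ∃ a : (sep U).pts.B j, (sep U).pts.ε j a = ab i ∧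
        a * a - ((sep U).pts.r j (D.φ i)).trace * a + ((sep U).pts.r j (D.φ i)).det = 0 ∧
        (2 * a - ((sep U).pts.r j (D.φ i)).trace) * (sep U).ev (T.diaA U (dGen S.p D.expo i)) j =
          ((sep U).pts.r j (D.φ i) * (sep U).pts.r j (D.s i)).trace -
            (((sep U).pts.r j (D.φ i)).trace - a) * ((sep U).pts.r j (D.s i)).trace)
    (sepF : haveI : NeZero S.p := ⟨S.hp.ne_zero⟩
      ∀ U, S.PartSep ((P.pLevelsD T hneat).TF U) (bad ∪ Finset.univ.image D.qv)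
        fun B _ _ _ m => D.Allowed AtP B m ∧ GoodF B m)
    (sepS : haveI : NeZero S.p := ⟨S.hp.ne_zero⟩
      ∀ U, S.PartSep ((P.pLevelsD T hneat).TS U) (bad ∪ Finset.univ.image D.qv)
        fun B _ _ _ m => D.Allowed AtP B m ∧ GoodS B m)
    (ev_diaF : haveI : NeZero S.p := ⟨S.hp.ne_zero⟩
      ∀ U, Setup.DiaRel D ab (sepF U).pts fun i =>
        (sepF U).ev ((P.oldTW T hneat).dia U (dGen S.p D.expo i)))
    (ev_diaS : haveI : NeZero S.p := ⟨S.hp.ne_zero⟩
      ∀ U, Setup.DiaRel D ab (sepS U).pts fun i =>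
        (sepS U).ev (P.diaNew T hneat U (dGen S.p D.expo i))) :
    Setup.PDepth (P.pBase S c hNE sep₀ sepF₀ sepS₀)
      (T.depthTower (hNE := hNE) (sep₀ := sep₀) (ab := ab) sep ev_dia) :=
  haveI : NeZero S.p := ⟨S.hp.ne_zero⟩
  { plevels := P.pLevelsD T hneat
    diaF := fun U => (P.oldTW T hneat).dia U
    act_diaF := fun U g z => (P.oldTW T hneat).actD_dia U g z
    diaS := fun U => P.diaNew T hneat U
    act_diaS := fun U g z => P.act_diaNew T hneat U g z
    sepF := sepF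
    sepS := sepS
    ev_diaF := ev_diaF
    ev_diaS := ev_diaS
    redF := fun U => ((P.oldTW T hneat).redL U).toAddMonoidHom
    redF_smul := fun U => (P.oldTW T hneat).redL_smul U
    redF_surjective := fun U => (P.oldTW T hneat).redL_surjective U
    rankF_eq := fun U => (P.oldTW T hneat).rank_eq U
    redF_T := fun U ℓ hℓ hb z => (P.oldTW T hneat).redL_T U ℓ hℓ hb z
    red_upP := fun U a b => P.redL_upD T hneat U a b }

end setup

end FA.HeckeH1

end
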