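import Fermat.Agent.HeckeH1.TWLevel

/-!
The diamond group of a Taylor-Wiles level as an abstract `p`-group.
-/

set_option autoImplicit false

noncomputable section

namespace FA.HeckeH1

open IsLocalRing Matrix
open scoped MatrixGroups

/-- Cosets of the levels are finite. -/
instance finiteCoset (M : ℕ) [NeZero M] (H : Subgroup (ZMod M)ˣ) :
    Finite (GamH M ⊤ ⧸ (GamH M H).subgroupOf (GamH M ⊤)) := inferInstance

instance fintypeDelta (M : ℕ) [NeZero M] (H : Subgroup (ZMod M)ˣ) : Fintype ((ZMod M)ˣ ⧸ H) :=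
  Fintype.ofFinite _

section group

variable {M : ℕ} [NeZero M] {G : Type*} [CommGroup G] {κ : (ZMod M)ˣ →* G}
  (hκ : Function.Surjective κ) {p : ℕ} (hG : IsPGroup p G)

include hG in
/-- A character to a `p`-group, `p` odd, kills `-1`. -/
theorem map_neg_one_eq_one {n : ℕ} [Fact p.Prime] (hp : p ≠ 2) (κ' : (ZMod n)ˣ →* G) :
    κ' (-1) = 1 := by
  obtain ⟨k, hk⟩ := hG (κ' (-1))
  rw [← orderOf_eq_one_iff]
  have h2 : orderOf (κ' (-1)) ∣ 2 := orderOf_dvd_of_pow_eq_one (by rw [← map_pow]; simp)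
  exact Nat.eq_one_of_dvd_coprimes
    (((Nat.coprime_primes Fact.out Nat.prime_two).2 hp).pow_left k)
    (orderOf_dvd_of_pow_eq_one hk) h2

include hκ hG in
theorem isPGroup_quotient_ker : IsPGroup p ((ZMod M)ˣ ⧸ κ.ker) :=
  hG.of_equiv (QuotientGroup.quotientKerEquivOfSurjective κ hκ).symm

omit [NeZero M] in
theorem goodLevel_ker {O : Type} [CommRing O] (h1 : κ (-1) = 1) {N : ℕ} (hN : N ∣ M)
    (hneat : IsNeatOn O (GamH N ⊤)) : GoodLevel M κ.ker O :=
  ⟨h1, hneat.mono (GamH_top_le_of_dvd hN)⟩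

end group

/-- A surjection from the units modulo a prime to a cyclic group of dividing order. -/
theorem exists_unit_log {q n : ℕ} [Fact q.Prime] (h : n ∣ q - 1) :
    ∃ f : (ZMod q)ˣ →* Multiplicative (ZMod n), Function.Surjective f := by
  have hcyc : IsCyclic (ZMod q)ˣ := inferInstance
  have hdvd : n ∣ Nat.card (ZMod q)ˣ := by
    rwa [Nat.card_eq_fintype_card, ZMod.card_units]
  exact ⟨(AddMonoidHom.toMultiplicative (ZMod.castHom hdvd (ZMod n)).toAddMonoidHom).comp
    (zmodCyclicMulEquiv hcyc).symm.toMonoidHom,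
    (ZMod.castHom_surjective hdvd).comp (zmodCyclicMulEquiv hcyc).symm.surjective⟩

/-- Characters modulo distinct primes dividing `M` are jointly surjective. -/
theorem pi_unitsMap_surjective {M : ℕ} [NeZero M] {Y : Type*} [Fintype Y] (q : Y → ℕ)
    (hq : ∀ i, (q i).Prime) (hinj : Function.Injective q) (hdvd : ∀ i, q i ∣ M) {G : Y → Type*}
    [∀ i, CommGroup (G i)] (f : ∀ i, (ZMod (q i))ˣ →* G i) (hf : ∀ i, Function.Surjective (f i)) :
    Function.Surjective (Pi.monoidHom fun i => (f i).comp (ZMod.unitsMap (hdvd i))) := by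
  classical
  intro g
  choose v hv using fun i => hf i (g i)
  have hco : Set.Pairwise (↑(Finset.univ : Finset Y)) (Function.onFun Nat.Coprime q) :=
    fun i _ j _ hij => (Nat.coprime_primes (hq i) (hq j)).2 (hinj.ne hij)
  obtain ⟨x, hx⟩ := Nat.chineseRemainderOfFinset (fun i => (v i : ZMod (q i)).val) q Finset.univ
    (fun i _ => (hq i).ne_zero) hco
  have hxi : ∀ i, (x : ZMod (q i)) = (v i : ZMod (q i)) := fun i => by
    haveI : NeZero (q i) := ⟨(hq i).ne_zero⟩
    rw [(ZMod.natCast_eq_natCast_iff _ _ _).2 (hx i (Finset.mem_univ i))]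
    exact ZMod.natCast_zmod_val _
  have hxco : x.Coprime (∏ i, q i) := Nat.Coprime.prod_right fun i _ => by
    rw [Nat.coprime_comm, (hq i).coprime_iff_not_dvd, ← ZMod.natCast_eq_zero_iff, hxi i]
    haveI := Fact.mk (hq i)
    exact Units.ne_zero _
  have hprod : (∏ i, q i) ∣ M := by
    rw [← Finset.prod_image (g := q) (f := fun x => x) hinj.injOn]
    exact Finset.prod_primes_dvd M (fun x hx => by
      obtain ⟨i, -, rfl⟩ := Finset.mem_image.1 hx; exact (hq i).prime) (fun x hx => by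
      obtain ⟨i, -, rfl⟩ := Finset.mem_image.1 hx; exact hdvd i)
  obtain ⟨u, hu⟩ := ZMod.unitsMap_surjective hprod (ZMod.unitOfCoprime x hxco)
  refine ⟨u, funext fun i => ?_⟩
  show f i (ZMod.unitsMap (hdvd i) u) = g i
  rw [← hv i]
  refine congrArg (f i) (Units.ext ?_)
  have hi : q i ∣ ∏ j, q j := Finset.dvd_prod_of_mem q (Finset.mem_univ i)
  rw [← ZMod.unitsMap_comp hi hprod, MonoidHom.comp_apply, hu, ← hxi i]
  simp [ZMod.unitsMap]

section act

variable {N : ℕ} [NeZero N] {O : Type} [CommRing O] [IsDomain O] [IsDiscreteValuationRing O]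
  [IsAdicComplete (maximalIdeal O) O] [CharZero O] {S : Finset Nat.Primes}
  {χ₀ : heckeAlg N ⊤ O S →ₐ[O] ResidueField O} {Q : Finset Nat.Primes} {α : Nat.Primes → O}
  {M : ℕ} [NeZero M] {H : Subgroup (ZMod M)ˣ}
  [Finite (GamH M ⊤ ⧸ (GamH M H).subgroupOf (GamH M ⊤))] [Fintype ((ZMod M)ˣ ⧸ H)] {d : ℕ}
  {b : Fin d → Hom1 (GamH N ⊤) O} (T : TWAct χ₀ Q α M H b)
  {G : Type} [CommGroup G] (ι : (ZMod M)ˣ ⧸ H ≃* G)

/-- The representation over the group ring of an isomorphic group, on the prescribed basis. -/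
def TWAct.actG : pairAlg M H O →ₐ[O] Matrix (Fin d) (Fin d) (MonoidAlgebra O G) :=
  ((Matrix.reindexAlgEquiv O (MonoidAlgebra O G) (finCongr T.d_eq)).toAlgHom.comp
    (MonoidAlgebra.domCongr O O ι).toAlgHom.mapMatrix).comp T.D.act

theorem TWAct.actG_apply (x : pairAlg M H O) (i j : Fin d) :
    T.actG ι x i j = MonoidAlgebra.domCongr O O ι
      (T.D.act x (Fin.cast T.d_eq.symm i) (Fin.cast T.d_eq.symm j)) := rfl

theorem TWAct.actG_dia (g : (ZMod M)ˣ ⧸ H) :
    T.actG ι ⟨_, diaPair_mem M H O g⟩ = Matrix.scalar _ (MonoidAlgebra.single (ι g) 1) := by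
  refine Matrix.ext fun i j => ?_
  rw [T.actG_apply, T.D.act_dia, Matrix.scalar_apply, Matrix.scalar_apply]
  rcases eq_or_ne i j with rfl | h
  · rw [Matrix.diagonal_apply_eq, Matrix.diagonal_apply_eq, MonoidAlgebra.domCongr_single]
  · rw [Matrix.diagonal_apply_ne _ h,
      Matrix.diagonal_apply_ne _ (fun e => h (by simpa [Fin.ext_iff] using e)), map_zero]

theorem TWAct.aug_actG (x : pairAlg M H O) (i j : Fin d) :
    MonoidAlgebra.lift O O G 1 (T.actG ι x i j) =
      T.D.act0 x (Fin.cast T.d_eq.symm i) (Fin.cast T.d_eq.symm j) := by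
  rw [T.actG_apply, FreeData.act0_apply, Matrix.map_apply]
  generalize T.D.act x _ _ = a
  induction a using MonoidAlgebra.induction_linear with
  | zero => simp
  | add x y hx hy => rw [map_add, map_add, map_add, hx, hy]
  | single g c => simp

/-- The operators at level `N` are given by the augmentations. -/
theorem TWAct.base_eq (ℓ : Nat.Primes) (j : Fin d) :
    (T.base ℓ).1 (b j) =
      ∑ i, MonoidAlgebra.lift O O G 1 (T.actG ι (incl M H O S (Tp M H O S ℓ)) i j) • b i := by
  have h := T.act0_T ℓ (Fin.cast T.d_eq.symm j)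
  rw [Fin.cast_cast, Fin.cast_eq_self] at h
  rw [h]
  refine Fintype.sum_equiv (finCongr T.d_eq) _ _ fun i => ?_
  rw [T.aug_actG]
  simp

theorem TWAct.actG_eq_zero_iff (x : pairAlg M H O) :
    T.actG ι x = 0 ↔ ∀ v, x.1.1 (T.e.1.1 v) = 0 := by
  rw [show (∀ v, x.1.1 (T.e.1.1 v) = 0) ↔ T.D.act x = 0 by
    rw [T.D.act_eq_zero_iff (T.piece.idem.map (incl M H O S)) x]; simp only [incl_val]]
  constructor
  · intro h
    refine Matrix.ext fun i j => ?_
    have h1 := congrFun (congrFun h (Fin.cast T.d_eq i)) (Fin.cast T.d_eq j)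
    rw [T.actG_apply, Matrix.zero_apply, map_eq_zero_iff _ (AlgEquiv.injective _)] at h1
    simpa using h1
  · intro h
    refine Matrix.ext fun i j => ?_
    rw [T.actG_apply, h]
    simp

theorem TWAct.actG_self : T.actG ι (incl M H O S T.e) = 1 := by
  refine Matrix.ext fun i j => ?_
  rw [T.actG_apply, T.D.act_self]
  rcases eq_or_ne i j with rfl | h
  · rw [Matrix.one_apply_eq, Matrix.one_apply_eq]
    rw [MonoidAlgebra.one_def, MonoidAlgebra.one_def, MonoidAlgebra.domCongr_single]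
    simp
  · rw [Matrix.one_apply_ne h,
      Matrix.one_apply_ne (fun e => h (by simpa [Fin.ext_iff] using e)), map_zero]

end act

end FA.HeckeH1

end
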