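import Mathlib

/-!
Commutative algebra for level raising: congruences modulo `p` between lattices with an action of
a commutative ring.
-/

set_option autoImplicit false

noncomputable section

namespace FA.HeckeH1

section lattice

theorem exists_zmod_hom_ne_zero {Q : Type*} [AddCommGroup Q] {p : ℕ} [Fact p.Prime]
    (hQ : ∀ u : Q, p • u = 0) {x : Q} (hx : x ≠ 0) : ∃ g : Q →+ ZMod p, g x ≠ 0 := by
  have inst : Module (ZMod p) Q := AddCommGroup.zmodModule hQ
  let b := Module.Basis.ofVectorSpace (ZMod p) Q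
  obtain ⟨i, hi⟩ : ∃ i, b.repr x i ≠ 0 := by
    by_contra hcon
    simp only [not_exists, not_not] at hcon
    exact hx (b.repr.map_eq_zero_iff.1 (Finsupp.ext hcon))
  exact ⟨(b.coord i).toAddMonoidHom, by simpa using hi⟩

variable {X : Type*} [AddCommGroup X] [Module.Free ℤ X]

/-- An element which no functional separates from a submodule modulo `p` lies in it modulo `p`. -/
theorem exists_eq_add_smul {p : ℕ} [Fact p.Prime] (L : AddSubgroup X) (x : X)
    (h : ∀ f : X →ₗ[ℤ] ℤ, (∀ l ∈ L, (p : ℤ) ∣ f l) → (p : ℤ) ∣ f x) :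
    ∃ l ∈ L, ∃ y, x = l + p • y := by
  classical
  let W : AddSubgroup X := L ⊔ (nsmulAddMonoidHom (α := X) p).range
  suffices hx : x ∈ W by
    obtain ⟨l, hl, v, hv, e⟩ := AddSubgroup.mem_sup.1 hx
    obtain ⟨y, rfl⟩ := hv
    exact ⟨l, hl, y, e.symm⟩
  by_contra hx
  have hQ : ∀ u : X ⧸ W, p • u = 0 := by
    intro u
    induction u using QuotientAddGroup.induction_on with
    | H v =>
      rw [← QuotientAddGroup.mk_nsmul, QuotientAddGroup.eq_zero_iff]
      exact le_sup_right (a := L) ⟨v, rfl⟩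
  have hx0 : (QuotientAddGroup.mk x : X ⧸ W) ≠ 0 :=
    fun e => hx ((QuotientAddGroup.eq_zero_iff x).1 e)
  obtain ⟨g, hg⟩ := exists_zmod_hom_ne_zero hQ hx0
  let b := Module.Free.chooseBasis ℤ X
  let f : X →ₗ[ℤ] ℤ := b.constr ℤ fun i => ((g (QuotientAddGroup.mk (b i))).val : ℤ)
  have hf : ∀ v, ((f v : ℤ) : ZMod p) = g (QuotientAddGroup.mk v) := by
    have e : (Int.castAddHom (ZMod p)).toIntLinearMap.comp f =
        (g.comp (QuotientAddGroup.mk' W)).toIntLinearMap := by
      refine b.ext fun i => ?_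
      simp [f]
    intro v
    exact LinearMap.congr_fun e v
  refine hg ?_
  rw [← hf, ZMod.intCast_zmod_eq_zero_iff_dvd]
  refine h f fun l hl => ?_
  rw [← ZMod.intCast_zmod_eq_zero_iff_dvd, hf,
    (QuotientAddGroup.eq_zero_iff l).2 (le_sup_left (b := (nsmulAddMonoidHom (α := X) p).range) hl),
    map_zero]

end lattice

section raise

variable {R : Type*} [CommRing R] {P P' : Type*} [AddCommGroup P] [Module R P] [AddCommGroup P']
  [Module R P'] [Module.Finite ℤ P]

/-- **Level raising, linear algebra.** -/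
theorem raise_linear (i₁ i₂ : P →ₗ[R] P') (j₁ j₂ : P' →ₗ[R] P) {p : ℕ} (m : Ideal R) [m.IsMaximal]
    (hpm : (p : R) ∈ m) {t : R} (ht : t ∉ m)
    (hinj : ∀ z₁ z₂, (∃ y, i₁ z₁ + i₂ z₂ = p • y) → ∃ y, t • z₁ = p • y)
    (hsurj : ∀ y₁ y₂, ∃ x w₁ w₂, t • y₁ = j₁ x + p • w₁ ∧ t • y₂ = j₂ x + p • w₂)
    (w : P) (hw : ¬ ∃ y, w = p • y) (hwm : ∀ r ∈ m, ∃ y, r • w = p • y) (c : R)
    (hM₁ : ∃ y, j₁ (i₁ w + c • i₂ w) = p • y) (hM₂ : ∃ y, j₂ (i₁ w + c • i₂ w) = p • y)
    (s : R) (hs : s ∉ m) : ∃ x, j₁ x = 0 ∧ j₂ x = 0 ∧ s • x ≠ 0 := by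
  classical
  by_contra hcon
  simp only [not_exists, not_and, not_not] at hcon
  let J : P' →ₗ[R] P × P := j₁.prod j₂
  let C := (P × P) ⧸ LinearMap.range J
  let T : Module.End ℤ C := (Algebra.lsmul ℤ ℤ C : R →ₐ[ℤ] Module.End ℤ C) t
  have hT : LinearMap.range T ≤ Ideal.span {(p : ℤ)} • (⊤ : Submodule ℤ C) := by
    rintro _ ⟨u, rfl⟩
    obtain ⟨⟨y₁, y₂⟩, rfl⟩ := Submodule.mkQ_surjective _ u
    obtain ⟨x, w₁, w₂, h₁, h₂⟩ := hsurj y₁ y₂
    have e : T (Submodule.mkQ (LinearMap.range J) (y₁, y₂)) =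
        (p : ℤ) • Submodule.mkQ (LinearMap.range J) (w₁, w₂) := by
      show t • Submodule.mkQ (LinearMap.range J) (y₁, y₂) = _
      rw [← map_smul, natCast_zsmul, ← map_nsmul, Submodule.mkQ_apply, Submodule.mkQ_apply,
        Submodule.Quotient.eq]
      refine ⟨x, ?_⟩
      simp [J, h₁, h₂]
    rw [e]
    exact Submodule.smul_mem_smul (Ideal.mem_span_singleton_self _) Submodule.mem_top
  obtain ⟨Pol, hmon, -, hcoeff, hzero⟩ :=
    LinearMap.exists_monic_and_natDegree_eq_and_coeff_mem_pow_and_aeval_eq_zero ℤ T _ hT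
  set t₀ := Polynomial.aeval t Pol
  have ht₀ : t₀ ∉ m := by
    intro hmem
    apply ht
    refine Ideal.IsPrime.mem_of_pow_mem inferInstance Pol.natDegree ?_
    have e : t₀ = t ^ Pol.natDegree +
        ∑ k ∈ Finset.range Pol.natDegree, (Pol.coeff k : R) * t ^ k := by
      simp only [t₀]
      rw [Polynomial.aeval_eq_sum_range, Finset.sum_range_succ, hmon.coeff_natDegree, one_smul,
        add_comm]
      simp [zsmul_eq_mul]
    have hsum : ∑ k ∈ Finset.range Pol.natDegree, (Pol.coeff k : R) * t ^ k ∈ m := by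
      refine Submodule.sum_mem _ fun k hk => Ideal.mul_mem_right _ _ ?_
      have h1 := hcoeff k
      rw [Ideal.span_singleton_pow, Ideal.mem_span_singleton] at h1
      obtain ⟨u, hu⟩ :=
        (dvd_pow_self (p : ℤ) (Nat.sub_ne_zero_of_lt (Finset.mem_range.1 hk))).trans h1
      rw [hu]
      push_cast
      exact m.mul_mem_right _ hpm
    rw [e] at hmem
    exact (Ideal.add_mem_iff_left m hsum).1 hmem
  have hC : ∀ v : P × P, t₀ • v ∈ LinearMap.range J := by
    intro v
    have h1 : ((Algebra.lsmul ℤ ℤ C : R →ₐ[ℤ] Module.End ℤ C) t₀) = 0 := by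
      rw [← Polynomial.aeval_algHom_apply]; exact hzero
    have h2 := LinearMap.congr_fun h1 (Submodule.mkQ _ v)
    exact (Submodule.Quotient.mk_eq_zero _).1 h2
  set x := i₁ w + c • i₂ w
  obtain ⟨y₁, hy₁⟩ := hM₁
  obtain ⟨y₂, hy₂⟩ := hM₂
  obtain ⟨x', hx'⟩ := hC (y₁, y₂)
  have hx1 := congrArg Prod.fst hx'
  have hx2 := congrArg Prod.snd hx'
  simp [J] at hx1 hx2
  have hk := hcon (t₀ • x - p • x') (by rw [map_sub, map_smul, hy₁, map_nsmul, hx1]; rw [smul_comm, sub_self])
    (by rw [map_sub, map_smul, hy₂, map_nsmul, hx2]; rw [smul_comm, sub_self])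
  rw [smul_sub, sub_eq_zero, smul_smul, smul_comm] at hk
  -- multiply by an inverse of `s t₀` modulo `m`
  obtain ⟨u, hu⟩ : ∃ u, u * (s * t₀) - 1 ∈ m := by
    obtain ⟨u, i, hi, hui⟩ := (Ideal.IsMaximal.exists_inv inferInstance
      (fun hm => (Ideal.IsPrime.mem_or_mem inferInstance hm).elim hs ht₀) : ∃ y, ∃ i ∈ m, y * (s * t₀) + i = 1)
    exact ⟨u, by rw [show u * (s * t₀) - 1 = -i by linear_combination hui]; exact m.neg_mem hi⟩
  obtain ⟨y, hy⟩ := hwm _ hu
  obtain ⟨z, hz⟩ := hinj w (c • w) ⟨u • s • x' - i₁ y - c • i₂ y, by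
    rw [map_smul, smul_sub, smul_sub]
    have h1 : p • u • s • x' = (u * (s * t₀)) • x := by
      rw [smul_comm, ← hk, smul_smul]
    have h2 : p • (i₁ y) + p • (c • i₂ y) = (u * (s * t₀) - 1) • x := by
      rw [← map_nsmul, ← hy, map_smul, smul_comm p c, ← map_nsmul, ← hy, map_smul,
        smul_comm c, ← smul_add]
    rw [h1, sub_sub, h2, sub_smul, one_smul, sub_sub_cancel]⟩
  obtain ⟨v, i, hi, hvi⟩ := (Ideal.IsMaximal.exists_inv inferInstance ht : ∃ y, ∃ i ∈ m, y * t + i = 1)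
  obtain ⟨y', hy'⟩ := hwm i hi
  exact hw ⟨v • z + y', by
    rw [smul_add, smul_comm p v z, ← hz, ← hy', smul_smul, ← add_smul, hvi, one_smul]⟩

end raise

section killed

variable {R : Type*} [CommRing R] {Q : Type*} [AddCommGroup Q] [Module R Q] [Finite Q]

/-- A finite module whose annihilator lies in a maximal ideal has a nonzero element killed by it. -/
theorem exists_killed (m : Ideal R) [m.IsMaximal] (h : ∀ r : R, (∀ v : Q, r • v = 0) → r ∈ m) :
    ∃ w : Q, w ≠ 0 ∧ ∀ r ∈ m, r • w = 0 := by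
  classical
  let Good : Submodule R Q → Prop := fun W => ∀ r : R, (∀ v ∈ W, r • v = 0) → r ∈ m
  have : Finite (Submodule R Q) := Finite.of_injective _ SetLike.coe_injective
  have htop : Good ⊤ := fun r hr => h r fun v => hr v Submodule.mem_top
  obtain ⟨W, hW, hmin⟩ := (Set.toFinite {W | Good W}).exists_minimal ⟨⊤, htop⟩
  have hmin' : ∀ W', Good W' → W' ≤ W → W ≤ W' := fun W' h1 h2 => hmin h1 h2
  have key : ∀ a ∈ m, ∀ v ∈ W, a • v = 0 := by
    intro a ha
    -- stable image of `a`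
    let f : Q → Q := fun v => a • v
    obtain ⟨i, k, hik, hrep⟩ : ∃ i k : ℕ, i < k ∧ ∀ v : Q, a ^ i • v = a ^ k • v := by
      obtain ⟨i, k, hne, he⟩ := Finite.exists_ne_map_eq_of_infinite
        fun n : ℕ => fun v : Q => a ^ n • v
      rcases lt_or_gt_of_ne hne with hlt | hlt
      · exact ⟨i, k, hlt, fun v => congrFun he v⟩
      · exact ⟨k, i, hlt, fun v => (congrFun he v).symm⟩
    have hnil : ∀ v ∈ W, a ^ i • v = 0 := by
      let W' : Submodule R Q := W ⊓ LinearMap.ker (LinearMap.lsmul R Q (a ^ i))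
      have hW' : Good W' := by
        intro r hr
        have hb : 1 - a ^ (k - i) ∉ m := fun hb => (Ideal.ne_top_iff_one m).1
          (Ideal.IsMaximal.ne_top inferInstance)
          (by simpa using m.add_mem hb (Ideal.pow_mem_of_mem _ ha _ (Nat.sub_pos_of_lt hik)))
        refine (Ideal.IsPrime.mem_or_mem (I := m) inferInstance
          (hW (r * (1 - a ^ (k - i))) fun v hv => ?_)).resolve_right hb
        rw [mul_smul]
        refine hr _ ⟨W.smul_mem _ hv, ?_⟩
        show a ^ i • (1 - a ^ (k - i)) • v = 0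
        rw [smul_smul, mul_sub, mul_one, ← pow_add, Nat.add_sub_cancel' hik.le, sub_smul, hrep,
          sub_self]
      intro v hv
      exact (hmin' W' hW' inf_le_left hv).2
    let W₁ : Submodule R Q := W ⊓ LinearMap.ker (LinearMap.lsmul R Q a)
    have hW₁ : Good W₁ := by
      intro r hr
      have : ∀ n v, v ∈ W → a ^ n • v = 0 → r ^ n • v = 0 := by
        intro n
        induction n with
        | zero => intro v _ h0; simpa using h0
        | succ n ih =>
          intro v hv h0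
          rw [pow_succ, mul_smul]
          refine ih (r • v) (W.smul_mem r hv) ?_
          rw [smul_comm]
          exact hr _ ⟨W.smul_mem _ hv, by
            show a • (a ^ n • v) = 0
            rw [smul_smul, ← pow_succ', h0]⟩
      exact Ideal.IsPrime.mem_of_pow_mem inferInstance i
        (hW (r ^ i) fun v hv => this i v hv (hnil v hv))
    intro v hv
    exact (hmin' W₁ hW₁ inf_le_left hv).2
  by_contra hcon
  simp only [not_exists, not_and] at hcon
  refine (Ideal.ne_top_iff_one m).1 (Ideal.IsMaximal.ne_top inferInstance) (hW 1 fun v hv => ?_)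
  rw [one_smul]
  by_contra hv0
  exact hcon v hv0 fun r hr => key r hr v hv

end killed

end FA.HeckeH1

end
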