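import Fermat.Agent.HeckeH1.Ops
import Fermat.Agent.HeckeH1.Mod

/-!
Level raising for parabolic cohomology of `Γ₀(M)`.
-/

set_option autoImplicit false

noncomputable section

namespace FA.HeckeH1

open CongruenceSubgroup
open scoped MatrixGroups

variable {M q : ℕ} [Fact q.Prime]

section composites

variable {H : Subgroup (ZMod M)ˣ} {A : Type*} [AddCommGroup A]

/-- `J2 ∘ res = T q`. -/
theorem J2_of_res (hqM : ¬ q ∣ M) (z : Hom1 (GamH M H) A) :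
    (J2 H hqM).act ((Corr.res GamUp_le).act z) = (Tc M H q).act z := by
  rw [← Corr.comp_act]
  refine Corr.Same.act_eq ⟨Equiv.punitProd _, fun x => ⟨1, ?_⟩⟩ z
  rw [Subgroup.coe_one, map_one, one_mul]
  show (1 : GL (Fin 2) ℚ) * gl (rep M q x.2) = _
  rw [one_mul]
  rfl

/-- `J2 ∘ I2 = q + 1`. -/
theorem J2_of_I2 (hqM : ¬ q ∣ M) (z : Hom1 (GamH M H) A) :
    (J2 H hqM).act ((I2 H hqM).act z) = (q + 1 : ℕ) • z := by
  choose p hp hpe using fun i : RIdx M q => exists_del_mul_eq_rep (H := H) hqM i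
  apply AddMonoidHom.ext
  intro γ
  show hv ((J2 H hqM).act ((I2 H hqM).act z)) γ.toMul = (q + 1 : ℕ) • hv z γ.toMul
  generalize γ.toMul = γ
  rw [Corr.act_apply]
  have key : ∀ i : RIdx M q, hv ((I2 H hqM).act z) ((J2 H hqM).fac γ i) =
      hv z ⟨p i, hp i⟩ + hv z γ - hv z ⟨p ((J2 H hqM).perm γ i), hp _⟩ := by
    intro i
    rw [sub_eq_add_neg, ← hv_inv, ← hv_mul, ← hv_mul]
    refine Corr.single_act _ _ z _ _ ?_
    have e : gl (rep M q i) * glQ (γ : SL(2, ℤ)) =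
        glQ ((J2 H hqM).fac γ i : SL(2, ℤ)) * gl (rep M q ((J2 H hqM).perm γ i)) :=
      (J2 H hqM).fac_spec γ i
    rw [← hpe i, ← hpe ((J2 H hqM).perm γ i), ← mul_assoc, ← eq_mul_inv_iff_mul_eq] at e
    simp only [Subgroup.coe_mul, Subgroup.coe_inv, map_mul, map_inv]
    rw [eps_eq_scalar]
    generalize glQ ((J2 H hqM).fac γ i : SL(2, ℤ)) = f at e ⊢
    generalize glQ (p i) = a at e ⊢
    generalize glQ (p ((J2 H hqM).perm γ i)) = b at e ⊢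
    generalize glQ (γ : SL(2, ℤ)) = g at e ⊢
    generalize gl (del q) = d at e ⊢
    generalize Units.mk0 (q : ℚ) _ = c
    have e' : a * g * b⁻¹ = d⁻¹ * f * d := by
      rw [show a * g * b⁻¹ = d⁻¹ * (d * a) * g * b⁻¹ by group, e]; group
    rw [e', mul_assoc (Matrix.GeneralLinearGroup.scalar (Fin 2) c) d⁻¹ f, ← mul_assoc (d⁻¹ * f * d),
      mul_assoc (d⁻¹ * f) d, ← scal_comm c d, ← mul_assoc (d⁻¹ * f), ← scal_comm c (d⁻¹ * f)]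
    group
  refine (Fintype.sum_congr _ _ key).trans ?_
  rw [Finset.sum_sub_distrib, Finset.sum_add_distrib, Finset.sum_const, Finset.card_univ]
  refine (congrArg (fun t => ∑ i : RIdx M q, hv z ⟨p i, hp i⟩ + Fintype.card (RIdx M q) •
    hv z γ - t) (Equiv.sum_comp ((J2 H hqM).perm γ)
      (fun i : RIdx M q => hv z ⟨p i, hp i⟩))).trans ?_
  exact (add_sub_cancel_left _ _).trans (congrArg (· • hv z γ) (card_RIdx hqM))

/-- `W ∘ res = I2`. -/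
theorem Wc_res (hqM : ¬ q ∣ M) (hqH : ∃ u ∈ H, (u : ZMod M) = (q : ZMod M))
    (z : Hom1 (GamH M H) A) :
    (Wc H hqM).act ((Corr.res GamUp_le).act z) = (I2 H hqM).act z := by
  rw [← Corr.comp_act]
  obtain ⟨u, hu, huq⟩ := hqH
  have hb := bezout_eq (Fact.out : q.Prime) hqM
  let h : SL(2, ℤ) := ⟨!![Nat.gcdA q M, -Nat.gcdB q M; (M : ℤ), (q : ℤ)],
    by rw [Matrix.det_fin_two_of]; linear_combination hb⟩
  have hh : h ∈ GamH M H := by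
    refine ⟨h.2, by simp [h], u⁻¹, inv_mem hu, ?_⟩
    have h1 : (q : ZMod M) * (Nat.gcdA q M : ZMod M) = 1 := by
      have := congrArg (fun x : ℤ => (x : ZMod M)) hb
      simpa using this
    have h2 : ((u⁻¹ : (ZMod M)ˣ) : ZMod M) = (Nat.gcdA q M : ZMod M) :=
      Units.inv_eq_of_mul_eq_one_right (by rw [huq]; exact h1)
    simp [h, h2]
  refine Corr.Same.act_eq ⟨Equiv.punitProd _, fun x => ⟨⟨h, hh⟩, ?_⟩⟩ z
  show (1 : GL (Fin 2) ℚ) * gl (wMat hqM) = glQ h * gl (eps q)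
  rw [one_mul, (mul_glQ (eps_det q) h).2]
  congr 1
  ext r s
  fin_cases r <;> fin_cases s <;> simp [wMat, rep, h, eps, Matrix.mul_apply, Fin.sum_univ_two]

theorem cores_of_res [NeZero M] (hqM : ¬ q ∣ M) (hqH : ∃ u ∈ H, (u : ZMod M) = (q : ZMod M))
    (z : Hom1 (GamH M H) A) :
    (Corr.cores (Γ := GamH M H)).act ((Corr.res (GamUp_le (H := H) (q := q))).act z) =
      (q + 1 : ℕ) • z := by
  rw [← Wc_sq hqM hqH ((Corr.res GamUp_le).act z), cores_Wc hqM, Wc_res hqM hqH, J2_of_I2]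

theorem cores_of_I2 [NeZero M] (hqM : ¬ q ∣ M) (hqH : ∃ u ∈ H, (u : ZMod M) = (q : ZMod M))
    (z : Hom1 (GamH M H) A) :
    (Corr.cores (Γ := GamH M H)).act ((I2 H hqM).act z) = (Tc M H q).act z := by
  rw [← Wc_res hqM hqH, cores_Wc hqM, J2_of_res]

/-- On the kernel of both traces `U q ^ 2 = 1`. -/
theorem U_sq_of_ker [NeZero M] (hqM : ¬ q ∣ M) (hqH : ∃ u ∈ H, (u : ZMod M) = (q : ZMod M))
    (z : Hom1 (GamUp M q H) A) (h1 : (Corr.cores (Γ := GamH M H)).act z = 0)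
    (h2 : (J2 H hqM).act z = 0) :
    (Tc (M * q) (Hup M q H) q).act ((Tc (M * q) (Hup M q H) q).act z) = z := by
  have hU : ∀ z : Hom1 (GamUp M q H) A, (J2 H hqM).act z = 0 →
      (Tc (M * q) (Hup M q H) q).act z = -(Wc H hqM).act z := fun z hz => by
    refine eq_neg_of_add_eq_zero_left ?_
    rw [← J2_res hqM, hz, map_zero]
  have h2' : (J2 H hqM).act (-(Wc H hqM).act z) = 0 := by
    rw [map_neg, ← cores_Wc hqM ((Wc H hqM).act z), Wc_sq hqM hqH, h1, neg_zero]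
  rw [hU z h2, hU _ h2', map_neg, Wc_sq hqM hqH, neg_neg]

end composites

/-- The level `Γ₀(M)`. -/
local notation "G₀" => GamH M (⊤ : Subgroup (ZMod M)ˣ)

/-- The level `Γ₀(M q)`. -/
local notation "G₁" => GamUp M q (⊤ : Subgroup (ZMod M)ˣ)

theorem coprime_mem_top {ℓ : ℕ} (hℓ : ℓ.Prime) (h : ¬ ℓ ∣ M) :
    ∃ u ∈ (⊤ : Subgroup (ZMod M)ˣ), (u : ZMod M) = (ℓ : ZMod M) :=
  ⟨ZMod.unitOfCoprime ℓ (hℓ.coprime_iff_not_dvd.2 h), trivial, ZMod.coe_unitOfCoprime _ _⟩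

variable [NeZero M]

/-- `i` modulo `p` is injective up to Eisenstein operators. -/
theorem inj_mod_p (hqM : ¬ q ∣ M) {p : ℕ} (hp : p.Prime) {l l' : ℕ} [Fact l.Prime] [Fact l'.Prime]
    (hlq : l ≠ q) (hl : l % iharaMod q M p = 1) (hl' : l' % (q * iharaMod q M p * l) = 1)
    (z₁ z₂ : Hom1 G₀ ℤ) (y : Hom1 G₁ ℤ)
    (h : (Corr.res GamUp_le).act z₁ + (I2 ⊤ hqM).act z₂ = p • y) :
    (∃ y₁, Eop M ⊤ l' (Eop M ⊤ l z₁) = p • y₁) ∧
      ∃ y₂, Eop M ⊤ l' (Eop M ⊤ l z₂) = p • y₂ := by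
  let red : ℤ →+ ZMod p := Int.castAddHom (ZMod p)
  have hEop : ∀ (ℓ : ℕ) [Fact ℓ.Prime] (z : Hom1 G₀ ℤ),
      red.comp (Eop M ⊤ ℓ z) = Eop M ⊤ ℓ (red.comp z) := fun ℓ _ z => by
    rw [Eop_apply, Eop_apply, Corr.act_comp_hom]
    apply AddMonoidHom.ext
    intro γ
    simp [red]
  have hzero : (Corr.res GamUp_le).act (red.comp z₁) + (I2 ⊤ hqM).act (red.comp z₂) = 0 := by
    rw [Corr.act_comp_hom, Corr.act_comp_hom]
    apply AddMonoidHom.ext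
    intro γ
    have h1 := congrArg red (DFunLike.congr_fun h γ)
    simp only [AddMonoidHom.add_apply, map_add, AddMonoidHom.smul_apply, map_nsmul] at h1
    show red _ + red _ = 0
    rw [h1]
    simp [red]
  obtain ⟨h1, h2⟩ := ihara_level hqM hp (fun x => by simp) _ _ hzero hlq hl hl'
  rw [← hEop, ← hEop] at h1 h2
  have key : ∀ z : Hom1 G₀ ℤ, red.comp z = 0 → ∃ y, z = p • y := by
    intro z hz
    have hd : ∀ γ, (p : ℤ) ∣ z γ := fun γ =>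
      (ZMod.intCast_zmod_eq_zero_iff_dvd _ _).1 (DFunLike.congr_fun hz γ)
    have hp0 : (p : ℤ) ≠ 0 := by exact_mod_cast hp.ne_zero
    refine ⟨AddMonoidHom.mk' (fun γ => z γ / p)
      (fun a b => by rw [map_add, Int.add_ediv_of_dvd_left (hd a)]), ?_⟩
    apply AddMonoidHom.ext
    intro γ
    simp [Int.mul_ediv_cancel' (hd γ)]
  exact ⟨key _ h1, key _ h2⟩

theorem pr_Eop {l : ℕ} [Fact l.Prime] (hlM : ¬ l ∣ M) (z : Hom1 G₀ ℤ) (φ : Symb G₀ ℤ) :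
    pr (Eop M ⊤ l z) φ = pr z ((Tc M ⊤ l).symb φ - (l + 1 : ℕ) • φ) := by
  rw [Eop_apply, ← prLin_apply, map_sub, map_nsmul, LinearMap.sub_apply, LinearMap.smul_apply,
    ← prLin_apply z, map_sub, map_nsmul, prLin_apply, prLin_apply, prLin_apply,
    pr_Tc_self hlM (Subgroup.mem_top _) (coprime_mem_top Fact.out hlM)]

/-- `j` modulo `p` is surjective on parabolic homomorphisms up to Eisenstein operators. -/
theorem surj_mod_p (hqM : ¬ q ∣ M) {p : ℕ} (hp : p.Prime) {l l' : ℕ} [Fact l.Prime] [Fact l'.Prime]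
    (hlq : l ≠ q) (hlM : ¬ l ∣ M) (hl'M : ¬ l' ∣ M)
    (hl : l % iharaMod q M p = 1) (hl' : l' % (q * iharaMod q M p * l) = 1)
    (y₁ y₂ : Par G₀ ℤ) :
    ∃ (x : Par G₁ ℤ) (w₁ w₂ : Par G₀ ℤ),
      Eop M ⊤ l (Eop M ⊤ l' y₁.1) =
        (Corr.cores (Γ := G₀)).act x.1 + p • w₁.1 ∧
      Eop M ⊤ l (Eop M ⊤ l' y₂.1) = (J2 ⊤ hqM).act x.1 + p • w₂.1 := by
  have := Fact.mk hp
  have : NeZero (M * q) := ⟨mul_ne_zero (NeZero.ne M) (Fact.out : q.Prime).ne_zero⟩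
  have hH : (-1 : (ZMod M)ˣ) ∈ (⊤ : Subgroup (ZMod M)ˣ) := Subgroup.mem_top _
  obtain ⟨ψ₁, hψ₁⟩ := mem_Par.1 y₁.2
  obtain ⟨ψ₂, hψ₂⟩ := mem_Par.1 y₂.2
  let J : Symb G₁ ℤ →+ Symb G₀ ℤ × Symb G₀ ℤ :=
    ((Corr.cores (Γ := G₀)).symb).prod (J2 ⊤ hqM).symb
  let Eo : ∀ (ℓ : ℕ) [Fact ℓ.Prime], Symb G₀ ℤ → Symb G₀ ℤ :=
    fun ℓ _ φ => (Tc M ⊤ ℓ).symb φ - (ℓ + 1 : ℕ) • φ
  obtain ⟨L, hL, ⟨η₁, η₂⟩, e⟩ := exists_eq_add_smul (p := p) J.range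
    (Eo l (Eo l' ψ₁), Eo l (Eo l' ψ₂)) (fun f hf => by
      obtain ⟨z₁, hz₁⟩ := (prLin_bijective (A := ℤ) (Γ := G₀) (neg_one_mem_GamH hH)).2
        (f.comp (LinearMap.inl ℤ _ _))
      obtain ⟨z₂, hz₂⟩ := (prLin_bijective (A := ℤ) (Γ := G₀) (neg_one_mem_GamH hH)).2
        (f.comp (LinearMap.inr ℤ _ _))
      have hfeq : ∀ a b, f (a, b) = pr z₁ a + pr z₂ b := fun a b => by
        rw [← prLin_apply, ← prLin_apply, hz₁, hz₂, LinearMap.comp_apply, LinearMap.comp_apply,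
          ← map_add]
        simp
      let x := (Corr.res GamUp_le).act z₁ + (I2 ⊤ hqM).act z₂
      have hx : ∀ φ : Symb G₁ ℤ, (p : ℤ) ∣ pr x φ := fun φ => by
        have h1 := hf _ ⟨φ, rfl⟩
        rw [show J φ = ((Corr.cores (Γ := G₀)).symb φ, (J2 ⊤ hqM).symb φ) from rfl,
          hfeq, ← pr_res GamUp_le, ← pr_I2 hqM hH, ← prLin_apply, ← prLin_apply,
          ← LinearMap.add_apply, ← map_add, prLin_apply] at h1
        exact h1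
      choose g hg using hx
      have hp0 : (p : ℤ) ≠ 0 := by exact_mod_cast hp.ne_zero
      let G : Symb G₁ ℤ →ₗ[ℤ] ℤ :=
        { toFun := g
          map_add' := fun a b => mul_left_cancel₀ hp0 (by rw [mul_add, ← hg, ← hg, ← hg, pr_add_right])
          map_smul' := fun c a => mul_left_cancel₀ hp0 (by
            rw [← hg, pr_smul_right, hg, RingHom.id_apply, smul_eq_mul]; ring) }
      obtain ⟨y, hy⟩ := (prLin_bijective (A := ℤ) (Γ := G₁)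
        (neg_one_mem_GamH (neg_one_mem_Hup hH))).2 G
      have hxy : x = p • y := (prLin_bijective (A := ℤ) (Γ := G₁)
        (neg_one_mem_GamH (neg_one_mem_Hup hH))).1 (LinearMap.ext fun φ => by
          rw [prLin_apply, map_nsmul, LinearMap.smul_apply, hy, hg, nsmul_eq_mul]
          rfl)
      obtain ⟨⟨u₁, hu₁⟩, ⟨u₂, hu₂⟩⟩ := inj_mod_p hqM hp hlq hl hl' z₁ z₂ y hxy
      rw [hfeq, ← pr_Eop hlM, ← pr_Eop hl'M, ← pr_Eop hlM z₂, ← pr_Eop hl'M, hu₁, hu₂,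
        ← prLin_apply, ← prLin_apply, map_nsmul, map_nsmul, LinearMap.smul_apply,
        LinearMap.smul_apply, ← smul_add, nsmul_eq_mul]
      exact dvd_mul_right _ _)
  obtain ⟨φ, rfl⟩ := hL
  have e₁ : Eo l (Eo l' ψ₁) = (Corr.cores (Γ := G₀)).symb φ + p • η₁ := congrArg Prod.fst e
  have e₂ : Eo l (Eo l' ψ₂) = (J2 ⊤ hqM).symb φ + p • η₂ := congrArg Prod.snd e
  have hEo : ∀ (ℓ : ℕ) [Fact ℓ.Prime] (ψ : Symb G₀ ℤ),
      theta (Eo ℓ ψ) = Eop M ⊤ ℓ (theta ψ) := fun ℓ _ ψ => by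
    simp only [Eo, Eop_apply, map_sub, map_nsmul, theta_act]
  refine ⟨⟨theta φ, mem_Par.2 ⟨φ, rfl⟩⟩, ⟨theta η₁, mem_Par.2 ⟨η₁, rfl⟩⟩,
    ⟨theta η₂, mem_Par.2 ⟨η₂, rfl⟩⟩, ?_, ?_⟩
  · rw [← hψ₁, ← hEo, ← hEo, e₁, map_add, map_nsmul, theta_act]
  · rw [← hψ₂, ← hEo, ← hEo, e₂, map_add, map_nsmul, theta_act]

theorem mem_of_nsmul {p : ℕ} (hp : p ≠ 0) {z : Par G₀ ℤ} {y : Hom1 G₀ ℤ} (h : z.1 = p • y) :
    ∃ y' : Par G₀ ℤ, z = p • y' :=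
  ⟨⟨y, Par_of_nsmul hp (h ▸ z.2)⟩, Subtype.ext h⟩

/-- **Level raising.** The polynomials killing the common kernel of the two traces lie in any
maximal ideal attached to a non-Eisenstein congruence `T q ≡ ± (q + 1)`. -/
theorem raise_ker (hqM : ¬ q ∣ M) {p : ℕ} (hp : p.Prime)
    (m : Ideal (MvPolynomial (GP (M * q)) ℤ)) [m.IsMaximal]
    (hpm : (p : MvPolynomial (GP (M * q)) ℤ) ∈ m)
    (l l' : GP (M * q)) (hl : l.1 % iharaMod q M p = 1)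
    (hl' : l'.1 % (q * iharaMod q M p * l.1) = 1)
    (hlm : MvPolynomial.X l - MvPolynomial.C ((l.1 : ℤ) + 1) ∉ m)
    (hl'm : MvPolynomial.X l' - MvPolynomial.C ((l'.1 : ℤ) + 1) ∉ m)
    (w : Par G₀ ℤ) (hw : ¬ ∃ y, w = p • y)
    (hwm : ∀ r ∈ m, ∃ y, hact ℤ M ⊤ (M * q) r w = p • y)
    (c : ℤ) (hc : c * c = 1)
    (hq : ∃ y : Par G₀ ℤ, TPar ℤ M ⊤ q w = (c * ((q : ℤ) + 1)) • w + p • y)
    (s : MvPolynomial (GP (M * q)) ℤ) (hs : s ∉ m) :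
    ∃ x : Par G₁ ℤ, (Corr.cores (Γ := G₀)).act x.1 = 0 ∧ (J2 ⊤ hqM).act x.1 = 0 ∧
      hact ℤ (M * q) (Hup M q ⊤) (M * q) s x ≠ 0 := by
  have : NeZero (M * q) := ⟨mul_ne_zero (NeZero.ne M) (Fact.out : q.Prime).ne_zero⟩
  have hH : (-1 : (ZMod M)ˣ) ∈ (⊤ : Subgroup (ZMod M)ˣ) := Subgroup.mem_top _
  let R := MvPolynomial (GP (M * q)) ℤ
  letI : Module R (Par G₀ ℤ) := Module.compHom _ (hact ℤ M ⊤ (M * q))
  letI : Module R (Par G₁ ℤ) := Module.compHom _ (hact ℤ (M * q) (Hup M q ⊤) (M * q))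
  let f₀ : GP (M * q) → Module.End ℤ (Par G₀ ℤ) := fun ℓ => TPar ℤ M ⊤ ℓ.1
  let f₁ : GP (M * q) → Module.End ℤ (Par G₁ ℤ) := fun ℓ => TPar ℤ (M * q) (Hup M q ⊤) ℓ.1
  have h₀ : ∀ i j, Commute (f₀ i) (f₀ j) := fun _ _ => TPar_commute M ⊤ _ _
  have h₁ : ∀ i j, Commute (f₁ i) (f₁ j) := fun _ _ => TPar_commute (M * q) (Hup M q ⊤) _ _
  have hℓ : ∀ ℓ : GP (M * q), ¬ ℓ.1 ∣ M := fun ℓ h => ℓ.2.2 (h.mul_right q)
  -- the four maps
  let mkUp : ∀ C : Corr G₀ G₁, (∀ (ℓ : GP (M * q)) (z : Hom1 G₀ ℤ),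
      (Tc (M * q) (Hup M q ⊤) ℓ.1).act (C.act z) = C.act ((Tc M ⊤ ℓ.1).act z)) →
      (Par G₀ ℤ →ₗ[R] Par G₁ ℤ) := fun C hC =>
    { toFun := C.parLin
      map_add' := map_add _
      map_smul' := fun r z => evalComm_intertwine f₀ h₀ f₁ h₁ C.parLin.toAddMonoidHom
        (fun i v => Subtype.ext (hC i v.1).symm) r z }
  let mkDown : ∀ C : Corr G₁ G₀, (∀ (ℓ : GP (M * q)) (z : Hom1 G₁ ℤ),
      (Tc M ⊤ ℓ.1).act (C.act z) = C.act ((Tc (M * q) (Hup M q ⊤) ℓ.1).act z)) →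
      (Par G₁ ℤ →ₗ[R] Par G₀ ℤ) := fun C hC =>
    { toFun := C.parLin
      map_add' := map_add _
      map_smul' := fun r z => evalComm_intertwine f₁ h₁ f₀ h₀ C.parLin.toAddMonoidHom
        (fun i v => Subtype.ext (hC i v.1).symm) r z }
  let i₁ := mkUp (Corr.res GamUp_le) fun ℓ z => res_Tc ℓ.2.2 z
  let i₂ := mkUp (I2 ⊤ hqM) fun ℓ z => I2_Tc hqM ℓ.2.2 z
  let j₁ := mkDown (Corr.cores (Γ := G₀)) fun ℓ z =>
    (J_Tc hqM hH ℓ.2.2 (coprime_mem_top ℓ.2.1 (hℓ ℓ)) z).1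
  let j₂ := mkDown (J2 ⊤ hqM) fun ℓ z =>
    (J_Tc hqM hH ℓ.2.2 (coprime_mem_top ℓ.2.1 (hℓ ℓ)) z).2
  let E : GP (M * q) → R := fun ℓ => MvPolynomial.X ℓ - MvPolynomial.C ((ℓ.1 : ℤ) + 1)
  have hE : ∀ (ℓ : GP (M * q)) (z : Par G₀ ℤ), (E ℓ • z : Par G₀ ℤ).1 = Eop M ⊤ ℓ.1 z.1 := by
    intro ℓ z
    show (hact ℤ M ⊤ (M * q) (E ℓ) z).1 = _
    simp only [E, map_sub]
    rw [hact_X, hact, evalComm_C, LinearMap.sub_apply, Module.End.intCast_apply, Eop_apply,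
      Submodule.coe_sub, Submodule.coe_smul_of_tower, ← natCast_zsmul, Nat.cast_succ]
    rfl
  have hlq : l.1 ≠ q := fun h => l.2.2 (by rw [h]; exact dvd_mul_left q M)
  have hp0 : p ≠ 0 := hp.ne_zero
  have ht : E l * E l' ∉ m := fun h =>
    (Ideal.IsPrime.mem_or_mem inferInstance h).elim hlm hl'm
  have hc' : ((-c : ℤ) : R) = MvPolynomial.C (-c) := by simp
  obtain ⟨y, hy⟩ := hq
  have hcsmul : ∀ (v : Par G₁ ℤ), ((-c : ℤ) : R) • v = (-c) • v := fun v =>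
    Int.cast_smul_eq_zsmul R _ v
  have hM₁ : ∃ y', j₁ (i₁ w + ((-c : ℤ) : R) • i₂ w) = p • y' := by
    refine ⟨(-c) • y, Subtype.ext ?_⟩
    rw [hcsmul]
    show (Corr.cores (Γ := G₀)).act ((Corr.res GamUp_le).act w.1 + (-c) • (I2 ⊤ hqM).act w.1) = _
    have hy' : (Tc M ⊤ q).act w.1 = (c * ((q : ℤ) + 1)) • w.1 + p • y.1 := congrArg Subtype.val hy
    rw [map_add, map_zsmul, cores_of_res hqM (coprime_mem_top Fact.out hqM),
      cores_of_I2 hqM (coprime_mem_top Fact.out hqM), hy', smul_add, smul_smul, ← mul_assoc,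
      neg_mul c c, hc, ← natCast_zsmul w.1 (q + 1), Submodule.coe_smul_of_tower,
      Submodule.coe_smul_of_tower, smul_comm p (-c) y.1, ← add_assoc, ← add_smul]
    push_cast
    rw [show ((q : ℤ) + 1 + -1 * (q + 1)) = 0 by ring, zero_smul, zero_add]
  have hM₂ : ∃ y', j₂ (i₁ w + ((-c : ℤ) : R) • i₂ w) = p • y' := by
    refine ⟨y, Subtype.ext ?_⟩
    rw [hcsmul]
    show (J2 ⊤ hqM).act ((Corr.res GamUp_le).act w.1 + (-c) • (I2 ⊤ hqM).act w.1) = _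
    have hy' : (Tc M ⊤ q).act w.1 = (c * ((q : ℤ) + 1)) • w.1 + p • y.1 := congrArg Subtype.val hy
    rw [map_add, map_zsmul, J2_of_res, J2_of_I2, hy', ← natCast_zsmul w.1 (q + 1), smul_smul,
      Submodule.coe_smul_of_tower, add_right_comm, ← add_smul]
    push_cast
    rw [show (c * ((q : ℤ) + 1) + -c * (q + 1)) = 0 by ring, zero_smul, zero_add]
  obtain ⟨x, hx1, hx2, hx3⟩ := raise_linear i₁ i₂ j₁ j₂ m hpm ht
    (fun z₁ z₂ ⟨y, hy⟩ => by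
      obtain ⟨⟨y₁, hy₁⟩, -⟩ := inj_mod_p hqM hp hlq hl hl' z₁.1 z₂.1 y.1 (congrArg Subtype.val hy)
      refine mem_of_nsmul hp0 (y := y₁) ?_
      rw [mul_comm (E l) (E l'), mul_smul, hE, hE, hy₁])
    (fun y₁ y₂ => by
      obtain ⟨x, w₁, w₂, h₁, h₂⟩ :=
        surj_mod_p hqM hp hlq (hℓ l) (hℓ l') hl hl' y₁ y₂
      exact ⟨x, w₁, w₂, Subtype.ext (by rw [mul_smul, hE, hE, h₁]; rfl),
        Subtype.ext (by rw [mul_smul, hE, hE, h₂]; rfl)⟩)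
    w hw hwm ((-c : ℤ) : R) hM₁ hM₂ s hs
  exact ⟨x, congrArg Subtype.val hx1, congrArg Subtype.val hx2, hx3⟩

end FA.HeckeH1

end
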