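import Fermat.Agent.HeckeH1.Freeness
import Fermat.Agent.HeckeH1.Raise

/-!
Old pieces: at a prime `q ∤ M`, `q ≡ 1` modulo `p`, where `X² - T_q X + q` has two distinct
residual roots, the piece of `H¹(Γ_H(M) ∩ Γ₀(q), O)` where `U_q` reduces to the root `α` is the
image of the piece at level `M`.
-/

set_option autoImplicit false

noncomputable section

namespace FA.HeckeH1

open IsLocalRing Matrix
open scoped MatrixGroups

section piece

variable {O : Type} [CommRing O] [IsLocalRing O] {A : Type} [CommRing A] [Algebra O A]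

/-- `e` is the idempotent of the kernel of a residual character. -/
structure IsPiece (χ : A →ₐ[O] ResidueField O) (e : A) : Prop where
  idem : IsIdempotentElem e
  char : χ e = 1
  inv : ∀ x, χ x ≠ 0 → ∃ s, s * x * e = e

theorem IsPiece.cancel {χ : A →ₐ[O] ResidueField O} {e : A} (h : IsPiece χ e) {x y : A}
    (hx : χ x ≠ 0) (hxy : e * (x * y) = 0) : e * y = 0 := by
  obtain ⟨s, hs⟩ := h.inv x hx
  calc e * y = s * x * e * y := by rw [hs]
    _ = s * (e * (x * y)) := by ring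
    _ = 0 := by rw [hxy, mul_zero]

theorem residualChar_surjective (χ : A →ₐ[O] ResidueField O) : Function.Surjective χ := fun c => by
  obtain ⟨c, rfl⟩ := residue_surjective c
  exact ⟨algebraMap O A c, χ.commutes c⟩

variable [IsNoetherianRing O] [IsAdicComplete (maximalIdeal O) O] [Module.Finite O A]

theorem exists_piece (χ : A →ₐ[O] ResidueField O) : ∃ e, IsPiece χ e := by
  have hm : (RingHom.ker χ).IsMaximal :=
    RingHom.ker_isMaximal_of_surjective _ (residualChar_surjective χ)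
  obtain ⟨e, he, hem, hem'⟩ := exists_idempotent_at (O := O) (RingHom.ker χ)
  refine ⟨e, he, ?_, fun x hx => exists_inverse_at he hem' (fun h => hx h)⟩
  have h := congrArg χ he.eq
  rw [map_mul] at h
  exact (mul_eq_right₀ (fun h0 => hem h0)).1 h

theorem IsPiece.mem_of_ne {χ : A →ₐ[O] ResidueField O} {e : A} (h : IsPiece χ e) {m : Ideal A}
    (hm : m.IsMaximal) (hne : m ≠ RingHom.ker χ) : e ∈ m := by
  obtain ⟨x, hxm, hx⟩ : ∃ x ∈ m, χ x ≠ 0 := by
    by_contra hcon
    push Not at hcon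
    exact hne (hm.eq_of_le (RingHom.ker_isMaximal_of_surjective _
      (residualChar_surjective χ)).ne_top hcon)
  obtain ⟨s, hs⟩ := h.inv x hx
  rw [← hs]
  exact m.mul_mem_right _ (m.mul_mem_left _ hxm)

/-- A simple residual root of a quadratic lifts to a root on the piece. -/
theorem IsPiece.exists_root {χ : A →ₐ[O] ResidueField O} {e : A} (h : IsPiece χ e) (t c : A)
    (α : O) (hroot : residue O α ^ 2 - χ t * residue O α + χ c = 0)
    (hsimple : 2 * residue O α - χ t ≠ 0) :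
    ∃ a : A, χ a = residue O α ∧ e * (a ^ 2 - t * a + c) = 0 := by
  classical
  obtain ⟨-, hb, -, hcomp⟩ :=
    Algebra.finite_maximalSpectrum_and_bijective_localization_of_module_finite (𝒪 := O) A
  have hm : (RingHom.ker χ).IsMaximal :=
    RingHom.ker_isMaximal_of_surjective _ (residualChar_surjective χ)
  let P : MaximalSpectrum A := ⟨RingHom.ker χ, hm⟩
  let L := Localization.AtPrime P.asIdeal
  let g : A →+* L := algebraMap A L
  have hg0 : ∀ x, g x ∈ maximalIdeal L ↔ χ x = 0 := fun x =>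
    (IsLocalization.AtPrime.to_map_mem_maximal_iff L P.asIdeal x).trans RingHom.mem_ker
  have := hcomp P
  let a₀ : A := algebraMap O A α
  have hα : χ a₀ = residue O α := χ.commutes α
  let f : Polynomial L :=
    Polynomial.X ^ 2 - Polynomial.C (g t) * Polynomial.X + Polynomial.C (g c)
  obtain ⟨a, ha, ha0⟩ := HenselianRing.is_henselian (I := maximalIdeal L) f (by simp only [f]; monicity!) (g a₀)
    (by
      have e1 : f.eval (g a₀) = g (a₀ ^ 2 - t * a₀ + c) := by simp [f]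
      rw [e1, hg0, map_add, map_sub, map_pow, map_mul, hα]
      exact hroot)
    (by
      have e1 : f.derivative.eval (g a₀) = g (2 * a₀ - t) := by
        simp [f, map_ofNat, one_add_one_eq_two]
        rw [Polynomial.eval_sub, Polynomial.eval_mul, Polynomial.eval_X, Polynomial.eval_C,
          Polynomial.eval_ofNat]
      rw [e1]
      refine (IsUnit.map _ ?_)
      refine (IsLocalization.AtPrime.isUnit_to_map_iff L P.asIdeal _).2 ?_
      intro hmem
      change χ (2 * a₀ - t) = 0 at hmem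
      rw [map_sub, map_mul, map_ofNat, hα] at hmem
      exact hsimple hmem)
  obtain ⟨ã, hã⟩ := hb.2 (Pi.single P a)
  have hãP : g ã = a := by
    have := congrFun hã P
    rwa [Pi.single_eq_same] at this
  refine ⟨ã, ?_, hb.1 (funext fun Q => ?_)⟩
  · rw [← hα, ← sub_eq_zero, ← map_sub, ← hg0, map_sub, hãP]
    exact ha0
  · rw [map_zero, Pi.zero_apply, RingHom.pi_apply, map_mul]
    by_cases hQ : Q = P
    · subst hQ
      have e1 : g (ã ^ 2 - t * ã + c) = f.eval a := by simp [f, hãP]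
      show g e * g (ã ^ 2 - t * ã + c) = 0
      rw [e1, ha, mul_zero]
    · have hne : Q.asIdeal ≠ RingHom.ker χ := fun e' => hQ (MaximalSpectrum.ext e')
      have hQm := h.mem_of_ne Q.isMaximal hne
      have hnu : algebraMap A (Localization.AtPrime Q.asIdeal) e ∈
          maximalIdeal (Localization.AtPrime Q.asIdeal) :=
        (IsLocalization.AtPrime.to_map_mem_maximal_iff _ Q.asIdeal e).2 hQm
      have hu : IsUnit (1 - algebraMap A (Localization.AtPrime Q.asIdeal) e) :=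
        IsLocalRing.isUnit_one_sub_self_of_mem_nonunits _ hnu
      have h0 : algebraMap A (Localization.AtPrime Q.asIdeal) e *
          (1 - algebraMap A (Localization.AtPrime Q.asIdeal) e) = 0 := by
        rw [mul_sub, mul_one, ← map_mul, h.idem.eq, sub_self]
      rw [hu.mul_left_eq_zero.1 h0, zero_mul]

end piece

section degeneracy

variable {M q : ℕ} [Fact q.Prime] {H : Subgroup (ZMod M)ˣ} {ℓ : ℕ} [Fact ℓ.Prime]
  {A : Type*} [AddCommGroup A]

theorem not_dvd_of_ne (hℓq : ℓ ≠ q) : ¬ (ℓ : ℤ) ∣ (q : ℤ) := fun h =>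
  hℓq ((Nat.prime_dvd_prime_iff_eq Fact.out Fact.out).1 (Int.natCast_dvd_natCast.1 h))

theorem iff_of_ne (hℓq : ℓ ≠ q) : ℓ ∣ M ↔ ℓ ∣ M * q :=
  ⟨fun h => h.mul_right q, fun h => ((Nat.Prime.dvd_mul Fact.out).1 h).resolve_right
    fun h' => hℓq ((Nat.prime_dvd_prime_iff_eq Fact.out Fact.out).1 h')⟩

/-- The Atkin-Lehner operator commutes with the other Hecke correspondences. -/
theorem Wc_Tc (hqM : ¬ q ∣ M) (hℓq : ℓ ≠ q) (z : Hom1 (GamUp M q H) A) :
    (Tc (M * q) (Hup M q H) ℓ).act ((Wc H hqM).act z) =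
      (Wc H hqM).act ((Tc (M * q) (Hup M q H) ℓ).act z) := by
  rw [← Corr.comp_act, ← Corr.comp_act]
  refine (Tc_natural (H := Hup M q H) (H' := Hup M q H) (wMat hqM) ?_ Iff.rfl (wMat_conj hqM)
    fun i => ?_).act_eq z
  · rw [wMat, rep_det Fact.out]
    exact not_dvd_of_ne hℓq
  obtain ⟨hd, hc, u, hu, hux⟩ := rep_mem (Fact.out : ℓ.Prime) (Hup M q H) i
  obtain ⟨X, hX⟩ : ∃ X, X = rep (M * q) ℓ i := ⟨_, rfl⟩
  rw [← hX] at hd hc hux ⊢
  obtain ⟨z', hz'⟩ := hc
  push_cast at hz'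
  set a := Nat.gcdA q M
  set b := Nat.gcdB q M
  have hb : (q : ℤ) * a + (M : ℤ) * b = 1 := bezout_eq Fact.out hqM
  let Y : MatZ := !![a * q * X 0 0 - b * ((M : ℤ) * q * z') - a * q * M * X 0 1 + M * b * X 1 1,
    a * b * X 0 0 - b * b * (M * z') + a * (a * q * X 0 1 - b * X 1 1);
    (M : ℤ) * q * X 0 0 + q * ((M : ℤ) * q * z') - M * M * q * X 0 1 - M * q * X 1 1,
    b * M * X 0 0 + b * ((M : ℤ) * q * z') + a * M * q * X 0 1 + a * q * X 1 1]
  have hW : wMat hqM = !![a * q, -b; (M : ℤ) * q, (q : ℤ)] := rfl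
  have heq : wMat hqM * X = Y * wMat hqM := by
    rw [hW]
    ext r s
    fin_cases r <;> fin_cases s <;> simp [Y, Matrix.mul_apply, Fin.sum_univ_two, hz']
    · linear_combination (-(a * q * X 0 0 - b * M * q * z')) * hb
    · linear_combination (b * X 1 1 - a * q * X 0 1) * hb
    · linear_combination (-((M : ℤ) * q * X 0 0 + M * q * q * z')) * hb
    · linear_combination (-(q : ℤ) * X 1 1 - M * q * X 0 1) * hb
  have hYd : Y.det = (ℓ : ℤ) := by
    have h1 := congrArg Matrix.det heq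
    rw [det_mul, det_mul, mul_comm Y.det, wMat, rep_det Fact.out, hd] at h1
    exact (mul_left_cancel₀ (by exact_mod_cast (Fact.out : q.Prime).ne_zero) h1).symm
  have hYc : ((M * q : ℕ) : ℤ) ∣ Y 1 0 := by
    refine ⟨X 0 0 + q * z' - M * X 0 1 - X 1 1, ?_⟩
    simp [Y]; ring
  have hYM : (Y 0 0 : ZMod M) = (X 0 0 : ZMod M) := by
    have h1 := congrArg (fun x : ℤ => (x : ZMod M)) hb
    simp [Y] at h1 ⊢
    linear_combination (X 0 0 : ZMod M) * h1
  have hYunit : IsUnit (Y 0 0 : ZMod (M * q)) := by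
    rw [ZMod.coe_int_isUnit_iff_isCoprime]
    push_cast
    refine IsCoprime.mul_left ?_ ?_
    · rw [← ZMod.coe_int_isUnit_iff_isCoprime, hYM]
      have := (ZMod.unitsMap (dvd_mul_right M q) u).isUnit
      rwa [show ((ZMod.unitsMap (dvd_mul_right M q) u : (ZMod M)ˣ) : ZMod M) = (X 0 0 : ZMod M) by
        simp [ZMod.unitsMap, hux]] at this
    · rw [← ZMod.coe_int_isUnit_iff_isCoprime, isUnit_iff_ne_zero]
      have h1 := congrArg (fun x : ℤ => (x : ZMod q)) hb
      simp only [Int.cast_add, Int.cast_mul, Int.cast_natCast, ZMod.natCast_self, zero_mul,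
        zero_add, Int.cast_one] at h1
      have h2 : (Y 0 0 : ZMod q) = (X 1 1 : ZMod q) := by
        simp [Y]
        linear_combination (X 1 1 : ZMod q) * h1
      rw [h2]
      intro h3
      have hdet := congrArg (fun x : ℤ => (x : ZMod q)) hd
      simp only [det_fin_two, hz', Int.cast_sub, Int.cast_mul, Int.cast_natCast, h3,
        ZMod.natCast_self, mul_zero, zero_mul, sub_zero] at hdet
      have h4 := hdet.symm
      rw [ZMod.natCast_eq_zero_iff, Nat.prime_dvd_prime_iff_eq Fact.out Fact.out] at h4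
      exact hℓq h4.symm
  refine ⟨Y, ⟨hYd, hYc, hYunit.unit, ?_, rfl⟩, heq⟩
  rw [Hup, Subgroup.mem_comap] at hu ⊢
  convert hu using 1
  apply Units.ext
  simp [ZMod.unitsMap, hux, ← hYM]

/-- Restriction commutes with the correspondences away from `q`. -/
theorem res_Tc_ne (hℓq : ℓ ≠ q) (z : Hom1 (GamH M H) A) :
    (Tc (M * q) (Hup M q H) ℓ).act ((Corr.res GamUp_le).act z) =
      (Corr.res (GamUp_le (H := H) (q := q))).act ((Tc M H ℓ).act z) := by
  rw [← Corr.comp_act, ← Corr.comp_act]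
  have h1 : gl (1 : MatZ) = 1 := by
    apply Units.ext; rw [coe_gl (by simp)]; simp
  obtain ⟨e, he⟩ := Tc_natural (H := H) (H' := Hup M q H) (1 : MatZ)
    (not_dvd_det_one Fact.out det_one) (iff_of_ne hℓq)
    (fun γ hγ => ⟨γ, GamUp_le hγ, by rw [h1, one_mul, mul_one]⟩)
    (fun i => by
      obtain ⟨hd, hc, u, hu, hua⟩ := rep_mem Fact.out (Hup M q H) i
      refine ⟨rep (M * q) ℓ i, ⟨hd, (dvd_mul_right (M : ℤ) q).trans (by exact_mod_cast hc), _, hu,
        ?_⟩, by rw [Matrix.one_mul, Matrix.mul_one]⟩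
      simp [ZMod.unitsMap, hua])
  refine Corr.Same.act_eq
    (C := (Corr.res (GamUp_le (H := H) (q := q))).comp (Tc (M * q) (Hup M q H) ℓ))
    (D := (Tc M H ℓ).comp (Corr.res (GamUp_le (H := H) (q := q)))) ⟨e, fun x => ?_⟩ z
  obtain ⟨h, hh⟩ := he x
  refine ⟨h, ?_⟩
  have hh' : gl (1 : MatZ) * gl (rep (M * q) ℓ x.2) =
      glQ (h : SL(2, ℤ)) * (gl (rep M ℓ (e x).1) * gl (1 : MatZ)) := hh
  exact (congrArg (· * gl (rep (M * q) ℓ x.2)) h1).symm.trans
    (hh'.trans (congrArg (fun t => glQ (h : SL(2, ℤ)) * (gl (rep M ℓ (e x).1) * t)) h1))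

/-- `I2` commutes with the correspondences away from `q`. -/
theorem I2_Tc_ne (hqM : ¬ q ∣ M) (hqH : ∃ u ∈ H, (u : ZMod M) = (q : ZMod M)) (hℓq : ℓ ≠ q)
    (z : Hom1 (GamH M H) A) :
    (Tc (M * q) (Hup M q H) ℓ).act ((I2 H hqM).act z) = (I2 H hqM).act ((Tc M H ℓ).act z) := by
  rw [← Wc_res hqM hqH, Wc_Tc hqM hℓq, res_Tc_ne hℓq, Wc_res hqM hqH]

omit [Fact ℓ.Prime] in
/-- `U ∘ res = res ∘ T - I2`. -/
theorem U_res [NeZero M] (hqM : ¬ q ∣ M) (hqH : ∃ u ∈ H, (u : ZMod M) = (q : ZMod M))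
    (z : Hom1 (GamH M H) A) :
    (Tc (M * q) (Hup M q H) q).act ((Corr.res GamUp_le).act z) =
      (Corr.res GamUp_le).act ((Tc M H q).act z) - (I2 H hqM).act z := by
  rw [eq_sub_iff_add_eq, ← J2_of_res hqM z, J2_res hqM, Wc_res hqM hqH]

omit [Fact ℓ.Prime] in
/-- `U ∘ I2 = q res`. -/
theorem U_I2 [NeZero M] (hqM : ¬ q ∣ M) (hqH : ∃ u ∈ H, (u : ZMod M) = (q : ZMod M))
    (z : Hom1 (GamH M H) A) :
    (Tc (M * q) (Hup M q H) q).act ((I2 H hqM).act z) = q • (Corr.res GamUp_le).act z := by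
  have h := J2_res (H := H) hqM ((I2 H hqM).act z)
  rw [J2_of_I2 hqM, map_nsmul,
    show (Wc H hqM).act ((I2 H hqM).act z) = (Corr.res GamUp_le).act z by
      rw [← Wc_res hqM hqH, Wc_sq hqM hqH],
    succ_nsmul] at h
  exact (add_right_cancel h).symm

omit [Fact ℓ.Prime] in
/-- `U² - 1` maps into the old classes. -/
theorem U_sq_old [NeZero M] (hqM : ¬ q ∣ M) (hqH : ∃ u ∈ H, (u : ZMod M) = (q : ZMod M))
    (z : Hom1 (GamUp M q H) A) :
    (Tc (M * q) (Hup M q H) q).act ((Tc (M * q) (Hup M q H) q).act z) - z =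
      (Corr.res GamUp_le).act ((J2 H hqM).act ((Tc (M * q) (Hup M q H) q).act z)) -
        (I2 H hqM).act ((J2 H hqM).act z) := by
  set U := (Tc (M * q) (Hup M q H) q).act z
  rw [J2_res hqM U, ← Wc_res hqM hqH, J2_res hqM z, map_add, Wc_sq hqM hqH]
  abel

end degeneracy

section algebra

variable (M : ℕ) [NeZero M] (H : Subgroup (ZMod M)ˣ) (O : Type) [CommRing O]
  (S : Finset Nat.Primes)

/-- The Hecke operator of a prime, omitted at the primes of `S`. -/
def Top1 (ℓ : Nat.Primes) : Module.End O (Hom1 (GamH M H) O) :=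
  if ℓ ∈ S then 0 else (Tc M H (ℓ : ℕ)).actLin

/-- The Hecke algebra of `H¹(Γ_H(M), O)` away from `S`. -/
def heckeAlg : Subalgebra O (Module.End O (Hom1 (GamH M H) O)) :=
  Algebra.adjoin O (Set.range (Top1 M H O S))

/-- The Hecke operator of a prime, zero at the primes of `S`. -/
def Tgen (ℓ : Nat.Primes) : heckeAlg M H O S :=
  ⟨Top1 M H O S ℓ, Algebra.subset_adjoin ⟨ℓ, rfl⟩⟩

theorem Tgen_apply {ℓ : Nat.Primes} (h : ℓ ∉ S) (z : Hom1 (GamH M H) O) :
    (Tgen M H O S ℓ).1 z = (Tc M H (ℓ : ℕ)).act z := by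
  show (Top1 M H O S ℓ) z = _
  rw [Top1, if_neg h]
  rfl

theorem Tgen_apply_mem {ℓ : Nat.Primes} (h : ℓ ∈ S) (z : Hom1 (GamH M H) O) :
    (Tgen M H O S ℓ).1 z = 0 := by
  show (Top1 M H O S ℓ) z = _
  rw [Top1, if_pos h]
  rfl

theorem Tgen_q (q : ℕ) [hq : Fact q.Prime] (h : (⟨q, hq.out⟩ : Nat.Primes) ∉ S)
    (z : Hom1 (GamH M H) O) :
    (Tgen M H O S ⟨q, hq.out⟩).1 z = (Tc M H q).act z := Tgen_apply M H O S h z

instance heckeAlg.instIsMulCommutative : IsMulCommutative (heckeAlg M H O S) :=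
  Algebra.isMulCommutative_adjoin _ (by
    rintro _ ⟨ℓ, rfl⟩ _ ⟨r, rfl⟩
    simp only [Top1]
    split_ifs with h h'
    all_goals first
      | rfl
      | rw [zero_mul, mul_zero]
      | exact LinearMap.ext fun z => Tc_act_comm M H ℓ r z)

instance heckeAlg.instCommRing : CommRing (heckeAlg M H O S) :=
  { (heckeAlg M H O S).toRing with mul_comm := fun a b => Subtype.ext (setLike_mul_comm a.2 b.2) }

/-- The polynomial algebra on the Hecke operators. -/
def heckePoly : MvPolynomial Nat.Primes O →ₐ[O] heckeAlg M H O S :=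
  MvPolynomial.aeval (Tgen M H O S)

theorem heckePoly_surjective : Function.Surjective (heckePoly M H O S) := by
  rintro ⟨x, hx⟩
  induction hx using Algebra.adjoin_induction with
  | mem y hy => obtain ⟨ℓ, rfl⟩ := hy; exact ⟨.X ℓ, MvPolynomial.aeval_X _ ℓ⟩
  | algebraMap c => exact ⟨.C c, MvPolynomial.aeval_C _ c⟩
  | add y y' _ _ hy hy' =>
    obtain ⟨a, ha⟩ := hy; obtain ⟨b, hb⟩ := hy'
    exact ⟨a + b, by rw [map_add, ha, hb]; rfl⟩
  | mul y y' _ _ hy hy' =>
    obtain ⟨a, ha⟩ := hy; obtain ⟨b, hb⟩ := hy'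
    exact ⟨a * b, by rw [map_mul, ha, hb]; rfl⟩

variable [IsNoetherianRing O]

theorem heckeAlg_finite [Module.Free O (Hom1 (GamH M H) O)] :
    Module.Finite O (heckeAlg M H O S) := by
  have := hom1_finite_of_noetherian (GamH M H) O
  exact Module.Finite.of_injective (heckeAlg M H O S).val.toLinearMap Subtype.val_injective

end algebra

section old

variable {M q : ℕ} [NeZero M] [Fact q.Prime] {H : Subgroup (ZMod M)ˣ} {O : Type} [CommRing O]
  [IsDomain O] [IsDiscreteValuationRing O] [IsAdicComplete (maximalIdeal O) O] [CharZero O]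
  {S : Finset Nat.Primes}

/-- The prime `q`. -/
abbrev qPrime (q : ℕ) [Fact q.Prime] : Nat.Primes := ⟨q, Fact.out⟩

variable (hqM : ¬ q ∣ M) (hqH : ∃ u ∈ H, (u : ZMod M) = (q : ZMod M)) (hqS : qPrime q ∉ S)

/-- The twisted embedding of the piece. -/
def oldMap (e a : heckeAlg M H O S) : Hom1 (GamH M H) O →ₗ[O] Hom1 (GamUp M q H) O :=
  ((I2 H hqM).actLin - (Corr.res (GamUp_le (H := H) (q := q))).actLin.comp a.1).comp e.1

omit [NeZero M] [IsDomain O] [IsDiscreteValuationRing O] [IsAdicComplete (maximalIdeal O) O]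
  [CharZero O] in
theorem oldMap_apply (e a : heckeAlg M H O S) (z : Hom1 (GamH M H) O) :
    oldMap hqM e a z = (I2 H hqM).act (e.1 z) - (Corr.res GamUp_le).act (a.1 (e.1 z)) := rfl

/-- The images at level `M q` of the generators at level `M`. -/
def downGen (a : heckeAlg M H O S) (ℓ : Nat.Primes) : heckeAlg M H O S :=
  if (ℓ : ℕ) = q then a else Tgen M H O S ℓ

omit [IsDomain O] [IsDiscreteValuationRing O] [IsAdicComplete (maximalIdeal O) O] [CharZero O] in
include hqH hqS in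
theorem oldMap_intertwine {e a : heckeAlg M H O S}
    (ha : e * (a ^ 2 - Tgen M H O S (qPrime q) * a + (q : heckeAlg M H O S)) = 0)
    (p : MvPolynomial Nat.Primes O) (z : Hom1 (GamH M H) O) :
    (heckePoly (M * q) (Hup M q H) O S p).1 (oldMap hqM e a z) =
      oldMap hqM e a ((MvPolynomial.aeval (downGen (q := q) a) p).1 z) := by
  induction p using MvPolynomial.induction_on generalizing z with
  | C c =>
    rw [heckePoly, MvPolynomial.aeval_C, MvPolynomial.aeval_C]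
    exact ((oldMap hqM e a).map_smul c z).symm
  | add p p' hp hp' =>
    rw [map_add, map_add]
    show (heckePoly _ _ O S p).1 _ + (heckePoly _ _ O S p').1 _ = oldMap hqM e a (_ + _)
    rw [hp, hp', map_add]
  | mul_X p ℓ hp =>
    rw [map_mul, map_mul]
    show (heckePoly _ _ O S p).1 ((heckePoly _ _ O S (.X ℓ)).1 _) =
      oldMap hqM e a ((MvPolynomial.aeval (downGen (q := q) a) p).1
        ((MvPolynomial.aeval (downGen (q := q) a) (.X ℓ)).1 z))
    rw [← hp, heckePoly, MvPolynomial.aeval_X, MvPolynomial.aeval_X]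
    refine congrArg _ ?_
    have comm : ∀ (x y : heckeAlg M H O S) (v : Hom1 (GamH M H) O), x.1 (y.1 v) = y.1 (x.1 v) :=
      fun x y v => LinearMap.congr_fun (setLike_mul_comm x.2 y.2) v
    by_cases hℓ : (ℓ : ℕ) = q
    · obtain rfl : ℓ = qPrime q := Subtype.ext hℓ
      simp only [downGen, if_true, oldMap_apply, map_sub, Tgen_q _ _ _ _ q hqS]
      rw [comm e a z, U_I2 hqM hqH, U_res hqM hqH]
      have h := LinearMap.congr_fun (congrArg Subtype.val ha) z
      simp only [mul_comm e, MulMemClass.coe_mul, AddMemClass.coe_add,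
        AddSubgroupClass.coe_sub, pow_two, Module.End.mul_apply, LinearMap.add_apply,
        LinearMap.sub_apply] at h
      have hcast : ((q : heckeAlg M H O S)).1 (e.1 z) = q • e.1 z := by simp
      rw [hcast] at h
      have h' := congrArg (Corr.res (GamUp_le (H := H) (q := q))).act h
      simp only [map_add, map_sub, map_nsmul, Tgen_q _ _ _ _ q hqS] at h'
      change _ = (Corr.res _).act (0 : Hom1 (GamH M H) O) at h'
      rw [map_zero] at h'
      rw [← sub_eq_zero, ← h']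
      abel
    · simp only [downGen, if_neg hℓ, oldMap_apply, map_sub]
      by_cases hS : ℓ ∈ S
      · rw [Tgen_apply_mem _ _ _ _ hS, Tgen_apply_mem _ _ _ _ hS, Tgen_apply_mem _ _ _ _ hS,
          map_zero, map_zero, map_zero, map_zero]
      rw [Tgen_apply _ _ _ _ hS, Tgen_apply _ _ _ _ hS, I2_Tc_ne hqM hqH hℓ, res_Tc_ne hℓ,
        ← Tgen_apply _ _ _ _ hS, ← Tgen_apply _ _ _ _ hS, comm (Tgen M H O S ℓ) e,
        comm (Tgen M H O S ℓ) a, comm (Tgen M H O S ℓ) e]

include hqM hqH hqS in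
/-- **The old piece.** -/
theorem exists_old_piece {χ₀ : heckeAlg M H O S →ₐ[O] ResidueField O} {e₀ : heckeAlg M H O S}
    (h₀ : IsPiece χ₀ e₀) (α : O)
    (hroot : residue O α ^ 2 - χ₀ (Tgen M H O S (qPrime q)) * residue O α + (q : ResidueField O) = 0)
    (hsimple : 2 * residue O α - χ₀ (Tgen M H O S (qPrime q)) ≠ 0)
    (hq1 : (q : ResidueField O) = 1) :
    ∃ (χ₁ : heckeAlg (M * q) (Hup M q H) O S →ₐ[O] ResidueField O)
      (e₁ : heckeAlg (M * q) (Hup M q H) O S) (a : heckeAlg M H O S)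
      (Φ : Hom1 (GamH M H) O →ₗ[O] Hom1 (GamUp M q H) O),
      IsPiece χ₁ e₁ ∧ χ₀ a = residue O α ∧
      (∀ ℓ : Nat.Primes, (ℓ : ℕ) ≠ q → χ₁ (Tgen _ _ O S ℓ) = χ₀ (Tgen M H O S ℓ)) ∧
      χ₁ (Tgen _ _ O S (qPrime q)) = residue O α ∧
      (∀ z, Φ (e₀.1 z) = Φ z) ∧ (∀ z, e₁.1 (Φ z) = Φ z) ∧
      (∀ z, e₀.1 z = z → Φ z = 0 → z = 0) ∧
      (∀ w, e₁.1 w = w → ∃ z, e₀.1 z = z ∧ Φ z = w) ∧
      (∀ ℓ : Nat.Primes, (ℓ : ℕ) ≠ q → ∀ z,
        (Tgen (M * q) (Hup M q H) O S ℓ).1 (Φ z) = Φ ((Tgen M H O S ℓ).1 z)) ∧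
      (∀ z, (Tgen (M * q) (Hup M q H) O S (qPrime q)).1 (Φ z) = Φ (a.1 z)) ∧
      ∃ c : heckeAlg M H O S, χ₀ c ≠ 0 ∧
        ∀ z, (Corr.cores (Γ := GamH M H)).act (Φ z) = c.1 (e₀.1 z) := by
  classical
  have : NeZero (M * q) := ⟨mul_ne_zero (NeZero.ne M) (Fact.out : q.Prime).ne_zero⟩
  have := heckeAlg_finite M H O S
  have := heckeAlg_finite (M * q) (Hup M q H) O S
  let T := Tgen M H O S (qPrime q)
  obtain ⟨a, hχa, ha⟩ := h₀.exists_root T (q : heckeAlg M H O S) α (by rwa [map_natCast]) hsimple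
  have hαβ : residue O α * (χ₀ T - residue O α) = 1 := by
    rw [← hq1]; linear_combination -hroot
  have hα0 : residue O α ≠ 0 := left_ne_zero_of_mul_eq_one hαβ
  have hα2 : residue O α ^ 2 ≠ 1 := fun h => hsimple (mul_left_cancel₀ hα0
    (by linear_combination h - hαβ))
  have comm : ∀ (x y : heckeAlg M H O S) (v : Hom1 (GamH M H) O), x.1 (y.1 v) = y.1 (x.1 v) :=
    fun x y v => LinearMap.congr_fun (setLike_mul_comm x.2 y.2) v
  have hee : ∀ z, e₀.1 (e₀.1 z) = e₀.1 z := fun z =>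
    LinearMap.congr_fun (congrArg Subtype.val h₀.idem.eq) z
  let Φ := oldMap hqM e₀ a
  have hΦe : ∀ z, Φ (e₀.1 z) = Φ z := fun z => by simp only [Φ, oldMap_apply, hee]
  let c : heckeAlg M H O S := T - (q + 1 : ℕ) * a
  have hc : χ₀ c ≠ 0 := fun h' => hsimple (by
    simp only [c, map_sub, map_mul, map_natCast, hχa, Nat.cast_add, Nat.cast_one, map_add, map_one, hq1] at h'
    linear_combination -h')
  have hcores : ∀ z, (Corr.cores (Γ := GamH M H)).act (Φ z) = c.1 (e₀.1 z) := fun z => by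
    simp only [Φ, oldMap_apply, map_sub, cores_of_I2 hqM hqH, cores_of_res hqM hqH]
    simp [c, T, Tgen_q _ _ _ _ q hqS, Module.End.natCast_apply, add_smul]
  have hinj : ∀ z, Φ z = 0 → e₀.1 z = 0 := fun z hz => by
    obtain ⟨s, hs⟩ := h₀.inv c hc
    have e1 : c.1 (e₀.1 z) = 0 := by rw [← hcores, hz, map_zero]
    rw [← show s.1 (c.1 (e₀.1 z)) = e₀.1 z from LinearMap.congr_fun (congrArg Subtype.val hs) z,
      e1, map_zero]
  let θ : MvPolynomial Nat.Primes O →ₐ[O] heckeAlg M H O S := MvPolynomial.aeval (downGen (q := q) a)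
  let π₁ := heckePoly (M * q) (Hup M q H) O S
  have hπ₁ : Function.Surjective π₁ := heckePoly_surjective _ _ O S
  have hint : ∀ p z, (π₁ p).1 (Φ z) = Φ ((θ p).1 z) := oldMap_intertwine hqM hqH hqS ha
  -- the character upstairs
  have hker : RingHom.ker π₁ ≤ RingHom.ker (χ₀.comp θ) := fun p hp => by
    have h1 : e₀ * θ p = 0 := Subtype.ext <| LinearMap.ext fun z => by
      refine hinj _ ?_
      rw [← hint, RingHom.mem_ker.1 hp]
      rfl
    have h2 := congrArg χ₀ h1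
    rwa [map_mul, h₀.char, one_mul, map_zero] at h2
  let χ₁ : heckeAlg (M * q) (Hup M q H) O S →ₐ[O] ResidueField O :=
    (Ideal.Quotient.liftₐ (RingHom.ker π₁) (χ₀.comp θ) fun p hp => hker hp).comp
      (Ideal.quotientKerAlgEquivOfSurjective hπ₁).symm.toAlgHom
  have hχ₁ : ∀ p, χ₁ (π₁ p) = χ₀ (θ p) := fun p => by
    simp only [χ₁, AlgHom.comp_apply]
    rw [show (Ideal.quotientKerAlgEquivOfSurjective hπ₁).symm.toAlgHom (π₁ p) =
        Ideal.Quotient.mk _ p from
      (Ideal.quotientKerAlgEquivOfSurjective hπ₁).injective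
        (((Ideal.quotientKerAlgEquivOfSurjective hπ₁).apply_symm_apply _).trans (by simp))]
    rfl
  have hX : ∀ ℓ, χ₁ (Tgen _ _ O S ℓ) = χ₀ (downGen (q := q) a ℓ) := fun ℓ => by
    rw [← show π₁ (.X ℓ) = Tgen _ _ O S ℓ from MvPolynomial.aeval_X _ ℓ, hχ₁,
      show θ (.X ℓ) = downGen (q := q) a ℓ from MvPolynomial.aeval_X _ ℓ]
  have hU : χ₁ (Tgen _ _ O S (qPrime q)) = residue O α := by
    rw [hX, downGen, if_pos rfl, hχa]
  have hTne : ∀ ℓ : Nat.Primes, (ℓ : ℕ) ≠ q → χ₁ (Tgen _ _ O S ℓ) = χ₀ (Tgen M H O S ℓ) :=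
    fun ℓ hℓ => by rw [hX, downGen, if_neg hℓ]
  obtain ⟨e₁, h₁⟩ := exists_piece χ₁
  have he₁ : ∀ z, e₁.1 (Φ z) = Φ z := fun z => by
    obtain ⟨p₁, hp₁⟩ := hπ₁ e₁
    have h1 : e₀ * (θ p₁ * (θ p₁ - 1)) = 0 := Subtype.ext <| LinearMap.ext fun v => by
      refine hinj _ ?_
      rw [mul_sub, mul_one, ← map_mul, ← map_sub, ← hint, map_sub, map_mul, hp₁, h₁.idem.eq,
        sub_self]
      rfl
    have h2 := h₀.cancel (by rw [← hχ₁, hp₁, h₁.char]; exact one_ne_zero) h1
    rw [mul_sub, mul_one, sub_eq_zero] at h2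
    rw [← hp₁, hint, ← hΦe, comm, ← hΦe z]
    refine congrArg Φ ?_
    conv_rhs => rw [← h2]
    show (θ p₁).1 (e₀.1 z) = e₀.1 ((θ p₁).1 z)
    exact comm _ _ _
  refine ⟨χ₁, e₁, a, Φ, h₁, hχa, hTne, hU, hΦe, he₁, fun z hz h => hz ▸ hinj z h, fun w hw => ?_,
    fun ℓ hℓ z => ?_, fun z => ?_, c, hc, hcores⟩
  rotate_left
  · have h := hint (.X ℓ) z
    rw [show θ (.X ℓ) = downGen (q := q) a ℓ from MvPolynomial.aeval_X _ ℓ, downGen, if_neg hℓ,
      show π₁ (.X ℓ) = Tgen _ _ O S ℓ from MvPolynomial.aeval_X _ ℓ] at h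
    exact h
  · have h := hint (.X (qPrime q)) z
    rw [show θ (.X (qPrime q)) = downGen (q := q) a (qPrime q) from MvPolynomial.aeval_X _ _,
      downGen, if_pos rfl,
      show π₁ (.X (qPrime q)) = Tgen _ _ O S (qPrime q) from MvPolynomial.aeval_X _ _] at h
    exact h
  -- surjectivity
  have comm' : ∀ (x y : heckeAlg (M * q) (Hup M q H) O S) (v : Hom1 (GamUp M q H) O),
      x.1 (y.1 v) = y.1 (x.1 v) :=
    fun x y v => LinearMap.congr_fun (setLike_mul_comm x.2 y.2) v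
  let U := Tgen (M * q) (Hup M q H) O S (qPrime q)
  obtain ⟨u', hu'⟩ := h₁.inv U (by rw [hU]; exact hα0)
  let Img : Submodule O (Hom1 (GamUp M q H) O) := LinearMap.range Φ
  have hImg : ∀ (x : heckeAlg (M * q) (Hup M q H) O S), ∀ v ∈ Img, x.1 v ∈ Img := by
    rintro x _ ⟨v, rfl⟩
    obtain ⟨p, rfl⟩ := hπ₁ x
    exact ⟨_, (hint p v).symm⟩
  -- the pushed forward operators
  let up : Nat.Primes → heckeAlg (M * q) (Hup M q H) O S := fun ℓ =>
    if (ℓ : ℕ) = q then U + (q : heckeAlg (M * q) (Hup M q H) O S) * u' else Tgen _ _ O S ℓ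
  let Θ := MvPolynomial.aeval (R := O) up
  have hupχ : ∀ p, χ₁ (Θ p) = χ₀ (heckePoly M H O S p) := fun p => by
    have : χ₁.comp Θ = χ₀.comp (heckePoly M H O S) := MvPolynomial.algHom_ext fun ℓ => by
      simp only [AlgHom.comp_apply, Θ, heckePoly, MvPolynomial.aeval_X, up]
      by_cases hℓ : (ℓ : ℕ) = q
      · obtain rfl : ℓ = qPrime q := Subtype.ext hℓ
        rw [if_pos rfl, map_add, map_mul, map_natCast, hq1, one_mul, hU]
        have h2 := congrArg χ₁ hu'
        rw [map_mul, map_mul, hU, h₁.char, mul_one] at h2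
        exact mul_left_cancel₀ hα0 (by linear_combination h2 - hαβ)
      · rw [if_neg hℓ, hTne ℓ hℓ]
    exact AlgHom.congr_fun this p
  have hupint : ∀ (p : MvPolynomial Nat.Primes O) (b : Hom1 (GamH M H) O),
      (Θ p).1 (e₁.1 ((I2 H hqM).act b)) = e₁.1 ((I2 H hqM).act ((heckePoly M H O S p).1 b)) := by
    intro p
    induction p using MvPolynomial.induction_on with
    | C c =>
      intro b
      simp only [Θ, heckePoly, MvPolynomial.aeval_C]
      show c • e₁.1 _ = e₁.1 ((I2 H hqM).act (c • b))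
      rw [Corr.act_smul, map_smul]
    | add p p' hp hp' =>
      intro b
      rw [map_add, map_add]
      show (Θ p).1 _ + (Θ p').1 _ = e₁.1 ((I2 H hqM).act (_ + _))
      rw [hp, hp', map_add, map_add]
    | mul_X p ℓ hp =>
      intro b
      rw [map_mul, map_mul]
      show (Θ p).1 ((Θ (.X ℓ)).1 _) =
        e₁.1 ((I2 H hqM).act ((heckePoly M H O S p).1 ((heckePoly M H O S (.X ℓ)).1 b)))
      rw [← hp]
      refine congrArg _ ?_
      simp only [Θ, heckePoly, MvPolynomial.aeval_X, up]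
      by_cases hℓ : (ℓ : ℕ) = q
      · obtain rfl : ℓ = qPrime q := Subtype.ext hℓ
        rw [if_pos rfl, Tgen_q _ _ _ _ q hqS]
        have hk : ∀ v, u'.1 (U.1 (e₁.1 v)) = e₁.1 v := fun v =>
          LinearMap.congr_fun (congrArg Subtype.val hu') v
        have hUU : U.1 (U.1 (e₁.1 ((I2 H hqM).act b))) =
            U.1 (e₁.1 ((I2 H hqM).act ((Tc M H q).act b))) - q • e₁.1 ((I2 H hqM).act b) := by
          rw [comm' U e₁, comm' U e₁, Tgen_q _ _ _ _ q hqS, Tgen_q _ _ _ _ q hqS, U_I2 hqM hqH,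
            map_nsmul, U_res hqM hqH, nsmul_sub, ← U_I2 hqM hqH, map_sub, map_nsmul, comm' U e₁,
            Tgen_q _ _ _ _ q hqS]
        have h2 := congrArg u'.1 hUU
        rw [map_sub, map_nsmul, hk, comm' U e₁, hk, ← comm' U e₁] at h2
        show U.1 _ + ((q : heckeAlg (M * q) (Hup M q H) O S)).1 (u'.1 _) = _
        rw [h2, show ((q : heckeAlg (M * q) (Hup M q H) O S)).1 (u'.1 (e₁.1 ((I2 H hqM).act b))) =
          q • u'.1 (e₁.1 ((I2 H hqM).act b)) by simp, sub_add_cancel]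
      · rw [if_neg hℓ, comm']
        by_cases hS : ℓ ∈ S
        · simp only [Tgen_apply_mem _ _ _ _ hS, map_zero]
        · rw [Tgen_apply _ _ _ _ hS, Tgen_apply _ _ _ _ hS, I2_Tc_ne hqM hqH hℓ]
  have hqu : IsUnit (q : O) := isUnit_iff_exists_inv.2 <| by
    have : IsUnit (q : O) := by
      by_contra h
      rw [← mem_nonunits_iff, ← IsLocalRing.mem_maximalIdeal, ← residue_eq_zero_iff,
        map_natCast, hq1] at h
      exact one_ne_zero h
    exact isUnit_iff_exists_inv.1 this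
  obtain ⟨r, hr⟩ := isUnit_iff_exists_inv.1 hqu
  have hres : ∀ b, e₁.1 ((Corr.res GamUp_le).act b) = r • U.1 (e₁.1 ((I2 H hqM).act b)) := by
    intro b
    rw [comm' U e₁, Tgen_q _ _ _ _ q hqS, U_I2 hqM hqH, map_nsmul, ← Nat.cast_smul_eq_nsmul O, smul_smul,
      mul_comm r, hr, one_smul]
  have hI2 : ∀ b, e₁.1 ((I2 H hqM).act b) ∈ Img := by
    intro b
    obtain ⟨p₀, hp₀⟩ := heckePoly_surjective M H O S (1 - e₀)
    have h0 : e₁.1 ((I2 H hqM).act ((1 - e₀ : heckeAlg M H O S).1 b)) = 0 := by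
      set v := (1 - e₀ : heckeAlg M H O S).1 b
      have hv : e₁.1 ((I2 H hqM).act v) = (Θ p₀).1 (e₁.1 ((I2 H hqM).act v)) := by
        rw [hupint, hp₀]
        show _ = e₁.1 ((I2 H hqM).act ((1 - e₀ : heckeAlg M H O S).1 v))
        rw [show (1 - e₀ : heckeAlg M H O S).1 v = v from
          LinearMap.congr_fun (congrArg Subtype.val h₀.idem.one_sub.eq) b]
      obtain ⟨s, hs⟩ := h₁.inv (1 - Θ p₀) (by
        rw [map_sub, map_one, hupχ, hp₀, map_sub, map_one, h₀.char, sub_self, sub_zero]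
        exact one_ne_zero)
      rw [← show s.1 ((1 - Θ p₀).1 (e₁.1 ((I2 H hqM).act v))) = e₁.1 ((I2 H hqM).act v) from
        LinearMap.congr_fun (congrArg Subtype.val hs) _]
      show s.1 (e₁.1 ((I2 H hqM).act v) - (Θ p₀).1 (e₁.1 ((I2 H hqM).act v))) = 0
      rw [← hv, sub_self, map_zero]
    have hb : e₁.1 ((I2 H hqM).act b) = e₁.1 ((I2 H hqM).act (e₀.1 b)) := by
      rw [← sub_eq_zero, ← map_sub, ← map_sub, ← h0]
      rfl
    rw [hb]
    obtain ⟨pa, hpa⟩ := heckePoly_surjective M H O S a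
    let G : heckeAlg (M * q) (Hup M q H) O S := 1 - r • (U * Θ pa)
    have hG : χ₁ G ≠ 0 := fun h => hα2 (by
      have hr' : residue O r = 1 := by
        have := congrArg (residue O) hr
        rwa [map_mul, map_natCast, hq1, one_mul, map_one] at this
      simp only [G, U, map_sub, map_one, map_smul, map_mul, hU, hupχ, hpa, hχa, Algebra.smul_def,
        sub_eq_zero] at h
      rw [AlgHom.commutes, ResidueField.algebraMap_eq, hr', one_mul] at h
      rw [pow_two, ← h])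
    obtain ⟨s, hs⟩ := h₁.inv G hG
    have hΦz : G.1 (e₁.1 ((I2 H hqM).act (e₀.1 b))) = Φ b := by
      conv_rhs => rw [← he₁, show Φ b = _ from oldMap_apply hqM e₀ a b, map_sub, hres, ← hpa,
        ← hupint]
      simp [G]
    have h4 : e₁.1 ((I2 H hqM).act (e₀.1 b)) = s.1 (Φ b) := by
      rw [← hΦz]
      have he2 : e₁.1 (e₁.1 ((I2 H hqM).act (e₀.1 b))) = e₁.1 ((I2 H hqM).act (e₀.1 b)) :=
        LinearMap.congr_fun (congrArg Subtype.val h₁.idem.eq) _
      conv_lhs => rw [← show s.1 (G.1 (e₁.1 ((I2 H hqM).act (e₀.1 b)))) = _ from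
        LinearMap.congr_fun (congrArg Subtype.val hs) _]
    rw [h4]
    exact hImg s _ ⟨b, rfl⟩
  obtain ⟨s, hs⟩ := h₁.inv (U * U - 1) (by
    rw [map_sub, map_mul, map_one, hU, sub_ne_zero, ← pow_two]
    exact hα2)
  have hwmem : w ∈ Img := by
    have h3 : s.1 (e₁.1 ((U * U - 1).1 w)) = w := by
      rw [comm' e₁]
      exact (LinearMap.congr_fun (congrArg Subtype.val hs) w).trans hw
    rw [← h3]
    refine hImg s _ ?_
    rw [show (U * U - 1).1 w = _ from (show U.1 (U.1 w) - w = _ by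
      rw [Tgen_q _ _ _ _ q hqS, Tgen_q _ _ _ _ q hqS, U_sq_old hqM hqH w]), map_sub, hres]
    exact sub_mem (Img.smul_mem r (hImg U _ (hI2 _))) (hI2 _)
  obtain ⟨z, rfl⟩ := hwmem
  exact ⟨e₀.1 z, hee z, hΦe z⟩

end old

end FA.HeckeH1

end
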