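import Fermat.Agent.HeckeH1.PieceMaps
import Fermat.Agent.HeckeH1.DiamondDegeneracy
import Fermat.Agent.HeckeH1.Raise
import Fermat.Agent.Twist.Point

/-!
Ihara's lemma on a non-Eisenstein piece: the sum of the two degeneracy maps is injective modulo
the maximal ideal and the pair of the traces is surjective modulo it.
-/

set_option autoImplicit false

noncomputable section

namespace FA.HeckeH1

open IsLocalRing
open scoped MatrixGroups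

namespace IsStep

variable {M q : ℕ} [Fact q.Prime] {H : Subgroup (ZMod M)ˣ} {M' : ℕ} {H' : Subgroup (ZMod M')ˣ}

/-- Ihara's lemma for a step. -/
theorem ihara_act [NeZero M] (s : IsStep M q H M' H') {A : Type*} [AddCommGroup A] {p : ℕ}
    (hp : p.Prime) (hA : ∀ x : A, p • x = 0) (u v : Hom1 (GamH M H) A)
    (h0 : s.res.act u + s.I2'.act v = 0) {l l' : ℕ} [Fact l.Prime] [Fact l'.Prime] (hlq : l ≠ q)
    (hl : l % iharaMod q M p = 1) (hl' : l' % (q * iharaMod q M p * l) = 1) :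
    Eop M H l' (Eop M H l u) = 0 ∧ Eop M H l' (Eop M H l v) = 0 := by
  obtain rfl := s.eq
  obtain rfl := s.eq_Hup
  exact ihara_level s.not_dvd hp hA u v h0 hlq hl hl'

/-- The dual statement for a step. -/
theorem surj_act {N N' : ℕ} [NeZero N] [NeZero N'] {K' : Subgroup (ZMod N')ˣ}
    (s : IsStep N q (⊤ : Subgroup (ZMod N)ˣ) N' K') {p : ℕ} (hp : p.Prime) {l l' : ℕ}
    [Fact l.Prime] [Fact l'.Prime] (hlq : l ≠ q) (hlN : ¬ l ∣ N) (hl'N : ¬ l' ∣ N)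
    (hl : l % iharaMod q N p = 1) (hl' : l' % (q * iharaMod q N p * l) = 1)
    (y₁ y₂ : Par (GamH N ⊤) ℤ) :
    ∃ (x : Par (GamH N' K') ℤ) (w₁ w₂ : Par (GamH N ⊤) ℤ),
      Eop N ⊤ l (Eop N ⊤ l' y₁.1) =
        (Corr.cores (Γ := GamH N ⊤)).act x.1 + p • w₁.1 ∧
      Eop N ⊤ l (Eop N ⊤ l' y₂.1) = s.J2'.act x.1 + p • w₂.1 := by
  obtain rfl := s.eq
  obtain rfl := s.eq_Hup
  exact surj_mod_p s.not_dvd hp hlq hlN hl'N hl hl' y₁ y₂

end IsStep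

theorem mod_eq_one_of_cast {l L m : ℕ} (h : (l : ZMod L) = 1) (hm : m ∣ L) (hm1 : 1 < m) :
    l % m = 1 := by
  have h1 : (l : ZMod m) = ((1 : ℕ) : ZMod m) := by
    have h' := congrArg (ZMod.castHom hm (ZMod m)) h
    rw [map_natCast, map_one] at h'
    rw [h', Nat.cast_one]
  rwa [ZMod.natCast_eq_natCast_iff', Nat.mod_eq_of_lt hm1] at h1

theorem Eop_comp_hom {M : ℕ} {H : Subgroup (ZMod M)ˣ} {ℓ : ℕ} [Fact ℓ.Prime] {A B : Type*}
    [AddCommGroup A] [AddCommGroup B] (f : A →+ B) (z : Hom1 (GamH M H) A) :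
    Eop M H ℓ (f.comp z) = f.comp (Eop M H ℓ z) := by
  rw [Eop_apply, Eop_apply, Corr.act_comp_hom]
  exact AddMonoidHom.ext fun γ => by simp

section sys

variable {O : Type} [CommRing O] [IsDomain O] [IsDiscreteValuationRing O]
  [IsAdicComplete (maximalIdeal O) O] [CharZero O] {S : Finset Nat.Primes}
  {c : Nat.Primes → ResidueField O} {N : ℕ} [NeZero N]

/-- `T ℓ - ℓ - 1` as a linear map. -/
def EopLin (M : ℕ) (H : Subgroup (ZMod M)ˣ) (ℓ : ℕ) [Fact ℓ.Prime] :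
    Module.End O (Hom1 (GamH M H) O) :=
  (Tc M H ℓ).actLin - (ℓ + 1 : ℕ) • LinearMap.id

omit [IsDomain O] [IsDiscreteValuationRing O] [IsAdicComplete (maximalIdeal O) O] [CharZero O]
  [NeZero N] in
theorem EopLin_apply (ℓ : ℕ) [Fact ℓ.Prime] (z : Hom1 (GamH N ⊤) O) :
    EopLin N ⊤ ℓ z = Eop N ⊤ ℓ z := rfl

theorem sysIdem_Eop (ℓ : Nat.Primes) (z : Hom1 (GamH N ⊤) O) :
    sysIdem S c N (Eop N ⊤ (ℓ : ℕ) z) = Eop N ⊤ (ℓ : ℕ) (sysIdem S c N z) := by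
  rw [Eop_apply, Eop_apply, map_sub, map_nsmul]
  exact congrArg (· - _) (sysIdem_comm N (Tpair_mem N ⊤ O ℓ) z).symm

/-- `T ℓ - ℓ - 1` is bijective on the system. -/
theorem exists_Eop_inverse {ℓ : Nat.Primes} (hℓ : ℓ ∉ S)
    (hc : c ℓ ≠ ((ℓ : ℕ) : ResidueField O) + 1) :
    ∃ s : Module.End O (Hom1 (GamH N ⊤) O), ∀ A, sysIdem S c N A = A →
      sysIdem S c N (s A) = s A ∧ s (Eop N ⊤ (ℓ : ℕ) A) = A ∧ Eop N ⊤ (ℓ : ℕ) (s A) = A := by
  obtain ⟨s, hs⟩ := exists_sys_inverse (N := N) hℓ hc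
  refine ⟨s.1, fun A hA => ?_⟩
  have h1 : s.1 (Eop N ⊤ (ℓ : ℕ) A) = A := by
    have := hs A
    rwa [hA] at this
  have hcomm : ∀ {x : Module.End O (Hom1 (GamH N ⊤) O)}, x ∈ heckeAlg N ⊤ O S → ∀ z,
      x (s.1 z) = s.1 (x z) := fun hx z =>
    LinearMap.congr_fun (setLike_mul_comm hx s.2) z
  refine ⟨by rw [hcomm (sysIdem_mem (S := S) (c := c) N), hA], h1, ?_⟩
  conv_rhs => rw [← h1]
  rw [Eop_apply, Eop_apply, map_sub, map_nsmul]
  have hT := hcomm (Tgen N ⊤ O S ℓ).2 A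
  rw [Tgen_apply N ⊤ O S hℓ, Tgen_apply N ⊤ O S hℓ] at hT
  rw [hT]

variable (hNE : ∀ L : ℕ, L ≠ 0 → ∃ ℓ : Nat.Primes, ¬ (ℓ : ℕ) ∣ L ∧
  ((ℓ : ℕ) : ZMod L) = 1 ∧ c ℓ ≠ ((ℓ : ℕ) : ResidueField O) + 1)
  {p : ℕ} (hp : p.Prime) {q : ℕ} [Fact q.Prime]

include hNE hp in
omit [IsAdicComplete (maximalIdeal O) O] [CharZero O] in
/-- Auxiliary primes for Ihara's lemma. -/
theorem exists_ihara_primes :
    ∃ l l' : Nat.Primes, l ∉ S ∧ l' ∉ S ∧ (l : ℕ) ≠ q ∧ ¬ (l : ℕ) ∣ N ∧ ¬ (l' : ℕ) ∣ N ∧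
      (l : ℕ) % iharaMod q N p = 1 ∧ (l' : ℕ) % (q * iharaMod q N p * (l : ℕ)) = 1 ∧
      c l ≠ ((l : ℕ) : ResidueField O) + 1 ∧ c l' ≠ ((l' : ℕ) : ResidueField O) + 1 := by
  have hq : q.Prime := Fact.out
  have hm := one_lt_iharaMod hq (NeZero.pos N) hp
  set m := iharaMod q N p with hm_def
  have hS0 : (∏ r ∈ S, (r : ℕ)) ≠ 0 := Finset.prod_ne_zero_iff.2 fun r _ => r.2.ne_zero
  have key : ∀ m' : ℕ, 1 < m' → ∃ l : Nat.Primes, l ∉ S ∧ (l : ℕ) ≠ q ∧ ¬ (l : ℕ) ∣ N ∧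
      (l : ℕ) % m' = 1 ∧ c l ≠ ((l : ℕ) : ResidueField O) + 1 := by
    intro m' hm'
    obtain ⟨l, hlL, hl1, hlc⟩ := hNE (m' * (q * (N * ∏ r ∈ S, (r : ℕ))))
      (mul_ne_zero (Nat.ne_zero_of_lt hm') (mul_ne_zero hq.ne_zero (mul_ne_zero (NeZero.ne N) hS0)))
    refine ⟨l, fun h => hlL ?_, fun h => hlL ?_, fun h => hlL ?_,
      mod_eq_one_of_cast hl1 (dvd_mul_right _ _) hm', hlc⟩
    · exact (((Finset.dvd_prod_of_mem _ h).mul_left _).mul_left _).mul_left _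
    · rw [h]
      exact (dvd_mul_right _ _).mul_left _
    · exact ((h.mul_right _).mul_left _).mul_left _
  obtain ⟨l, hlS, hlq, hlN, hl1, hlc⟩ := key m hm
  obtain ⟨l', hl'S, -, hl'N, hl'1, hl'c⟩ := key (q * m * (l : ℕ))
    (lt_of_lt_of_le hm ((Nat.le_mul_of_pos_left _ hq.pos).trans
      (Nat.le_mul_of_pos_right _ l.2.pos)))
  exact ⟨l, l', hlS, hl'S, hlq, hlN, hl'N, hl1, hl'1, hlc, hl'c⟩

variable [CharP (ResidueField O) p] {N' : ℕ} [NeZero N']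
  (sN : IsStep N q (⊤ : Subgroup (ZMod N)ˣ) N' (⊤ : Subgroup (ZMod N')ˣ))

include hNE hp in
omit [NeZero N'] in
/-- **The sum of the degeneracy maps is injective modulo the maximal ideal on the system.** -/
theorem sys_up_residual (A B : Hom1 (GamH N ⊤) O) (hA : sysIdem S c N A = A)
    (hB : sysIdem S c N B = B)
    (h : sN.res.act A + sN.I2'.act B ∈ maximalIdeal O • (⊤ : Submodule O (Hom1 (GamH N' ⊤) O))) :
    A ∈ maximalIdeal O • (⊤ : Submodule O (Hom1 (GamH N ⊤) O)) ∧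
      B ∈ maximalIdeal O • (⊤ : Submodule O (Hom1 (GamH N ⊤) O)) := by
  obtain ⟨l, l', hlS, hl'S, hlq, -, -, hl1, hl'1, hlc, hl'c⟩ :=
    exists_ihara_primes (N := N) (q := q) (S := S) hNE hp
  let f : O →+ ResidueField O := (residue O).toAddMonoidHom
  have h0 : sN.res.act (f.comp A) + sN.I2'.act (f.comp B) = 0 := by
    rw [Corr.act_comp_hom, Corr.act_comp_hom, ← AddMonoidHom.comp_add]
    refine AddMonoidHom.ext fun γ => ?_
    exact (residue_eq_zero_iff _).2 (values_of_mem_smul_top h γ.toMul)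
  obtain ⟨h1, h2⟩ := sN.ihara_act hp
    (fun x : ResidueField O => by rw [nsmul_eq_mul, CharP.cast_eq_zero, zero_mul])
    _ _ h0 hlq hl1 hl'1
  have main : ∀ X, sysIdem S c N X = X →
      Eop N ⊤ (l' : ℕ) (Eop N ⊤ (l : ℕ) (f.comp X)) = 0 →
      X ∈ maximalIdeal O • (⊤ : Submodule O (Hom1 (GamH N ⊤) O)) := by
    intro X hX hX0
    rw [Eop_comp_hom, Eop_comp_hom] at hX0
    have hmem : Eop N ⊤ (l' : ℕ) (Eop N ⊤ (l : ℕ) X) ∈
        maximalIdeal O • (⊤ : Submodule O (Hom1 (GamH N ⊤) O)) :=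
      mem_smul_top_of_values fun γ =>
        (residue_eq_zero_iff _).1 (DFunLike.congr_fun hX0 (Additive.ofMul γ))
    obtain ⟨s, hs⟩ := exists_Eop_inverse (N := N) hlS hlc
    obtain ⟨s', hs'⟩ := exists_Eop_inverse (N := N) hl'S hl'c
    have hEX : sysIdem S c N (Eop N ⊤ (l : ℕ) X) = Eop N ⊤ (l : ℕ) X := by
      rw [sysIdem_Eop, hX]
    have := Submodule.smul_top_le_comap_smul_top (maximalIdeal O) (s * s') hmem
    rwa [Submodule.mem_comap, Module.End.mul_apply, (hs' _ hEX).2.1, (hs X hX).2.1] at this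
  exact ⟨main A hA h1, main B hB h2⟩

include hNE hp in
/-- **The pair of the traces is surjective modulo the maximal ideal on the system.** -/
theorem sys_down_residual (hqS : ∀ ℓ : Nat.Primes, ℓ ∉ S → (ℓ : ℕ) ≠ q)
    (Y₁ Y₂ : Hom1 (GamH N ⊤) O) (hY₁ : sysIdem S c N Y₁ = Y₁) (hY₂ : sysIdem S c N Y₂ = Y₂) :
    ∃ X : Hom1 (GamH N' ⊤) O, sysIdem S c N' X = X ∧
      ((Corr.cores (Γ := GamH N ⊤)).act X - Y₁, sN.J2'.act X - Y₂) ∈
        maximalIdeal O • (⊤ : Submodule O (Hom1 (GamH N ⊤) O × Hom1 (GamH N ⊤) O)) := by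
  by_cases hsys : HasSys S c N
  swap
  · rw [sysIdem_of_not S c hsys] at hY₁ hY₂
    obtain rfl : Y₁ = 0 := hY₁.symm
    obtain rfl : Y₂ = 0 := hY₂.symm
    refine ⟨0, map_zero _, ?_⟩
    rw [map_zero, map_zero, sub_zero]
    exact Submodule.zero_mem _
  obtain ⟨l, l', hlS, hl'S, hlq, hlN, hl'N, hl1, hl'1, hlc, hl'c⟩ :=
    exists_ihara_primes (N := N) (q := q) (S := S) hNE hp
  have hsys' : HasSys S c N' := hsys.of_injective sN.res.actLin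
    (res_injective_of_finite sN.le) fun ℓ hℓ z => sN.res_Tc (hqS ℓ hℓ) z
  let J : Hom1 (GamH N' ⊤) O →ₗ[O] Hom1 (GamH N ⊤) O × Hom1 (GamH N ⊤) O :=
    (Corr.cores (Γ := GamH N ⊤)).actLin.prod sN.J2'.actLin
  let P : Submodule O (Hom1 (GamH N ⊤) O × Hom1 (GamH N ⊤) O) :=
    LinearMap.range J ⊔ maximalIdeal O • ⊤
  let Φ : Module.End O (Hom1 (GamH N ⊤) O) := EopLin N ⊤ (l : ℕ) * EopLin N ⊤ (l' : ℕ)
  let cast₁ : ℤ →+ O := Int.castAddHom O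
  have hint : ∀ y₁ y₂ : Par (GamH N ⊤) ℤ, (Φ (cast₁.comp y₁.1), Φ (cast₁.comp y₂.1)) ∈ P := by
    intro y₁ y₂
    obtain ⟨x, w₁, w₂, e₁, e₂⟩ := sN.surj_act hp hlq hlN hl'N hl1 hl'1 y₁ y₂
    have hcast : ∀ z : Hom1 (GamH N ⊤) ℤ,
        Φ (cast₁.comp z) = cast₁.comp (Eop N ⊤ (l : ℕ) (Eop N ⊤ (l' : ℕ) z)) := fun z => by
      rw [← Eop_comp_hom, ← Eop_comp_hom]
      rfl
    have hp' : ∀ z : Hom1 (GamH N ⊤) ℤ, cast₁.comp (p • z) = (p : O) • cast₁.comp z := fun z => by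
      rw [Nat.cast_smul_eq_nsmul]
      exact AddMonoidHom.ext fun γ => map_nsmul cast₁ p _
    refine Submodule.mem_sup.2 ⟨J (cast₁.comp x.1), LinearMap.mem_range_self _ _,
      (p : O) • (cast₁.comp w₁.1, cast₁.comp w₂.1),
      Submodule.smul_mem_smul ((residue_eq_zero_iff _).1 (by rw [map_natCast, CharP.cast_eq_zero]))
        Submodule.mem_top, ?_⟩
    rw [hcast, hcast, e₁, e₂]
    refine Prod.ext ?_ ?_ <;>
      simp only [J, Prod.fst_add, Prod.snd_add, Prod.smul_fst, Prod.smul_snd,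
        LinearMap.prod_apply, Function.prod_apply, Corr.actLin_apply, Corr.act_comp_hom,
        AddMonoidHom.comp_add, hp']
  have hpar : ∀ Z₁ Z₂ : Hom1 (GamH N ⊤) O, Z₁ ∈ Par (GamH N ⊤) O → Z₂ ∈ Par (GamH N ⊤) O →
      (Φ Z₁, Φ Z₂) ∈ P := by
    intro Z₁ Z₂ h₁ h₂
    obtain ⟨n₁, a, y, rfl⟩ := FA.Twist.exists_par_coord Z₁ h₁
    obtain ⟨n₂, b, z, rfl⟩ := FA.Twist.exists_par_coord Z₂ h₂
    have hy : ∀ k, (Φ (cast₁.comp (y k).1), (0 : Hom1 (GamH N ⊤) O)) ∈ P := fun k => by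
      simpa using hint (y k) 0
    have hz : ∀ k, ((0 : Hom1 (GamH N ⊤) O), Φ (cast₁.comp (z k).1)) ∈ P := fun k => by
      simpa using hint 0 (z k)
    have := add_mem (P.sum_mem (t := Finset.univ) fun k _ => P.smul_mem (a k) (hy k))
      (P.sum_mem (t := Finset.univ) fun k _ => P.smul_mem (b k) (hz k))
    convert this using 1
    simp only [Prod.ext_iff, Prod.fst_add, Prod.snd_add, Prod.fst_sum, Prod.snd_sum,
      Prod.smul_fst, Prod.smul_snd, smul_zero, Finset.sum_const_zero, add_zero, zero_add, map_sum,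
      map_smul]
    exact ⟨rfl, rfl⟩
  obtain ⟨s, hs⟩ := exists_Eop_inverse (N := N) hlS hlc
  obtain ⟨s', hs'⟩ := exists_Eop_inverse (N := N) hl'S hl'c
  have hΦ : ∀ Y, sysIdem S c N Y = Y →
      Φ (s' (s Y)) = Y ∧ s' (s Y) ∈ Par (GamH N ⊤) O := fun Y hY => by
    obtain ⟨hsY, -, hEs⟩ := hs Y hY
    obtain ⟨hs'Y, -, hEs'⟩ := hs' (s Y) hsY
    refine ⟨?_, by rw [← hs'Y]; exact sysIdem_mem_Par hNE N _⟩
    show Eop N ⊤ (l : ℕ) (Eop N ⊤ (l' : ℕ) (s' (s Y))) = Y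
    rw [hEs', hEs]
  obtain ⟨h1, hp1⟩ := hΦ Y₁ hY₁
  obtain ⟨h2, hp2⟩ := hΦ Y₂ hY₂
  have hP := hpar _ _ hp1 hp2
  rw [h1, h2] at hP
  obtain ⟨_, ⟨X₀, rfl⟩, r, hr, er⟩ := Submodule.mem_sup.1 hP
  refine ⟨sysIdem S c N' X₀, sysIdem_idem N' X₀, ?_⟩
  have hr' := Submodule.smul_top_le_comap_smul_top (maximalIdeal O)
    ((sysIdem S c N).prodMap (sysIdem S c N)) hr
  have e1 : (Corr.cores (Γ := GamH N ⊤)).act (sysIdem S c N' X₀) =
      sysIdem S c N ((Corr.cores (Γ := GamH N ⊤)).act X₀) :=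
    sysIdem_intertwine hsys' hsys (Corr.cores (Γ := GamH N ⊤)).actLin
      (fun ℓ hℓ z => sN.cores_Tc (hqS ℓ hℓ) z) X₀
  have e2 : sN.J2'.act (sysIdem S c N' X₀) = sysIdem S c N (sN.J2'.act X₀) :=
    sysIdem_intertwine hsys' hsys sN.J2'.actLin (fun ℓ hℓ z => sN.J2_Tc' (hqS ℓ hℓ) z) X₀
  rw [Submodule.mem_comap] at hr'
  convert (maximalIdeal O • (⊤ : Submodule O (Hom1 (GamH N ⊤) O × Hom1 (GamH N ⊤) O))).neg_mem hr'
    using 1
  rw [e1, e2, show r = (Y₁, Y₂) - J X₀ by rw [← er, add_sub_cancel_left]]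
  simp [J, hY₁, hY₂, Corr.actLin_apply]

end sys

end FA.HeckeH1

end
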