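import Mathlib

/-!
Frames: the image of an idempotent on a module with an action of `R`, written as a free module.
-/

set_option autoImplicit false

noncomputable section

namespace FA.HeckeH1

variable {O R : Type} [CommRing O] [CommRing R] [Algebra O R]

/-- The image of `e` as the free module `Rᵈ`. -/
structure Frame {X : Type} [AddCommGroup X] [Module O X] (ρ : R →ₐ[O] Module.End O X) where
  /-- the rank -/
  d : ℕ
  /-- the embedding -/
  emb : (Fin d → R) →ₗ[O] X
  /-- the coordinates -/
  coord : X →ₗ[O] (Fin d → R)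
  /-- the idempotent -/
  e : Module.End O X
  coord_emb : ∀ a, coord (emb a) = a
  emb_coord : ∀ x, emb (coord x) = e x
  emb_smul : ∀ (r : R) a, emb (r • a) = ρ r (emb a)
  e_ρ : ∀ r x, e (ρ r x) = ρ r (e x)

namespace Frame

variable {X X' X'' : Type} [AddCommGroup X] [Module O X] [AddCommGroup X'] [Module O X']
  [AddCommGroup X''] [Module O X''] {ρ : R →ₐ[O] Module.End O X}
  {ρ' : R →ₐ[O] Module.End O X'} {ρ'' : R →ₐ[O] Module.End O X''}
  (F : Frame ρ) (F' : Frame ρ') (F'' : Frame ρ'')

theorem emb_injective : Function.Injective F.emb :=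
  Function.LeftInverse.injective F.coord_emb

theorem e_emb (a : Fin F.d → R) : F.e (F.emb a) = F.emb a := by
  rw [← F.emb_coord, F.coord_emb]

theorem e_e (x : X) : F.e (F.e x) = F.e x := by
  rw [← F.emb_coord x, F.e_emb]

theorem coord_e (x : X) : F.coord (F.e x) = F.coord x := by
  rw [← F.emb_coord, F.coord_emb]

theorem coord_ρ (r : R) (x : X) : F.coord (ρ r x) = r • F.coord x :=
  F.emb_injective (by rw [F.emb_coord, F.emb_smul, F.emb_coord, F.e_ρ])

section transfer

variable (f : X →ₗ[O] X') (hf : ∀ r x, f (ρ r x) = ρ' r (f x))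

/-- The matrix of a map between two frames. -/
def transfer : (Fin F.d → R) →ₗ[R] (Fin F'.d → R) where
  toFun a := F'.coord (f (F.emb a))
  map_add' a b := by simp only [map_add]
  map_smul' r a := by rw [RingHom.id_apply, F.emb_smul, hf, F'.coord_ρ]

theorem transfer_apply (a : Fin F.d → R) : F.transfer F' f hf a = F'.coord (f (F.emb a)) := rfl

theorem emb_transfer (a : Fin F.d → R) :
    F'.emb (F.transfer F' f hf a) = F'.e (f (F.emb a)) := F'.emb_coord _

/-- Composites, when the middle idempotent fixes the image of the piece. -/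
theorem transfer_comp (g : X' →ₗ[O] X'') (hg : ∀ r x, g (ρ' r x) = ρ'' r (g x))
    (hst : ∀ x, F'.e (f (F.e x)) = f (F.e x)) (a : Fin F.d → R) :
    F'.transfer F'' g hg (F.transfer F' f hf a) = F''.coord (g (f (F.emb a))) := by
  have h := hst (F.emb a)
  rw [F.e_emb] at h
  rw [transfer_apply, emb_transfer, h]

end transfer

section act

variable {A : Type} [Semiring A] [Algebra O A] (op : A →ₐ[O] Module.End O X)
  (hρ : ∀ a r x, op a (ρ r x) = ρ r (op a x)) (he : ∀ a x, op a (F.e x) = F.e (op a x))

/-- The action on the frame of operators commuting with `R` and the idempotent. -/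
def act : A →ₐ[O] Module.End R (Fin F.d → R) where
  toFun a := F.transfer F (op a) (hρ a)
  map_one' := LinearMap.ext fun x => by simp [transfer_apply, F.coord_emb]
  map_zero' := LinearMap.ext fun x => by simp [transfer_apply]
  map_add' a b := LinearMap.ext fun x => by simp [transfer_apply]
  map_mul' a b := LinearMap.ext fun x => F.emb_injective (by
    rw [Module.End.mul_apply, emb_transfer, emb_transfer, emb_transfer, map_mul,
      Module.End.mul_apply, he, F.e_e])
  commutes' c := LinearMap.ext fun x => by
    simp [transfer_apply, Module.algebraMap_end_apply, F.coord_emb]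

theorem emb_act (a : A) (x : Fin F.d → R) : F.emb (F.act op hρ he a x) = op a (F.emb x) := by
  show F.emb (F.transfer F (op a) (hρ a) x) = _
  rw [emb_transfer, ← he, F.e_emb]

theorem act_eq_zero_iff (a : A) : F.act op hρ he a = 0 ↔ ∀ x, op a (F.e x) = 0 := by
  constructor
  · intro h x
    rw [← F.emb_coord x, ← F.emb_act op hρ he, h, LinearMap.zero_apply, map_zero]
  · intro h
    refine LinearMap.ext fun x => F.emb_injective ?_
    rw [F.emb_act op hρ he, LinearMap.zero_apply, map_zero, ← F.e_emb x, h]

/-- Transferred maps intertwine transferred operators. -/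
theorem transfer_act {A' : Type} [Semiring A'] [Algebra O A'] (op' : A' →ₐ[O] Module.End O X')
    (hρ' : ∀ a r x, op' a (ρ' r x) = ρ' r (op' a x))
    (he' : ∀ a x, op' a (F'.e x) = F'.e (op' a x)) (f : X →ₗ[O] X')
    (hf : ∀ r x, f (ρ r x) = ρ' r (f x)) (a : A) (a' : A')
    (hint : ∀ x, f (op a x) = op' a' (f x)) (x : Fin F.d → R) :
    F.transfer F' f hf (F.act op hρ he a x) = F'.act op' hρ' he' a' (F.transfer F' f hf x) := by
  refine F'.emb_injective ?_
  rw [emb_transfer, emb_act, emb_act, emb_transfer, hint, he']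

end act

section build

/-- A frame from an embedding with image the image of the idempotent. -/
def ofEmb (d : ℕ) (emb : (Fin d → R) →ₗ[O] X) (hinj : Function.Injective emb) (e : Module.End O X)
    (he : ∀ a, e (emb a) = emb a) (hsurj : ∀ x, ∃ a, emb a = e x)
    (hsmul : ∀ (r : R) a, emb (r • a) = ρ r (emb a)) (heρ : ∀ r x, e (ρ r x) = ρ r (e x)) :
    Frame ρ where
  d := d
  emb := emb
  coord := (LinearEquiv.ofInjective emb hinj).symm.toLinearMap.comp
    (e.codRestrict (LinearMap.range emb) fun x => hsurj x)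
  e := e
  coord_emb a := by
    apply (LinearEquiv.ofInjective emb hinj).injective
    rw [LinearMap.comp_apply, LinearEquiv.coe_coe, LinearEquiv.apply_symm_apply]
    exact Subtype.ext (he a)
  emb_coord x := by
    have h := (LinearEquiv.ofInjective emb hinj).apply_symm_apply
      (e.codRestrict (LinearMap.range emb) (fun x => hsurj x) x)
    exact congrArg Subtype.val h
  emb_smul := hsmul
  e_ρ := heρ

/-- The frame of the zero idempotent. -/
def zero (ρ : R →ₐ[O] Module.End O X) : Frame ρ where
  d := 0
  emb := 0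
  coord := 0
  e := 0
  coord_emb a := funext fun i => i.elim0
  emb_coord _ := rfl
  emb_smul r a := by simp
  e_ρ r x := by simp

variable (O X) in
/-- Scalars. -/
abbrev scalarsHom : O →ₐ[O] Module.End O X := Algebra.ofId O (Module.End O X)

/-- An idempotent on a torsion free finite module over a principal ring has a frame. -/
def ofIdem [IsDomain O] [IsPrincipalIdealRing O] [Module.Finite O X] [Module.IsTorsionFree O X]
    (e : Module.End O X) (he : ∀ x, e (e x) = e x) : Frame (scalarsHom O X) :=
  let b := Module.finBasis O (LinearMap.range e)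
  let emb : (Fin _ → O) →ₗ[O] X :=
    (LinearMap.range e).subtype.comp b.equivFun.symm.toLinearMap
  ofEmb _ emb (Subtype.val_injective.comp b.equivFun.symm.injective) e
    (fun a => by
      obtain ⟨y, hy⟩ := (b.equivFun.symm a).2
      show e (b.equivFun.symm a).1 = (b.equivFun.symm a).1
      rw [← hy, he])
    (fun x => ⟨b.equivFun ⟨e x, LinearMap.mem_range_self e x⟩, by
      show (b.equivFun.symm (b.equivFun _)).1 = e x
      rw [LinearEquiv.symm_apply_apply]⟩)
    (fun r a => by
      rw [map_smul, Algebra.ofId_apply, Module.algebraMap_end_apply])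
    (fun r x => by
      rw [Algebra.ofId_apply, Module.algebraMap_end_apply, Module.algebraMap_end_apply, map_smul])

end build

section red

variable {X₀ : Type} [AddCommGroup X₀] [Module O X₀] {ρ₀ : O →ₐ[O] Module.End O X₀}
  (F₀ : Frame ρ₀) (aug : R →ₐ[O] O) (hd : F.d = F₀.d)

/-- The reduction of coordinates. -/
def red : (Fin F.d → R) →ₗ[O] (Fin F₀.d → O) where
  toFun a i := aug (a (Fin.cast hd.symm i))
  map_add' a b := funext fun i => map_add aug _ _
  map_smul' c a := funext fun i => by simp

theorem red_smul (r : R) (a : Fin F.d → R) :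
    F.red F₀ aug hd (r • a) = aug r • F.red F₀ aug hd a :=
  funext fun i => map_mul aug r _

theorem red_surjective : Function.Surjective (F.red F₀ aug hd) := fun b =>
  ⟨fun j => algebraMap O R (b (Fin.cast hd j)), funext fun i => by simp [red]⟩

/-- A map compatible with the bases computes the reduction. -/
theorem emb_red (C : X →ₗ[O] X₀) (hC : ∀ r x, C (ρ r x) = aug r • C x)
    (hbasis : ∀ j, C (F.emb (Pi.single j 1)) = F₀.emb (Pi.single (Fin.cast hd j) 1))
    (a : Fin F.d → R) : C (F.emb a) = F₀.emb (F.red F₀ aug hd a) := by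
  have e : a = ∑ j, a j • Pi.single j (1 : R) := by
    funext i
    simp [Finset.sum_apply, Pi.single_apply, Finset.sum_ite_eq]
  rw [e, map_sum, map_sum, map_sum, map_sum]
  refine Finset.sum_congr rfl fun j _ => ?_
  rw [F.emb_smul, hC, hbasis, red_smul, ← map_smul]
  congr 2
  funext i
  rcases eq_or_ne (Fin.cast hd.symm i) j with h | h
  · subst h
    simp [red]
  · have h' : i ≠ Fin.cast hd j := fun e => h (by simp [e])
    simp [red, h, h']

/-- Reduction carries transferred maps to transferred maps. -/
theorem red_transfer {X₀' : Type} [AddCommGroup X₀'] [Module O X₀'] {ρ₀' : O →ₐ[O] Module.End O X₀'}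
    (F₀' : Frame ρ₀') (hd' : F'.d = F₀'.d) (C : X →ₗ[O] X₀) (C' : X' →ₗ[O] X₀')
    (hC : ∀ a, C (F.emb a) = F₀.emb (F.red F₀ aug hd a))
    (hC' : ∀ a, C' (F'.emb a) = F₀'.emb (F'.red F₀' aug hd' a))
    (f : X →ₗ[O] X') (hf : ∀ r x, f (ρ r x) = ρ' r (f x))
    (f₀ : X₀ →ₗ[O] X₀') (hf₀ : ∀ r x, f₀ (ρ₀ r x) = ρ₀' r (f₀ x))
    (hst : ∀ x, F'.e (f (F.e x)) = f (F.e x)) (hcomm : ∀ x, C' (f x) = f₀ (C x))
    (a : Fin F.d → R) :
    F'.red F₀' aug hd' (F.transfer F' f hf a) =
      F₀.transfer F₀' f₀ hf₀ (F.red F₀ aug hd a) := by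
  have h := hst (F.emb a)
  rw [F.e_emb] at h
  rw [transfer_apply F₀, ← hC, ← hcomm, ← h, ← emb_transfer, hC', F₀'.coord_emb]

end red

end Frame

end FA.HeckeH1

end
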