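import Fermat.Agent.HeckeH1.Parabolic
import Fermat.Agent.HeckeH1.Frame

/-!
Maps intertwining the generators carry pieces to pieces; the residual system at level `Γ₀(N)`.
-/

set_option autoImplicit false

noncomputable section

namespace FA.HeckeH1

open IsLocalRing
open scoped MatrixGroups

section intertwine

variable {O : Type} [CommRing O] [IsLocalRing O] [IsNoetherianRing O]
  [IsAdicComplete (maximalIdeal O) O] {σ A B : Type} [CommRing A] [Algebra O A] [Module.Finite O A]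
  [CommRing B] [Algebra O B] [Module.Finite O B] {X Y : Type} [AddCommGroup X] [Module O X]
  [AddCommGroup Y] [Module O Y]

/-- **Pieces of the same residual character correspond.** -/
theorem piece_intertwine (gA : σ → A) (gB : σ → B)
    (hA : ∀ x, x ∈ Algebra.adjoin O (Set.range gA)) (hB : ∀ x, x ∈ Algebra.adjoin O (Set.range gB))
    (opA : A →ₐ[O] Module.End O X) (opB : B →ₐ[O] Module.End O Y) (f : X →ₗ[O] Y)
    (hint : ∀ i z, f (opA (gA i) z) = opB (gB i) (f z))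
    {χA : A →ₐ[O] ResidueField O} {χB : B →ₐ[O] ResidueField O}
    (hχ : ∀ i, χA (gA i) = χB (gB i)) {e : A} {e' : B} (he : IsPiece χA e) (he' : IsPiece χB e')
    (z : X) : f (opA e z) = opB e' (f z) := by
  let C : Subalgebra O (A × B) := Algebra.adjoin O (Set.range fun i => (gA i, gB i))
  have hgen : ∀ i, (gA i, gB i) ∈ C := fun i => Algebra.subset_adjoin ⟨i, rfl⟩
  have : Module.Finite O C := Module.Finite.of_injective C.val.toLinearMap Subtype.val_injective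
  let π₁ : C →ₐ[O] A := (AlgHom.fst O A B).comp C.val
  let π₂ : C →ₐ[O] B := (AlgHom.snd O A B).comp C.val
  have h₁ : Function.Surjective π₁ := fun x => by
    have hx := (Algebra.adjoin_le (S := π₁.range) (by
      rintro _ ⟨i, rfl⟩; exact ⟨⟨_, hgen i⟩, rfl⟩)) (hA x)
    exact hx
  have h₂ : Function.Surjective π₂ := fun x => by
    have hx := (Algebra.adjoin_le (S := π₂.range) (by
      rintro _ ⟨i, rfl⟩; exact ⟨⟨_, hgen i⟩, rfl⟩)) (hB x)
    exact hx
  have hχC : χA.comp π₁ = χB.comp π₂ := by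
    refine AlgHom.ext fun x => ?_
    obtain ⟨x, hx⟩ := x
    show χA x.1 = χB x.2
    induction hx using Algebra.adjoin_induction with
    | mem y hy => obtain ⟨i, rfl⟩ := hy; exact hχ i
    | algebraMap r =>
      exact (χA.commutes r).trans (χB.commutes r).symm
    | add a b _ _ ha hb => simp only [Prod.fst_add, Prod.snd_add, map_add, ha, hb]
    | mul a b _ _ ha hb => simp only [Prod.fst_mul, Prod.snd_mul, map_mul, ha, hb]
  have hall : ∀ x ∈ C, ∀ z, f (opA x.1 z) = opB x.2 (f z) := by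
    intro x hx
    induction hx using Algebra.adjoin_induction with
    | mem y hy => obtain ⟨i, rfl⟩ := hy; exact hint i
    | algebraMap r =>
      intro z
      simp [Prod.algebraMap_apply, Module.algebraMap_end_apply]
    | add a b _ _ ha hb =>
      intro z
      simp only [Prod.fst_add, Prod.snd_add, map_add, LinearMap.add_apply, ha, hb]
    | mul a b _ _ ha hb =>
      intro z
      simp only [Prod.fst_mul, Prod.snd_mul, map_mul, Module.End.mul_apply, ha, hb]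
  obtain ⟨eC, heC⟩ := exists_piece (χA.comp π₁)
  have heA : π₁ eC = e := (heC.map h₁).unique he
  have heB : π₂ eC = e' := by
    refine (IsPiece.map (g := π₂) (χ := χB) h₂ ?_).unique he'
    rw [← hχC]
    exact heC
  rw [← heA, ← heB]
  exact hall eC.1 eC.2 z

end intertwine

section gens

variable (N : ℕ) [NeZero N] (O : Type) [CommRing O] (S : Finset Nat.Primes)

theorem mem_adjoin_Tgen (x : heckeAlg N ⊤ O S) :
    x ∈ Algebra.adjoin O (Set.range (Tgen N ⊤ O S)) := by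
  obtain ⟨x, hx⟩ := x
  induction hx using Algebra.adjoin_induction with
  | mem y hy => obtain ⟨ℓ, rfl⟩ := hy; exact Algebra.subset_adjoin ⟨ℓ, rfl⟩
  | algebraMap r => exact Subalgebra.algebraMap_mem _ r
  | add a b ha' hb' ha hb => exact add_mem ha hb
  | mul a b ha' hb' ha hb => exact mul_mem ha hb

/-- An operator at `Γ₀(N)` away from `S` gives a pair. -/
theorem pair_mem_of_mem {x : Module.End O (Hom1 (GamH N ⊤) O)} (hx : x ∈ heckeAlg N ⊤ O S) :
    ((x, x) : PairEnd N ⊤ O) ∈ pairAlg N ⊤ O := by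
  induction hx using Algebra.adjoin_induction with
  | mem y hy =>
    obtain ⟨ℓ, rfl⟩ := hy
    simp only [Top1]
    split_ifs
    · exact zero_mem _
    · exact Tpair_mem N ⊤ O ℓ
  | algebraMap r => exact Subalgebra.algebraMap_mem _ r
  | add a b _ _ ha hb => exact add_mem ha hb
  | mul a b _ _ ha hb => exact mul_mem ha hb

end gens

section sys

variable {O : Type} [CommRing O] [IsDomain O] [IsDiscreteValuationRing O]
  [IsAdicComplete (maximalIdeal O) O] [CharZero O] (S : Finset Nat.Primes)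
  (c : Nat.Primes → ResidueField O)

/-- A character with the prescribed residual values. -/
def IsSys {N : ℕ} [NeZero N] (χ : heckeAlg N ⊤ O S →ₐ[O] ResidueField O) : Prop :=
  ∀ ℓ, ℓ ∉ S → χ (Tgen N ⊤ O S ℓ) = c ℓ

/-- The system occurs at level `N`. -/
def HasSys (N : ℕ) [NeZero N] : Prop :=
  ∃ χ : heckeAlg N ⊤ O S →ₐ[O] ResidueField O, IsSys S c χ

variable {S c}

theorem Tgen_eq_zero {N : ℕ} [NeZero N] {ℓ : Nat.Primes} (h : ℓ ∈ S) : Tgen N ⊤ O S ℓ = 0 :=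
  Subtype.ext (LinearMap.ext fun z => Tgen_apply_mem N ⊤ O S h z)

theorem IsSys.eq_on_gens {N N' : ℕ} [NeZero N] [NeZero N']
    {χ : heckeAlg N ⊤ O S →ₐ[O] ResidueField O} {χ' : heckeAlg N' ⊤ O S →ₐ[O] ResidueField O}
    (h : IsSys S c χ) (h' : IsSys S c χ') (ℓ : Nat.Primes) :
    χ (Tgen N ⊤ O S ℓ) = χ' (Tgen N' ⊤ O S ℓ) := by
  by_cases hℓ : ℓ ∈ S
  · rw [Tgen_eq_zero hℓ, Tgen_eq_zero hℓ, map_zero, map_zero]
  · rw [h ℓ hℓ, h' ℓ hℓ]

theorem IsSys.unique {N : ℕ} [NeZero N] {χ χ' : heckeAlg N ⊤ O S →ₐ[O] ResidueField O}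
    (h : IsSys S c χ) (h' : IsSys S c χ') : χ = χ' :=
  AlgHom.ext fun x =>
    (Algebra.adjoin_le (S := AlgHom.equalizer χ χ') (by rintro _ ⟨ℓ, rfl⟩; exact h.eq_on_gens h' ℓ))
      (mem_adjoin_Tgen N O S x)

variable (S c)

open scoped Classical in
/-- The idempotent of the system, zero where it does not occur. -/
def sysIdem (N : ℕ) [NeZero N] : Module.End O (Hom1 (GamH N ⊤) O) :=
  if h : HasSys S c N then
    haveI := heckeAlg_finite N ⊤ O S
    ((exists_piece h.choose).choose : heckeAlg N ⊤ O S).1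
  else 0

theorem sysIdem_of_not {N : ℕ} [NeZero N] (h : ¬ HasSys S c N) :
    sysIdem S c N = (0 : Module.End O (Hom1 (GamH N ⊤) O)) := dif_neg h

variable {S c}

theorem exists_sysPiece {N : ℕ} [NeZero N] (h : HasSys S c N) :
    ∃ (χ : heckeAlg N ⊤ O S →ₐ[O] ResidueField O) (e : heckeAlg N ⊤ O S),
      IsSys S c χ ∧ IsPiece χ e ∧ e.1 = sysIdem S c N := by
  have := heckeAlg_finite N ⊤ O S
  exact ⟨h.choose, (exists_piece h.choose).choose, h.choose_spec,
    (exists_piece h.choose).choose_spec, by rw [sysIdem, dif_pos h]⟩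

theorem sysIdem_mem (N : ℕ) [NeZero N] :
    sysIdem S c N ∈ heckeAlg N ⊤ O S := by
  by_cases h : HasSys S c N
  · obtain ⟨χ, e, -, -, he⟩ := exists_sysPiece h
    rw [← he]
    exact e.2
  · rw [sysIdem_of_not S c h]
    exact zero_mem _

theorem sysIdem_idem (N : ℕ) [NeZero N] (z : Hom1 (GamH N ⊤) O) :
    sysIdem S c N (sysIdem S c N z) = sysIdem S c N z := by
  by_cases h : HasSys S c N
  · obtain ⟨χ, e, -, he, hee⟩ := exists_sysPiece h
    rw [← hee]
    exact LinearMap.congr_fun (congrArg Subtype.val he.idem.eq) z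
  · rw [sysIdem_of_not S c h]
    rfl

variable (S c) in
/-- The frame of the system at level `N`. -/
def sysFrame (N : ℕ) [NeZero N] : Frame (Frame.scalarsHom O (Hom1 (GamH N ⊤) O)) :=
  Frame.ofIdem (sysIdem S c N) (sysIdem_idem N)

theorem sysFrame_e (N : ℕ) [NeZero N] : (sysFrame S c N).e = sysIdem S c N := rfl

theorem sysIdem_comm (N : ℕ) [NeZero N] {x : PairEnd N ⊤ O} (hx : x ∈ pairAlg N ⊤ O)
    (z : Hom1 (GamH N ⊤) O) : x.1 (sysIdem S c N z) = sysIdem S c N (x.1 z) :=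
  LinearMap.congr_fun (congrArg Prod.fst
    (setLike_mul_comm hx (pair_mem_of_mem N O S (sysIdem_mem (S := S) (c := c) N)))) z

/-- The system goes up along an injective map. -/
theorem HasSys.of_injective {N N' : ℕ} [NeZero N] [NeZero N'] (h : HasSys S c N)
    (f : Hom1 (GamH N ⊤) O →ₗ[O] Hom1 (GamH N' ⊤) O) (hf : Function.Injective f)
    (hint : ∀ ℓ : Nat.Primes, ℓ ∉ S → ∀ z,
      (Tc N' ⊤ (ℓ : ℕ)).act (f z) = f ((Tc N ⊤ (ℓ : ℕ)).act z)) :
    HasSys S c N' := by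
  obtain ⟨χ, hχ⟩ := h
  let π' := heckePoly N' ⊤ O S
  have hπ' : Function.Surjective π' := heckePoly_surjective N' ⊤ O S
  have hgen : ∀ (ℓ : Nat.Primes) z,
      (Tgen N' ⊤ O S ℓ).1 (f z) = f ((Tgen N ⊤ O S ℓ).1 z) := fun ℓ z => by
    by_cases hℓ : ℓ ∈ S
    · rw [Tgen_apply_mem N' ⊤ O S hℓ, Tgen_apply_mem N ⊤ O S hℓ, map_zero]
    · rw [Tgen_apply N' ⊤ O S hℓ, Tgen_apply N ⊤ O S hℓ, hint ℓ hℓ]
  have hall : ∀ p z, (π' p).1 (f z) = f ((heckePoly N ⊤ O S p).1 z) := by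
    intro p
    induction p using MvPolynomial.induction_on with
    | C r =>
      intro z
      simp only [π', heckePoly, MvPolynomial.aeval_C]
      exact (f.map_smul r z).symm
    | add p p' hp hp' =>
      intro z
      rw [map_add, map_add]
      show (π' p).1 _ + (π' p').1 _ = f (_ + _)
      rw [hp, hp', map_add]
    | mul_X p ℓ hp =>
      intro z
      rw [map_mul, map_mul]
      show (π' p).1 ((π' (.X ℓ)).1 (f z)) =
        f ((heckePoly N ⊤ O S p).1 ((heckePoly N ⊤ O S (.X ℓ)).1 z))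
      rw [← hp, show π' (.X ℓ) = Tgen N' ⊤ O S ℓ from MvPolynomial.aeval_X _ ℓ, hgen,
        show heckePoly N ⊤ O S (.X ℓ) = Tgen N ⊤ O S ℓ from MvPolynomial.aeval_X _ ℓ]
  have hker : RingHom.ker π' ≤ RingHom.ker (χ.comp (heckePoly N ⊤ O S)) := fun p hp => by
    have h0 : heckePoly N ⊤ O S p = 0 := Subtype.ext (LinearMap.ext fun z => hf (by
      rw [← hall, RingHom.mem_ker.1 hp]
      simp))
    rw [RingHom.mem_ker, AlgHom.comp_apply, h0, map_zero]
  let χ' : heckeAlg N' ⊤ O S →ₐ[O] ResidueField O :=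
    (Ideal.Quotient.liftₐ (RingHom.ker π') (χ.comp (heckePoly N ⊤ O S)) fun p hp => hker hp).comp
      (Ideal.quotientKerAlgEquivOfSurjective hπ').symm.toAlgHom
  refine ⟨χ', fun ℓ hℓ => ?_⟩
  rw [← show π' (.X ℓ) = Tgen N' ⊤ O S ℓ from MvPolynomial.aeval_X _ ℓ]
  simp only [χ', AlgHom.comp_apply]
  rw [show (Ideal.quotientKerAlgEquivOfSurjective hπ').symm.toAlgHom (π' (.X ℓ)) =
      Ideal.Quotient.mk _ (.X ℓ) from
    (Ideal.quotientKerAlgEquivOfSurjective hπ').injective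
      (((Ideal.quotientKerAlgEquivOfSurjective hπ').apply_symm_apply _).trans (by simp))]
  show χ (heckePoly N ⊤ O S (.X ℓ)) = c ℓ
  rw [show heckePoly N ⊤ O S (.X ℓ) = Tgen N ⊤ O S ℓ from MvPolynomial.aeval_X _ ℓ, hχ ℓ hℓ]

/-- Maps commuting with the operators away from `S` commute with the idempotents. -/
theorem sysIdem_intertwine {N N' : ℕ} [NeZero N] [NeZero N'] (h : HasSys S c N) (h' : HasSys S c N')
    (f : Hom1 (GamH N ⊤) O →ₗ[O] Hom1 (GamH N' ⊤) O)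
    (hint : ∀ ℓ : Nat.Primes, ℓ ∉ S → ∀ z,
      f ((Tc N ⊤ (ℓ : ℕ)).act z) = (Tc N' ⊤ (ℓ : ℕ)).act (f z))
    (z : Hom1 (GamH N ⊤) O) : f (sysIdem S c N z) = sysIdem S c N' (f z) := by
  have := heckeAlg_finite N ⊤ O S
  have := heckeAlg_finite N' ⊤ O S
  obtain ⟨χ, e, hχ, he, hee⟩ := exists_sysPiece h
  obtain ⟨χ', e', hχ', he', hee'⟩ := exists_sysPiece h'
  rw [← hee, ← hee']
  refine piece_intertwine (Tgen N ⊤ O S) (Tgen N' ⊤ O S) (mem_adjoin_Tgen N O S)
    (mem_adjoin_Tgen N' O S) (heckeAlg N ⊤ O S).val (heckeAlg N' ⊤ O S).val f (fun ℓ z => ?_)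
    (hχ.eq_on_gens hχ') he he' z
  show f ((Tgen N ⊤ O S ℓ).1 z) = (Tgen N' ⊤ O S ℓ).1 (f z)
  by_cases hℓ : ℓ ∈ S
  · rw [Tgen_apply_mem N ⊤ O S hℓ, Tgen_apply_mem N' ⊤ O S hℓ, map_zero]
  · rw [Tgen_apply N ⊤ O S hℓ, Tgen_apply N' ⊤ O S hℓ, hint ℓ hℓ]

/-- A non-Eisenstein operator away from `S` is invertible on the system. -/
theorem exists_sys_inverse {N : ℕ} [NeZero N] {ℓ : Nat.Primes} (hℓ : ℓ ∉ S)
    (hc : c ℓ ≠ ((ℓ : ℕ) : ResidueField O) + 1) :
    ∃ s : heckeAlg N ⊤ O S, ∀ z,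
      s.1 ((Tc N ⊤ (ℓ : ℕ)).act (sysIdem S c N z) - ((ℓ : ℕ) + 1 : ℕ) • sysIdem S c N z) =
        sysIdem S c N z := by
  by_cases h : HasSys S c N
  · obtain ⟨χ, e, hχ, he, hee⟩ := exists_sysPiece h
    obtain ⟨s, hs⟩ := he.inv (Tgen N ⊤ O S ℓ - ((ℓ : ℕ) + 1 : ℕ)) (by
      rw [map_sub, map_natCast, sub_ne_zero, hχ ℓ hℓ, Nat.cast_add, Nat.cast_one]
      exact hc)
    refine ⟨s, fun z => ?_⟩
    rw [← hee]
    have h1 := LinearMap.congr_fun (congrArg Subtype.val hs) z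
    refine Eq.trans ?_ h1
    simp [Tgen_apply N ⊤ O S hℓ, Module.End.natCast_apply, add_smul]
  · exact ⟨0, fun z => by rw [sysIdem_of_not S c h]; rfl⟩

/-- The system is parabolic. -/
theorem sysIdem_mem_Par (hNE : ∀ L : ℕ, L ≠ 0 → ∃ ℓ : Nat.Primes, ¬ (ℓ : ℕ) ∣ L ∧
      ((ℓ : ℕ) : ZMod L) = 1 ∧ c ℓ ≠ ((ℓ : ℕ) : ResidueField O) + 1)
    (N : ℕ) [NeZero N] (z : Hom1 (GamH N ⊤) O) : sysIdem S c N z ∈ Par (GamH N ⊤) O := by
  obtain ⟨ℓ, hℓL, hℓ1, hℓc⟩ := hNE (N * ∏ r ∈ S, (r : ℕ))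
    (mul_ne_zero (NeZero.ne N) (Finset.prod_ne_zero_iff.2 fun r _ => r.2.ne_zero))
  have hℓN : ¬ (ℓ : ℕ) ∣ N := fun h => hℓL (h.mul_right _)
  have hℓS : ℓ ∉ S := fun h => hℓL ((Finset.dvd_prod_of_mem _ h).mul_left N)
  have hℓ1' : ((ℓ : ℕ) : ZMod N) = 1 := by
    simpa using congrArg (ZMod.castHom (dvd_mul_right N (∏ r ∈ S, (r : ℕ))) (ZMod N)) hℓ1
  obtain ⟨s, hs⟩ := exists_sys_inverse (N := N) (c := c) hℓS hℓc
  have hT : Tgen N ⊤ O S ℓ * s = s * Tgen N ⊤ O S ℓ := mul_comm _ _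
  have hTs : ∀ w, (Tc N ⊤ (ℓ : ℕ)).act (s.1 w) = s.1 ((Tc N ⊤ (ℓ : ℕ)).act w) := fun w => by
    rw [← Tgen_apply N ⊤ O S hℓS, ← Tgen_apply N ⊤ O S hℓS]
    exact LinearMap.congr_fun (congrArg Subtype.val hT) w
  rw [← hs z, map_sub, map_nsmul, ← hTs]
  exact Tc_sub_mem_Par hℓ1' hℓN _

end sys

end FA.HeckeH1

end
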