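import Fermat.Agent.HeckeH1.Points
import Fermat.Agent.HeckeH1.Frame
import Fermat.Agent.HeckeH1.PieceMaps
import Fermat.Agent.HeckeH1.DiamondDegeneracy

/-!
Squarefree families of levels `L₀ ∏ q` and the action of the good algebra on a frame.
-/

set_option autoImplicit false

noncomputable section

namespace FA.HeckeH1

open IsLocalRing
open scoped MatrixGroups

section goodAct

variable {M : ℕ} [NeZero M] {H : Subgroup (ZMod M)ˣ} {O : Type} [CommRing O] {R : Type} [CommRing R]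
  [Algebra O R] {ρ : R →ₐ[O] Module.End O (Hom1 (GamH M H) O)} (F : Frame ρ)
  (hρ : ∀ a r x, goodOp M H O a (ρ r x) = ρ r (goodOp M H O a x))
  (he : ∀ a x, goodOp M H O a (F.e x) = F.e (goodOp M H O a x))

/-- The algebra of a frame acting on its coordinates. -/
def goodAct : GoodAlg F.e →ₐ[O] Module.End R (Fin F.d → R) :=
  Ideal.Quotient.liftₐ (annE F.e) (F.act (goodOp M H O) hρ he) fun a ha =>
    (F.act_eq_zero_iff (goodOp M H O) hρ he a).2 ha

theorem goodAct_mk (a : pairGood M H O) :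
    goodAct F hρ he (Ideal.Quotient.mk (annE F.e) a) = F.act (goodOp M H O) hρ he a := rfl

theorem goodAct_apply (a : pairGood M H O) (x : Fin F.d → R) :
    goodAct F hρ he (Ideal.Quotient.mk (annE F.e) a) x = F.coord (goodOp M H O a (F.emb x)) := rfl

theorem goodAct_injective : Function.Injective (goodAct F hρ he) := by
  rw [injective_iff_map_eq_zero]
  intro b hb
  obtain ⟨a, rfl⟩ := Ideal.Quotient.mk_surjective b
  exact Ideal.Quotient.eq_zero_iff_mem.2 ((F.act_eq_zero_iff (goodOp M H O) hρ he a).1 hb)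

/-- Transferred maps intertwine Hecke elements of the two algebras. -/
theorem transfer_goodAct {M' : ℕ} [NeZero M'] {H' : Subgroup (ZMod M')ˣ}
    {ρ' : R →ₐ[O] Module.End O (Hom1 (GamH M' H') O)} (F' : Frame ρ')
    (hρ' : ∀ a r x, goodOp M' H' O a (ρ' r x) = ρ' r (goodOp M' H' O a x))
    (he' : ∀ a x, goodOp M' H' O a (F'.e x) = F'.e (goodOp M' H' O a x))
    (f : Hom1 (GamH M H) O →ₗ[O] Hom1 (GamH M' H') O) (hf : ∀ r x, f (ρ r x) = ρ' r (f x))
    (a : pairGood M H O) (a' : pairGood M' H' O)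
    (hint : ∀ z, f (goodOp M H O a z) = goodOp M' H' O a' (f z)) (x : Fin F.d → R) :
    F.transfer F' f hf (goodAct F hρ he (Ideal.Quotient.mk _ a) x) =
      goodAct F' hρ' he' (Ideal.Quotient.mk _ a') (F.transfer F' f hf x) :=
  F.transfer_act F' (goodOp M H O) hρ he (goodOp M' H' O) hρ' he' f hf a a' hint x

end goodAct

section coreAlg

variable {M : ℕ} [NeZero M] {H : Subgroup (ZMod M)ˣ} {O : Type} [CommRing O]

/-- The subalgebra of the diamonds and of the good operators at the primes of `P`. -/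
def coreAlg (e : Module.End O (Hom1 (GamH M H) O)) (P : Set ℕ) : Subalgebra O (GoodAlg e) :=
  Algebra.adjoin O ({y | ∃ ℓ : GP M, ℓ.1 ∈ P ∧ y = goodT e ℓ} ∪ Set.range (goodDia e))

theorem goodT_mem_coreAlg (e : Module.End O (Hom1 (GamH M H) O)) {P : Set ℕ} (ℓ : GP M)
    (h : ℓ.1 ∈ P) : goodT e ℓ ∈ coreAlg e P :=
  Algebra.subset_adjoin (Or.inl ⟨ℓ, h, rfl⟩)

theorem goodDia_mem_coreAlg (e : Module.End O (Hom1 (GamH M H) O)) (P : Set ℕ)
    (x : (ZMod M)ˣ ⧸ H) : goodDia e x ∈ coreAlg e P :=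
  Algebra.subset_adjoin (Or.inr ⟨x, rfl⟩)

end coreAlg

section scalars

variable {O : Type} [CommRing O] {X X' : Type} [AddCommGroup X] [Module O X] [AddCommGroup X']
  [Module O X']

theorem scalars_apply (r : O) (x : X) : Frame.scalarsHom O X r x = r • x :=
  rfl

/-- Linear maps commute with scalars. -/
theorem scalars_comm (f : X →ₗ[O] X') (r : O) (x : X) :
    f (Frame.scalarsHom O X r x) = Frame.scalarsHom O X' r (f x) := by
  rw [scalars_apply, scalars_apply, map_smul]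

end scalars

/-- The levels `L₀ ∏_{x ∈ U} qn x`. -/
structure LevelSet {X : Type} [DecidableEq X] (qn : X → ℕ) (bad : Finset ℕ) where
  /-- the level without the removable primes -/
  L0 : ℕ
  /-- the primes omitted from the residual system -/
  S : Finset Nat.Primes
  pos : L0 ≠ 0
  prime : ∀ x, (qn x).Prime
  inj : Function.Injective qn
  not_dvd : ∀ x, ¬ qn x ∣ L0
  mem_S : ∀ x, (⟨qn x, prime x⟩ : Nat.Primes) ∈ S
  mem_bad : ∀ ℓ : ℕ, ℓ.Prime → ℓ ∣ L0 → ℓ ∈ bad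
  qn_bad : ∀ x, qn x ∈ bad

namespace LevelSet

variable {X : Type} [DecidableEq X] {qn : X → ℕ} {bad : Finset ℕ} (L : LevelSet qn bad)

/-- The level of `U`. -/
def lvl (U : Finset X) : ℕ := L.L0 * ∏ x ∈ U, qn x

instance lvl_neZero (U : Finset X) : NeZero (L.lvl U) :=
  ⟨mul_ne_zero L.pos (Finset.prod_ne_zero_iff.2 fun x _ => (L.prime x).ne_zero)⟩

theorem dvd_lvl (U : Finset X) : L.L0 ∣ L.lvl U := dvd_mul_right _ _

theorem lvl_erase {U : Finset X} {x : X} (hx : x ∈ U) : L.lvl U = L.lvl (U.erase x) * qn x := by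
  rw [lvl, lvl, ← Finset.prod_erase_mul U qn hx, mul_assoc]

theorem prime_dvd_lvl {U : Finset X} {ℓ : ℕ} (hℓ : ℓ.Prime) (h : ℓ ∣ L.lvl U) :
    ℓ ∣ L.L0 ∨ ∃ x ∈ U, ℓ = qn x := by
  rcases hℓ.dvd_mul.1 h with h | h
  · exact Or.inl h
  · obtain ⟨x, hx, hd⟩ := (Prime.dvd_finsetProd_iff hℓ.prime _).1 h
    exact Or.inr ⟨x, hx, (Nat.prime_dvd_prime_iff_eq hℓ (L.prime x)).1 hd⟩

theorem qn_not_dvd {U : Finset X} {x : X} (hx : x ∉ U) : ¬ qn x ∣ L.lvl U := fun h => by
  rcases L.prime_dvd_lvl (L.prime x) h with h | ⟨y, hy, e⟩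
  · exact L.not_dvd x h
  · exact hx (L.inj e ▸ hy)

theorem not_dvd_of_not_bad {ℓ : ℕ} (hℓ : ℓ.Prime) (hb : ℓ ∉ bad) (U : Finset X) :
    ¬ ℓ ∣ L.lvl U := fun h => by
  rcases L.prime_dvd_lvl hℓ h with h | ⟨y, -, e⟩
  · exact hb (L.mem_bad ℓ hℓ h)
  · exact hb (e ▸ L.qn_bad y)

include L in
theorem ne_qn_of_not_bad {ℓ : ℕ} (hb : ℓ ∉ bad) (x : X) : ℓ ≠ qn x := fun e =>
  hb (e ▸ L.qn_bad x)

include L in
theorem ne_qn_of_not_mem (x : X) (ℓ : Nat.Primes) (h : ℓ ∉ L.S) : (ℓ : ℕ) ≠ qn x := fun e =>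
  h (by rw [show ℓ = ⟨qn x, L.prime x⟩ from Subtype.ext e]; exact L.mem_S x)

/-- The primes whose operators enter the algebras of the levels: those outside `bad` and the
removable ones. -/
def core (_L : LevelSet qn bad) : Set ℕ := {ℓ | ℓ ∈ bad → ∃ x, qn x = ℓ}

include L in
theorem core_of_not_bad {ℓ : ℕ} (hb : ℓ ∉ bad) : ℓ ∈ L.core := fun h => absurd h hb

theorem qn_mem_core (x : X) : qn x ∈ L.core := fun _ => ⟨x, rfl⟩

/-- Removing one prime is a step. -/
theorem isStep {U : Finset X} {x : X} (hx : x ∈ U) :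
    IsStep (L.lvl (U.erase x)) (qn x) (⊤ : Subgroup (ZMod (L.lvl (U.erase x)))ˣ) (L.lvl U)
      (⊤ : Subgroup (ZMod (L.lvl U))ˣ) where
  not_dvd := L.qn_not_dvd (Finset.notMem_erase x U)
  eq := L.lvl_erase hx
  dvd := ⟨qn x, L.lvl_erase hx⟩
  mem _ := iff_of_true (Subgroup.mem_top _) (Subgroup.mem_top _)

end LevelSet

end FA.HeckeH1

end
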