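import Fermat.Agent.RT.Tower.Defs
import Fermat.Agent.HeckeH1.LevelSet
import Fermat.Agent.HeckeH1.BaseIhara

/-!
The Hecke modules of a residual system at the levels `L₀ ∏ q`, with the degeneracy maps, and the
two residual statements for these.
-/

set_option autoImplicit false

noncomputable section

namespace FA.HeckeH1

open IsLocalRing
open scoped MatrixGroups

section base

variable {O : Type} [CommRing O] [IsDomain O] [IsDiscreteValuationRing O]
  [IsAdicComplete (maximalIdeal O) O] [CharZero O] {X : Type} [DecidableEq X] {qn : X → ℕ}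
  {bad : Finset ℕ}

namespace LevelSet

variable (L : LevelSet qn bad) (c : Nat.Primes → ResidueField O)

/-- The frame of the system at a level. -/
def frame (U : Finset X) : Frame (Frame.scalarsHom O (Hom1 (GamH (L.lvl U) ⊤) O)) :=
  sysFrame L.S c (L.lvl U)

theorem frame_e (U : Finset X) : (L.frame c U).e = sysIdem L.S c (L.lvl U) := rfl

/-- The algebra of the system at a level. -/
abbrev alg (U : Finset X) : Type := coreAlg (L.frame c U).e L.core

instance algCommRing (U : Finset X) : CommRing (L.alg c U) := inferInstance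

instance algAlgebra (U : Finset X) : Algebra O (L.alg c U) := inferInstance

omit [IsDomain O] [IsDiscreteValuationRing O] [IsAdicComplete (maximalIdeal O) O] [CharZero O] in
theorem goodOp_scalars (U : Finset X) (a : pairGood (L.lvl U) ⊤ O) (r : O)
    (x : Hom1 (GamH (L.lvl U) ⊤) O) :
    goodOp (L.lvl U) ⊤ O a (Frame.scalarsHom O _ r x) =
      Frame.scalarsHom O _ r (goodOp (L.lvl U) ⊤ O a x) :=
  scalars_comm _ r x

theorem goodOp_frame_e (U : Finset X) (a : pairGood (L.lvl U) ⊤ O)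
    (x : Hom1 (GamH (L.lvl U) ⊤) O) :
    goodOp (L.lvl U) ⊤ O a ((L.frame c U).e x) = (L.frame c U).e (goodOp (L.lvl U) ⊤ O a x) :=
  goodOp_comm _ _ _ a (pair_mem_of_mem _ _ _ (sysIdem_mem (S := L.S) (c := c) (L.lvl U))) x

/-- The action on the coordinates. -/
def actB (U : Finset X) : L.alg c U →ₐ[O] Module.End O (Fin (L.frame c U).d → O) :=
  (goodAct (L.frame c U) (L.goodOp_scalars U) (L.goodOp_frame_e c U)).comp
    (coreAlg (L.frame c U).e L.core).val

open scoped Classical in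
/-- The Hecke elements. -/
def TB (U : Finset X) (ℓ : ℕ) : L.alg c U :=
  if h : (ℓ.Prime ∧ ¬ ℓ ∣ L.lvl U) ∧ ℓ ∈ L.core then
    ⟨goodT (L.frame c U).e ⟨ℓ, h.1⟩, goodT_mem_coreAlg _ _ h.2⟩
  else 0

theorem TB_val (U : Finset X) {ℓ : ℕ} (hℓ : ℓ.Prime) (h : ¬ ℓ ∣ L.lvl U) (hc : ℓ ∈ L.core) :
    (L.TB c U ℓ).1 = goodT (L.frame c U).e ⟨ℓ, hℓ, h⟩ := by
  rw [TB, dif_pos ⟨⟨hℓ, h⟩, hc⟩]

theorem actB_TB (U : Finset X) {ℓ : ℕ} [Fact ℓ.Prime] (h : ¬ ℓ ∣ L.lvl U) (hc : ℓ ∈ L.core)
    (a : Fin (L.frame c U).d → O) :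
    L.actB c U (L.TB c U ℓ) a =
      (L.frame c U).coord ((Tc (L.lvl U) ⊤ ℓ).act ((L.frame c U).emb a)) := by
  rw [actB, AlgHom.comp_apply, Subalgebra.coe_val, L.TB_val c U Fact.out h hc, goodT,
    goodAct_apply, goodOp_goodTp]

section step

variable {U : Finset X} {x : X} (hx : x ∈ U)

/-- The first map up. -/
def up₁ : (Fin (L.frame c (U.erase x)).d → O) →ₗ[O] (Fin (L.frame c U).d → O) :=
  haveI : Fact (qn x).Prime := ⟨L.prime x⟩
  (L.frame c (U.erase x)).transfer (L.frame c U) (L.isStep hx).res.actLin (scalars_comm _)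

/-- The second map up. -/
def up₂ : (Fin (L.frame c (U.erase x)).d → O) →ₗ[O] (Fin (L.frame c U).d → O) :=
  haveI : Fact (qn x).Prime := ⟨L.prime x⟩
  (L.frame c (U.erase x)).transfer (L.frame c U) (L.isStep hx).I2'.actLin (scalars_comm _)

/-- The first map down. -/
def down₁ : (Fin (L.frame c U).d → O) →ₗ[O] (Fin (L.frame c (U.erase x)).d → O) :=
  (L.frame c U).transfer (L.frame c (U.erase x))
    (Corr.cores (Γ := GamH (L.lvl (U.erase x)) ⊤) (Γ' := GamH (L.lvl U) ⊤)).actLin (scalars_comm _)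

/-- The second map down. -/
def down₂ : (Fin (L.frame c U).d → O) →ₗ[O] (Fin (L.frame c (U.erase x)).d → O) :=
  haveI : Fact (qn x).Prime := ⟨L.prime x⟩
  (L.frame c U).transfer (L.frame c (U.erase x)) (L.isStep hx).J2'.actLin (scalars_comm _)

omit [IsAdicComplete (maximalIdeal O) O] [CharZero O] [IsDiscreteValuationRing O] [IsDomain O] in
theorem subsingleton_dia :
    Subsingleton ((ZMod (L.lvl (U.erase x)))ˣ ⧸ (⊤ : Subgroup (ZMod (L.lvl (U.erase x)))ˣ)) :=
  QuotientGroup.subsingleton_quotient_top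

include hx in
/-- An injective map commuting with the operators fixes the image of the piece. -/
theorem up_stable (f : Hom1 (GamH (L.lvl (U.erase x)) ⊤) O →ₗ[O] Hom1 (GamH (L.lvl U) ⊤) O)
    (hf : ∀ ℓ : Nat.Primes, ℓ ∉ L.S → ∀ z,
      f ((Tc (L.lvl (U.erase x)) ⊤ (ℓ : ℕ)).act z) = (Tc (L.lvl U) ⊤ (ℓ : ℕ)).act (f z))
    (z : Hom1 (GamH (L.lvl (U.erase x)) ⊤) O) :
    (L.frame c U).e (f ((L.frame c (U.erase x)).e z)) = f ((L.frame c (U.erase x)).e z) := by
  have : Fact (qn x).Prime := ⟨L.prime x⟩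
  rw [L.frame_e c U, L.frame_e c (U.erase x)]
  by_cases h : HasSys L.S c (L.lvl (U.erase x))
  · have h' : HasSys L.S c (L.lvl U) := h.of_injective (L.isStep hx).res.actLin
      (res_injective_of_finite (L.isStep hx).le)
      fun ℓ hℓ z => (L.isStep hx).res_Tc (L.ne_qn_of_not_mem x ℓ hℓ) z
    rw [← sysIdem_intertwine h h' f hf, sysIdem_idem]
  · rw [sysIdem_of_not _ _ h]
    simp

theorem res_stable (z : Hom1 (GamH (L.lvl (U.erase x)) ⊤) O) :
    haveI : Fact (qn x).Prime := ⟨L.prime x⟩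
    (L.frame c U).e ((L.isStep hx).res.actLin ((L.frame c (U.erase x)).e z)) =
      (L.isStep hx).res.actLin ((L.frame c (U.erase x)).e z) :=
  haveI : Fact (qn x).Prime := ⟨L.prime x⟩
  L.up_stable c hx _ (fun ℓ hℓ z => ((L.isStep hx).res_Tc (L.ne_qn_of_not_mem x ℓ hℓ) z).symm) z

theorem I2_stable (z : Hom1 (GamH (L.lvl (U.erase x)) ⊤) O) :
    haveI : Fact (qn x).Prime := ⟨L.prime x⟩
    (L.frame c U).e ((L.isStep hx).I2'.actLin ((L.frame c (U.erase x)).e z)) =
      (L.isStep hx).I2'.actLin ((L.frame c (U.erase x)).e z) :=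
  haveI : Fact (qn x).Prime := ⟨L.prime x⟩
  L.up_stable c hx _ (fun ℓ hℓ z => ((L.isStep hx).I2_Tc (L.ne_qn_of_not_mem x ℓ hℓ) z).symm) z

theorem down₁_up₁ (a : Fin (L.frame c (U.erase x)).d → O) :
    L.down₁ c (x := x) (L.up₁ c hx a) = (qn x + 1 : ℕ) • a := by
  have : Fact (qn x).Prime := ⟨L.prime x⟩
  rw [down₁, up₁, Frame.transfer_comp _ _ _ _ _ _ _ (L.res_stable c hx), Corr.actLin_apply,
    Corr.actLin_apply, (L.isStep hx).cores_res', map_nsmul, Frame.coord_emb]

theorem down₁_up₂ (b : Fin (L.frame c (U.erase x)).d → O) :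
    L.down₁ c (x := x) (L.up₂ c hx b) = L.actB c (U.erase x) (L.TB c (U.erase x) (qn x)) b := by
  have : Fact (qn x).Prime := ⟨L.prime x⟩
  have := L.subsingleton_dia (U := U) (x := x)
  rw [down₁, up₂, Frame.transfer_comp _ _ _ _ _ _ _ (L.I2_stable c hx), Corr.actLin_apply,
    Corr.actLin_apply, (L.isStep hx).cores_I2',
    Subsingleton.elim (qDia (L.lvl (U.erase x)) ⊤ (L.isStep hx).not_dvd)⁻¹ 1, map_one,
    Module.End.one_apply, L.actB_TB c (U.erase x) (L.isStep hx).not_dvd (L.qn_mem_core x)]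

theorem down₂_up₁ (a : Fin (L.frame c (U.erase x)).d → O) :
    L.down₂ c hx (L.up₁ c hx a) = L.actB c (U.erase x) (L.TB c (U.erase x) (qn x)) a := by
  have : Fact (qn x).Prime := ⟨L.prime x⟩
  rw [down₂, up₁, Frame.transfer_comp _ _ _ _ _ _ _ (L.res_stable c hx), Corr.actLin_apply,
    Corr.actLin_apply, (L.isStep hx).J2_res', L.actB_TB c (U.erase x) (L.isStep hx).not_dvd (L.qn_mem_core x)]

theorem down₂_up₂ (b : Fin (L.frame c (U.erase x)).d → O) :
    L.down₂ c hx (L.up₂ c hx b) = (qn x + 1 : ℕ) • b := by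
  have : Fact (qn x).Prime := ⟨L.prime x⟩
  rw [down₂, up₂, Frame.transfer_comp _ _ _ _ _ _ _ (L.I2_stable c hx), Corr.actLin_apply,
    Corr.actLin_apply, (L.isStep hx).J2_I2', map_nsmul, Frame.coord_emb]

theorem transfer_TB {V W : Finset X} (f : Hom1 (GamH (L.lvl V) ⊤) O →ₗ[O] Hom1 (GamH (L.lvl W) ⊤) O)
    {ℓ : ℕ} [Fact ℓ.Prime] (hc : ℓ ∈ L.core) (hV : ¬ ℓ ∣ L.lvl V) (hW : ¬ ℓ ∣ L.lvl W)
    (hint : ∀ z, f ((Tc (L.lvl V) ⊤ ℓ).act z) = (Tc (L.lvl W) ⊤ ℓ).act (f z))
    (a : Fin (L.frame c V).d → O) :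
    (L.frame c V).transfer (L.frame c W) f (scalars_comm _) (L.actB c V (L.TB c V ℓ) a) =
      L.actB c W (L.TB c W ℓ) ((L.frame c V).transfer (L.frame c W) f (scalars_comm _) a) := by
  simp only [actB, AlgHom.comp_apply, Subalgebra.coe_val, L.TB_val c V Fact.out hV hc,
    L.TB_val c W Fact.out hW hc]
  exact transfer_goodAct _ _ _ _ _ _ f _ _ _ hint a

end step

/-- **The base levels.** -/
def baseLevels : FA.RT.HeckeLevels O O X qn bad where
  M U := Fin (L.frame c U).d → O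
  A U := L.alg c U
  act U := L.actB c U
  T U ℓ := L.TB c U ℓ
  up U x := if hx : x ∈ U then (L.up₁ c hx).coprod (L.up₂ c hx) else 0
  down U x := if hx : x ∈ U then (L.down₁ c (x := x)).prod (L.down₂ c hx) else 0
  up_comm U x hx ℓ hℓ hb a b := by
    have : Fact ℓ.Prime := ⟨hℓ⟩
    have : Fact (qn x).Prime := ⟨L.prime x⟩
    have h₁ := L.not_dvd_of_not_bad hℓ hb (U.erase x)
    have h₂ := L.not_dvd_of_not_bad hℓ hb U
    have hne := L.ne_qn_of_not_bad hb x
    simp only [dif_pos hx, LinearMap.coprod_apply, map_add]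
    exact congrArg₂ (· + ·)
      (L.transfer_TB c _ (L.core_of_not_bad hb) h₁ h₂ (fun z => ((L.isStep hx).res_Tc hne z).symm) a)
      (L.transfer_TB c _ (L.core_of_not_bad hb) h₁ h₂ (fun z => ((L.isStep hx).I2_Tc hne z).symm) b)
  down_comm U x hx ℓ hℓ hb z := by
    have : Fact ℓ.Prime := ⟨hℓ⟩
    have : Fact (qn x).Prime := ⟨L.prime x⟩
    have h₁ := L.not_dvd_of_not_bad hℓ hb (U.erase x)
    have h₂ := L.not_dvd_of_not_bad hℓ hb U
    have hne := L.ne_qn_of_not_bad hb x
    simp only [dif_pos hx, LinearMap.prod_apply, Function.prod_apply]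
    exact Prod.ext (L.transfer_TB c _ (L.core_of_not_bad hb) h₂ h₁ (fun z => (L.isStep hx).cores_Tc hne z) z)
      (L.transfer_TB c _ (L.core_of_not_bad hb) h₂ h₁ (fun z => (L.isStep hx).J2_Tc' hne z) z)
  down_up U x hx a b := by
    simp only [dif_pos hx, LinearMap.coprod_apply, LinearMap.prod_apply, Function.prod_apply,
      map_add, L.down₁_up₁, L.down₁_up₂, L.down₂_up₁, L.down₂_up₂, Prod.mk_add_mk]

theorem baseLevels_act_injective (U : Finset X) : Function.Injective ((L.baseLevels c).act U) :=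
  (goodAct_injective _ _ _).comp Subtype.val_injective

variable (hNE : ∀ N : ℕ, N ≠ 0 → ∃ ℓ : Nat.Primes, ¬ (ℓ : ℕ) ∣ N ∧
  ((ℓ : ℕ) : ZMod N) = 1 ∧ c ℓ ≠ ((ℓ : ℕ) : ResidueField O) + 1)
  {p : ℕ} (hp : p.Prime) [CharP (ResidueField O) p]

include hNE hp in
theorem up_residual_coord {U : Finset X} {x : X} (hx : x ∈ U)
    (a b : Fin (L.frame c (U.erase x)).d → O)
    (h : L.up₁ c hx a + L.up₂ c hx b ∈
      maximalIdeal O • (⊤ : Submodule O (Fin (L.frame c U).d → O))) :
    (a, b) ∈ maximalIdeal O • (⊤ : Submodule O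
      ((Fin (L.frame c (U.erase x)).d → O) × (Fin (L.frame c (U.erase x)).d → O))) := by
  have : Fact (qn x).Prime := ⟨L.prime x⟩
  let F := L.frame c (U.erase x)
  let F' := L.frame c U
  have h' := Submodule.smul_top_le_comap_smul_top (maximalIdeal O) F'.emb h
  rw [Submodule.mem_comap, map_add, up₁, up₂, Frame.emb_transfer, Frame.emb_transfer] at h'
  have e₁ := L.res_stable c hx (F.emb a)
  have e₂ := L.I2_stable c hx (F.emb b)
  rw [Frame.e_emb] at e₁ e₂
  rw [e₁, e₂, Corr.actLin_apply, Corr.actLin_apply] at h'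
  obtain ⟨hA, hB⟩ := sys_up_residual hNE hp (L.isStep hx) (F.emb a) (F.emb b) (F.e_emb a)
    (F.e_emb b) h'
  have ha := Submodule.smul_top_le_comap_smul_top (maximalIdeal O)
    ((LinearMap.inl O (Fin F.d → O) (Fin F.d → O)).comp F.coord) hA
  have hb := Submodule.smul_top_le_comap_smul_top (maximalIdeal O)
    ((LinearMap.inr O (Fin F.d → O) (Fin F.d → O)).comp F.coord) hB
  rw [Submodule.mem_comap, LinearMap.comp_apply, F.coord_emb] at ha hb
  have := Submodule.add_mem _ ha hb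
  simpa [F] using this

include hNE hp in
theorem down_residual_coord {U : Finset X} {x : X} (hx : x ∈ U)
    (a b : Fin (L.frame c (U.erase x)).d → O) :
    ∃ w, (L.down₁ c (x := x) w - a, L.down₂ c hx w - b) ∈ maximalIdeal O • (⊤ : Submodule O
      ((Fin (L.frame c (U.erase x)).d → O) × (Fin (L.frame c (U.erase x)).d → O))) := by
  have : Fact (qn x).Prime := ⟨L.prime x⟩
  let F := L.frame c (U.erase x)
  let F' := L.frame c U
  obtain ⟨W, hW, hmem⟩ := sys_down_residual hNE hp (L.isStep hx) (L.ne_qn_of_not_mem x)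
    (F.emb a) (F.emb b) (F.e_emb a) (F.e_emb b)
  refine ⟨F'.coord W, ?_⟩
  have h' := Submodule.smul_top_le_comap_smul_top (maximalIdeal O) (F.coord.prodMap F.coord) hmem
  rw [Submodule.mem_comap, LinearMap.prodMap_apply, map_sub, map_sub, F.coord_emb, F.coord_emb]
    at h'
  have hW' : F'.emb (F'.coord W) = W := (F'.emb_coord W).trans hW
  rw [down₁, down₂, Frame.transfer_apply, Frame.transfer_apply, hW', Corr.actLin_apply,
    Corr.actLin_apply]
  exact h'

theorem baseLevels_up_apply {U : Finset X} {x : X} (hx : x ∈ U)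
    (a b : Fin (L.frame c (U.erase x)).d → O) :
    (L.baseLevels c).up U x (a, b) = L.up₁ c hx a + L.up₂ c hx b := by
  show (if hx : x ∈ U then (L.up₁ c hx).coprod (L.up₂ c hx) else 0) (a, b) = _
  rw [dif_pos hx]
  rfl

theorem baseLevels_down_apply {U : Finset X} {x : X} (hx : x ∈ U)
    (w : Fin (L.frame c U).d → O) :
    (L.baseLevels c).down U x w = (L.down₁ c (x := x) w, L.down₂ c hx w) := by
  show (if hx : x ∈ U then (L.down₁ c (x := x)).prod (L.down₂ c hx) else 0) w = _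
  rw [dif_pos hx]
  rfl

include hNE hp in
theorem baseLevels_up_residual (U : Finset X) (x : X) (hx : x ∈ U)
    (z : (L.baseLevels c).M (U.erase x) × (L.baseLevels c).M (U.erase x))
    (h : (L.baseLevels c).up U x z ∈ maximalIdeal O • (⊤ : Submodule O ((L.baseLevels c).M U))) :
    z ∈ maximalIdeal O •
      (⊤ : Submodule O ((L.baseLevels c).M (U.erase x) × (L.baseLevels c).M (U.erase x))) :=
  L.up_residual_coord c hNE hp hx z.1 z.2 (L.baseLevels_up_apply c hx z.1 z.2 ▸ h)

include hNE hp in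
theorem baseLevels_down_residual (U : Finset X) (x : X) (hx : x ∈ U)
    (z : (L.baseLevels c).M (U.erase x) × (L.baseLevels c).M (U.erase x)) :
    ∃ w, (L.baseLevels c).down U x w - z ∈ maximalIdeal O •
      (⊤ : Submodule O ((L.baseLevels c).M (U.erase x) × (L.baseLevels c).M (U.erase x))) :=
  (L.down_residual_coord c hNE hp hx z.1 z.2).imp fun w hw => by
    rw [L.baseLevels_down_apply c hx w]
    exact hw

include hNE in
/-- The pieces are parabolic. -/
theorem frame_mem_Par (U : Finset X) (z : Hom1 (GamH (L.lvl U) ⊤) O) :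
    (L.frame c U).e z ∈ Par (GamH (L.lvl U) ⊤) O := sysIdem_mem_Par hNE _ z

end LevelSet

end base

section setup

open FA.RT

local notation "GQ" => AlgebraicClosure ℚ ≃ₐ[ℚ] AlgebraicClosure ℚ
local notation "M2" => Matrix (Fin 2) (Fin 2)

variable {O : Type} [CommRing O] [IsDomain O] [IsDiscreteValuationRing O]
  [IsAdicComplete (maximalIdeal O) O] [CharZero O] (S : Setup O) {Q : Type} [DecidableEq Q]
  {emb : Q → ↥S.Sig} {bad : Finset ℕ}
  {AtP : ∀ (B : Type) [CommRing B] [IsLocalRing B] [Algebra O B], (GQ →* M2 B) → Prop}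

/-- **The base tower of a non-Eisenstein residual system with separating lifts.** -/
def LevelSet.baseTower (L : LevelSet (fun x => (emb x).1) bad) (c : Nat.Primes → ResidueField O)
    (hNE : ∀ N : ℕ, N ≠ 0 → ∃ ℓ : Nat.Primes, ¬ (ℓ : ℕ) ∣ N ∧
      ((ℓ : ℕ) : ZMod N) = 1 ∧ c ℓ ≠ ((ℓ : ℕ) : ResidueField O) + 1)
    (sep : ∀ U, S.Separation emb (L.baseLevels c) U (S.BaseAllowed AtP)) :
    S.BaseTower Q emb bad AtP :=
  have hp0 : (S.p : ResidueField O) = 0 := by
    rw [← map_natCast (residue O), residue_eq_zero_iff]; exact S.hpO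
  haveI : CharP (ResidueField O) S.p := (CharP.charP_iff_prime_eq_zero S.hp).mpr hp0
  { toHeckeLevels := L.baseLevels c
    act_injective := L.baseLevels_act_injective c
    sep := sep
    up_residual := L.baseLevels_up_residual c hNE S.hp
    down_residual := L.baseLevels_down_residual c hNE S.hp }

end setup

end FA.HeckeH1

end
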