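import Mathlib

/-!
A lattice with an action of a finite abelian `p`-group is free over the group ring as soon as,
modulo the maximal ideal, every invariant is a norm.
-/

set_option autoImplicit false

noncomputable section

namespace FA.HeckeH1

open Finset

section field

variable {k : Type*} [Field k] {p : ℕ} [Fact p.Prime] [CharP k p] {G : Type*} [CommGroup G]
  {V : Type*} [AddCommGroup V] [Module k V]

/-- A `p`-group fixes a nonzero vector of a nonzero space in characteristic `p`. -/
theorem exists_fixed_of_pgroup [Finite G] (hG : IsPGroup p G) (ρ : G →* Module.End k V) {v : V}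
    (hv : v ≠ 0) : ∃ w : V, w ≠ 0 ∧ ∀ g, ρ g w = w := by
  classical
  have := Fintype.ofFinite G
  suffices h : ∀ s : Finset G, ∃ w : V, w ≠ 0 ∧ ∀ g ∈ s, ρ g w = w by
    obtain ⟨w, hw, hwg⟩ := h Finset.univ
    exact ⟨w, hw, fun g => hwg g (Finset.mem_univ g)⟩
  intro s
  induction s using Finset.induction_on with
  | empty => exact ⟨v, hv, by simp⟩
  | @insert g s hgs ih =>
    obtain ⟨w, hw, hws⟩ := ih
    obtain ⟨n, hn⟩ := hG g
    set D : Module.End k V := ρ g - 1
    have hD : D ^ (p ^ n) = 0 := by
      have : Nontrivial V := nontrivial_of_ne v 0 hv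
      have : CharP (Module.End k V) p := charP_of_injective_algebraMap
        (algebraMap k (Module.End k V)).injective p
      rw [sub_pow_char_pow_of_commute _ (h := Commute.one_right (ρ g)), ← map_pow, hn, map_one, one_pow,
        sub_self]
    obtain ⟨j, hj, hj'⟩ : ∃ j, (D ^ j) w ≠ 0 ∧ (D ^ (j + 1)) w = 0 := by
      by_contra hcon
      push Not at hcon
      have hall : ∀ j, (D ^ j) w ≠ 0 := fun j => by
        induction j with
        | zero => simpa using hw
        | succ j ihj => exact hcon j ihj
      exact hall (p ^ n) (by rw [hD]; rfl)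
    refine ⟨(D ^ j) w, hj, fun x hx => ?_⟩
    rcases Finset.mem_insert.1 hx with rfl | hx
    · rw [pow_succ', Module.End.mul_apply, LinearMap.sub_apply, sub_eq_zero] at hj'
      simpa using hj'
    · have hc : Commute (ρ x) (D ^ j) :=
        ((((Commute.all x g).map ρ)).sub_right (Commute.one_right _)).pow_right j
      rw [← Module.End.mul_apply, hc.eq, Module.End.mul_apply, hws x hx]

variable [Fintype G]

/-- **Freeness over a field.** -/
theorem exists_free_basis [FiniteDimensional k V] (hG : IsPGroup p G) (ρ : G →* Module.End k V)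
    (hnorm : ∀ v : V, (∀ g, ρ g v = v) → ∃ u, v = ∑ g, ρ g u) :
    ∃ (d : ℕ) (u : Fin d → V),
      Function.Bijective fun a : Fin d → G → k => ∑ i, ∑ g, a i g • ρ g (u i) := by
  classical
  let I : Submodule k V := ⨅ g, LinearMap.ker (ρ g - 1)
  have hI : ∀ v, v ∈ I ↔ ∀ g, ρ g v = v := fun v => by
    simp [I, Submodule.mem_iInf, sub_eq_zero]
  let b := Module.finBasis k I
  choose u hu using fun i => hnorm (b i : V) ((hI _).1 (b i).2)
  refine ⟨_, u, ?_⟩
  let L : (Fin (Module.finrank k I) → G → k) →ₗ[k] V :=
    { toFun := fun a => ∑ i, ∑ g, a i g • ρ g (u i)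
      map_add' := fun a a' => by simp [add_smul, Finset.sum_add_distrib]
      map_smul' := fun c a => by simp [Finset.smul_sum, smul_smul] }
  change Function.Bijective L
  let sh : G → (Fin (Module.finrank k I) → G → k) → (Fin (Module.finrank k I) → G → k) :=
    fun g a i x => a i (g⁻¹ * x)
  have hsh : ∀ g a, L (sh g a) = ρ g (L a) := fun g a => by
    simp only [L, LinearMap.coe_mk, AddHom.coe_mk, map_sum, map_smul, sh]
    refine Finset.sum_congr rfl fun i _ => ?_
    rw [← Equiv.sum_comp (Equiv.mulLeft g) (fun x => a i (g⁻¹ * x) • ρ x (u i))]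
    refine Finset.sum_congr rfl fun x _ => ?_
    simp [map_mul]
  have hconst : ∀ c : Fin (Module.finrank k I) → k,
      L (fun i _ => c i) = ((∑ i, c i • b i : I) : V) := fun c => by
    simp only [L, LinearMap.coe_mk, AddHom.coe_mk, Submodule.coe_sum, Submodule.coe_smul, hu,
      Finset.smul_sum]
  have hinj : Function.Injective L := by
    rw [← LinearMap.ker_eq_bot]
    by_contra hne
    obtain ⟨a, ha, ha0⟩ := Submodule.exists_mem_ne_zero_of_ne_bot hne
    let σ : G →* Module.End k (LinearMap.ker L) :=
      { toFun := fun g =>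
          { toFun := fun x => ⟨sh g x.1, by
              rw [LinearMap.mem_ker, hsh, show L x.1 = 0 from x.2, map_zero]⟩
            map_add' := fun _ _ => rfl
            map_smul' := fun _ _ => rfl }
        map_one' := LinearMap.ext fun x => Subtype.ext <| funext fun i => funext fun y => by
          simp [sh]
        map_mul' := fun g h => LinearMap.ext fun x => Subtype.ext <| funext fun i => funext fun y => by
          simp [sh, mul_assoc, mul_left_comm h⁻¹ g⁻¹] }
    obtain ⟨⟨w, hw⟩, hw0, hfix⟩ :=
      exists_fixed_of_pgroup hG σ (v := (⟨a, ha⟩ : LinearMap.ker L))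
        (fun h => ha0 (congrArg Subtype.val h))
    have hwc : w = fun i _ => w i 1 := funext fun i => funext fun x => by
      have := congrFun (congrFun (congrArg Subtype.val (hfix x)) i) x
      simpa [σ, sh] using this.symm
    have h0 : L w = 0 := hw
    rw [hwc, hconst, ZeroMemClass.coe_eq_zero] at h0
    have hc := Fintype.linearIndependent_iff.1 b.linearIndependent _ h0
    exact hw0 (Subtype.ext (funext fun i => funext fun x =>
      (congrFun (congrFun hwc i) x).trans (hc i)))
  refine ⟨hinj, ?_⟩
  rw [← LinearMap.range_eq_top]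
  by_contra hne
  obtain ⟨v₀, hv₀⟩ : ∃ v, v ∉ LinearMap.range L := by
    by_contra h
    push Not at h
    exact hne (Submodule.eq_top_iff'.2 h)
  have hst : ∀ g, ∀ w ∈ LinearMap.range L, ρ g w ∈ LinearMap.range L := by
    rintro g _ ⟨a, rfl⟩
    exact ⟨sh g a, hsh g a⟩
  let ρq : G →* Module.End k (V ⧸ LinearMap.range L) :=
    { toFun := fun g => (LinearMap.range L).mapQ (LinearMap.range L) (ρ g) (hst g)
      map_one' := LinearMap.ext fun x => by
        obtain ⟨y, rfl⟩ := Submodule.mkQ_surjective _ x
        simp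
      map_mul' := fun g h => LinearMap.ext fun x => by
        obtain ⟨y, rfl⟩ := Submodule.mkQ_surjective _ x
        simp }
  obtain ⟨w, hw0, hfix⟩ := exists_fixed_of_pgroup hG ρq
    (v := (LinearMap.range L).mkQ v₀) (fun h => hv₀ ((Submodule.Quotient.mk_eq_zero _).1 h))
  obtain ⟨v, rfl⟩ := Submodule.mkQ_surjective _ w
  choose c hc using fun g => LinearMap.mem_range.1
    ((Submodule.Quotient.eq _).1 (show (Submodule.Quotient.mk (ρ g v) : V ⧸ LinearMap.range L) =
      Submodule.Quotient.mk v from hfix g))
  have hcoc : ∀ g h, c (g * h) = c g + sh g (c h) := fun g h => hinj (by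
    rw [map_add, hsh, hc, hc, hc, map_sub, ← Module.End.mul_apply, ← map_mul]
    abel)
  let y : Fin (Module.finrank k I) → G → k := fun i x => -(c x i x)
  have hy : ∀ g, sh g y - y = c g := fun g => funext fun i => funext fun x => by
    have h := congrFun (congrFun (hcoc g (g⁻¹ * x)) i) x
    rw [mul_inv_cancel_left] at h
    simp only [Pi.sub_apply, sh, y, Pi.add_apply] at h ⊢
    rw [h]; ring
  have hinv : v - L y ∈ I := (hI _).2 fun g => by
    rw [map_sub, ← hsh, eq_add_of_sub_eq (hy g), map_add, hc]
    abel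
  refine hw0 ((Submodule.Quotient.mk_eq_zero _).2
    ⟨(fun i _ => b.repr ⟨_, hinv⟩ i) + y, ?_⟩)
  rw [map_add, hconst, b.sum_repr]
  exact sub_add_cancel v (L y)

end field

section combo

variable {O : Type*} [CommRing O] {G : Type*} [Monoid G] {X : Type*} [AddCommGroup X] [Module O X]

/-- The combination map attached to vectors `u`. -/
def combo (ρ : G →* Module.End O X) {d : ℕ} (u : Fin d → X) :
    (Fin d → MonoidAlgebra O G) →ₗ[O] X :=
  ∑ i, (LinearMap.applyₗ (u i)).comp
    ((MonoidAlgebra.lift O (Module.End O X) G ρ).toLinearMap.comp (LinearMap.proj i))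

theorem combo_apply (ρ : G →* Module.End O X) {d : ℕ} (u : Fin d → X)
    (a : Fin d → MonoidAlgebra O G) :
    combo ρ u a = ∑ i, MonoidAlgebra.lift O (Module.End O X) G ρ (a i) (u i) := by
  simp [combo]

theorem lift_one_vec (ρ : G →* Module.End O X) (v : X) :
    MonoidAlgebra.lift O (Module.End O X) G ρ 1 v = v :=
  LinearMap.congr_fun (map_one (MonoidAlgebra.lift O (Module.End O X) G ρ)) v

variable [Fintype G]

theorem lift_apply_vec (ρ : G →* Module.End O X) (a : MonoidAlgebra O G) (x : X) :
    MonoidAlgebra.lift O (Module.End O X) G ρ a x = ∑ g, a.coeff g • ρ g x := by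
  rw [MonoidAlgebra.lift_apply, Finsupp.sum_fintype _ _ (fun g => by simp), LinearMap.sum_apply]
  rfl

/-- The augmentation of a combination is the combination of the augmentations. -/
theorem map_combo {Y : Type*} [AddCommGroup Y] [Module O Y] (ρ : G →* Module.End O X) {d : ℕ}
    (u : Fin d → X) (φ : X →ₗ[O] Y) (hφ : ∀ g x, φ (ρ g x) = φ x)
    (a : Fin d → MonoidAlgebra O G) :
    φ (combo ρ u a) = ∑ i, MonoidAlgebra.lift O O G 1 (a i) • φ (u i) := by
  simp only [combo_apply, lift_apply_vec, map_sum, map_smul, hφ, ← Finset.sum_smul]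
  refine Finset.sum_congr rfl fun i _ => ?_
  rw [MonoidAlgebra.lift_apply, Finsupp.sum_fintype _ _ (fun g => by simp)]
  simp

end combo

section lattice

open IsLocalRing

variable {O : Type*} [CommRing O] [IsLocalRing O] {p : ℕ} [Fact p.Prime]
  {G : Type*} [CommGroup G] [Fintype G] {X : Type*} [AddCommGroup X] [Module O X]
  [Module.Finite O X] [Module.Free O X]

/-- **Freeness of a lattice over the group ring.** -/
theorem exists_bijective_combo [CharP (ResidueField O) p] (hG : IsPGroup p G)
    (ρ : G →* Module.End O X)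
    (hnorm : ∀ v : X, (∀ g, ρ g v - v ∈ maximalIdeal O • (⊤ : Submodule O X)) →
      ∃ u, v - ∑ g, ρ g u ∈ maximalIdeal O • (⊤ : Submodule O X)) :
    ∃ (d : ℕ) (u : Fin d → X), Function.Bijective (combo ρ u) := by
  classical
  let m := maximalIdeal O
  let P : Submodule O X := m • ⊤
  letI : Field (O ⧸ m) := Ideal.Quotient.field m
  have hchar : CharP (O ⧸ m) p := inferInstanceAs (CharP (ResidueField O) p)
  let V := X ⧸ P
  have hsmul : ∀ (c : O) (x : V), (Ideal.Quotient.mk m c) • x = c • x := fun _ _ => rfl
  let ρV : G →* Module.End (O ⧸ m) V :=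
    { toFun := fun g =>
        { toFun := P.mapQ P (ρ g) (Submodule.smul_top_le_comap_smul_top m (ρ g))
          map_add' := map_add _
          map_smul' := fun c x => by
            obtain ⟨c, rfl⟩ := Ideal.Quotient.mk_surjective c
            rw [hsmul, map_smul, RingHom.id_apply, hsmul] }
      map_one' := LinearMap.ext fun x => by
        obtain ⟨y, rfl⟩ := P.mkQ_surjective x
        simp
      map_mul' := fun g h => LinearMap.ext fun x => by
        obtain ⟨y, rfl⟩ := P.mkQ_surjective x
        simp }
  have hρV : ∀ g x, ρV g (P.mkQ x) = P.mkQ (ρ g x) := fun _ _ => rfl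
  have : Module.Finite (O ⧸ m) V := Module.Finite.of_restrictScalars_finite O (O ⧸ m) V
  obtain ⟨d, w, hw⟩ := exists_free_basis (p := p) hG ρV (fun v hv => by
    obtain ⟨x, rfl⟩ := P.mkQ_surjective v
    obtain ⟨u, hu⟩ := hnorm x fun g => (Submodule.Quotient.eq P).1 (hv g)
    refine ⟨P.mkQ u, ?_⟩
    simp only [hρV, ← map_sum]
    exact (Submodule.Quotient.eq P).2 hu)
  choose u hu using fun i => P.mkQ_surjective (w i)
  refine ⟨d, u, ?_⟩
  have hred : ∀ a, P.mkQ (combo ρ u a) =
      ∑ i, ∑ g, Ideal.Quotient.mk m ((a i).coeff g) • ρV g (w i) := fun a => by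
    simp only [combo_apply, lift_apply_vec, map_sum, map_smul, hsmul, ← hu, hρV]
  have hsurj : Function.Surjective (combo ρ u) := by
    rw [← LinearMap.range_eq_top, eq_top_iff]
    refine Submodule.le_of_le_smul_of_le_jacobson_bot (I := m) Module.Finite.fg_top
      (maximalIdeal_le_jacobson _) fun x _ => ?_
    obtain ⟨a, ha⟩ := hw.2 (P.mkQ x)
    choose c hc using fun i g => Ideal.Quotient.mk_surjective (a i g)
    let a' : Fin d → MonoidAlgebra O G := fun i => .ofCoeff (Finsupp.equivFunOnFinite.symm (c i))
    refine Submodule.mem_sup.2 ⟨_, LinearMap.mem_range_self _ a', x - combo ρ u a', ?_,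
      add_sub_cancel _ _⟩
    refine (Submodule.Quotient.eq P).1 (?_ : P.mkQ x = P.mkQ (combo ρ u a'))
    rw [hred, ← ha]
    refine Finset.sum_congr rfl fun i _ => Finset.sum_congr rfl fun g _ => ?_
    rw [show (a' i).coeff g = c i g from rfl, hc]
  refine ⟨?_, hsurj⟩
  obtain ⟨s, hs⟩ := Module.projective_lifting_property (combo ρ u) LinearMap.id hsurj
  have hs' : ∀ x, combo ρ u (s x) = x := LinearMap.congr_fun hs
  rw [← LinearMap.ker_eq_bot]
  let K := LinearMap.ker (combo ρ u)
  let π : (Fin d → MonoidAlgebra O G) →ₗ[O] (Fin d → MonoidAlgebra O G) :=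
    LinearMap.id - s.comp (combo ρ u)
  have hπ : ∀ a, π a ∈ K := fun a => by simp [K, π, hs']
  have hπK : ∀ a ∈ K, π a = a := fun a ha => by simp [π, LinearMap.mem_ker.1 ha]
  have hKfg : K.FG := by
    rw [show K = LinearMap.range π from le_antisymm (fun a ha => ⟨a, hπK a ha⟩) (by
      rintro _ ⟨a, rfl⟩; exact hπ a), LinearMap.range_eq_map]
    exact Module.Finite.fg_top.map π
  refine Submodule.eq_bot_of_le_smul_of_le_jacobson_bot m K hKfg ?_ (maximalIdeal_le_jacobson _)
  intro a ha
  have h0 : ∀ i g, (a i).coeff g ∈ m := by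
    have h1 := hred a
    rw [LinearMap.mem_ker.1 ha, map_zero] at h1
    have h2 : (fun i g => Ideal.Quotient.mk m ((a i).coeff g)) = 0 := hw.1 (h1.symm.trans (by simp))
    exact fun i g => Ideal.Quotient.eq_zero_iff_mem.1 (congrFun (congrFun h2 i) g)
  rw [← hπK a ha]
  have hdec : a = ∑ i, ∑ g, (a i).coeff g •
      (Pi.single i (MonoidAlgebra.single g 1) : Fin d → MonoidAlgebra O G) := by
    funext j
    rw [Finset.sum_apply, Finset.sum_eq_single j (fun i _ hi => by simp [hi.symm]) (by simp),
      Finset.sum_apply]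
    simp only [Pi.smul_apply, Pi.single_eq_same, MonoidAlgebra.smul_single', mul_one]
    refine MonoidAlgebra.coeff_injective ?_
    simp [MonoidAlgebra.coeff_sum]
  rw [hdec]
  simp only [map_sum, map_smul]
  exact Submodule.sum_mem _ fun i _ => Submodule.sum_mem _ fun g _ =>
    Submodule.smul_mem_smul (h0 i g) (hπ _)

end lattice

end FA.HeckeH1

end
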