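import Fermat.Agent.HeckeH1.Diamond
import Fermat.Agent.HeckeH1.GroupFree
import Fermat.Prelude.Thm_Algebra_finite_maximalSpectrum_and_bijective_localization_of_module_finite

/-!
At a non-Eisenstein maximal ideal, `H¹(Γ_H(M), O)` is free over the group ring of the diamond
operators, and corestriction sends a basis to a basis at level `Γ₀(M)`.
-/

set_option autoImplicit false

noncomputable section

namespace FA.HeckeH1

open IsLocalRing
open scoped MatrixGroups

section idempotent

variable {O : Type} [CommRing O] [IsLocalRing O] [IsNoetherianRing O]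
  [IsAdicComplete (maximalIdeal O) O] {A : Type} [CommRing A] [Algebra O A] [Module.Finite O A]

include O in
/-- The idempotent of a maximal ideal of a finite algebra over a complete local ring. -/
theorem exists_idempotent_at (m : Ideal A) [m.IsMaximal] :
    ∃ e : A, IsIdempotentElem e ∧ e ∉ m ∧ ∀ m' : Ideal A, m'.IsMaximal → m' ≠ m → e ∈ m' := by
  classical
  obtain ⟨-, hb, -⟩ :=
    Algebra.finite_maximalSpectrum_and_bijective_localization_of_module_finite (𝒪 := O) A
  let P : MaximalSpectrum A := ⟨m, inferInstance⟩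
  obtain ⟨e, he⟩ := hb.2 (Pi.single P 1)
  have he' : ∀ Q : MaximalSpectrum A, algebraMap A (Localization.AtPrime Q.asIdeal) e =
      (Pi.single P 1 : ∀ Q : MaximalSpectrum A, Localization.AtPrime Q.asIdeal) Q := fun Q =>
    congrFun he Q
  refine ⟨e, hb.1 (funext fun Q => ?_), fun hm => ?_, fun m' hm' hne => ?_⟩
  · simp only [RingHom.pi_apply, map_mul, he']
    by_cases h : Q = P
    · subst h; simp
    · simp [Pi.single_eq_of_ne h]
  · have h := (IsLocalization.AtPrime.isUnit_to_map_iff (Localization.AtPrime P.asIdeal) P.asIdeal e).1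
      (by rw [he']; simp)
    exact h hm
  · by_contra h
    have hu := IsLocalization.map_units (Localization.AtPrime m')
      (⟨e, h⟩ : m'.primeCompl)
    rw [show ((⟨e, h⟩ : m'.primeCompl) : A) = e from rfl, he' ⟨m', hm'⟩,
      Pi.single_eq_of_ne (fun hQ => hne (congrArg MaximalSpectrum.asIdeal hQ))] at hu
    exact not_isUnit_zero hu

/-- An element outside the maximal ideal is invertible on the piece of its idempotent. -/
theorem exists_inverse_at {e : A} {m : Ideal A} (he : IsIdempotentElem e)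
    (hem : ∀ m' : Ideal A, m'.IsMaximal → m' ≠ m → e ∈ m') {E : A} (hE : E ∉ m) :
    ∃ s : A, s * E * e = e := by
  have htop : Ideal.span {E, 1 - e} = ⊤ := by
    by_contra h
    obtain ⟨m', hm', hle⟩ := Ideal.exists_le_maximal _ h
    by_cases hne : m' = m
    · exact hE (hne ▸ hle (Ideal.subset_span (by simp)))
    · have h1 := hle (Ideal.subset_span (s := {E, 1 - e}) (Set.mem_insert_of_mem _ rfl))
      have h2 := add_mem h1 (hem m' hm' hne)
      rw [sub_add_cancel] at h2
      exact hm'.ne_top ((Ideal.eq_top_iff_one _).2 h2)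
  obtain ⟨s, t, hst⟩ := Ideal.mem_span_pair.1 ((Ideal.eq_top_iff_one _).1 htop)
  refine ⟨s, ?_⟩
  linear_combination e * hst + t * he.eq

end idempotent

section diamond

variable (M : ℕ) [NeZero M] (H : Subgroup (ZMod M)ˣ) (O : Type) [CommRing O]

/-- An element of `Γ₀(M)` with given upper left unit. -/
def gOf (u : (ZMod M)ˣ) : GamH M ⊤ := (ulHom_surjective M u).choose

theorem ulHom_gOf (u : (ZMod M)ˣ) : ulHom M (gOf M u) = u := (ulHom_surjective M u).choose_spec

/-- The diamond operators as a group homomorphism. -/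
def diaHom : (ZMod M)ˣ ⧸ H →* Module.End O (Hom1 (GamH M H) O) where
  toFun x := dia M H O (gOf M x.out)
  map_one' := LinearMap.ext fun z => dia_of_mem (by
    rw [mem_GamH_iff, ulHom_gOf]
    exact (QuotientGroup.eq_one_iff _).1 (QuotientGroup.out_eq' (1 : (ZMod M)ˣ ⧸ H))) z
  map_mul' x y := LinearMap.ext fun z => by
    rw [Module.End.mul_apply, ← dia_mul]
    refine dia_congr (QuotientGroup.eq.1 ?_) z
    rw [map_mul, ulHom_gOf, ulHom_gOf, ulHom_gOf, QuotientGroup.mk_mul, QuotientGroup.out_eq',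
      QuotientGroup.out_eq', QuotientGroup.out_eq']

theorem diaHom_mk (g : GamH M ⊤) (z : Hom1 (GamH M H) O) :
    diaHom M H O (QuotientGroup.mk (ulHom M g)) z = dia M H O g z := by
  refine dia_congr (QuotientGroup.eq.1 ?_) z
  rw [ulHom_gOf, QuotientGroup.out_eq']

/-- Restriction after corestriction is the norm of the group ring. -/
theorem res_cores_sum [Fintype ((ZMod M)ˣ ⧸ H)]
    [Fintype (GamH M ⊤ ⧸ (GamH M H).subgroupOf (GamH M ⊤))] (z : Hom1 (GamH M H) O) :
    (Corr.res GamH_le_top).act ((Corr.cores (Γ := GamH M ⊤)).act z) =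
      ∑ x, diaHom M H O x z := by
  rw [res_cores]
  refine Fintype.sum_bijective
    (fun x : GamH M ⊤ ⧸ (GamH M H).subgroupOf (GamH M ⊤) =>
      (QuotientGroup.mk (ulHom M x.out) : (ZMod M)ˣ ⧸ H)) ⟨fun x y hxy => ?_,
    fun c => ⟨QuotientGroup.mk (gOf M c.out), ?_⟩⟩ (fun x => dia M H O x.out z)
    (fun c => diaHom M H O c z) fun x => (diaHom_mk M H O x.out z).symm
  · rw [← QuotientGroup.out_eq' x, ← QuotientGroup.out_eq' y]
    refine QuotientGroup.eq.2 (Subgroup.mem_subgroupOf.2 ((mem_GamH_iff _).2 ?_))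
    rw [map_mul, map_inv]
    exact QuotientGroup.eq.1 hxy
  · conv_rhs => rw [← QuotientGroup.out_eq' c]
    refine QuotientGroup.eq.2 ?_
    have h := Subgroup.mem_subgroupOf.1
      (QuotientGroup.eq.1 (QuotientGroup.out_eq'
        (QuotientGroup.mk (gOf M c.out) : GamH M ⊤ ⧸ (GamH M H).subgroupOf (GamH M ⊤))))
    rwa [mem_GamH_iff, map_mul, map_inv, ulHom_gOf] at h

/-- Restriction is injective on torsion free coefficients. -/
theorem res_injective [IsAddTorsionFree O] :
    Function.Injective ((Corr.res (GamH_le_top (M := M) (H := H))).act (A := O)) := by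
  rw [injective_iff_map_eq_zero]
  intro w hw
  refine AddMonoidHom.ext fun γ => ?_
  show hv w γ.toMul = 0
  generalize γ.toMul = g
  obtain ⟨n, hn, hpow⟩ : ∃ n, 0 < n ∧ ulHom M g ^ n = 1 :=
    isOfFinOrder_iff_pow_eq_one.1 (isOfFinOrder_of_finite _)
  have hmem : ((g ^ n : GamH M ⊤) : SL(2, ℤ)) ∈ GamH M H :=
    (mem_GamH_iff _).2 (by rw [map_pow, hpow]; exact one_mem H)
  have h : hv ((Corr.res GamH_le_top).act w) ⟨_, hmem⟩ = 0 := by rw [hw]; rfl
  rw [Corr.res_act] at h
  have h' : n • hv w g = 0 := by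
    rw [← h, ← show hv w (g ^ n) = n • hv w g from map_nsmul w n (Additive.ofMul g)]
  exact (smul_eq_zero.1 h').resolve_left hn.ne'

end diamond

section algebra

variable (M : ℕ) [NeZero M] (H : Subgroup (ZMod M)ˣ) (O : Type) [CommRing O]

/-- Pairs of operators at levels `Γ_H(M)` and `Γ₀(M)`. -/
abbrev PairEnd : Type :=
  Module.End O (Hom1 (GamH M H) O) × Module.End O (Hom1 (GamH M ⊤) O)

instance Primes.instFactPrime (ℓ : Nat.Primes) : Fact (ℓ : ℕ).Prime := ⟨ℓ.2⟩

/-- The Hecke pair. -/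
def Tpair (ℓ : Nat.Primes) : PairEnd M H O :=
  ((Tc M H (ℓ : ℕ)).actLin, (Tc M ⊤ (ℓ : ℕ)).actLin)

/-- The diamond pair. -/
def diaPair (x : (ZMod M)ˣ ⧸ H) : PairEnd M H O := (diaHom M H O x, 1)

/-- The algebra generated by all Hecke and diamond operators. -/
def pairAlg : Subalgebra O (PairEnd M H O) :=
  Algebra.adjoin O (Set.range (Tpair M H O) ∪ Set.range (diaPair M H O))

theorem Tpair_mem (ℓ : Nat.Primes) : Tpair M H O ℓ ∈ pairAlg M H O :=
  Algebra.subset_adjoin (Or.inl ⟨ℓ, rfl⟩)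

theorem diaPair_mem (x : (ZMod M)ˣ ⧸ H) : diaPair M H O x ∈ pairAlg M H O :=
  Algebra.subset_adjoin (Or.inr ⟨x, rfl⟩)

theorem Tc_act_comm (ℓ r : Nat.Primes) {A : Type*} [AddCommGroup A] (z : Hom1 (GamH M H) A) :
    (Tc M H (ℓ : ℕ)).act ((Tc M H (r : ℕ)).act z) = (Tc M H (r : ℕ)).act ((Tc M H (ℓ : ℕ)).act z) := by
  by_cases h : (ℓ : ℕ) = r
  · rw [show ℓ = r from Subtype.ext h]
  · exact Tc_comm M H h z

theorem Tc_diaHom (ℓ : Nat.Primes) (x : (ZMod M)ˣ ⧸ H) (z : Hom1 (GamH M H) O) :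
    (Tc M H (ℓ : ℕ)).act (diaHom M H O x z) = diaHom M H O x ((Tc M H (ℓ : ℕ)).act z) :=
  Tc_dia _ z

instance pairAlg.instIsMulCommutative : IsMulCommutative (pairAlg M H O) := by
  refine Algebra.isMulCommutative_adjoin _ ?_
  rintro _ (⟨ℓ, rfl⟩ | ⟨x, rfl⟩) _ (⟨r, rfl⟩ | ⟨y, rfl⟩)
  · exact Prod.ext (LinearMap.ext fun z => Tc_act_comm M H ℓ r z)
      (LinearMap.ext fun z => Tc_act_comm M ⊤ ℓ r z)
  · exact Prod.ext (LinearMap.ext fun z => Tc_diaHom M H O ℓ y z)
      ((mul_one _).trans (one_mul _).symm)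
  · exact Prod.ext (LinearMap.ext fun z => (Tc_diaHom M H O r x z).symm)
      ((one_mul _).trans (mul_one _).symm)
  · refine Prod.ext ?_ rfl
    show diaHom M H O x * diaHom M H O y = diaHom M H O y * diaHom M H O x
    exact (map_mul (diaHom M H O) x y).symm.trans
      ((congrArg (diaHom M H O) (mul_comm x y)).trans (map_mul (diaHom M H O) y x))

instance pairAlg.instCommRing : CommRing (pairAlg M H O) :=
  { (pairAlg M H O).toRing with mul_comm := fun a b => Subtype.ext (setLike_mul_comm a.2 b.2) }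

/-- Members commute with the diamonds. -/
theorem pair_dia {x : PairEnd M H O} (hx : x ∈ pairAlg M H O) (g : (ZMod M)ˣ ⧸ H)
    (z : Hom1 (GamH M H) O) : x.1 (diaHom M H O g z) = diaHom M H O g (x.1 z) :=
  LinearMap.congr_fun (congrArg Prod.fst (setLike_mul_comm hx (diaPair_mem M H O g))) z

variable [IsAddTorsionFree O] [Finite (GamH M ⊤ ⧸ (GamH M H).subgroupOf (GamH M ⊤))]

theorem cores_diaHom (g : (ZMod M)ˣ ⧸ H) (z : Hom1 (GamH M H) O) :
    (Corr.cores (Γ := GamH M ⊤)).act (diaHom M H O g z) = (Corr.cores (Γ := GamH M ⊤)).act z := by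
  classical
  have : Fintype (GamH M ⊤ ⧸ (GamH M H).subgroupOf (GamH M ⊤)) := Fintype.ofFinite _
  have : Fintype ((ZMod M)ˣ ⧸ H) := Fintype.ofFinite _
  refine res_injective M H O ?_
  rw [res_cores_sum, res_cores_sum]
  refine Fintype.sum_equiv (Equiv.mulRight g) _ _ fun x => ?_
  simp

/-- Members commute with corestriction. -/
theorem pair_cores {x : PairEnd M H O} (hx : x ∈ pairAlg M H O) (z : Hom1 (GamH M H) O) :
    (Corr.cores (Γ := GamH M ⊤)).act (x.1 z) = x.2 ((Corr.cores (Γ := GamH M ⊤)).act z) := by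
  induction hx using Algebra.adjoin_induction generalizing z with
  | mem y hy =>
    rcases hy with ⟨ℓ, rfl⟩ | ⟨g, rfl⟩
    · exact (cores_Tc_diamond z).symm
    · exact cores_diaHom M H O g z
  | algebraMap c =>
    show (Corr.cores (Γ := GamH M ⊤)).act (c • z) = c • _
    exact Corr.act_smul _ c z
  | add a b _ _ ha hb =>
    show (Corr.cores (Γ := GamH M ⊤)).act (a.1 z + b.1 z) = a.2 _ + b.2 _
    rw [map_add, ha, hb]
  | mul a b _ _ ha hb =>
    show (Corr.cores (Γ := GamH M ⊤)).act (a.1 (b.1 z)) = a.2 (b.2 _)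
    rw [ha, hb]

end algebra

section free

variable {M : ℕ} [NeZero M] {H : Subgroup (ZMod M)ˣ} {O : Type} [CommRing O] [IsDomain O]
  [IsDiscreteValuationRing O] [IsAdicComplete (maximalIdeal O) O] [CharZero O]

local notation "X" => Hom1 (GamH M H) O

instance Hom1.finite {Γ : Subgroup SL(2, ℤ)} [Γ.FiniteIndex] :
    Module.Finite O (Hom1 Γ O) := hom1_finite_of_noetherian Γ O

instance Hom1.isTorsionFree {Γ : Subgroup SL(2, ℤ)} : Module.IsTorsionFree O (Hom1 Γ O) :=
  .of_smul_eq_zero fun c z h => (eq_or_ne c 0).imp id fun hc => AddMonoidHom.ext fun γ =>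
    (mul_eq_zero.1 (DFunLike.congr_fun h γ)).resolve_left hc

/-- Values in the maximal ideal. -/
theorem mem_smul_top_of_values {Γ : Subgroup SL(2, ℤ)} {z : Hom1 Γ O}
    (h : ∀ γ, hv z γ ∈ maximalIdeal O) : z ∈ maximalIdeal O • (⊤ : Submodule O (Hom1 Γ O)) := by
  obtain ⟨ϖ, hϖ⟩ := IsDiscreteValuationRing.exists_irreducible O
  rw [hϖ.maximalIdeal_eq] at h ⊢
  choose c hc using fun γ => Ideal.mem_span_singleton'.1 (h γ)
  let z' : Hom1 Γ O := AddMonoidHom.mk' (fun γ => c γ.toMul) fun a b => mul_right_cancel₀ hϖ.ne_zero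
    (by rw [add_mul, hc, hc, hc, toMul_add, hv_mul])
  have e : z = ϖ • z' := AddMonoidHom.ext fun γ => by
    show hv z γ.toMul = ϖ * c γ.toMul
    rw [mul_comm, hc]
  rw [e]
  exact Submodule.smul_mem_smul (Ideal.mem_span_singleton_self _) Submodule.mem_top

theorem values_of_mem_smul_top {Γ : Subgroup SL(2, ℤ)} {z : Hom1 Γ O}
    (h : z ∈ maximalIdeal O • (⊤ : Submodule O (Hom1 Γ O))) (γ : Γ) : hv z γ ∈ maximalIdeal O := by
  refine Submodule.smul_induction_on h (fun c hc w _ => ?_) (fun a b ha hb => ?_)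
  · exact Ideal.mul_mem_right _ _ hc
  · exact add_mem ha hb

variable [Finite (GamH M ⊤ ⧸ (GamH M H).subgroupOf (GamH M ⊤))]

variable (M H O) in
/-- The hypotheses on the level. -/
structure GoodLevel : Prop where
  neg_one : (-1 : (ZMod M)ˣ) ∈ H
  neat : IsNeatOn O (GamH M ⊤)

/-- Every invariant modulo the maximal ideal is a norm, on a piece where `T_ℓ - ℓ - 1` is
invertible. -/
theorem exists_norm (hL : GoodLevel M H O) [Fintype ((ZMod M)ˣ ⧸ H)] {ℓ : Nat.Primes}
    (hℓ : ¬ (ℓ : ℕ) ∣ M) {e s : pairAlg M H O}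
    (hs : s * (⟨_, Tpair_mem M H O ℓ⟩ - ((ℓ : ℕ) + 1 : ℕ)) * e = e) {v : X}
    (hv' : e.1.1 v = v) (hinv : ∀ g, diaHom M H O g v - v ∈ maximalIdeal O • (⊤ : Submodule O X)) :
    ∃ u : X, v - ∑ g, diaHom M H O g (e.1.1 u) ∈ maximalIdeal O • (⊤ : Submodule O X) := by
  classical
  have : Fintype (GamH M ⊤ ⧸ (GamH M H).subgroupOf (GamH M ⊤)) := Fintype.ofFinite _
  let f := residue O
  have hΓ : -1 ∈ GamH M H := neg_one_mem_GamH hL.neg_one
  have hΓ₀ : -1 ∈ GamH M ⊤ := GamH_le_top hΓ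
  let Ev : X := (Tc M H (ℓ : ℕ)).act v - ((ℓ : ℕ) + 1 : ℕ) • v
  let ψ : Hom1 (GamH M H) (ResidueField O) := f.toAddMonoidHom.comp v
  have hψ : ∀ g, dia M H (ResidueField O) g ψ = ψ := fun g => by
    refine AddMonoidHom.ext fun γ => ?_
    have h := values_of_mem_smul_top (hinv (QuotientGroup.mk (ulHom M g))) γ.toMul
    rw [diaHom_mk] at h
    exact (Ideal.Quotient.eq.2 h :)
  obtain ⟨w, hw⟩ := exists_extension (A := ResidueField O) (ℓ : ℕ) hℓ ψ hψ
  have hred : (Tc M H (ℓ : ℕ)).act ψ - ((ℓ : ℕ) + 1 : ℕ) • ψ = f.toAddMonoidHom.comp Ev := by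
    rw [Corr.act_comp_hom]
    exact AddMonoidHom.ext fun γ => by simp [Ev, ψ]
  rw [hred] at hw
  have hwEl : w ∈ El (GamH M ⊤) (ResidueField O) := by
    rw [mem_El_iff_neat (hL.neat.map f) hΓ₀]
    have h := congrArg (fun y => hv y ⟨-1, hΓ⟩) hw
    simp only [Corr.res_act] at h
    rw [h]
    show f (hv Ev ⟨-1, hΓ⟩) = 0
    rw [ell_of_torsionFree Ev _ (isOfFinOrder_iff_pow_eq_one.2 ⟨2, two_pos, by simp [sq]⟩), map_zero]
  obtain ⟨W, hW, hWw⟩ := El_lift f residue_surjective hL.neat hΓ₀ hwEl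
  obtain ⟨U, -, hU⟩ := cores_surjective (Γ' := GamH M H) GamH_le_top hL.neat hΓ hW
  refine ⟨s.1.1 U, ?_⟩
  have hmem : Ev - ∑ g, diaHom M H O g U ∈ maximalIdeal O • (⊤ : Submodule O X) := by
    refine mem_smul_top_of_values fun γ => ?_
    rw [← res_cores_sum, hU, ← Ideal.Quotient.eq_zero_iff_mem]
    have h := congrArg (fun y => hv y γ) hw
    rw [← hWw, Corr.act_comp_hom] at h
    show f (hv Ev γ - hv _ γ) = 0
    rw [map_sub, sub_eq_zero]
    exact h.symm
  let g₁ : Module.End O X := e.1.1 * s.1.1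
  have hg : ∀ g z, g₁ (diaHom M H O g z) = diaHom M H O g (g₁ z) :=
    fun g z => pair_dia M H O (e * s).2 g z
  have h1 : g₁ Ev = v := by
    have h : e * s * (⟨_, Tpair_mem M H O ℓ⟩ - ((ℓ : ℕ) + 1 : ℕ)) = e := by
      rw [mul_assoc, mul_comm e, hs]
    exact (congrArg (fun x : pairAlg M H O => x.1.1 v) h).trans hv'
  have h2 : g₁ (Ev - ∑ g, diaHom M H O g U) = v - ∑ g, diaHom M H O g (e.1.1 (s.1.1 U)) := by
    rw [map_sub, map_sum, h1]
    simp only [hg]
    rfl
  rw [← h2]
  exact (Submodule.smul_top_le_comap_smul_top (maximalIdeal O) g₁) hmem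

variable (M H O) in
/-- A basis of the piece of `e` over the group ring. -/
structure FreeData [Fintype ((ZMod M)ˣ ⧸ H)] (e : pairAlg M H O) where
  /-- the rank -/
  d : ℕ
  /-- the basis -/
  u : Fin d → X
  e_u : ∀ i, e.1.1 (u i) = u i
  inj : Function.Injective (combo (diaHom M H O) u)
  span : ∀ v : X, e.1.1 v = v → ∃ a, combo (diaHom M H O) u a = v

/-- **Freeness over the group ring.** -/
theorem exists_freeData {p : ℕ} [Fact p.Prime] [CharP (ResidueField O) p] (hL : GoodLevel M H O)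
    [Fintype ((ZMod M)ˣ ⧸ H)] (hG : IsPGroup p ((ZMod M)ˣ ⧸ H)) {e : pairAlg M H O}
    (he : IsIdempotentElem e) {ℓ : Nat.Primes} (hℓ : ¬ (ℓ : ℕ) ∣ M) {s : pairAlg M H O}
    (hs : s * (⟨_, Tpair_mem M H O ℓ⟩ - ((ℓ : ℕ) + 1 : ℕ)) * e = e) :
    Nonempty (FreeData M H O e) := by
  have hee : ∀ z, e.1.1 (e.1.1 z) = e.1.1 z := fun z =>
    LinearMap.congr_fun (congrArg (fun x : pairAlg M H O => x.1.1) he.eq) z
  let P : Submodule O X := LinearMap.range e.1.1
  have hP : ∀ z, z ∈ P ↔ e.1.1 z = z := fun z =>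
    ⟨by rintro ⟨y, rfl⟩; exact hee y, fun h => ⟨z, h⟩⟩
  let ρ : (ZMod M)ˣ ⧸ H →* Module.End O P :=
    { toFun := fun g => (diaHom M H O g).restrict fun z hz => (hP _).2 (by
        rw [pair_dia M H O e.2, (hP z).1 hz])
      map_one' := LinearMap.ext fun z => Subtype.ext (by simp)
      map_mul' := fun g h => LinearMap.ext fun z => Subtype.ext (by simp) }
  let eP : X →ₗ[O] P := e.1.1.rangeRestrict
  have heP : ∀ z : P, eP z.1 = z := fun z => Subtype.ext ((hP _).1 z.2)
  have key : ∀ v : P, (∀ g, ρ g v - v ∈ maximalIdeal O • (⊤ : Submodule O P)) →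
      ∃ u, v - ∑ g, ρ g u ∈ maximalIdeal O • (⊤ : Submodule O P) := by
    intro v hv
    have hinv : ∀ g, diaHom M H O g v.1 - v.1 ∈ maximalIdeal O • (⊤ : Submodule O X) := fun g =>
      Submodule.smul_top_le_comap_smul_top (maximalIdeal O) P.subtype (hv g)
    obtain ⟨w, hw⟩ := exists_norm hL hℓ hs ((hP _).1 v.2) hinv
    refine ⟨⟨e.1.1 w, LinearMap.mem_range_self _ w⟩, ?_⟩
    have h := Submodule.smul_top_le_comap_smul_top (maximalIdeal O) eP hw
    rw [Submodule.mem_comap, map_sub, map_sum, heP] at h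
    convert h using 3 with g
    exact (heP (ρ g ⟨e.1.1 w, LinearMap.mem_range_self _ w⟩)).symm
  obtain ⟨d, u, hu⟩ :=
    @exists_bijective_combo O _ _ p _ ((ZMod M)ˣ ⧸ H) _ _ P _ _ _ _ _ hG ρ key
  have hcombo : ∀ a, (combo ρ u a).1 = combo (diaHom M H O) (fun i => (u i).1) a := fun a => by
    simp only [combo_apply, lift_apply_vec, Submodule.coe_sum, Submodule.coe_smul]
    rfl
  exact ⟨⟨d, fun i => (u i).1, fun i => (hP _).1 (u i).2,
    fun a b h => hu.1 (Subtype.ext (by rw [hcombo, hcombo, h])),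
    fun v hv => (hu.2 ⟨v, (hP v).2 hv⟩).imp fun a ha => by rw [← hcombo, ha]⟩⟩

omit [Finite (GamH M ⊤ ⧸ (GamH M H).subgroupOf (GamH M ⊤))] in
theorem pairAlg_finite : Module.Finite O (pairAlg M H O) :=
  Module.Finite.of_injective (pairAlg M H O).val.toLinearMap Subtype.val_injective

/-- **Freeness at a maximal ideal which is not Eisenstein.** -/
theorem exists_freeData_at {p : ℕ} [Fact p.Prime] [CharP (ResidueField O) p]
    (hL : GoodLevel M H O) [Fintype ((ZMod M)ˣ ⧸ H)] (hG : IsPGroup p ((ZMod M)ˣ ⧸ H))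
    (m : Ideal (pairAlg M H O)) [m.IsMaximal] {ℓ : Nat.Primes} (hℓ : ¬ (ℓ : ℕ) ∣ M)
    (hm : (⟨_, Tpair_mem M H O ℓ⟩ - ((ℓ : ℕ) + 1 : ℕ) : pairAlg M H O) ∉ m) :
    ∃ e : pairAlg M H O, IsIdempotentElem e ∧ e ∉ m ∧
      (∀ m' : Ideal (pairAlg M H O), m'.IsMaximal → m' ≠ m → e ∈ m') ∧
      Nonempty (FreeData M H O e) := by
  have := pairAlg_finite (M := M) (H := H) (O := O)
  obtain ⟨e, he, hem, hem'⟩ := exists_idempotent_at (O := O) m
  obtain ⟨s, hs⟩ := exists_inverse_at he hem' hm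
  exact ⟨e, he, hem, hem', exists_freeData hL hG he hℓ hs⟩

namespace FreeData

variable [Fintype ((ZMod M)ˣ ⧸ H)] {e : pairAlg M H O} (D : FreeData M H O e)

local notation "R" => MonoidAlgebra O ((ZMod M)ˣ ⧸ H)

theorem pair_fix (x : pairAlg M H O) {v : X} (hv : e.1.1 v = v) : e.1.1 (x.1.1 v) = x.1.1 v := by
  conv_rhs => rw [← hv]
  exact LinearMap.congr_fun (congrArg (fun y : pairAlg M H O => y.1.1) (mul_comm e x)) v

/-- The matrix of an operator. -/
def actFun (x : pairAlg M H O) : Matrix (Fin D.d) (Fin D.d) R :=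
  fun i j => (D.span _ (pair_fix x (D.e_u j))).choose i

theorem combo_actFun (x : pairAlg M H O) (j : Fin D.d) :
    combo (diaHom M H O) D.u (fun i => D.actFun x i j) = x.1.1 (D.u j) :=
  (D.span _ (pair_fix x (D.e_u j))).choose_spec

theorem actFun_eq {x : pairAlg M H O} {A : Matrix (Fin D.d) (Fin D.d) R}
    (h : ∀ j, combo (diaHom M H O) D.u (fun i => A i j) = x.1.1 (D.u j)) : D.actFun x = A := by
  funext i j
  exact congrFun (D.inj ((D.combo_actFun x j).trans (h j).symm)) i

theorem lift_comm (x : pairAlg M H O) (a : R) (v : X) :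
    x.1.1 (MonoidAlgebra.lift O (Module.End O X) _ (diaHom M H O) a v) =
      MonoidAlgebra.lift O (Module.End O X) _ (diaHom M H O) a (x.1.1 v) := by
  simp only [lift_apply_vec, map_sum, map_smul, pair_dia M H O x.2]

theorem combo_single (j : Fin D.d) (a : R) :
    combo (diaHom M H O) D.u (fun i => if i = j then a else 0) =
      MonoidAlgebra.lift O (Module.End O X) _ (diaHom M H O) a (D.u j) := by
  classical
  rw [combo_apply, Finset.sum_eq_single j (fun i _ hi => by simp [hi]) (by simp)]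
  simp

/-- The representation over the group ring. -/
def act : pairAlg M H O →ₐ[O] Matrix (Fin D.d) (Fin D.d) R where
  toFun := D.actFun
  map_one' := D.actFun_eq fun j => by
    simp only [Matrix.one_apply]
    rw [D.combo_single j 1]
    exact lift_one_vec (diaHom M H O) _
  map_zero' := D.actFun_eq fun j => by simp [combo_apply]
  map_add' x y := D.actFun_eq fun j => by
    show combo _ _ ((fun i => D.actFun x i j) + fun i => D.actFun y i j) = _
    rw [map_add, combo_actFun, combo_actFun]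
    rfl
  map_mul' x y := D.actFun_eq fun j => by
    have h : ∀ i, (D.actFun x * D.actFun y) i j = ∑ k, D.actFun y k j * D.actFun x i k := fun i => by
      rw [Matrix.mul_apply]
      refine Finset.sum_congr rfl fun k _ => ?_
      exact @mul_comm R _ _ _
    simp only [combo_apply, h, map_sum, map_mul, LinearMap.sum_apply, Module.End.mul_apply]
    rw [Finset.sum_comm]
    have e' : ∀ k, ∑ i, MonoidAlgebra.lift O (Module.End O X) _ (diaHom M H O) (D.actFun x i k)
        (D.u i) = x.1.1 (D.u k) := fun k => by rw [← combo_apply, combo_actFun]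
    simp only [← map_sum, e', ← lift_comm]
    rw [← combo_apply, combo_actFun]
    rfl
  commutes' c := D.actFun_eq fun j => by
    classical
    rw [show (fun i => algebraMap O (Matrix (Fin D.d) (Fin D.d) R) c i j) =
        fun i => if i = j then algebraMap O R c else 0 from
      funext fun i => Matrix.algebraMap_matrix_apply, combo_single, AlgHom.commutes]
    rfl

theorem combo_act (x : pairAlg M H O) (j : Fin D.d) :
    combo (diaHom M H O) D.u (fun i => D.act x i j) = x.1.1 (D.u j) := D.combo_actFun x j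

theorem act_self : D.act e = 1 := D.actFun_eq fun j => by
  simp only [Matrix.one_apply]
  rw [D.combo_single j 1, D.e_u]
  exact lift_one_vec (diaHom M H O) _

theorem act_dia (g : (ZMod M)ˣ ⧸ H) :
    D.act ⟨_, diaPair_mem M H O g⟩ = Matrix.scalar _ (MonoidAlgebra.single g 1) :=
  D.actFun_eq fun j => by
    simp [Matrix.diagonal_apply, D.combo_single j, MonoidAlgebra.lift_single]
    rfl

theorem act_eq_zero_iff (he : IsIdempotentElem e) (x : pairAlg M H O) :
    D.act x = 0 ↔ ∀ v, x.1.1 (e.1.1 v) = 0 := by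
  constructor
  · intro h v
    have hee : e.1.1 (e.1.1 v) = e.1.1 v :=
      LinearMap.congr_fun (congrArg (fun y : pairAlg M H O => y.1.1) he.eq) v
    obtain ⟨a, ha⟩ := D.span _ hee
    rw [← ha, combo_apply, map_sum]
    refine Finset.sum_eq_zero fun i _ => ?_
    rw [lift_comm, ← combo_act, h]
    simp [combo_apply]
  · intro h
    refine D.actFun_eq fun j => ?_
    rw [← D.e_u j, h]
    simp [combo_apply]

/-- The images of the basis at level `Γ₀(M)`. -/
def bu (i : Fin D.d) : Hom1 (GamH M ⊤) O := (Corr.cores (Γ := GamH M ⊤)).act (D.u i)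

theorem cores_combo (a : Fin D.d → R) :
    (Corr.cores (Γ := GamH M ⊤)).act (combo (diaHom M H O) D.u a) =
      ∑ i, MonoidAlgebra.lift O O _ 1 (a i) • D.bu i :=
  map_combo (diaHom M H O) D.u (Corr.cores (Γ := GamH M ⊤)).actLin
    (fun g z => cores_diaHom M H O g z) a

/-- The representation at level `Γ₀(M)`. -/
def act0 : pairAlg M H O →ₐ[O] Matrix (Fin D.d) (Fin D.d) O :=
  (MonoidAlgebra.lift O O ((ZMod M)ˣ ⧸ H) 1).mapMatrix.comp D.act

theorem act0_apply (x : pairAlg M H O) :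
    D.act0 x = (D.act x).map (MonoidAlgebra.lift O O ((ZMod M)ˣ ⧸ H) 1) := rfl

/-- Augmentations give the action at level `Γ₀(M)`. -/
theorem pair_bu (x : pairAlg M H O) (j : Fin D.d) : x.1.2 (D.bu j) = ∑ i, D.act0 x i j • D.bu i := by
  rw [bu, ← pair_cores M H O x.2, ← combo_act, cores_combo]
  rfl

theorem e_bu (i : Fin D.d) : e.1.2 (D.bu i) = D.bu i := by
  rw [bu, ← pair_cores M H O e.2, D.e_u]

theorem bu_linearIndependent : LinearIndependent O D.bu := by
  classical
  have : Fintype (GamH M ⊤ ⧸ (GamH M H).subgroupOf (GamH M ⊤)) := Fintype.ofFinite _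
  rw [Fintype.linearIndependent_iff]
  intro c hc i
  have h := congrArg (Corr.res (GamH_le_top (H := H))).act hc
  simp only [map_sum, Corr.act_smul, bu, res_cores_sum, map_zero] at h
  let N : R := ∑ g, MonoidAlgebra.single g 1
  have h' : combo (diaHom M H O) D.u (fun i => c i • N) = 0 := by
    rw [← h]
    simp only [combo_apply, map_smul, N, map_sum, MonoidAlgebra.lift_single, one_smul,
      LinearMap.smul_apply, LinearMap.sum_apply]
  have h2 := congrArg (fun a : R => a.coeff 1) (congrFun (D.inj (h'.trans (map_zero _).symm)) i)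
  simpa [N, MonoidAlgebra.coeff_sum, MonoidAlgebra.coeff_smul_apply, Finsupp.single_apply] using h2

/-- Corestriction is onto the piece at level `Γ₀(M)`. -/
theorem bu_span (hL : GoodLevel M H O) {w : Hom1 (GamH M ⊤) O} (hw : e.1.2 w = w)
    (he : IsIdempotentElem e) : ∃ c : Fin D.d → O, ∑ i, c i • D.bu i = w := by
  obtain ⟨U, -, hU⟩ := cores_surjective (Γ' := GamH M H) GamH_le_top hL.neat
    (neg_one_mem_GamH hL.neg_one) (w := w) fun γ hγ => ell_of_torsionFree w γ hγ
  have hee : e.1.1 (e.1.1 U) = e.1.1 U :=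
    LinearMap.congr_fun (congrArg (fun y : pairAlg M H O => y.1.1) he.eq) U
  obtain ⟨a, ha⟩ := D.span _ hee
  refine ⟨_, (D.cores_combo a).symm.trans ?_⟩
  rw [ha, pair_cores M H O e.2, hU, hw]

theorem act0_eq_zero_iff (hL : GoodLevel M H O) (he : IsIdempotentElem e) (x : pairAlg M H O) :
    D.act0 x = 0 ↔ ∀ w, x.1.2 (e.1.2 w) = 0 := by
  constructor
  · intro h w
    have hee : e.1.2 (e.1.2 w) = e.1.2 w :=
      LinearMap.congr_fun (congrArg (fun y : pairAlg M H O => y.1.2) he.eq) w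
    obtain ⟨c, hc⟩ := D.bu_span hL hee he
    rw [← hc, map_sum]
    exact Finset.sum_eq_zero fun i _ => by simp [pair_bu, h]
  · intro h
    ext i j
    have h1 := (D.pair_bu x j).symm.trans ((congrArg x.1.2 (D.e_bu j).symm).trans (h _))
    exact Fintype.linearIndependent_iff.1 D.bu_linearIndependent _ h1 i

end FreeData

end free

end FA.HeckeH1

end
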