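import Fermat.Agent.HeckeH1.Points
import Fermat.Agent.RT.AlgPoints
import Fermat.Agent.NebLocal.NormResidual

/-!
The algebra of all operators on the image of an idempotent: its points separate the good algebra
and give primitive eigenclasses, whose values are residually those prescribed by the idempotent.
-/

set_option autoImplicit false
set_option linter.style.haveILetI false
set_option linter.unusedSectionVars false
set_option maxHeartbeats 1000000
set_option synthInstance.maxHeartbeats 200000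

noncomputable section

namespace FA.HeckeH1

open IsLocalRing
open scoped MatrixGroups

section piece

variable {O : Type} [CommRing O] [IsLocalRing O] [IsNoetherianRing O]
  [IsAdicComplete (maximalIdeal O) O] {A : Type} [CommRing A] [Algebra O A] [Module.Finite O A]

/-- The kernel of the residual character is nilpotent modulo the maximal ideal on the piece. -/
theorem IsPiece.pow_mul_mem {χ : A →ₐ[O] ResidueField O} {e : A} (h : IsPiece χ e) {x : A}
    (hx : χ x = 0) : ∃ k : ℕ, x ^ k * e ∈ maximalIdeal O • (⊤ : Submodule O A) := by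
  have hrad : x * e ∈ ((maximalIdeal O).map (algebraMap O A)).radical := by
    rw [Ideal.radical_eq_sInf, Ideal.mem_sInf]
    rintro P ⟨hP, hprime⟩
    haveI := hprime
    have hc : P.comap (algebraMap O A) = maximalIdeal O := ((maximalIdeal.isMaximal O).eq_of_le
      (Ideal.comap_ne_top _ hprime.ne_top) (Ideal.map_le_iff_le_comap.1 hP)).symm
    have hmax : P.IsMaximal := Ideal.isMaximal_of_isIntegral_of_isMaximal_comap (R := O) P
      (by rw [hc]; exact maximalIdeal.isMaximal O)
    by_cases hne : P = RingHom.ker χ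
    · exact P.mul_mem_right _ (by rw [hne]; exact hx)
    · exact P.mul_mem_left _ (h.mem_of_ne hmax hne)
  obtain ⟨k, hk⟩ := Ideal.mem_radical_iff.1 hrad
  refine ⟨k + 1, ?_⟩
  rw [Ideal.smul_top_eq_map, Submodule.restrictScalars_mem]
  have h2 : x ^ (k + 1) * e = (x * e) ^ k * (x * e) := by
    rw [mul_pow, pow_succ]
    rcases k with _ | k
    · simp
    · rw [h.idem.pow_succ_eq k]
      linear_combination -(x ^ (k + 1 + 1)) * h.idem.eq
  rw [h2]
  exact Ideal.mul_mem_right _ _ hk

end piece

section sep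

/-- A linear map respects multiples of an ideal. -/
theorem map_mem_smul_top {O : Type} [CommRing O] {X Y : Type*} [AddCommGroup X] [Module O X]
    [AddCommGroup Y] [Module O Y] (g : X →ₗ[O] Y) {I : Ideal O} {x : X}
    (h : x ∈ I • (⊤ : Submodule O X)) : g x ∈ I • (⊤ : Submodule O Y) := by
  have h' := Submodule.mem_map_of_mem (f := g) h
  rw [Submodule.map_smul''] at h'
  exact Submodule.smul_mono le_rfl le_top h'

variable {O : Type} [CommRing O] [IsDomain O] [IsDiscreteValuationRing O]
  [IsAdicComplete (maximalIdeal O) O] [CharZero O] [Finite (ResidueField O)]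
  {A : Type} [CommRing A] [Algebra O A] [Module.Finite O A] [Module.IsTorsionFree O A]
  {B : Type} [CommRing B] [Algebra O B] [IsReduced B]

/-- Points of an algebra separate a reduced subalgebra. -/
theorem exists_separating_points (g : B →ₐ[O] A) (hg : Function.Injective g) (hB : Nontrivial B) :
    ∃ (J : Type) (_ : Finite J) (_ : Nonempty J) (P : J → FA.RT.AlgPoint O A),
      ∀ x : B, (∀ j, (P j).hom (g x) = 0) → x = 0 := by
  haveI : IsReduced (A ⧸ nilradical A) :=
    (Ideal.isRadical_iff_quotient_reduced _).1 (Ideal.radical_isRadical _)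
  haveI : Module.IsTorsionFree O (A ⧸ nilradical A) :=
    .of_smul_eq_zero fun c x h => (eq_or_ne c 0).imp id fun hc => by
      obtain ⟨a, rfl⟩ := Ideal.Quotient.mk_surjective x
      obtain ⟨n, hn⟩ := mem_nilradical.1
        (Ideal.Quotient.eq_zero_iff_mem.1 h : c • a ∈ nilradical A)
      refine Ideal.Quotient.eq_zero_iff_mem.2 (mem_nilradical.2 ⟨n, ?_⟩)
      rw [smul_pow, smul_eq_zero] at hn
      exact hn.resolve_left (pow_ne_zero _ hc)
  obtain ⟨J, hJ, P, hP⟩ := FA.RT.exists_algPoints (O := O) (A := A ⧸ nilradical A)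
  have hsep : ∀ x : B,
      (∀ j, (P j).hom (Ideal.Quotient.mkₐ O (nilradical A) (g x)) = 0) → x = 0 := fun x hx => by
    obtain ⟨n, hn⟩ := mem_nilradical.1 (Ideal.Quotient.eq_zero_iff_mem.1 (hP _ hx))
    exact IsReduced.eq_zero _ ⟨n, hg (by rw [map_pow, hn, map_zero])⟩
  refine ⟨J, hJ, ?_, fun j =>
    { B := (P j).B, hom := (P j).hom.comp (Ideal.Quotient.mkₐ O (nilradical A)) }, hsep⟩
  by_contra hJ0
  rw [not_nonempty_iff] at hJ0
  exact one_ne_zero (hsep 1 fun j => (IsEmpty.false j).elim)

end sep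

section full

variable (M : ℕ) [NeZero M] (H : Subgroup (ZMod M)ˣ) (O : Type) [CommRing O]

/-- The full algebra acting at level `Γ_H(M)`. -/
def fullOp : pairAlg M H O →ₐ[O] Module.End O (Hom1 (GamH M H) O) :=
  (AlgHom.fst O (Module.End O (Hom1 (GamH M H) O)) (Module.End O (Hom1 (GamH M ⊤) O))).comp
    (pairAlg M H O).val

theorem fullOp_apply (a : pairAlg M H O) : fullOp M H O a = a.1.1 := rfl

variable {M H O}

/-- The annihilator of the image of `e` in the full algebra. -/
def annFull (e : Module.End O (Hom1 (GamH M H) O)) : Ideal (pairAlg M H O) where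
  carrier := {a | ∀ v, fullOp M H O a (e v) = 0}
  add_mem' {a b} ha hb v := by rw [map_add, LinearMap.add_apply, ha v, hb v, add_zero]
  zero_mem' v := by rw [map_zero, LinearMap.zero_apply]
  smul_mem' c a ha v := by rw [smul_eq_mul, map_mul, Module.End.mul_apply, ha v, map_zero]

/-- The algebra of all operators on the image of `e`. -/
abbrev FullAlg (e : Module.End O (Hom1 (GamH M H) O)) : Type := pairAlg M H O ⧸ annFull e

/-- The good algebra inside the full one. -/
def goodToFull (e : Module.End O (Hom1 (GamH M H) O)) : GoodAlg e →ₐ[O] FullAlg e :=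
  Ideal.Quotient.liftₐ (annE e) ((Ideal.Quotient.mkₐ O (annFull e)).comp (pairGood M H O).val)
    fun _ ha => Ideal.Quotient.eq_zero_iff_mem.2 fun v => ha v

theorem goodToFull_mk (e : Module.End O (Hom1 (GamH M H) O)) (a : pairGood M H O) :
    goodToFull e (Ideal.Quotient.mk _ a) = Ideal.Quotient.mk (annFull e) a.1 := rfl

theorem goodToFull_injective (e : Module.End O (Hom1 (GamH M H) O)) :
    Function.Injective (goodToFull e) := by
  rw [injective_iff_map_eq_zero]
  intro x hx
  obtain ⟨a, rfl⟩ := Ideal.Quotient.mk_surjective x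
  rw [goodToFull_mk, Ideal.Quotient.eq_zero_iff_mem] at hx
  exact Ideal.Quotient.eq_zero_iff_mem.2 fun v => hx v

variable [IsDomain O] [IsDiscreteValuationRing O] [IsAdicComplete (maximalIdeal O) O] [CharZero O]
  [Finite (GamH M ⊤ ⧸ (GamH M H).subgroupOf (GamH M ⊤))]
  (e : Module.End O (Hom1 (GamH M H) O))

instance FullAlg.instFinite : Module.Finite O (FullAlg e) := by
  have := pairAlg_finite (M := M) (H := H) (O := O)
  exact Module.Finite.of_surjective (Ideal.Quotient.mkₐ O (annFull e)).toLinearMap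
    (Ideal.Quotient.mkₐ_surjective O (annFull e))

instance FullAlg.instIsTorsionFree : Module.IsTorsionFree O (FullAlg e) :=
  .of_smul_eq_zero fun c x h => (eq_or_ne c 0).imp id fun hc => by
    obtain ⟨a, rfl⟩ := Ideal.Quotient.mk_surjective x
    have h' : c • a ∈ annFull e := Ideal.Quotient.eq_zero_iff_mem.1 h
    refine Ideal.Quotient.eq_zero_iff_mem.2 fun v => AddMonoidHom.ext fun γ => ?_
    have h1 := DFunLike.congr_fun (h' v) γ
    rw [map_smul, LinearMap.smul_apply] at h1
    exact (mul_eq_zero.1 h1).resolve_left hc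

/-- **Points of the full algebra separate a reduced good algebra.** -/
theorem exists_points [Finite (ResidueField O)] [IsReduced (GoodAlg e)]
    (hne : ∃ v, e v ≠ 0) :
    ∃ (J : Type) (_ : Finite J) (_ : Nonempty J) (P : J → FA.RT.AlgPoint O (FullAlg e)),
      ∀ x : GoodAlg e, (∀ j, (P j).hom (goodToFull e x) = 0) → x = 0 := by
  refine exists_separating_points (O := O) (A := FullAlg e) (B := GoodAlg e) (goodToFull e)
    (goodToFull_injective e) ?_
  obtain ⟨v, hv⟩ := hne
  refine nontrivial_of_ne 1 0 fun h1 => hv ?_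
  have h : (1 : pairGood M H O) ∈ annE e := Ideal.Quotient.eq_zero_iff_mem.1 h1
  simpa using h v

variable {O' : Type} [CommRing O'] [IsDomain O'] [IsDiscreteValuationRing O']
  [IsAdicComplete (maximalIdeal O') O'] [CharZero O'] [Algebra O O']
  [IsLocalHom (algebraMap O O')] [Module.IsTorsionFree O O']

variable (O') in
/-- Coefficients extended. -/
abbrev extHom {Γ : Subgroup SL(2, ℤ)} (v : Hom1 Γ O) : Hom1 Γ O' :=
  FA.NebLocal.coefExt O' v

/-- A primitive class with the eigenvalues of a point, in the span of the image of `e`. -/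
def IsPointClass (f : FullAlg e →ₐ[O] O') (z : Hom1 (GamH M H) O') : Prop :=
  z ∉ maximalIdeal O' • (⊤ : Submodule O' (Hom1 (GamH M H) O')) ∧
    ∃ (n : ℕ) (b : Fin n → Hom1 (GamH M H) O) (w : Fin n → O'), (∀ i, e (b i) = b i) ∧
      z = ∑ i, w i • extHom O' (b i) ∧
      ∀ a, ∑ i, w i • extHom O' (fullOp M H O a (b i)) =
        f (Ideal.Quotient.mk _ a) • z

/-- **Points are primitive eigenclasses.** -/
theorem exists_pointClass (hidem : ∀ v, e (e v) = e v)
    (hcomm : ∀ a v, fullOp M H O a (e v) = e (fullOp M H O a v)) (f : FullAlg e →ₐ[O] O') :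
    ∃ z, IsPointClass e f z := by
  classical
  let V : Submodule O (Hom1 (GamH M H) O) := LinearMap.range e
  have hV : ∀ a, ∀ v ∈ V, fullOp M H O a v ∈ V := by
    rintro a _ ⟨u, rfl⟩
    exact ⟨fullOp M H O a u, (hcomm a u).symm⟩
  obtain ⟨n, v, w, hv, hne, heig⟩ := exists_eigen_hom V (fullOp M H O) hV
    (f.comp (Ideal.Quotient.mkₐ O (annFull e))) fun a ha => by
    show f (Ideal.Quotient.mk (annFull e) a) = 0
    rw [Ideal.Quotient.eq_zero_iff_mem.2 (show a ∈ annFull e from fun u => ha _ ⟨u, rfl⟩), map_zero]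
  -- a basis of the image, independent modulo the maximal ideal
  have : Module.Finite O (Hom1 (GamH M H) O) := hom1_finite_of_noetherian (GamH M H) O
  have : Module.IsTorsionFree O (Hom1 (GamH M H) O) :=
    .of_smul_eq_zero fun c z h => (eq_or_ne c 0).imp id fun hc => AddMonoidHom.ext fun γ =>
      (mul_eq_zero.1 (DFunLike.congr_fun h γ)).resolve_left hc
  let bV := Module.finBasis O V
  have hfix : ∀ x ∈ V, e x = x := by rintro _ ⟨u, rfl⟩; exact hidem u
  have hind : ∀ c : Fin (Module.finrank O V) → O, (∑ i, c i • (bV i).1) ∈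
      maximalIdeal O • (⊤ : Submodule O (Hom1 (GamH M H) O)) → ∀ i, c i ∈ maximalIdeal O := by
    intro c hc i
    have h1 : ∑ i, c i • bV i ∈ maximalIdeal O • (⊤ : Submodule O V) := by
      have h2 := map_mem_smul_top (e.codRestrict V fun x => ⟨x, rfl⟩) hc
      convert h2 using 1
      refine Subtype.ext ?_
      rw [Submodule.coe_sum]
      show _ = e (∑ i, c i • (bV i).1)
      rw [map_sum]
      exact Finset.sum_congr rfl fun i _ => by rw [map_smul, hfix _ (bV i).2]; rfl
    have h3 := map_mem_smul_top (bV.coord i) h1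
    rw [Module.Basis.coord_apply, Module.Basis.repr_sum_self, smul_eq_mul, Ideal.mul_top] at h3
    exact h3
  let c : Fin n → Fin (Module.finrank O V) → O := fun j i => bV.repr ⟨v j, hv j⟩ i
  have hvj : ∀ j, v j = ∑ i, c j i • (bV i).1 := fun j => by
    have h := congrArg Subtype.val (bV.sum_repr ⟨v j, hv j⟩)
    rw [Submodule.coe_sum] at h
    exact h.symm
  let w' : Fin (Module.finrank O V) → O' := fun i => ∑ j, w j * algebraMap O O' (c j i)
  have hlin : ∀ g : Module.End O (Hom1 (GamH M H) O), ∑ j, w j • extHom O' (g (v j)) =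
      ∑ i, w' i • extHom O' (g (bV i).1) := fun g => by
    refine AddMonoidHom.ext fun γ => ?_
    simp only [AddMonoidHom.finsetSum_apply, AddMonoidHom.smul_apply, FA.NebLocal.coefExt, extHom,
      AddMonoidHom.coe_comp, Function.comp_apply, w', Finset.sum_mul, smul_eq_mul, hvj, map_sum,
      map_smul]
    rw [Finset.sum_comm]
    refine Finset.sum_congr rfl fun j _ => ?_
    simp [Finset.mul_sum, mul_assoc]
  have hw' : w' ≠ 0 := fun h0 => hne <| by
    refine (hlin 1).trans (Finset.sum_eq_zero fun i _ => ?_)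
    rw [congrFun h0 i, Pi.zero_apply, zero_smul]
  -- remove the content
  obtain ⟨ϖ, hϖ⟩ := IsDiscreteValuationRing.exists_irreducible O'
  obtain ⟨i₀, hi₀⟩ := Function.ne_iff.1 hw'
  let S : Finset ℕ :=
    (Finset.univ.filter fun i => w' i ≠ 0).image fun i =>
      (IsDiscreteValuationRing.addVal O' (w' i)).toNat
  have hSne : S.Nonempty := ⟨_, Finset.mem_image_of_mem _ (Finset.mem_filter.2 ⟨Finset.mem_univ i₀, hi₀⟩)⟩
  let k := S.min' hSne
  have hdiv : ∀ i, ∃ u, w' i = ϖ ^ k * u := fun i => by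
    rcases eq_or_ne (w' i) 0 with h | h
    · exact ⟨0, by rw [h, mul_zero]⟩
    obtain ⟨m, u, hu⟩ := IsDiscreteValuationRing.eq_unit_mul_pow_irreducible h hϖ
    have hm : k ≤ m := by
      refine Finset.min'_le _ _ (Finset.mem_image.2 ⟨i, Finset.mem_filter.2 ⟨Finset.mem_univ i, h⟩, ?_⟩)
      rw [IsDiscreteValuationRing.addVal_def _ u hϖ m hu]
      rfl
    exact ⟨u * ϖ ^ (m - k), by rw [hu, mul_left_comm, ← pow_add, Nat.add_sub_cancel' hm]⟩
  choose u hu using hdiv
  obtain ⟨i₁, hi₁, hk⟩ := Finset.mem_image.1 (S.min'_mem hSne)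
  have hu₁ : u i₁ ∉ maximalIdeal O' := by
    rw [hϖ.maximalIdeal_eq, Ideal.mem_span_singleton']
    rintro ⟨t, ht⟩
    have h0 : w' i₁ ≠ 0 := (Finset.mem_filter.1 hi₁).2
    obtain ⟨m, x, hx⟩ := IsDiscreteValuationRing.eq_unit_mul_pow_irreducible h0 hϖ
    rw [IsDiscreteValuationRing.addVal_def _ x hϖ m hx] at hk
    change m = k at hk
    rw [hk, hu i₁, ← ht, mul_comm (x : O')] at hx
    have h2 : t * ϖ = (x : O') := mul_left_cancel₀ (pow_ne_zero _ hϖ.ne_zero) hx
    exact hϖ.not_isUnit (isUnit_of_mul_isUnit_right (h2 ▸ x.isUnit))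
  refine ⟨∑ i, u i • extHom O' (bV i).1, fun hmem => hu₁ ?_, _, fun i => (bV i).1, u,
    fun i => hfix _ (bV i).2, rfl, fun a => ?_⟩
  · exact FA.NebLocal.indep_coefExt (fun i => (bV i).1) hind u hmem i₁
  · have h1 : ϖ ^ k • ∑ i, u i • extHom O' (fullOp M H O a (bV i).1) =
        ϖ ^ k • (f (Ideal.Quotient.mk _ a) • ∑ i, u i • extHom O' (bV i).1) := by
      rw [smul_comm (ϖ ^ k), Finset.smul_sum, Finset.smul_sum]
      simp only [smul_smul, ← hu]
      rw [← hlin]
      refine (heig a).trans ?_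
      show f (Ideal.Quotient.mk _ a) • _ = _
      congr 1
      exact hlin 1
    refine AddMonoidHom.ext fun γ => ?_
    have h2 := DFunLike.congr_fun h1 γ
    exact mul_left_cancel₀ (pow_ne_zero k hϖ.ne_zero) h2

variable {e} {f : FullAlg e →ₐ[O] O'} {z : Hom1 (GamH M H) O'}

theorem IsPointClass.mem_Par (h : IsPointClass e f z)
    (hpar : ∀ v, e v ∈ Par (GamH M H) O) : z ∈ Par (GamH M H) O' := by
  obtain ⟨-, n, b, w, hb, rfl, -⟩ := h
  exact Submodule.sum_mem _ fun i _ => Submodule.smul_mem _ _ (Par_comp _ (hb i ▸ hpar (b i)))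

/-- The eigenvalue of a Hecke operator. -/
theorem IsPointClass.Tc_act (h : IsPointClass e f z) (ℓ : Nat.Primes) :
    haveI := Fact.mk ℓ.2
    (Tc M H (ℓ : ℕ)).act z = f (Ideal.Quotient.mk _ ⟨_, Tpair_mem M H O ℓ⟩) • z := by
  haveI := Fact.mk ℓ.2
  obtain ⟨-, n, b, w, hb, hz, heig⟩ := h
  rw [← heig, hz, map_sum]
  refine Finset.sum_congr rfl fun i _ => ?_
  rw [Corr.act_smul]
  congr 1
  exact Corr.act_comp_hom _ _ _

/-- The eigenvalue of a diamond. -/
theorem IsPointClass.dia_act [Fintype ((ZMod M)ˣ ⧸ H)] (h : IsPointClass e f z)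
    (x : (ZMod M)ˣ ⧸ H) :
    diaHom M H O' x z = f (Ideal.Quotient.mk _ ⟨_, diaPair_mem M H O x⟩) • z := by
  obtain ⟨-, n, b, w, hb, hz, heig⟩ := h
  rw [← heig, hz, map_sum]
  refine Finset.sum_congr rfl fun i _ => ?_
  rw [map_smul]
  congr 1

/-- **Residual values.** -/
theorem IsPointClass.mem_of_nilpotent (h : IsPointClass e f z) (a : pairAlg M H O)
    (hnil : ∃ k : ℕ, ∀ v, fullOp M H O (a ^ k) (e v) ∈
      maximalIdeal O • (⊤ : Submodule O (Hom1 (GamH M H) O))) :
    f (Ideal.Quotient.mk _ a) ∈ maximalIdeal O' := by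
  obtain ⟨hz0, n, b, w, hb, hz, heig⟩ := h
  obtain ⟨k, hk⟩ := hnil
  by_contra hu
  have hu' : IsUnit (f (Ideal.Quotient.mk _ (a ^ k))) := by
    rw [map_pow, map_pow]
    exact (IsLocalRing.notMem_maximalIdeal.1 hu).pow k
  refine hz0 ?_
  have hmem : (∑ i, w i • extHom O' (fullOp M H O (a ^ k) (b i))) ∈
      maximalIdeal O' • (⊤ : Submodule O' (Hom1 (GamH M H) O')) := by
    refine Submodule.sum_mem _ fun i _ => Submodule.smul_mem _ _ (mem_smul_top_of_values fun γ => ?_)
    have h1 := values_of_mem_smul_top (hk (b i)) γ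
    rw [hb i] at h1
    have hle : (maximalIdeal O).map (algebraMap O O') ≤ maximalIdeal O' :=
      ((local_hom_TFAE (algebraMap O O')).out 0 2).mp (inferInstance : IsLocalHom (algebraMap O O'))
    exact hle (Ideal.mem_map_of_mem _ h1)
  rw [heig (a ^ k)] at hmem
  obtain ⟨s, hs⟩ := hu'.exists_left_inv
  have h2 := Submodule.smul_mem _ s hmem
  rwa [smul_smul, hs, one_smul] at h2

end full

end FA.HeckeH1

end
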