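import Fermat.Agent.HeckeH1.PLevelsDepth
import Fermat.Agent.HeckeH1.PieceAlg
import Fermat.Agent.RT.Tower.Algebra

/-!
# Points of the quotients by the old parts at `p`

The quotient by the old part at `p` is torsion free, at the base by Ihara's lemma and at the
Taylor–Wiles levels by Nakayama over the group ring, so its algebra is torsion free and reduced and
is separated by the points of the algebra of all operators which kill the kernel.
-/

set_option autoImplicit false
set_option linter.unusedSectionVars false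
set_option linter.style.haveILetI false
set_option maxHeartbeats 1000000
set_option synthInstance.maxHeartbeats 200000

noncomputable section

namespace FA.HeckeH1

open IsLocalRing Polynomial
open scoped MatrixGroups

section quotient

variable {O : Type} [CommRing O] [IsDomain O] {B : Type} [CommRing B] [Algebra O B]

/-- In a reduced algebra an integral element is, up to a nonzero constant, a multiple of any of
its powers. -/
theorem exists_smul_eq_sq_mul [IsReduced B] {a : B} (ha : IsIntegral O a) :
    ∃ (c : O) (y : B), c ≠ 0 ∧ c • a = a ^ 2 * y := by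
  obtain ⟨q, hq, hq0⟩ := ha
  have hne : q ≠ 0 := hq.ne_zero
  obtain ⟨r, hr, hrd⟩ := q.exists_eq_pow_rootMultiplicity_mul_and_not_dvd hne 0
  rw [map_zero, sub_zero] at hr hrd
  set k := q.rootMultiplicity 0
  have hc : r.coeff 0 ≠ 0 := fun h => hrd (Polynomial.X_dvd_iff.2 h)
  have h1 : a ^ k * aeval a r = 0 := by
    have h2 : aeval a q = 0 := hq0
    rwa [hr, map_mul, map_pow, aeval_X] at h2
  have h3 : a * aeval a r = 0 := IsReduced.eq_zero _ ⟨k + 1, by
    linear_combination (a * aeval a r ^ k) * h1⟩
  refine ⟨r.coeff 0, -aeval a r.divX, hc, ?_⟩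
  have h4 : aeval a r = a * aeval a r.divX + algebraMap O B (r.coeff 0) := by
    conv_lhs => rw [← r.X_mul_divX_add]
    rw [map_add, map_mul, aeval_X, aeval_C]
  rw [Algebra.smul_def]
  linear_combination h3 - a * h4

/-- **A torsion free quotient of a reduced finite algebra is reduced.** -/
theorem isReduced_quotient_of_torsionFree [IsReduced B] [Algebra.IsIntegral O B] (I : Ideal B)
    [Module.IsTorsionFree O (B ⧸ I)] : IsReduced (B ⧸ I) := by
  refine (isReduced_iff_pow_one_lt 2 one_lt_two).2 fun x hx => ?_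
  obtain ⟨a, rfl⟩ := Ideal.Quotient.mk_surjective x
  obtain ⟨c, y, hc, h⟩ := exists_smul_eq_sq_mul (O := O) (Algebra.IsIntegral.isIntegral a)
  have h1 : c • Ideal.Quotient.mk I a = 0 := by
    rw [← Ideal.Quotient.mkₐ_eq_mk O, ← map_smul, h, map_mul, map_pow, Ideal.Quotient.mkₐ_eq_mk,
      hx, zero_mul]
  exact (smul_eq_zero.1 h1).resolve_left hc

variable {A : Type} [CommRing A] [Algebra O A] [Module.Finite O A]

/-- A point containing the kernel of another one has the same kernel. -/
theorem eq_zero_of_ker_le {B₁ B₂ : Type} [CommRing B₁] [IsDomain B₁] [Algebra O B₁]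
    [CommRing B₂] [IsDomain B₂] [Algebra O B₂] [Module.IsTorsionFree O B₂] (f : A →ₐ[O] B₁)
    (g : A →ₐ[O] B₂) (h : ∀ x, f x = 0 → g x = 0) {x : A} (hx : g x = 0) : f x = 0 := by
  by_contra hfx
  haveI : (RingHom.ker f.toRingHom).IsPrime := RingHom.ker_isPrime _
  have h1 : (RingHom.ker f.toRingHom).comap (algebraMap O A) <
      (RingHom.ker g.toRingHom).comap (algebraMap O A) :=
    Ideal.comap_lt_comap_of_integral_mem_sdiff (fun y hy => h y hy) ⟨hx, hfx⟩
      (Algebra.IsIntegral.isIntegral x)
  obtain ⟨c, hc, hcf⟩ := SetLike.exists_of_lt h1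
  have hc0 : c = 0 := FaithfulSMul.algebraMap_injective O B₂ (by
    rw [map_zero, ← g.commutes]; exact hc)
  exact hcf (by rw [hc0]; exact zero_mem _)

end quotient

section points

variable {O : Type} [CommRing O] [IsDomain O] [IsDiscreteValuationRing O]
  [IsAdicComplete (maximalIdeal O) O] [Finite (ResidueField O)] [CharZero O]
  {A B : Type} [CommRing A] [Algebra O A] [Module.Finite O A] [Module.IsTorsionFree O A]
  [CommRing B] [Algebra O B]

/-- **Points of an algebra killing an ideal of a subalgebra separate its quotient.** -/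
theorem exists_points_quot (g : B →ₐ[O] A) (hg : Function.Injective g) (I : Ideal B)
    [IsReduced (B ⧸ I)] [Module.IsTorsionFree O (B ⧸ I)] :
    ∃ (J : Type) (_ : Finite J) (P : J → FA.RT.AlgPoint O A),
      (∀ j, ∀ b ∈ I, (P j).hom (g b) = 0) ∧ ∀ b, (∀ j, (P j).hom (g b) = 0) → b ∈ I := by
  classical
  haveI : Module.Finite O B := Module.Finite.of_injective g.toLinearMap hg
  haveI : Module.Finite O (B ⧸ I) :=
    Module.Finite.of_surjective (Ideal.Quotient.mkₐ O I).toLinearMap (Ideal.Quotient.mkₐ_surjective O I)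
  obtain ⟨J, hJ, Q, hQ⟩ := FA.RT.exists_algPoints (O := O) (A := B ⧸ I)
  haveI : IsReduced (A ⧸ nilradical A) :=
    (Ideal.isRadical_iff_quotient_reduced _).1 (Ideal.radical_isRadical _)
  let q : ∀ j : J, B →ₐ[O] (Q j).B := fun j => (Q j).hom.comp (Ideal.Quotient.mkₐ O I)
  have key : ∀ j, ∃ P : FA.RT.AlgPoint O A, ∀ b, P.hom (g b) = 0 ↔ (q j) b = 0 := fun j => by
    let 𝔭 : Ideal B := RingHom.ker (q j).toRingHom
    haveI : 𝔭.IsPrime := RingHom.ker_isPrime _
    letI := g.toRingHom.toAlgebra
    haveI : IsScalarTower O B A := IsScalarTower.of_algebraMap_eq fun c => (g.commutes c).symm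
    haveI : Algebra.IsIntegral B A :=
      ⟨fun x => IsIntegral.tower_top (Algebra.IsIntegral.isIntegral (R := O) x)⟩
    obtain ⟨Pr, -, hPr, hcomap⟩ := Ideal.exists_ideal_over_prime_of_isIntegral 𝔭 (⊥ : Ideal A)
      (fun b hb => by
        rw [Ideal.mem_comap, Ideal.mem_bot] at hb
        have : b = 0 := hg (hb.trans (map_zero g).symm)
        simp [this])
    haveI := hPr
    have hmem : ∀ b, g b ∈ Pr ↔ (q j) b = 0 := fun b => by
      rw [show g b ∈ Pr ↔ b ∈ Pr.comap (algebraMap B A) from Iff.rfl, hcomap]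
      rfl
    have hinj : Function.Injective (algebraMap O (A ⧸ Pr)) := by
      rw [injective_iff_map_eq_zero]
      intro c hc
      have h0 : algebraMap O A c ∈ Pr := by
        have := hc
        rwa [show algebraMap O (A ⧸ Pr) c = Ideal.Quotient.mk Pr (algebraMap O A c) from rfl,
          Ideal.Quotient.eq_zero_iff_mem] at this
      rw [← g.commutes, hmem, AlgHom.commutes] at h0
      exact FaithfulSMul.algebraMap_injective O _ (h0.trans (map_zero _).symm)
    obtain ⟨P, hP⟩ := FA.RT.exists_algPoint_of_isDomain (O := O) (A := A ⧸ Pr) hinj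
    refine ⟨{ B := P.B, hom := P.hom.comp (Ideal.Quotient.mkₐ O Pr) }, fun b => ?_⟩
    rw [← hmem, ← Ideal.Quotient.eq_zero_iff_mem]
    exact ⟨fun h => hP (h.trans (map_zero P.hom).symm), fun h => (congrArg P.hom h).trans (map_zero _)⟩
  choose P hP using key
  refine ⟨J, hJ, P, fun j b hb => (hP j b).2 ?_, fun b hb => ?_⟩
  · show (Q j).hom (Ideal.Quotient.mk I b) = 0
    rw [Ideal.Quotient.eq_zero_iff_mem.2 hb, map_zero]
  · exact Ideal.Quotient.eq_zero_iff_mem.1 (hQ _ fun j => (hP j b).1 (hb j))

/-- The same for the algebra acting on a quotient. -/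
theorem exists_points_quotAlg (g : B →ₐ[O] A) (hg : Function.Injective g) {R W : Type} [CommRing R]
    [Algebra O R] [AddCommGroup W] [Module O W] [Module R W] [IsScalarTower O R W]
    (φ : B →ₐ[O] Module.End R W) (N : Submodule R W) (hN : ∀ a, ∀ v ∈ N, φ a v ∈ N)
    (htf : Module.IsTorsionFree O (QuotAlg φ N hN)) (hred : IsReduced (QuotAlg φ N hN)) :
    ∃ (J : Type) (_ : Finite J) (P : J → FA.RT.AlgPoint O A),
      (∀ j a, (Ideal.Quotient.mk _ a : QuotAlg φ N hN) = 0 → (P j).hom (g a) = 0) ∧
      ∀ a, (∀ j, (P j).hom (g a) = 0) → (Ideal.Quotient.mk _ a : QuotAlg φ N hN) = 0 := by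
  haveI := htf
  haveI := hred
  obtain ⟨J, hJ, P, h1, h2⟩ := exists_points_quot g hg (RingHom.ker (quotAct φ N hN))
  exact ⟨J, hJ, P, fun j a ha => h1 j a (Ideal.Quotient.eq_zero_iff_mem.1 ha),
    fun a ha => Ideal.Quotient.eq_zero_iff_mem.2 (h2 a ha)⟩

end points

section split

/-- The quotient by a split submodule of a torsion free module is torsion free. -/
theorem isTorsionFree_quot_of_leftInverse {O M N : Type} [CommRing O] [IsDomain O] [AddCommGroup M]
    [Module O M] [Module.IsTorsionFree O M] [AddCommGroup N] [Module O N] (f : N →ₗ[O] M)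
    (l : M →ₗ[O] N) (h : ∀ x, l (f x) = x) (c : O) (m : M) (hc : c ≠ 0)
    (hm : c • m ∈ LinearMap.range f) : m ∈ LinearMap.range f := by
  obtain ⟨x, hx⟩ := hm
  refine ⟨l m, ?_⟩
  have h1 : c • (f (l m) - m) = 0 := by
    rw [smul_sub, ← map_smul, ← map_smul, ← hx, h, sub_self]
  exact sub_eq_zero.1 ((smul_eq_zero.1 h1).resolve_left hc)

/-- A map of lattices injective modulo the maximal ideal has a left inverse. -/
theorem exists_leftInverse_of_residual {O M N : Type} [CommRing O] [IsDomain O]
    [IsDiscreteValuationRing O] [AddCommGroup M] [Module O M] [Module.Finite O M]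
    [Module.IsTorsionFree O M] [AddCommGroup N] [Module O N] [Module.Finite O N] (f : N →ₗ[O] M)
    (hres : ∀ z, f z ∈ maximalIdeal O • (⊤ : Submodule O M) →
      z ∈ maximalIdeal O • (⊤ : Submodule O N)) : ∃ l : M →ₗ[O] N, ∀ x, l (f x) = x := by
  obtain ⟨ϖ, hϖ⟩ := IsDiscreteValuationRing.exists_irreducible O
  have hmem : ∀ {X : Type} [AddCommGroup X] [Module O X] (x : X),
      x ∈ maximalIdeal O • (⊤ : Submodule O X) ↔ ∃ y, ϖ • y = x := fun x => by
    rw [hϖ.maximalIdeal_eq, Submodule.ideal_span_singleton_smul, Submodule.mem_smul_pointwise_iff_exists]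
    exact ⟨fun ⟨y, _, hy⟩ => ⟨y, hy⟩, fun ⟨y, hy⟩ => ⟨y, Submodule.mem_top, hy⟩⟩
  have hdiv : ∀ m, ϖ • m ∈ LinearMap.range f → m ∈ LinearMap.range f := fun m ⟨z, hz⟩ => by
    obtain ⟨y, rfl⟩ := (hmem z).1 (hres z ((hmem _).2 ⟨m, hz.symm⟩))
    rw [map_smul] at hz
    exact ⟨y, smul_right_injective M hϖ.ne_zero hz⟩
  have hker : LinearMap.ker f = ⊥ := by
    refine Submodule.eq_bot_of_le_smul_of_le_jacobson_bot (maximalIdeal O) _
      (IsNoetherian.noetherian _) (fun z hz => ?_) (maximalIdeal_le_jacobson _)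
    rw [LinearMap.mem_ker] at hz
    obtain ⟨y, rfl⟩ := (hmem z).1 (hres z (by rw [hz]; exact zero_mem _))
    rw [map_smul] at hz
    exact Submodule.smul_mem_smul ((IsLocalRing.mem_maximalIdeal _).2 hϖ.not_isUnit)
      (LinearMap.mem_ker.2 ((smul_eq_zero.1 hz).resolve_left hϖ.ne_zero))
  haveI : Module.IsTorsionFree O (M ⧸ LinearMap.range f) := .of_smul_eq_zero fun c x hx => by
    refine (eq_or_ne c 0).imp id fun hc => ?_
    obtain ⟨m, rfl⟩ := Submodule.Quotient.mk_surjective _ x
    rw [← Submodule.Quotient.mk_smul, Submodule.Quotient.mk_eq_zero] at hx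
    rw [Submodule.Quotient.mk_eq_zero]
    obtain ⟨n, u, rfl⟩ := IsDiscreteValuationRing.eq_unit_mul_pow_irreducible hc hϖ
    rw [mul_smul, ← Units.smul_def, Submodule.smul_mem_iff'] at hx
    clear hc
    induction n generalizing m with
    | zero => simpa using hx
    | succ n ih => exact ih m (hdiv _ (by rwa [pow_succ', mul_smul] at hx))
  haveI : Module.Free O (M ⧸ LinearMap.range f) := inferInstance
  obtain ⟨s, hs⟩ := Module.projective_lifting_property (LinearMap.range f).mkQ LinearMap.id
    (Submodule.mkQ_surjective _)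
  have hin : ∀ m, m - s ((LinearMap.range f).mkQ m) ∈ LinearMap.range f := fun m => by
    rw [← Submodule.Quotient.mk_eq_zero, Submodule.Quotient.mk_sub, sub_eq_zero]
    exact (LinearMap.congr_fun hs _).symm
  let e := LinearEquiv.ofInjective f (LinearMap.ker_eq_bot.1 hker)
  refine ⟨e.symm.toLinearMap.comp
    ((LinearMap.id - s.comp (LinearMap.range f).mkQ).codRestrict _ hin), fun x => ?_⟩
  refine e.injective ((e.apply_symm_apply _).trans (Subtype.ext ?_))
  show f x - s ((LinearMap.range f).mkQ (f x)) = f x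
  rw [Submodule.mkQ_apply,
    (Submodule.Quotient.mk_eq_zero (p := LinearMap.range f)).2 (LinearMap.mem_range_self f x),
    map_zero, sub_zero]

end split

variable {O : Type} [CommRing O] [IsDomain O] [IsDiscreteValuationRing O]
  [IsAdicComplete (maximalIdeal O) O] [CharZero O]

/-- The algebra acting on a torsion free quotient is torsion free. -/
theorem quotAlg_isTorsionFree {R A W : Type} [CommRing R] [Algebra O R] [CommRing A] [Algebra O A]
    [AddCommGroup W] [Module O W] [Module R W] [IsScalarTower O R W]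
    (φ : A →ₐ[O] Module.End R W) (P : Submodule R W) (hP : ∀ a, ∀ v ∈ P, φ a v ∈ P)
    (h : ∀ (c : O) (m : W), c ≠ 0 → c • m ∈ P → m ∈ P) :
    Module.IsTorsionFree O (QuotAlg φ P hP) :=
  .of_smul_eq_zero fun c x hx => (eq_or_ne c 0).imp id fun hc => by
    refine quotAlgAct_injective φ P hP ?_
    rw [map_zero]
    refine LinearMap.ext fun z => ?_
    obtain ⟨v, rfl⟩ := Submodule.Quotient.mk_surjective _ z
    obtain ⟨a, rfl⟩ := Ideal.Quotient.mk_surjective x
    rw [LinearMap.zero_apply, quotAlgAct_mk, Submodule.Quotient.mk_eq_zero]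
    refine h c _ hc ?_
    have h1 := congrArg (fun y : QuotAlg φ P hP => quotAlgAct φ P hP y (Submodule.Quotient.mk v)) hx
    simp only [map_smul, LinearMap.smul_apply, map_zero, LinearMap.zero_apply] at h1
    rw [quotAlgAct_mk, ← Submodule.Quotient.mk_smul, Submodule.Quotient.mk_eq_zero] at h1
    exact h1

section core

variable {M : ℕ} [NeZero M] {H : Subgroup (ZMod M)ˣ}
  [Finite (GamH M ⊤ ⧸ (GamH M H).subgroupOf (GamH M ⊤))] (e : Module.End O (Hom1 (GamH M H) O))
  (C : Set ℕ)

/-- The values on the full algebra of the elements of a core algebra. -/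
def coreToFull : coreAlg e C →ₐ[O] FullAlg e := (goodToFull e).comp (coreAlg e C).val

theorem coreToFull_injective : Function.Injective (coreToFull e C) :=
  (goodToFull_injective e).comp Subtype.val_injective

theorem coreAlg_isReduced [IsReduced (GoodAlg e)] : IsReduced (coreAlg e C) :=
  isReduced_of_injective (coreAlg e C).val Subtype.val_injective

theorem coreAlg_isIntegral : Algebra.IsIntegral O (coreAlg e C) :=
  haveI : Module.Finite O (coreAlg e C) :=
    Module.Finite.of_injective (coreAlg e C).val.toLinearMap Subtype.val_injective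
  inferInstance

end core

namespace PPart

variable {X : Type} [DecidableEq X] {qn : X → ℕ} {bad : Finset ℕ} {L : LevelSet qn bad}
  (P : PPart L) (c : Nat.Primes → ResidueField O) (U : Finset X)

section base

variable (hNE : ∀ N : ℕ, N ≠ 0 → ∃ ℓ : Nat.Primes, ¬ (ℓ : ℕ) ∣ N ∧
  ((ℓ : ℕ) : ZMod N) = 1 ∧ c ℓ ≠ ((ℓ : ℕ) : ResidueField O) + 1)
  {p : ℕ} (hp : p.Prime) [CharP (ResidueField O) p]

include hNE hp

/-- The maps up at `p` at the base split. -/
theorem exists_leftInverse_upB : ∃ l : (Fin (L.frame c U).d → O) →ₗ[O]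
    ((Fin (P.old.frame c U).d → O) × (Fin (P.old.frame c U).d → O)),
    ∀ z, l (P.upB c U z) = z :=
  exists_leftInverse_of_residual _ (P.upB_residual c U hNE hp)

/-- The quotient by the old part at the base is torsion free. -/
theorem newAlg_isTorsionFree : Module.IsTorsionFree O (P.newAlg c U) := by
  obtain ⟨l, hl⟩ := P.exists_leftInverse_upB c U hNE hp
  exact quotAlg_isTorsionFree _ _ _ fun d m hd hm => isTorsionFree_quot_of_leftInverse _ l hl d m hd hm

/-- The algebra of the quotient by the old part at the base is reduced. -/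
theorem newAlg_isReduced : IsReduced (P.newAlg c U) := by
  haveI : IsReduced (GoodAlg (L.frame c U).e) :=
    isReduced_goodAlg _ (L.frame_mem_Par c hNE U) ∅ (by simp) fun u _ => Subgroup.mem_top u
  haveI := coreAlg_isReduced (L.frame c U).e L.core
  haveI := coreAlg_isIntegral (L.frame c U).e L.core
  haveI := P.newAlg_isTorsionFree c U hNE hp
  exact isReduced_quotient_of_torsionFree (O := O) _

/-- **Points of the full algebra separate the quotient by the old part at the base.** -/
theorem exists_newPoints [Finite (ResidueField O)] :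
    ∃ (J : Type) (_ : Finite J) (R : J → FA.RT.AlgPoint O (FullAlg (L.frame c U).e)),
      (∀ j a, (Ideal.Quotient.mk _ a : P.newAlg c U) = 0 →
        (R j).hom (coreToFull (L.frame c U).e L.core a) = 0) ∧
      ∀ a, (∀ j, (R j).hom (coreToFull (L.frame c U).e L.core a) = 0) →
        (Ideal.Quotient.mk _ a : P.newAlg c U) = 0 := by
  exact exists_points_quotAlg (coreToFull (L.frame c U).e L.core) (coreToFull_injective _ _)
    (L.actB c U) (LinearMap.range (P.upB c U)) (P.upB_range_stable c U)
    (P.newAlg_isTorsionFree c U hNE hp) (P.newAlg_isReduced c U hNE hp)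

end base

section depth

variable {c} {G : Type} [CommGroup G] {bad' : Finset ℕ} (T : TWPart L c G bad')
  (hneat : IsNeatOn O (GamH P.L0 ⊤))
  (hNE : ∀ N : ℕ, N ≠ 0 → ∃ ℓ : Nat.Primes, ¬ (ℓ : ℕ) ∣ N ∧
    ((ℓ : ℕ) : ZMod N) = 1 ∧ c ℓ ≠ ((ℓ : ℕ) : ResidueField O) + 1)

include hNE

/-- **The maps up at `p` at a Taylor–Wiles level split.** -/
theorem exists_leftInverse_upD :
    ∃ l : (Fin (T.frame U).d → MonoidAlgebra O G) →ₗ[MonoidAlgebra O G]
      (P.MFd T hneat U × P.MFd T hneat U), ∀ z, l (P.upD T hneat U z) = z := by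
  classical
  haveI := T.charP
  haveI : Finite G := Finite.of_surjective T.κ T.surj
  have hpO : (T.p : O) ∈ maximalIdeal O := by
    rw [← residue_eq_zero_iff, map_natCast]
    exact CharP.cast_eq_zero _ _
  obtain ⟨l₀, hl₀⟩ := P.exists_leftInverse_upB c U hNE T.hp
  let R := MonoidAlgebra O G
  let red₂ : (P.MFd T hneat U × P.MFd T hneat U) →ₗ[O] _ :=
    ((P.oldTW T hneat).redL U).prodMap ((P.oldTW T hneat).redL U)
  have hs : ∀ j, ∃ w, red₂ w = l₀ (T.redL U (Pi.single j 1)) := fun j =>
    ((P.oldTW T hneat).redL_surjective U).prodMap ((P.oldTW T hneat).redL_surjective U) _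
  choose w hw using hs
  let b := Pi.basisFun R (Fin (T.frame U).d)
  let q : (Fin (T.frame U).d → R) →ₗ[R] (P.MFd T hneat U × P.MFd T hneat U) := b.constr R w
  have hsmul : ∀ (r : R) z, red₂ (r • z) = MonoidAlgebra.lift O O G 1 r • red₂ z := fun r z =>
    Prod.ext ((P.oldTW T hneat).redL_smul U r z.1) ((P.oldTW T hneat).redL_smul U r z.2)
  have hq : ∀ v, red₂ (q v) = l₀ (T.redL U v) := fun v => by
    rw [← b.sum_repr v, map_sum, map_sum, map_sum, map_sum]
    refine Finset.sum_congr rfl fun j _ => ?_
    rw [map_smul, hsmul, T.redL_smul, map_smul]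
    congr 1
    rw [show q (b j) = w j from b.constr_basis R w j, hw, Pi.basisFun_apply]
  let h := q ∘ₗ P.upD T hneat U
  have hh : ∀ z, red₂ (h z) = red₂ z := fun z => by
    show red₂ (q (P.upD T hneat U (z.1, z.2))) = _
    rw [hq, P.redL_upD, hl₀]
    rfl
  let J : Ideal R := RingHom.ker (MonoidAlgebra.lift O O G 1 : R →ₐ[O] O).toRingHom
  have hJ : J ≤ (⊥ : Ideal R).jacobson := fun x hx => Ideal.mem_jacobson_bot.2 fun y => by
    refine FA.RT.isUnit_of_isUnit_aug T.hp hpO T.isPGroup ?_
    rw [map_add, map_mul, show MonoidAlgebra.lift O O G 1 x = 0 from hx, zero_mul, zero_add]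
    exact IsUnit.map _ isUnit_one
  have hcomp : ∀ v : P.MFd T hneat U, (P.oldTW T hneat).redL U v = 0 →
      v ∈ J • (⊤ : Submodule R (P.MFd T hneat U)) := fun v hv => by
    rw [← Finset.univ_sum_single v]
    refine Submodule.sum_mem _ fun i _ => ?_
    rw [show (Pi.single i (v i) : P.MFd T hneat U) = v i • Pi.single i (1 : R) by
      rw [← Pi.single_smul, smul_eq_mul, mul_one]]
    refine Submodule.smul_mem_smul ?_ Submodule.mem_top
    have := congrFun hv (Fin.cast ((P.oldTW T hneat).frame_d U) i)
    exact this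
  have hker : ∀ z, red₂ z = 0 → z ∈ J • (⊤ : Submodule R (P.MFd T hneat U × P.MFd T hneat U)) := by
    rintro ⟨a, b'⟩ hz
    obtain ⟨ha, hb⟩ := Prod.mk.injEq .. ▸ hz
    have ha' := Submodule.smul_top_le_comap_smul_top J (LinearMap.inl R _ (P.MFd T hneat U)) (hcomp a ha)
    have hb' := Submodule.smul_top_le_comap_smul_top J (LinearMap.inr R (P.MFd T hneat U) _) (hcomp b' hb)
    have := Submodule.add_mem _ (Submodule.mem_comap.1 ha') (Submodule.mem_comap.1 hb')
    simpa using this
  have hsurj : Function.Surjective h := by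
    rw [← LinearMap.range_eq_top]
    refine top_unique (Submodule.le_of_le_smul_of_le_jacobson_bot Module.Finite.fg_top hJ
      fun z _ => ?_)
    rw [← add_sub_cancel (h z) z]
    exact Submodule.add_mem_sup ⟨z, rfl⟩ (hker _ (by rw [map_sub, hh, sub_self]))
  let e := LinearEquiv.ofBijective h ⟨OrzechProperty.injective_of_surjective_endomorphism h hsurj, hsurj⟩
  exact ⟨e.symm.toLinearMap ∘ₗ q, fun z => e.symm_apply_apply z⟩

/-- The algebra of the quotient by the old part at a Taylor–Wiles level is torsion free. -/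
theorem newAlgD_isTorsionFree : Module.IsTorsionFree O (P.newAlgD T hneat U) := by
  obtain ⟨l, hl⟩ := P.exists_leftInverse_upD U T hneat hNE
  exact quotAlg_isTorsionFree _ _ _ fun d m hd hm =>
    isTorsionFree_quot_of_leftInverse ((P.upD T hneat U).restrictScalars O) (l.restrictScalars O) hl
      d m hd hm

variable [IsReduced (GoodAlg (T.frame U).e)]

/-- The algebra of the quotient by the old part at a Taylor–Wiles level is reduced. -/
theorem newAlgD_isReduced : IsReduced (P.newAlgD T hneat U) := by
  haveI := coreAlg_isReduced (T.frame U).e L.core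
  haveI := coreAlg_isIntegral (T.frame U).e L.core
  haveI := P.newAlgD_isTorsionFree U T hneat hNE
  exact isReduced_quotient_of_torsionFree (O := O) _

/-- **Points of the full algebra separate the quotient by the old part at a Taylor–Wiles level.** -/
theorem exists_newPointsD [Finite (ResidueField O)] :
    ∃ (J : Type) (_ : Finite J) (R : J → FA.RT.AlgPoint O (FullAlg (T.frame U).e)),
      (∀ j a, (Ideal.Quotient.mk _ a : P.newAlgD T hneat U) = 0 →
        (R j).hom (coreToFull (T.frame U).e L.core a) = 0) ∧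
      ∀ a, (∀ j, (R j).hom (coreToFull (T.frame U).e L.core a) = 0) →
        (Ideal.Quotient.mk _ a : P.newAlgD T hneat U) = 0 := by
  exact exists_points_quotAlg (coreToFull (T.frame U).e L.core) (coreToFull_injective _ _)
    (T.actD U) (LinearMap.range (P.upD T hneat U)) (P.upD_range_stable T hneat U)
    (P.newAlgD_isTorsionFree U T hneat hNE) (P.newAlgD_isReduced U T hneat hNE)

end depth

end PPart

end FA.HeckeH1

end
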