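import Fermat.Agent.HeckeH1.LevelSet

/-!
The algebra acting on the quotient by a stable submodule, stability from the generators, and the
annihilator of the kernel of a map down when the composite down after up is injective.
-/

set_option autoImplicit false

noncomputable section

namespace FA.HeckeH1

open IsLocalRing
open scoped MatrixGroups

section quot

variable {O R A W : Type} [CommRing O] [CommRing R] [Algebra O R] [CommRing A] [Algebra O A]
  [AddCommGroup W] [Module O W] [Module R W] [IsScalarTower O R W]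
  (φ : A →ₐ[O] Module.End R W) (P : Submodule R W) (hP : ∀ a, ∀ v ∈ P, φ a v ∈ P)

/-- The action on the quotient by a stable submodule. -/
def quotAct : A →ₐ[O] Module.End R (W ⧸ P) where
  toFun a := P.mapQ P (φ a) fun v hv => hP a v hv
  map_one' := Submodule.linearMap_qext P (LinearMap.ext fun v => by simp)
  map_mul' a b := Submodule.linearMap_qext P (LinearMap.ext fun v => by simp)
  map_zero' := Submodule.linearMap_qext P (LinearMap.ext fun v => by simp)
  map_add' a b := Submodule.linearMap_qext P (LinearMap.ext fun v => by simp)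
  commutes' r := Submodule.linearMap_qext P (LinearMap.ext fun v => by
    simp [Module.algebraMap_end_apply])

theorem quotAct_mk (a : A) (v : W) :
    quotAct φ P hP a (Submodule.Quotient.mk v) = Submodule.Quotient.mk (φ a v) := rfl

/-- The algebra acting on the quotient. -/
abbrev QuotAlg : Type := A ⧸ RingHom.ker (quotAct φ P hP)

/-- Its action. -/
def quotAlgAct : QuotAlg φ P hP →ₐ[O] Module.End R (W ⧸ P) := Ideal.kerLiftAlg (quotAct φ P hP)

theorem quotAlgAct_mk (a : A) (v : W) :
    quotAlgAct φ P hP (Ideal.Quotient.mk _ a) (Submodule.Quotient.mk v) =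
      Submodule.Quotient.mk (φ a v) := rfl

theorem quotAlgAct_injective : Function.Injective (quotAlgAct φ P hP) :=
  Ideal.kerLiftAlg_injective _

/-- Elements with a nonzero multiple in the kernel are killed by characters to torsion free
algebras. -/
theorem apply_eq_zero_of_smul_mem {O' : Type} [CommRing O'] [Algebra O O']
    [Module.IsTorsionFree O O'] [IsDomain O] (f : QuotAlg φ P hP →ₐ[O] O') {D : O} (hD : D ≠ 0)
    (a : A) (h : ∀ v, D • φ a v ∈ P) : f (Ideal.Quotient.mk _ a) = 0 := by
  have h0 : D • a ∈ RingHom.ker (quotAct φ P hP) := by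
    rw [RingHom.mem_ker]
    refine Submodule.linearMap_qext P (LinearMap.ext fun v => ?_)
    show Submodule.Quotient.mk (φ (D • a) v) = (0 : W ⧸ P)
    rw [map_smul, LinearMap.smul_apply, Submodule.Quotient.mk_eq_zero]
    exact h v
  refine (smul_eq_zero.1 ?_).resolve_left hD
  rw [← map_smul, ← map_zero f]
  exact congrArg f (Ideal.Quotient.eq_zero_iff_mem.2 h0)

end quot

section generators

variable {M : ℕ} [NeZero M] {H : Subgroup (ZMod M)ˣ} {O : Type} [CommRing O] {R : Type} [CommRing R]
  [Algebra O R] {ρ : R →ₐ[O] Module.End O (Hom1 (GamH M H) O)} (F : Frame ρ)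
  (hρ : ∀ a r x, goodOp M H O a (ρ r x) = ρ r (goodOp M H O a x))
  (he : ∀ a x, goodOp M H O a (F.e x) = F.e (goodOp M H O a x))

/-- A submodule stable under the generators is stable. -/
theorem goodAct_stable (P : Submodule R (Fin F.d → R))
    (hT : ∀ ℓ, ∀ v ∈ P, goodAct F hρ he (goodT F.e ℓ) v ∈ P)
    (hD : ∀ x, ∀ v ∈ P, goodAct F hρ he (goodDia F.e x) v ∈ P) :
    ∀ a, ∀ v ∈ P, goodAct F hρ he a v ∈ P := by
  intro a
  obtain ⟨⟨a, ha⟩, rfl⟩ := Ideal.Quotient.mk_surjective a
  induction ha using Algebra.adjoin_induction with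
  | mem y hy =>
    rcases hy with ⟨ℓ, rfl⟩ | ⟨x, rfl⟩
    · exact hT ℓ
    · exact hD x
  | algebraMap r =>
    intro v hv
    have e : goodAct F hρ he (algebraMap O (GoodAlg F.e) r) v = r • v := by
      rw [AlgHom.commutes, Module.algebraMap_end_apply]
    refine (congrArg (· ∈ P) e).mpr ?_
    rw [← algebraMap_smul R r v]
    exact P.smul_mem _ hv
  | add x y hx hy ihx ihy =>
    intro v hv
    have e := LinearMap.congr_fun (map_add (goodAct F hρ he)
      (Ideal.Quotient.mk (annE F.e) ⟨x, hx⟩) (Ideal.Quotient.mk (annE F.e) ⟨y, hy⟩)) v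
    exact (congrArg (· ∈ P) e).mpr (P.add_mem (ihx v hv) (ihy v hv))
  | mul x y hx hy ihx ihy =>
    intro v hv
    have e := LinearMap.congr_fun (map_mul (goodAct F hρ he)
      (Ideal.Quotient.mk (annE F.e) ⟨x, hx⟩) (Ideal.Quotient.mk (annE F.e) ⟨y, hy⟩)) v
    exact (congrArg (· ∈ P) e).mpr (ihx _ (ihy v hv))

end generators

section kernel

variable {O W V : Type} [CommRing O] [IsDomain O] [AddCommGroup W] [Module O W] [Module.Free O W]
  [Module.Finite O W] [AddCommGroup V] [Module O V]

/-- An injective endomorphism of a lattice has a nonzero multiple of the identity in its range. -/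
theorem exists_smul_mem_range {g : W →ₗ[O] W} (hg : Function.Injective g) :
    ∃ D : O, D ≠ 0 ∧ ∀ w, ∃ u, g u = D • w := by
  classical
  let b := Module.Free.chooseBasis O W
  refine ⟨LinearMap.det g, fun h => LinearMap.det_eq_zero_iff_ker_ne_bot.1 h
    (LinearMap.ker_eq_bot_of_injective hg), fun w =>
      ⟨Matrix.toLin b b (LinearMap.toMatrix b b g).adjugate w, ?_⟩⟩
  conv_lhs => rw [← Matrix.toLin_toMatrix b b g, ← LinearMap.comp_apply, ← Matrix.toLin_mul,
    LinearMap.toMatrix_toLin, Matrix.mul_adjugate, LinearMap.det_toMatrix, map_smul,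
    Matrix.toLin_one]
  rfl

/-- An operator killing the kernel of `down` maps a multiple of everything into the range of `up`. -/
theorem exists_smul_apply_mem (up : W →ₗ[O] V) (down : V →ₗ[O] W)
    (hinj : Function.Injective (down ∘ₗ up)) :
    ∃ D : O, D ≠ 0 ∧ ∀ a : Module.End O V, (∀ v ∈ LinearMap.range up, a v ∈ LinearMap.range up) →
      (∀ v, down v = 0 → a v = 0) → ∀ v, D • a v ∈ LinearMap.range up := by
  obtain ⟨D, hD, h⟩ := exists_smul_mem_range hinj
  refine ⟨D, hD, fun a hst hker v => ?_⟩
  obtain ⟨u, hu⟩ := h (down v)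
  have h0 := hker (D • v - up u) (by rw [map_sub, map_smul]; exact sub_eq_zero.2 hu.symm)
  rw [map_sub, map_smul, sub_eq_zero] at h0
  rw [h0]
  exact hst _ (LinearMap.mem_range_self up u)

end kernel

section eigen

variable {Γ : Subgroup SL(2, ℤ)} {O : Type} [CommRing O] [IsDomain O] [IsPrincipalIdealRing O]
  {O' : Type} [CommRing O'] [IsDomain O'] [Algebra O O'] [Module.IsTorsionFree O O']
  {W A : Type} [AddCommGroup W] [Module O W] [Module.Free O W] [Module.Finite O W] [CommRing A]
  [Algebra O A]

/-- **Eigenclasses in a stable submodule of a lattice of classes.** A character vanishing on the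
annihilator of a stable submodule is attained by a parabolic class, killed by every correspondence
killing the submodule. -/
theorem exists_eigenclass_sub (ι : W →ₗ[O] Hom1 Γ O) (hι : Function.Injective ι)
    (φ : A →ₐ[O] Module.End O W) (V : Submodule O W) (hV : ∀ a, ∀ v ∈ V, φ a v ∈ V)
    (hpar : ∀ v ∈ V, ι v ∈ Par Γ O) (f : A →ₐ[O] O')
    (hker : ∀ a, (∀ v ∈ V, φ a v = 0) → f a = 0) :
    ∃ z : Hom1 Γ O', z ∈ Par Γ O' ∧ z ≠ 0 ∧
      (∀ (a : A) (P : Module.End O' (Hom1 Γ O')),
        (∀ v ∈ V, P ((algebraMap O O').toAddMonoidHom.comp (ι v)) =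
          (algebraMap O O').toAddMonoidHom.comp (ι (φ a v))) → P z = f a • z) ∧
      ∀ {Γ' : Subgroup SL(2, ℤ)} (C : Corr Γ Γ'),
        (∀ v ∈ V, C.act (ι v) = 0) → C.act z = 0 := by
  classical
  let bV := Module.finBasis O V
  let rV : A →ₐ[O] Module.End O V :=
    { toFun := fun a => (φ a).restrict fun v hv => hV a v hv
      map_one' := LinearMap.ext fun v => Subtype.ext (by simp)
      map_mul' := fun a b => LinearMap.ext fun v => Subtype.ext (by simp)
      map_zero' := LinearMap.ext fun v => Subtype.ext (by simp)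
      map_add' := fun a b => LinearMap.ext fun v => Subtype.ext (by simp)
      commutes' := fun c => LinearMap.ext fun v => Subtype.ext (by simp) }
  let R : A →ₐ[O] Matrix _ _ O := (LinearMap.toMatrixAlgEquiv bV).toAlgHom.comp rV
  obtain ⟨w, hw0, hw⟩ := exists_common_eigenvector R f fun a ha => hker a fun v hv => by
    have h : rV a = 0 := (LinearMap.toMatrixAlgEquiv bV).injective (by rw [map_zero]; exact ha)
    exact congrArg Subtype.val (LinearMap.congr_fun h ⟨v, hv⟩)
  refine ⟨∑ i, w i • (algebraMap O O').toAddMonoidHom.comp (ι (bV i).1), ?_, fun h => hw0 ?_,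
    fun a P hP => ?_, fun C hC => ?_⟩
  · exact Submodule.sum_mem _ fun i _ => Submodule.smul_mem _ _ (Par_comp _ (hpar _ (bV i).2))
  · refine eq_zero_of_sum_comp _ (bV.linearIndependent.map' (ι ∘ₗ V.subtype) ?_) w h
    rw [LinearMap.ker_eq_bot]
    exact hι.comp Subtype.val_injective
  · have hop : ∀ i, φ a (bV i).1 = ∑ j, R a j i • (bV j).1 := fun i => by
      have h := (bV.sum_repr (rV a (bV i))).symm
      have h2 := congrArg Subtype.val h
      rw [Submodule.coe_sum] at h2
      simpa [R, rV, LinearMap.toMatrixAlgEquiv_apply] using h2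
    have hcomp : ∀ i, P ((algebraMap O O').toAddMonoidHom.comp (ι (bV i).1)) =
        ∑ j, algebraMap O O' (R a j i) • (algebraMap O O').toAddMonoidHom.comp (ι (bV j).1) :=
      fun i => by
        apply AddMonoidHom.ext
        intro γ
        rw [hP _ (bV i).2, hop]
        simp [Algebra.smul_def]
    rw [map_sum]
    simp only [map_smul, hcomp, Finset.smul_sum, smul_smul]
    rw [Finset.sum_comm]
    refine Finset.sum_congr rfl fun j _ => ?_
    rw [← Finset.sum_smul]
    congr 1
    have h := congrFun (hw a) j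
    simp only [Matrix.mulVec, dotProduct, Matrix.map_apply, Pi.smul_apply, smul_eq_mul] at h
    rw [← h]
    exact Finset.sum_congr rfl fun i _ => mul_comm _ _
  · rw [map_sum]
    refine Finset.sum_eq_zero fun i _ => ?_
    rw [Corr.act_smul, Corr.act_comp_hom, hC _ (bV i).2, AddMonoidHom.comp_zero, smul_zero]

end eigen

end FA.HeckeH1

end
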