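import Fermat.Agent.RT.Tower.PDefs
import Fermat.Agent.HeckeH1.BaseTower
import Fermat.Agent.HeckeH1.QuotAlg
import Fermat.Agent.HeckeH1.NewClass
import Fermat.Agent.HeckeH1.SysStable

/-!
For levels `p L₀ ∏ q` at the base: the levels without `p`, the old part at `p`, the algebra of the
quotient by it, and eigenclasses of this algebra killed by both traces at `p`.
-/

set_option autoImplicit false
set_option linter.unusedSectionVars false

noncomputable section

namespace FA.HeckeH1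

open IsLocalRing
open scoped MatrixGroups

/-- A prime dividing exactly once the level `L₀`. -/
structure PPart {X : Type} [DecidableEq X] {qn : X → ℕ} {bad : Finset ℕ}
    (L : LevelSet qn bad) where
  /-- the prime -/
  p : ℕ
  hp : p.Prime
  /-- the rest of the level -/
  L0 : ℕ
  eq : L.L0 = L0 * p
  not_dvd : ¬ p ∣ L0
  mem_S : (⟨p, hp⟩ : Nat.Primes) ∈ L.S

namespace PPart

variable {X : Type} [DecidableEq X] {qn : X → ℕ} {bad : Finset ℕ} {L : LevelSet qn bad}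
  (P : PPart L)

/-- The levels without `p`. -/
def old : LevelSet qn bad where
  L0 := P.L0
  S := L.S
  pos h := L.pos (by rw [P.eq, h, zero_mul])
  prime := L.prime
  inj := L.inj
  not_dvd x h := L.not_dvd x (P.eq ▸ h.mul_right _)
  mem_S := L.mem_S
  mem_bad ℓ hℓ h := L.mem_bad ℓ hℓ (P.eq ▸ h.mul_right _)
  qn_bad := L.qn_bad

theorem mem_bad : P.p ∈ bad := L.mem_bad P.p P.hp (P.eq ▸ dvd_mul_left P.p P.L0)

theorem ne_qn (x : X) : qn x ≠ P.p := fun h => L.not_dvd x (by rw [P.eq, h]; exact dvd_mul_left _ _)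

theorem ne_of_not_mem (ℓ : Nat.Primes) (h : ℓ ∉ L.S) : (ℓ : ℕ) ≠ P.p := fun e =>
  h (by rw [show ℓ = ⟨P.p, P.hp⟩ from Subtype.ext e]; exact P.mem_S)

theorem not_dvd_lvl (U : Finset X) : ¬ P.p ∣ P.old.lvl U := fun h => by
  rcases P.old.prime_dvd_lvl P.hp h with h | ⟨x, -, e⟩
  · exact P.not_dvd h
  · exact P.ne_qn x e.symm

theorem lvl_eq (U : Finset X) : L.lvl U = P.old.lvl U * P.p := by
  show L.L0 * _ = P.L0 * _ * P.p
  rw [P.eq, mul_right_comm]

theorem p_dvd (U : Finset X) : P.p ∣ L.lvl U := ⟨_, (P.lvl_eq U).trans (mul_comm _ _)⟩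

/-- Removing `p` is a step. -/
theorem isStep (U : Finset X) :
    IsStep (P.old.lvl U) P.p (⊤ : Subgroup (ZMod (P.old.lvl U))ˣ) (L.lvl U)
      (⊤ : Subgroup (ZMod (L.lvl U))ˣ) where
  not_dvd := P.not_dvd_lvl U
  eq := P.lvl_eq U
  dvd := ⟨P.p, P.lvl_eq U⟩
  mem _ := iff_of_true (Subgroup.mem_top _) (Subgroup.mem_top _)

variable {O : Type} [CommRing O] [IsDomain O] [IsDiscreteValuationRing O]
  [IsAdicComplete (maximalIdeal O) O] [CharZero O] (c : Nat.Primes → ResidueField O) (U : Finset X)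

/-- The first map up at `p`. -/
def upB₁ : (Fin (P.old.frame c U).d → O) →ₗ[O] (Fin (L.frame c U).d → O) :=
  haveI : Fact P.p.Prime := ⟨P.hp⟩
  (P.old.frame c U).transfer (L.frame c U) (P.isStep U).res.actLin (scalars_comm _)

/-- The second map up at `p`. -/
def upB₂ : (Fin (P.old.frame c U).d → O) →ₗ[O] (Fin (L.frame c U).d → O) :=
  haveI : Fact P.p.Prime := ⟨P.hp⟩
  (P.old.frame c U).transfer (L.frame c U) (P.isStep U).I2'.actLin (scalars_comm _)

/-- The sum of the two maps. -/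
def upB : ((Fin (P.old.frame c U).d → O) × (Fin (P.old.frame c U).d → O)) →ₗ[O]
    (Fin (L.frame c U).d → O) :=
  (P.upB₁ c U).coprod (P.upB₂ c U)

/-- The first trace at `p`. -/
def downB₁ : (Fin (L.frame c U).d → O) →ₗ[O] (Fin (P.old.frame c U).d → O) :=
  (L.frame c U).transfer (P.old.frame c U)
    (Corr.cores (Γ := GamH (P.old.lvl U) ⊤) (Γ' := GamH (L.lvl U) ⊤)).actLin (scalars_comm _)

/-- The second trace at `p`. -/
def downB₂ : (Fin (L.frame c U).d → O) →ₗ[O] (Fin (P.old.frame c U).d → O) :=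
  haveI : Fact P.p.Prime := ⟨P.hp⟩
  (L.frame c U).transfer (P.old.frame c U) (P.isStep U).J2'.actLin (scalars_comm _)

/-- The pair of the traces at `p`. -/
def downB : (Fin (L.frame c U).d → O) →ₗ[O]
    ((Fin (P.old.frame c U).d → O) × (Fin (P.old.frame c U).d → O)) :=
  (P.downB₁ c U).prod (P.downB₂ c U)

/-- The operator `T_p` on a level without `p`. -/
def TpB : Module.End O (Fin (P.old.frame c U).d → O) :=
  goodAct (P.old.frame c U) (P.old.goodOp_scalars U) (P.old.goodOp_frame_e c U)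
    (goodT (P.old.frame c U).e ⟨P.p, P.hp, P.not_dvd_lvl U⟩)

theorem TpB_apply (a : Fin (P.old.frame c U).d → O) :
    haveI : Fact P.p.Prime := ⟨P.hp⟩
    P.TpB c U a =
      (P.old.frame c U).coord ((Tc (P.old.lvl U) ⊤ P.p).act ((P.old.frame c U).emb a)) := by
  have : Fact P.p.Prime := ⟨P.hp⟩
  rw [TpB, goodT, goodAct_apply, goodOp_goodTp]

theorem emb_TpB (a : Fin (P.old.frame c U).d → O) :
    haveI : Fact P.p.Prime := ⟨P.hp⟩
    (P.old.frame c U).emb (P.TpB c U a) =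
      (Tc (P.old.lvl U) ⊤ P.p).act ((P.old.frame c U).emb a) := by
  have : Fact P.p.Prime := ⟨P.hp⟩
  have h := P.old.goodOp_frame_e c U (goodTp (P.old.lvl U) ⊤ O ⟨P.p, P.hp, P.not_dvd_lvl U⟩)
    ((P.old.frame c U).emb a)
  rw [goodOp_goodTp, Frame.e_emb] at h
  rw [P.TpB_apply, Frame.emb_coord]
  exact h.symm

theorem res_stable (z : Hom1 (GamH (P.old.lvl U) ⊤) O) :
    haveI : Fact P.p.Prime := ⟨P.hp⟩
    (L.frame c U).e ((P.isStep U).res.actLin ((P.old.frame c U).e z)) =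
      (P.isStep U).res.actLin ((P.old.frame c U).e z) :=
  haveI : Fact P.p.Prime := ⟨P.hp⟩
  sys_stable (S := L.S) (c := c) (P.isStep U).res.actLin
    (fun ℓ hℓ z => ((P.isStep U).res_Tc (P.ne_of_not_mem ℓ hℓ) z).symm) z

theorem I2_stable (z : Hom1 (GamH (P.old.lvl U) ⊤) O) :
    haveI : Fact P.p.Prime := ⟨P.hp⟩
    (L.frame c U).e ((P.isStep U).I2'.actLin ((P.old.frame c U).e z)) =
      (P.isStep U).I2'.actLin ((P.old.frame c U).e z) :=
  haveI : Fact P.p.Prime := ⟨P.hp⟩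
  sys_stable (S := L.S) (c := c) (P.isStep U).I2'.actLin
    (fun ℓ hℓ z => ((P.isStep U).I2_Tc (P.ne_of_not_mem ℓ hℓ) z).symm) z

theorem cores_stable (z : Hom1 (GamH (L.lvl U) ⊤) O) :
    haveI : Fact P.p.Prime := ⟨P.hp⟩
    (P.old.frame c U).e
        ((Corr.cores (Γ := GamH (P.old.lvl U) ⊤)).actLin ((L.frame c U).e z)) =
      (Corr.cores (Γ := GamH (P.old.lvl U) ⊤)).actLin ((L.frame c U).e z) :=
  haveI : Fact P.p.Prime := ⟨P.hp⟩
  sys_stable (S := L.S) (c := c) (Corr.cores (Γ := GamH (P.old.lvl U) ⊤)).actLin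
    (fun ℓ hℓ z => (P.isStep U).cores_Tc (P.ne_of_not_mem ℓ hℓ) z) z

theorem J2_stable (z : Hom1 (GamH (L.lvl U) ⊤) O) :
    haveI : Fact P.p.Prime := ⟨P.hp⟩
    (P.old.frame c U).e ((P.isStep U).J2'.actLin ((L.frame c U).e z)) =
      (P.isStep U).J2'.actLin ((L.frame c U).e z) :=
  haveI : Fact P.p.Prime := ⟨P.hp⟩
  sys_stable (S := L.S) (c := c) (P.isStep U).J2'.actLin
    (fun ℓ hℓ z => (P.isStep U).J2_Tc' (P.ne_of_not_mem ℓ hℓ) z) z

theorem downB₁_upB₁ (a : Fin (P.old.frame c U).d → O) :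
    P.downB₁ c U (P.upB₁ c U a) = (P.p + 1 : ℕ) • a := by
  have : Fact P.p.Prime := ⟨P.hp⟩
  rw [downB₁, upB₁, Frame.transfer_comp _ _ _ _ _ _ _ (P.res_stable c U), Corr.actLin_apply,
    Corr.actLin_apply, (P.isStep U).cores_res', map_nsmul, Frame.coord_emb]

theorem downB₁_upB₂ (b : Fin (P.old.frame c U).d → O) :
    P.downB₁ c U (P.upB₂ c U b) = P.TpB c U b := by
  have : Fact P.p.Prime := ⟨P.hp⟩
  have : Subsingleton ((ZMod (P.old.lvl U))ˣ ⧸ (⊤ : Subgroup (ZMod (P.old.lvl U))ˣ)) :=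
    QuotientGroup.subsingleton_quotient_top
  rw [downB₁, upB₂, Frame.transfer_comp _ _ _ _ _ _ _ (P.I2_stable c U), Corr.actLin_apply,
    Corr.actLin_apply, (P.isStep U).cores_I2',
    Subsingleton.elim (qDia (P.old.lvl U) ⊤ (P.isStep U).not_dvd)⁻¹ 1, map_one,
    Module.End.one_apply, P.TpB_apply]

theorem downB₂_upB₁ (a : Fin (P.old.frame c U).d → O) :
    P.downB₂ c U (P.upB₁ c U a) = P.TpB c U a := by
  have : Fact P.p.Prime := ⟨P.hp⟩
  rw [downB₂, upB₁, Frame.transfer_comp _ _ _ _ _ _ _ (P.res_stable c U), Corr.actLin_apply,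
    Corr.actLin_apply, (P.isStep U).J2_res', P.TpB_apply]

theorem downB₂_upB₂ (b : Fin (P.old.frame c U).d → O) :
    P.downB₂ c U (P.upB₂ c U b) = (P.p + 1 : ℕ) • b := by
  have : Fact P.p.Prime := ⟨P.hp⟩
  rw [downB₂, upB₂, Frame.transfer_comp _ _ _ _ _ _ _ (P.I2_stable c U), Corr.actLin_apply,
    Corr.actLin_apply, (P.isStep U).J2_I2', map_nsmul, Frame.coord_emb]

/-- The composite of the maps at `p`. -/
theorem downB_upB (a b : Fin (P.old.frame c U).d → O) :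
    P.downB c U (P.upB c U (a, b)) =
      ((P.p + 1 : ℕ) • a + P.TpB c U b,
        P.TpB c U a + (P.p + 1 : ℕ) • b) := by
  simp only [upB, downB, LinearMap.coprod_apply, LinearMap.prod_apply, Function.prod_apply,
    map_add, P.downB₁_upB₁, P.downB₁_upB₂, P.downB₂_upB₁, P.downB₂_upB₂, Prod.mk_add_mk]

/-- The composite is injective when `(p + 1)² - T_p²` is. -/
theorem downB_upB_injective
    (hdet : ∀ z : Hom1 (GamH (P.old.lvl U) ⊤) O, (P.old.frame c U).e z = z →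
      haveI : Fact P.p.Prime := ⟨P.hp⟩
      (Tc (P.old.lvl U) ⊤ P.p).act ((Tc (P.old.lvl U) ⊤ P.p).act z) =
        ((P.p + 1) * (P.p + 1) : ℕ) • z → z = 0) :
    Function.Injective (P.downB c U ∘ₗ P.upB c U) := by
  have : Fact P.p.Prime := ⟨P.hp⟩
  have hdet' : ∀ a, P.TpB c U (P.TpB c U a) = ((P.p + 1) * (P.p + 1) : ℕ) • a → a = 0 := fun a h =>
    (P.old.frame c U).emb_injective (by
      rw [map_zero]
      refine hdet _ ((P.old.frame c U).e_emb a) ?_
      rw [← P.emb_TpB, ← P.emb_TpB, h, map_nsmul])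
  rw [injective_iff_map_eq_zero]
  rintro ⟨a, b⟩ h
  rw [LinearMap.comp_apply, P.downB_upB] at h
  set T := P.TpB c U
  have h1 : T b = -((P.p + 1 : ℕ) • a) := eq_neg_of_add_eq_zero_right (congrArg Prod.fst h)
  have h2 : T a = -((P.p + 1 : ℕ) • b) := eq_neg_of_add_eq_zero_left (congrArg Prod.snd h)
  have ha : a = 0 := hdet' a (by rw [h2, map_neg, map_nsmul, h1, smul_neg, neg_neg, mul_smul])
  have hb : b = 0 := hdet' b (by rw [h1, map_neg, map_nsmul, h2, smul_neg, neg_neg, mul_smul])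
  rw [ha, hb]
  rfl

theorem upB_goodT {ℓ : ℕ} (hℓ : ℓ.Prime) (h₁ : ¬ ℓ ∣ P.old.lvl U) (h₂ : ¬ ℓ ∣ L.lvl U)
    (hne : ℓ ≠ P.p) (a b : Fin (P.old.frame c U).d → O) :
    P.upB c U (goodAct (P.old.frame c U) (P.old.goodOp_scalars U) (P.old.goodOp_frame_e c U)
      (goodT (P.old.frame c U).e ⟨ℓ, hℓ, h₁⟩) a,
        goodAct (P.old.frame c U) (P.old.goodOp_scalars U) (P.old.goodOp_frame_e c U)
      (goodT (P.old.frame c U).e ⟨ℓ, hℓ, h₁⟩) b) =
      goodAct (L.frame c U) (L.goodOp_scalars U) (L.goodOp_frame_e c U)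
      (goodT (L.frame c U).e ⟨ℓ, hℓ, h₂⟩) (P.upB c U (a, b)) := by
  have : Fact ℓ.Prime := ⟨hℓ⟩
  have : Fact P.p.Prime := ⟨P.hp⟩
  have e₁ : P.upB₁ c U (goodAct (P.old.frame c U) (P.old.goodOp_scalars U) (P.old.goodOp_frame_e c U)
      (goodT (P.old.frame c U).e ⟨ℓ, hℓ, h₁⟩) a) =
      goodAct (L.frame c U) (L.goodOp_scalars U) (L.goodOp_frame_e c U)
      (goodT (L.frame c U).e ⟨ℓ, hℓ, h₂⟩) (P.upB₁ c U a) :=
    transfer_goodAct (P.old.frame c U) (P.old.goodOp_scalars U) (P.old.goodOp_frame_e c U)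
      (L.frame c U) (L.goodOp_scalars U) (L.goodOp_frame_e c U) (P.isStep U).res.actLin _
      (goodTp (P.old.lvl U) ⊤ O ⟨ℓ, hℓ, h₁⟩) (goodTp (L.lvl U) ⊤ O ⟨ℓ, hℓ, h₂⟩)
      (fun z => ((P.isStep U).res_Tc hne z).symm) a
  have e₂ : P.upB₂ c U (goodAct (P.old.frame c U) (P.old.goodOp_scalars U) (P.old.goodOp_frame_e c U)
      (goodT (P.old.frame c U).e ⟨ℓ, hℓ, h₁⟩) b) =
      goodAct (L.frame c U) (L.goodOp_scalars U) (L.goodOp_frame_e c U)
      (goodT (L.frame c U).e ⟨ℓ, hℓ, h₂⟩) (P.upB₂ c U b) :=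
    transfer_goodAct (P.old.frame c U) (P.old.goodOp_scalars U) (P.old.goodOp_frame_e c U)
      (L.frame c U) (L.goodOp_scalars U) (L.goodOp_frame_e c U) (P.isStep U).I2'.actLin _
      (goodTp (P.old.lvl U) ⊤ O ⟨ℓ, hℓ, h₁⟩) (goodTp (L.lvl U) ⊤ O ⟨ℓ, hℓ, h₂⟩)
      (fun z => ((P.isStep U).I2_Tc hne z).symm) b
  simp only [upB, LinearMap.coprod_apply, map_add]
  exact congrArg₂ (· + ·) e₁ e₂

theorem upB_comm {ℓ : ℕ} (hℓ : ℓ.Prime) (hb : ℓ ∉ bad) (a b : Fin (P.old.frame c U).d → O) :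
    P.upB c U (P.old.actB c U (P.old.TB c U ℓ) a, P.old.actB c U (P.old.TB c U ℓ) b) =
      L.actB c U (L.TB c U ℓ) (P.upB c U (a, b)) := by
  have h₁ := P.old.not_dvd_of_not_bad hℓ hb U
  have h₂ := L.not_dvd_of_not_bad hℓ hb U
  have gen : ∀ (y : P.old.alg c U) (y' : L.alg c U),
      y.1 = goodT (P.old.frame c U).e ⟨ℓ, hℓ, h₁⟩ → y'.1 = goodT (L.frame c U).e ⟨ℓ, hℓ, h₂⟩ →
      P.upB c U (P.old.actB c U y a, P.old.actB c U y b) = L.actB c U y' (P.upB c U (a, b)) := by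
    intro y y' hy hy'
    show P.upB c U
        (goodAct (P.old.frame c U) (P.old.goodOp_scalars U) (P.old.goodOp_frame_e c U) y.1 a,
          goodAct (P.old.frame c U) (P.old.goodOp_scalars U) (P.old.goodOp_frame_e c U) y.1 b) =
      goodAct (L.frame c U) (L.goodOp_scalars U) (L.goodOp_frame_e c U) y'.1 (P.upB c U (a, b))
    rw [hy, hy']
    exact P.upB_goodT c U hℓ h₁ h₂ (fun e => hb (e ▸ P.mem_bad)) a b
  exact gen _ _ (P.old.TB_val c U hℓ h₁ (P.old.core_of_not_bad hb))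
    (L.TB_val c U hℓ h₂ (L.core_of_not_bad hb))

theorem upB_range_stable (a : L.alg c U) :
    ∀ v ∈ LinearMap.range (P.upB c U), L.actB c U a v ∈ LinearMap.range (P.upB c U) := by
  refine goodAct_stable (L.frame c U) (L.goodOp_scalars U) (L.goodOp_frame_e c U) _
    (fun ℓ => ?_) (fun x => ?_) a.1
  · rintro _ ⟨⟨u, w⟩, rfl⟩
    have hℓ : ¬ ℓ.1 ∣ P.old.lvl U := fun h => ℓ.2.2 (h.trans (P.isStep U).dvd)
    have hne : ℓ.1 ≠ P.p := fun e => ℓ.2.2 (e.symm ▸ P.p_dvd U)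
    exact ⟨_, P.upB_goodT c U ℓ.2.1 hℓ ℓ.2.2 hne u w⟩
  · have : Subsingleton ((ZMod (L.lvl U))ˣ ⧸ (⊤ : Subgroup (ZMod (L.lvl U))ˣ)) :=
      QuotientGroup.subsingleton_quotient_top
    intro v hv
    obtain rfl : x = 1 := Subsingleton.elim _ _
    have e : goodDia (L.frame c U).e (1 : (ZMod (L.lvl U))ˣ ⧸ (⊤ : Subgroup (ZMod (L.lvl U))ˣ)) = 1 :=
      map_one _
    rw [e, map_one]
    exact hv

/-- The old parts at `p` and the algebras of the quotients by them. -/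
def pLevels : FA.RT.PLevels (L.baseLevels c) where
  MF U := Fin (P.old.frame c U).d → O
  AF U := P.old.alg c U
  actF U := P.old.actB c U
  TF U ℓ := P.old.TB c U ℓ
  upP U := P.upB c U
  upP_comm U _ hℓ hb a b := P.upB_comm c U hℓ hb a b
  AS U := QuotAlg (L.actB c U) (LinearMap.range (P.upB c U)) (P.upB_range_stable c U)
  actS U := quotAlgAct (L.actB c U) (LinearMap.range (P.upB c U)) (P.upB_range_stable c U)
  TS U ℓ := Ideal.Quotient.mk _ (L.TB c U ℓ)
  actS_mk U ℓ _ _ z :=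
    quotAlgAct_mk (L.actB c U) (LinearMap.range (P.upB c U)) (P.upB_range_stable c U) (L.TB c U ℓ) z

theorem pLevels_actS_injective : Function.Injective ((P.pLevels c).actS U) :=
  quotAlgAct_injective _ _ _

section residual

variable (hNE : ∀ N : ℕ, N ≠ 0 → ∃ ℓ : Nat.Primes, ¬ (ℓ : ℕ) ∣ N ∧
  ((ℓ : ℕ) : ZMod N) = 1 ∧ c ℓ ≠ ((ℓ : ℕ) : ResidueField O) + 1)
  {p : ℕ} (hp : p.Prime) [CharP (ResidueField O) p]

include hNE hp in
/-- **Ihara's lemma at `p`.** -/
theorem upB_residual (z : (Fin (P.old.frame c U).d → O) × (Fin (P.old.frame c U).d → O))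
    (h : P.upB c U z ∈ maximalIdeal O • (⊤ : Submodule O (Fin (L.frame c U).d → O))) :
    z ∈ maximalIdeal O • (⊤ : Submodule O
      ((Fin (P.old.frame c U).d → O) × (Fin (P.old.frame c U).d → O))) := by
  have : Fact P.p.Prime := ⟨P.hp⟩
  obtain ⟨a, b⟩ := z
  let F := P.old.frame c U
  let F' := L.frame c U
  rw [upB, LinearMap.coprod_apply] at h
  have h' := Submodule.smul_top_le_comap_smul_top (maximalIdeal O) F'.emb h
  rw [Submodule.mem_comap, map_add, upB₁, upB₂, Frame.emb_transfer, Frame.emb_transfer] at h'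
  have e₁ := P.res_stable c U (F.emb a)
  have e₂ := P.I2_stable c U (F.emb b)
  rw [Frame.e_emb] at e₁ e₂
  rw [e₁, e₂, Corr.actLin_apply, Corr.actLin_apply] at h'
  obtain ⟨hA, hB⟩ := sys_up_residual (c := c) (S := L.S) hNE hp (P.isStep U) (F.emb a) (F.emb b)
    (F.e_emb a) (F.e_emb b) h'
  have ha := Submodule.smul_top_le_comap_smul_top (maximalIdeal O)
    ((LinearMap.inl O (Fin F.d → O) (Fin F.d → O)).comp F.coord) hA
  have hb := Submodule.smul_top_le_comap_smul_top (maximalIdeal O)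
    ((LinearMap.inr O (Fin F.d → O) (Fin F.d → O)).comp F.coord) hB
  rw [Submodule.mem_comap, LinearMap.comp_apply, F.coord_emb] at ha hb
  have := Submodule.add_mem _ ha hb
  simpa [F] using this

/-- The classes of the piece killed by both traces at `p`. -/
def newSpace : Submodule O (Hom1 (GamH (L.lvl U) ⊤) O) :=
  haveI : Fact P.p.Prime := ⟨P.hp⟩
  LinearMap.ker ((L.frame c U).e - 1) ⊓
    (LinearMap.ker (Corr.cores (Γ := GamH (P.old.lvl U) ⊤) (Γ' := GamH (L.lvl U) ⊤)).actLin ⊓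
      LinearMap.ker (P.isStep U).J2'.actLin)

theorem mem_newSpace {v : Hom1 (GamH (L.lvl U) ⊤) O} :
    haveI : Fact P.p.Prime := ⟨P.hp⟩
    v ∈ P.newSpace c U ↔ (L.frame c U).e v = v ∧
      (Corr.cores (Γ := GamH (P.old.lvl U) ⊤)).act v = 0 ∧ (P.isStep U).J2'.act v = 0 := by
  simp [newSpace, sub_eq_zero, Corr.actLin_apply]

theorem newSpace_stable (a : pairGood (L.lvl U) ⊤ O) :
    ∀ v ∈ P.newSpace c U, goodOp (L.lvl U) ⊤ O a v ∈ P.newSpace c U := by
  have : Fact P.p.Prime := ⟨P.hp⟩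
  obtain ⟨a, ha⟩ := a
  induction ha using Algebra.adjoin_induction with
  | mem y hy =>
    intro v hv
    obtain ⟨h1, h2, h3⟩ := (P.mem_newSpace c U).1 hv
    rcases hy with ⟨ℓ, rfl⟩ | ⟨x, rfl⟩
    · have hne : ℓ.1 ≠ P.p := fun e => ℓ.2.2 (e.symm ▸ P.p_dvd U)
      refine (P.mem_newSpace c U).2 ⟨?_, ?_, ?_⟩
      · exact (L.goodOp_frame_e c U _ v).symm.trans (congrArg _ h1)
      · exact ((P.isStep U).cores_Tc hne v).trans (by rw [h2, map_zero])
      · exact ((P.isStep U).J2_Tc' hne v).trans (by rw [h3, map_zero])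
    · have : Subsingleton ((ZMod (L.lvl U))ˣ ⧸ (⊤ : Subgroup (ZMod (L.lvl U))ˣ)) :=
        QuotientGroup.subsingleton_quotient_top
      obtain rfl : x = 1 := Subsingleton.elim _ _
      show diaHom (L.lvl U) ⊤ O 1 v ∈ P.newSpace c U
      rw [map_one]
      exact hv
  | algebraMap r =>
    intro v hv
    exact (P.newSpace c U).smul_mem r hv
  | add x y hx hy ihx ihy => exact fun v hv => (P.newSpace c U).add_mem (ihx v hv) (ihy v hv)
  | mul x y hx hy ihx ihy => exact fun v hv => ihx _ (ihy v hv)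

theorem emb_mem_newSpace {v : Fin (L.frame c U).d → O} (hv : P.downB c U v = 0) :
    (L.frame c U).emb v ∈ P.newSpace c U := by
  have : Fact P.p.Prime := ⟨P.hp⟩
  refine (P.mem_newSpace c U).2 ⟨(L.frame c U).e_emb v, ?_, ?_⟩
  · have h : (P.old.frame c U).emb (P.downB₁ c U v) = 0 := by
      rw [show P.downB₁ c U v = 0 from congrArg Prod.fst hv, map_zero]
    rw [downB₁, Frame.emb_transfer] at h
    have e2 := P.cores_stable c U ((L.frame c U).emb v)
    rw [Frame.e_emb] at e2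
    exact e2.symm.trans h
  · have h : (P.old.frame c U).emb (P.downB₂ c U v) = 0 := by
      rw [show P.downB₂ c U v = 0 from congrArg Prod.snd hv, map_zero]
    rw [downB₂, Frame.emb_transfer] at h
    have e2 := P.J2_stable c U ((L.frame c U).emb v)
    rw [Frame.e_emb] at e2
    exact e2.symm.trans h

theorem _root_.FA.HeckeH1.LevelSet.actB_exists_rep (a : L.alg c U) : ∃ a' : pairGood (L.lvl U) ⊤ O, ∀ x,
    L.actB c U a x = (L.frame c U).coord (goodOp (L.lvl U) ⊤ O a' ((L.frame c U).emb x)) := by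
  obtain ⟨a', ha'⟩ := Ideal.Quotient.mk_surjective a.1
  refine ⟨a', fun x => ?_⟩
  show goodAct (L.frame c U) (L.goodOp_scalars U) (L.goodOp_frame_e c U) a.1 x = _
  rw [← ha']
  rfl

theorem ker_downB_stable (a : L.alg c U) :
    ∀ v ∈ LinearMap.ker (P.downB c U), L.actB c U a v ∈ LinearMap.ker (P.downB c U) := by
  have : Fact P.p.Prime := ⟨P.hp⟩
  intro v hv
  obtain ⟨a', ha'⟩ := L.actB_exists_rep c U a
  obtain ⟨h1, h2, h3⟩ := (P.mem_newSpace c U).1
    (P.newSpace_stable c U a' _ (P.emb_mem_newSpace c U (LinearMap.mem_ker.1 hv)))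
  rw [LinearMap.mem_ker, ha']
  refine Prod.ext ?_ ?_
  · show P.downB₁ c U _ = 0
    rw [downB₁, Frame.transfer_apply, Frame.emb_coord, h1, Corr.actLin_apply, h2, map_zero]
  · show P.downB₂ c U _ = 0
    rw [downB₂, Frame.transfer_apply, Frame.emb_coord, h1, Corr.actLin_apply, h3, map_zero]

/-- The algebra acting on the quotient by the old part. -/
abbrev newAlg : Type :=
  QuotAlg (L.actB c U) (LinearMap.range (P.upB c U)) (P.upB_range_stable c U)

theorem exists_kill_factor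
    (hdet : ∀ z : Hom1 (GamH (P.old.lvl U) ⊤) O, (P.old.frame c U).e z = z →
      haveI : Fact P.p.Prime := ⟨P.hp⟩
      (Tc (P.old.lvl U) ⊤ P.p).act ((Tc (P.old.lvl U) ⊤ P.p).act z) =
        ((P.p + 1) * (P.p + 1) : ℕ) • z → z = 0)
    :
    ∃ D : O, D ≠ 0 ∧ ∀ a : L.alg c U,
      (∀ v ∈ LinearMap.ker (P.downB c U), L.actB c U a v = 0) →
        ∀ v, D • L.actB c U a v ∈ LinearMap.range (P.upB c U) := by
  obtain ⟨D, hD, h⟩ := exists_smul_apply_mem (P.upB c U) (P.downB c U)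
    (P.downB_upB_injective c U hdet)
  exact ⟨D, hD, fun a ha => h _ (P.upB_range_stable c U a) fun v hv => ha v hv⟩

theorem point_eq_zero
    (hdet : ∀ z : Hom1 (GamH (P.old.lvl U) ⊤) O, (P.old.frame c U).e z = z →
      haveI : Fact P.p.Prime := ⟨P.hp⟩
      (Tc (P.old.lvl U) ⊤ P.p).act ((Tc (P.old.lvl U) ⊤ P.p).act z) =
        ((P.p + 1) * (P.p + 1) : ℕ) • z → z = 0)
    {O' : Type} [CommRing O'] [IsDomain O'] [Algebra O O'] [Module.IsTorsionFree O O']
    (f : P.newAlg c U →ₐ[O] O') (a : L.alg c U)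
    (ha : ∀ v ∈ LinearMap.ker (P.downB c U), L.actB c U a v = 0) :
    f (Ideal.Quotient.mk _ a) = 0 := by
  have h0 := P.exists_kill_factor c U
  have h1 := h0 hdet
  obtain ⟨D, hD, h⟩ := h1
  have h2 := h a ha
  have key := apply_eq_zero_of_smul_mem (O := O) (R := O) (A := L.alg c U)
    (W := Fin (L.frame c U).d → O) (O' := O') (L.actB c U) (LinearMap.range (P.upB c U))
    (P.upB_range_stable c U) f hD a
  exact key h2

include hNE in
/-- **Points of the quotient by the old part** are eigenclasses killed by both traces at `p`,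
with `U_p² = 1`. -/
theorem exists_new_eigenclass
    (hdet : ∀ z : Hom1 (GamH (P.old.lvl U) ⊤) O, (P.old.frame c U).e z = z →
      haveI : Fact P.p.Prime := ⟨P.hp⟩
      (Tc (P.old.lvl U) ⊤ P.p).act ((Tc (P.old.lvl U) ⊤ P.p).act z) =
        ((P.p + 1) * (P.p + 1) : ℕ) • z → z = 0)
    {O' : Type} [CommRing O'] [IsDomain O'] [Algebra O O'] [Module.IsTorsionFree O O']
    (f : P.newAlg c U →ₐ[O] O') :
    haveI : Fact P.p.Prime := ⟨P.hp⟩
    ∃ z : Hom1 (GamH (L.lvl U) ⊤) O', z ∈ Par (GamH (L.lvl U) ⊤) O' ∧ z ≠ 0 ∧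
      (∀ (ℓ : ℕ) [Fact ℓ.Prime], ¬ ℓ ∣ L.lvl U → ∀ a : L.alg c U,
        (∀ x, L.actB c U a x =
          (L.frame c U).coord ((Tc (L.lvl U) ⊤ ℓ).act ((L.frame c U).emb x))) →
        (Tc (L.lvl U) ⊤ ℓ).act z = f (Ideal.Quotient.mk _ a) • z) ∧
      (Corr.cores (Γ := GamH (P.old.lvl U) ⊤)).act z = 0 ∧ (P.isStep U).J2'.act z = 0 ∧
      (Tc (L.lvl U) ⊤ P.p).act ((Tc (L.lvl U) ⊤ P.p).act z) = z := by
  have : Fact P.p.Prime := ⟨P.hp⟩
  let q : L.alg c U →ₐ[O] P.newAlg c U := Ideal.Quotient.mkₐ O _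
  let f' : L.alg c U →ₐ[O] O' := AlgHom.comp f q
  have hker : ∀ a, (∀ v ∈ LinearMap.ker (P.downB c U), L.actB c U a v = 0) → f' a = 0 :=
    fun a ha => by
      have h0 := P.point_eq_zero c U (O' := O')
      have h2 := h0 hdet f a ha
      exact h2
  have hV := P.ker_downB_stable c U
  have hpar : ∀ v ∈ LinearMap.ker (P.downB c U),
      (L.frame c U).emb v ∈ Par (GamH (L.lvl U) ⊤) O := fun v _ => by
    rw [← (L.frame c U).e_emb v]
    exact L.frame_mem_Par c hNE U _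
  have h0 := exists_eigenclass_sub (O' := O') (L.frame c U).emb
    (L.frame c U).emb_injective (L.actB c U) (LinearMap.ker (P.downB c U))
  have h1 := h0 hV hpar f' hker
  obtain ⟨z, hz, hne, hT, hC⟩ := h1
  have hcz := hC (Corr.cores (Γ := GamH (P.old.lvl U) ⊤)) fun v hv =>
    ((P.mem_newSpace c U).1 (P.emb_mem_newSpace c U (LinearMap.mem_ker.1 hv))).2.1
  have hjz := hC (P.isStep U).J2' fun v hv =>
    ((P.mem_newSpace c U).1 (P.emb_mem_newSpace c U (LinearMap.mem_ker.1 hv))).2.2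
  have : CharZero O' := charZero_of_injective_algebraMap (FaithfulSMul.algebraMap_injective O O')
  refine ⟨z, hz, hne, fun ℓ _ hℓ a ha => hT a (Tc (L.lvl U) ⊤ ℓ).actLin fun v _ => ?_, hcz, hjz, ?_⟩
  · have h := L.goodOp_frame_e c U (goodTp (L.lvl U) ⊤ O ⟨ℓ, Fact.out, hℓ⟩) ((L.frame c U).emb v)
    rw [goodOp_goodTp, Frame.e_emb] at h
    rw [Corr.actLin_apply, Corr.act_comp_hom, ha, Frame.emb_coord]
    exact congrArg _ h
  · obtain ⟨x, -, hx⟩ := (P.isStep U).U_sq_of_killed z hcz hjz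
    have : Subsingleton ((ZMod (L.lvl U))ˣ ⧸ (⊤ : Subgroup (ZMod (L.lvl U))ˣ)) :=
      QuotientGroup.subsingleton_quotient_top
    rw [hx, Subsingleton.elim x 1, map_one, Module.End.one_apply]

end residual

end PPart

section setup

open FA.RT

local notation "GQ" => AlgebraicClosure ℚ ≃ₐ[ℚ] AlgebraicClosure ℚ
local notation "M2" => Matrix (Fin 2) (Fin 2)

variable {O : Type} [CommRing O] [IsDomain O] [IsDiscreteValuationRing O]
  [IsAdicComplete (maximalIdeal O) O] [CharZero O] (S : Setup O) {Q : Type} [DecidableEq Q]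
  {emb : Q → ↥S.Sig} {bad : Finset ℕ}
  {AtP GoodF GoodS : ∀ (B : Type) [CommRing B] [IsLocalRing B] [Algebra O B], (GQ →* M2 B) → Prop}

/-- **The old and new parts at `p` at the base**, given separating lifts. -/
def PPart.pBase {L : LevelSet (fun x => (emb x).1) bad} (P : PPart L)
    (c : Nat.Primes → ResidueField O)
    (hNE : ∀ N : ℕ, N ≠ 0 → ∃ ℓ : Nat.Primes, ¬ (ℓ : ℕ) ∣ N ∧
      ((ℓ : ℕ) : ZMod N) = 1 ∧ c ℓ ≠ ((ℓ : ℕ) : ResidueField O) + 1)
    (sep : ∀ U, S.Separation emb (L.baseLevels c) U (S.BaseAllowed AtP))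
    (sepF : ∀ U, S.PartSep ((P.pLevels c).TF U) bad
      fun B _ _ _ m => S.BaseAllowed AtP B m ∧ GoodF B m)
    (sepS : ∀ U, S.PartSep ((P.pLevels c).TS U) bad
      fun B _ _ _ m => S.BaseAllowed AtP B m ∧ GoodS B m) :
    Setup.PBase (L.baseTower S c hNE sep) GoodF GoodS :=
  have hp0 : (S.p : ResidueField O) = 0 := by
    rw [← map_natCast (residue O), residue_eq_zero_iff]; exact S.hpO
  haveI : CharP (ResidueField O) S.p := (CharP.charP_iff_prime_eq_zero S.hp).mpr hp0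
  { toPLevels := P.pLevels c
    actS_injective := fun U => P.pLevels_actS_injective c U
    sepF := sepF
    sepS := sepS
    upP_residual := fun U => P.upB_residual c U hNE S.hp }

end setup

end FA.HeckeH1

end
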