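import Fermat.Agent.HeckeH1.Transpose

/-!
Degeneracy maps between the levels `M` and `M q`, Atkin-Lehner, compatibilities.
-/

set_option autoImplicit false

noncomputable section

namespace FA.HeckeH1

open Matrix CongruenceSubgroup
open scoped MatrixGroups

section level

variable (M q : ℕ) (H : Subgroup (ZMod M)ˣ)

/-- The inverse image of `H` at level `M q`. -/
def Hup : Subgroup (ZMod (M * q))ˣ := H.comap (ZMod.unitsMap (dvd_mul_right M q))

/-- The level `Γ_H(M) ∩ Γ₀(q)`. -/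
abbrev GamUp : Subgroup SL(2, ℤ) := GamH (M * q) (Hup M q H)

variable {M q H}

theorem neg_one_mem_Hup (h : (-1 : (ZMod M)ˣ) ∈ H) : (-1 : (ZMod (M * q))ˣ) ∈ Hup M q H := by
  rw [Hup, Subgroup.mem_comap]
  convert h
  apply Units.ext
  simp [ZMod.unitsMap]

theorem natCast_mem_Hup {ℓ : ℕ} (hℓ : ℓ.Coprime (M * q))
    (h : ∃ u ∈ H, (u : ZMod M) = (ℓ : ZMod M)) :
    ∃ u ∈ Hup M q H, (u : ZMod (M * q)) = (ℓ : ZMod (M * q)) := by
  obtain ⟨u, hu, hul⟩ := h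
  refine ⟨ZMod.unitOfCoprime ℓ hℓ, ?_, ZMod.coe_unitOfCoprime _ _⟩
  rw [Hup, Subgroup.mem_comap]
  convert hu
  apply Units.ext
  simp [ZMod.unitsMap, hul]

theorem GamUp_le : GamUp M q H ≤ GamH M H := by
  rintro g ⟨hd, hc, u, hu, hua⟩
  have hc' : ((M : ℤ) * q) ∣ g.1 1 0 := by exact_mod_cast hc
  exact ⟨hd, (dvd_mul_right _ _).trans hc', _, hu, by simp [ZMod.unitsMap, hua]⟩

theorem coprime_level [Fact q.Prime] (hqM : ¬ q ∣ M) : IsCoprime (M : ℤ) (q : ℤ) := by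
  rw [Int.isCoprime_iff_nat_coprime, Nat.coprime_comm]
  simpa using ((Fact.out : q.Prime).coprime_iff_not_dvd.2 hqM)

theorem mem_GamUp [Fact q.Prime] (hqM : ¬ q ∣ M) {g : SL(2, ℤ)} :
    g ∈ GamUp M q H ↔ g ∈ GamH M H ∧ (q : ℤ) ∣ g.1 1 0 := by
  constructor
  · intro hg
    exact ⟨GamUp_le hg, (dvd_mul_left (q : ℤ) (M : ℤ)).trans (by exact_mod_cast hg.2.1)⟩
  · rintro ⟨⟨hd, hc, u, hu, hua⟩, hq⟩
    have hc' : ((M * q : ℕ) : ℤ) ∣ g.1 1 0 := by
      push_cast; exact (coprime_level hqM).mul_dvd hc hq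
    obtain ⟨-, -, v, -, hva⟩ : g ∈ GamH (M * q) (⊤ : Subgroup (ZMod (M * q))ˣ) := by
      rw [GamH_top, Gamma0_mem, ZMod.intCast_zmod_eq_zero_iff_dvd]; exact hc'
    refine ⟨hd, hc', v, ?_, hva⟩
    rw [Hup, Subgroup.mem_comap]
    convert hu
    apply Units.ext
    rw [hua]
    simp [ZMod.unitsMap, hva]

end level

section bottom

variable {M q : ℕ} {H : Subgroup (ZMod M)ˣ} [Fact q.Prime]

theorem rep_bottom (i : RIdx M q) (r : Fin 2) : (q : ℤ) ∣ rep M q i 1 r := by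
  obtain ⟨_ | j, hi⟩ := i <;> fin_cases r <;> simp [rep]

theorem mul_bottom {X : MatZ} (hX : ∀ r, (q : ℤ) ∣ X 1 r) (Y : MatZ) (r : Fin 2) :
    (q : ℤ) ∣ (X * Y) 1 r := by
  rw [Matrix.mul_apply, Fin.sum_univ_two]
  exact dvd_add ((hX 0).mul_right _) ((hX 1).mul_right _)

theorem low_of_bottom {g : SL(2, ℤ)} (i : RIdx M q) (hX : ∀ r, (q : ℤ) ∣ (g.1 * rep M q i) 1 r) :
    (q : ℤ) ∣ g.1 1 0 := by
  obtain ⟨_ | j, hi⟩ := i
  · have h := hX 1
    simp [rep, Matrix.mul_apply, Fin.sum_univ_two] at h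
    refine ((Nat.prime_iff_prime_int.1 Fact.out).dvd_mul.1 h).resolve_right fun hb => ?_
    have hbz := bezout_eq Fact.out (hi rfl)
    have h1 : (q : ℤ) ∣ 1 := hbz ▸ dvd_add (dvd_mul_right _ _) (hb.mul_left _)
    exact (Fact.out : q.Prime).not_dvd_one (Int.natCast_dvd_natCast.1 h1)
  · have := hX 0
    simpa [rep, Matrix.mul_apply, Fin.sum_univ_two] using this

theorem exists_class_low (hqM : ¬ q ∣ M) {X : MatZ} (hX : X ∈ Dl M H q)
    (hb : ∀ r, (q : ℤ) ∣ X 1 r) (γ : SL(2, ℤ)) (hγ : γ ∈ GamH M H) :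
    ∃ i : RIdx M q, ∃ h ∈ GamUp M q H, gl X * glQ γ = glQ h * gl (rep M q i) := by
  obtain ⟨i, h, hh, e⟩ := exists_class_mul hX γ hγ
  refine ⟨i, h, (mem_GamUp hqM).2 ⟨hh, ?_⟩, e⟩
  refine low_of_bottom i fun r => ?_
  rw [← mul_glQ_eq hX.1 (rep_det Fact.out i) e]
  exact mul_bottom hb γ.1 r

/-- The second degeneracy trace, given by representatives. -/
def J2 (H : Subgroup (ZMod M)ˣ) (hqM : ¬ q ∣ M) : Corr (GamUp M q H) (GamH M H) where
  ι := RIdx M q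
  α i := gl (rep M q i)
  exists_perm γ := by
    have h1 : ∀ i, ∃ k : RIdx M q, ∃ h : GamUp M q H,
        gl (rep M q i) * glQ γ = glQ h * gl (rep M q k) := fun i => by
      obtain ⟨k, h, hh, e⟩ := exists_class_low hqM (rep_mem Fact.out H i) (rep_bottom i) γ γ.2
      exact ⟨k, ⟨h, hh⟩, e⟩
    choose k h e using h1
    have hk : Function.Injective k := fun i i' hii => by
      apply rep_class_inj Fact.out (g := ((h i * (h i')⁻¹ : GamUp M q H) : SL(2, ℤ)))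
      have e1 := e i
      rw [hii] at e1
      apply mul_right_cancel (b := glQ (γ : SL(2, ℤ)))
      rw [mul_assoc, e i', e1, Subgroup.coe_mul, map_mul, Subgroup.coe_inv, map_inv]
      group
    exact ⟨Equiv.ofBijective k (Finite.injective_iff_bijective.1 hk), fun i => ⟨h i, e i⟩⟩

theorem del_bottom (r : Fin 2) : (q : ℤ) ∣ del q 1 r := by fin_cases r <;> simp [del]

theorem exists_del_mul_eq_rep (hqM : ¬ q ∣ M) (i : RIdx M q) :
    ∃ γ ∈ GamH M H, gl (del q) * glQ γ = gl (rep M q i) := by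
  obtain ⟨_ | j, hi⟩ := i
  · refine ⟨⟨sGam M q, (sGam_mem Fact.out hqM H).1⟩, sGam_mem Fact.out hqM H, ?_⟩
    rw [(mul_glQ (del_det q) _).1]
    congr 1
    ext r s
    fin_cases r <;> fin_cases s <;>
      simp [del, rep, sGam, Matrix.mul_apply, Fin.sum_univ_two, mul_comm]
  · refine ⟨⟨!![1, (j : ℤ); 0, 1], by simp [det_fin_two_of]⟩,
      ⟨by simp [det_fin_two_of], by simp, 1, one_mem H, by simp⟩, ?_⟩
    rw [(mul_glQ (del_det q) _).1]
    congr 1
    ext r s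
    fin_cases r <;> fin_cases s <;> simp [del, rep, Matrix.mul_apply, Fin.sum_univ_two]

theorem del_conj_up (hqM : ¬ q ∣ M) : ∀ γ ∈ GamH M H ⊓ upGam q, ∃ h ∈ GamUp M q H,
    gl (del q) * glQ γ = glQ h * gl (del q) := fun γ hγ => by
  obtain ⟨h, hh, e⟩ := del_conj γ hγ
  exact ⟨h, (mem_GamUp hqM).2
    ⟨hh.1, (ZMod.intCast_zmod_eq_zero_iff_dvd _ _).1 (Gamma0_mem.1 hh.2)⟩, e⟩

theorem del_conj_up_inv (hqM : ¬ q ∣ M) : ∀ h ∈ GamUp M q H, ∃ γ ∈ GamH M H ⊓ upGam q,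
    (gl (del q))⁻¹ * glQ h = glQ γ * (gl (del q))⁻¹ := fun h hh =>
  del_conj_inv hqM h ⟨((mem_GamUp hqM).1 hh).1,
    Gamma0_mem.2 ((ZMod.intCast_zmod_eq_zero_iff_dvd _ _).2 ((mem_GamUp hqM).1 hh).2)⟩

/-- `J2` as a corestriction. -/
theorem J2_double [NeZero M] (hqM : ¬ q ∣ M) :
    ((Corr.single (gl (del q)) (del_conj_up (H := H) hqM)).comp
      (Corr.cores (Γ := GamH M H) (Γ' := GamH M H ⊓ upGam q))).Same (J2 H hqM) := by
  have : NeZero q := ⟨(Fact.out : q.Prime).ne_zero⟩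
  refine same_double inf_le_left _ _ (J2 H hqM)
    (fun γ hγ => exists_class_low hqM (del_mem q) del_bottom γ hγ) (fun i => ?_)
    (fun γ hγ h _ e => ?_) (fun i k hik => ?_)
  · obtain ⟨γ, hγ, e⟩ := exists_del_mul_eq_rep (H := H) hqM i
    exact ⟨γ, hγ, 1, one_mem _, by rw [map_one, one_mul, e]; rfl⟩
  · refine ⟨hγ, ?_⟩
    have := congrFun (congrFun (mul_glQ_eq (del_det q) (del_det q) e) 0) 1
    simp [del, Matrix.mul_apply, Fin.sum_univ_two] at this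
    exact ⟨h.1 0 1, by rw [this, mul_comm]⟩
  · obtain ⟨h, -, e⟩ := hik
    exact rep_class_inj Fact.out e

theorem eps_conj (hqM : ¬ q ∣ M) : ∀ γ ∈ GamUp M q H, ∃ δ ∈ GamH M H,
    gl (eps q) * glQ γ = glQ δ * gl (eps q) := fun γ hγ => by
  obtain ⟨δ, hδ, e⟩ := del_conj_up_inv hqM γ hγ
  refine ⟨δ, hδ.1, ?_⟩
  have e' := mul_glQ_eq (del_det q) (del_det q) (X := del q) (Y := del q) (g := δ) (h := γ) (by
    rw [inv_mul_eq_iff_eq_mul, ← mul_assoc, eq_mul_inv_iff_mul_eq] at e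
    exact e.symm)
  rw [(mul_glQ (eps_det q) _).1, (mul_glQ (eps_det q) _).2]
  congr 1
  have hadj : (del q).adjugate = eps q := by
    rw [del, adjugate_fin_two_of]; simp [eps]
  have h2 := congrArg (fun X : MatZ => eps q * X * eps q) e'
  have hde : del q * eps q = (q : ℤ) • (1 : MatZ) := by rw [← hadj, mul_adjugate, del_det]
  have hed : eps q * del q = (q : ℤ) • (1 : MatZ) := by rw [← hadj, adjugate_mul, del_det]
  simp only [← Matrix.mul_assoc, hed] at h2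
  simp only [Matrix.mul_assoc, hde] at h2
  simp only [Matrix.smul_mul, Matrix.one_mul, Matrix.mul_smul, Matrix.mul_one] at h2
  exact (smul_right_injective MatZ (gl_det_ne (ℓ := q)) h2).symm

/-- The second degeneracy map. -/
def I2 (H : Subgroup (ZMod M)ˣ) (hqM : ¬ q ∣ M) : Corr (GamH M H) (GamUp M q H) :=
  Corr.single (gl (eps q)) (eps_conj hqM)

theorem eps_eq_scalar :
    gl (eps q) = Matrix.GeneralLinearGroup.scalar (Fin 2)
      (Units.mk0 (q : ℚ) (by exact_mod_cast (Fact.out : q.Prime).ne_zero)) * (gl (del q))⁻¹ := by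
  rw [eq_mul_inv_iff_mul_eq, ← gl_mul (by rw [eps_det]; exact gl_det_ne)
    (by rw [del_det]; exact gl_det_ne)]
  apply Units.ext
  rw [coe_gl (by rw [det_mul, eps_det, del_det]; exact mul_ne_zero gl_det_ne gl_det_ne)]
  ext i j
  fin_cases i <;> fin_cases j <;>
    simp [eps, del, Matrix.GeneralLinearGroup.scalar, Matrix.mul_apply, Fin.sum_univ_two,
      Matrix.natCast_apply]

theorem I2_eq {A : Type*} [AddCommGroup A] (hqM : ¬ q ∣ M) :
    (∀ z : Hom1 (GamH M H) A, (I2 H hqM).act z =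
      (Corr.single (gl (del q))⁻¹ (del_conj_up_inv hqM)).act
        ((Corr.res (inf_le_left : GamH M H ⊓ upGam q ≤ GamH M H)).act z)) ∧
    ∀ φ : Symb (GamH M H) A, (I2 H hqM).symb φ =
      (Corr.single (gl (del q))⁻¹ (del_conj_up_inv hqM)).symb
        ((Corr.res (inf_le_left : GamH M H ⊓ upGam q ≤ GamH M H)).symb φ) := by
  constructor
  · intro z
    apply AddMonoidHom.ext
    intro γ
    obtain ⟨δ, hδ, e⟩ := del_conj_up_inv (H := H) hqM _ γ.toMul.2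
    show hv ((I2 H hqM).act z) γ.toMul = hv ((Corr.single (gl (del q))⁻¹ (del_conj_up_inv hqM)).act
      ((Corr.res _).act z)) γ.toMul
    rw [Corr.single_act (Γ := GamH M H ⊓ upGam q) _ _ _ γ.toMul ⟨δ, hδ⟩ e, Corr.res_act,
      I2, Corr.single_act _ _ z γ.toMul ⟨δ, hδ.1⟩]
    rw [eps_eq_scalar, mul_assoc, e, ← mul_assoc, scal_comm, mul_assoc]
  · intro φ
    apply Subtype.ext
    funext a b
    simp only [I2, Corr.res, Corr.single_symb, one_smul, eps_eq_scalar, mul_smul, scal_smul]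

variable {A : Type*} [CommRing A] [IsAddTorsionFree A]

/-- `I2` is adjoint to `J2`. -/
theorem pr_I2 [NeZero M] (hqM : ¬ q ∣ M) (hH : (-1 : (ZMod M)ˣ) ∈ H)
    (z : Hom1 (GamH M H) A) (φ : Symb (GamUp M q H) A) :
    pr ((I2 H hqM).act z) φ = pr z ((J2 H hqM).symb φ) := by
  have : NeZero q := ⟨(Fact.out : q.Prime).ne_zero⟩
  rw [(I2_eq hqM).1, ← (J2_double hqM).symb_eq φ, Corr.comp_symb,
    ← pr_res (inf_le_left : GamH M H ⊓ upGam q ≤ GamH M H) z]
  have e : (Corr.single (gl (del q))⁻¹ (del_conj_up_inv hqM)).symb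
      ((Corr.single (gl (del q)) (del_conj_up hqM)).symb φ) = φ := by
    apply Subtype.ext
    funext a b
    rw [Corr.single_symb, Corr.single_symb, smul_inv_smul, smul_inv_smul]
  conv_lhs => rw [← e]
  refine pr_conj (gl (del q))⁻¹ ?_ _ (fun δ hδ => ?_) (show -1 ∈ GamH M H ⊓ upGam q from ⟨neg_one_mem_GamH hH, by simp [mem_upGam]⟩)
    (neg_one_mem_GamH (neg_one_mem_Hup hH)) _ _
  · rw [Matrix.coe_units_inv, Matrix.det_nonsing_inv, Ring.inverse_eq_inv']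
    exact inv_pos.2 (det_gl_pos (by rw [del_det]; exact_mod_cast (Fact.out : q.Prime).pos))
  · obtain ⟨γ, hγ, e⟩ := del_conj_up hqM δ hδ
    refine ⟨γ, hγ, ?_⟩
    rw [inv_mul_eq_iff_eq_mul, ← mul_assoc, e, mul_inv_cancel_right]

/-- `J2` is adjoint to `I2`. -/
theorem pr_J2 [NeZero M] (hqM : ¬ q ∣ M) (hH : (-1 : (ZMod M)ˣ) ∈ H)
    (z : Hom1 (GamUp M q H) A) (φ : Symb (GamH M H) A) :
    pr ((J2 H hqM).act z) φ = pr z ((I2 H hqM).symb φ) := by
  have : NeZero q := ⟨(Fact.out : q.Prime).ne_zero⟩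
  rw [← (J2_double hqM).act_eq z, Corr.comp_act,
    pr_cores (inf_le_left : GamH M H ⊓ upGam q ≤ GamH M H) _ φ, (I2_eq hqM).2 φ]
  generalize (Corr.res (inf_le_left : GamH M H ⊓ upGam q ≤ GamH M H)).symb φ = φ'
  have e : (Corr.single (gl (del q)) (del_conj_up hqM)).symb
      ((Corr.single (gl (del q))⁻¹ (del_conj_up_inv hqM)).symb φ') = φ' := by
    apply Subtype.ext
    funext a b
    rw [Corr.single_symb, Corr.single_symb, inv_smul_smul, inv_smul_smul]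
  conv_lhs => rw [← e]
  refine pr_conj (gl (del q)) (det_gl_pos (by rw [del_det]; exact_mod_cast (Fact.out : q.Prime).pos)) _
    (fun δ hδ => ?_) (neg_one_mem_GamH (neg_one_mem_Hup hH))
    (show -1 ∈ GamH M H ⊓ upGam q from ⟨neg_one_mem_GamH hH, by simp [mem_upGam]⟩) _ _
  obtain ⟨γ, hγ, e⟩ := del_conj_up_inv hqM δ hδ
  refine ⟨γ, hγ, ?_⟩
  rw [inv_mul_eq_iff_eq_mul, ← mul_assoc, eq_mul_inv_iff_mul_eq] at e
  exact e.symm

end bottom

end FA.HeckeH1

end
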