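import Fermat.Agent.HeckeH1.DiamondDegeneracy

/-!
The degeneracy maps at two different primes commute.
-/

set_option autoImplicit false
set_option linter.unusedSectionVars false

noncomputable section

namespace FA.HeckeH1

open CongruenceSubgroup
open scoped MatrixGroups

variable {A : Type*} [AddCommGroup A]

theorem single_comp_act {Γ Γ' Γ'' : Subgroup SL(2, ℤ)} (α β δ : GL (Fin 2) ℚ)
    (h : ∀ γ ∈ Γ', ∃ g ∈ Γ, α * glQ γ = glQ g * α)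
    (h' : ∀ γ ∈ Γ'', ∃ g ∈ Γ', β * glQ γ = glQ g * β)
    (h'' : ∀ γ ∈ Γ'', ∃ g ∈ Γ, δ * glQ γ = glQ g * δ) (e : α * β = δ) (z : Hom1 Γ A) :
    (Corr.single β h').act ((Corr.single α h).act z) = (Corr.single δ h'').act z := by
  refine AddMonoidHom.ext fun γ => ?_
  obtain ⟨g, hg, e1⟩ := h' γ.toMul γ.toMul.2
  obtain ⟨g', hg', e2⟩ := h g hg
  have e3 : δ * glQ γ.toMul = glQ g' * δ := by
    rw [← e, mul_assoc, e1, ← mul_assoc, e2, mul_assoc]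
  show hv ((Corr.single β h').act ((Corr.single α h).act z)) γ.toMul =
    hv ((Corr.single δ h'').act z) γ.toMul
  rw [Corr.single_act β h' _ γ.toMul ⟨g, hg⟩ e1, Corr.single_act α h z ⟨g, hg⟩ ⟨g', hg'⟩ e2,
    Corr.single_act δ h'' z γ.toMul ⟨g', hg'⟩ e3]

theorem single_conj_trans {Γ Γ' Γ'' : Subgroup SL(2, ℤ)} {α β : GL (Fin 2) ℚ}
    (h : ∀ γ ∈ Γ', ∃ g ∈ Γ, α * glQ γ = glQ g * α)
    (h' : ∀ γ ∈ Γ'', ∃ g ∈ Γ', β * glQ γ = glQ g * β) :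
    ∀ γ ∈ Γ'', ∃ g ∈ Γ, α * β * glQ γ = glQ g * (α * β) := fun γ hγ => by
  obtain ⟨g, hg, e1⟩ := h' γ hγ
  obtain ⟨g', hg', e2⟩ := h g hg
  exact ⟨g', hg', by rw [mul_assoc, e1, ← mul_assoc, e2, mul_assoc]⟩

theorem GamH_top_mem {M : ℕ} {g : SL(2, ℤ)} :
    g ∈ GamH M (⊤ : Subgroup (ZMod M)ˣ) ↔ (M : ℤ) ∣ g.1 1 0 := by
  rw [GamH_top, Gamma0_mem, ZMod.intCast_zmod_eq_zero_iff_dvd]

theorem eps_del_comm (p q : ℕ) [Fact p.Prime] [Fact q.Prime] :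
    gl (eps q) * gl (del p) = gl (del p) * gl (eps q) := by
  rw [← gl_mul (by rw [eps_det]; exact gl_det_ne) (by rw [del_det]; exact gl_det_ne),
    ← gl_mul (by rw [del_det]; exact gl_det_ne) (by rw [eps_det]; exact gl_det_ne)]
  congr 1
  ext i j
  fin_cases i <;> fin_cases j <;> simp [eps, del, Matrix.mul_apply, Fin.sum_univ_two]

theorem del_del_comm (p q : ℕ) [Fact p.Prime] [Fact q.Prime] :
    gl (del q) * gl (del p) = gl (del p) * gl (del q) := by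
  rw [← gl_mul (by rw [del_det]; exact gl_det_ne) (by rw [del_det]; exact gl_det_ne),
    ← gl_mul (by rw [del_det]; exact gl_det_ne) (by rw [del_det]; exact gl_det_ne)]
  congr 1
  ext i j
  fin_cases i <;> fin_cases j <;> simp [del, Matrix.mul_apply, Fin.sum_univ_two, mul_comm]

theorem dvd_cancel_mul {p q : ℕ} (hp : p.Prime) (hq : q.Prime) (hpq : p ≠ q) {b : ℤ}
    (h : (p : ℤ) ∣ q * b) : (p : ℤ) ∣ b :=
  ((Nat.prime_iff_prime_int.1 hp).dvd_mul.1 h).resolve_left fun h => hpq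
    ((Nat.prime_dvd_prime_iff_eq hp hq).1 (Int.natCast_dvd_natCast.1 h))

namespace IsStep

variable {M q M' : ℕ} [NeZero M] [NeZero M'] [Fact q.Prime]
  (s : IsStep M q (⊤ : Subgroup (ZMod M)ˣ) M' (⊤ : Subgroup (ZMod M')ˣ))

include s in
theorem mem_top_iff {g : SL(2, ℤ)} :
    g ∈ GamH M' (⊤ : Subgroup (ZMod M')ˣ) ↔ g ∈ GamH M ⊤ ∧ (q : ℤ) ∣ g.1 1 0 := by
  rw [GamH_top_mem, GamH_top_mem]
  constructor
  · intro h
    rw [s.eq, Nat.cast_mul] at h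
    exact ⟨(dvd_mul_right _ _).trans h, (dvd_mul_left _ _).trans h⟩
  · rintro ⟨h, h'⟩
    rw [s.eq, Nat.cast_mul]
    exact (coprime_level s.not_dvd).mul_dvd h h'

include s in
theorem conj_del : ∀ γ ∈ GamH M (⊤ : Subgroup (ZMod M)ˣ) ⊓ upGam q,
    ∃ h ∈ GamH M' (⊤ : Subgroup (ZMod M')ˣ), gl (del q) * glQ γ = glQ h * gl (del q) := by
  intro γ hγ
  obtain ⟨h, hh, e⟩ := del_conj_up (H := (⊤ : Subgroup (ZMod M)ˣ)) s.not_dvd γ hγ
  exact ⟨h, s.mem_top_iff.2 ((mem_GamUp s.not_dvd).1 hh), e⟩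

include s in
theorem conj_del_inv : ∀ h ∈ GamH M' (⊤ : Subgroup (ZMod M')ˣ),
    ∃ γ ∈ GamH M (⊤ : Subgroup (ZMod M)ˣ) ⊓ upGam q,
      gl (del q) * glQ γ = glQ h * gl (del q) := by
  intro h hh
  obtain ⟨γ, hγ, e⟩ := del_conj_up_inv (H := (⊤ : Subgroup (ZMod M)ˣ)) s.not_dvd h
    ((mem_GamUp s.not_dvd).2 (s.mem_top_iff.1 hh))
  refine ⟨γ, hγ, ?_⟩
  rw [inv_mul_eq_iff_eq_mul, ← mul_assoc, eq_mul_inv_iff_mul_eq] at e
  exact e.symm

/-- The second trace as a corestriction. -/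
theorem J2'_eq (z : Hom1 (GamH M' (⊤ : Subgroup (ZMod M')ˣ)) A) :
    haveI : NeZero q := ⟨(Fact.out : q.Prime).ne_zero⟩
    s.J2'.act z = (Corr.cores (Γ := GamH M ⊤) (Γ' := GamH M ⊤ ⊓ upGam q)).act
      ((Corr.single (gl (del q)) s.conj_del).act z) := by
  haveI : NeZero q := ⟨(Fact.out : q.Prime).ne_zero⟩
  obtain rfl := s.eq
  have key : ∀ (H'' : Subgroup (ZMod (M * q))ˣ) (sH : IsStep M q ⊤ (M * q) H'')
      (hc : ∀ γ ∈ GamH M (⊤ : Subgroup (ZMod M)ˣ) ⊓ upGam q, ∃ h ∈ GamH (M * q) H'',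
        gl (del q) * glQ γ = glQ h * gl (del q)) (w : Hom1 (GamH (M * q) H'') A),
      sH.J2'.act w = (Corr.cores (Γ := GamH M ⊤) (Γ' := GamH M ⊤ ⊓ upGam q)).act
        ((Corr.single (gl (del q)) hc).act w) := by
    intro H'' sH hc w
    obtain rfl := sH.eq_Hup
    rw [← Corr.comp_act]
    exact ((J2_double (H := (⊤ : Subgroup (ZMod M)ˣ)) sH.not_dvd).act_eq w).symm
  exact key ⊤ s _ z

section square

variable {p N Nq Np L : ℕ} [NeZero N] [NeZero Nq] [NeZero Np] [NeZero L] [Fact p.Prime]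
  (hpq : p ≠ q) (sNq : IsStep N q (⊤ : Subgroup (ZMod N)ˣ) Nq (⊤ : Subgroup (ZMod Nq)ˣ))
  (sNp : IsStep N p (⊤ : Subgroup (ZMod N)ˣ) Np (⊤ : Subgroup (ZMod Np)ˣ))
  (sP : IsStep Nq p (⊤ : Subgroup (ZMod Nq)ˣ) L (⊤ : Subgroup (ZMod L)ˣ))
  (sQ : IsStep Np q (⊤ : Subgroup (ZMod Np)ˣ) L (⊤ : Subgroup (ZMod L)ˣ))

include sNq sNp hpq in
/-- A matrix of level `N` with first row divisible by `p` and congruent to a given one modulo `q`. -/
theorem exists_adjust (x : SL(2, ℤ)) (hx : x ∈ GamH N (⊤ : Subgroup (ZMod N)ˣ)) :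
    ∃ k ∈ GamH N (⊤ : Subgroup (ZMod N)ˣ) ⊓ upGam p,
      x * k ∈ GamH Nq (⊤ : Subgroup (ZMod Nq)ˣ) ∧ x * k ∈ GamH N ⊤ ⊓ upGam q := by
  have hq : q.Prime := Fact.out
  have hNp : ¬ q ∣ N * p := fun h => (hq.dvd_mul.1 h).elim sNq.not_dvd fun h =>
    hpq ((Nat.prime_dvd_prime_iff_eq hq Fact.out).1 h).symm
  obtain ⟨k, hk, he⟩ := exists_lift (l := q) (hq.coprime_iff_not_dvd.2 hNp) (toF q x⁻¹)
  have h1 : toF q (x * k) = 1 := by rw [map_mul, he, ← map_mul, mul_inv_cancel, map_one]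
  have hkN : k ∈ GamH N (⊤ : Subgroup (ZMod N)ˣ) := GamH_top_mem.2
    ((Int.natCast_dvd_natCast.2 (dvd_mul_right N p)).trans
      ((ZMod.intCast_zmod_eq_zero_iff_dvd _ _).1 (Gamma_mem.1 hk).2.2.1))
  have hkp : k ∈ upGam p := mem_upGam.2 ((Int.natCast_dvd_natCast.2 (dvd_mul_left p N)).trans
      ((ZMod.intCast_zmod_eq_zero_iff_dvd _ _).1 (Gamma_mem.1 hk).2.1))
  have hz : ∀ i j : Fin 2, i ≠ j → (q : ℤ) ∣ (x * k).1 i j := fun i j hij => by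
    rw [← ZMod.intCast_zmod_eq_zero_iff_dvd]
    have h := congrFun (congrFun (congrArg Subtype.val h1) i) j
    rw [toF_apply] at h
    exact h.trans (by simp [Matrix.one_apply, hij])
  exact ⟨k, ⟨hkN, hkp⟩, sNq.mem_top_iff.2 ⟨mul_mem hx hkN, hz 1 0 (by decide)⟩,
    mul_mem hx hkN, mem_upGam.2 (hz 0 1 (by decide))⟩

include hpq in
/-- The second trace at `p` commutes with the first map at `q`. -/
theorem J2_res_comm (z : Hom1 (GamH Np (⊤ : Subgroup (ZMod Np)ˣ)) A) :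
    sP.J2'.act (sQ.res.act z) = sNq.res.act (sNp.J2'.act z) := by
  haveI : NeZero p := ⟨(Fact.out : p.Prime).ne_zero⟩
  rw [sP.J2'_eq, sNp.J2'_eq]
  have hle : GamH Nq (⊤ : Subgroup (ZMod Nq)ˣ) ⊓ upGam p ≤ GamH N ⊤ ⊓ upGam p :=
    inf_le_inf_right _ sNq.le
  have h' : ∀ γ ∈ GamH Nq (⊤ : Subgroup (ZMod Nq)ˣ) ⊓ upGam p,
      ∃ δ ∈ GamH N (⊤ : Subgroup (ZMod N)ˣ) ⊓ upGam p, (1 : GL (Fin 2) ℚ) * glQ γ = glQ δ * 1 :=
    fun γ hγ => ⟨γ, hle hγ, by rw [one_mul, mul_one]⟩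
  refine Eq.trans ?_ (cores_single 1 (fun γ hγ => ⟨γ, sNq.le hγ, by rw [one_mul, mul_one]⟩) h'
    inf_le_left (fun γ hγ δ hδ e => ?_) (fun x hx => ?_) _).symm
  · congr 1
    rw [IsStep.res, Corr.res]
    have hQ : ∀ γ ∈ GamH L (⊤ : Subgroup (ZMod L)ˣ), ∃ g ∈ GamH Np (⊤ : Subgroup (ZMod Np)ˣ),
        (1 : GL (Fin 2) ℚ) * glQ γ = glQ g * 1 :=
      fun γ hγ => ⟨γ, sQ.le hγ, by rw [one_mul, mul_one]⟩
    rw [single_comp_act 1 (gl (del p)) (1 * gl (del p)) _ sP.conj_del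
      (single_conj_trans hQ sP.conj_del) rfl,
      single_comp_act (gl (del p)) 1 (1 * gl (del p)) sNp.conj_del h' _
        (by rw [one_mul, mul_one])]
  · rw [one_mul, mul_one] at e
    rw [← glQ_injective e] at hδ
    exact ⟨hγ, hδ.2⟩
  · obtain ⟨k, hk, h, -⟩ := exists_adjust hpq sNq sNp x hx
    exact ⟨k, hk, x * k, h, by rw [one_mul, mul_one]⟩

include hpq in
/-- The second trace at `p` commutes with the second map at `q`. -/
theorem J2_I2_comm (z : Hom1 (GamH Np (⊤ : Subgroup (ZMod Np)ˣ)) A) :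
    sP.J2'.act (sQ.I2'.act z) = sNq.I2'.act (sNp.J2'.act z) := by
  haveI : NeZero p := ⟨(Fact.out : p.Prime).ne_zero⟩
  rw [sP.J2'_eq, sNp.J2'_eq]
  have he : ∀ {γ δ : SL(2, ℤ)}, gl (eps q) * glQ γ = glQ δ * gl (eps q) →
      δ.1 0 1 = q * γ.1 0 1 := fun {γ δ} e => by
    have := congrFun (congrFun (mul_glQ_eq (eps_det q) (eps_det q) e) 0) 1
    simpa [eps, Matrix.mul_apply, Fin.sum_univ_two] using this.symm
  have h' : ∀ γ ∈ GamH Nq (⊤ : Subgroup (ZMod Nq)ˣ) ⊓ upGam p,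
      ∃ δ ∈ GamH N (⊤ : Subgroup (ZMod N)ˣ) ⊓ upGam p,
        gl (eps q) * glQ γ = glQ δ * gl (eps q) := fun γ hγ => by
    obtain ⟨δ, hδ, e⟩ := sNq.eps_mem γ hγ.1
    exact ⟨δ, ⟨hδ, mem_upGam.2 (he e ▸ (mem_upGam.1 hγ.2).mul_left _)⟩, e⟩
  refine Eq.trans ?_ (cores_single (gl (eps q)) sNq.eps_mem h' inf_le_left
    (fun γ hγ δ hδ e => ?_) (fun x hx => ?_) _).symm
  · congr 1
    rw [IsStep.I2']
    rw [single_comp_act (gl (eps q)) (gl (del p)) (gl (eps q) * gl (del p)) _ sP.conj_del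
      (single_conj_trans sQ.eps_mem sP.conj_del) rfl,
      single_comp_act (gl (del p)) (gl (eps q)) (gl (eps q) * gl (del p)) sNp.conj_del h' _
        (eps_del_comm p q).symm]
  · exact ⟨hγ, mem_upGam.2 (dvd_cancel_mul Fact.out Fact.out hpq (he e ▸ mem_upGam.1 hδ.2))⟩
  · obtain ⟨k, hk, -, h⟩ := exists_adjust hpq sNq sNp x hx
    obtain ⟨g, hg, e⟩ := sNq.conj_del (x * k) h
    refine ⟨k, hk, g, hg, ?_⟩
    rw [eps_eq_scalar]
    generalize glQ (x * k) = b at e ⊢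
    generalize glQ g = r at e ⊢
    generalize gl (del q) = D at e ⊢
    generalize Units.mk0 (q : ℚ) _ = c
    have hr : r = D * b * D⁻¹ := by rw [e]; group
    rw [hr, mul_assoc, ← mul_assoc b, ← scal_comm c b, mul_assoc]
    group

include hpq in
/-- The two second traces as one corestriction. -/
theorem J2_J2_eq (z : Hom1 (GamH L (⊤ : Subgroup (ZMod L)ˣ)) A) :
    haveI : NeZero p := ⟨(Fact.out : p.Prime).ne_zero⟩
    haveI : NeZero q := ⟨(Fact.out : q.Prime).ne_zero⟩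
    ∃ hc : ∀ γ ∈ GamH N (⊤ : Subgroup (ZMod N)ˣ) ⊓ (upGam q ⊓ upGam p),
        ∃ g ∈ GamH L (⊤ : Subgroup (ZMod L)ˣ),
          gl (del p) * gl (del q) * glQ γ = glQ g * (gl (del p) * gl (del q)),
      sNq.J2'.act (sP.J2'.act z) =
        (Corr.cores (Γ := GamH N ⊤) (Γ' := GamH N ⊤ ⊓ (upGam q ⊓ upGam p))).act
          ((Corr.single (gl (del p) * gl (del q)) hc).act z) := by
  haveI : NeZero p := ⟨(Fact.out : p.Prime).ne_zero⟩
  haveI : NeZero q := ⟨(Fact.out : q.Prime).ne_zero⟩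
  have he : ∀ {γ δ : SL(2, ℤ)}, gl (del q) * glQ γ = glQ δ * gl (del q) →
      γ.1 0 1 = q * δ.1 0 1 := fun {γ δ} e => by
    have := congrFun (congrFun (mul_glQ_eq (del_det q) (del_det q) e) 0) 1
    simpa [del, Matrix.mul_apply, Fin.sum_univ_two, mul_comm] using this
  have h' : ∀ γ ∈ GamH N (⊤ : Subgroup (ZMod N)ˣ) ⊓ (upGam q ⊓ upGam p),
      ∃ δ ∈ GamH Nq (⊤ : Subgroup (ZMod Nq)ˣ) ⊓ upGam p,
        gl (del q) * glQ γ = glQ δ * gl (del q) := fun γ hγ => by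
    obtain ⟨δ, hδ, e⟩ := sNq.conj_del γ ⟨hγ.1, hγ.2.1⟩
    exact ⟨δ, ⟨hδ, mem_upGam.2 (dvd_cancel_mul Fact.out Fact.out hpq
      (he e ▸ mem_upGam.1 hγ.2.2))⟩, e⟩
  refine ⟨single_conj_trans sP.conj_del h', ?_⟩
  rw [sNq.J2'_eq, sP.J2'_eq,
    cores_single (gl (del q)) sNq.conj_del h' (inf_le_inf_left _ inf_le_left)
      (fun γ hγ δ hδ e => ⟨hγ.1, hγ.2, mem_upGam.2 (he e ▸ (mem_upGam.1 hδ.2).mul_left _)⟩)
      (fun x hx => ?_),
    cores_trans inf_le_left (inf_le_inf_left _ inf_le_left),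
    single_comp_act (gl (del p)) (gl (del q)) _ sP.conj_del h' _ rfl]
  obtain ⟨γ, hγ, e⟩ := sNq.conj_del_inv x hx
  exact ⟨1, one_mem _, γ, hγ, by rw [mul_one, e]⟩

include hpq in
/-- The second traces at two primes commute. -/
theorem J2_J2_comm (z : Hom1 (GamH L (⊤ : Subgroup (ZMod L)ˣ)) A) :
    sNq.J2'.act (sP.J2'.act z) = sNp.J2'.act (sQ.J2'.act z) := by
  haveI : NeZero p := ⟨(Fact.out : p.Prime).ne_zero⟩
  haveI : NeZero q := ⟨(Fact.out : q.Prime).ne_zero⟩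
  obtain ⟨hc, e⟩ := J2_J2_eq hpq sNq sP z
  obtain ⟨hc', e'⟩ := J2_J2_eq hpq.symm sNp sQ z
  rw [e, e']
  have key : ∀ (K K' : Subgroup SL(2, ℤ)) (α α' : GL (Fin 2) ℚ)
      [Finite (GamH N (⊤ : Subgroup (ZMod N)ˣ) ⧸ K.subgroupOf (GamH N ⊤))]
      [Finite (GamH N (⊤ : Subgroup (ZMod N)ˣ) ⧸ K'.subgroupOf (GamH N ⊤))]
      (h : ∀ γ ∈ K, ∃ g ∈ GamH L (⊤ : Subgroup (ZMod L)ˣ), α * glQ γ = glQ g * α)
      (h' : ∀ γ ∈ K', ∃ g ∈ GamH L (⊤ : Subgroup (ZMod L)ˣ), α' * glQ γ = glQ g * α'),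
      K = K' → α = α' →
      (Corr.cores (Γ := GamH N (⊤ : Subgroup (ZMod N)ˣ)) (Γ' := K)).act
          ((Corr.single α h).act z) =
        (Corr.cores (Γ := GamH N (⊤ : Subgroup (ZMod N)ˣ)) (Γ' := K')).act
          ((Corr.single α' h').act z) := by
    intro K K' α α' _ _ h h' hK hα
    subst hK hα
    congr
  exact key _ _ _ _ hc hc' (by rw [inf_comm (upGam q)]) (del_del_comm q p)

end square

end IsStep

end FA.HeckeH1

end
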