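import Fermat.Agent.HeckeH1.MonoRed
import Fermat.Agent.HeckeH1.BaseTower

/-!
# The piece of a residual system modulo the maximal ideal is the part of the torsion of the system

The reduction of the image of the idempotent of a residual system at level `N` is the common
generalised eigenspace of the good operators in the torsion of `J₀(N)` over the residue field.
-/

set_option autoImplicit false
set_option linter.style.haveILetI false
set_option linter.unusedSectionVars false
set_option synthInstance.maxHeartbeats 200000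

noncomputable section

namespace FA.HeckeH1

open IsLocalRing FA.Level FA.JTorsion ModularCurve
open scoped TensorProduct MatrixGroups

local notation "Qb" => AlgebraicClosure ℚ

/-- A homomorphism to a torsion free domain is a combination of integral ones. -/
theorem exists_coord_domain {Γ : Subgroup SL(2, ℤ)} [Γ.FiniteIndex] {A : Type} [CommRing A]
    [IsDomain A] [CharZero A] (z : Hom1 Γ A) :
    ∃ (n : ℕ) (co : Fin n → A) (zk : Fin n → Hom1 Γ ℤ),
      z = ∑ i, co i • (Int.castAddHom A).comp (zk i) ∧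
      ∀ i, ∃ f : z.range →+ ℤ, zk i = f.comp z.rangeRestrict := by
  have := group_fg
  have hΓ : Group.FG Γ := inferInstance
  have : AddGroup.FG (Additive Γ) := inferInstance
  have hfg : AddGroup.FG z.range := AddGroup.fg_range z
  have : Module.Finite ℤ z.range := Module.Finite.iff_addGroup_fg.2 hfg
  let b := Module.finBasis ℤ z.range
  refine ⟨_, fun i => ((b i : z.range) : A),
    fun i => (b.coord i).toAddMonoidHom.comp z.rangeRestrict, ?_, fun i => ⟨_, rfl⟩⟩
  apply AddMonoidHom.ext
  intro γ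
  have h1 := congrArg Subtype.val (b.sum_repr (z.rangeRestrict γ))
  rw [AddSubgroup.val_finset_sum] at h1
  rw [AddMonoidHom.finsetSum_apply]
  refine h1.symm.trans (Finset.sum_congr rfl fun i _ => ?_)
  simp [mul_comm]

variable {O : Type} [CommRing O] [IsDomain O] [IsDiscreteValuationRing O]
  [IsAdicComplete (maximalIdeal O) O] [CharZero O]

section red

variable {Γ : Subgroup SL(2, ℤ)}

/-- Reduction of values. -/
def redHom : Hom1 Γ O →+ Hom1 Γ (ResidueField O) :=
  AddMonoidHom.mk' (fun z => (residue O).toAddMonoidHom.comp z) fun _ _ => AddMonoidHom.comp_add _ _ _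

theorem redHom_apply (z : Hom1 Γ O) (γ : Additive Γ) : redHom z γ = residue O (z γ) := rfl

theorem redHom_smul (o : O) (z : Hom1 Γ O) : redHom (o • z) = residue O o • redHom z :=
  AddMonoidHom.ext fun γ => map_mul (residue O) o (z γ)

theorem redHom_act {Γ' : Subgroup SL(2, ℤ)} (C : Corr Γ Γ') (z : Hom1 Γ O) :
    redHom (C.act z) = C.act (redHom z) :=
  (C.act_comp_hom _ z).symm

/-- A class reducing to zero is a multiple of the uniformizer. -/
theorem exists_smul_of_redHom_eq_zero {ϖ : O} (hϖ : maximalIdeal O = Ideal.span {ϖ}) (hϖ0 : ϖ ≠ 0)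
    {z : Hom1 Γ O} (h : redHom z = 0) : ∃ y, z = ϖ • y := by
  have hd : ∀ γ, ϖ ∣ z γ := fun γ => by
    rw [← Ideal.mem_span_singleton, ← hϖ, ← residue_eq_zero_iff]
    exact DFunLike.congr_fun h γ
  choose g hg using hd
  refine ⟨AddMonoidHom.mk' g fun a b => mul_left_cancel₀ hϖ0 ?_, AddMonoidHom.ext fun γ => hg γ⟩
  rw [mul_add, ← hg, ← hg, ← hg, map_add]

end red

variable [Algebra Qb ℂ] (N : ℕ) [NeZero N] (p : ℕ) [Fact p.Prime] [CharP (ResidueField O) p]

/-- Parabolic homomorphisms reduce into the torsion. -/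
theorem exists_torsFun_eq {z : Hom1 (GamH N ⊤) O} (hz : z ∈ Par (GamH N ⊤) O) :
    ∃ x, torsFun N p (ResidueField O) x = redHom z := by
  obtain ⟨n, co, zk, hsum, hfac⟩ := exists_coord_domain z
  have hpar : ∀ i, zk i ∈ Par (GamH N ⊤) ℤ := fun i γ s hs => by
    obtain ⟨f, hf⟩ := hfac i
    have : z.rangeRestrict (Additive.ofMul γ) = 0 := Subtype.ext (hz γ s hs)
    rw [hf]
    show f (z.rangeRestrict (Additive.ofMul γ)) = 0
    rw [this, map_zero]
  choose φ hφ using fun i => exists_latFun_eq N (hpar i)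
  refine ⟨∑ i, residue O (co i) ⊗ₜ Submodule.Quotient.mk (φ i), ?_⟩
  rw [map_sum, hsum, map_sum]
  refine Finset.sum_congr rfl fun i _ => ?_
  rw [torsFun_tmul, modFun_mk, hφ, redHom_smul]
  congr 1

/-- The torsion lifts to parabolic homomorphisms. -/
theorem exists_redHom_eq (x : FA.ModField.ModK N p (ResidueField O)) :
    ∃ z ∈ Par (GamH N ⊤) O, redHom z = torsFun N p (ResidueField O) x := by
  induction x using TensorProduct.induction_on with
  | zero => exact ⟨0, zero_mem _, by rw [map_zero, map_zero]⟩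
  | tmul c v =>
    obtain ⟨φ, rfl⟩ := Submodule.Quotient.mk_surjective _ v
    obtain ⟨o, rfl⟩ := residue_surjective (R := O) c
    refine ⟨o • (Int.castAddHom O).comp (latFun N φ),
      Submodule.smul_mem _ _ (Par_comp _ (latFun_mem_Par N φ)), ?_⟩
    rw [redHom_smul, torsFun_tmul, modFun_mk]
    congr 1
  | add x y hx hy =>
    obtain ⟨z, hz, hz'⟩ := hx
    obtain ⟨w, hw, hw'⟩ := hy
    exact ⟨z + w, add_mem hz hw, by rw [map_add, map_add, hz', hw']⟩

variable (S : Finset Nat.Primes) (c : Nat.Primes → ResidueField O)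

/-- Reduction commutes with the polynomials in the operators. -/
theorem redHom_heckePoly (P : MvPolynomial Nat.Primes O) :
    ∀ z : Hom1 (GamH N ⊤) O, redHom ((heckePoly N ⊤ O S P).1 z) =
      (heckePoly N ⊤ (ResidueField O) S (MvPolynomial.map (residue O) P)).1 (redHom z) := by
  induction P using MvPolynomial.induction_on with
  | C r =>
    intro z
    simp only [heckePoly, MvPolynomial.aeval_C, MvPolynomial.map_C]
    exact redHom_smul r z
  | add P Q hP hQ =>
    intro z
    rw [map_add, map_add, map_add]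
    show redHom ((heckePoly N ⊤ O S P).1 z + (heckePoly N ⊤ O S Q).1 z) = _
    rw [map_add, hP, hQ]
    rfl
  | mul_X P ℓ hP =>
    intro z
    rw [map_mul, map_mul, map_mul, MvPolynomial.map_X,
      show heckePoly N ⊤ O S (.X ℓ) = Tgen N ⊤ O S ℓ from MvPolynomial.aeval_X _ ℓ,
      show heckePoly N ⊤ (ResidueField O) S (.X ℓ) = Tgen N ⊤ (ResidueField O) S ℓ from
        MvPolynomial.aeval_X _ ℓ]
    show redHom ((heckePoly N ⊤ O S P).1 ((Tgen N ⊤ O S ℓ).1 z)) = _
    rw [hP]
    refine congrArg (heckePoly N ⊤ (ResidueField O) S (MvPolynomial.map (residue O) P)).1 ?_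
    by_cases hℓ : ℓ ∈ S
    · rw [Tgen_apply_mem N ⊤ O S hℓ, Tgen_apply_mem N ⊤ _ S hℓ, map_zero]
    · rw [Tgen_apply N ⊤ O S hℓ, Tgen_apply N ⊤ _ S hℓ, redHom_act]

/-- The residual values on the generators. -/
def genVal : MvPolynomial Nat.Primes O →ₐ[O] ResidueField O :=
  MvPolynomial.aeval fun ℓ => if ℓ ∈ S then 0 else c ℓ

/-- The homomorphisms killed by powers of the operators less their residual values. -/
def IsGenEigen (u : Hom1 (GamH N ⊤) (ResidueField O)) : Prop :=
  ∀ ℓ : Nat.Primes, ℓ ∉ S → ∃ n : ℕ,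
    ((Tgen N ⊤ (ResidueField O) S ℓ - algebraMap (ResidueField O) _ (c ℓ)) ^ n).1 u = 0

/-- On a generalised eigenvector every operator is its value plus a nilpotent. -/
theorem exists_pow_sub_genVal {u : Hom1 (GamH N ⊤) (ResidueField O)}
    (hu : IsGenEigen N S c u) (P : MvPolynomial Nat.Primes O) :
    ∃ n : ℕ, ((heckePoly N ⊤ (ResidueField O) S (MvPolynomial.map (residue O) P) -
      algebraMap (ResidueField O) _ (genVal S c P)) ^ n).1 u = 0 := by
  let A := heckeAlg N ⊤ (ResidueField O) S
  let J : Ideal A :=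
    { carrier := {a | a.1 u = 0}
      add_mem' := fun {a b} ha hb => by
        show a.1 u + b.1 u = 0
        rw [show a.1 u = 0 from ha, show b.1 u = 0 from hb, add_zero]
      zero_mem' := rfl
      smul_mem' := fun b a ha => by
        show b.1 (a.1 u) = 0
        rw [show a.1 u = 0 from ha, map_zero] }
  suffices h : heckePoly N ⊤ (ResidueField O) S (MvPolynomial.map (residue O) P) -
      algebraMap (ResidueField O) _ (genVal S c P) ∈ J.radical from h
  have hgen : ∀ ℓ : Nat.Primes,
      Tgen N ⊤ (ResidueField O) S ℓ -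
        algebraMap (ResidueField O) A (if ℓ ∈ S then 0 else c ℓ) ∈ J.radical := fun ℓ => by
    by_cases hℓ : ℓ ∈ S
    · rw [if_pos hℓ, map_zero, sub_zero, show Tgen N ⊤ (ResidueField O) S ℓ = (0 : A) from
        Subtype.ext (LinearMap.ext fun z => Tgen_apply_mem N ⊤ _ S hℓ z)]
      exact zero_mem _
    · rw [if_neg hℓ]
      exact hu ℓ hℓ
  induction P using MvPolynomial.induction_on with
  | C r =>
    rw [genVal, MvPolynomial.aeval_C, MvPolynomial.map_C, heckePoly, MvPolynomial.aeval_C,
      show algebraMap O (ResidueField O) r = residue O r from rfl, sub_self]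
    exact zero_mem _
  | add P Q hP hQ =>
    have h := add_mem hP hQ
    rw [map_add, map_add, map_add, map_add]
    rw [add_sub_add_comm]
    exact h
  | mul_X P ℓ hP =>
    rw [map_mul, map_mul, map_mul, map_mul, MvPolynomial.map_X,
      show heckePoly N ⊤ (ResidueField O) S (.X ℓ) = Tgen N ⊤ (ResidueField O) S ℓ from
        MvPolynomial.aeval_X _ ℓ,
      show genVal S c (.X ℓ) = (if ℓ ∈ S then 0 else c ℓ) from MvPolynomial.aeval_X _ ℓ,
      show ∀ x y u v : A, x * y - u * v = x * (y - v) + (x - u) * v from fun _ _ _ _ => by ring]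
    exact add_mem (Ideal.mul_mem_left _ _ (hgen ℓ)) (Ideal.mul_mem_right _ _ hP)

/-- The system occurs as soon as the torsion has a generalised eigenvector. -/
theorem hasSys_of_isGenEigen {z : Hom1 (GamH N ⊤) O} (hu : IsGenEigen N S c (redHom z))
    (hne : redHom z ≠ 0) : HasSys S c N := by
  classical
  let π := heckePoly N ⊤ O S
  have hπ : Function.Surjective π := heckePoly_surjective N ⊤ O S
  have hker : RingHom.ker π ≤ RingHom.ker (genVal S c) := fun P hP => by
    obtain ⟨n, hn⟩ := exists_pow_sub_genVal N S c hu P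
    have h0 : (heckePoly N ⊤ (ResidueField O) S (MvPolynomial.map (residue O) P)).1 (redHom z) = 0 := by
      rw [← redHom_heckePoly, show heckePoly N ⊤ O S P = 0 from hP]
      exact map_zero _
    refine RingHom.mem_ker.2 ?_
    set a := heckePoly N ⊤ (ResidueField O) S (MvPolynomial.map (residue O) P)
    set ε := genVal S c P
    have hpow : ∀ m : ℕ, ((a - algebraMap (ResidueField O) _ ε) ^ m).1 (redHom z) =
        (-ε) ^ m • redHom z := by
      intro m
      induction m with
      | zero => rw [pow_zero, pow_zero, one_smul]; rfl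
      | succ m ih =>
        rw [pow_succ' (a - algebraMap (ResidueField O) _ ε)]
        show (a - algebraMap (ResidueField O) _ ε).1
          (((a - algebraMap (ResidueField O) _ ε) ^ m).1 (redHom z)) = _
        rw [ih, map_smul]
        show (-ε) ^ m • (a.1 (redHom z) - ε • redHom z) = _
        rw [h0, zero_sub, ← neg_smul, smul_smul, pow_succ]
    rw [hpow, smul_eq_zero, or_iff_left hne] at hn
    exact neg_eq_zero.1 (eq_zero_of_pow_eq_zero hn)
  let e := Ideal.quotientKerAlgEquivOfSurjective hπ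
  refine ⟨(Ideal.Quotient.liftₐ (RingHom.ker π) (genVal S c) fun P hP => hker hP).comp
    e.symm.toAlgHom, fun ℓ hℓ => ?_⟩
  rw [← show π (.X ℓ) = Tgen N ⊤ O S ℓ from MvPolynomial.aeval_X _ ℓ, AlgHom.comp_apply,
    show e.symm.toAlgHom (π (.X ℓ)) = Ideal.Quotient.mk _ (.X ℓ) from
      e.injective ((e.apply_symm_apply _).trans (by simp [e]))]
  show genVal S c (.X ℓ) = c ℓ
  rw [genVal, MvPolynomial.aeval_X, if_neg hℓ]

/-- A generalised eigenvector is fixed by the idempotent of the system. -/
theorem redHom_sysIdem {z : Hom1 (GamH N ⊤) O} (hu : IsGenEigen N S c (redHom z)) :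
    redHom (sysIdem S c N z) = redHom z := by
  classical
  by_cases h0 : redHom z = 0
  · have hϖ := (IsDiscreteValuationRing.exists_irreducible O).choose_spec
    obtain ⟨y, rfl⟩ := exists_smul_of_redHom_eq_zero hϖ.maximalIdeal_eq hϖ.ne_zero h0
    rw [map_smul, redHom_smul, redHom_smul,
      (residue_eq_zero_iff _).2 (hϖ.maximalIdeal_eq ▸ Ideal.mem_span_singleton_self _),
      zero_smul, zero_smul]
  have hsys := hasSys_of_isGenEigen N S c hu h0
  obtain ⟨χ, e, hχ, he, hee⟩ := exists_sysPiece hsys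
  rw [← hee]
  obtain ⟨P, hP⟩ := heckePoly_surjective N ⊤ O S (1 - e)
  have hε : ∀ Q, genVal S c Q = χ (heckePoly N ⊤ O S Q) := by
    intro Q
    refine AlgHom.congr_fun (φ₂ := χ.comp (heckePoly N ⊤ O S))
      (MvPolynomial.algHom_ext fun ℓ => ?_) Q
    rw [genVal, MvPolynomial.aeval_X, AlgHom.comp_apply,
      show heckePoly N ⊤ O S (.X ℓ) = Tgen N ⊤ O S ℓ from MvPolynomial.aeval_X _ ℓ]
    by_cases hℓ : ℓ ∈ S
    · rw [if_pos hℓ, Tgen_eq_zero hℓ, map_zero]
    · rw [if_neg hℓ, hχ ℓ hℓ]
  obtain ⟨n, hn⟩ := exists_pow_sub_genVal N S c hu P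
  rw [hε, hP, map_sub, map_one, he.char, sub_self, map_zero, sub_zero] at hn
  have h1 : redHom (((1 - e) ^ (n + 1)).1 z) = 0 := by
    rw [← hP, ← map_pow, redHom_heckePoly, map_pow, map_pow, pow_succ']
    show (heckePoly N ⊤ (ResidueField O) S (MvPolynomial.map (residue O) P)).1
      (((heckePoly N ⊤ (ResidueField O) S (MvPolynomial.map (residue O) P)) ^ n).1 (redHom z)) = 0
    rw [hn, map_zero]
  rw [he.idem.one_sub.pow_succ_eq] at h1
  have h2 : redHom (z - e.1 z) = 0 := h1
  rw [map_sub, sub_eq_zero] at h2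
  exact h2.symm

variable [Finite (ResidueField O)]

/-- The image of the idempotent consists of generalised eigenvectors. -/
theorem isGenEigen_sysIdem (z : Hom1 (GamH N ⊤) O) :
    IsGenEigen N S c (redHom (sysIdem S c N z)) := by
  classical
  intro ℓ hℓ
  by_cases hsys : HasSys S c N
  swap
  · exact ⟨0, by rw [sysIdem_of_not S c hsys, LinearMap.zero_apply, map_zero, map_zero]⟩
  have := heckeAlg_finite N ⊤ O S
  obtain ⟨χ, e, hχ, he, hee⟩ := exists_sysPiece hsys
  let A := heckeAlg N ⊤ O S
  let J : Ideal A :=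
    { carrier := {a | ∀ v, redHom ((a * e).1 v) = 0}
      add_mem' := fun {a b} ha hb v => by
        show redHom (((a + b) * e).1 v) = 0
        rw [add_mul]
        show redHom ((a * e).1 v + (b * e).1 v) = 0
        rw [map_add, ha v, hb v, add_zero]
      zero_mem' := fun v => by rw [zero_mul]; exact map_zero _
      smul_mem' := fun b a ha v => by
        rw [smul_eq_mul, mul_assoc, mul_comm b, mul_assoc]
        show redHom (a.1 ((e * b).1 v)) = 0
        exact ha (b.1 v) }
  have hJm : ∀ (o : O) (a : A), o ∈ maximalIdeal O → o • a ∈ J := fun o a ho v => by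
    rw [smul_mul_assoc]
    show redHom (o • (a * e).1 v) = 0
    rw [redHom_smul, (residue_eq_zero_iff o).2 ho, zero_smul]
  have hfin : Finite (A ⧸ J) := by
    obtain ⟨d, g, hg⟩ := Module.Finite.exists_fin (R := O) (M := A)
    choose s hs using residue_surjective (R := O)
    refine Finite.of_surjective
      (fun v : Fin d → ResidueField O => Ideal.Quotient.mk J (∑ i, s (v i) • g i)) fun b => ?_
    obtain ⟨a, rfl⟩ := Ideal.Quotient.mk_surjective b
    obtain ⟨o, ho⟩ := (Submodule.mem_span_range_iff_exists_fun O).1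
      (show a ∈ Submodule.span O (Set.range g) by rw [hg]; trivial)
    rw [← ho]
    refine ⟨fun i => residue O (o i), Ideal.Quotient.eq.2 ?_⟩
    rw [← Finset.sum_sub_distrib]
    refine Submodule.sum_mem _ fun i _ => ?_
    rw [← sub_smul]
    exact hJm _ _ ((residue_eq_zero_iff _).1 (by rw [map_sub, hs, sub_self]))
  obtain ⟨c₀, hc₀⟩ := residue_surjective (R := O) (c ℓ)
  set a : A := Tgen N ⊤ O S ℓ - algebraMap O A c₀ with ha
  have hχa : χ a = 0 := by
    rw [ha, map_sub, hχ ℓ hℓ, AlgHom.commutes, show algebraMap O (ResidueField O) c₀ = residue O c₀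
      from rfl, hc₀, sub_self]
  obtain ⟨i, j, hij, heq⟩ := Finite.exists_ne_map_eq_of_infinite
    fun m : ℕ => Ideal.Quotient.mk J (a ^ m)
  wlog hlt : i < j generalizing i j
  · exact this j i hij.symm heq.symm (by omega)
  obtain ⟨s, hs⟩ := he.inv (1 - a ^ (j - i)) (by
    rw [map_sub, map_one, map_pow, hχa, zero_pow (by omega), sub_zero]; exact one_ne_zero)
  have h1 : a ^ i ∈ J := fun v => by
    have h2 : s * (a ^ i - a ^ j) ∈ J := J.mul_mem_left _ (Ideal.Quotient.eq.1 heq)
    have h3 : a ^ i - a ^ j = a ^ i * (1 - a ^ (j - i)) := by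
      rw [mul_sub, mul_one, ← pow_add, Nat.add_sub_cancel' hlt.le]
    have h4 : s * (a ^ i - a ^ j) * e = a ^ i * e := by
      rw [h3, ← mul_assoc, mul_comm s, mul_assoc, mul_assoc, ← mul_assoc s, hs]
    have h5 := h2 v
    rwa [h4] at h5
  refine ⟨i, ?_⟩
  have h2 := h1 z
  change redHom ((a ^ i).1 (e.1 z)) = 0 at h2
  rw [show a = heckePoly N ⊤ O S (.X ℓ - .C c₀) by
    rw [ha, map_sub, heckePoly, MvPolynomial.aeval_X, MvPolynomial.aeval_C], ← map_pow,
    redHom_heckePoly, map_pow, map_pow, map_sub, MvPolynomial.map_X, MvPolynomial.map_C, hc₀,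
    map_sub, heckePoly, MvPolynomial.aeval_X, MvPolynomial.aeval_C, hee] at h2
  exact h2

/-- The residual values as a function on natural numbers. -/
def natSys (ℓ : ℕ) : ResidueField O := if h : ℓ.Prime then c ⟨ℓ, h⟩ else 0

/-- The omitted primes as natural numbers. -/
def natSet : Finset ℕ := Finset.image (fun ℓ : Nat.Primes => (ℓ : ℕ)) S

theorem mem_natSet {ℓ : Nat.Primes} : (ℓ : ℕ) ∈ natSet S ↔ ℓ ∈ S := by
  simp only [natSet, Finset.mem_image]
  exact ⟨fun ⟨r, hr, e⟩ => (Subtype.ext e : r = ℓ) ▸ hr, fun h => ⟨ℓ, h, rfl⟩⟩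

variable (hS : ∀ ℓ : Nat.Primes, ℓ ∉ S → ¬ (ℓ : ℕ) ∣ N)

include hS in
/-- Membership in the part of the system. -/
theorem mem_eigenPart_iff (x : FA.ModField.ModK N p (ResidueField O)) :
    x ∈ FA.ModField.eigenPart N p (ResidueField O) (natSet S) (natSys c) ↔
      IsGenEigen N S c (torsFun N p (ResidueField O) x) := by
  have key : ∀ (ℓ : Nat.Primes) (hℓN : ¬ (ℓ : ℕ) ∣ N) (hℓ : ℓ ∉ S) (n : ℕ),
      torsFun N p (ResidueField O) (((FA.ModField.heckeK N p (ResidueField O)
        (CuspForm.heckeAlgebra.T (k := 2) ℓ.2 hℓN (Set.notMem_empty _)) - c ℓ • 1) ^ n) x) =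
      ((Tgen N ⊤ (ResidueField O) S ℓ - algebraMap (ResidueField O) _ (c ℓ)) ^ n).1
        (torsFun N p (ResidueField O) x) := by
    intro ℓ hℓN hℓ n
    induction n with
    | zero => rw [pow_zero, pow_zero]; rfl
    | succ n ih =>
      rw [pow_succ', Module.End.mul_apply, pow_succ' (Tgen N ⊤ (ResidueField O) S ℓ - _)]
      show _ = (Tgen N ⊤ (ResidueField O) S ℓ - algebraMap (ResidueField O) _ (c ℓ)).1
        (((Tgen N ⊤ (ResidueField O) S ℓ - algebraMap (ResidueField O) _ (c ℓ)) ^ n).1
          (torsFun N p (ResidueField O) x))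
      rw [← ih, LinearMap.sub_apply, map_sub, LinearMap.smul_apply, map_smul]
      haveI : Fact (ℓ : ℕ).Prime := ⟨ℓ.2⟩
      rw [torsFun_heckeK N p (ResidueField O) hℓN, Module.End.one_apply]
      show _ = (Tgen N ⊤ (ResidueField O) S ℓ).1 _ - c ℓ • _
      rw [Tgen_apply N ⊤ _ S hℓ]
      rfl
  simp only [FA.ModField.eigenPart, Submodule.mem_iInf]
  constructor
  · intro h ℓ hℓ
    have h1 := h ℓ ℓ.2 (hS ℓ hℓ) fun hm => hℓ ((mem_natSet S).1 hm)
    rw [Module.End.mem_maxGenEigenspace, show natSys c (ℓ : ℕ) = c ℓ from dif_pos ℓ.2] at h1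
    obtain ⟨n, hn⟩ := h1
    exact ⟨n, by rw [← key ℓ (hS ℓ hℓ) hℓ, hn, map_zero]⟩
  · intro h ℓ hℓ hℓN hℓS
    have hm : (⟨ℓ, hℓ⟩ : Nat.Primes) ∉ S := fun hm => hℓS ((mem_natSet S).2 hm)
    rw [Module.End.mem_maxGenEigenspace, show natSys c ℓ = c ⟨ℓ, hℓ⟩ from dif_pos hℓ]
    obtain ⟨n, hn⟩ := h ⟨ℓ, hℓ⟩ hm
    exact ⟨n, torsFun_injective N p (ResidueField O)
      ((key ⟨ℓ, hℓ⟩ hℓN hm n).trans (hn.trans (map_zero _).symm))⟩

variable (hpar : ∀ z, sysIdem S c N z ∈ Par (GamH N ⊤) O) {m : ℕ}
  (b : Module.Basis (Fin m) O (Fin (sysFrame S c N).d → O))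

/-- The reductions of a basis of the piece. -/
def redBasis : (Fin m → ResidueField O) →ₗ[ResidueField O] Hom1 (GamH N ⊤) (ResidueField O) :=
  Fintype.linearCombination (ResidueField O) fun i => redHom ((sysFrame S c N).emb (b i))

theorem redBasis_residue (a : Fin (sysFrame S c N).d → O) :
    redBasis N S c b (fun i => residue O (b.repr a i)) = redHom ((sysFrame S c N).emb a) := by
  conv_rhs => rw [← b.sum_repr a, map_sum, map_sum]
  rw [redBasis, Fintype.linearCombination_apply]
  refine Finset.sum_congr rfl fun i _ => ?_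
  rw [map_smul, redHom_smul]

theorem redBasis_injective : Function.Injective (redBasis N S c b) := by
  refine (injective_iff_map_eq_zero _).2 fun v hv => ?_
  choose s hs using residue_surjective (R := O)
  set a := b.equivFun.symm fun i => s (v i) with ha
  have hrepr : ∀ i, b.repr a i = s (v i) := fun i => by
    rw [← Module.Basis.equivFun_apply, ha, LinearEquiv.apply_symm_apply]
  have hv' : v = fun i => residue O (b.repr a i) := funext fun i => by rw [hrepr, hs]
  rw [hv', redBasis_residue] at hv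
  have hϖ := (IsDiscreteValuationRing.exists_irreducible O).choose_spec
  obtain ⟨y, hy⟩ := exists_smul_of_redHom_eq_zero hϖ.maximalIdeal_eq hϖ.ne_zero hv
  have h2 := congrArg (sysFrame S c N).coord hy
  rw [(sysFrame S c N).coord_emb, map_smul] at h2
  rw [hv']
  refine funext fun i => ?_
  rw [h2, map_smul, Finsupp.smul_apply, smul_eq_mul, map_mul,
    (residue_eq_zero_iff _).2 (hϖ.maximalIdeal_eq ▸ Ideal.mem_span_singleton_self _), zero_mul,
    Pi.zero_apply]

include hS hpar in
/-- **The piece modulo the maximal ideal is the part of the system.** -/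
theorem range_redBasis : LinearMap.range (redBasis N S c b) =
    (FA.ModField.eigenPart N p (ResidueField O) (natSet S) (natSys c)).map
      (torsFun N p (ResidueField O)) := by
  apply le_antisymm
  · rintro _ ⟨v, rfl⟩
    choose s hs using residue_surjective (R := O)
    set a := b.equivFun.symm fun i => s (v i) with ha
    have hv' : v = fun i => residue O (b.repr a i) := funext fun i => by
      rw [← Module.Basis.equivFun_apply, ha, LinearEquiv.apply_symm_apply, hs]
    rw [hv', redBasis_residue, ← (sysFrame S c N).e_emb a, sysFrame_e]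
    obtain ⟨x, hx⟩ := exists_torsFun_eq N p (hpar ((sysFrame S c N).emb a))
    refine ⟨x, (mem_eigenPart_iff N p S c hS x).2 ?_, hx⟩
    rw [hx]
    exact isGenEigen_sysIdem N S c _
  · rintro _ ⟨x, hx, rfl⟩
    obtain ⟨z, -, hz⟩ := exists_redHom_eq N p x
    refine ⟨fun i => residue O (b.repr ((sysFrame S c N).coord z) i), ?_⟩
    rw [redBasis_residue, (sysFrame S c N).emb_coord, sysFrame_e, redHom_sysIdem N S c, hz]
    rw [hz]
    exact (mem_eigenPart_iff N p S c hS x).1 hx

end FA.HeckeH1

end
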