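import Fermat.Agent.HeckeH1.Perfect

/-!
Parabolic homomorphisms as the image of modular symbols; integral coordinates.
-/

set_option autoImplicit false

noncomputable section

namespace FA.HeckeH1

open ModularGroup
open scoped MatrixGroups

variable {Γ Γ' : Subgroup SL(2, ℤ)} {A : Type*}

section theta

variable [AddCommGroup A]

/-- `φ ↦ (γ ↦ φ ∞ (γ ∞))`. -/
def theta : Symb Γ A →+ Hom1 Γ A where
  toFun φ := AddMonoidHom.mk' (fun γ => φ.1 cinf (glQ (γ.toMul : Γ) • cinf)) (fun γ δ => by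
    rw [toMul_add, Subgroup.coe_mul, map_mul, mul_smul]
    rw [← Symb.add_eq φ cinf (glQ (γ.toMul : Γ) • cinf), Symb.invariant φ (γ.toMul : Γ).2])
  map_zero' := by ext γ; rfl
  map_add' φ ψ := by ext γ; rfl

theorem theta_hv (φ : Symb Γ A) (γ : Γ) : hv (theta φ) γ = φ.1 cinf (glQ γ • cinf) := rfl

theorem theta_act (C : Corr Γ Γ') (φ : Symb Γ A) : theta (C.symb φ) = C.act (theta φ) := by
  apply AddMonoidHom.ext
  intro γ
  show hv (theta (C.symb φ)) γ.toMul = hv (C.act (theta φ)) γ.toMul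
  generalize γ.toMul = γ
  rw [theta_hv, Corr.symb_apply, C.act_apply]
  simp only [theta_hv]
  let e : C.ι → A := fun i => φ.1 cinf (C.α i • cinf)
  have key : ∀ i, φ.1 (C.α i • cinf) (C.α i • glQ γ • cinf) =
      φ.1 cinf (glQ (C.fac γ i) • cinf) + e (C.perm γ i) - e i := by
    intro i
    rw [smul_smul (C.α i), C.fac_spec, mul_smul]
    have h1 := Symb.add_eq φ cinf (C.α i • cinf)
      (glQ (C.fac γ i : SL(2, ℤ)) • C.α (C.perm γ i) • cinf)
    have h2 := Symb.add_eq φ cinf (glQ (C.fac γ i : SL(2, ℤ)) • cinf)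
      (glQ (C.fac γ i : SL(2, ℤ)) • C.α (C.perm γ i) • cinf)
    rw [Symb.invariant φ (C.fac γ i).2] at h2
    simp only [e]
    rw [h2, ← h1]
    abel
  rw [Finset.sum_congr rfl fun i _ => key i, Finset.sum_sub_distrib, Finset.sum_add_distrib,
    Equiv.sum_comp (C.perm γ) e, add_sub_cancel_right]

/-- `z` is a period homomorphism of a modular symbol iff it kills every element fixing a cusp. -/
theorem exists_theta_iff (z : Hom1 Γ A) :
    (∃ φ, theta φ = z) ↔ ∀ (γ : Γ) (s : P1), glQ γ • s = s → hv z γ = 0 := by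
  constructor
  · rintro ⟨φ, rfl⟩ γ s hs
    rw [theta_hv]
    have h1 := Symb.add_eq φ cinf (glQ (γ : SL(2, ℤ)) • cinf) (glQ (γ : SL(2, ℤ)) • s)
    rw [Symb.invariant φ γ.2, hs] at h1
    exact add_eq_right.1 h1
  · intro hz
    let r : Setoid P1 :=
      { r := fun s t => ∃ γ : Γ, t = glQ (γ : SL(2, ℤ)) • s
        iseqv := ⟨fun s => ⟨1, by simp⟩,
          fun {s t} ⟨γ, h⟩ => ⟨γ⁻¹, by rw [h, Subgroup.coe_inv, map_inv, inv_smul_smul]⟩,
          fun {s t u} ⟨γ, h⟩ ⟨δ, h'⟩ =>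
            ⟨δ * γ, by rw [h', h, Subgroup.coe_mul, map_mul, mul_smul]⟩⟩ }
    have hex : ∀ s : P1, ∃ γ : Γ, s = glQ (γ : SL(2, ℤ)) • (Quotient.mk r s).out := fun s =>
      Quotient.exact ((Quotient.out_eq (Quotient.mk r s)))
    choose g hg using hex
    let e : P1 → A := fun s => hv z (g s)
    have he : ∀ (γ : Γ) s, e (glQ (γ : SL(2, ℤ)) • s) = hv z γ + e s := by
      intro γ s
      have hq : Quotient.mk r (glQ (γ : SL(2, ℤ)) • s) = Quotient.mk r s :=
        (Quotient.sound (s := r) ⟨γ, rfl⟩).symm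
      have h1 := hg (glQ (γ : SL(2, ℤ)) • s)
      rw [hq] at h1
      conv_lhs at h1 => rw [hg s]
      have h2 : hv z ((g (glQ (γ : SL(2, ℤ)) • s))⁻¹ * (γ * g s)) = 0 := by
        refine hz _ ((Quotient.mk r s).out) ?_
        simp only [Subgroup.coe_mul, Subgroup.coe_inv, map_mul, map_inv, mul_smul]
        rw [h1, inv_smul_smul]
      rw [hv_mul, hv_inv, hv_mul, neg_add_eq_zero] at h2
      exact h2
    refine ⟨⟨fun a b => e b - e a, fun a b c => sub_add_sub_cancel' _ _ _, fun γ hγ a b => ?_⟩, ?_⟩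
    · show e _ - e _ = _
      rw [he ⟨γ, hγ⟩, he ⟨γ, hγ⟩]; abel
    · apply AddMonoidHom.ext
      intro γ
      show e (glQ (γ.toMul : Γ) • cinf) - e cinf = hv z γ.toMul
      rw [he, add_sub_cancel_right]

end theta

variable [CommRing A]

/-- Parabolic homomorphisms. -/
def Par (Γ : Subgroup SL(2, ℤ)) (A : Type*) [CommRing A] : Submodule A (Hom1 Γ A) where
  carrier := {z | ∀ (γ : Γ) (s : P1), glQ (γ : SL(2, ℤ)) • s = s → hv z γ = 0}
  add_mem' {a b} ha hb γ s h := by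
    show hv a γ + hv b γ = 0
    rw [ha γ s h, hb γ s h, add_zero]
  zero_mem' _ _ _ := rfl
  smul_mem' c a ha γ s h := by
    show c * hv a γ = 0
    rw [ha γ s h, mul_zero]

theorem mem_Par {z : Hom1 Γ A} : z ∈ Par Γ A ↔ ∃ φ, theta φ = z := (exists_theta_iff z).symm

theorem Par_act (C : Corr Γ Γ') {z : Hom1 Γ A} (hz : z ∈ Par Γ A) : C.act z ∈ Par Γ' A := by
  obtain ⟨φ, rfl⟩ := mem_Par.1 hz
  exact mem_Par.2 ⟨C.symb φ, theta_act C φ⟩

theorem Par_comp {B : Type*} [CommRing B] (f : A →+ B) {z : Hom1 Γ A} (hz : z ∈ Par Γ A) :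
    f.comp z ∈ Par Γ B := fun γ s h => by
  show f (hv z γ) = 0
  rw [hz γ s h, map_zero]

theorem Par_of_nsmul [IsAddTorsionFree A] {n : ℕ} (hn : n ≠ 0) {z : Hom1 Γ A}
    (h : n • z ∈ Par Γ A) : z ∈ Par Γ A := fun γ s hs =>
  (nsmul_eq_zero_iff_right hn).1 (h γ s hs)

theorem group_fg : Group.FG SL(2, ℤ) := by
  classical
  exact Group.fg_iff.2 ⟨{S, Ug}, closure_S_Ug, (Set.finite_singleton _).insert _⟩

/-- A homomorphism to `ℂ` is a combination of integral homomorphisms made of its coordinates. -/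
theorem exists_coord [Γ.FiniteIndex] (z : Hom1 Γ ℂ) :
    ∃ (n : ℕ) (c : Fin n → ℂ) (zk : Fin n → Hom1 Γ ℤ),
      z = ∑ k, c k • (Int.castAddHom ℂ).comp (zk k) ∧
      ∀ k, ∃ f : z.range →+ ℤ, zk k = f.comp z.rangeRestrict := by
  have := group_fg
  have hΓ : Group.FG Γ := inferInstance
  have : AddGroup.FG (Additive Γ) := inferInstance
  have hfg : AddGroup.FG z.range := AddGroup.fg_range z
  have : Module.Finite ℤ z.range := Module.Finite.iff_addGroup_fg.2 hfg
  let b := Module.finBasis ℤ z.range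
  refine ⟨_, fun k => ((b k : z.range) : ℂ),
    fun k => (b.coord k).toAddMonoidHom.comp z.rangeRestrict, ?_, fun k => ⟨_, rfl⟩⟩
  apply AddMonoidHom.ext
  intro γ
  have h1 := congrArg Subtype.val (b.sum_repr (z.rangeRestrict γ))
  rw [AddSubgroup.val_finset_sum] at h1
  rw [AddMonoidHom.finsetSum_apply]
  refine h1.symm.trans (Finset.sum_congr rfl fun k _ => ?_)
  simp [mul_comm]

end FA.HeckeH1

end
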