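import Fermat.Agent.HeckeH1.CuspSum

/-!
Adjointness of the pairing: restriction, corestriction, conjugation.

The conjugation invariance uses lifts `C : Γ → (ℙ¹ → A)` of the product `z ⬝ φ`; the pairing is
the sum over cusps `s` of `C (π s) s` for the positive generators `π s` of the stabilisers.
-/

set_option autoImplicit false

noncomputable section

namespace FA.HeckeH1

open ModularGroup
open scoped MatrixGroups

variable {Γ Γ' : Subgroup SL(2, ℤ)} {A : Type*} [CommRing A] [IsAddTorsionFree A]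

theorem msym_res (h : Γ' ≤ Γ) (φ : Symb Γ A) (g : SL(2, ℤ)) :
    msym ((Corr.res h).symb φ) g = msym φ g := by
  simp only [msym, Corr.res, Corr.single_symb, one_smul]

variable [Γ.FiniteIndex] [Γ'.FiniteIndex]

instance finite_quotient_subgroupOf : Finite (Γ ⧸ Γ'.subgroupOf Γ) := inferInstance

/-- Restriction is adjoint to corestriction. -/
theorem pr_res (h : Γ' ≤ Γ) (z : Hom1 Γ A) (φ : Symb Γ' A) :
    pr ((Corr.res h).act z) φ = pr z ((Corr.cores (Γ := Γ) (Γ' := Γ')).symb φ) := by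
  letI : Fintype (Γ ⧸ Γ'.subgroupOf Γ) := Fintype.ofFinite _
  obtain ⟨P, Q, hP, hPS, hQ, hQU, hF⟩ := isFun_pairFun z
  rw [pr_eq ((Corr.res h).act z) φ P Q (fun γ g => by rw [Corr.res_act]; exact hP ⟨γ, h γ.2⟩ g) hPS
    (fun γ g => by rw [Corr.res_act]; exact hQ ⟨γ, h γ.2⟩ g) hQU]
  simp only [← hF]
  rw [qsum_subgroup h (fun γ hγ g => by simp only [pairFun_linv z γ (h hγ), msym_linv φ γ hγ]), pr]
  refine qsum_congr fun g => ?_
  simp only [pairFun_linv z _ (inv_mem (SetLike.coe_mem _)), ← Finset.mul_sum]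
  congr 1
  simp only [msym, Corr.symb_apply, map_mul, mul_smul]
  rfl

/-- Corestriction is adjoint to restriction. -/
theorem pr_cores (h : Γ' ≤ Γ) (z : Hom1 Γ' A) (φ : Symb Γ A) :
    pr ((Corr.cores (Γ := Γ) (Γ' := Γ')).act z) φ = pr z ((Corr.res h).symb φ) := by
  letI : Fintype (Γ ⧸ Γ'.subgroupOf Γ) := Fintype.ofFinite _
  obtain ⟨P, Q, hP, hPS, hQ, hQU, hF⟩ := isFun_pairFun z
  let C : Corr Γ' Γ := Corr.cores
  have key : ∀ (R : SL(2, ℤ) → A), (∀ (γ : Γ') g, R (γ * g) = hv z γ + R g) →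
      ∀ (γ : Γ) g, ∑ y : Γ ⧸ Γ'.subgroupOf Γ, R (((y.out : Γ) : SL(2, ℤ))⁻¹ * (γ * g)) =
        hv (C.act z) γ + ∑ y : Γ ⧸ Γ'.subgroupOf Γ, R (((y.out : Γ) : SL(2, ℤ))⁻¹ * g) := by
    intro R hR γ g
    refine Eq.trans (Eq.trans (Finset.sum_congr rfl fun y _ => ?_) Finset.sum_add_distrib)
      (congrArg₂ (· + ·) (C.act_apply z γ).symm (Equiv.sum_comp (C.perm γ)
        (fun y : Γ ⧸ Γ'.subgroupOf Γ => R (((y.out : Γ) : SL(2, ℤ))⁻¹ * g))))
    have e : ((y.out : Γ) : SL(2, ℤ))⁻¹ * (γ : SL(2, ℤ)) =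
        (C.fac γ y : SL(2, ℤ)) * ((Quotient.out (C.perm γ y) : Γ) : SL(2, ℤ))⁻¹ := by
      apply glQ_injective
      rw [map_mul, map_mul]
      exact C.fac_spec γ y
    rw [← mul_assoc, e, mul_assoc, hR]
  rw [pr_eq _ φ (fun g => ∑ y : Γ ⧸ Γ'.subgroupOf Γ, P (((y.out : Γ) : SL(2, ℤ))⁻¹ * g))
    (fun g => ∑ y : Γ ⧸ Γ'.subgroupOf Γ, Q (((y.out : Γ) : SL(2, ℤ))⁻¹ * g))
    (key P hP) (fun g => by simp only [← mul_assoc, hPS])
    (key Q hQ) (fun g => by simp only [← mul_assoc, hQU]), pr]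
  rw [qsum_subgroup h
    (fun γ hγ g => by simp only [pairFun_linv z γ hγ, msym_linv ((Corr.res h).symb φ) γ hγ])]
  refine qsum_congr fun g => ?_
  rw [← Finset.sum_sub_distrib, Finset.sum_mul]
  refine Finset.sum_congr rfl fun y _ => ?_
  rw [← hF, msym_res, msym_linv φ _ (inv_mem (SetLike.coe_mem _))]

section lifts

omit [Γ'.FiniteIndex]

/-- `C` is a cocycle with values in functions on cusps, lifting `z ⬝ φ`. -/
structure IsLift (z : Hom1 Γ A) (φ : Symb Γ A) (C : Γ → P1 → A) : Prop where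
  cocycle : ∀ γ δ s, C (γ * δ) s = C γ s + C δ ((glQ (γ : SL(2, ℤ)))⁻¹ • s)
  diff : ∀ γ a b, C γ a - C γ b = hv z γ * φ.1 b a

omit [Γ.FiniteIndex] in
theorem IsLift.one {z : Hom1 Γ A} {φ : Symb Γ A} {C : Γ → P1 → A} (hC : IsLift z φ C) (s : P1) :
    C 1 s = 0 := by
  have := hC.cocycle 1 1 s
  rw [one_mul] at this
  simpa using this

/-- Value of a lift at the cusp `g ∞`. -/
def cuspVal (C : Γ → P1 → A) (g : SL(2, ℤ)) : A :=
  C ⟨parGen Γ g, width_mem Γ g⟩ (glQ g • cinf)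

theorem parGen_mul (γ : Γ) (g : SL(2, ℤ)) :
    parGen Γ ((γ : SL(2, ℤ)) * g) = γ * parGen Γ g * (γ : SL(2, ℤ))⁻¹ := by
  classical
  have e : ∀ k : ℕ, (γ : SL(2, ℤ)) * g * T ^ k * ((γ : SL(2, ℤ)) * g)⁻¹ =
      γ * (g * T ^ k * g⁻¹) * (γ : SL(2, ℤ))⁻¹ := fun k => by group
  have hiff : ∀ k : ℕ, (γ : SL(2, ℤ)) * g * T ^ k * ((γ : SL(2, ℤ)) * g)⁻¹ ∈ Γ ↔
      g * T ^ k * g⁻¹ ∈ Γ := fun k => by
    rw [e, Γ.mul_mem_cancel_right (inv_mem γ.2), Γ.mul_mem_cancel_left γ.2]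
  have hw : width Γ ((γ : SL(2, ℤ)) * g) = width Γ g :=
    le_antisymm (Nat.find_min' _ ⟨width_pos Γ g, (hiff _).2 (width_mem Γ g)⟩)
      (Nat.find_min' _ ⟨width_pos Γ _, (hiff _).1 (width_mem Γ _)⟩)
  simp only [parGen, hw, e]

theorem parGen_smul (g : SL(2, ℤ)) :
    (glQ (parGen Γ g))⁻¹ • (glQ g • cinf) = glQ g • cinf := by
  rw [inv_smul_eq_iff, parGen, map_mul, map_mul, map_inv, mul_smul, mul_smul, inv_smul_smul,
    ← zpow_natCast, glQ_T_zpow_smul]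

theorem IsLift.cuspVal_mul {z : Hom1 Γ A} {φ : Symb Γ A} {C : Γ → P1 → A} (hC : IsLift z φ C)
    (γ : Γ) (g : SL(2, ℤ)) : cuspVal C ((γ : SL(2, ℤ)) * g) = cuspVal C g := by
  let π : Γ := ⟨parGen Γ g, width_mem Γ g⟩
  have e : (⟨parGen Γ ((γ : SL(2, ℤ)) * g), width_mem Γ _⟩ : Γ) = γ * (π * γ⁻¹) := by
    apply Subtype.ext
    simp only [Subgroup.coe_mul, Subgroup.coe_inv, π, parGen_mul, mul_assoc]
  have h1 := hC.cocycle γ γ⁻¹ (glQ ((γ : SL(2, ℤ)) * g) • cinf)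
  rw [mul_inv_cancel, hC.one] at h1
  simp only [cuspVal, e, hC.cocycle]
  simp only [map_mul, mul_smul, inv_smul_smul] at h1 ⊢
  rw [show (glQ (π : SL(2, ℤ)))⁻¹ • (glQ g • cinf) = glQ g • cinf from parGen_smul g]
  linear_combination -h1

theorem cuspVal_congr (C : Γ → P1 → A) {g g' : SL(2, ℤ)}
    (h : glQ g' • cinf = glQ g • cinf) : cuspVal C g' = cuspVal C g := by
  simp only [cuspVal, parGen_eq Γ h, h]

/-- Telescoping along a cusp. -/
theorem sum_T_range {B : Type*} [AddCommGroup B] (R : SL(2, ℤ) → B) (h : SL(2, ℤ)) (n : ℕ) :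
    R (h * T ^ n) - R h = ∑ i ∈ Finset.range n, (R (h * T ^ i * T) - R (h * T ^ i)) := by
  induction n with
  | zero => simp
  | succ n ih => rw [Finset.sum_range_succ, ← ih, pow_succ, ← mul_assoc]; abel

theorem apply_T {B : Type*} {R : SL(2, ℤ) → B} (hS : ∀ g, R (g * S) = R g) (g : SL(2, ℤ)) :
    R (g * T) = R (g * Ug) := by
  rw [show g * Ug = g * T * S by rw [Ug, mul_assoc], hS]

/-- Residue theorem for a homomorphism: the sum over cusps vanishes. -/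
theorem sum_hv_parGen (hΓ : -1 ∈ Γ) (y : Hom1 Γ A) :
    ∑ o : CuspOrb Γ, hv y ⟨parGen Γ (orbRep Γ o), width_mem Γ _⟩ = 0 := by
  obtain ⟨P, Q, hP, hPS, hQ, hQU, hF⟩ := isFun_pairFun y
  have hl : LInv Γ (fun g => pairFun y (g * Ug) - pairFun y g) := fun γ hγ g => by
    simp only [mul_assoc γ, pairFun_linv y γ hγ]
  have h0 : qsum Γ (fun g => pairFun y (g * Ug) - pairFun y g) = 0 := by
    rw [qsum_sub, qsum_translate (pairFun_linv y), sub_self]
  rw [qsum_eq_sum_orb hΓ hl] at h0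
  rw [← h0]
  refine Finset.sum_congr rfl fun o _ => ?_
  set h := orbRep Γ o
  have h1 := hP ⟨parGen Γ h, width_mem Γ h⟩ h
  rw [show parGen Γ h * h = h * T ^ width Γ h by rw [parGen]; group, ← sub_eq_iff_eq_add] at h1
  rw [← h1, sum_T_range]
  refine Finset.sum_congr rfl fun i _ => ?_
  rw [apply_T hPS, hF, hF, hQU]
  ring

/-- A lift computing the pairing exists. -/
theorem exists_isLift (hΓ : -1 ∈ Γ) (z : Hom1 Γ A) (φ : Symb Γ A) :
    ∃ C : Γ → P1 → A, IsLift z φ C ∧ pr z φ = ∑ o : CuspOrb Γ, cuspVal C (orbRep Γ o) := by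
  obtain ⟨P, Q, hP, hPS, hQ, hQU, hF⟩ := isFun_pairFun z
  let f := pairFun z
  let ρ : SL(2, ℤ) → P1 → A := fun g s => f g * φ.1 (glQ g • cinf) s
  obtain ⟨R₀, hS₀, hU₀, h10⟩ := integrate (fun _ => (0 : P1 → A)) (fun g => ρ (g * Ug) - ρ g)
    (fun _ => add_zero 0)
    (fun g => by
      have h : ρ (g * Ug * Ug * Ug) = ρ g := by
        funext s
        simp only [ρ, f, Ug_mul_Ug_mul, pairFun_neg, glQ_neg_smul]
      rw [← sub_eq_zero] at h
      rw [← h]; abel)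
  let R : SL(2, ℤ) → P1 → A := fun g s => R₀ g s + P 1 * φ.1 cinf s
  have hRS : ∀ g, R (g * S) = R g := fun g => by simp only [R, hS₀, add_zero]
  have hRU : ∀ g s, R (g * Ug) s = R g s + (ρ (g * Ug) s - ρ g s) := fun g s => by
    simp only [R, hU₀, Pi.add_apply, Pi.sub_apply]; ring
  have hdiff : ∀ g a b, R g a - R g b = P g * φ.1 b a := by
    intro g a b
    have := const_of_invariant (fun g => R g a - R g b - P g * φ.1 b a)
      (fun g => by simp only [hRS, hPS]) (fun g => by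
        simp only [hRU, ρ]
        have e : ∀ x : P1, φ.1 x a - φ.1 x b = φ.1 b a := fun x => by
          rw [← Symb.add_eq φ x b a]; ring
        have e' : P (g * Ug) - P g = f (g * Ug) - f g := by
          simp only [f, hF, hQU]; ring
        linear_combination (f (g * Ug)) * e (glQ (g * Ug) • cinf) - f g * e (glQ g • cinf) -
          φ.1 b a * e') g
    simp only [R, h10, Pi.zero_apply] at this
    rw [← sub_eq_zero]
    simp only [R]
    rw [this, ← Symb.add_eq φ cinf b a]; ring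
  let C₀ : Γ → P1 → A := fun γ s => R γ s - R 1 ((glQ (γ : SL(2, ℤ)))⁻¹ • s)
  have hequiv : ∀ (γ : Γ) g s,
      R (γ * g) s = C₀ γ s + R g ((glQ (γ : SL(2, ℤ)))⁻¹ • s) := by
    intro γ g s
    have := const_of_invariant (fun g => R (γ * g) s - R g ((glQ (γ : SL(2, ℤ)))⁻¹ • s))
      (fun g => by simp only [← mul_assoc, hRS]) (fun g => by
        simp only [← mul_assoc, hRU]
        have e : ∀ k, ρ ((γ : SL(2, ℤ)) * k) s = ρ k ((glQ (γ : SL(2, ℤ)))⁻¹ • s) := fun k => by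
          simp only [ρ, f, pairFun_linv z _ γ.2, map_mul, mul_smul]
          conv_lhs => rw [← smul_inv_smul (glQ (γ : SL(2, ℤ))) s]
          rw [Symb.invariant φ γ.2]
        rw [mul_assoc (γ : SL(2, ℤ)) g Ug, e, e]; ring) g
    simp only [mul_one] at this
    simp only [C₀, ← this]; ring
  have hC₀ : IsLift z φ C₀ := by
    refine ⟨fun γ δ s => ?_, fun γ a b => ?_⟩
    · simp only [C₀, Subgroup.coe_mul, hequiv, map_mul, _root_.mul_inv_rev, mul_smul]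
      ring
    · have e : φ.1 ((glQ (γ : SL(2, ℤ)))⁻¹ • b) ((glQ (γ : SL(2, ℤ)))⁻¹ • a) = φ.1 b a := by
        rw [← Symb.invariant φ γ.2, smul_inv_smul, smul_inv_smul]
      have h1 := hP γ 1
      rw [mul_one] at h1
      show (R γ a - R 1 _) - (R γ b - R 1 _) = _
      linear_combination hdiff γ a b - hdiff 1 ((glQ (γ : SL(2, ℤ)))⁻¹ • a)
        ((glQ (γ : SL(2, ℤ)))⁻¹ • b) + φ.1 b a * h1 - P 1 * e
  have hval : pr z φ = ∑ o : CuspOrb Γ, cuspVal C₀ (orbRep Γ o) := by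
    have hl : LInv Γ (fun g => f g * msym φ g) := fun γ hγ g => by
      simp only [f, pairFun_linv z γ hγ, msym_linv φ γ hγ]
    rw [pr, ← qsum_translate hl Ug,
      qsum_eq_sum_orb hΓ (fun γ hγ g => by simp only [mul_assoc γ]; exact hl γ hγ (g * Ug))]
    refine Finset.sum_congr rfl fun o _ => ?_
    set h := orbRep Γ o
    have h1 := hequiv ⟨parGen Γ h, width_mem Γ h⟩ h (glQ h • cinf)
    simp only [parGen_smul] at h1
    rw [show parGen Γ h * h = h * T ^ width Γ h by rw [parGen]; group, ← sub_eq_iff_eq_add,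
      ← Pi.sub_apply, sum_T_range, Finset.sum_apply] at h1
    rw [cuspVal, ← h1]
    refine Finset.sum_congr rfl fun i _ => ?_
    have hs : glQ h • cinf = glQ (h * T ^ i) • cinf := by
      rw [map_mul, mul_smul, ← zpow_natCast, glQ_T_zpow_smul]
    rw [Pi.sub_apply, apply_T hRS, hRU, hs]
    simp only [ρ, f, msym, map_mul, mul_smul, glQ_Ug_inf, glQ_Ug_zero, Symb.self_eq]
    ring
  exact ⟨C₀, hC₀, hval⟩

/-- Any lift computes the pairing. -/
theorem IsLift.pr_eq (hΓ : -1 ∈ Γ) {z : Hom1 Γ A} {φ : Symb Γ A} {C : Γ → P1 → A}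
    (hC : IsLift z φ C) : pr z φ = ∑ o : CuspOrb Γ, cuspVal C (orbRep Γ o) := by
  obtain ⟨C₀, hC₀, hval⟩ := exists_isLift hΓ z φ
  let y : Hom1 Γ A := AddMonoidHom.mk' (fun γ => C γ.toMul cinf - C₀ γ.toMul cinf) (fun γ δ => by
    rw [toMul_add, hC.cocycle, hC₀.cocycle]
    linear_combination hC.diff δ.toMul ((glQ ((γ.toMul : Γ) : SL(2, ℤ)))⁻¹ • cinf) cinf -
      hC₀.diff δ.toMul ((glQ ((γ.toMul : Γ) : SL(2, ℤ)))⁻¹ • cinf) cinf)
  have hy : ∀ g, cuspVal C g = cuspVal C₀ g + hv y ⟨parGen Γ g, width_mem Γ g⟩ := fun g => by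
    show C _ _ = C₀ _ _ + (C ⟨parGen Γ g, width_mem Γ g⟩ cinf - C₀ ⟨parGen Γ g, width_mem Γ g⟩ cinf)
    linear_combination hC.diff ⟨parGen Γ g, width_mem Γ g⟩ (glQ g • cinf) cinf -
      hC₀.diff ⟨parGen Γ g, width_mem Γ g⟩ (glQ g • cinf) cinf
  rw [hval, Finset.sum_congr rfl fun o _ => hy (orbRep Γ o), Finset.sum_add_distrib,
    sum_hv_parGen hΓ, add_zero]

end lifts

section conj

theorem det_pos_mul {α : GL (Fin 2) ℚ} (h : 0 < α.1.det) (a b : SL(2, ℤ)) :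
    0 < (glQ a * α * glQ b).1.det := by
  have e : ∀ g : SL(2, ℤ), (glQ g).1.det = 1 := fun g =>
    (Matrix.SpecialLinearGroup.map (Int.castRingHom ℚ) g).2
  rw [Units.val_mul, Units.val_mul, Matrix.det_mul, Matrix.det_mul, e, e]
  simpa using h

/-- Conjugates of powers of `T` by upper triangular matrices. -/
theorem eq_T_zpow_of_conj {B : GL (Fin 2) ℚ} (hdet : B.1.det ≠ 0) (hB : B.1 1 0 = 0)
    {X : SL(2, ℤ)} {k : ℤ} (h : glQ X * B = B * glQ (T ^ k)) :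
    X = T ^ (X.1 0 1) ∧ (X.1 0 1 : ℚ) * B.1 1 1 = k * B.1 0 0 := by
  rw [Matrix.det_fin_two, hB, mul_zero, sub_zero] at hdet
  obtain ⟨ha, hd⟩ := mul_ne_zero_iff.1 hdet
  have e : ∀ i j, (glQ X * B).1 i j = (B * glQ (T ^ k)).1 i j := fun i j => by rw [h]
  have e00 := e 0 0
  have e01 := e 0 1
  have e10 := e 1 0
  have e11 := e 1 1
  simp only [Units.val_mul, Matrix.mul_apply, Fin.sum_univ_two, glQ_apply, coe_T_zpow, hB,
    Matrix.of_apply, Matrix.cons_val_zero, Matrix.cons_val_one, Matrix.cons_val_fin_one,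
    Int.cast_zero, Int.cast_one, mul_zero, add_zero, mul_one, zero_mul, zero_add] at e00 e01 e10 e11
  have h00 : X.1 0 0 = 1 := by exact_mod_cast mul_right_cancel₀ ha (e00.trans (one_mul _).symm)
  have h10 : X.1 1 0 = 0 := by exact_mod_cast (mul_eq_zero.1 e10).resolve_right ha
  rw [h10, Int.cast_zero, zero_mul, zero_add] at e11
  have h11 : X.1 1 1 = 1 := by exact_mod_cast mul_right_cancel₀ hd (e11.trans (one_mul _).symm)
  refine ⟨Subtype.ext ?_, ?_⟩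
  · rw [coe_T_zpow]
    ext i j
    fin_cases i <;> fin_cases j <;> simp [h00, h10, h11]
  · rw [h00, Int.cast_one, one_mul] at e01
    linear_combination e01

/-- Conjugation invariance. -/
theorem pr_conj (α : GL (Fin 2) ℚ) (hdet : 0 < α.1.det)
    (h : ∀ γ ∈ Γ', ∃ δ ∈ Γ, α * glQ γ = glQ δ * α)
    (h' : ∀ δ ∈ Γ, ∃ γ ∈ Γ', α * glQ γ = glQ δ * α) (hΓ : -1 ∈ Γ) (hΓ' : -1 ∈ Γ')
    (z : Hom1 Γ A) (φ : Symb Γ A) :
    pr ((Corr.single α h).act z) ((Corr.single α h).symb φ) = pr z φ := by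
  classical
  obtain ⟨C, hC⟩ : ∃ C, IsLift z φ C := ⟨_, (exists_isLift hΓ z φ).choose_spec.1⟩
  choose c hcΓ hc using fun γ hγ => h γ hγ
  let c' : Γ' → Γ := fun γ => ⟨c γ γ.2, hcΓ γ γ.2⟩
  have hc' : ∀ γ : Γ', α * glQ (γ : SL(2, ℤ)) = glQ (c' γ : SL(2, ℤ)) * α := fun γ => hc γ γ.2
  have hcm : ∀ γ δ : Γ', c' (γ * δ) = c' γ * c' δ := fun γ δ => by
    apply Subtype.ext
    apply glQ_injective
    apply mul_right_cancel (b := α)
    rw [← hc', Subgroup.coe_mul, Subgroup.coe_mul, map_mul, map_mul, ← mul_assoc, hc', mul_assoc,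
      hc', mul_assoc]
  have hcs : ∀ (γ : Γ') (s : P1),
      α • ((glQ (γ : SL(2, ℤ)))⁻¹ • s) = (glQ (c' γ : SL(2, ℤ)))⁻¹ • (α • s) := fun γ s => by
    rw [eq_inv_smul_iff, smul_smul (glQ _) α, ← hc', mul_smul, smul_inv_smul]
  have hC' : IsLift ((Corr.single α h).act z)
      ((Corr.single α h).symb φ)
      (fun γ s => C (c' γ) (α • s)) := by
    refine ⟨fun γ δ s => ?_, fun γ a b => ?_⟩
    · simp only [hcm, hC.cocycle, hcs]
    · rw [Corr.single_act _ _ z γ (c' γ) (hc' γ), Corr.single_symb]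
      exact hC.diff _ _ _
  rw [hC.pr_eq hΓ, hC'.pr_eq hΓ']
  choose σ hσ using fun o' : CuspOrb Γ' => exists_glQ_smul (α • (glQ (orbRep Γ' o') • cinf))
  let e : CuspOrb Γ' → CuspOrb Γ := fun o' =>
    Quotient.mk _ (α • (glQ (orbRep Γ' o') • cinf))
  have he : Function.Bijective e := by
    constructor
    · intro o₁ o₂ h12
      obtain ⟨δ, hδ, hd⟩ := Quotient.exact h12
      obtain ⟨γ, hγ, hg⟩ := h' δ hδ
      rw [← Quotient.out_eq o₁, ← Quotient.out_eq o₂]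
      refine Quotient.sound ⟨γ, hγ, ?_⟩
      rw [← orbRep_spec, ← orbRep_spec]
      apply MulAction.injective α
      show α • (glQ (orbRep Γ' o₂) • cinf) = α • (glQ γ • (glQ (orbRep Γ' o₁) • cinf))
      rw [hd, smul_smul α (glQ γ), hg, mul_smul]
    · intro o
      refine ⟨Quotient.mk _ (α⁻¹ • o.out), ?_⟩
      conv_rhs => rw [← o.out_eq]
      obtain ⟨γ, hγ, hg⟩ :=
        Quotient.exact (Quotient.out_eq (Quotient.mk (cuspSetoid Γ') (α⁻¹ • o.out)))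
      refine Quotient.sound ⟨c γ hγ, hcΓ γ hγ, ?_⟩
      rw [orbRep_spec, smul_smul (glQ _) α, ← hc γ hγ, mul_smul, ← hg, smul_inv_smul]
  refine Finset.sum_bij (fun o' _ => e o') (fun _ _ => Finset.mem_univ _)
    (fun _ _ _ _ hab => he.1 hab)
    (fun o _ => ⟨(he.2 o).choose, Finset.mem_univ _, (he.2 o).choose_spec⟩) (fun o' _ => ?_)
  set g' := orbRep Γ' o'
  set g := σ o'
  obtain ⟨δ, hδ, hδg⟩ : ∃ δ ∈ Γ, glQ (orbRep Γ (e o')) • cinf = glQ (δ * g) • cinf := by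
    obtain ⟨δ, hδ, hd⟩ := Quotient.exact (Quotient.out_eq (e o'))
    refine ⟨δ⁻¹, inv_mem hδ, ?_⟩
    rw [map_mul, mul_smul, hσ, hd, map_inv, inv_smul_smul, orbRep_spec]
  rw [cuspVal_congr C hδg, hC.cuspVal_mul ⟨δ, hδ⟩]
  let B : GL (Fin 2) ℚ := glQ g⁻¹ * α * glQ g'
  have hBinf : B • cinf = cinf := by
    simp only [B, mul_smul]
    rw [← hσ, map_inv, inv_smul_smul]
  have hB : B.1 1 0 = 0 := OnePoint.smul_infty_eq_self_iff.1 hBinf
  have hBdet : 0 < B.1.det := det_pos_mul hdet _ _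
  have had : 0 < B.1 0 0 * B.1 1 1 := by
    rw [Matrix.det_fin_two, hB] at hBdet
    simpa using hBdet
  set w' := width Γ' g'
  set w := width Γ g
  let π' : Γ' := ⟨parGen Γ' g', width_mem Γ' g'⟩
  have hX : glQ (g⁻¹ * (c' π' : SL(2, ℤ)) * g) * B = B * glQ (T ^ (w' : ℤ)) := by
    simp only [B, map_mul, map_inv, mul_assoc, mul_inv_cancel_left]
    rw [← mul_assoc (glQ (c' π' : SL(2, ℤ))) α, ← hc', mul_assoc]
    simp only [π', parGen, map_mul, map_inv, zpow_natCast]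
    group
    rfl
  obtain ⟨hXT, hr⟩ := eq_T_zpow_of_conj hBdet.ne' hB hX
  set r : ℤ := (g⁻¹ * (c' π' : SL(2, ℤ)) * g).1 0 1
  have hgr : g * T ^ r * g⁻¹ ∈ Γ := by
    rw [← hXT]
    simp [mul_assoc]
  have hdvd : (w : ℤ) ∣ r := width_dvd Γ hgr
  obtain ⟨γ₀, hγ₀, hγ₀e⟩ := h' _ (width_mem Γ g)
  have hY : glQ (g'⁻¹ * γ₀ * g') * B⁻¹ = B⁻¹ * glQ (T ^ (w : ℤ)) := by
    rw [eq_inv_mul_iff_mul_eq, ← mul_assoc, mul_inv_eq_iff_eq_mul]
    simp only [B, map_mul, map_inv, mul_assoc, mul_inv_cancel_left]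
    rw [← mul_assoc α (glQ γ₀), hγ₀e]
    simp only [map_mul, map_inv, zpow_natCast, map_pow, mul_assoc, inv_mul_cancel_left]
    rfl
  have hBi : (B⁻¹).1 1 0 = 0 :=
    OnePoint.smul_infty_eq_self_iff.1 (by rw [inv_smul_eq_iff, hBinf])
  obtain ⟨hYT, hr'⟩ := eq_T_zpow_of_conj (Matrix.GeneralLinearGroup.det B⁻¹).ne_zero hBi hY
  set r' : ℤ := (g'⁻¹ * γ₀ * g').1 0 1
  have hgr' : g' * T ^ r' * g'⁻¹ ∈ Γ' := by
    rw [← hYT]
    simpa [mul_assoc] using hγ₀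
  have hdvd' : (w' : ℤ) ∣ r' := width_dvd Γ' hgr'
  have hinv00 : (B⁻¹).1 0 0 * B.1 0 0 = 1 := by
    have e : ((B⁻¹).1 * B.1) 0 0 = (1 : Matrix (Fin 2) (Fin 2) ℚ) 0 0 := by
      rw [← Units.val_mul, inv_mul_cancel, Units.val_one]
    rwa [Matrix.mul_apply, Fin.sum_univ_two, hB, mul_zero, add_zero, Matrix.one_apply_eq] at e
  have hinv11 : (B⁻¹).1 1 1 * B.1 1 1 = 1 := by
    have e : ((B⁻¹).1 * B.1) 1 1 = (1 : Matrix (Fin 2) (Fin 2) ℚ) 1 1 := by
      rw [← Units.val_mul, inv_mul_cancel, Units.val_one]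
    rwa [Matrix.mul_apply, Fin.sum_univ_two, hBi, zero_mul, zero_add, Matrix.one_apply_eq] at e
  have hprod : r * r' = (w : ℤ) * w' := by
    have e : (r : ℚ) * r' = (w : ℚ) * w' := by
      have e1 : (r' : ℚ) * B.1 0 0 = w * B.1 1 1 := by
        have := congrArg (fun t => t * B.1 0 0 * B.1 1 1) hr'
        simp only [Int.cast_natCast] at this
        linear_combination this - (r' : ℚ) * B.1 0 0 * hinv11 + (w : ℚ) * B.1 1 1 * hinv00
      have hne : B.1 0 0 * B.1 1 1 ≠ 0 := had.ne'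
      apply mul_right_cancel₀ hne
      simp only [Int.cast_natCast] at hr
      linear_combination ((r' : ℚ) * B.1 0 0) * hr + (w' : ℚ) * B.1 0 0 * e1
    exact_mod_cast e
  have hrpos : 0 < r := by
    have hw' : (0 : ℚ) < w' := by exact_mod_cast width_pos Γ' g'
    simp only [Int.cast_natCast] at hr
    have : (0 : ℚ) < r := by
      rcases lt_trichotomy (B.1 1 1) 0 with hd | hd | hd
      · nlinarith [neg_of_mul_pos_left had hd.le]
      · rw [hd, mul_zero] at had; exact absurd had (lt_irrefl _)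
      · nlinarith [pos_of_mul_pos_left had hd.le]
    exact_mod_cast this
  have hrw : r = w := by
    obtain ⟨k, hk⟩ := hdvd
    obtain ⟨k', hk'⟩ := hdvd'
    have hw : (0 : ℤ) < w := by exact_mod_cast width_pos Γ g
    have hw' : (0 : ℤ) < w' := by exact_mod_cast width_pos Γ' g'
    have hkk : k * k' = 1 := by
      rw [hk, hk'] at hprod
      apply mul_left_cancel₀ (mul_pos hw hw').ne'
      linear_combination hprod
    rcases Int.eq_one_or_neg_one_of_mul_eq_one hkk with hk1 | hk1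
    · rw [hk, hk1, mul_one]
    · rw [hk, hk1] at hrpos; omega
  have hπ : (c' π' : SL(2, ℤ)) = parGen Γ g := by
    rw [show (c' π' : SL(2, ℤ)) = g * (g⁻¹ * (c' π' : SL(2, ℤ)) * g) * g⁻¹ by group, hXT,
      hrw, zpow_natCast, parGen]
  show C (c' π') (α • (glQ g' • cinf)) = C ⟨parGen Γ g, width_mem Γ g⟩ (glQ g • cinf)
  rw [hσ]
  congr 1
  exact Subtype.ext hπ

end conj

/-- Transposition of a double coset correspondence. -/
theorem pr_double {Γ₁ Γ₂ : Subgroup SL(2, ℤ)} [Γ₁.FiniteIndex] [Γ₂.FiniteIndex] (h₁ : Γ ≤ Γ₁)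
    (h₂ : Γ' ≤ Γ₂) (α : GL (Fin 2) ℚ) (hdet : 0 < α.1.det)
    (h : ∀ γ ∈ Γ', ∃ δ ∈ Γ, α * glQ γ = glQ δ * α)
    (h' : ∀ δ ∈ Γ, ∃ γ ∈ Γ', α⁻¹ * glQ δ = glQ γ * α⁻¹) (hΓ : -1 ∈ Γ) (hΓ' : -1 ∈ Γ')
    (z : Hom1 Γ₁ A) (φ : Symb Γ₂ A) :
    pr ((((Corr.res h₁).comp (Corr.single α h)).comp
        (Corr.cores (Γ := Γ₂) (Γ' := Γ'))).act z) φ =
      pr z ((((Corr.res h₂).comp (Corr.single α⁻¹ h')).comp
        (Corr.cores (Γ := Γ₁) (Γ' := Γ))).symb φ) := by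
  rw [Corr.comp_act, Corr.comp_act, pr_cores h₂, Corr.comp_symb, Corr.comp_symb, ← pr_res h₁]
  set φ' := (Corr.res h₂).symb φ
  have hback : ∀ δ ∈ Γ, ∃ γ ∈ Γ', α * glQ γ = glQ δ * α := fun δ hδ => by
    obtain ⟨γ, hγ, e⟩ := h' δ hδ
    refine ⟨γ, hγ, ?_⟩
    rw [inv_mul_eq_iff_eq_mul] at e
    rw [e]; group
  have e : (Corr.single α h).symb ((Corr.single α⁻¹ h').symb φ') = φ' := by
    apply Subtype.ext
    funext a b
    rw [Corr.single_symb, Corr.single_symb, inv_smul_smul, inv_smul_smul]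
  conv_lhs => rw [← e]
  exact pr_conj α hdet h hback hΓ hΓ' _ _

end FA.HeckeH1

end
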