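import Fermat.Agent.HeckeH1.SLMod

/-!
`Γ*(N) ⊆ SL(2, ℤ[1/q])` is the amalgam of `Γ(N)` and its conjugate by `diag(1, q)`.
-/

set_option autoImplicit false

namespace FA.HeckeH1

variable {C : Type*} [AddCommGroup C]

/-- `Γ(N)` inside `SL(2, ℚ)`. -/
def IntLvl (N : ℕ) : Subgroup SLQ := (CongruenceSubgroup.Gamma N).map toSLQ

/-- `diag(1, q) Γ(N) diag(1, q)⁻¹` inside `SL(2, ℚ)`. -/
def IntLvl' (σ : ℚˣ) (N : ℕ) : Subgroup SLQ := (IntLvl N).map (dconj σ).toMonoidHom

theorem dconj_mem_Lvl {q M : ℕ} {σ : ℚˣ} (h1 : (σ : ℚ) ∈ QInt q)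
    (h2 : ((σ⁻¹ : ℚˣ) : ℚ) ∈ QInt q) {g : SLQ} (hg : g ∈ Lvl q M) : dconj σ g ∈ Lvl q M := by
  obtain ⟨a, b, c, d⟩ := hg
  exact ⟨by simpa using a, by rw [dconj01]; exact b.mul_right h2,
    by rw [dconj10]; exact c.mul_left h1, by simpa using d⟩

theorem IntLvl_le {q N : ℕ} : IntLvl N ≤ Lvl q N := by
  rintro _ ⟨g, hg, rfl⟩
  exact toSLQ_mem_Lvl hg

theorem IntLvl'_le {q N : ℕ} {σ : ℚˣ} (h1 : (σ : ℚ) ∈ QInt q)
    (h2 : ((σ⁻¹ : ℚˣ) : ℚ) ∈ QInt q) : IntLvl' σ N ≤ Lvl q N := by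
  rintro _ ⟨g, hg, rfl⟩
  exact dconj_mem_Lvl h1 h2 (IntLvl_le hg)

section

variable {q N : ℕ} (hqp : Fact q.Prime) (hqN : q.Coprime N) (σ : ℚˣ) (hσ : (σ : ℚ) = q)

include hqp hσ in
theorem sigma_inv : ((σ⁻¹ : ℚˣ) : ℚ) = (q : ℚ)⁻¹ := by
  rw [Units.val_inv_eq_inv_val, hσ]

include hqN hσ hqp in
theorem mem_IntLvl'_of_dvd {g : Matrix.SpecialLinearGroup (Fin 2) ℤ}
    (hg : g ∈ CongruenceSubgroup.Gamma N) (h : (q : ℤ) ∣ g.1 1 0) :
    toSLQ g ∈ IntLvl' σ N := by
  obtain ⟨c, hc⟩ := h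
  obtain ⟨a', b', c', d'⟩ := CongruenceSubgroup.Gamma_mem.1 hg
  let δ : Matrix.SpecialLinearGroup (Fin 2) ℤ :=
    ⟨!![g.1 0 0, g.1 0 1 * q; c, g.1 1 1], by
      have hd := g.2
      rw [Matrix.det_fin_two] at hd
      rw [Matrix.det_fin_two_of]
      rw [hc] at hd
      linear_combination hd⟩
  have hc0 : (c : ZMod N) = 0 := by
    have h1 : ((q : ℤ) : ZMod N) * (c : ZMod N) = 0 := by rw [← Int.cast_mul, ← hc, c']
    rw [Int.cast_natCast] at h1
    exact ((ZMod.isUnit_iff_coprime q N).2 hqN).mul_right_eq_zero.1 h1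
  have hδ : δ ∈ CongruenceSubgroup.Gamma N :=
    CongruenceSubgroup.Gamma_mem.2 ⟨by simpa [δ] using a', by simp [δ, b'], by simpa [δ] using hc0,
      by simpa [δ] using d'⟩
  refine ⟨toSLQ δ, ⟨δ, hδ, rfl⟩, ?_⟩
  have hne : (q : ℚ) ≠ 0 := by exact_mod_cast hqp.out.ne_zero
  apply slq_ext <;> simp only [MulEquiv.coe_toMonoidHom, dconj00, dconj01, dconj10, dconj11,
    toSLQ_apply]
  · simp [δ]
  · rw [sigma_inv hqp σ hσ]; simp [δ]; field_simp
  · rw [hσ, hc]; simp [δ]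
  · simp [δ]

include hqN hσ hqp in
theorem mem_IntLvl_of_dvd {g : Matrix.SpecialLinearGroup (Fin 2) ℤ}
    (hg : g ∈ CongruenceSubgroup.Gamma N) (h : (q : ℤ) ∣ g.1 0 1) :
    dconj σ (toSLQ g) ∈ IntLvl N := by
  obtain ⟨b, hb⟩ := h
  obtain ⟨a', b', c', d'⟩ := CongruenceSubgroup.Gamma_mem.1 hg
  let δ : Matrix.SpecialLinearGroup (Fin 2) ℤ :=
    ⟨!![g.1 0 0, b; q * g.1 1 0, g.1 1 1], by
      have hd := g.2
      rw [Matrix.det_fin_two] at hd
      rw [Matrix.det_fin_two_of]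
      rw [hb] at hd
      linear_combination hd⟩
  have hb0 : (b : ZMod N) = 0 := by
    have h1 : ((q : ℤ) : ZMod N) * (b : ZMod N) = 0 := by rw [← Int.cast_mul, ← hb, b']
    rw [Int.cast_natCast] at h1
    exact ((ZMod.isUnit_iff_coprime q N).2 hqN).mul_right_eq_zero.1 h1
  have hδ : δ ∈ CongruenceSubgroup.Gamma N :=
    CongruenceSubgroup.Gamma_mem.2 ⟨by simpa [δ] using a', by simpa [δ] using hb0, by simp [δ, c'],
      by simpa [δ] using d'⟩
  refine ⟨δ, hδ, ?_⟩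
  have hne : (q : ℚ) ≠ 0 := by exact_mod_cast hqp.out.ne_zero
  apply slq_ext <;> simp only [dconj00, dconj01, dconj10, dconj11, toSLQ_apply]
  · simp [δ]
  · rw [sigma_inv hqp σ hσ, hb]; simp [δ]; field_simp
  · rw [hσ]; simp [δ]
  · simp [δ]

/-- The two factors of the amalgam, indexed by `Bool`. -/
def factor (σ : ℚˣ) (N : ℕ) (b : Bool) : Subgroup SLQ := cond b (IntLvl' σ N) (IntLvl N)

/-- The amalgamated subgroup. -/
def edge (σ : ℚˣ) (N : ℕ) : Subgroup SLQ := IntLvl N ⊓ IntLvl' σ N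

theorem edge_le (σ : ℚˣ) (N : ℕ) (b : Bool) : edge σ N ≤ factor σ N b := by
  cases b
  · exact inf_le_left
  · exact inf_le_right

/-- The inclusions of the amalgamated subgroup. -/
def edgeHom (σ : ℚˣ) (N : ℕ) (b : Bool) : edge σ N →* factor σ N b :=
  Subgroup.inclusion (edge_le σ N b)

/-- A scaled integral matrix witnessing that a word is not trivial. -/
def WordInv (q : ℕ) (v : SLQ) (hd : Bool) (one : Prop) : Prop :=
  ∃ (m : ℕ) (W : Matrix (Fin 2) (Fin 2) ℤ),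
    (∀ i j, (W i j : ℚ) = (q : ℚ) ^ m * v.1 i j) ∧
      (if hd then 1 ≤ m ∧ (∃ j, (W 0 j : ZMod q) ≠ 0) ∧ ∀ j, (W 1 j : ZMod q) = 0
        else (∃ j, (W 1 j : ZMod q) ≠ 0) ∧ (1 ≤ m ∨ one))

include hqN hσ hqp in
theorem word_inv (L : List (Σ b, factor σ N b))
    (hch : L.IsChain fun l l' => Sigma.fst l ≠ Sigma.fst l')
    (hred : ∀ l ∈ L, (l.2 : SLQ) ∉ edge σ N) (l : Σ b, factor σ N b) (L' : List (Σ b, factor σ N b))
    (hL : L = l :: L') :
    WordInv q (L.map fun x => (x.2 : SLQ)).prod l.1 (L' = []) := by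
  induction L generalizing l L' with
  | nil => simp at hL
  | cons x xs ih =>
    obtain ⟨rfl, rfl⟩ := List.cons.inj hL
    obtain ⟨b, ⟨v, hv⟩⟩ := x
    have hred0 := hred ⟨b, ⟨v, hv⟩⟩ List.mem_cons_self
    have hrest : ∀ (y : Σ b, factor σ N b) (ys : List (Σ b, factor σ N b)), xs = y :: ys →
        y.1 ≠ b ∧ WordInv q (xs.map fun x => (x.2 : SLQ)).prod y.1 (ys = []) := by
      intro y ys hy
      subst hy
      refine ⟨fun h => ?_, ih (List.isChain_cons_cons.1 hch).2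
        (fun z hz => hred z (List.mem_cons_of_mem _ hz)) y ys rfl⟩
      exact (List.isChain_cons_cons.1 hch).1 h.symm
    simp only [List.map_cons, List.prod_cons]
    set w := (xs.map fun x => (x.2 : SLQ)).prod with hw
    cases b with
    | false =>
      obtain ⟨γ, hγ, rfl⟩ := hv
      have hc : ((γ.1 1 0 : ℤ) : ZMod q) ≠ 0 := fun h => hred0
        ⟨⟨γ, hγ, rfl⟩, mem_IntLvl'_of_dvd hqp hqN σ hσ hγ
          ((ZMod.intCast_zmod_eq_zero_iff_dvd _ _).1 h)⟩
      rcases xs with _ | ⟨y, ys⟩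
      · refine ⟨0, γ.1, fun i j => by simp [hw], ?_⟩
        simp only [Bool.false_eq_true, if_false]
        exact ⟨⟨0, hc⟩, Or.inr trivial⟩
      · obtain ⟨hy, m, W, hW, hcond⟩ := hrest y ys rfl
        have hy' : y.1 = true := by cases h : y.1 <;> simp_all
        rw [hy', if_pos rfl] at hcond
        obtain ⟨hm, ⟨j, hj⟩, h1⟩ := hcond
        refine ⟨m, γ.1 * W, fun i j => ?_, ?_⟩
        · simp [Matrix.mul_apply, Fin.sum_univ_two, hW]; ring
        · simp only [Bool.false_eq_true, if_false]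
          refine ⟨⟨j, ?_⟩, Or.inl hm⟩
          simp [Matrix.mul_apply, Fin.sum_univ_two, h1 j, hc, hj]
    | true =>
      obtain ⟨_, ⟨γ, hγ, rfl⟩, hv'⟩ := hv
      subst hv'
      have hb : ((γ.1 0 1 : ℤ) : ZMod q) ≠ 0 := fun h => hred0
        ⟨mem_IntLvl_of_dvd hqp hqN σ hσ hγ ((ZMod.intCast_zmod_eq_zero_iff_dvd _ _).1 h),
          ⟨_, ⟨γ, hγ, rfl⟩, rfl⟩⟩
      have hne : (q : ℚ) ≠ 0 := by exact_mod_cast hqp.out.ne_zero
      set Mb : Matrix (Fin 2) (Fin 2) ℤ :=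
        !![q * γ.1 0 0, γ.1 0 1; q * q * γ.1 1 0, q * γ.1 1 1] with hMb
      obtain ⟨m, W, hW, j, hj⟩ : ∃ (m : ℕ) (W : Matrix (Fin 2) (Fin 2) ℤ),
          (∀ i j, (W i j : ℚ) = (q : ℚ) ^ m * w.1 i j) ∧ ∃ j, (W 1 j : ZMod q) ≠ 0 := by
        rcases xs with _ | ⟨y, ys⟩
        · refine ⟨0, 1, fun i j => ?_, 1, by simp⟩
          fin_cases i <;> fin_cases j <;> simp [hw]
        · obtain ⟨hy, m, W, hW, hcond⟩ := hrest y ys rfl
          have hy' : y.1 = false := by cases h : y.1 <;> simp_all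
          rw [hy'] at hcond
          simp only [Bool.false_eq_true, if_false] at hcond
          exact ⟨m, W, hW, hcond.1⟩
      refine ⟨m + 1, Mb * W, fun i j => ?_, ?_⟩
      · fin_cases i <;>
          simp [hMb, Matrix.mul_apply, Fin.sum_univ_two, hW, hσ, pow_succ] <;>
          field_simp
      · simp only [if_true]
        refine ⟨by omega, ⟨j, ?_⟩, fun j => ?_⟩
        · simp [hMb, Matrix.mul_apply, Fin.sum_univ_two, hb, hj]
        · simp [hMb, Matrix.mul_apply, Fin.sum_univ_two]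

include hqN hσ hqp in
theorem word_not_mem {L : List (Σ b, factor σ N b)}
    (hch : L.IsChain fun l l' => Sigma.fst l ≠ Sigma.fst l')
    (hred : ∀ l ∈ L, (l.2 : SLQ) ∉ edge σ N) (hne : L ≠ []) :
    (L.map fun x => (x.2 : SLQ)).prod ∉ edge σ N := by
  intro hmem
  obtain ⟨l, L', rfl⟩ : ∃ l L', L = l :: L' := by
    cases L with
    | nil => exact absurd rfl hne
    | cons a b => exact ⟨a, b, rfl⟩
  obtain ⟨m, W, hW, hcond⟩ := word_inv hqp hqN σ hσ _ hch hred l L' rfl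
  obtain ⟨γ, -, hγ⟩ := hmem.1
  have hdiv : 1 ≤ m → ∀ i j, (W i j : ZMod q) = 0 := by
    intro hm i j
    have h1 := hW i j
    rw [← hγ, toSLQ_apply] at h1
    have h2 : W i j = (q : ℤ) ^ m * γ.1 i j := by exact_mod_cast h1
    rw [h2]; push_cast
    rw [ZMod.natCast_self, zero_pow (by omega), zero_mul]
  cases hl : l.1 with
  | true =>
    rw [hl, if_pos rfl] at hcond
    obtain ⟨hm, ⟨j, hj⟩, -⟩ := hcond
    exact hj (hdiv hm 0 j)
  | false =>
    rw [hl] at hcond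
    simp only [Bool.false_eq_true, if_false] at hcond
    obtain ⟨⟨j, hj⟩, hm | hL'⟩ := hcond
    · exact hj (hdiv hm 1 j)
    · subst hL'
      exact hred l List.mem_cons_self (by simpa using hmem)

include hqN hσ hqp in
theorem mem_closure_of_scaled (hN : 0 < N) :
    ∀ (k : ℕ) (g : SLQ), g ∈ Lvl q N →
      (∃ W : Matrix (Fin 2) (Fin 2) ℤ, ∀ i j, (W i j : ℚ) = (q : ℚ) ^ k * g.1 i j) →
      g ∈ IntLvl N ⊔ IntLvl' σ N := by
  have hne : (q : ℚ) ≠ 0 := by exact_mod_cast hqp.out.ne_zero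
  have hσ1 : (σ : ℚ) ∈ QInt q := by rw [hσ]; exact nat_mem_QInt q
  have hσ2 : ((σ⁻¹ : ℚˣ) : ℚ) ∈ QInt q := by
    rw [sigma_inv hqp σ hσ]; simpa using inv_pow_mem_QInt (q := q) hqp.out.ne_zero 1
  intro k
  induction k with
  | zero =>
    intro g hg ⟨W, hW⟩
    refine Subgroup.mem_sup_left ⟨⟨W, ?_⟩, ?_, ?_⟩
    · have h : ((W.det : ℤ) : ℚ) = 1 := by
        rw [Matrix.det_fin_two]; push_cast; simp only [hW, pow_zero, one_mul]
        exact det_entries g
      exact_mod_cast h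
    · obtain ⟨a, b, c, d⟩ := hg
      have key : ∀ x y : ℤ, Idl q N ((x : ℚ) - y) → (x : ZMod N) = (y : ZMod N) := fun x y h =>
        ((ZMod.intCast_eq_intCast_iff_dvd_sub y x N).2 (int_dvd_of_idl hqN (by
          push_cast; exact h))).symm
      refine CongruenceSubgroup.Gamma_mem.2 ⟨?_, ?_, ?_, ?_⟩
      · simpa using key (W 0 0) 1 (by rw [hW]; simpa using a)
      · simpa using key (W 0 1) 0 (by rw [hW]; simpa using b)
      · simpa using key (W 1 0) 0 (by rw [hW]; simpa using c)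
      · simpa using key (W 1 1) 1 (by rw [hW]; simpa using d)
    · refine slq_ext ?_ ?_ ?_ ?_ <;> exact (hW _ _).trans (by rw [pow_zero, one_mul])
  | succ k ih =>
    intro g hg ⟨W, hW⟩
    -- reduce once all entries are divisible by `q`
    have step : ∀ (g' : SLQ), g' ∈ Lvl q N → ∀ (W' : Matrix (Fin 2) (Fin 2) ℤ),
        (∀ i j, (W' i j : ℚ) = (q : ℚ) ^ (k + 1) * g'.1 i j) →
        (∀ i j, ((W' i j : ℤ) : ZMod q) = 0) → g' ∈ IntLvl N ⊔ IntLvl' σ N := by
      intro g' hg' W' hW' h0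
      choose V hV using fun i j => (ZMod.intCast_zmod_eq_zero_iff_dvd _ _).1 (h0 i j)
      refine ih g' hg' ⟨Matrix.of V, fun i j => ?_⟩
      have h1 := hW' i j
      rw [hV i j] at h1
      push_cast at h1
      apply mul_left_cancel₀ hne
      simp only [Matrix.of_apply]
      rw [h1, pow_succ]; ring
    by_cases h0 : ∀ i j, ((W i j : ℤ) : ZMod q) = 0
    · exact step g hg W hW h0
    push Not at h0
    obtain ⟨i₀, j₀, hij⟩ := h0
    have hdetW : (W 0 0 : ZMod q) * W 1 1 - W 0 1 * W 1 0 = 0 := by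
      have h : (W.det : ℚ) = (((q : ℤ) ^ (2 * (k + 1)) : ℤ) : ℚ) := by
        rw [Matrix.det_fin_two]; push_cast; simp only [hW]
        linear_combination (q : ℚ) ^ (2 * (k + 1)) * det_entries g
      have h' : W.det = (q : ℤ) ^ (2 * (k + 1)) := by exact_mod_cast h
      have := congrArg (fun z : ℤ => (z : ZMod q)) h'
      simp [Matrix.det_fin_two] at this
      exact this
    set x : ZMod q := (W 0 j₀ : ZMod q) with hx
    set y : ZMod q := (W 1 j₀ : ZMod q) with hy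
    obtain ⟨a, b, hab⟩ : ∃ a b : ZMod q, a * x + b * y = 1 := by
      by_cases hx0 : x = 0
      · have hy0 : y ≠ 0 := by
          fin_cases i₀
          · exact absurd hx0 hij
          · exact hij
        exact ⟨0, y⁻¹, by rw [zero_mul, zero_add, inv_mul_cancel₀ hy0]⟩
      · exact ⟨x⁻¹, 0, by rw [zero_mul, add_zero, inv_mul_cancel₀ hx0]⟩
    obtain ⟨γ, hγ, hγq⟩ := exists_lift hqN (mkF a b (-y) x (by linear_combination hab))
    have eγ : ∀ i j, ((γ.1 i j : ℤ) : ZMod q) = (mkF a b (-y) x (by linear_combination hab) :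
        SLF (ZMod q)).1 i j := fun i j => by rw [← hγq, toF_apply]
    set W1 := γ.1 * W with hW1
    set g1 := toSLQ γ * g with hg1
    have hW1' : ∀ i j, (W1 i j : ℚ) = (q : ℚ) ^ (k + 1) * g1.1 i j := by
      intro i j
      simp [hW1, hg1, Matrix.mul_apply, Fin.sum_univ_two, hW]; ring
    have hg1m : g1 ∈ Lvl q N := mul_mem (toSLQ_mem_Lvl hγ) hg
    have hr1 : ∀ j, (W1 1 j : ZMod q) = 0 := by
      intro j
      simp [hW1, Matrix.mul_apply, Fin.sum_univ_two, eγ, hx, hy]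
      fin_cases j <;> fin_cases j₀ <;> simp
      all_goals first
        | ring1
        | linear_combination hdetW
        | linear_combination -hdetW
    have back : g1 ∈ IntLvl N ⊔ IntLvl' σ N → g ∈ IntLvl N ⊔ IntLvl' σ N := fun h => by
      have : g = (toSLQ γ)⁻¹ * g1 := by rw [hg1]; group
      rw [this]
      exact mul_mem (inv_mem (Subgroup.mem_sup_left ⟨γ, hγ, rfl⟩)) h
    apply back
    by_cases h00 : ∀ j, (W1 0 j : ZMod q) = 0
    · refine step g1 hg1m W1 hW1' fun i j => ?_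
      fin_cases i
      · exact h00 j
      · exact hr1 j
    push Not at h00
    obtain ⟨j₁, hj₁⟩ := h00
    choose R hR using fun j => (ZMod.intCast_zmod_eq_zero_iff_dvd _ _).1 (hr1 j)
    have hdet1 : (W1 0 0 : ZMod q) * R 1 - W1 0 1 * R 0 = 0 := by
      have h : (W1.det : ℚ) = (((q : ℤ) ^ (2 * (k + 1)) : ℤ) : ℚ) := by
        rw [Matrix.det_fin_two]; push_cast; simp only [hW1']
        linear_combination (q : ℚ) ^ (2 * (k + 1)) * det_entries g1
      have h' : W1.det = (q : ℤ) ^ (2 * (k + 1)) := by exact_mod_cast h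
      rw [Matrix.det_fin_two, hR 0, hR 1] at h'
      have h'' : W1 0 0 * R 1 - W1 0 1 * R 0 = (q : ℤ) ^ (2 * k + 1) := by
        apply mul_left_cancel₀ (show (q : ℤ) ≠ 0 by exact_mod_cast hqp.out.ne_zero)
        rw [← pow_succ', show 2 * k + 1 + 1 = 2 * (k + 1) by ring, ← h']; ring
      have := congrArg (fun z : ℤ => (z : ZMod q)) h''
      simpa using this
    set lam : ZMod q := (R j₁ : ZMod q) / (W1 0 j₁ : ZMod q) with hlam
    obtain ⟨δ, hδ, hδq⟩ := exists_lift hqN (mkF (-lam) 1 (-1) 0 (by ring))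
    have eδ : ∀ i j, ((δ.1 i j : ℤ) : ZMod q) = (mkF (-lam) 1 (-1) 0 (by ring) :
        SLF (ZMod q)).1 i j := fun i j => by rw [← hδq, toF_apply]
    set g2 := dconj σ (toSLQ δ) * g1 with hg2
    set W2 : Matrix (Fin 2) (Fin 2) ℤ :=
      Matrix.of ![fun j => δ.1 0 0 * W1 0 j + δ.1 0 1 * R j,
        fun j => (q : ℤ) * (δ.1 1 0 * W1 0 j + δ.1 1 1 * R j)] with hW2
    have hW2' : ∀ i j, (W2 i j : ℚ) = (q : ℚ) ^ (k + 1) * g2.1 i j := by
      intro i j
      have h0 := hW1' 0 j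
      have h1 := hW1' 1 j
      rw [hR j] at h1
      push_cast at h1
      fin_cases i
      · simp [hW2, hg2, Matrix.mul_apply, Fin.sum_univ_two, sigma_inv hqp σ hσ]
        field_simp
        linear_combination (δ.1 0 0 : ℚ) * (q : ℚ) * h0 + (δ.1 0 1 : ℚ) * h1
      · simp [hW2, hg2, Matrix.mul_apply, Fin.sum_univ_two, hσ]
        linear_combination (q : ℚ) * (δ.1 1 0 : ℚ) * h0 + (δ.1 1 1 : ℚ) * h1
    have hg2m : g2 ∈ Lvl q N := mul_mem (dconj_mem_Lvl hσ1 hσ2 (toSLQ_mem_Lvl hδ)) hg1m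
    have hz : ∀ i j, ((W2 i j : ℤ) : ZMod q) = 0 := by
      intro i j
      fin_cases i
      · simp [hW2, eδ, hlam]
        field_simp
        fin_cases j <;> fin_cases j₁ <;> simp
        all_goals first
          | ring1
          | linear_combination hdet1
          | linear_combination -hdet1
      · simp [hW2]
    have : g1 = (dconj σ (toSLQ δ))⁻¹ * g2 := by rw [hg2]; group
    rw [this]
    exact mul_mem (inv_mem (Subgroup.mem_sup_right ⟨toSLQ δ, ⟨δ, hδ, rfl⟩, rfl⟩))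
      (step g2 hg2m W2 hW2' hz)

include hqN hσ hqp in
theorem Lvl_eq_sup (hN : 0 < N) : Lvl q N = IntLvl N ⊔ IntLvl' σ N := by
  refine le_antisymm (fun g hg => ?_) (sup_le IntLvl_le ?_)
  · obtain ⟨ga, gb, gc, gd⟩ := mem_Lvl_one_iff.1 (Lvl_le (one_dvd N) hg)
    obtain ⟨k1, a, ha⟩ := mem_QInt.1 ga
    obtain ⟨k2, b, hb⟩ := mem_QInt.1 gb
    obtain ⟨k3, c, hc⟩ := mem_QInt.1 gc
    obtain ⟨k4, d, hd⟩ := mem_QInt.1 gd
    refine mem_closure_of_scaled hqp hqN σ hσ hN (k1 + k2 + k3 + k4) g hg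
      ⟨!![a * q ^ (k2 + k3 + k4), b * q ^ (k1 + k3 + k4);
          c * q ^ (k1 + k2 + k4), d * q ^ (k1 + k2 + k3)], fun i j => ?_⟩
    fin_cases i <;> fin_cases j <;> simp [← ha, ← hb, ← hc, ← hd] <;> ring
  · exact IntLvl'_le (by rw [hσ]; exact nat_mem_QInt q)
      (by rw [sigma_inv hqp σ hσ]; simpa using inv_pow_mem_QInt (q := q) hqp.out.ne_zero 1)

include hqN hσ hqp in
/-- Homomorphisms on the two factors agreeing on the edge group extend to `Γ*(N)`. -/
theorem amalgam (hN : 0 < N) {f f' : SLQ → C} (hf : AddOn (IntLvl N) f)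
    (hf' : AddOn (IntLvl' σ N) f') (hagree : ∀ g ∈ edge σ N, f g = f' g) :
    ∃ F : SLQ → C, AddOn (Lvl q N) F ∧ (∀ g ∈ IntLvl N, F g = f g) ∧
      (∀ g ∈ IntLvl' σ N, F g = f' g) := by
  classical
  let fun' : Bool → SLQ → C := fun b => cond b f' f
  have hadd : ∀ b, AddOn (factor σ N b) (fun' b) := by
    intro b; cases b
    · exact hf
    · exact hf'
  let fb : ∀ b, factor σ N b →* Multiplicative C := fun b =>
    MonoidHom.mk' (fun x => Multiplicative.ofAdd (fun' b x))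
      (fun x y => by rw [Subgroup.coe_mul, hadd b _ x.2 _ y.2]; rfl)
  let k : edge σ N →* Multiplicative C := (fb false).comp (edgeHom σ N false)
  have hk : ∀ b, (fb b).comp (edgeHom σ N b) = k := by
    intro b; cases b
    · rfl
    · ext x
      exact congrArg Multiplicative.ofAdd (hagree _ x.2).symm
  let Ψ : Monoid.PushoutI (edgeHom σ N) →* Multiplicative C := Monoid.PushoutI.lift fb k hk
  let ι : Monoid.PushoutI (edgeHom σ N) →* SLQ :=
    Monoid.PushoutI.lift (fun b => (factor σ N b).subtype) (edge σ N).subtype (fun b => rfl)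
  have hinj : Function.Injective ι := by
    rw [injective_iff_map_eq_one]
    intro x hx
    obtain ⟨d⟩ := Monoid.PushoutI.NormalWord.transversal_nonempty (edgeHom σ N)
      (fun b => Subgroup.inclusion_injective (edge_le σ N b))
    obtain ⟨w, rfl⟩ : ∃ w : Monoid.PushoutI.NormalWord d, w.prod = x :=
      ⟨Monoid.PushoutI.NormalWord.equiv x, Monoid.PushoutI.NormalWord.equiv.symm_apply_apply x⟩
    have hprod : ι w.prod = (w.head : SLQ) * (w.toList.map fun y => (y.2 : SLQ)).prod := by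
      simp only [Monoid.PushoutI.NormalWord.prod, map_mul, ι, Monoid.PushoutI.lift_base,
        Monoid.CoprodI.Word.prod, map_list_prod, List.map_map]
      congr 2
    rw [hprod] at hx
    have hnil : w.toList = [] := by
      by_contra hne
      refine word_not_mem hqp hqN σ hσ w.chain_ne ?_ hne ?_
      · intro l hl hmem
        have hset := w.normalized l.1 l.2 hl
        have hrange : l.2 ∈ (edgeHom σ N l.1).range := ⟨⟨_, hmem⟩, Subtype.ext rfl⟩
        have huniq := (d.compl l.1).1 (a₁ := (⟨l.2, hrange⟩, ⟨1, d.one_mem l.1⟩))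
          (a₂ := (⟨1, one_mem _⟩, ⟨l.2, hset⟩)) (by simp)
        exact w.ne_one l hl (congrArg (fun p => (p.2 : factor σ N l.1)) huniq).symm
      · rw [eq_inv_of_mul_eq_one_right hx]
        exact inv_mem w.head.2
    rw [hnil, List.map_nil, List.prod_nil, mul_one] at hx
    have hh : w.head = 1 := Subtype.ext hx
    have hw : w.toWord = Monoid.CoprodI.Word.empty := Monoid.CoprodI.Word.ext hnil
    simp [Monoid.PushoutI.NormalWord.prod, hh, hw]
  have hrange : ι.range = Lvl q N := by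
    rw [Lvl_eq_sup hqp hqN σ hσ hN]
    apply le_antisymm
    · rintro _ ⟨x, rfl⟩
      induction x using Monoid.PushoutI.induction_on with
      | of b g =>
        simp only [ι, Monoid.PushoutI.lift_of]
        cases b
        · exact Subgroup.mem_sup_left g.2
        · exact Subgroup.mem_sup_right g.2
      | base h =>
        simp only [ι, Monoid.PushoutI.lift_base]
        exact Subgroup.mem_sup_left h.2.1
      | mul x y hx hy => rw [map_mul]; exact mul_mem hx hy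
    · refine sup_le (fun g hg => ?_) (fun g hg => ?_)
      · exact ⟨Monoid.PushoutI.of false ⟨g, hg⟩, Monoid.PushoutI.lift_of _ _ _ _⟩
      · exact ⟨Monoid.PushoutI.of true ⟨g, hg⟩, Monoid.PushoutI.lift_of _ _ _ _⟩
  let F : SLQ → C := fun g =>
    if h : g ∈ ι.range then Multiplicative.toAdd (Ψ h.choose) else 0
  have hF : ∀ x, F (ι x) = Multiplicative.toAdd (Ψ x) := by
    intro x
    have h : ι x ∈ ι.range := ⟨x, rfl⟩
    simp only [F, dif_pos h]
    rw [hinj h.choose_spec]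
  refine ⟨F, ?_, fun g hg => ?_, fun g hg => ?_⟩
  · rw [← hrange]
    rintro _ ⟨x, rfl⟩ _ ⟨y, rfl⟩
    rw [← map_mul, hF, hF, hF, map_mul]; rfl
  · have h : ι (Monoid.PushoutI.of (φ := edgeHom σ N) false ⟨g, hg⟩) = g :=
      Monoid.PushoutI.lift_of _ _ _ _
    conv_lhs => rw [← h, hF]
    simp only [Ψ, Monoid.PushoutI.lift_of]; rfl
  · have h : ι (Monoid.PushoutI.of (φ := edgeHom σ N) true ⟨g, hg⟩) = g :=
      Monoid.PushoutI.lift_of _ _ _ _
    conv_lhs => rw [← h, hF]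
    simp only [Ψ, Monoid.PushoutI.lift_of]; rfl

end

end FA.HeckeH1
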