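import Fermat.Agent.HeckeH1.Elem

/-!
Any homomorphism from a congruence subgroup of `SL(2, ℤ[1/q])` to an abelian group is, on a
deeper congruence subgroup, invariant under conjugation by `SL(2, ℤ[1/q])`.
-/

set_option autoImplicit false

namespace FA.HeckeH1

variable {C : Type*} [AddCommGroup C]

/-- Conjugation by `ey s`. -/
def conjY (s : ℚ) : SLQ →* SLQ := (MulAut.conj (ey s)).toMonoidHom

theorem conjY_apply (s : ℚ) (g : SLQ) : conjY s g = ey s * g * (ey s)⁻¹ := rfl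

theorem conjY_add (s t : ℚ) (g : SLQ) : conjY (s + t) g = conjY s (conjY t g) := by
  simp only [conjY_apply, ey_add]; group

theorem idl_mul_div {q N K : ℕ} {x : ℚ} (m : ℤ) (hK : K ≠ 0) (hx : Idl q (N * K) x) :
    Idl q N (x * ((m : ℚ) / K)) := by
  obtain ⟨y, hy, rfl⟩ := hx
  refine ⟨y * m, mul_mem hy (int_mem_QInt m), ?_⟩
  have : (K : ℚ) ≠ 0 := by exact_mod_cast hK
  push_cast; field_simp

theorem conjY_mem {q N K : ℕ} (m : ℤ) (hK : K ≠ 0) {g : SLQ} (hg : g ∈ Lvl q (N * K * K)) :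
    conjY ((m : ℚ) / K) g ∈ Lvl q N := by
  obtain ⟨a, b, c, d⟩ := hg
  have hb1 := idl_mul_div m hK b
  have hd : N ∣ N * K * K := (dvd_mul_right N K).trans (dvd_mul_right _ K)
  have hdK : N ∣ N * K := dvd_mul_right N K
  rw [conjY_apply]
  refine ⟨?_, ?_, ?_, ?_⟩
  · convert (a.of_dvd hd).sub (hb1.of_dvd hdK) using 1
    simp [mul00, mul01, inv00, inv10]; ring
  · convert b.of_dvd hd using 1
    simp [mul01, mul00, inv01, inv11]
  · convert ((c.of_dvd hd).add ((idl_mul_div m hK a).of_dvd hdK)).sub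
      (((idl_mul_div m hK d).of_dvd hdK).add (idl_mul_div m hK hb1)) using 1
    simp [mul10, mul11, inv00, inv10]; ring
  · convert (d.of_dvd hd).add (hb1.of_dvd hdK) using 1
    simp [mul11, mul10, inv01, inv11]; ring

/-- `N (q ^ (2 φ(N)) - 1)`: elementary matrices of this level are killed. -/
def killMod (q N : ℕ) : ℕ := N * (q ^ (2 * N.totient) - 1)

theorem killMod_pos {q N : ℕ} (hq : q.Prime) (hN : 0 < N) : 0 < killMod q N := by
  have h1 : 1 < q ^ (2 * N.totient) :=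
    Nat.one_lt_pow (by have := Nat.totient_pos.2 hN; omega) hq.one_lt
  unfold killMod
  exact Nat.mul_pos hN (by omega)

theorem coprime_pow_sub_one {q e : ℕ} (hq : q.Prime) (he : e ≠ 0) :
    q.Coprime (q ^ e - 1) := by
  rw [hq.coprime_iff_not_dvd]
  intro h
  have h1 : q ∣ q ^ e := dvd_pow_self q he
  have h2 : 1 ≤ q ^ e := Nat.one_le_pow _ _ hq.pos
  have h3 : q ∣ q ^ e - (q ^ e - 1) := Nat.dvd_sub h1 h
  rw [Nat.sub_sub_self h2] at h3
  exact hq.not_dvd_one h3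

theorem killMod_coprime {q N : ℕ} (hq : q.Prime) (hqN : q.Coprime N) :
    q.Coprime (killMod q N) := by
  refine hqN.mul_right (coprime_pow_sub_one hq ?_)
  have : N ≠ 0 := by
    rintro rfl
    exact hq.one_lt.ne' (by simpa using hqN)
  have := Nat.totient_pos.2 (Nat.pos_of_ne_zero this)
  omega

theorem pow_mod_of_totient_dvd {q N r : ℕ} (hqN : q.Coprime N) (h : N.totient ∣ r) :
    q ^ r % N = 1 % N := by
  obtain ⟨c, rfl⟩ := h
  rw [pow_mul, Nat.pow_mod, show q ^ N.totient % N = 1 % N from Nat.ModEq.pow_totient hqN,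
    ← Nat.pow_mod, one_pow]

theorem kill {q N : ℕ} (hq : q.Prime) (hqN : q.Coprime N) {F : SLQ → C}
    (hF : AddOn (Lvl q N) F) {g : SLQ} (hg : g ∈ EL q (killMod q N)) : F g = 0 := by
  refine hF.map_closure_eq_zero ?_ ?_ hg
  · exact fun x hx => Lvl_le (dvd_mul_right N _) (conjSet_subset _ _ hx)
  rintro _ ⟨h, hh, a, ⟨y, hy, rfl⟩, rfl⟩
  set t := N.totient
  set D := dg (qu q hq.ne_zero t)
  have hD : D ∈ Lvl q N := dg_mem hq.ne_zero (pow_mod_of_totient_dvd hqN dvd_rfl)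
  set a' : ℚ := (N : ℚ) * y
  have ha' : Idl q N a' := ⟨y, hy, rfl⟩
  have h1 : 1 ≤ q ^ (2 * t) := Nat.one_le_pow _ _ hq.pos
  have key : ex ((killMod q N : ℕ) * y) = D * ex a' * D⁻¹ * (ex a')⁻¹ := by
    rw [dg_ex, ← ex_neg, ← ex_add]
    congr 1
    have e : killMod q N = N * (q ^ (2 * t) - 1) := rfl
    simp only [e, a', qu_val, Nat.cast_mul, Nat.cast_sub h1, Nat.cast_pow, Nat.cast_one]
    ring
  have hX : h * ex a' * h⁻¹ ∈ Lvl q N := conj_mem hh (ex_mem ha')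
  have hY : h * D * h⁻¹ ∈ Lvl q N := conj_mem hh hD
  have e : h * (D * ex a' * D⁻¹ * (ex a')⁻¹) * h⁻¹ =
      h * D * h⁻¹ * (h * ex a' * h⁻¹) * (h * D * h⁻¹)⁻¹ * (h * ex a' * h⁻¹)⁻¹ := by group
  rw [key, e, hF _ (mul_mem (mul_mem hY hX) (inv_mem hY)) _ (inv_mem hX), hF.map_conj hY hX,
    hF.map_inv hX, add_neg_cancel]

/-- `q ^ (2 φ(N))`. -/
def bigQ (q N : ℕ) : ℕ := q ^ (2 * N.totient)

/-- The `N`-part of `q ^ (2 φ(N)) - 1`. -/
def partK (q N : ℕ) : ℕ := Nat.gcd (bigQ q N - 1) (N ^ bigQ q N)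

/-- The prime-to-`N` part of `q ^ (2 φ(N)) - 1`. -/
def tau0 (q N : ℕ) : ℕ := (bigQ q N - 1) / partK q N

/-- The level from which on invariance holds. -/
def centralMod (q N : ℕ) : ℕ :=
  killMod q (N * partK q N * partK q N) * partK q N * partK q N

section params

variable {q N : ℕ} (hq : q.Prime) (hN : 0 < N) (hqN : q.Coprime N)

include hq hN in
theorem bigQ_gt : 1 < bigQ q N :=
  Nat.one_lt_pow (by have := Nat.totient_pos.2 hN; omega) hq.one_lt

include hN in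
theorem partK_pos : 0 < partK q N := Nat.gcd_pos_of_pos_right _ (pow_pos hN _)

include hq hN hqN in
theorem dvd_partK : N ∣ partK q N := by
  refine Nat.dvd_gcd ?_ (dvd_pow_self N (by have := bigQ_gt hq hN; omega))
  have h1 : 1 ≡ bigQ q N [MOD N] :=
    (pow_mod_of_totient_dvd hqN (dvd_mul_left _ 2)).symm
  exact (Nat.modEq_iff_dvd' (bigQ_gt hq hN).le).1 h1

theorem partK_mul_tau0 (q N : ℕ) : partK q N * tau0 q N = bigQ q N - 1 :=
  Nat.mul_div_cancel' (Nat.gcd_dvd_left _ _)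

include hq hN in
theorem tau0_coprime : (tau0 q N).Coprime N := by
  refine Nat.coprime_of_dvd fun l hl h1 h2 => ?_
  set K := partK q N
  have hK : K ≠ 0 := (partK_pos hN).ne'
  have hQ1 : bigQ q N - 1 ≠ 0 := by have := bigQ_gt hq hN; omega
  have h3 : (bigQ q N - 1).factorization l = K.factorization l + (tau0 q N).factorization l := by
    rw [← partK_mul_tau0, Nat.factorization_mul hK]
    · rfl
    · intro h; exact hQ1 (by rw [← partK_mul_tau0, h, mul_zero])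
  have h4 : 0 < (tau0 q N).factorization l := by
    refine hl.factorization_pos_of_dvd ?_ h1
    intro h; exact hQ1 (by rw [← partK_mul_tau0, h, mul_zero])
  have h5 : K.factorization l =
      min ((bigQ q N - 1).factorization l) (bigQ q N * N.factorization l) := by
    rw [show K = Nat.gcd (bigQ q N - 1) (N ^ bigQ q N) from rfl,
      Nat.factorization_gcd hQ1 (pow_ne_zero _ hN.ne')]
    simp [Nat.factorization_pow]
  have h6 : (bigQ q N - 1).factorization l < bigQ q N - 1 + 1 :=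
    Nat.lt_succ_of_le (Nat.factorization_lt l hQ1).le
  have h7 : bigQ q N ≤ bigQ q N * N.factorization l :=
    Nat.le_mul_of_pos_right _ (hl.factorization_pos_of_dvd hN.ne' h2)
  omega

include hqN in
theorem partK_coprime : q.Coprime (partK q N) :=
  Nat.Coprime.coprime_dvd_right (Nat.gcd_dvd_right _ _) (hqN.pow_right _)

include hq hN in
theorem centralMod_pos : 0 < centralMod q N :=
  Nat.mul_pos (Nat.mul_pos (killMod_pos hq (Nat.mul_pos (Nat.mul_pos hN (partK_pos hN))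
    (partK_pos hN))) (partK_pos hN)) (partK_pos hN)

include hq hqN in
theorem centralMod_coprime : q.Coprime (centralMod q N) := by
  have hK := partK_coprime hqN
  exact ((killMod_coprime hq ((hqN.mul_right hK).mul_right hK)).mul_right hK).mul_right hK

theorem dvd_centralMod (q N : ℕ) : N ∣ centralMod q N :=
  dvd_mul_of_dvd_left (dvd_mul_of_dvd_left (dvd_mul_of_dvd_left
    (dvd_mul_of_dvd_left (dvd_mul_right N _) _) _) _) _

end params

theorem shift_eq {q N r : ℕ} (hq : q.Prime) (hN : 0 < N) (hqN : q.Coprime N) {F : SLQ → C}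
    (hF : AddOn (Lvl q N) F) (hr : q ^ r % N = 1 % N) {g : SLQ}
    (hg : g ∈ Lvl q (killMod q (N * partK q N * partK q N))) (hd : g.1 1 1 ≠ 0)
    (hdiv : (((q : ℚ) ^ r) ^ 2 - 1) / g.1 1 1 ∈ QInt q) :
    F (conjY (((q : ℚ) ^ r) ^ 2 / partK q N) g) = F (conjY (1 / partK q N) g) := by
  set K := partK q N
  have hK : K ≠ 0 := (partK_pos hN).ne'
  set L := killMod q (N * K * K)
  have hqL : q.Coprime (N * K * K) :=
    (hqN.mul_right (partK_coprime hqN)).mul_right (partK_coprime hqN)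
  set u : ℚˣ := qu q hq.ne_zero r
  set D := dg u
  have hD : D ∈ Lvl q N := dg_mem hq.ne_zero hr
  obtain ⟨-, hb, hc, -⟩ := id hg
  set δ : ℚ := (((q : ℚ) ^ r) ^ 2 - 1) / g.1 1 1
  have hδ : δ * g.1 1 1 = ((q : ℚ) ^ r) ^ 2 - 1 := div_mul_cancel₀ _ hd
  set Δ : ℚ := δ * g.1 0 1
  set w : ℚ := -(((q : ℚ) ^ r)⁻¹ * ((q : ℚ) ^ r)⁻¹ * δ) * g.1 1 0
  have hΔ : Idl q L Δ := hb.mul_left hdiv
  have hinv := inv_pow_mem_QInt (q := q) hq.ne_zero r
  have hw : Idl q L w := hc.mul_left (neg_mem (mul_mem (mul_mem hinv hinv) hdiv))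
  have hne : (q : ℚ) ^ r ≠ 0 := pow_ne_zero _ (by exact_mod_cast hq.ne_zero)
  have key : D * g * D⁻¹ = ex Δ * g * ey w := by
    refine slq_ext_of_ne_zero ?_ ?_ ?_ ?_
    · simp [D, u, mul00, mul01, mul10, mul11, inv00, inv01, inv10, inv11, Δ]
      linear_combination -(g.1 0 1) * hδ
    · simp [D, u, mul00, mul01, mul10, mul11, inv00, inv01, inv10, inv11, w]
      field_simp
      linear_combination g.1 1 0 * hδ
    · simp [D, u, mul00, mul01, mul10, mul11, inv00, inv01, inv10, inv11]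
      field_simp
    · simp [D, u, mul10, mul11, inv01, inv11]
      exact ⟨⟨fun h => absurd h hq.ne_zero, hd⟩, fun h => absurd h hq.ne_zero⟩
  have hL : N * K * K ∣ L := dvd_mul_right _ _
  have hg' : g ∈ Lvl q (N * K * K) := Lvl_le hL hg
  set s : ℚ := 1 / (K : ℚ)
  have hs : s = ((1 : ℤ) : ℚ) / K := by simp [s]
  set Fs : SLQ → C := fun x => F (conjY s x)
  have hFs : AddOn (Lvl q (N * K * K)) Fs :=
    hF.comp (conjY s) fun x hx => by rw [hs]; exact conjY_mem 1 hK hx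
  have h1 : Fs (D * g * D⁻¹) = Fs g := by
    rw [key, hFs _ (mul_mem (ex_mem (hΔ.of_dvd hL)) hg') _ (ey_mem (hw.of_dvd hL)),
      hFs _ (ex_mem (hΔ.of_dvd hL)) _ hg', kill hq hqL hFs (ex_mem_EL hΔ),
      kill hq hqL hFs (ey_mem_EL hw), zero_add, add_zero]
  have hX : conjY (((q : ℚ) ^ r) ^ 2 / K) g ∈ Lvl q N := by
    have e : ((q : ℚ) ^ r) ^ 2 / (K : ℚ) = (((((q : ℤ) ^ r) ^ 2 : ℤ)) : ℚ) / K := by push_cast; rfl
    rw [e]; exact conjY_mem _ hK hg'
  have e1 : conjY s (D * g * D⁻¹) = D * conjY (((q : ℚ) ^ r) ^ 2 / K) g * D⁻¹ := by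
    have e2 : ey (((q : ℚ) ^ r) ^ 2 / K) = D⁻¹ * ey s * D := by
      rw [dg_inv_ey]; simp [u, s, div_eq_mul_inv]
    simp only [conjY_apply, e2]
    group
  calc F (conjY (((q : ℚ) ^ r) ^ 2 / K) g)
      = F (D * conjY (((q : ℚ) ^ r) ^ 2 / K) g * D⁻¹) := (hF.map_conj hD hX).symm
    _ = Fs (D * g * D⁻¹) := by rw [← e1]
    _ = F (conjY s g) := h1

theorem exists_unit_mul {q : ℕ} (hq : q.Prime) {x : ℚ} (hx : x ∈ QInt q) (h0 : x ≠ 0) :
    ∃ c0 : ℕ, 0 < c0 ∧ q.Coprime c0 ∧ x / c0 ∈ QInt q ∧ (c0 : ℚ) / x ∈ QInt q := by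
  obtain ⟨k, z, hz⟩ := hx
  have hq0 : (q : ℚ) ≠ 0 := by exact_mod_cast hq.ne_zero
  have hz0 : z ≠ 0 := by
    intro h
    rw [h, Int.cast_zero] at hz
    exact h0 ((mul_eq_zero.1 hz).resolve_right (pow_ne_zero _ hq0))
  obtain ⟨e, c0, hc0, he⟩ :=
    Nat.exists_eq_pow_mul_and_not_dvd (Int.natAbs_ne_zero.2 hz0) q hq.one_lt.ne'
  have hc0' : c0 ≠ 0 := by rintro rfl; exact hc0 (dvd_zero q)
  refine ⟨c0, Nat.pos_of_ne_zero hc0', hq.coprime_iff_not_dvd.2 hc0, ?_⟩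
  obtain ⟨σ, hσ, hσz⟩ : ∃ σ : ℤ, σ * σ = 1 ∧ (z : ℤ) = σ * (z.natAbs : ℤ) := by
    rcases Int.natAbs_eq z with h | h
    · exact ⟨1, rfl, by omega⟩
    · exact ⟨-1, rfl, by omega⟩
  have hzQ : (z : ℚ) = (σ : ℚ) * ((q : ℚ) ^ e * c0) := by
    rw [he] at hσz
    exact_mod_cast hσz
  have hx' : x = (σ : ℚ) * (q : ℚ) ^ e * ((q : ℚ) ^ k)⁻¹ * c0 := by
    rw [← hz] at hzQ
    field_simp
    linear_combination hzQ
  have hc : (c0 : ℚ) ≠ 0 := by exact_mod_cast hc0'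
  have hσ' : (σ : ℚ) * σ = 1 := by exact_mod_cast hσ
  have hσne : (σ : ℚ) ≠ 0 := left_ne_zero_of_mul_eq_one hσ'
  constructor
  · have : x / c0 = (σ : ℚ) * (q : ℚ) ^ e * ((q : ℚ) ^ k)⁻¹ := by
      rw [hx']; field_simp
    rw [this]
    exact mul_mem (mul_mem (int_mem_QInt _) (pow_mem (nat_mem_QInt q) _))
      (inv_pow_mem_QInt hq.ne_zero _)
  · have : (c0 : ℚ) / x = (σ : ℚ) * (q : ℚ) ^ k * ((q : ℚ) ^ e)⁻¹ := by
      rw [hx']; field_simp
      linear_combination -hσ'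
    rw [this]
    exact mul_mem (mul_mem (int_mem_QInt _) (pow_mem (nat_mem_QInt q) _))
      (inv_pow_mem_QInt hq.ne_zero _)

theorem half_coprime {N d : ℕ} (hd : d.Prime) (h2 : 2 < d)
    (hN2 : ((N * N : ℕ) : ℤ) ∣ (d : ℤ) + 1) : ((d - 1) / 2).Coprime N := by
  refine Nat.coprime_of_dvd fun l hl h1 h3 => ?_
  have hodd : d % 2 = 1 := by
    rcases hd.eq_two_or_odd with h | h <;> omega
  have e : ((d : ℤ) - 1) = 2 * (((d - 1) / 2 : ℕ) : ℤ) := by omega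
  have h4 : (2 * l : ℤ) ∣ (d : ℤ) - 1 := by
    rw [e]; exact mul_dvd_mul_left 2 (Int.natCast_dvd_natCast.2 h1)
  have h5 : (l : ℤ) * l ∣ (d : ℤ) + 1 := by
    refine dvd_trans ?_ hN2
    push_cast
    exact mul_dvd_mul (Int.natCast_dvd_natCast.2 h3) (Int.natCast_dvd_natCast.2 h3)
  have h6 : (l : ℤ) ∣ 2 := by
    have := dvd_sub (dvd_trans (dvd_mul_right _ _) h5) (dvd_trans (dvd_mul_left _ _) h4)
    simpa using this
  have h7 : l = 2 :=
    (Nat.prime_dvd_prime_iff_eq hl Nat.prime_two).1 (by exact_mod_cast h6)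
  subst h7
  omega

theorem exists_good {q N : ℕ} (hq : q.Prime) (hN : 0 < N) (hqN : q.Coprime N) {g : SLQ}
    (hg : g ∈ Lvl q (killMod q (N * partK q N * partK q N))) :
    ∃ (a0 a : ℚ) (r : ℕ) (τ : ℤ),
      Idl q (killMod q (N * partK q N * partK q N)) a0 ∧
      Idl q (killMod q (N * partK q N * partK q N)) a ∧
      q ^ r % N = 1 % N ∧ (ey a0 * g * ex a).1 1 1 ≠ 0 ∧
      (((q : ℚ) ^ r) ^ 2 - 1) / (ey a0 * g * ex a).1 1 1 ∈ QInt q ∧
      (τ : ℚ) * partK q N = ((q : ℚ) ^ r) ^ 2 - 1 ∧ (N : ℤ) ∣ τ - tau0 q N := by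
  set K := partK q N
  set L := killMod q (N * K * K)
  have hqL : q.Coprime L := killMod_coprime hq
    ((hqN.mul_right (partK_coprime hqN)).mul_right (partK_coprime hqN))
  have hL0 : 0 < L :=
    killMod_pos hq (Nat.mul_pos (Nat.mul_pos hN (partK_pos hN)) (partK_pos hN))
  have hNNL : N * N ∣ L :=
    dvd_trans (dvd_trans (mul_dvd_mul_left N (dvd_partK hq hN hqN)) (dvd_mul_right _ K))
      (dvd_mul_right _ _)
  -- make the lower left entry nonzero
  obtain ⟨a0, ha0, hc⟩ : ∃ a0 : ℚ, Idl q L a0 ∧ (ey a0 * g).1 1 0 ≠ 0 := by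
    by_cases h : g.1 1 0 = 0
    · refine ⟨L, Idl.self, ?_⟩
      have h1 := det_entries g
      rw [h, mul_zero, sub_zero] at h1
      simp [mul10, h, left_ne_zero_of_mul_eq_one h1, hL0.ne']
    · exact ⟨0, Idl.zero, by simpa [mul10] using h⟩
  set g1 := ey a0 * g with hg1
  have hg1L : g1 ∈ Lvl q L := mul_mem (ey_mem ha0) hg
  obtain ⟨A, B, Cc, D⟩ := mem_Lvl_one_iff.1 (Lvl_le (one_dvd L) hg1L)
  obtain ⟨c0, hc0, hqc0, hu1, hu2⟩ := exists_unit_mul hq Cc hc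
  set Md := c0 * L with hMd
  have hqMd : q.Coprime Md := hqc0.mul_right hqL
  have hMd0 : 0 < Md := Nat.mul_pos hc0 hL0
  obtain ⟨d0, hd0⟩ := exists_int_idl hqMd D
  have hd0u : IsUnit ((d0 : ZMod Md)) := by
    rw [ZMod.coe_int_isUnit_iff_isCoprime, Int.isCoprime_iff_nat_coprime, Int.natAbs_natCast]
    refine Nat.coprime_of_dvd fun p hp hpM hpd => ?_
    have hqp : q.Coprime p := Nat.Coprime.coprime_dvd_right hpM hqMd
    have hd1 : Idl q p (g1.1 1 1) := by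
      have e : g1.1 1 1 = (g1.1 1 1 - d0) + (d0 : ℚ) := by ring
      rw [e]
      refine (hd0.of_dvd hpM).add ?_
      obtain ⟨c, hc'⟩ := Int.natCast_dvd.2 hpd
      exact ⟨c, int_mem_QInt c, by rw [hc']; push_cast; rfl⟩
    have h1 : Idl q p ((1 : ℤ) : ℚ) := by
      rcases hp.dvd_mul.1 hpM with h | h
      · have hcI : Idl q p (g1.1 1 0) := by
          obtain ⟨c, hc'⟩ := h
          refine ⟨(c : ℚ) * (g1.1 1 0 / c0), mul_mem (nat_mem_QInt c) hu1, ?_⟩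
          have : (c0 : ℚ) ≠ 0 := by exact_mod_cast hc0.ne'
          rw [← mul_assoc, show (p : ℚ) * c = c0 by rw [hc']; push_cast; rfl]
          field_simp
        convert (hd1.mul_left A).sub (hcI.mul_left B) using 1
        push_cast; exact (det_entries g1).symm
      · convert hd1.sub (hg1L.2.2.2.of_dvd h) using 1
        push_cast; ring
    have := int_dvd_of_idl hqp h1
    exact hp.not_dvd_one (Int.natCast_dvd_natCast.1 (by simpa using this))
  have hNN : (N * N) ∣ Md := dvd_mul_of_dvd_right hNNL _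
  have hNN0 : N * N ≠ 0 := (Nat.mul_pos hN hN).ne'
  obtain ⟨d1, hd1gt, hd1p, hd1⟩ := Nat.forall_exists_prime_gt_and_zmodEq (Md + q + 2)
    (q := N * N) (a := -1) hNN0 (isCoprime_one_left.neg_left)
  have : NeZero Md := ⟨hMd0.ne'⟩
  have hd1u : IsUnit ((d1 : ZMod Md)) := by
    rw [ZMod.isUnit_iff_coprime, hd1p.coprime_iff_not_dvd]
    exact fun h => absurd (Nat.le_of_dvd hMd0 h) (by omega)
  obtain ⟨d2, hd2gt, hd2p, hd2⟩ := Nat.forall_exists_prime_gt_and_eq_mod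
    (a := (d0 : ZMod Md) * ((hd1u.unit⁻¹ : (ZMod Md)ˣ) : ZMod Md))
    (hd0u.mul (Units.isUnit _)) d1
  have hprod : (Md : ℤ) ∣ (d1 : ℤ) * d2 - d0 := by
    rw [← ZMod.intCast_zmod_eq_zero_iff_dvd]
    push_cast
    rw [hd2, mul_left_comm, IsUnit.mul_val_inv, mul_one, sub_self]
  have hd1N : ((N * N : ℕ) : ℤ) ∣ (d1 : ℤ) + 1 := by
    have := hd1.symm.dvd
    simpa using this
  have hd0N : ((N * N : ℕ) : ℤ) ∣ d0 - 1 := by
    refine int_dvd_of_idl (Nat.Coprime.coprime_dvd_right hNN hqMd) ?_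
    convert (hd0.of_dvd hNN).neg.add (hg1L.2.2.2.of_dvd hNNL) using 1
    push_cast; ring
  have hd2N : ((N * N : ℕ) : ℤ) ∣ (d2 : ℤ) + 1 := by
    have h1 : ((N * N : ℕ) : ℤ) ∣ (d1 : ℤ) * d2 - d0 :=
      dvd_trans (Int.natCast_dvd_natCast.2 hNN) hprod
    have e : (d2 : ℤ) + 1 = ((d1 : ℤ) + 1) * d2 - ((d1 : ℤ) * d2 - d0 + (d0 - 1)) := by ring
    rw [e]
    exact dvd_sub (hd1N.mul_right (d2 : ℤ)) (dvd_add h1 hd0N)
  set h1 := (d1 - 1) / 2
  set h2 := (d2 - 1) / 2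
  have hcop : (h1 * h2).Coprime N := (half_coprime hd1p (by omega) hd1N).mul_left
    (half_coprime hd2p (by omega) hd2N)
  have : NeZero N := ⟨hN.ne'⟩
  set cadj := ((h1 * h2 : ℕ) : ZMod N)⁻¹.val with hcadj
  set r' := h1 * h2 * cadj with hr'
  have hr'1 : (r' : ZMod N) = 1 := by
    rw [hr', Nat.cast_mul, hcadj, ZMod.natCast_zmod_val]
    exact ZMod.coe_mul_inv_eq_one _ hcop
  set r := N.totient * r' with hr
  have hrN : q ^ r % N = 1 % N := pow_mod_of_totient_dvd hqN (dvd_mul_right _ _)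
  set Q := bigQ q N
  set τ : ℤ := (tau0 q N : ℤ) * ∑ i ∈ Finset.range r', (Q : ℤ) ^ i with hτ
  have hQ1 : 1 ≤ Q := (bigQ_gt hq hN).le
  have hτK : τ * (K : ℤ) = (Q : ℤ) ^ r' - 1 := by
    have h := partK_mul_tau0 q N
    have h' : (K : ℤ) * (tau0 q N : ℤ) = (Q : ℤ) - 1 := by
      rw [← Nat.cast_mul, h, Nat.cast_sub hQ1, Nat.cast_one]
    rw [← geom_sum_mul (Q : ℤ) r', ← h', hτ]; ring
  have hQr : ((q : ℤ) ^ r) ^ 2 = (Q : ℤ) ^ r' := by
    show ((q : ℤ) ^ r) ^ 2 = ((q ^ (2 * N.totient) : ℕ) : ℤ) ^ r'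
    push_cast
    rw [← pow_mul, ← pow_mul, hr]; congr 1; show N.totient * r' * 2 = 2 * N.totient * r'; ring
  have hτN : (N : ℤ) ∣ τ - tau0 q N := by
    rw [← ZMod.intCast_zmod_eq_zero_iff_dvd, hτ]
    push_cast
    have hQ : (Q : ZMod N) = 1 := by
      rw [← Nat.cast_one, ZMod.natCast_eq_natCast_iff']
      exact pow_mod_of_totient_dvd hqN (dvd_mul_left _ 2)
    simp [hQ, hr'1]
  have hdd : ∀ d : ℕ, d.Prime → q < d → (d - 1) ∣ 2 * r → (d : ℤ) ∣ ((q : ℤ) ^ r) ^ 2 - 1 := by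
    intro d hd hqd hdr
    have : Fact d.Prime := ⟨hd⟩
    rw [← ZMod.intCast_zmod_eq_zero_iff_dvd]
    push_cast
    obtain ⟨c, hc'⟩ := hdr
    rw [← pow_mul, mul_comm r 2, hc', pow_mul, ZMod.pow_card_sub_one_eq_one, one_pow, sub_self]
    rw [Ne, ZMod.natCast_eq_zero_iff]
    exact fun h => absurd (Nat.le_of_dvd hq.pos h) (by omega)
  have h1' : (d1 : ℤ) * d2 ∣ ((q : ℤ) ^ r) ^ 2 - 1 := by
    have hco : IsCoprime (d1 : ℤ) d2 :=
      Int.isCoprime_iff_nat_coprime.2 (by simpa using (Nat.coprime_primes hd1p hd2p).2 (by omega))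
    refine hco.mul_dvd (hdd d1 hd1p (by omega) ⟨N.totient * h2 * cadj, ?_⟩)
      (hdd d2 hd2p (by omega) ⟨N.totient * h1 * cadj, ?_⟩)
    · have : d1 - 1 = 2 * h1 := by
        have := hd1p.eq_two_or_odd; omega
      rw [this, hr, hr']; ring
    · have : d2 - 1 = 2 * h2 := by
        have := hd2p.eq_two_or_odd; omega
      rw [this, hr, hr']; ring
  -- the right multiplier
  obtain ⟨y, hy, hyy⟩ : Idl q Md (((d1 * d2 : ℕ) : ℚ) - g1.1 1 1) := by
    have e : ((d1 * d2 : ℕ) : ℚ) - g1.1 1 1 =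
        (((d1 : ℤ) * d2 - d0 : ℤ) : ℚ) - (g1.1 1 1 - d0) := by push_cast; ring
    rw [e]
    obtain ⟨c, hc'⟩ := hprod
    exact Idl.sub ⟨c, int_mem_QInt c, by rw [hc']; push_cast; rfl⟩ hd0
  set a : ℚ := (L : ℚ) * (y * ((c0 : ℚ) / g1.1 1 0)) with ha
  have haI : Idl q L a := ⟨_, mul_mem hy hu2, rfl⟩
  have hd' : (g1 * ex a).1 1 1 = ((d1 * d2 : ℕ) : ℚ) := by
    rw [mul11, ex01, ex11, ha]
    have : g1.1 1 0 * ((L : ℚ) * (y * ((c0 : ℚ) / g1.1 1 0))) = (L : ℚ) * c0 * y := by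
      field_simp
    rw [this]
    rw [hMd] at hyy
    push_cast at hyy ⊢
    linear_combination -hyy
  have hd'0 : ((d1 * d2 : ℕ) : ℚ) ≠ 0 := by
    exact_mod_cast (Nat.mul_pos hd1p.pos hd2p.pos).ne'
  refine ⟨a0, a, r, τ, ha0, haI, hrN, by rw [hd']; exact hd'0, ?_, ?_, hτN⟩
  · rw [hd']
    obtain ⟨c, hc'⟩ := h1'
    have : (((q : ℚ) ^ r) ^ 2 - 1) / ((d1 * d2 : ℕ) : ℚ) = (c : ℚ) := by
      rw [div_eq_iff hd'0]
      have : (((q : ℚ) ^ r) ^ 2 - 1) = (((d1 : ℤ) * d2 * c : ℤ) : ℚ) := by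
        rw [← hc']; push_cast; rfl
      rw [this]; push_cast; ring
    rw [this]
    exact int_mem_QInt c
  · have : (((τ * (K : ℤ)) : ℤ) : ℚ) = (((Q : ℤ) ^ r' - 1 : ℤ) : ℚ) := by rw [hτK]
    rw [← hQr] at this
    push_cast at this
    exact this

theorem conjY_tau0 {q N : ℕ} (hq : q.Prime) (hN : 0 < N) (hqN : q.Coprime N) {F : SLQ → C}
    (hF : AddOn (Lvl q N) F) {g : SLQ} (hg : g ∈ Lvl q (centralMod q N)) :
    ∃ τ : ℤ, (N : ℤ) ∣ τ - tau0 q N ∧ F (conjY (τ : ℚ) g) = F g := by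
  set K := partK q N with hK
  have hK0 : K ≠ 0 := (partK_pos hN).ne'
  set L := killMod q (N * K * K)
  set g2 := conjY (((-1 : ℤ) : ℚ) / K) g with hg2
  have hg2L : g2 ∈ Lvl q L := conjY_mem (-1) hK0 hg
  obtain ⟨a0, a, r, τ, ha0, ha, hr, hd, hdiv, hτK, hτN⟩ := exists_good hq hN hqN hg2L
  refine ⟨τ, hτN, ?_⟩
  set g3 := ey a0 * g2 * ex a
  have hg3 : g3 ∈ Lvl q L := mul_mem (mul_mem (ey_mem ha0) hg2L) (ex_mem ha)
  have hqL : q.Coprime (N * K * K) :=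
    (hqN.mul_right (partK_coprime hqN)).mul_right (partK_coprime hqN)
  have hL : N * K * K ∣ L := dvd_mul_right _ _
  have hFs : ∀ m : ℤ, F (conjY ((m : ℚ) / K) g3) = F (conjY ((m : ℚ) / K) g2) := by
    intro m
    have hA : AddOn (Lvl q (N * K * K)) (fun x => F (conjY ((m : ℚ) / K) x)) :=
      hF.comp _ fun x hx => conjY_mem m hK0 hx
    have m1 := ey_mem (ha0.of_dvd hL)
    have m2 := Lvl_le hL hg2L
    have h1 := hA _ (mul_mem m1 m2) _ (ex_mem (ha.of_dvd hL))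
    have h2 := hA _ m1 _ m2
    have h3 := kill hq hqL hA (ey_mem_EL ha0)
    have h4 := kill hq hqL hA (ex_mem_EL ha)
    simp only at h1 h2 h3 h4
    rw [h1, h2, h3, h4, zero_add, add_zero]
  have hshift := shift_eq hq hN hqN hF hr hg3 hd hdiv
  have hne : (K : ℚ) ≠ 0 := by exact_mod_cast hK0
  have e1 : (1 : ℚ) / K = ((1 : ℤ) : ℚ) / K := by simp
  have e2 : ((q : ℚ) ^ r) ^ 2 / K = ((((q : ℤ) ^ r) ^ 2 : ℤ) : ℚ) / K := by push_cast; rfl
  rw [e1, e2, hFs, hFs, ← e2, ← e1, hg2, ← conjY_add, ← conjY_add] at hshift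
  have e3 : ((q : ℚ) ^ r) ^ 2 / K + ((-1 : ℤ) : ℚ) / K = (τ : ℚ) := by
    field_simp; push_cast; linear_combination -hτK
  have e4 : (1 : ℚ) / K + ((-1 : ℤ) : ℚ) / K = 0 := by push_cast; ring
  rw [e3, e4] at hshift
  rw [hshift]
  congr 1
  simp [conjY_apply, show ey (0 : ℚ) = 1 from by apply slq_ext <;> simp]

theorem conjY_invariant {q N : ℕ} (hq : q.Prime) (hN : 0 < N) (hqN : q.Coprime N) {F : SLQ → C}
    (hF : AddOn (Lvl q N) F) {g : SLQ} (hg : g ∈ Lvl q (centralMod q N)) {a : ℚ}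
    (ha : a ∈ QInt q) : F (conjY a g) = F g := by
  set M := centralMod q N
  let S : AddSubgroup ℚ :=
    { carrier := {a | a ∈ QInt q ∧ ∀ g ∈ Lvl q M, F (conjY a g) = F g}
      zero_mem' := ⟨zero_mem _, fun g _ => by
        simp [conjY_apply, show ey (0 : ℚ) = 1 from by apply slq_ext <;> simp]⟩
      add_mem' := by
        rintro x y ⟨hx, hx'⟩ ⟨hy, hy'⟩
        refine ⟨add_mem hx hy, fun g hg => ?_⟩
        rw [conjY_add, hx' (conjY y g) (conj_mem (ey_mem (Idl.one_iff.2 hy)) hg), hy' g hg]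
      neg_mem' := by
        rintro x ⟨hx, hx'⟩
        refine ⟨neg_mem hx, fun g hg => ?_⟩
        have h := hx' _ (conj_mem (ey_mem (Idl.one_iff.2 (neg_mem hx))) hg)
        rw [← conjY_apply, ← conjY_add, add_neg_cancel] at h
        rw [← h]
        simp [conjY_apply, show ey (0 : ℚ) = 1 from by apply slq_ext <;> simp] }
  have hNS : ∀ x, Idl q N x → x ∈ S := fun x hx =>
    ⟨hx.mem, fun g hg => hF.map_conj (ey_mem hx) (Lvl_le (dvd_centralMod q N) hg)⟩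
  have h0 : ((tau0 q N : ℕ) : ℚ) ∈ S := by
    refine ⟨nat_mem_QInt _, fun g hg => ?_⟩
    obtain ⟨τ, hτ, hτg⟩ := conjY_tau0 hq hN hqN hF hg
    obtain ⟨c, hc⟩ := hτ
    have hδ : ((tau0 q N : ℕ) : ℚ) - (τ : ℚ) ∈ S := by
      refine hNS _ ⟨(-c : ℤ), int_mem_QInt _, ?_⟩
      have hc' : (τ : ℚ) - ((tau0 q N : ℕ) : ℚ) = (N : ℚ) * c := by exact_mod_cast hc
      push_cast; linear_combination -hc'
    conv_lhs => rw [show ((tau0 q N : ℕ) : ℚ) = (((tau0 q N : ℕ) : ℚ) - τ) + τ by ring, conjY_add]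
    rw [hδ.2 (conjY (τ : ℚ) g) (conj_mem (ey_mem (Idl.one_iff.2 (int_mem_QInt τ))) hg), hτg]
  obtain ⟨u, v, huv⟩ := Int.isCoprime_iff_nat_coprime.2
    (show ((tau0 q N : ℕ) : ℤ).natAbs.Coprime ((N : ℕ) : ℤ).natAbs by
      simpa using tau0_coprime hq hN)
  have h1 : (1 : ℚ) ∈ S := by
    have := add_mem (zsmul_mem h0 u) (zsmul_mem (hNS _ Idl.self) v)
    convert this using 1
    simp only [zsmul_eq_mul]
    exact_mod_cast huv.symm
  obtain ⟨z, hz⟩ := exists_int_idl hqN ha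
  have haS : a ∈ S := by
    have := add_mem (zsmul_mem h1 z) (hNS _ hz)
    convert this using 1
    simp
  exact haS.2 g hg

/-- Centrality. -/
theorem central {q N : ℕ} (hq : q.Prime) (hN : 0 < N) (hqN : q.Coprime N) {F : SLQ → C}
    (hF : AddOn (Lvl q N) F) {g h : SLQ} (hg : g ∈ Lvl q (centralMod q N))
    (hh : h ∈ Lvl q 1) : F (h * g * h⁻¹) = F g := by
  set M := centralMod q N
  suffices ∀ x ∈ GenSub q, x ∈ Lvl q 1 ∧ ∀ g ∈ Lvl q M, F (x * g * x⁻¹) = F g from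
    (this h (Lvl_one_le_GenSub hq hh)).2 g hg
  intro x hx
  refine Subgroup.closure_induction
    (p := fun y _ => y ∈ Lvl q 1 ∧ ∀ g ∈ Lvl q M, F (y * g * y⁻¹) = F g) ?_ ?_ ?_ ?_ hx
  · rintro y ⟨a, ha, rfl | rfl⟩
    · refine ⟨ex_mem (Idl.one_iff.2 ha), fun g hg => ?_⟩
      set F' : SLQ → C := fun x => F (ew * x * ew⁻¹)
      have hF' : AddOn (Lvl q N) F' :=
        hF.comp (MulAut.conj ew).toMonoidHom fun x hx => conj_mem ew_mem hx
      have hk : ew⁻¹ * g * ew ∈ Lvl q M := by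
        have := conj_mem (inv_mem (ew_mem (q := q))) hg
        rwa [inv_inv] at this
      have h1 := conjY_invariant hq hN hqN hF' hk (neg_mem ha)
      simp only [F', conjY_apply] at h1
      have e : ex a = ew * ey (-a) * ew⁻¹ := by rw [ew_ey, neg_neg]
      rw [e]
      convert h1 using 2 <;> group
    · exact ⟨ey_mem (Idl.one_iff.2 ha), fun g hg => by
        rw [← conjY_apply]; exact conjY_invariant hq hN hqN hF hg ha⟩
  · exact ⟨one_mem _, fun g _ => by simp⟩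
  · rintro y z - - ⟨hy, hy'⟩ ⟨hz, hz'⟩
    refine ⟨mul_mem hy hz, fun g hg => ?_⟩
    have e : y * z * g * (y * z)⁻¹ = y * (z * g * z⁻¹) * y⁻¹ := by group
    rw [e, hy' _ (conj_mem hz hg), hz' g hg]
  · rintro y - ⟨hy, hy'⟩
    refine ⟨inv_mem hy, fun g hg => ?_⟩
    have h1 := hy' _ (conj_mem (inv_mem hy) hg)
    rw [← h1]
    congr 1
    group

end FA.HeckeH1
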