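import Fermat.Agent.HeckeH1.Corr

/-!
Transitivity of restriction and corestriction.
-/

set_option autoImplicit false

noncomputable section

namespace FA.HeckeH1

open scoped MatrixGroups

variable {Γ Γ' Γ'' : Subgroup SL(2, ℤ)} {A : Type*} [AddCommGroup A]

theorem res_trans (h : Γ' ≤ Γ) (h' : Γ'' ≤ Γ') (z : Hom1 Γ A) :
    (Corr.res h').act ((Corr.res h).act z) = (Corr.res (h'.trans h)).act z :=
  AddMonoidHom.ext fun γ => by
    show hv ((Corr.res h').act ((Corr.res h).act z)) γ.toMul = hv _ γ.toMul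
    rw [Corr.res_act, Corr.res_act, Corr.res_act]

/-- **Transitivity of corestriction.** -/
theorem cores_trans (h : Γ' ≤ Γ) (h' : Γ'' ≤ Γ') [Finite (Γ ⧸ Γ'.subgroupOf Γ)]
    [Finite (Γ' ⧸ Γ''.subgroupOf Γ')] [Finite (Γ ⧸ Γ''.subgroupOf Γ)] (z : Hom1 Γ'' A) :
    (Corr.cores (Γ := Γ)).act ((Corr.cores (Γ := Γ')).act z) =
      (Corr.cores (Γ := Γ)).act z := by
  classical
  rw [← Corr.comp_act]
  let f : (Γ' ⧸ Γ''.subgroupOf Γ') × (Γ ⧸ Γ'.subgroupOf Γ) → Γ ⧸ Γ''.subgroupOf Γ :=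
    fun x => QuotientGroup.mk (x.2.out * Subgroup.inclusion h x.1.out)
  have hmem : ∀ {a b : Γ}, (QuotientGroup.mk a : Γ ⧸ Γ''.subgroupOf Γ) = QuotientGroup.mk b →
      ((a⁻¹ * b : Γ) : SL(2, ℤ)) ∈ Γ'' := fun hab =>
    Subgroup.mem_subgroupOf.1 (QuotientGroup.eq.1 hab)
  have hf : Function.Bijective f := by
    constructor
    · rintro ⟨a, b⟩ ⟨a', b'⟩ hab
      have h1 := hmem hab
      simp only [mul_inv_rev, Subgroup.coe_mul, Subgroup.coe_inv, Subgroup.coe_inclusion] at h1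
      have hb : b = b' := by
        rw [← QuotientGroup.out_eq' b, ← QuotientGroup.out_eq' b']
        refine QuotientGroup.eq.2 (Subgroup.mem_subgroupOf.2 ?_)
        have h2 := mul_mem (mul_mem a.out.2 (h' h1)) (inv_mem a'.out.2)
        simpa [mul_assoc] using h2
      subst hb
      refine Prod.ext ?_ rfl
      show a = a'
      rw [← QuotientGroup.out_eq' a, ← QuotientGroup.out_eq' a']
      refine QuotientGroup.eq.2 (Subgroup.mem_subgroupOf.2 ?_)
      simpa [mul_assoc] using h1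
    · intro c
      let b : Γ ⧸ Γ'.subgroupOf Γ := QuotientGroup.mk c.out
      have hb : ((b.out⁻¹ * c.out : Γ) : SL(2, ℤ)) ∈ Γ' :=
        Subgroup.mem_subgroupOf.1 (QuotientGroup.eq.1 (QuotientGroup.out_eq' b))
      let a : Γ' ⧸ Γ''.subgroupOf Γ' := QuotientGroup.mk ⟨_, hb⟩
      refine ⟨(a, b), ?_⟩
      conv_rhs => rw [← QuotientGroup.out_eq' c]
      refine QuotientGroup.eq.2 (Subgroup.mem_subgroupOf.2 ?_)
      have ha := Subgroup.mem_subgroupOf.1 (QuotientGroup.eq.1 (QuotientGroup.out_eq' a))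
      simpa [mul_assoc] using ha
  refine Corr.Same.act_eq ⟨Equiv.ofBijective f hf, fun x => ?_⟩ z
  set y := Equiv.ofBijective f hf x
  have hy := hmem ((QuotientGroup.out_eq' y).symm : f x = _).symm
  refine ⟨⟨_, inv_mem hy⟩, ?_⟩
  show glQ ((x.1.out : Γ') : SL(2, ℤ))⁻¹ * glQ ((x.2.out : Γ) : SL(2, ℤ))⁻¹ =
    glQ _ * glQ ((y.out : Γ) : SL(2, ℤ))⁻¹
  rw [← map_mul, ← map_mul]
  congr 1
  simp [mul_assoc]

end FA.HeckeH1

end
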