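import Mathlib

/-!
Correspondences between subgroups of `SL(2, ℤ)`: finite families of rational matrices acting on
`Hom(Γ, A)` and on modular symbols by the transfer formula.
-/

set_option autoImplicit false

noncomputable section

namespace FA.HeckeH1

open Matrix
open scoped MatrixGroups

/-- `ℙ¹(ℚ)`. -/
abbrev P1 := OnePoint ℚ

/-- `SL(2, ℤ) → GL(2, ℚ)`. -/
def glQ : SL(2, ℤ) →* GL (Fin 2) ℚ :=
  Matrix.SpecialLinearGroup.toGL.comp (Matrix.SpecialLinearGroup.map (Int.castRingHom ℚ))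

@[simp] theorem glQ_apply (g : SL(2, ℤ)) (i j : Fin 2) : (glQ g).1 i j = (g.1 i j : ℚ) := rfl

theorem glQ_injective : Function.Injective glQ := by
  intro a b h
  apply Subtype.ext
  ext i j
  have h1 := congrArg (fun g : GL (Fin 2) ℚ => g.1 i j) h
  simpa using h1

/-- Homomorphisms `Γ → A`, written additively. -/
abbrev Hom1 (Γ : Subgroup SL(2, ℤ)) (A : Type*) [AddCommGroup A] := Additive Γ →+ A

/-- Value of a homomorphism. -/
abbrev hv {Γ : Subgroup SL(2, ℤ)} {A : Type*} [AddCommGroup A] (z : Hom1 Γ A) (γ : Γ) : A :=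
  z (Additive.ofMul γ)

theorem hv_mul {Γ : Subgroup SL(2, ℤ)} {A : Type*} [AddCommGroup A] (z : Hom1 Γ A) (γ δ : Γ) :
    hv z (γ * δ) = hv z γ + hv z δ := by
  simp only [hv, ofMul_mul, map_add]

theorem hv_one {Γ : Subgroup SL(2, ℤ)} {A : Type*} [AddCommGroup A] (z : Hom1 Γ A) :
    hv z 1 = 0 := by
  simp only [hv, ofMul_one, map_zero]

theorem hv_inv {Γ : Subgroup SL(2, ℤ)} {A : Type*} [AddCommGroup A] (z : Hom1 Γ A) (γ : Γ) :
    hv z γ⁻¹ = -hv z γ := by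
  simp only [hv, ofMul_inv, map_neg]

/-- Modular symbols for `Γ` with values in `A`. -/
def Symb (Γ : Subgroup SL(2, ℤ)) (A : Type*) [AddCommGroup A] : AddSubgroup (P1 → P1 → A) where
  carrier := {φ | (∀ a b c, φ a b + φ b c = φ a c) ∧
    ∀ γ ∈ Γ, ∀ a b, φ (glQ γ • a) (glQ γ • b) = φ a b}
  zero_mem' := ⟨fun _ _ _ => by simp, fun _ _ _ _ => rfl⟩
  add_mem' := by
    rintro φ ψ ⟨h1, h2⟩ ⟨k1, k2⟩
    refine ⟨fun a b c => ?_, fun γ hγ a b => ?_⟩
    · simp only [Pi.add_apply]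
      rw [← h1 a b c, ← k1 a b c]; abel
    · simp only [Pi.add_apply, h2 γ hγ a b, k2 γ hγ a b]
  neg_mem' := by
    rintro φ ⟨h1, h2⟩
    refine ⟨fun a b c => ?_, fun γ hγ a b => ?_⟩
    · simp only [Pi.neg_apply]
      rw [← h1 a b c]; abel
    · simp only [Pi.neg_apply, h2 γ hγ a b]

namespace Symb

variable {Γ : Subgroup SL(2, ℤ)} {A : Type*} [AddCommGroup A] (φ : Symb Γ A)

theorem add_eq (a b c : P1) : φ.1 a b + φ.1 b c = φ.1 a c := φ.2.1 a b c

theorem invariant {γ : SL(2, ℤ)} (hγ : γ ∈ Γ) (a b : P1) :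
    φ.1 (glQ γ • a) (glQ γ • b) = φ.1 a b := φ.2.2 γ hγ a b

theorem self_eq (a : P1) : φ.1 a a = 0 := by simpa using Symb.add_eq φ a a a

theorem swap (a b : P1) : φ.1 b a = -φ.1 a b := by
  refine eq_neg_of_add_eq_zero_right ?_
  rw [Symb.add_eq φ, Symb.self_eq φ]

end Symb

/-- A correspondence from `Γ` to `Γ'`. -/
structure Corr (Γ Γ' : Subgroup SL(2, ℤ)) where
  /-- index type -/
  ι : Type
  [fin : Fintype ι]
  /-- the matrices -/
  α : ι → GL (Fin 2) ℚ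
  exists_perm : ∀ γ : Γ', ∃ π : Equiv.Perm ι, ∀ i, ∃ h : Γ, α i * glQ γ = glQ h * α (π i)

attribute [instance] Corr.fin

namespace Corr

variable {Γ Γ' Γ'' : Subgroup SL(2, ℤ)} {A B : Type*} [AddCommGroup A] [AddCommGroup B]
variable (C : Corr Γ Γ')

/-- The permutation attached to an element of `Γ'`. -/
def perm (γ : Γ') : Equiv.Perm C.ι := (C.exists_perm γ).choose

/-- The factors attached to an element of `Γ'`. -/
def fac (γ : Γ') (i : C.ι) : Γ := ((C.exists_perm γ).choose_spec i).choose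

theorem fac_spec (γ : Γ') (i : C.ι) :
    C.α i * glQ γ = glQ (C.fac γ i) * C.α (C.perm γ i) :=
  ((C.exists_perm γ).choose_spec i).choose_spec

/-- Matrices in the same class. -/
def rel : Setoid C.ι where
  r i j := ∃ m : Γ, C.α i = glQ m * C.α j
  iseqv := ⟨fun i => ⟨1, by simp⟩,
    fun {i j} ⟨m, hm⟩ => ⟨m⁻¹, by rw [hm, Subgroup.coe_inv, map_inv, inv_mul_cancel_left]⟩,
    fun {i j k} ⟨m, hm⟩ ⟨n, hn⟩ =>
      ⟨m * n, by rw [hm, hn, Subgroup.coe_mul, map_mul, mul_assoc]⟩⟩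

theorem sum_eq_zero (z : Hom1 Γ A) (ρ : Equiv.Perm C.ι) (k : C.ι → Γ)
    (h : ∀ i, C.α i = glQ (k i) * C.α (ρ i)) : ∑ i, hv z (k i) = 0 := by
  classical
  let r : C.ι → C.ι := fun i => (Quotient.mk C.rel i).out
  have hr : ∀ i, ∃ m : Γ, C.α i = glQ m * C.α (r i) := fun i => by
    obtain ⟨m, hm⟩ := Quotient.exact (Quotient.out_eq (Quotient.mk C.rel i))
    exact ⟨m⁻¹, by rw [hm, Subgroup.coe_inv, map_inv, inv_mul_cancel_left]⟩
  choose m hm using hr
  have hri : ∀ i, r (ρ i) = r i := fun i => by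
    have : Quotient.mk C.rel i = Quotient.mk C.rel (ρ i) := Quotient.sound ⟨k i, h i⟩
    show (Quotient.mk C.rel (ρ i)).out = (Quotient.mk C.rel i).out
    rw [this]
  have hk : ∀ i, k i = m i * (m (ρ i))⁻¹ := fun i => by
    apply eq_mul_inv_of_mul_eq
    apply Subtype.ext
    apply glQ_injective
    have h1 := h i
    rw [hm i, hm (ρ i), hri, ← mul_assoc, ← map_mul] at h1
    simpa using (mul_right_cancel h1).symm
  simp only [hk, hv_mul, hv_inv, ← sub_eq_add_neg, Finset.sum_sub_distrib]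
  rw [Equiv.sum_comp ρ (fun i => hv z (m i)), sub_self]

/-- The transfer formula does not depend on the chosen permutation. -/
theorem sum_fac_eq (z : Hom1 Γ A) (γ : Γ') (π : Equiv.Perm C.ι) (g : C.ι → Γ)
    (h : ∀ i, C.α i * glQ γ = glQ (g i) * C.α (π i)) :
    ∑ i, hv z (C.fac γ i) = ∑ i, hv z (g i) := by
  rw [← sub_eq_zero, ← Finset.sum_sub_distrib]
  have h0 := C.sum_eq_zero z ((C.perm γ).symm.trans π)
    (fun j => (C.fac γ ((C.perm γ).symm j))⁻¹ * g ((C.perm γ).symm j)) (fun j => by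
      have h1 := C.fac_spec γ ((C.perm γ).symm j)
      rw [h, Equiv.apply_symm_apply] at h1
      rw [Subgroup.coe_mul, map_mul, mul_assoc, Equiv.trans_apply, h1, Subgroup.coe_inv, map_inv,
        inv_mul_cancel_left])
  rw [Equiv.sum_comp (C.perm γ).symm (fun i => hv z ((C.fac γ i)⁻¹ * g i))] at h0
  rw [← neg_eq_zero, ← Finset.sum_neg_distrib, ← h0]
  refine Finset.sum_congr rfl fun i _ => ?_
  rw [hv_mul, hv_inv]; abel

/-- The action on homomorphisms. -/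
def act : Hom1 Γ A →+ Hom1 Γ' A where
  toFun z := AddMonoidHom.mk' (fun γ => ∑ i, hv z (C.fac γ.toMul i)) (fun γ δ => by
    rw [C.sum_fac_eq z _ ((C.perm γ.toMul).trans (C.perm δ.toMul))
      (fun i => C.fac γ.toMul i * C.fac δ.toMul (C.perm γ.toMul i)) (fun i => by
        rw [toMul_add, Subgroup.coe_mul, map_mul, ← mul_assoc, C.fac_spec, mul_assoc, C.fac_spec,
          Equiv.trans_apply, Subgroup.coe_mul, map_mul, mul_assoc])]
    simp only [hv_mul, Finset.sum_add_distrib]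
    rw [Equiv.sum_comp (C.perm γ.toMul) (fun i => hv z (C.fac δ.toMul i))])
  map_zero' := by ext γ; simp [hv]
  map_add' z w := by
    apply AddMonoidHom.ext
    intro γ
    simp [hv, Finset.sum_add_distrib]

theorem act_apply (z : Hom1 Γ A) (γ : Γ') : hv (C.act z) γ = ∑ i, hv z (C.fac γ i) := rfl

theorem act_eq (z : Hom1 Γ A) (γ : Γ') (π : Equiv.Perm C.ι) (g : C.ι → Γ)
    (h : ∀ i, C.α i * glQ γ = glQ (g i) * C.α (π i)) : hv (C.act z) γ = ∑ i, hv z (g i) := by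
  rw [C.act_apply, C.sum_fac_eq z γ π g h]

theorem act_comp_hom (f : A →+ B) (z : Hom1 Γ A) : C.act (f.comp z) = f.comp (C.act z) := by
  apply AddMonoidHom.ext
  intro γ
  exact (map_sum f _ _).symm

theorem act_smul {R : Type*} [Monoid R] [DistribMulAction R A] (r : R) (z : Hom1 Γ A) :
    C.act (r • z) = r • C.act z := by
  apply AddMonoidHom.ext
  intro γ
  exact (Finset.smul_sum).symm

/-- The action on modular symbols. -/
def symb : Symb Γ A →+ Symb Γ' A where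
  toFun φ := ⟨fun a b => ∑ i, φ.1 (C.α i • a) (C.α i • b),
    fun a b c => by rw [← Finset.sum_add_distrib]; simp only [Symb.add_eq φ],
    fun γ hγ a b => by
      simp only
      rw [← Equiv.sum_comp (C.perm ⟨γ, hγ⟩) (fun i => φ.1 (C.α i • a) (C.α i • b))]
      refine Finset.sum_congr rfl fun i _ => ?_
      have h := C.fac_spec ⟨γ, hγ⟩ i
      rw [smul_smul, smul_smul, h, mul_smul, mul_smul, Symb.invariant φ (C.fac ⟨γ, hγ⟩ i).2]⟩
  map_zero' := by ext a b; simp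
  map_add' φ ψ := by ext a b; simp [Finset.sum_add_distrib]

theorem symb_apply (φ : Symb Γ A) (a b : P1) :
    (C.symb φ).1 a b = ∑ i, φ.1 (C.α i • a) (C.α i • b) := rfl

/-- Composite correspondence. -/
def comp (D : Corr Γ' Γ'') : Corr Γ Γ'' where
  ι := C.ι × D.ι
  α x := C.α x.1 * D.α x.2
  exists_perm γ := by
    refine ⟨⟨fun x => (C.perm (D.fac γ x.2) x.1, D.perm γ x.2),
      fun y => ((C.perm (D.fac γ ((D.perm γ).symm y.2))).symm y.1, (D.perm γ).symm y.2),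
      fun x => by simp, fun y => by simp⟩, fun x => ⟨C.fac (D.fac γ x.2) x.1, ?_⟩⟩
    show C.α x.1 * D.α x.2 * glQ γ = _
    rw [mul_assoc, D.fac_spec, ← mul_assoc, C.fac_spec, mul_assoc]
    rfl

theorem comp_act (D : Corr Γ' Γ'') (z : Hom1 Γ A) : (C.comp D).act z = D.act (C.act z) := by
  apply AddMonoidHom.ext
  intro γ
  show hv ((C.comp D).act z) γ.toMul = hv (D.act (C.act z)) γ.toMul
  rw [(C.comp D).act_eq z γ.toMul
    ⟨fun x => (C.perm (D.fac γ.toMul x.2) x.1, D.perm γ.toMul x.2),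
      fun y => ((C.perm (D.fac γ.toMul ((D.perm γ.toMul).symm y.2))).symm y.1,
        (D.perm γ.toMul).symm y.2), fun x => by simp <;> rfl, fun y => by simp <;> rfl⟩
    (fun x => C.fac (D.fac γ.toMul x.2) x.1) (fun x => by
      show C.α x.1 * D.α x.2 * glQ γ.toMul = _
      rw [mul_assoc, D.fac_spec, ← mul_assoc, C.fac_spec, mul_assoc]
      rfl), D.act_apply]
  simp only [C.act_apply]
  show ∑ x : C.ι × D.ι, hv z (C.fac (D.fac γ.toMul x.2) x.1) = _
  rw [Fintype.sum_prod_type, Finset.sum_comm]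

theorem comp_symb (D : Corr Γ' Γ'') (φ : Symb Γ A) : (C.comp D).symb φ = D.symb (C.symb φ) := by
  apply Subtype.ext
  funext a b
  simp only [symb_apply]
  show ∑ x : C.ι × D.ι, φ.1 ((C.α x.1 * D.α x.2) • a) ((C.α x.1 * D.α x.2) • b) = _
  rw [Fintype.sum_prod_type, Finset.sum_comm]
  simp only [smul_smul]

/-- Two correspondences with the same classes of matrices. -/
def Same (D : Corr Γ Γ') : Prop := ∃ e : C.ι ≃ D.ι, ∀ i, ∃ h : Γ, C.α i = glQ h * D.α (e i)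

variable {C}

theorem Same.act_eq {D : Corr Γ Γ'} (h : C.Same D) (z : Hom1 Γ A) : C.act z = D.act z := by
  obtain ⟨e, he⟩ := h
  choose k hk using he
  apply AddMonoidHom.ext
  intro γ
  show hv (C.act z) γ.toMul = hv (D.act z) γ.toMul
  rw [C.act_apply, D.act_eq z γ.toMul ((e.symm.trans (C.perm γ.toMul)).trans e)
    (fun j => (k (e.symm j))⁻¹ * C.fac γ.toMul (e.symm j) * k (C.perm γ.toMul (e.symm j)))
    (fun j => by
      have h1 := C.fac_spec γ.toMul (e.symm j)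
      rw [hk, Equiv.apply_symm_apply, hk (C.perm γ.toMul (e.symm j))] at h1
      simp only [Equiv.trans_apply, Subgroup.coe_mul, Subgroup.coe_inv, map_mul, map_inv]
      rw [mul_assoc, mul_assoc, ← h1, mul_assoc, inv_mul_cancel_left])]
  simp only [hv_mul, hv_inv, Finset.sum_add_distrib, Finset.sum_neg_distrib]
  rw [Equiv.sum_comp e.symm (fun i => hv z (k i)),
    Equiv.sum_comp e.symm (fun i => hv z (C.fac γ.toMul i)),
    Equiv.sum_comp e.symm (fun i => hv z (k (C.perm γ.toMul i))),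
    Equiv.sum_comp (C.perm γ.toMul) (fun i => hv z (k i))]
  abel

theorem Same.symb_eq {D : Corr Γ Γ'} (h : C.Same D) (φ : Symb Γ A) : C.symb φ = D.symb φ := by
  obtain ⟨e, he⟩ := h
  choose k hk using he
  apply Subtype.ext
  funext a b
  simp only [symb_apply]
  rw [← Equiv.sum_comp e (fun j => φ.1 (D.α j • a) (D.α j • b))]
  refine Finset.sum_congr rfl fun i _ => ?_
  rw [hk, mul_smul, mul_smul, Symb.invariant φ (k i).2]

end Corr

/-- The correspondence of one matrix conjugating `Γ'` into `Γ`. -/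
def Corr.single {Γ Γ' : Subgroup SL(2, ℤ)} (α : GL (Fin 2) ℚ)
    (h : ∀ γ ∈ Γ', ∃ δ ∈ Γ, α * glQ γ = glQ δ * α) : Corr Γ Γ' where
  ι := Unit
  α _ := α
  exists_perm γ := ⟨1, fun _ => by
    obtain ⟨δ, hδ, e⟩ := h γ γ.2
    exact ⟨⟨δ, hδ⟩, e⟩⟩

theorem Corr.single_act {Γ Γ' : Subgroup SL(2, ℤ)} {A : Type*} [AddCommGroup A]
    (α : GL (Fin 2) ℚ) (h : ∀ γ ∈ Γ', ∃ δ ∈ Γ, α * glQ γ = glQ δ * α) (z : Hom1 Γ A) (γ : Γ')
    (δ : Γ) (hδ : α * glQ γ = glQ δ * α) : hv ((Corr.single α h).act z) γ = hv z δ := by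
  rw [Corr.act_eq _ z γ 1 (fun _ => δ) (fun _ => hδ)]
  exact Fintype.sum_unique (ι := Unit) _

theorem Corr.single_symb {Γ Γ' : Subgroup SL(2, ℤ)} {A : Type*} [AddCommGroup A]
    (α : GL (Fin 2) ℚ) (h : ∀ γ ∈ Γ', ∃ δ ∈ Γ, α * glQ γ = glQ δ * α) (φ : Symb Γ A) (a b : P1) :
    ((Corr.single α h).symb φ).1 a b = φ.1 (α • a) (α • b) := by
  rw [Corr.symb_apply]
  exact Fintype.sum_unique (ι := Unit) _

/-- Restriction. -/
def Corr.res {Γ Γ' : Subgroup SL(2, ℤ)} (h : Γ' ≤ Γ) : Corr Γ Γ' :=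
  Corr.single 1 (fun γ hγ => ⟨γ, h hγ, by simp⟩)

theorem Corr.res_act {Γ Γ' : Subgroup SL(2, ℤ)} {A : Type*} [AddCommGroup A] (h : Γ' ≤ Γ)
    (z : Hom1 Γ A) (γ : Γ') : hv ((Corr.res h).act z) γ = hv z ⟨γ, h γ.2⟩ :=
  Corr.single_act _ _ z γ ⟨γ, h γ.2⟩ (by simp)

/-- Corestriction. -/
def Corr.cores {Γ Γ' : Subgroup SL(2, ℤ)} [Finite (Γ ⧸ Γ'.subgroupOf Γ)] : Corr Γ' Γ where
  ι := Γ ⧸ Γ'.subgroupOf Γ
  fin := Fintype.ofFinite _
  α x := glQ ((x.out : Γ) : SL(2, ℤ))⁻¹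
  exists_perm γ := by
    refine ⟨MulAction.toPerm (γ⁻¹ : Γ), fun x => ?_⟩
    obtain ⟨⟨h, hh⟩, hout⟩ := QuotientGroup.mk_out_eq_mul (Γ'.subgroupOf Γ) (γ⁻¹ * x.out)
    have hx : (MulAction.toPerm (γ⁻¹ : Γ)) x = QuotientGroup.mk (γ⁻¹ * x.out) := by
      show γ⁻¹ • x = _
      conv_lhs => rw [← QuotientGroup.out_eq' x]
      rfl
    refine ⟨⟨(h : Γ), hh⟩, ?_⟩
    rw [hx, hout]
    simp only [Subgroup.coe_mul, Subgroup.coe_inv, map_mul, map_inv, _root_.mul_inv_rev]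
    group

end FA.HeckeH1

end
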