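import Fermat.Agent.HeckeH1.Potential

/-!
Cusps as `glQ g • ∞`.
-/

set_option autoImplicit false

noncomputable section

namespace FA.HeckeH1

open ModularGroup OnePoint
open scoped MatrixGroups

/-- The cusp `∞`. -/
abbrev cinf : P1 := (OnePoint.infty : OnePoint ℚ)

/-- The cusp `0`. -/
abbrev czero : P1 := ((0 : ℚ) : OnePoint ℚ)

theorem scalar_smul {g : GL (Fin 2) ℚ} {c : ℚ} (hc : c ≠ 0)
    (hg : g.1 = c • (1 : Matrix (Fin 2) (Fin 2) ℚ)) (x : P1) : g • x = x := by
  have e : ∀ i j, g i j = if i = j then c else 0 := fun i j => by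
    show g.1 i j = _
    rw [hg]; simp [Matrix.one_apply]
  induction x using OnePoint.rec with
  | infty => rw [smul_infty_eq_self_iff, e]; simp
  | coe t => rw [smul_some_eq_ite]; simp [e, hc]

theorem glQ_neg_one_smul (x : P1) : glQ (-1) • x = x := by
  refine scalar_smul (c := -1) (by norm_num) ?_ x
  ext i j
  fin_cases i <;> fin_cases j <;> simp

theorem glQ_neg_smul (g : SL(2, ℤ)) (x : P1) : glQ (-g) • x = glQ g • x := by
  rw [show -g = g * (-1) by simp, map_mul, mul_smul, glQ_neg_one_smul]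

theorem exists_glQ_smul (s : P1) : ∃ g : SL(2, ℤ), glQ g • cinf = s := by
  obtain ⟨g, hg⟩ := OnePoint.exists_mem_SL2 ℤ s
  refine ⟨g, ?_⟩
  have : glQ g = Matrix.SpecialLinearGroup.mapGL ℚ g := by
    ext i j
    rw [Matrix.SpecialLinearGroup.mapGL_coe_matrix]
    simp
  rw [this]; exact hg

theorem glQ_T_zpow_smul (n : ℤ) : glQ (T ^ n) • cinf = cinf := by
  rw [smul_infty_eq_self_iff, glQ_apply]
  simp [coe_T_zpow]

theorem eq_T_zpow_of_smul {g : SL(2, ℤ)} (h : glQ g • cinf = cinf) :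
    ∃ n : ℤ, g = T ^ n ∨ g = -T ^ n := by
  rw [smul_infty_eq_self_iff, glQ_apply] at h
  have hc : g.1 1 0 = 0 := by exact_mod_cast h
  have hd : g.1 0 0 * g.1 1 1 = 1 := by
    have := g.2
    rw [Matrix.det_fin_two, hc] at this
    simpa using this
  rcases Int.eq_one_or_neg_one_of_mul_eq_one' hd with ⟨ha, hdd⟩ | ⟨ha, hdd⟩
  · refine ⟨g.1 0 1, Or.inl (Subtype.ext ?_)⟩
    rw [coe_T_zpow]
    ext i j
    fin_cases i <;> fin_cases j <;> simp [ha, hdd, hc]
  · refine ⟨-g.1 0 1, Or.inr (Subtype.ext ?_)⟩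
    rw [Matrix.SpecialLinearGroup.coe_neg, coe_T_zpow]
    ext i j
    fin_cases i <;> fin_cases j <;> simp [ha, hdd, hc]

theorem glQ_Ug_inf : glQ Ug • cinf = ((1 : ℚ) : P1) := by
  rw [smul_infty_eq_ite, glQ_apply, glQ_apply, coe_Ug]; simp

theorem glQ_Ug_zero : glQ Ug • czero = cinf := by
  rw [smul_some_eq_ite, glQ_apply, glQ_apply, coe_Ug]; simp

theorem glQ_Ug_one : glQ Ug • ((1 : ℚ) : P1) = czero := by
  rw [smul_some_eq_ite]
  simp only [glQ_apply, coe_Ug]; simp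

theorem glQ_S_inf : glQ S • cinf = czero := by
  rw [smul_infty_eq_ite, glQ_apply, glQ_apply, coe_S]; simp

theorem glQ_S_zero : glQ S • czero = cinf := by
  rw [smul_some_eq_ite, glQ_apply, glQ_apply, coe_S]; simp

theorem T_eq : T = Ug * S⁻¹ := by rw [Ug]; group

end FA.HeckeH1

end
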