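import Fermat.Agent.HeckeH1.Perfect

/-!
Cusp orbits, widths, and decomposition of sums over cosets along cusps.
-/

set_option autoImplicit false

noncomputable section

namespace FA.HeckeH1

open ModularGroup
open scoped MatrixGroups

variable (Γ : Subgroup SL(2, ℤ))

/-- The orbit relation on cusps. -/
def cuspSetoid : Setoid P1 where
  r s t := ∃ γ ∈ Γ, t = glQ γ • s
  iseqv := ⟨fun s => ⟨1, one_mem _, by simp⟩,
    fun {s t} ⟨γ, hγ, h⟩ => ⟨γ⁻¹, inv_mem hγ, by rw [h, map_inv, inv_smul_smul]⟩,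
    fun {s t u} ⟨γ, hγ, h⟩ ⟨δ, hδ, h'⟩ => ⟨δ * γ, mul_mem hδ hγ, by rw [h', h, map_mul, mul_smul]⟩⟩

/-- The set of cusp orbits. -/
abbrev CuspOrb : Type := Quotient (cuspSetoid Γ)

variable [Γ.FiniteIndex]

instance cuspOrbFinite : Finite (CuspOrb Γ) := by
  refine Finite.of_surjective
    (fun x : SL(2, ℤ) ⧸ Γ => Quotient.mk (cuspSetoid Γ) (glQ x.out⁻¹ • cinf)) ?_
  intro o
  obtain ⟨g, hg⟩ := exists_glQ_smul o.out
  refine ⟨QuotientGroup.mk g⁻¹, ?_⟩
  obtain ⟨⟨h, hh⟩, e⟩ := QuotientGroup.mk_out_eq_mul Γ g⁻¹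
  conv_rhs => rw [← o.out_eq]
  refine Quotient.sound ⟨h, hh, ?_⟩
  rw [← hg, e, _root_.mul_inv_rev, inv_inv, map_mul, mul_smul, map_inv, smul_inv_smul]

instance cuspOrbFintype : Fintype (CuspOrb Γ) := Fintype.ofFinite _

theorem exists_width (g : SL(2, ℤ)) : ∃ k : ℕ, 0 < k ∧ g * T ^ k * g⁻¹ ∈ Γ := by
  obtain ⟨n, hn0, -, hn⟩ := Subgroup.exists_pow_mem_of_index_ne_zero (H := Γ)
    Subgroup.FiniteIndex.index_ne_zero (g * T * g⁻¹)
  exact ⟨n, hn0, by rwa [conj_pow] at hn⟩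

open Classical in
/-- The width of the cusp `g ∞`. -/
def width (g : SL(2, ℤ)) : ℕ := Nat.find (exists_width Γ g)

theorem width_pos (g : SL(2, ℤ)) : 0 < width Γ g := by
  classical
  exact (Nat.find_spec (exists_width Γ g)).1

theorem width_mem (g : SL(2, ℤ)) : g * T ^ width Γ g * g⁻¹ ∈ Γ := by
  classical
  exact (Nat.find_spec (exists_width Γ g)).2

theorem width_dvd {g : SL(2, ℤ)} {k : ℤ} (hk : g * T ^ k * g⁻¹ ∈ Γ) : (width Γ g : ℤ) ∣ k := by
  classical
  set w := width Γ g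
  have hw : (0 : ℤ) < w := by exact_mod_cast width_pos Γ g
  have hr0 : 0 ≤ k % w := Int.emod_nonneg _ hw.ne'
  have hmem : g * T ^ (k % (w : ℤ)) * g⁻¹ ∈ Γ := by
    have e : g * T ^ (k % (w : ℤ)) * g⁻¹ =
        (g * T ^ k * g⁻¹) * ((g * T ^ (w : ℕ) * g⁻¹) ^ (k / (w : ℤ)))⁻¹ := by
      have h : k % (w : ℤ) = k + -((w : ℤ) * (k / w)) := by rw [Int.emod_def]; ring
      rw [h, conj_zpow, ← zpow_natCast T w, ← zpow_mul, zpow_add, zpow_neg]
      group
    rw [e]
    exact mul_mem hk (inv_mem (zpow_mem (width_mem Γ g) _))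
  apply Int.dvd_of_emod_eq_zero
  by_contra h
  have hlt : (k % (w : ℤ)).toNat < w := by
    have := Int.emod_lt_of_pos k hw
    omega
  refine Nat.find_min (exists_width Γ g) hlt ⟨by omega, ?_⟩
  rwa [← zpow_natCast, Int.toNat_of_nonneg hr0]

theorem conj_T_eq (g : SL(2, ℤ)) (n k : ℤ) :
    g * T ^ n * T ^ k * (g * T ^ n)⁻¹ = g * T ^ k * g⁻¹ := by group

theorem neg_conj_T_eq (g : SL(2, ℤ)) (n k : ℤ) :
    -(g * T ^ n) * T ^ k * (-(g * T ^ n))⁻¹ = g * T ^ k * g⁻¹ := by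
  have h : (-(g * T ^ n))⁻¹ = -((g * T ^ n)⁻¹) := inv_eq_of_mul_eq_one_left (by simp)
  rw [h, neg_mul, neg_mul_neg, conj_T_eq]

/-- The positive generator of the stabiliser of `g ∞`. -/
def parGen (g : SL(2, ℤ)) : SL(2, ℤ) := g * T ^ width Γ g * g⁻¹

theorem parGen_eq {g g' : SL(2, ℤ)} (h : glQ g' • cinf = glQ g • cinf) :
    parGen Γ g' = parGen Γ g := by
  classical
  have h1 : glQ (g⁻¹ * g') • cinf = cinf := by
    rw [map_mul, map_inv, mul_smul, h, inv_smul_smul]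
  obtain ⟨n, hn⟩ := eq_T_zpow_of_smul h1
  have key : ∀ k : ℕ, g' * T ^ k * g'⁻¹ = g * T ^ k * g⁻¹ := by
    intro k
    rcases hn with hn | hn
    · rw [show g' = g * T ^ n by rw [← hn]; group, ← zpow_natCast, conj_T_eq]
    · rw [show g' = -(g * T ^ n) by rw [← mul_neg, ← hn]; group, ← zpow_natCast, neg_conj_T_eq]
  have hw : width Γ g' = width Γ g :=
    le_antisymm (Nat.find_min' _ ⟨width_pos Γ g, by rw [key]; exact width_mem Γ g⟩)
      (Nat.find_min' _ ⟨width_pos Γ g', by rw [← key]; exact width_mem Γ g'⟩)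
  rw [parGen, parGen, key, hw]

/-- A representative `g` with `g ∞` in the orbit `o`. -/
def orbRep (o : CuspOrb Γ) : SL(2, ℤ) := (exists_glQ_smul o.out).choose

omit [Γ.FiniteIndex] in
theorem orbRep_spec (o : CuspOrb Γ) : glQ (orbRep Γ o) • cinf = o.out :=
  (exists_glQ_smul o.out).choose_spec

variable {Γ} {A : Type*} [AddCommGroup A]

/-- Sums over cosets, cusp by cusp. -/
theorem qsum_eq_sum_orb (hΓ : -1 ∈ Γ) {F : SL(2, ℤ) → A} (hF : LInv Γ F) :
    qsum Γ F = ∑ o : CuspOrb Γ, ∑ i ∈ Finset.range (width Γ (orbRep Γ o)),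
      F (orbRep Γ o * T ^ i) := by
  classical
  unfold qsum
  let := Γ.fintypeQuotientOfFiniteIndex
  let π : SL(2, ℤ) ⧸ Γ → CuspOrb Γ := fun x => Quotient.mk _ (glQ x.out⁻¹ • cinf)
  rw [← Finset.sum_fiberwise Finset.univ π (fun x => F x.out⁻¹)]
  refine Finset.sum_congr rfl fun o _ => ?_
  set g := orbRep Γ o
  refine (Finset.sum_bij (fun i _ => (QuotientGroup.mk (g * T ^ i)⁻¹ : SL(2, ℤ) ⧸ Γ))
    ?_ ?_ ?_ ?_).symm
  · intro i _
    rw [Finset.mem_filter]
    refine ⟨Finset.mem_univ _, ?_⟩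
    obtain ⟨⟨h, hh⟩, e⟩ := QuotientGroup.mk_out_eq_mul Γ (g * T ^ i)⁻¹
    conv_rhs => rw [← o.out_eq]
    refine Quotient.sound ⟨h, hh, ?_⟩
    rw [e, _root_.mul_inv_rev, inv_inv, map_mul, mul_smul, map_inv, smul_inv_smul, map_mul,
      mul_smul, ← zpow_natCast, glQ_T_zpow_smul, orbRep_spec]
  · intro i hi j hj hij
    rw [Finset.mem_range] at hi hj
    rw [QuotientGroup.eq, inv_inv] at hij
    have h1 : g * T ^ ((i : ℤ) - j) * g⁻¹ ∈ Γ := by
      rw [zpow_sub, zpow_natCast, zpow_natCast]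
      convert hij using 1
      group
    have := width_dvd Γ h1
    have h2 : (i : ℤ) - j = 0 := Int.eq_zero_of_abs_lt_dvd this (by rw [abs_lt]; omega)
    omega
  · intro x hx
    rw [Finset.mem_filter] at hx
    have hx' := hx.2
    conv_rhs at hx' => rw [← o.out_eq]
    obtain ⟨γ, hγ, he⟩ := Quotient.exact hx'
    rw [← orbRep_spec] at he
    have h1 : glQ (g⁻¹ * (γ * x.out⁻¹)) • cinf = cinf := by
      rw [map_mul, map_inv, mul_smul, map_mul, mul_smul, ← he, inv_smul_smul]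
    obtain ⟨n, hn⟩ := eq_T_zpow_of_smul h1
    set w := width Γ g
    have hw : (0 : ℤ) < w := by exact_mod_cast width_pos Γ g
    refine ⟨(n % (w : ℤ)).toNat, Finset.mem_range.2 ?_, ?_⟩
    · have := Int.emod_lt_of_pos n hw
      have := Int.emod_nonneg n hw.ne'
      omega
    · conv_rhs => rw [← QuotientGroup.out_eq' x]
      rw [QuotientGroup.eq, inv_inv, ← zpow_natCast, Int.toNat_of_nonneg (Int.emod_nonneg n hw.ne')]
      have hp : g * T ^ ((w : ℤ) * (n / w)) * g⁻¹ ∈ Γ := by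
        rw [zpow_mul, zpow_natCast, ← conj_zpow]
        exact zpow_mem (width_mem Γ g) _
      have e : n = (w : ℤ) * (n / w) + n % w := (Int.mul_ediv_add_emod n w).symm
      have hTn : T ^ n = T ^ ((w : ℤ) * (n / w)) * T ^ (n % (w : ℤ)) := by rw [← zpow_add, ← e]
      generalize T ^ ((w : ℤ) * (n / w)) = a at hp hTn ⊢
      generalize T ^ (n % (w : ℤ)) = b at hTn ⊢
      rcases hn with hn | hn
      · have e2 : g * b * x.out = (g * a * g⁻¹)⁻¹ * γ := by
          have : γ = g * T ^ n * x.out := by rw [← hn]; group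
          rw [this, hTn]
          group
        rw [e2]
        exact mul_mem (inv_mem hp) hγ
      · have e2 : g * b * x.out = (g * a * g⁻¹)⁻¹ * (-γ) := by
          have : -γ = g * T ^ n * x.out := by
            rw [← neg_neg (T ^ n), ← hn, mul_neg, neg_mul]; congr 1; group
          rw [this, hTn]
          group
        rw [e2]
        exact mul_mem (inv_mem hp) (by rw [← neg_one_mul]; exact mul_mem hΓ hγ)
  · intro i _
    rw [hF.eval_out, inv_inv]

end FA.HeckeH1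

end
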