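import Fermat.Agent.HeckeH1.Corr

/-!
The levels `Γ_H(M)`, integral matrices of given determinant at such a level, representatives of
left classes in prime determinant, Hecke correspondences.
-/

set_option autoImplicit false

noncomputable section

namespace FA.HeckeH1

open Matrix CongruenceSubgroup
open scoped MatrixGroups

/-- Integral `2 × 2` matrices. -/
abbrev MatZ := Matrix (Fin 2) (Fin 2) ℤ

open Classical in
/-- An integral matrix as an element of `GL(2, ℚ)` (`1` if singular). -/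
def gl (X : MatZ) : GL (Fin 2) ℚ :=
  if h : (X.map (Int.cast : ℤ → ℚ)).det = 0 then 1 else Matrix.GeneralLinearGroup.mkOfDetNeZero _ h

theorem det_map_cast (X : MatZ) : (X.map (Int.cast : ℤ → ℚ)).det = (X.det : ℚ) :=
  ((Int.castRingHom ℚ).map_det X).symm

theorem coe_gl {X : MatZ} (h : X.det ≠ 0) : (gl X).1 = X.map (Int.cast : ℤ → ℚ) := by
  have : (X.map (Int.cast : ℤ → ℚ)).det ≠ 0 := by rw [det_map_cast]; exact_mod_cast h
  rw [gl, dif_neg this]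
  rfl

theorem gl_mul {X Y : MatZ} (hX : X.det ≠ 0) (hY : Y.det ≠ 0) : gl (X * Y) = gl X * gl Y := by
  apply Units.ext
  rw [Units.val_mul, coe_gl hX, coe_gl hY, coe_gl (by rw [det_mul]; exact mul_ne_zero hX hY)]
  exact Matrix.map_mul (f := Int.castRingHom ℚ)

theorem gl_coe (g : SL(2, ℤ)) : gl g.1 = glQ g := by
  apply Units.ext
  rw [coe_gl (by rw [g.2]; exact one_ne_zero)]
  rfl

theorem gl_inj {X Y : MatZ} (hX : X.det ≠ 0) (hY : Y.det ≠ 0) (h : gl X = gl Y) : X = Y := by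
  have h1 : X.map (Int.cast : ℤ → ℚ) = Y.map (Int.cast : ℤ → ℚ) := by
    rw [← coe_gl hX, ← coe_gl hY, h]
  ext i j
  have := congrFun (congrFun h1 i) j
  simpa using this

attribute [irreducible] gl

theorem det_gl_pos {X : MatZ} (hX : 0 < X.det) : 0 < (gl X).1.det := by
  rw [coe_gl hX.ne', det_map_cast]
  exact_mod_cast hX

section Dl

variable {M : ℕ} {H : Subgroup (ZMod M)ˣ}

/-- Integral matrices of determinant `n` with lower left entry divisible by `M` and upper left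
entry in `H`. -/
def Dl (M : ℕ) (H : Subgroup (ZMod M)ˣ) (n : ℤ) : Set MatZ :=
  {X | X.det = n ∧ (M : ℤ) ∣ X 1 0 ∧ ∃ u ∈ H, (u : ZMod M) = (X 0 0 : ZMod M)}

theorem Dl.mul {n m : ℤ} {X Y : MatZ} (hX : X ∈ Dl M H n) (hY : Y ∈ Dl M H m) :
    X * Y ∈ Dl M H (n * m) := by
  obtain ⟨hXd, hXc, u, hu, huX⟩ := hX
  obtain ⟨hYd, hYc, v, hv', hvY⟩ := hY
  refine ⟨by rw [det_mul, hXd, hYd], ?_, u * v, mul_mem hu hv', ?_⟩
  · rw [Matrix.mul_apply, Fin.sum_univ_two]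
    exact dvd_add (hXc.mul_right _) (hYc.mul_left _)
  · rw [Units.val_mul, huX, hvY, Matrix.mul_apply, Fin.sum_univ_two, Int.cast_add, Int.cast_mul,
      Int.cast_mul, (ZMod.intCast_zmod_eq_zero_iff_dvd _ _).2 hYc, mul_zero, add_zero]

theorem one_mem_Dl : (1 : MatZ) ∈ Dl M H 1 :=
  ⟨det_one, by simp, 1, one_mem H, by simp⟩

/-- The level `Γ_H(M)`. -/
def GamH (M : ℕ) (H : Subgroup (ZMod M)ˣ) : Subgroup SL(2, ℤ) where
  carrier := {g | g.1 ∈ Dl M H 1}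
  one_mem' := by
    show ((1 : SL(2, ℤ)) : MatZ) ∈ Dl M H 1
    rw [Matrix.SpecialLinearGroup.coe_one]; exact one_mem_Dl
  mul_mem' {a b} ha hb := by
    show ((a * b : SL(2, ℤ)) : MatZ) ∈ Dl M H 1
    rw [Matrix.SpecialLinearGroup.coe_mul]
    have := Dl.mul ha hb
    rwa [one_mul] at this
  inv_mem' {a} ha := by
    obtain ⟨-, hc, u, hu, hua⟩ := ha
    show ((a⁻¹ : SL(2, ℤ)) : MatZ) ∈ Dl M H 1
    rw [Matrix.SpecialLinearGroup.coe_inv, adjugate_fin_two]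
    refine ⟨?_, by simpa using hc, u⁻¹, inv_mem hu, ?_⟩
    · rw [← adjugate_fin_two, det_adjugate, a.2]; simp
    · have h1 : (a.1 0 0 : ZMod M) * (a.1 1 1 : ZMod M) = 1 := by
        have := congrArg (fun x : ℤ => (x : ZMod M)) a.2
        simp only [det_fin_two, Int.cast_sub, Int.cast_mul, Int.cast_one] at this
        rwa [(ZMod.intCast_zmod_eq_zero_iff_dvd _ _).2 hc, mul_zero, sub_zero] at this
      simp only [Matrix.of_apply, Matrix.cons_val_zero, Matrix.cons_val_fin_one]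
      rw [← hua] at h1
      exact Units.mul_eq_one_iff_inv_eq.1 h1

theorem mem_GamH {g : SL(2, ℤ)} : g ∈ GamH M H ↔ g.1 ∈ Dl M H 1 := Iff.rfl

theorem GamH_le_Gamma0 : GamH M H ≤ Gamma0 M := fun g hg =>
  Gamma0_mem.2 ((ZMod.intCast_zmod_eq_zero_iff_dvd _ _).2 hg.2.1)

theorem Gamma_le_GamH : Gamma M ≤ GamH M H := fun g hg => by
  rw [Gamma_mem] at hg
  exact ⟨g.2, (ZMod.intCast_zmod_eq_zero_iff_dvd _ _).1 hg.2.2.1, 1, one_mem H,
    by rw [Units.val_one]; exact hg.1.symm⟩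

theorem GamH_top : GamH M ⊤ = Gamma0 M := by
  refine le_antisymm GamH_le_Gamma0 fun g hg => ?_
  have hc := (ZMod.intCast_zmod_eq_zero_iff_dvd _ _).1 (Gamma0_mem.1 hg)
  have h1 : (g.1 0 0 : ZMod M) * (g.1 1 1 : ZMod M) = 1 := by
    have := congrArg (fun x : ℤ => (x : ZMod M)) g.2
    simp only [det_fin_two, Int.cast_sub, Int.cast_mul, Int.cast_one] at this
    rwa [Gamma0_mem.1 hg, mul_zero, sub_zero] at this
  exact ⟨g.2, hc, Units.mkOfMulEqOne _ _ h1, Subgroup.mem_top _, rfl⟩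

theorem neg_one_mem_GamH (h : (-1 : (ZMod M)ˣ) ∈ H) : -1 ∈ GamH M H :=
  ⟨(-1 : SL(2, ℤ)).2, by simp, -1, h, by simp⟩

theorem T_mem_GamH : ModularGroup.T ∈ GamH M H :=
  ⟨ModularGroup.T.2, by simp [ModularGroup.coe_T], 1, one_mem H, by simp [ModularGroup.coe_T]⟩

instance GamH.finiteIndex [NeZero M] : (GamH M H).FiniteIndex :=
  Subgroup.finiteIndex_of_le Gamma_le_GamH

theorem Dl.toGamH {X : MatZ} (hX : X ∈ Dl M H 1) : ∃ g ∈ GamH M H, (g : SL(2, ℤ)).1 = X :=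
  ⟨⟨X, hX.1⟩, hX, rfl⟩

theorem Dl.det_ne {n : ℤ} (hn : n ≠ 0) {X : MatZ} (hX : X ∈ Dl M H n) : X.det ≠ 0 := by
  rw [hX.1]; exact hn

end Dl

section reps

variable (M ℓ : ℕ)

/-- Indices of the left classes in determinant `ℓ`. -/
abbrev RIdx : Type := {x : Option (Fin ℓ) // x = none → ¬ ℓ ∣ M}

/-- A matrix of `Γ₁(M)` whose upper left entry is divisible by `ℓ`. -/
def sGam : MatZ := !![Nat.gcdA ℓ M * ℓ, -Nat.gcdB ℓ M; (M : ℤ), 1]

/-- Representatives. -/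
def rep : RIdx M ℓ → MatZ
  | ⟨some j, _⟩ => !![1, (j : ℤ); 0, (ℓ : ℤ)]
  | ⟨none, _⟩ => !![Nat.gcdA ℓ M * ℓ, -Nat.gcdB ℓ M; (M : ℤ) * ℓ, (ℓ : ℤ)]

variable {M ℓ}

theorem bezout_eq (hℓ : ℓ.Prime) (h : ¬ ℓ ∣ M) :
    (ℓ : ℤ) * Nat.gcdA ℓ M + (M : ℤ) * Nat.gcdB ℓ M = 1 := by
  have := Nat.gcd_eq_gcd_ab ℓ M
  rw [(hℓ.coprime_iff_not_dvd.2 h).gcd_eq_one] at this
  push_cast at this
  linarith

theorem rep_det (hℓ : ℓ.Prime) (i : RIdx M ℓ) : (rep M ℓ i).det = ℓ := by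
  obtain ⟨_ | j, hi⟩ := i
  · simp only [rep, det_fin_two_of]
    linear_combination (ℓ : ℤ) * bezout_eq hℓ (hi rfl)
  · simp [rep, det_fin_two_of]

theorem sGam_mem (hℓ : ℓ.Prime) (h : ¬ ℓ ∣ M) (H : Subgroup (ZMod M)ˣ) : sGam M ℓ ∈ Dl M H 1 := by
  refine ⟨?_, by simp [sGam], 1, one_mem H, ?_⟩
  · simp only [sGam, det_fin_two_of]
    linear_combination bezout_eq hℓ h
  · have := congrArg (fun x : ℤ => (x : ZMod M)) (bezout_eq hℓ h)
    simp only [Int.cast_add, Int.cast_mul, Int.cast_natCast, ZMod.natCast_self, zero_mul, add_zero,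
      Int.cast_one] at this
    simp [sGam, ← this, mul_comm]

theorem rep_mem (hℓ : ℓ.Prime) (H : Subgroup (ZMod M)ˣ) (i : RIdx M ℓ) :
    rep M ℓ i ∈ Dl M H ℓ := by
  refine ⟨rep_det hℓ i, ?_, 1, one_mem H, ?_⟩
  · obtain ⟨_ | j, hi⟩ := i <;> simp [rep]
  · obtain ⟨_ | j, hi⟩ := i
    · have := congrArg (fun x : ℤ => (x : ZMod M)) (bezout_eq hℓ (hi rfl))
      simp only [Int.cast_add, Int.cast_mul, Int.cast_natCast, ZMod.natCast_self, zero_mul,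
        add_zero, Int.cast_one] at this
      simp [rep, ← this, mul_comm]
    · simp [rep]

/-- Type of a class: first column modulo `ℓ`. -/
theorem col_of_none {Y : MatZ} {hi : (none : Option (Fin ℓ)) = none → ¬ ℓ ∣ M} (r : Fin 2) :
    (ℓ : ℤ) ∣ (Y * rep M ℓ ⟨none, hi⟩) r 0 := by
  simp only [rep, Matrix.mul_apply, Fin.sum_univ_two, Matrix.of_apply, Matrix.cons_val_zero,
    Matrix.cons_val_one, Matrix.cons_val_fin_one]
  exact dvd_add ((dvd_mul_left _ _).mul_left _) ((dvd_mul_left _ _).mul_left _)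

theorem exists_col_of_some {Y : MatZ} (hY : ¬ (ℓ : ℤ) ∣ Y.det) :
    ∃ r : Fin 2, ¬ (ℓ : ℤ) ∣ Y r 0 := by
  by_contra h
  simp only [not_exists, not_not] at h
  exact hY (by rw [det_fin_two]; exact dvd_sub ((h 0).mul_right _) ((h 1).mul_left _))

theorem mul_rep_some (Y : MatZ) (j : Fin ℓ) (hj : (some j : Option (Fin ℓ)) = none → ¬ ℓ ∣ M)
    (r : Fin 2) :
    (Y * rep M ℓ ⟨some j, hj⟩) r 0 = Y r 0 ∧
      (Y * rep M ℓ ⟨some j, hj⟩) r 1 = (j : ℤ) * Y r 0 + (ℓ : ℤ) * Y r 1 := by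
  constructor <;> simp [rep, Matrix.mul_apply, Fin.sum_univ_two, mul_comm]

/-- Classes with different indices are different. -/
theorem rep_inj (hℓ : ℓ.Prime) {Y Y' : MatZ} {i k : RIdx M ℓ}
    (h : Y * rep M ℓ i = Y' * rep M ℓ k) (hY : ¬ (ℓ : ℤ) ∣ Y.det) (hY' : ¬ (ℓ : ℤ) ∣ Y'.det) :
    i = k := by
  obtain ⟨_ | a, hi⟩ := i <;> obtain ⟨_ | b, hk⟩ := k
  · rfl
  · obtain ⟨r, hr⟩ := exists_col_of_some hY'
    exact absurd (by rw [← (mul_rep_some Y' b hk r).1, ← h]; exact col_of_none r) hr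
  · obtain ⟨r, hr⟩ := exists_col_of_some hY
    exact absurd (by rw [← (mul_rep_some Y a hi r).1, h]; exact col_of_none r) hr
  · obtain ⟨r, hr⟩ := exists_col_of_some hY
    have e0 : Y r 0 = Y' r 0 := by
      rw [← (mul_rep_some Y a hi r).1, h, (mul_rep_some Y' b hk r).1]
    have e1 : (Y * rep M ℓ ⟨some a, hi⟩) r 1 = (Y' * rep M ℓ ⟨some b, hk⟩) r 1 := by rw [h]
    rw [(mul_rep_some Y a hi r).2, (mul_rep_some Y' b hk r).2, ← e0] at e1
    have h2 : (ℓ : ℤ) ∣ ((a : ℤ) - b) * Y r 0 := ⟨Y' r 1 - Y r 1, by linear_combination e1⟩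
    have h3 := ((Nat.prime_iff_prime_int.1 hℓ).dvd_mul.1 h2).resolve_right hr
    have h4 : (a : ℤ) - b = 0 := Int.eq_zero_of_abs_lt_dvd h3 (by
      rw [abs_lt]; have := a.isLt; have := b.isLt; constructor <;> omega)
    exact Subtype.ext (congrArg some (Fin.ext (by omega)))

/-- Every matrix of determinant `n * ℓ` factors through a representative. -/
theorem exists_factor (hℓ : ℓ.Prime) {H : Subgroup (ZMod M)ˣ} {n : ℤ} {X : MatZ}
    (hX : X ∈ Dl M H (n * ℓ)) : ∃ (i : RIdx M ℓ), ∃ Y ∈ Dl M H n, X = Y * rep M ℓ i := by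
  obtain ⟨hdet, hc, u, hu, hua⟩ := hX
  have hl0 : (ℓ : ℤ) ≠ 0 := by exact_mod_cast hℓ.ne_zero
  by_cases hcol : (ℓ : ℤ) ∣ X 0 0 ∧ (ℓ : ℤ) ∣ X 1 0
  · have hM : ¬ ℓ ∣ M := by
      intro hd
      have h1 : ((X 0 0 : ZMod ℓ)) = 0 := (ZMod.intCast_zmod_eq_zero_iff_dvd _ _).2 hcol.1
      have h2 := congrArg (ZMod.castHom hd (ZMod ℓ)) hua
      rw [map_intCast, h1] at h2
      have h3 : IsUnit (ZMod.castHom hd (ZMod ℓ) (u : ZMod M)) := u.isUnit.map _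
      rw [h2] at h3
      have := Fact.mk hℓ
      exact h3.ne_zero rfl
    obtain ⟨a, ha⟩ := hcol.1
    obtain ⟨c, hc'⟩ := hcol.2
    have hb := bezout_eq hℓ hM
    refine ⟨⟨none, fun _ => hM⟩, !![a * ℓ - X 0 1 * M, a * Nat.gcdB ℓ M + X 0 1 * Nat.gcdA ℓ M;
      c * ℓ - X 1 1 * M, c * Nat.gcdB ℓ M + X 1 1 * Nat.gcdA ℓ M], ⟨?_, ?_, u, hu, ?_⟩, ?_⟩
    · apply mul_right_cancel₀ hl0
      rw [← hdet, det_fin_two_of, det_fin_two, ha, hc']
      linear_combination ((ℓ : ℤ) * (a * X 1 1 - X 0 1 * c)) * hb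
    · simp only [Matrix.of_apply, Matrix.cons_val_zero, Matrix.cons_val_one, Matrix.cons_val_fin_one]
      refine dvd_sub ?_ (dvd_mul_left _ _)
      rw [mul_comm, ← hc']; exact hc
    · simp [hua, ha, mul_comm]
    · ext r s
      fin_cases r <;> fin_cases s <;>
        simp [rep, Matrix.mul_apply, Fin.sum_univ_two, ha, hc'] <;>
        first
          | linear_combination (-(ℓ : ℤ) * a) * hb
          | linear_combination (-(X 0 1)) * hb
          | linear_combination (-(ℓ : ℤ) * c) * hb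
          | linear_combination (-(X 1 1)) * hb
  · have := Fact.mk hℓ
    have hd0 : (X 0 0 : ZMod ℓ) * (X 1 1 : ZMod ℓ) = (X 0 1 : ZMod ℓ) * (X 1 0 : ZMod ℓ) := by
      rw [← sub_eq_zero, ← Int.cast_mul, ← Int.cast_mul, ← Int.cast_sub, ← det_fin_two, hdet,
        Int.cast_mul, Int.cast_natCast, ZMod.natCast_self, mul_zero]
    obtain ⟨j, h01, h11⟩ : ∃ j : ZMod ℓ, (X 0 1 : ZMod ℓ) = j * (X 0 0 : ZMod ℓ) ∧
        (X 1 1 : ZMod ℓ) = j * (X 1 0 : ZMod ℓ) := by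
      by_cases ha : (X 0 0 : ZMod ℓ) = 0
      · have hc0 : (X 1 0 : ZMod ℓ) ≠ 0 := fun h => hcol
          ⟨(ZMod.intCast_zmod_eq_zero_iff_dvd _ _).1 ha, (ZMod.intCast_zmod_eq_zero_iff_dvd _ _).1 h⟩
        rw [ha, zero_mul, eq_comm, mul_eq_zero, or_iff_left hc0] at hd0
        exact ⟨(X 1 1 : ZMod ℓ) / (X 1 0 : ZMod ℓ), by rw [ha, hd0, mul_zero],
          (div_mul_cancel₀ _ hc0).symm⟩
      · refine ⟨(X 0 1 : ZMod ℓ) / (X 0 0 : ZMod ℓ), (div_mul_cancel₀ _ ha).symm, ?_⟩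
        rw [div_mul_eq_mul_div, eq_div_iff ha, mul_comm, hd0]
    obtain ⟨b, hb⟩ : (ℓ : ℤ) ∣ X 0 1 - (j.val : ℤ) * X 0 0 := by
      rw [← ZMod.intCast_zmod_eq_zero_iff_dvd]; simp [h01]
    obtain ⟨d, hd⟩ : (ℓ : ℤ) ∣ X 1 1 - (j.val : ℤ) * X 1 0 := by
      rw [← ZMod.intCast_zmod_eq_zero_iff_dvd]; simp [h11]
    refine ⟨⟨some ⟨j.val, j.val_lt⟩, by simp⟩, !![X 0 0, b; X 1 0, d], ⟨?_, ?_, u, hu, ?_⟩, ?_⟩
    · apply mul_right_cancel₀ hl0
      rw [← hdet, det_fin_two_of, det_fin_two]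
      linear_combination X 1 0 * hb - X 0 0 * hd
    · simpa using hc
    · simpa using hua
    · ext r s
      fin_cases r <;> fin_cases s <;>
        simp [rep, Matrix.mul_apply, Fin.sum_univ_two, -ZMod.natCast_val] <;>
        first
          | linear_combination hb
          | linear_combination hd

end reps

section Tc

variable {M : ℕ} {H : Subgroup (ZMod M)ˣ} {ℓ : ℕ}

theorem not_dvd_det_one (hℓ : ℓ.Prime) {Y : MatZ} (hY : Y.det = 1) : ¬ (ℓ : ℤ) ∣ Y.det := by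
  rw [hY]
  exact_mod_cast hℓ.not_dvd_one

/-- Equal classes have equal indices. -/
theorem rep_class_inj (hℓ : ℓ.Prime) {i k : RIdx M ℓ} {g : SL(2, ℤ)}
    (h : gl (rep M ℓ i) = glQ g * gl (rep M ℓ k)) : i = k := by
  have hd : ∀ i, (rep M ℓ i).det ≠ 0 := fun i => by
    rw [rep_det hℓ]; exact_mod_cast hℓ.ne_zero
  rw [← gl_coe, ← gl_mul (by rw [g.2]; exact one_ne_zero) (hd k)] at h
  have h1 := gl_inj (hd i) (by rw [det_mul, g.2, one_mul]; exact hd k) h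
  rw [← Matrix.one_mul (rep M ℓ i)] at h1
  exact rep_inj hℓ h1 (not_dvd_det_one hℓ det_one) (not_dvd_det_one hℓ g.2)

/-- Classification of determinant `ℓ`. -/
theorem exists_class (hℓ : ℓ.Prime) {X : MatZ} (hX : X ∈ Dl M H ℓ) :
    ∃ i : RIdx M ℓ, ∃ h : GamH M H, gl X = glQ h * gl (rep M ℓ i) := by
  obtain ⟨i, Y, hY, rfl⟩ := exists_factor hℓ (n := 1) (H := H) (X := X) (by rwa [one_mul])
  obtain ⟨g, hg, rfl⟩ := Dl.toGamH hY
  refine ⟨i, ⟨g, hg⟩, ?_⟩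
  rw [gl_mul (by rw [g.2]; exact one_ne_zero) (by rw [rep_det hℓ]; exact_mod_cast hℓ.ne_zero),
    gl_coe]

/-- The Hecke correspondence of the prime `ℓ` (`T ℓ` or `U ℓ`). -/
def Tc (M : ℕ) (H : Subgroup (ZMod M)ˣ) (ℓ : ℕ) [Fact ℓ.Prime] :
    Corr (GamH M H) (GamH M H) where
  ι := RIdx M ℓ
  α i := gl (rep M ℓ i)
  exists_perm γ := by
    have hℓ : ℓ.Prime := Fact.out
    have h1 : ∀ i, ∃ k : RIdx M ℓ, ∃ h : GamH M H,
        gl (rep M ℓ i) * glQ γ = glQ h * gl (rep M ℓ k) := fun i => by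
      have hm : rep M ℓ i * (γ : SL(2, ℤ)).1 ∈ Dl M H ℓ := by
        have := Dl.mul (rep_mem hℓ H i) (mem_GamH.1 γ.2)
        rwa [mul_one] at this
      obtain ⟨k, h, e⟩ := exists_class hℓ hm
      refine ⟨k, h, ?_⟩
      rw [← e, gl_mul (Dl.det_ne (by exact_mod_cast hℓ.ne_zero) (rep_mem hℓ H i))
        (by rw [(γ : SL(2, ℤ)).2]; exact one_ne_zero), gl_coe]
    choose k h e using h1
    have hk : Function.Injective k := fun i i' hii => by
      apply rep_class_inj hℓ (g := ((h i * (h i')⁻¹ : GamH M H) : SL(2, ℤ)))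
      have e1 := e i
      rw [hii] at e1
      apply mul_right_cancel (b := glQ (γ : SL(2, ℤ)))
      rw [mul_assoc, e i', e1, Subgroup.coe_mul, map_mul, Subgroup.coe_inv, map_inv]
      group
    exact ⟨Equiv.ofBijective k (Finite.injective_iff_bijective.1 hk), fun i => ⟨h i, e i⟩⟩

variable {Γ : Subgroup SL(2, ℤ)}

/-- Hecke correspondences of different primes commute. -/
theorem Tc_comp_same (M : ℕ) (H : Subgroup (ZMod M)ˣ) {ℓ r : ℕ} [Fact ℓ.Prime] [Fact r.Prime]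
    (hne : ℓ ≠ r) : ((Tc M H ℓ).comp (Tc M H r)).Same ((Tc M H r).comp (Tc M H ℓ)) := by
  have hℓ : ℓ.Prime := Fact.out
  have hr : r.Prime := Fact.out
  have hl0 : ∀ i, (rep M ℓ i).det ≠ 0 := fun i => by rw [rep_det hℓ]; exact_mod_cast hℓ.ne_zero
  have hr0 : ∀ i, (rep M r i).det ≠ 0 := fun i => by rw [rep_det hr]; exact_mod_cast hr.ne_zero
  have hlr : ¬ (ℓ : ℤ) ∣ (r : ℤ) := by
    exact_mod_cast fun hd => hne ((Nat.prime_dvd_prime_iff_eq hℓ hr).1 hd)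
  have hrl : ¬ (r : ℤ) ∣ (ℓ : ℤ) := by
    exact_mod_cast fun hd => hne ((Nat.prime_dvd_prime_iff_eq hr hℓ).1 hd).symm
  have h1 : ∀ x : RIdx M ℓ × RIdx M r, ∃ (y : RIdx M r × RIdx M ℓ) (g : SL(2, ℤ)),
      g ∈ GamH M H ∧ rep M ℓ x.1 * rep M r x.2 = g.1 * rep M r y.1 * rep M ℓ y.2 := by
    intro x
    have hm := Dl.mul (rep_mem hℓ H x.1) (rep_mem hr H x.2)
    rw [mul_comm (ℓ : ℤ) r] at hm
    obtain ⟨b, Y, hY, e⟩ := exists_factor hℓ hm
    obtain ⟨a, Z, hZ, rfl⟩ := exists_factor hr (n := 1) (X := Y) (by rwa [one_mul])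
    obtain ⟨g, hg, rfl⟩ := Dl.toGamH hZ
    exact ⟨(a, b), g, hg, e⟩
  choose y g hg e using h1
  have hy : Function.Injective y := by
    intro x x' hxx
    have e' : rep M ℓ x.1 * rep M r x.2 =
        ((g x * (g x')⁻¹ : SL(2, ℤ)) : MatZ) * rep M ℓ x'.1 * rep M r x'.2 := by
      rw [Matrix.mul_assoc (_ : MatZ) (rep M ℓ x'.1), e x', e x, hxx, ← Matrix.mul_assoc,
        ← Matrix.mul_assoc, ← Matrix.SpecialLinearGroup.coe_mul, inv_mul_cancel_right]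
    have h2 : x.2 = x'.2 := rep_inj hr e' (by rw [rep_det hℓ]; exact hrl)
      (by rw [det_mul, (g x * (g x')⁻¹ : SL(2, ℤ)).2, one_mul, rep_det hℓ]; exact hrl)
    rw [h2] at e'
    have hcancel : rep M ℓ x.1 = ((g x * (g x')⁻¹ : SL(2, ℤ)) : MatZ) * rep M ℓ x'.1 := by
      have h3 := congrArg (fun Z => Z * (rep M r x'.2).adjugate) e'
      simp only [Matrix.mul_assoc] at h3
      rw [mul_adjugate, Matrix.mul_smul, Matrix.mul_one, Matrix.mul_smul, Matrix.mul_smul,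
        Matrix.mul_one] at h3
      exact smul_right_injective MatZ (hr0 x'.2) h3
    rw [← Matrix.one_mul (rep M ℓ x.1)] at hcancel
    exact Prod.ext (rep_inj hℓ hcancel (not_dvd_det_one hℓ det_one)
      (not_dvd_det_one hℓ (g x * (g x')⁻¹ : SL(2, ℤ)).2)) h2
  have hb : Function.Bijective y :=
    (Fintype.bijective_iff_injective_and_card y).2
      ⟨hy, by rw [Fintype.card_prod, Fintype.card_prod, mul_comm]⟩
  refine ⟨Equiv.ofBijective y hb, fun x => ⟨⟨g x, hg x⟩, ?_⟩⟩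
  show gl (rep M ℓ x.1) * gl (rep M r x.2) =
    glQ (g x) * (gl (rep M r (y x).1) * gl (rep M ℓ (y x).2))
  rw [← gl_mul (hl0 _) (hr0 _), e, gl_mul (by rw [det_mul, (g x).2, one_mul]; exact hr0 _) (hl0 _),
    gl_mul (by rw [(g x).2]; exact one_ne_zero) (hr0 _), gl_coe, mul_assoc]

theorem Tc_comm (M : ℕ) (H : Subgroup (ZMod M)ˣ) {ℓ r : ℕ} [Fact ℓ.Prime] [Fact r.Prime]
    (hne : ℓ ≠ r) {A : Type*} [AddCommGroup A] (z : Hom1 (GamH M H) A) :
    (Tc M H ℓ).act ((Tc M H r).act z) = (Tc M H r).act ((Tc M H ℓ).act z) := by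
  rw [← Corr.comp_act, ← Corr.comp_act]
  exact ((Tc_comp_same M H hne).act_eq z).symm

end Tc

end FA.HeckeH1

end
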