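import Fermat.Agent.HeckeH1.TWGroup
import Fermat.Agent.HeckeH1.LevelSet
import Fermat.Agent.HeckeH1.BaseTower

/-!
The pieces of a residual system at the Taylor-Wiles levels above `L₀ ∏ q`, as free modules over
the group ring of the diamond group, with corestriction to the base.
-/

set_option autoImplicit false
set_option linter.unusedSectionVars false

noncomputable section

namespace FA.HeckeH1

open IsLocalRing
open scoped MatrixGroups

/-- Corestriction along primes added to the level commutes with the other operators. -/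
theorem cores_top_Tc {N : ℕ} [NeZero N] {O : Type} [CommRing O] [IsAddTorsionFree O] {ℓ : ℕ}
    [Fact ℓ.Prime] (Q : Finset Nat.Primes) (hQ : ∀ q ∈ Q, ¬ (q : ℕ) ∣ N)
    (hℓ : ∀ q ∈ Q, ℓ ≠ (q : ℕ)) (M : ℕ) [NeZero M] (hM : M = N * ∏ q ∈ Q, (q : ℕ))
    (z : Hom1 (GamH M ⊤) O) :
    (Corr.cores (Γ := GamH N ⊤)).act ((Tc M ⊤ ℓ).act z) =
      (Tc N ⊤ ℓ).act ((Corr.cores (Γ := GamH N ⊤)).act z) := by
  classical
  induction Q using Finset.induction_on generalizing M with
  | empty =>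
    obtain rfl : M = N := by simpa using hM
    rw [cores_self, cores_self]
  | @insert q Q hqQ ih =>
    set M' := N * ∏ r ∈ Q, (r : ℕ) with hM'
    have hMq : M = M' * (q : ℕ) := by rw [hM, Finset.prod_insert hqQ, hM']; ring
    have : NeZero M' := ⟨left_ne_zero_of_mul (hMq ▸ NeZero.ne M)⟩
    have hqM' : ¬ (q : ℕ) ∣ M' := fun h => by
      rcases (Nat.Prime.dvd_mul q.2).1 h with h | h
      · exact hQ q (Finset.mem_insert_self q Q) h
      · obtain ⟨r, hr, hd⟩ := (Prime.dvd_finsetProd_iff q.2.prime _).1 h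
        exact hqQ (by rwa [show q = r from Subtype.ext ((Nat.prime_dvd_prime_iff_eq q.2 r.2).1 hd)])
    have hst : IsStep M' (q : ℕ) (⊤ : Subgroup (ZMod M')ˣ) M (⊤ : Subgroup (ZMod M)ˣ) :=
      ⟨hqM', hMq, ⟨_, hMq⟩, fun _ => iff_of_true (Subgroup.mem_top _) (Subgroup.mem_top _)⟩
    have hN : GamH M' ⊤ ≤ GamH N ⊤ := GamH_top_le_of_dvd (dvd_mul_right N _)
    have e : ∀ w : Hom1 (GamH M ⊤) O, (Corr.cores (Γ := GamH N ⊤)).act
        ((Corr.cores (Γ := GamH M' ⊤)).act w) = (Corr.cores (Γ := GamH N ⊤)).act w :=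
      fun w => cores_trans hN hst.le w
    rw [← e, ← e, hst.cores_Tc (hℓ q (Finset.mem_insert_self q Q))]
    exact ih (fun r hr => hQ r (Finset.mem_insert_of_mem hr))
      (fun r hr => hℓ r (Finset.mem_insert_of_mem hr)) M' rfl _

section lift

variable {O : Type} [CommRing O] {G : Type} [Monoid G] {X Y : Type} [AddCommGroup X] [Module O X]
  [AddCommGroup Y] [Module O Y]

/-- Maps intertwining the group elements intertwine the group ring. -/
theorem lift_intertwine (φ : G →* Module.End O X) (ψ : G →* Module.End O Y) (f : X →ₗ[O] Y)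
    (h : ∀ g x, f (φ g x) = ψ g (f x)) (r : MonoidAlgebra O G) (x : X) :
    f (MonoidAlgebra.lift O (Module.End O X) G φ r x) =
      MonoidAlgebra.lift O (Module.End O Y) G ψ r (f x) := by
  induction r using MonoidAlgebra.induction_linear with
  | zero => simp
  | add a b ha hb => simp [map_add, LinearMap.add_apply, ha, hb]
  | single g c => simp [h]

/-- Maps invariant under the group kill through the augmentation. -/
theorem lift_invariant (φ : G →* Module.End O X) (f : X →ₗ[O] Y) (h : ∀ g x, f (φ g x) = f x)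
    (r : MonoidAlgebra O G) (x : X) :
    f (MonoidAlgebra.lift O (Module.End O X) G φ r x) =
      MonoidAlgebra.lift O O G 1 r • f x := by
  induction r using MonoidAlgebra.induction_linear with
  | zero => simp
  | add a b ha hb => simp [map_add, LinearMap.add_apply, ha, hb, add_smul]
  | single g c => simp [h]

end lift

section depth

variable {O : Type} [CommRing O] [IsDomain O] [IsDiscreteValuationRing O]
  [IsAdicComplete (maximalIdeal O) O] [CharZero O] {X : Type} [DecidableEq X] {qn : X → ℕ}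
  {bad : Finset ℕ}

/-- Taylor-Wiles primes with roots, a diamond group and square roots of the diamonds. -/
structure TWPart (L : LevelSet qn bad) (c : Nat.Primes → ResidueField O) (G : Type) [CommGroup G]
    (bad' : Finset ℕ) where
  /-- the residue characteristic -/
  p : ℕ
  hp : p.Prime
  charP : CharP (ResidueField O) p
  nonEis : ∀ N : ℕ, N ≠ 0 → ∃ ℓ : Nat.Primes, ¬ (ℓ : ℕ) ∣ N ∧
    ((ℓ : ℕ) : ZMod N) = 1 ∧ c ℓ ≠ ((ℓ : ℕ) : ResidueField O) + 1
  neat : IsNeatOn O (GamH L.L0 ⊤)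
  /-- the primes -/
  Q : Finset Nat.Primes
  /-- the roots -/
  α : Nat.Primes → O
  not_dvd : ∀ q ∈ Q, ¬ (q : ℕ) ∣ L.L0
  ne_qn : ∀ q ∈ Q, ∀ x, (q : ℕ) ≠ qn x
  notMem_S : ∀ q ∈ Q, q ∉ L.S
  root : ∀ q ∈ Q, residue O (α q) ^ 2 - c q * residue O (α q) + ((q : ℕ) : ResidueField O) = 0
  simple : ∀ q ∈ Q, 2 * residue O (α q) - c q ≠ 0
  q_one : ∀ q ∈ Q, ((q : ℕ) : ResidueField O) = 1
  /-- the diamond character -/
  κ : (ZMod (∏ q ∈ Q, (q : ℕ)))ˣ →* G
  surj : Function.Surjective κ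
  neg_one : κ (-1) = 1
  isPGroup : IsPGroup p G
  /-- square roots of the diamonds of the primes -/
  σ : ℕ → G
  sq : ∀ ℓ : ℕ, ℓ.Prime → ∀ h : ℓ.Coprime (∏ q ∈ Q, (q : ℕ)),
    σ ℓ ^ 2 = κ (ZMod.unitOfCoprime ℓ h)
  sub_bad : bad ⊆ bad'
  mem_bad : ∀ q ∈ Q, (q : ℕ) ∈ bad'

namespace TWPart

variable {L : LevelSet qn bad} {c : Nat.Primes → ResidueField O} {G : Type} [CommGroup G]
  {bad' : Finset ℕ} (T : TWPart L c G bad')

/-- The product of the primes. -/
def prodQ : ℕ := ∏ q ∈ T.Q, (q : ℕ)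

instance prodQ_neZero : NeZero T.prodQ :=
  ⟨Finset.prod_ne_zero_iff.2 fun q _ => q.2.ne_zero⟩

/-- The level above `U`. -/
def lvl (U : Finset X) : ℕ := L.lvl U * T.prodQ

instance lvl_neZero (U : Finset X) : NeZero (T.lvl U) :=
  ⟨mul_ne_zero (NeZero.ne _) (NeZero.ne _)⟩

theorem base_dvd (U : Finset X) : L.lvl U ∣ T.lvl U := dvd_mul_right _ _

theorem Q_not_dvd (U : Finset X) {q : Nat.Primes} (hq : q ∈ T.Q) : ¬ (q : ℕ) ∣ L.lvl U := fun h => by
  rcases L.prime_dvd_lvl q.2 h with h | ⟨x, -, e⟩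
  · exact T.not_dvd q hq h
  · exact T.ne_qn q hq x e

theorem Q_dvd (U : Finset X) {q : Nat.Primes} (hq : q ∈ T.Q) : (q : ℕ) ∣ T.lvl U :=
  dvd_mul_of_dvd_right (Finset.dvd_prod_of_mem _ hq) _

theorem qn_coprime (x : X) : (qn x).Coprime T.prodQ := by
  refine (L.prime x).coprime_iff_not_dvd.2 fun h => ?_
  obtain ⟨r, hr, hd⟩ := (Prime.dvd_finsetProd_iff (L.prime x).prime _).1 h
  exact T.ne_qn r hr x ((Nat.prime_dvd_prime_iff_eq (L.prime x) r.2).1 hd).symm

theorem not_dvd_of_not_bad {ℓ : ℕ} (hℓ : ℓ.Prime) (hb : ℓ ∉ bad') (U : Finset X) :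
    ¬ ℓ ∣ T.lvl U := fun h => by
  rcases hℓ.dvd_mul.1 h with h | h
  · exact L.not_dvd_of_not_bad hℓ (fun hb' => hb (T.sub_bad hb')) U h
  · obtain ⟨q, hq, hd⟩ := (Prime.dvd_finsetProd_iff hℓ.prime _).1 h
    exact hb (((Nat.prime_dvd_prime_iff_eq hℓ q.2).1 hd) ▸ T.mem_bad q hq)

/-- The diamond character at the level. -/
def κU (U : Finset X) : (ZMod (T.lvl U))ˣ →* G :=
  T.κ.comp (ZMod.unitsMap (dvd_mul_left T.prodQ (L.lvl U)))

theorem κU_surjective (U : Finset X) : Function.Surjective (T.κU U) :=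
  T.surj.comp (ZMod.unitsMap_surjective _)

/-- The subgroup of the level. -/
def H (U : Finset X) : Subgroup (ZMod (T.lvl U))ˣ := (T.κU U).ker

instance fintypeDia (U : Finset X) : Fintype ((ZMod (T.lvl U))ˣ ⧸ T.H U) := Fintype.ofFinite _

/-- The diamonds as the group. -/
def iota (U : Finset X) : (ZMod (T.lvl U))ˣ ⧸ T.H U ≃* G :=
  QuotientGroup.quotientKerEquivOfSurjective (T.κU U) (T.κU_surjective U)

theorem iota_mk (U : Finset X) (u : (ZMod (T.lvl U))ˣ) :
    T.iota U (QuotientGroup.mk u) = T.κU U u := rfl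

/-- The operators of the group. -/
def dHomG (U : Finset X) : G →* Module.End O (Hom1 (GamH (T.lvl U) (T.H U)) O) :=
  (diaHom (T.lvl U) (T.H U) O).comp (T.iota U).symm.toMonoidHom

theorem dHomG_apply (U : Finset X) (g : G) :
    T.dHomG U g = diaHom (T.lvl U) (T.H U) O ((T.iota U).symm g) := rfl

/-- The action of the group ring. -/
def rho (U : Finset X) : MonoidAlgebra O G →ₐ[O] Module.End O (Hom1 (GamH (T.lvl U) (T.H U)) O) :=
  MonoidAlgebra.lift O (Module.End O (Hom1 (GamH (T.lvl U) (T.H U)) O)) G (T.dHomG U)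

theorem rho_single (U : Finset X) (g : G) (z : Hom1 (GamH (T.lvl U) (T.H U)) O) :
    T.rho U (MonoidAlgebra.single g 1) z = T.dHomG U g z := by
  simp [rho]

theorem goodOp_rho (U : Finset X) (a : pairGood (T.lvl U) (T.H U) O) (r : MonoidAlgebra O G)
    (z : Hom1 (GamH (T.lvl U) (T.H U)) O) :
    goodOp (T.lvl U) (T.H U) O a (T.rho U r z) = T.rho U r (goodOp (T.lvl U) (T.H U) O a z) :=
  lift_intertwine (T.dHomG U) (T.dHomG U) _ (fun _ x => goodOp_comm _ _ _ a (diaPair_mem _ _ _ _) x) r z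

theorem pair_rho (U : Finset X) {x : PairEnd (T.lvl U) (T.H U) O}
    (hx : x ∈ pairAlg (T.lvl U) (T.H U) O) (r : MonoidAlgebra O G)
    (z : Hom1 (GamH (T.lvl U) (T.H U)) O) : x.1 (T.rho U r z) = T.rho U r (x.1 z) :=
  lift_intertwine (T.dHomG U) (T.dHomG U) _ (fun _ z => pair_dia _ _ _ hx _ z) r z

/-- The basis of the base piece. -/
def baseVec (U : Finset X) (j : Fin (L.frame c U).d) : Hom1 (GamH (L.lvl U) ⊤) O :=
  (L.frame c U).emb (Pi.single j 1)

theorem exists_twAct_level (U : Finset X) (h : HasSys L.S c (L.lvl U)) :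
    ∃ χ₀ : heckeAlg (L.lvl U) ⊤ O L.S →ₐ[O] ResidueField O, IsSys L.S c χ₀ ∧
      Nonempty (TWAct χ₀ T.Q T.α (T.lvl U) (T.H U) (baseVec (c := c) (L := L) U)) := by
  obtain ⟨χ₀, e₀, hχ, he, hee⟩ := exists_sysPiece h
  refine ⟨χ₀, hχ, ?_⟩
  have := Fact.mk T.hp
  have := T.charP
  refine exists_twAct (p := T.p) he (baseVec U) (fun i => ?_) ?_ (fun v hv => ?_) (fun N hN => ?_)
    T.α T.Q (fun q hq => T.Q_not_dvd U hq) T.notMem_S
    (fun q hq => by rw [hχ q (T.notMem_S q hq)]; exact T.root q hq)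
    (fun q hq => by rw [hχ q (T.notMem_S q hq)]; exact T.simple q hq) T.q_one (T.lvl U) rfl
    (T.H U) ⟨?_, T.neat.mono (GamH_top_le_of_dvd ((L.dvd_lvl U).trans (T.base_dvd U)))⟩
    (isPGroup_quotient_ker (T.κU_surjective U) T.isPGroup)
  · rw [hee]
    exact (L.frame c U).e_emb _
  · refine Fintype.linearIndependent_iff.2 fun g hg i => ?_
    have h1 : (L.frame c U).emb g = 0 := by
      rw [pi_eq_sum_univ' g, map_sum]
      simpa [baseVec] using hg
    exact congrFun ((L.frame c U).emb_injective (h1.trans (map_zero _).symm)) i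
  · refine ⟨(L.frame c U).coord v, ?_⟩
    rw [hee] at hv
    conv_rhs => rw [← show (L.frame c U).e v = v from hv, ← (L.frame c U).emb_coord v,
      pi_eq_sum_univ' ((L.frame c U).coord v), map_sum]
    simp [baseVec]
  · obtain ⟨ℓ, hℓ, -, hℓc⟩ := T.nonEis (N * ∏ r ∈ L.S, (r : ℕ))
      (mul_ne_zero hN (Finset.prod_ne_zero_iff.2 fun r _ => r.2.ne_zero))
    exact ⟨ℓ, fun hd => hℓ (hd.mul_right _), by
      rw [hχ ℓ fun hs => hℓ ((Finset.dvd_prod_of_mem _ hs).mul_left N)]; exact hℓc⟩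
  · show T.κU U (-1) = 1
    rw [κU, MonoidHom.comp_apply]
    convert T.neg_one
    exact Units.ext (by simp [ZMod.unitsMap])

/-- The residual character at the level. -/
def chi₀ (U : Finset X) (h : HasSys L.S c (L.lvl U)) :
    heckeAlg (L.lvl U) ⊤ O L.S →ₐ[O] ResidueField O := (T.exists_twAct_level U h).choose

theorem chi₀_spec (U : Finset X) (h : HasSys L.S c (L.lvl U)) : IsSys L.S c (T.chi₀ U h) :=
  (T.exists_twAct_level U h).choose_spec.1

/-- The piece at the level. -/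
def tw (U : Finset X) (h : HasSys L.S c (L.lvl U)) :
    TWAct (T.chi₀ U h) T.Q T.α (T.lvl U) (T.H U) (baseVec (c := c) (L := L) U) :=
  (T.exists_twAct_level U h).choose_spec.2.some

/-- The coordinates of the piece as the group ring of `G`. -/
def toQuot (U : Finset X) : MonoidAlgebra O G ≃ₐ[O] MonoidAlgebra O ((ZMod (T.lvl U))ˣ ⧸ T.H U) :=
  MonoidAlgebra.domCongr O O (T.iota U).symm

theorem lift_toQuot (U : Finset X) (r : MonoidAlgebra O G) :
    MonoidAlgebra.lift O (Module.End O (Hom1 (GamH (T.lvl U) (T.H U)) O)) _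
      (diaHom (T.lvl U) (T.H U) O) (T.toQuot U r) = T.rho U r := by
  induction r using MonoidAlgebra.induction_linear with
  | zero => simp
  | add a b ha hb => rw [map_add, map_add, map_add, ha, hb]
  | single g a => simp [toQuot, rho, dHomG]

/-- The embedding of the coordinates. -/
def embU (U : Finset X) (h : HasSys L.S c (L.lvl U)) :
    (Fin (L.frame c U).d → MonoidAlgebra O G) →ₗ[O] Hom1 (GamH (T.lvl U) (T.H U)) O :=
  ∑ i, (LinearMap.applyₗ ((T.tw U h).D.u (Fin.cast (T.tw U h).d_eq.symm i))).comp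
    ((T.rho U).toLinearMap.comp (LinearMap.proj i))

theorem embU_apply (U : Finset X) (h : HasSys L.S c (L.lvl U))
    (a : Fin (L.frame c U).d → MonoidAlgebra O G) :
    T.embU U h a = ∑ i, T.rho U (a i) ((T.tw U h).D.u (Fin.cast (T.tw U h).d_eq.symm i)) := by
  simp [embU]

theorem embU_eq_combo (U : Finset X) (h : HasSys L.S c (L.lvl U))
    (a : Fin (L.frame c U).d → MonoidAlgebra O G) :
    T.embU U h a = combo (diaHom (T.lvl U) (T.H U) O) (T.tw U h).D.u
      (fun j => T.toQuot U (a (Fin.cast (T.tw U h).d_eq j))) := by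
  rw [embU_apply, combo_apply]
  refine (Fintype.sum_equiv (finCongr (T.tw U h).d_eq) _ _ fun j => ?_).symm
  rw [lift_toQuot]
  simp

theorem embU_injective (U : Finset X) (h : HasSys L.S c (L.lvl U)) :
    Function.Injective (T.embU U h) := fun a b hab => funext fun i => by
  rw [T.embU_eq_combo, T.embU_eq_combo] at hab
  have h1 := congrFun ((T.tw U h).D.inj hab) (Fin.cast (T.tw U h).d_eq.symm i)
  simpa using (T.toQuot U).injective h1

theorem e_embU (U : Finset X) (h : HasSys L.S c (L.lvl U))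
    (a : Fin (L.frame c U).d → MonoidAlgebra O G) :
    (T.tw U h).e.1.1 (T.embU U h a) = T.embU U h a := by
  rw [T.embU_apply, map_sum]
  refine Finset.sum_congr rfl fun i _ => ?_
  rw [T.pair_rho U (pairAway_le _ _ _ _ (T.tw U h).e.2)]
  have h1 := (T.tw U h).D.e_u (Fin.cast (T.tw U h).d_eq.symm i)
  rw [incl_val] at h1
  rw [h1]

theorem exists_embU (U : Finset X) (h : HasSys L.S c (L.lvl U))
    (x : Hom1 (GamH (T.lvl U) (T.H U)) O) : ∃ a, T.embU U h a = (T.tw U h).e.1.1 x := by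
  have hfix : (incl (T.lvl U) (T.H U) O L.S (T.tw U h).e).1.1 ((T.tw U h).e.1.1 x) =
      (T.tw U h).e.1.1 x := by
    rw [incl_val]
    exact LinearMap.congr_fun
      (congrArg (fun y : pairAway (T.lvl U) (T.H U) O L.S => y.1.1) (T.tw U h).piece.idem.eq) x
  obtain ⟨a, ha⟩ := (T.tw U h).D.span _ hfix
  refine ⟨fun i => (T.toQuot U).symm (a (Fin.cast (T.tw U h).d_eq.symm i)),
    (T.embU_eq_combo U h _).trans ((congrArg (combo _ _) (funext fun j => ?_)).trans ha)⟩
  simp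

theorem embU_smul (U : Finset X) (h : HasSys L.S c (L.lvl U)) (r : MonoidAlgebra O G)
    (a : Fin (L.frame c U).d → MonoidAlgebra O G) :
    T.embU U h (r • a) = T.rho U r (T.embU U h a) := by
  rw [T.embU_apply, T.embU_apply, map_sum]
  refine Finset.sum_congr rfl fun i _ => ?_
  exact LinearMap.congr_fun (map_mul (T.rho U) r (a i)) _

open scoped Classical in
/-- The frame of the piece at the level, zero where the system does not occur. -/
def frame (U : Finset X) : Frame (T.rho U) :=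
  if h : HasSys L.S c (L.lvl U) then
    Frame.ofEmb (L.frame c U).d (T.embU U h) (T.embU_injective U h) ((T.tw U h).e.1.1)
      (T.e_embU U h) (T.exists_embU U h) (T.embU_smul U h)
      (fun r x => T.pair_rho U (pairAway_le _ _ _ _ (T.tw U h).e.2) r x)
  else Frame.zero _

theorem frame_of_not (U : Finset X) (h : ¬ HasSys L.S c (L.lvl U)) :
    T.frame U = Frame.zero (T.rho U) := dif_neg h

theorem frame_e_of (U : Finset X) (h : HasSys L.S c (L.lvl U)) :
    (T.frame U).e = (T.tw U h).e.1.1 := by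
  rw [frame, dif_pos h]
  rfl

theorem frame_e_mem (U : Finset X) :
    ∃ x ∈ pairAlg (T.lvl U) (T.H U) O, x.1 = (T.frame U).e := by
  by_cases h : HasSys L.S c (L.lvl U)
  · exact ⟨_, pairAway_le _ _ _ _ (T.tw U h).e.2, (T.frame_e_of U h).symm⟩
  · exact ⟨0, zero_mem _, by rw [T.frame_of_not U h]; rfl⟩

theorem goodOp_frame_e (U : Finset X) (a : pairGood (T.lvl U) (T.H U) O)
    (z : Hom1 (GamH (T.lvl U) (T.H U)) O) :
    goodOp (T.lvl U) (T.H U) O a ((T.frame U).e z) =
      (T.frame U).e (goodOp (T.lvl U) (T.H U) O a z) := by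
  obtain ⟨x, hx, e⟩ := T.frame_e_mem U
  rw [← e]
  exact goodOp_comm _ _ _ a hx z

omit T in
theorem base_d_eq_zero (U : Finset X) (h : ¬ HasSys L.S c (L.lvl U)) : (L.frame c U).d = 0 := by
  by_contra hd
  have h1 := (L.frame c U).coord_emb (Pi.single ⟨0, Nat.pos_of_ne_zero hd⟩ 1)
  rw [← (L.frame c U).e_emb, L.frame_e, sysIdem_of_not _ _ h, LinearMap.zero_apply, map_zero] at h1
  simpa using congrFun h1 ⟨0, Nat.pos_of_ne_zero hd⟩

theorem frame_d (U : Finset X) : (T.frame U).d = (L.frame c U).d := by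
  by_cases h : HasSys L.S c (L.lvl U)
  · rw [frame, dif_pos h]
    rfl
  · rw [T.frame_of_not U h, base_d_eq_zero (c := c) U h]
    rfl

/-- Corestriction to the base. -/
def corU (U : Finset X) :
    Hom1 (GamH (T.lvl U) (T.H U)) O →ₗ[O] Hom1 (GamH (L.lvl U) ⊤) O :=
  (Corr.cores (Γ := GamH (L.lvl U) ⊤) (Γ' := GamH (T.lvl U) (T.H U))).actLin

theorem corU_eq (U : Finset X) (z : Hom1 (GamH (T.lvl U) (T.H U)) O) :
    T.corU U z = (Corr.cores (Γ := GamH (L.lvl U) ⊤)).act
      ((Corr.cores (Γ := GamH (T.lvl U) ⊤)).act z) :=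
  (cores_trans (GamH_top_le_of_dvd (T.base_dvd U)) GamH_le_top z).symm

theorem corU_dia (U : Finset X) (g : (ZMod (T.lvl U))ˣ ⧸ T.H U)
    (z : Hom1 (GamH (T.lvl U) (T.H U)) O) :
    T.corU U (diaHom (T.lvl U) (T.H U) O g z) = T.corU U z := by
  have e := cores_diaHom (T.lvl U) (T.H U) O g z
  rw [T.corU_eq, T.corU_eq]
  exact congrArg _ e

theorem corU_dHomG (U : Finset X) (g : G) (z : Hom1 (GamH (T.lvl U) (T.H U)) O) :
    T.corU U (T.dHomG U g z) = T.corU U z := T.corU_dia U _ z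

theorem corU_rho (U : Finset X) (r : MonoidAlgebra O G) (z : Hom1 (GamH (T.lvl U) (T.H U)) O) :
    T.corU U (T.rho U r z) = MonoidAlgebra.lift O O G 1 r • T.corU U z :=
  lift_invariant (T.dHomG U) _ (T.corU_dHomG U) r z

theorem corU_Tc (U : Finset X) {ℓ : ℕ} [Fact ℓ.Prime] (h : ¬ ℓ ∣ T.lvl U)
    (z : Hom1 (GamH (T.lvl U) (T.H U)) O) :
    T.corU U ((Tc (T.lvl U) (T.H U) ℓ).act z) = (Tc (L.lvl U) ⊤ ℓ).act (T.corU U z) := by
  rw [T.corU_eq, T.corU_eq]
  exact (congrArg _ (cores_Tc_diamond (M := T.lvl U) (H := T.H U) (ℓ := ℓ) z).symm).trans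
    (cores_top_Tc (ℓ := ℓ) T.Q (fun q hq => T.Q_not_dvd U hq)
      (fun q hq e => h (e ▸ T.Q_dvd U hq)) (T.lvl U) rfl _)

/-- The augmentation. -/
abbrev aug (_T : TWPart L c G bad') : MonoidAlgebra O G →ₐ[O] O := MonoidAlgebra.lift O O G 1

theorem corU_emb (U : Finset X) (a : Fin (T.frame U).d → MonoidAlgebra O G) :
    T.corU U ((T.frame U).emb a) =
      (L.frame c U).emb ((T.frame U).red (L.frame c U) T.aug (T.frame_d U) a) := by
  refine Frame.emb_red _ _ _ _ _ (T.corU_rho U) (fun j => ?_) a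
  by_cases h : HasSys L.S c (L.lvl U)
  · have key : ∀ i, T.corU U (T.embU U h (Pi.single i 1)) =
        (L.frame c U).emb (Pi.single i 1) := fun i => by
      rw [T.embU_apply, Finset.sum_eq_single i]
      · rw [Pi.single_eq_same, map_one, Module.End.one_apply]
        exact ((T.tw U h).cores_u _).trans (by simp [baseVec])
      · intro k _ hk
        rw [Pi.single_eq_of_ne hk, map_zero, LinearMap.zero_apply]
      · intro hi
        exact absurd (Finset.mem_univ i) hi
    have main : ∀ (F : Frame (T.rho U)) (hd : F.d = (L.frame c U).d) (j : Fin F.d),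
        F.d = (L.frame c U).d → T.frame U = F →
        T.corU U (F.emb (Pi.single j 1)) = (L.frame c U).emb (Pi.single (Fin.cast hd j) 1) := by
      intro F hd j _ hF
      rw [frame, dif_pos h] at hF
      subst hF
      exact key j
    exact main _ _ j (T.frame_d U) rfl
  · exact absurd (lt_of_lt_of_eq j.2 ((T.frame_d U).trans (base_d_eq_zero (c := c) U h)))
      (Nat.not_lt_zero _)

/-- **Maps commuting with the operators and the group carry pieces to pieces.** -/
theorem frame_intertwine {U V : Finset X} (hU : HasSys L.S c (L.lvl U))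
    (hV : HasSys L.S c (L.lvl V))
    (f : Hom1 (GamH (T.lvl U) (T.H U)) O →ₗ[O] Hom1 (GamH (T.lvl V) (T.H V)) O)
    (hT : ∀ ℓ : Nat.Primes, ℓ ∉ L.S → ∀ z,
      f ((Tc (T.lvl U) (T.H U) (ℓ : ℕ)).act z) = (Tc (T.lvl V) (T.H V) (ℓ : ℕ)).act (f z))
    (hG : ∀ g z, f (T.dHomG U g z) = T.dHomG V g (f z))
    (z : Hom1 (GamH (T.lvl U) (T.H U)) O) : f ((T.frame U).e z) = (T.frame V).e (f z) := by
  rw [T.frame_e_of U hU, T.frame_e_of V hV]
  have := pairAlg_finite (M := T.lvl U) (H := T.H U) (O := O)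
  have := pairAway_finite (T.lvl U) (T.H U) O L.S
  have := pairAlg_finite (M := T.lvl V) (H := T.H V) (O := O)
  have := pairAway_finite (T.lvl V) (T.H V) O L.S
  let gen : ∀ W : Finset X, Nat.Primes ⊕ G → pairAway (T.lvl W) (T.H W) O L.S := fun W =>
    Sum.elim (Tp _ _ O L.S) fun g => diaP _ _ O L.S ((T.iota W).symm g)
  have hgen : ∀ W (x : pairAway (T.lvl W) (T.H W) O L.S),
      x ∈ Algebra.adjoin O (Set.range (gen W)) := by
    intro W x
    obtain ⟨x, hx⟩ := x
    induction hx using Algebra.adjoin_induction with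
    | mem y hy =>
      rcases hy with ⟨ℓ, rfl⟩ | ⟨g, rfl⟩
      · exact Algebra.subset_adjoin ⟨.inl ℓ, rfl⟩
      · refine Algebra.subset_adjoin ⟨.inr (T.iota W g), ?_⟩
        show diaP _ _ O L.S ((T.iota W).symm (T.iota W g)) = _
        rw [MulEquiv.symm_apply_apply]
        rfl
    | algebraMap r => exact Subalgebra.algebraMap_mem _ r
    | add a b ha' hb' ha hb => exact add_mem ha hb
    | mul a b ha' hb' ha hb => exact mul_mem ha hb
  refine piece_intertwine (gen U) (gen V) (hgen U) (hgen V)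
    ((AlgHom.fst O (Module.End O (Hom1 (GamH (T.lvl U) (T.H U)) O))
      (Module.End O (Hom1 (GamH (T.lvl U) ⊤) O))).comp (pairAway (T.lvl U) (T.H U) O L.S).val)
    ((AlgHom.fst O (Module.End O (Hom1 (GamH (T.lvl V) (T.H V)) O))
      (Module.End O (Hom1 (GamH (T.lvl V) ⊤) O))).comp (pairAway (T.lvl V) (T.H V) O L.S).val)
    f ?_ ?_ (T.tw U hU).piece (T.tw V hV).piece z
  · rintro (ℓ | g) w
    · show f ((Tp _ _ O L.S ℓ).1.1 w) = (Tp _ _ O L.S ℓ).1.1 (f w)
      by_cases hℓ : ℓ ∈ L.S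
      · rw [Tp_of_mem _ _ _ _ hℓ, Tp_of_mem _ _ _ _ hℓ]
        simp
      · rw [Tp_apply _ _ _ _ hℓ, Tp_apply _ _ _ _ hℓ, hT ℓ hℓ]
    · exact hG g w
  · rintro (ℓ | g)
    · show (T.tw U hU).χ (Tp _ _ O L.S ℓ) = (T.tw V hV).χ (Tp _ _ O L.S ℓ)
      by_cases hℓ : ℓ ∈ L.S
      · rw [Tp_of_mem _ _ _ _ hℓ, Tp_of_mem _ _ _ _ hℓ, map_zero, map_zero]
      · by_cases hQ : ℓ ∈ T.Q
        · rw [(T.tw U hU).χ_U ℓ hQ, (T.tw V hV).χ_U ℓ hQ]
        · rw [(T.tw U hU).χ_T ℓ hQ, (T.tw V hV).χ_T ℓ hQ, T.chi₀_spec U hU ℓ hℓ,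
            T.chi₀_spec V hV ℓ hℓ]
    · show (T.tw U hU).χ (diaP _ _ O L.S _) = (T.tw V hV).χ (diaP _ _ O L.S _)
      rw [(T.tw U hU).χ_dia, (T.tw V hV).χ_dia]

/-- The pieces are parabolic. -/
theorem frame_mem_Par (U : Finset X) (z : Hom1 (GamH (T.lvl U) (T.H U)) O) :
    (T.frame U).e z ∈ Par (GamH (T.lvl U) (T.H U)) O := by
  by_cases h : HasSys L.S c (L.lvl U)
  · rw [T.frame_e_of U h]
    refine (T.tw U h).mem_Par (fun q hq => T.Q_dvd U hq) (fun N hN => ?_) z
    obtain ⟨ℓ, hℓ, hℓ1, hℓc⟩ := T.nonEis (N * ∏ r ∈ L.S, (r : ℕ))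
      (mul_ne_zero hN (Finset.prod_ne_zero_iff.2 fun r _ => r.2.ne_zero))
    refine ⟨ℓ, fun hd => hℓ (hd.mul_right _), ?_, ?_⟩
    · have h' := congrArg (ZMod.castHom (dvd_mul_right N (∏ r ∈ L.S, (r : ℕ))) (ZMod N)) hℓ1
      rwa [map_natCast, map_one] at h'
    · rw [T.chi₀_spec U h ℓ fun hs => hℓ ((Finset.dvd_prod_of_mem _ hs).mul_left N)]
      exact hℓc
  · rw [T.frame_of_not U h]
    exact zero_mem _

end TWPart

end depth

end FA.HeckeH1

end
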