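import Fermat.Agent.HeckeH1.DepthLevel

/-!
The Hecke modules at the Taylor-Wiles levels as a tower over the group ring, reducing to the base.
-/

set_option autoImplicit false
set_option linter.unusedSectionVars false

noncomputable section

namespace FA.HeckeH1

open IsLocalRing
open scoped MatrixGroups

section depth

variable {O : Type} [CommRing O] [IsDomain O] [IsDiscreteValuationRing O]
  [IsAdicComplete (maximalIdeal O) O] [CharZero O] {X : Type} [DecidableEq X] {qn : X → ℕ}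
  {bad : Finset ℕ}

namespace TWPart

variable {L : LevelSet qn bad} {c : Nat.Primes → ResidueField O} {G : Type} [CommGroup G]
  {bad' : Finset ℕ} (T : TWPart L c G bad')

/-- The algebra at a level. -/
abbrev alg (U : Finset X) : Type := coreAlg (T.frame U).e L.core

instance algCommRing (U : Finset X) : CommRing (T.alg U) := inferInstance

instance algAlgebra (U : Finset X) : Algebra O (T.alg U) := inferInstance

/-- The action on the coordinates. -/
def actD (U : Finset X) :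
    T.alg U →ₐ[O] Module.End (MonoidAlgebra O G) (Fin (T.frame U).d → MonoidAlgebra O G) :=
  (goodAct (T.frame U) (T.goodOp_rho U) (T.goodOp_frame_e U)).comp
    (coreAlg (T.frame U).e L.core).val

/-- The diamond elements. -/
def dia (U : Finset X) : G →* T.alg U :=
  ((goodDia (T.frame U).e).comp (T.iota U).symm.toMonoidHom).codRestrict
    (coreAlg (T.frame U).e L.core).toSubmonoid fun _ => goodDia_mem_coreAlg _ _ _

theorem dia_val (U : Finset X) (g : G) :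
    (T.dia U g).1 = goodDia (T.frame U).e ((T.iota U).symm g) := rfl

theorem actD_dia (U : Finset X) (g : G) (z : Fin (T.frame U).d → MonoidAlgebra O G) :
    T.actD U (T.dia U g) z = (MonoidAlgebra.single g 1 : MonoidAlgebra O G) • z := by
  show goodAct (T.frame U) (T.goodOp_rho U) (T.goodOp_frame_e U)
    (Ideal.Quotient.mk _ (goodDp (T.lvl U) (T.H U) O ((T.iota U).symm g))) z = _
  rw [goodAct_apply, goodOp_goodDp, ← T.dHomG_apply, ← T.rho_single, Frame.coord_ρ,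
    Frame.coord_emb]

/-- A lift of the Hecke element. -/
def Tlift (U : Finset X) (ℓ : GP (T.lvl U)) : pairGood (T.lvl U) (T.H U) O :=
  goodDp (T.lvl U) (T.H U) O ((T.iota U).symm (T.σ ℓ.1)⁻¹) * goodTp (T.lvl U) (T.H U) O ℓ

theorem goodOp_Tlift (U : Finset X) (ℓ : GP (T.lvl U))
    (z : Hom1 (GamH (T.lvl U) (T.H U)) O) :
    goodOp (T.lvl U) (T.H U) O (T.Tlift U ℓ) z =
      T.dHomG U (T.σ ℓ.1)⁻¹ ((Tc (T.lvl U) (T.H U) ℓ.1).act z) := by
  exact LinearMap.congr_fun (map_mul (goodOp (T.lvl U) (T.H U) O) _ _) z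

theorem Tlift_mem (U : Finset X) (ℓ : GP (T.lvl U)) (h : ℓ.1 ∈ L.core) :
    Ideal.Quotient.mk (annE (T.frame U).e) (T.Tlift U ℓ) ∈ coreAlg (T.frame U).e L.core := by
  rw [Tlift, map_mul]
  exact mul_mem (goodDia_mem_coreAlg _ _ _) (goodT_mem_coreAlg _ ℓ h)

open scoped Classical in
/-- The Hecke elements `⟨ℓ⟩^{-1/2} T ℓ`. -/
def TD (U : Finset X) (ℓ : ℕ) : T.alg U :=
  if h : (ℓ.Prime ∧ ¬ ℓ ∣ T.lvl U) ∧ ℓ ∈ L.core then
    ⟨Ideal.Quotient.mk _ (T.Tlift U ⟨ℓ, h.1⟩), T.Tlift_mem U ⟨ℓ, h.1⟩ h.2⟩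
  else 0

theorem TD_mk (U : Finset X) {ℓ : ℕ} (h : ℓ.Prime ∧ ¬ ℓ ∣ T.lvl U) (hc : ℓ ∈ L.core) :
    (T.TD U ℓ).1 = Ideal.Quotient.mk _ (T.Tlift U ⟨ℓ, h⟩) := by
  rw [TD, dif_pos ⟨h, hc⟩]

theorem TD_eq (U : Finset X) {ℓ : ℕ} (hℓ : ℓ.Prime) (h : ¬ ℓ ∣ T.lvl U) (hc : ℓ ∈ L.core) :
    (T.TD U ℓ).1 = (T.dia U (T.σ ℓ)⁻¹).1 * goodT (T.frame U).e ⟨ℓ, hℓ, h⟩ := by
  rw [T.TD_mk U ⟨hℓ, h⟩ hc]
  rfl

theorem actD_TD (U : Finset X) {ℓ : ℕ} [Fact ℓ.Prime] (h : ¬ ℓ ∣ T.lvl U) (hc : ℓ ∈ L.core)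
    (z : Fin (T.frame U).d → MonoidAlgebra O G) :
    T.actD U (T.TD U ℓ) z =
      (T.frame U).coord (T.dHomG U (T.σ ℓ)⁻¹ ((Tc (T.lvl U) (T.H U) ℓ).act ((T.frame U).emb z))) := by
  refine (congrArg (fun y => goodAct (T.frame U) (T.goodOp_rho U) (T.goodOp_frame_e U) y z)
    (T.TD_mk U ⟨Fact.out, h⟩ hc)).trans ?_
  exact congrArg (T.frame U).coord (T.goodOp_Tlift U ⟨ℓ, Fact.out, h⟩ ((T.frame U).emb z))

theorem dHomG_mul (U : Finset X) (g g' : G) (z : Hom1 (GamH (T.lvl U) (T.H U)) O) :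
    T.dHomG U g (T.dHomG U g' z) = T.dHomG U (g * g') z := by
  rw [map_mul, Module.End.mul_apply]

theorem dHomG_comm (U : Finset X) (g g' : G) (z : Hom1 (GamH (T.lvl U) (T.H U)) O) :
    T.dHomG U g (T.dHomG U g' z) = T.dHomG U g' (T.dHomG U g z) := by
  rw [T.dHomG_mul, T.dHomG_mul, mul_comm]

theorem Tc_dHomG (U : Finset X) {ℓ : ℕ} [Fact ℓ.Prime] (g : G)
    (z : Hom1 (GamH (T.lvl U) (T.H U)) O) :
    (Tc (T.lvl U) (T.H U) ℓ).act (T.dHomG U g z) =
      T.dHomG U g ((Tc (T.lvl U) (T.H U) ℓ).act z) :=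
  Tc_diaHom (T.lvl U) (T.H U) O ⟨ℓ, Fact.out⟩ _ z

theorem κU_unitsMap {U V : Finset X} (h : T.lvl V ∣ T.lvl U) (u : (ZMod (T.lvl U))ˣ) :
    T.κU V (ZMod.unitsMap h u) = T.κU U u := by
  show T.κ (ZMod.unitsMap _ (ZMod.unitsMap h u)) = T.κ (ZMod.unitsMap _ u)
  rw [← MonoidHom.comp_apply (ZMod.unitsMap _), ZMod.unitsMap_comp]

section step

variable {U : Finset X} {x : X} (hx : x ∈ U)

include hx in
/-- Removing one prime is a step. -/
theorem isStep :
    IsStep (T.lvl (U.erase x)) (qn x) (T.H (U.erase x)) (T.lvl U) (T.H U) := by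
  have hdvd : T.lvl (U.erase x) ∣ T.lvl U := by
    rw [lvl, lvl, L.lvl_erase hx, mul_right_comm]
    exact dvd_mul_right _ _
  refine ⟨fun h => ?_, by rw [lvl, lvl, L.lvl_erase hx, mul_right_comm], hdvd, fun u => ?_⟩
  · rcases (L.prime x).dvd_mul.1 h with h | h
    · exact L.qn_not_dvd (Finset.notMem_erase x U) h
    · exact (L.prime x).coprime_iff_not_dvd.1 (T.qn_coprime x) h
  · have e := T.κU_unitsMap hdvd u
    show u ∈ (T.κU U).ker ↔ ZMod.unitsMap hdvd u ∈ (T.κU (U.erase x)).ker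
    rw [MonoidHom.mem_ker, MonoidHom.mem_ker, e]

theorem delta_iota (g : G) :
    haveI : Fact (qn x).Prime := ⟨L.prime x⟩
    (T.isStep hx).delta ((T.iota U).symm g) = (T.iota (U.erase x)).symm g := by
  have : Fact (qn x).Prime := ⟨L.prime x⟩
  apply (T.iota (U.erase x)).injective
  rw [MulEquiv.apply_symm_apply]
  obtain ⟨u, hu⟩ := QuotientGroup.mk_surjective ((T.iota U).symm g)
  rw [← hu, (T.isStep hx).delta_mk, T.iota_mk]
  have hg : T.κU U u = g := by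
    rw [← T.iota_mk, hu, MulEquiv.apply_symm_apply]
  rw [← hg]
  exact T.κU_unitsMap _ u

theorem res_dHomG (g : G) (z : Hom1 (GamH (T.lvl (U.erase x)) (T.H (U.erase x))) O) :
    haveI : Fact (qn x).Prime := ⟨L.prime x⟩
    (T.isStep hx).res.actLin (T.dHomG (U.erase x) g z) =
      T.dHomG U g ((T.isStep hx).res.actLin z) := by
  have : Fact (qn x).Prime := ⟨L.prime x⟩
  have h := (T.isStep hx).res_diaHom ((T.iota U).symm g) z
  rw [T.delta_iota hx] at h
  exact h.symm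

theorem I2_dHomG (g : G) (z : Hom1 (GamH (T.lvl (U.erase x)) (T.H (U.erase x))) O) :
    haveI : Fact (qn x).Prime := ⟨L.prime x⟩
    (T.isStep hx).I2'.actLin (T.dHomG (U.erase x) g z) =
      T.dHomG U g ((T.isStep hx).I2'.actLin z) := by
  have : Fact (qn x).Prime := ⟨L.prime x⟩
  have h := (T.isStep hx).I2_diaHom ((T.iota U).symm g) z
  rw [T.delta_iota hx] at h
  exact h.symm

include hx in
theorem cores_dHomG (g : G) (z : Hom1 (GamH (T.lvl U) (T.H U)) O) :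
    (Corr.cores (Γ := GamH (T.lvl (U.erase x)) (T.H (U.erase x))) (Γ' := GamH (T.lvl U) (T.H U))).act
        (T.dHomG U g z) =
      T.dHomG (U.erase x) g ((Corr.cores (Γ := GamH (T.lvl (U.erase x)) (T.H (U.erase x)))).act z) := by
  have : Fact (qn x).Prime := ⟨L.prime x⟩
  have h := (T.isStep hx).cores_diaHom' ((T.iota U).symm g) z
  rw [T.delta_iota hx] at h
  exact h

theorem J2_dHomG (g : G) (z : Hom1 (GamH (T.lvl U) (T.H U)) O) :
    haveI : Fact (qn x).Prime := ⟨L.prime x⟩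
    (T.isStep hx).J2'.actLin (T.dHomG U g z) =
      T.dHomG (U.erase x) g ((T.isStep hx).J2'.actLin z) := by
  have : Fact (qn x).Prime := ⟨L.prime x⟩
  have h := (T.isStep hx).J2_diaHom ((T.iota U).symm g) z
  rw [T.delta_iota hx] at h
  exact h

/-- Restriction. -/
def r₁ : Hom1 (GamH (T.lvl (U.erase x)) (T.H (U.erase x))) O →ₗ[O]
    Hom1 (GamH (T.lvl U) (T.H U)) O :=
  haveI : Fact (qn x).Prime := ⟨L.prime x⟩
  (T.isStep hx).res.actLin

/-- The twisted second degeneracy map. -/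
def r₂ : Hom1 (GamH (T.lvl (U.erase x)) (T.H (U.erase x))) O →ₗ[O]
    Hom1 (GamH (T.lvl U) (T.H U)) O :=
  haveI : Fact (qn x).Prime := ⟨L.prime x⟩
  (T.isStep hx).I2'.actLin.comp (T.dHomG (U.erase x) (T.σ (qn x)))

/-- Corestriction. -/
def c₁ (U : Finset X) (x : X) : Hom1 (GamH (T.lvl U) (T.H U)) O →ₗ[O]
    Hom1 (GamH (T.lvl (U.erase x)) (T.H (U.erase x))) O :=
  (Corr.cores (Γ := GamH (T.lvl (U.erase x)) (T.H (U.erase x)))).actLin

/-- The twisted second trace. -/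
def c₂ : Hom1 (GamH (T.lvl U) (T.H U)) O →ₗ[O]
    Hom1 (GamH (T.lvl (U.erase x)) (T.H (U.erase x))) O :=
  haveI : Fact (qn x).Prime := ⟨L.prime x⟩
  (T.dHomG (U.erase x) (T.σ (qn x))⁻¹).comp (T.isStep hx).J2'.actLin

theorem r₁_dHomG (g : G) (z : Hom1 (GamH (T.lvl (U.erase x)) (T.H (U.erase x))) O) :
    T.r₁ hx (T.dHomG (U.erase x) g z) = T.dHomG U g (T.r₁ hx z) := T.res_dHomG hx g z

theorem r₂_dHomG (g : G) (z : Hom1 (GamH (T.lvl (U.erase x)) (T.H (U.erase x))) O) :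
    T.r₂ hx (T.dHomG (U.erase x) g z) = T.dHomG U g (T.r₂ hx z) := by
  rw [r₂, LinearMap.comp_apply, LinearMap.comp_apply, T.dHomG_comm, T.I2_dHomG hx]

include hx in
theorem c₁_dHomG (g : G) (z : Hom1 (GamH (T.lvl U) (T.H U)) O) :
    T.c₁ U x (T.dHomG U g z) = T.dHomG (U.erase x) g (T.c₁ U x z) := T.cores_dHomG hx g z

theorem c₂_dHomG (g : G) (z : Hom1 (GamH (T.lvl U) (T.H U)) O) :
    T.c₂ hx (T.dHomG U g z) = T.dHomG (U.erase x) g (T.c₂ hx z) := by
  rw [c₂, LinearMap.comp_apply, LinearMap.comp_apply, T.J2_dHomG hx, T.dHomG_comm]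

/-- The first map up. -/
def upA : (Fin (T.frame (U.erase x)).d → MonoidAlgebra O G) →ₗ[MonoidAlgebra O G]
    (Fin (T.frame U).d → MonoidAlgebra O G) :=
  (T.frame (U.erase x)).transfer (T.frame U) (T.r₁ hx) fun r z =>
    lift_intertwine (T.dHomG (U.erase x)) (T.dHomG U) (T.r₁ hx) (T.r₁_dHomG hx) r z

/-- The second map up. -/
def upB : (Fin (T.frame (U.erase x)).d → MonoidAlgebra O G) →ₗ[MonoidAlgebra O G]
    (Fin (T.frame U).d → MonoidAlgebra O G) :=
  (T.frame (U.erase x)).transfer (T.frame U) (T.r₂ hx) fun r z =>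
    lift_intertwine (T.dHomG (U.erase x)) (T.dHomG U) (T.r₂ hx) (T.r₂_dHomG hx) r z

/-- The first map down. -/
def downA : (Fin (T.frame U).d → MonoidAlgebra O G) →ₗ[MonoidAlgebra O G]
    (Fin (T.frame (U.erase x)).d → MonoidAlgebra O G) :=
  (T.frame U).transfer (T.frame (U.erase x)) (T.c₁ U x) fun r z =>
    lift_intertwine (T.dHomG U) (T.dHomG (U.erase x)) (T.c₁ U x) (T.c₁_dHomG hx) r z

/-- The second map down. -/
def downB : (Fin (T.frame U).d → MonoidAlgebra O G) →ₗ[MonoidAlgebra O G]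
    (Fin (T.frame (U.erase x)).d → MonoidAlgebra O G) :=
  (T.frame U).transfer (T.frame (U.erase x)) (T.c₂ hx) fun r z =>
    lift_intertwine (T.dHomG U) (T.dHomG (U.erase x)) (T.c₂ hx) (T.c₂_dHomG hx) r z

theorem r₁_Tc {ℓ : ℕ} [Fact ℓ.Prime] (hne : ℓ ≠ qn x)
    (z : Hom1 (GamH (T.lvl (U.erase x)) (T.H (U.erase x))) O) :
    T.r₁ hx ((Tc (T.lvl (U.erase x)) (T.H (U.erase x)) ℓ).act z) =
      (Tc (T.lvl U) (T.H U) ℓ).act (T.r₁ hx z) :=
  haveI : Fact (qn x).Prime := ⟨L.prime x⟩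
  ((T.isStep hx).res_Tc hne z).symm

theorem r₂_Tc {ℓ : ℕ} [Fact ℓ.Prime] (hne : ℓ ≠ qn x)
    (z : Hom1 (GamH (T.lvl (U.erase x)) (T.H (U.erase x))) O) :
    T.r₂ hx ((Tc (T.lvl (U.erase x)) (T.H (U.erase x)) ℓ).act z) =
      (Tc (T.lvl U) (T.H U) ℓ).act (T.r₂ hx z) := by
  have : Fact (qn x).Prime := ⟨L.prime x⟩
  rw [r₂, LinearMap.comp_apply, LinearMap.comp_apply, ← T.Tc_dHomG]
  exact ((T.isStep hx).I2_Tc hne _).symm

include hx in
theorem c₁_Tc {ℓ : ℕ} [Fact ℓ.Prime] (hne : ℓ ≠ qn x) (z : Hom1 (GamH (T.lvl U) (T.H U)) O) :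
    T.c₁ U x ((Tc (T.lvl U) (T.H U) ℓ).act z) =
      (Tc (T.lvl (U.erase x)) (T.H (U.erase x)) ℓ).act (T.c₁ U x z) :=
  haveI : Fact (qn x).Prime := ⟨L.prime x⟩
  (T.isStep hx).cores_Tc hne z

theorem c₂_Tc {ℓ : ℕ} [Fact ℓ.Prime] (hne : ℓ ≠ qn x) (z : Hom1 (GamH (T.lvl U) (T.H U)) O) :
    T.c₂ hx ((Tc (T.lvl U) (T.H U) ℓ).act z) =
      (Tc (T.lvl (U.erase x)) (T.H (U.erase x)) ℓ).act (T.c₂ hx z) := by
  have : Fact (qn x).Prime := ⟨L.prime x⟩
  rw [c₂, LinearMap.comp_apply, LinearMap.comp_apply, T.Tc_dHomG, Corr.actLin_apply,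
    Corr.actLin_apply, (T.isStep hx).J2_Tc' hne]

include hx in
theorem hasSys_up (h : HasSys L.S c (L.lvl (U.erase x))) : HasSys L.S c (L.lvl U) :=
  haveI : Fact (qn x).Prime := ⟨L.prime x⟩
  h.of_injective (L.isStep hx).res.actLin (res_injective_of_finite (L.isStep hx).le)
    fun ℓ hℓ z => (L.isStep hx).res_Tc (L.ne_qn_of_not_mem x ℓ hℓ) z

include hx in
/-- Maps up commuting with the operators send the piece into the piece. -/
theorem up_stable
    (f : Hom1 (GamH (T.lvl (U.erase x)) (T.H (U.erase x))) O →ₗ[O] Hom1 (GamH (T.lvl U) (T.H U)) O)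
    (hT : ∀ ℓ : Nat.Primes, ℓ ∉ L.S → ∀ z,
      f ((Tc (T.lvl (U.erase x)) (T.H (U.erase x)) (ℓ : ℕ)).act z) =
        (Tc (T.lvl U) (T.H U) (ℓ : ℕ)).act (f z))
    (hG : ∀ g z, f (T.dHomG (U.erase x) g z) = T.dHomG U g (f z))
    (z : Hom1 (GamH (T.lvl (U.erase x)) (T.H (U.erase x))) O) :
    (T.frame U).e (f ((T.frame (U.erase x)).e z)) = f ((T.frame (U.erase x)).e z) := by
  by_cases h : HasSys L.S c (L.lvl (U.erase x))
  · rw [← T.frame_intertwine h (hasSys_up (c := c) hx h) f hT hG, Frame.e_e]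
  · rw [T.frame_of_not _ h]
    show (T.frame U).e (f 0) = f 0
    rw [map_zero, map_zero]

theorem r₁_stable (z : Hom1 (GamH (T.lvl (U.erase x)) (T.H (U.erase x))) O) :
    (T.frame U).e (T.r₁ hx ((T.frame (U.erase x)).e z)) = T.r₁ hx ((T.frame (U.erase x)).e z) :=
  T.up_stable hx _ (fun ℓ hℓ => T.r₁_Tc hx (L.ne_qn_of_not_mem x ℓ hℓ)) (T.r₁_dHomG hx) z

theorem r₂_stable (z : Hom1 (GamH (T.lvl (U.erase x)) (T.H (U.erase x))) O) :
    (T.frame U).e (T.r₂ hx ((T.frame (U.erase x)).e z)) = T.r₂ hx ((T.frame (U.erase x)).e z) :=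
  T.up_stable hx _ (fun ℓ hℓ => T.r₂_Tc hx (L.ne_qn_of_not_mem x ℓ hℓ)) (T.r₂_dHomG hx) z

theorem dHomG_qDia (z : Hom1 (GamH (T.lvl (U.erase x)) (T.H (U.erase x))) O) :
    haveI : Fact (qn x).Prime := ⟨L.prime x⟩
    diaHom (T.lvl (U.erase x)) (T.H (U.erase x)) O
        (qDia (T.lvl (U.erase x)) (T.H (U.erase x)) (T.isStep hx).not_dvd)⁻¹ z =
      T.dHomG (U.erase x) (T.σ (qn x) ^ 2)⁻¹ z := by
  have : Fact (qn x).Prime := ⟨L.prime x⟩
  rw [T.dHomG_apply]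
  congr 2
  apply (T.iota (U.erase x)).injective
  rw [MulEquiv.apply_symm_apply, map_inv, inv_inj]
  refine Eq.trans ?_ (T.sq (qn x) (L.prime x) (T.qn_coprime x)).symm
  show T.κU (U.erase x) (ZMod.unitOfCoprime (qn x) _) = _
  rw [κU, MonoidHom.comp_apply]
  congr 1
  exact Units.ext (by simp [ZMod.unitsMap])

theorem downA_upA (a : Fin (T.frame (U.erase x)).d → MonoidAlgebra O G) :
    T.downA hx (T.upA hx a) = (qn x + 1 : ℕ) • a := by
  have : Fact (qn x).Prime := ⟨L.prime x⟩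
  rw [downA, upA, Frame.transfer_comp _ _ _ _ _ _ _ (T.r₁_stable hx), r₁, c₁, Corr.actLin_apply,
    Corr.actLin_apply, (T.isStep hx).cores_res', map_nsmul, Frame.coord_emb]

theorem downA_upB (b : Fin (T.frame (U.erase x)).d → MonoidAlgebra O G) :
    T.downA hx (T.upB hx b) = T.actD (U.erase x) (T.TD (U.erase x) (qn x)) b := by
  have : Fact (qn x).Prime := ⟨L.prime x⟩
  rw [downA, upB, Frame.transfer_comp _ _ _ _ _ _ _ (T.r₂_stable hx), r₂, c₁, LinearMap.comp_apply,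
    Corr.actLin_apply, Corr.actLin_apply, (T.isStep hx).cores_I2', T.dHomG_qDia hx, T.dHomG_mul,
    T.Tc_dHomG, T.actD_TD (U.erase x) (T.isStep hx).not_dvd (L.qn_mem_core x)]
  rw [show (T.σ (qn x) ^ 2)⁻¹ * T.σ (qn x) = (T.σ (qn x))⁻¹ by group]

theorem downB_upA (a : Fin (T.frame (U.erase x)).d → MonoidAlgebra O G) :
    T.downB hx (T.upA hx a) = T.actD (U.erase x) (T.TD (U.erase x) (qn x)) a := by
  have : Fact (qn x).Prime := ⟨L.prime x⟩
  rw [downB, upA, Frame.transfer_comp _ _ _ _ _ _ _ (T.r₁_stable hx), r₁, c₂, LinearMap.comp_apply,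
    Corr.actLin_apply, Corr.actLin_apply, (T.isStep hx).J2_res',
    T.actD_TD (U.erase x) (T.isStep hx).not_dvd (L.qn_mem_core x)]

theorem downB_upB (b : Fin (T.frame (U.erase x)).d → MonoidAlgebra O G) :
    T.downB hx (T.upB hx b) = (qn x + 1 : ℕ) • b := by
  have : Fact (qn x).Prime := ⟨L.prime x⟩
  rw [downB, upB, Frame.transfer_comp _ _ _ _ _ _ _ (T.r₂_stable hx), r₂, c₂, LinearMap.comp_apply,
    LinearMap.comp_apply, Corr.actLin_apply, Corr.actLin_apply, (T.isStep hx).J2_I2', map_nsmul,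
    T.dHomG_mul, inv_mul_cancel, map_one, Module.End.one_apply, map_nsmul, Frame.coord_emb]

theorem transfer_TD {V W : Finset X}
    (f : Hom1 (GamH (T.lvl V) (T.H V)) O →ₗ[O] Hom1 (GamH (T.lvl W) (T.H W)) O)
    (hf : ∀ r z, f (T.rho V r z) = T.rho W r (f z))
    {ℓ : ℕ} [Fact ℓ.Prime] (hc : ℓ ∈ L.core) (hV : ¬ ℓ ∣ T.lvl V) (hW : ¬ ℓ ∣ T.lvl W)
    (hint : ∀ z, f ((Tc (T.lvl V) (T.H V) ℓ).act z) = (Tc (T.lvl W) (T.H W) ℓ).act (f z))
    (hG : ∀ g z, f (T.dHomG V g z) = T.dHomG W g (f z))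
    (a : Fin (T.frame V).d → MonoidAlgebra O G) :
    (T.frame V).transfer (T.frame W) f hf (T.actD V (T.TD V ℓ) a) =
      T.actD W (T.TD W ℓ) ((T.frame V).transfer (T.frame W) f hf a) := by
  have hint' : ∀ z, f (goodOp (T.lvl V) (T.H V) O (T.Tlift V ⟨ℓ, Fact.out, hV⟩) z) =
      goodOp (T.lvl W) (T.H W) O (T.Tlift W ⟨ℓ, Fact.out, hW⟩) (f z) := fun z => by
    rw [T.goodOp_Tlift, T.goodOp_Tlift, hG, hint]
  have h : (T.frame V).transfer (T.frame W) f hf
        (goodAct (T.frame V) (T.goodOp_rho V) (T.goodOp_frame_e V)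
          (Ideal.Quotient.mk _ (T.Tlift V ⟨ℓ, Fact.out, hV⟩)) a) =
      goodAct (T.frame W) (T.goodOp_rho W) (T.goodOp_frame_e W)
          (Ideal.Quotient.mk _ (T.Tlift W ⟨ℓ, Fact.out, hW⟩))
        ((T.frame V).transfer (T.frame W) f hf a) :=
    transfer_goodAct (T.frame V) (T.goodOp_rho V) (T.goodOp_frame_e V) (T.frame W)
      (T.goodOp_rho W) (T.goodOp_frame_e W) f hf (T.Tlift V ⟨ℓ, Fact.out, hV⟩)
      (T.Tlift W ⟨ℓ, Fact.out, hW⟩) hint' a
  have gen : ∀ (y : T.alg V) (y' : T.alg W),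
      y.1 = Ideal.Quotient.mk _ (T.Tlift V ⟨ℓ, Fact.out, hV⟩) →
      y'.1 = Ideal.Quotient.mk _ (T.Tlift W ⟨ℓ, Fact.out, hW⟩) →
      (T.frame V).transfer (T.frame W) f hf (T.actD V y a) =
        T.actD W y' ((T.frame V).transfer (T.frame W) f hf a) := by
    intro y y' hy hy'
    show (T.frame V).transfer (T.frame W) f hf
        (goodAct (T.frame V) (T.goodOp_rho V) (T.goodOp_frame_e V) y.1 a) =
      goodAct (T.frame W) (T.goodOp_rho W) (T.goodOp_frame_e W) y'.1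
        ((T.frame V).transfer (T.frame W) f hf a)
    rw [hy, hy']
    exact h
  exact gen (T.TD V ℓ) (T.TD W ℓ) (T.TD_mk V ⟨Fact.out, hV⟩ hc) (T.TD_mk W ⟨Fact.out, hW⟩ hc)

end step

/-- **The Taylor-Wiles levels.** -/
def depthLevels : FA.RT.HeckeLevels O (MonoidAlgebra O G) X qn bad' where
  M U := Fin (T.frame U).d → MonoidAlgebra O G
  A U := T.alg U
  act U := T.actD U
  T U ℓ := T.TD U ℓ
  up U x := if hx : x ∈ U then (T.upA hx).coprod (T.upB hx) else 0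
  down U x := if hx : x ∈ U then (T.downA hx).prod (T.downB hx) else 0
  up_comm U x hx ℓ hℓ hb a b := by
    have : Fact ℓ.Prime := ⟨hℓ⟩
    have h₁ := T.not_dvd_of_not_bad hℓ hb (U.erase x)
    have h₂ := T.not_dvd_of_not_bad hℓ hb U
    have hne := L.ne_qn_of_not_bad (fun h => hb (T.sub_bad h)) x
    simp only [dif_pos hx, LinearMap.coprod_apply, map_add]
    exact congrArg₂ (· + ·) (T.transfer_TD _ _ (L.core_of_not_bad fun h => hb (T.sub_bad h)) h₁ h₂ (T.r₁_Tc hx hne) (T.r₁_dHomG hx) a)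
      (T.transfer_TD _ _ (L.core_of_not_bad fun h => hb (T.sub_bad h)) h₁ h₂ (T.r₂_Tc hx hne) (T.r₂_dHomG hx) b)
  down_comm U x hx ℓ hℓ hb z := by
    have : Fact ℓ.Prime := ⟨hℓ⟩
    have h₁ := T.not_dvd_of_not_bad hℓ hb (U.erase x)
    have h₂ := T.not_dvd_of_not_bad hℓ hb U
    have hne := L.ne_qn_of_not_bad (fun h => hb (T.sub_bad h)) x
    simp only [dif_pos hx, LinearMap.prod_apply, Function.prod_apply]
    exact Prod.ext (T.transfer_TD _ _ (L.core_of_not_bad fun h => hb (T.sub_bad h)) h₂ h₁ (T.c₁_Tc hx hne) (T.c₁_dHomG hx) z)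
      (T.transfer_TD _ _ (L.core_of_not_bad fun h => hb (T.sub_bad h)) h₂ h₁ (T.c₂_Tc hx hne) (T.c₂_dHomG hx) z)
  down_up U x hx a b := by
    simp only [dif_pos hx, LinearMap.coprod_apply, LinearMap.prod_apply, Function.prod_apply,
      map_add, T.downA_upA, T.downA_upB, T.downB_upA, T.downB_upB, Prod.mk_add_mk]

/-- The diamond elements in the algebras of the levels. -/
def diaA (U : Finset X) : G →* T.depthLevels.A U := T.dia U

theorem act_diaA (U : Finset X) (g : G) (z : T.depthLevels.M U) :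
    T.depthLevels.act U (T.diaA U g) z = (MonoidAlgebra.single g 1 : MonoidAlgebra O G) • z :=
  T.actD_dia U g z

/-- The reduction of coordinates. -/
def redL (U : Finset X) :
    (Fin (T.frame U).d → MonoidAlgebra O G) →ₗ[O] (Fin (L.frame c U).d → O) :=
  (T.frame U).red (L.frame c U) T.aug (T.frame_d U)

theorem red_map {U V : Finset X}
    (f : Hom1 (GamH (T.lvl U) (T.H U)) O →ₗ[O] Hom1 (GamH (T.lvl V) (T.H V)) O)
    (hf : ∀ r z, f (T.rho U r z) = T.rho V r (f z))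
    (f₀ : Hom1 (GamH (L.lvl U) ⊤) O →ₗ[O] Hom1 (GamH (L.lvl V) ⊤) O)
    (hf₀ : ∀ r z, f₀ (Frame.scalarsHom O _ r z) = Frame.scalarsHom O _ r (f₀ z))
    (hst : (∀ z, (T.frame V).e (f ((T.frame U).e z)) = f ((T.frame U).e z)) ∨
      ¬ HasSys L.S c (L.lvl V))
    (hcomm : ∀ z, T.corU V (f z) = f₀ (T.corU U z))
    (a : Fin (T.frame U).d → MonoidAlgebra O G) :
    T.redL V ((T.frame U).transfer (T.frame V) f hf a) =
      (L.frame c U).transfer (L.frame c V) f₀ hf₀ (T.redL U a) := by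
  rcases hst with hst | hns
  · exact (T.frame U).red_transfer (T.frame V) (L.frame c U) T.aug (T.frame_d U) (L.frame c V)
      (T.frame_d V) (T.corU U) (T.corU V) (T.corU_emb U) (T.corU_emb V) f hf f₀ hf₀ hst hcomm a
  · funext i
    exact absurd (lt_of_lt_of_eq i.2 (base_d_eq_zero (c := c) V hns)) (Nat.not_lt_zero _)

theorem redL_smul (U : Finset X) (r : MonoidAlgebra O G)
    (a : Fin (T.frame U).d → MonoidAlgebra O G) :
    T.redL U (r • a) = MonoidAlgebra.lift O O G 1 r • T.redL U a :=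
  (T.frame U).red_smul (L.frame c U) T.aug (T.frame_d U) r a

theorem redL_surjective (U : Finset X) : Function.Surjective (T.redL U) :=
  (T.frame U).red_surjective (L.frame c U) T.aug (T.frame_d U)

theorem rank_eq (U : Finset X) :
    Module.finrank (MonoidAlgebra O G) (Fin (T.frame U).d → MonoidAlgebra O G) =
      Module.finrank O (Fin (L.frame c U).d → O) := by
  rw [Module.finrank_fin_fun, Module.finrank_fin_fun, T.frame_d]

theorem redL_T (U : Finset X) (ℓ : ℕ) (hℓ : ℓ.Prime) (hb : ℓ ∉ bad')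
    (z : Fin (T.frame U).d → MonoidAlgebra O G) :
    T.redL U (T.actD U (T.TD U ℓ) z) = L.actB c U (L.TB c U ℓ) (T.redL U z) := by
  have : Fact ℓ.Prime := ⟨hℓ⟩
  have h₁ := T.not_dvd_of_not_bad hℓ hb U
  have h₂ := L.not_dvd_of_not_bad hℓ (fun h => hb (T.sub_bad h)) U
  have hcomm : ∀ w, T.corU U (goodOp (T.lvl U) (T.H U) O (T.Tlift U ⟨ℓ, hℓ, h₁⟩) w) =
      goodOp (L.lvl U) ⊤ O (goodTp (L.lvl U) ⊤ O ⟨ℓ, hℓ, h₂⟩) (T.corU U w) := fun w => by
    rw [T.goodOp_Tlift, T.corU_dHomG, T.corU_Tc U h₁, goodOp_goodTp]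
  have h : T.redL U (goodAct (T.frame U) (T.goodOp_rho U) (T.goodOp_frame_e U)
        (Ideal.Quotient.mk _ (T.Tlift U ⟨ℓ, hℓ, h₁⟩)) z) =
      goodAct (L.frame c U) (L.goodOp_scalars U) (L.goodOp_frame_e c U)
        (goodT (L.frame c U).e ⟨ℓ, hℓ, h₂⟩) (T.redL U z) :=
    T.red_map (goodOp (T.lvl U) (T.H U) O (T.Tlift U ⟨ℓ, hℓ, h₁⟩)) (T.goodOp_rho U _)
      (goodOp (L.lvl U) ⊤ O (goodTp (L.lvl U) ⊤ O ⟨ℓ, hℓ, h₂⟩)) (L.goodOp_scalars U _)
      (Or.inl fun w => by rw [← T.goodOp_frame_e, Frame.e_e]) hcomm z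
  have gen : ∀ (y : T.alg U) (y' : L.alg c U),
      y.1 = Ideal.Quotient.mk _ (T.Tlift U ⟨ℓ, hℓ, h₁⟩) →
      y'.1 = goodT (L.frame c U).e ⟨ℓ, hℓ, h₂⟩ →
      T.redL U (T.actD U y z) = L.actB c U y' (T.redL U z) := by
    intro y y' hy hy'
    show T.redL U (goodAct (T.frame U) (T.goodOp_rho U) (T.goodOp_frame_e U) y.1 z) =
      goodAct (L.frame c U) (L.goodOp_scalars U) (L.goodOp_frame_e c U) y'.1 (T.redL U z)
    rw [hy, hy']
    exact h
  have hc : ℓ ∈ L.core := L.core_of_not_bad fun h => hb (T.sub_bad h)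
  exact gen (T.TD U ℓ) (L.TB c U ℓ) (T.TD_mk U ⟨hℓ, h₁⟩ hc) (L.TB_val c U hℓ h₂ hc)

theorem redL_up {U : Finset X} {x : X} (hx : x ∈ U)
    (a b : Fin (T.frame (U.erase x)).d → MonoidAlgebra O G) :
    T.redL U (T.upA hx a + T.upB hx b) =
      L.up₁ c hx (T.redL (U.erase x) a) + L.up₂ c hx (T.redL (U.erase x) b) := by
  have : Fact (qn x).Prime := ⟨L.prime x⟩
  rw [map_add]
  refine congrArg₂ (· + ·) (T.red_map _ _ _ _ (Or.inl (T.r₁_stable hx)) (fun z => ?_) a)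
    (T.red_map _ _ _ _ (Or.inl (T.r₂_stable hx)) (fun z => ?_) b)
  · exact ((T.isStep hx).res_cores' (L.isStep hx) (T.base_dvd (U.erase x)) z).symm
  · show T.corU U ((T.isStep hx).I2'.act (T.dHomG (U.erase x) (T.σ (qn x)) z)) =
      (L.isStep hx).I2'.act (T.corU (U.erase x) z)
    rw [← T.corU_dHomG (U.erase x) (T.σ (qn x)) z]
    exact ((T.isStep hx).I2_cores' (L.isStep hx) (T.base_dvd (U.erase x)) _).symm

theorem redL_down {U : Finset X} {x : X} (hx : x ∈ U)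
    (z : Fin (T.frame U).d → MonoidAlgebra O G) :
    L.down₁ c (x := x) (T.redL U z) = T.redL (U.erase x) (T.downA hx z) ∧
      L.down₂ c hx (T.redL U z) = T.redL (U.erase x) (T.downB hx z) := by
  have : Fact (qn x).Prime := ⟨L.prime x⟩
  have hst : ∀ (f : Hom1 (GamH (T.lvl U) (T.H U)) O →ₗ[O]
        Hom1 (GamH (T.lvl (U.erase x)) (T.H (U.erase x))) O),
      (∀ ℓ : Nat.Primes, ℓ ∉ L.S → ∀ w, f ((Tc (T.lvl U) (T.H U) (ℓ : ℕ)).act w) =
        (Tc (T.lvl (U.erase x)) (T.H (U.erase x)) (ℓ : ℕ)).act (f w)) →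
      (∀ g w, f (T.dHomG U g w) = T.dHomG (U.erase x) g (f w)) →
      (∀ w, (T.frame (U.erase x)).e (f ((T.frame U).e w)) = f ((T.frame U).e w)) ∨
        ¬ HasSys L.S c (L.lvl (U.erase x)) := by
    intro f hT hG
    by_cases h : HasSys L.S c (L.lvl (U.erase x))
    · exact Or.inl fun w => by
        rw [T.frame_intertwine (hasSys_up (c := c) hx h) h f hT hG, Frame.e_e]
    · exact Or.inr h
  refine ⟨(T.red_map _ _ _ _ (hst _ (fun ℓ hℓ => T.c₁_Tc hx (L.ne_qn_of_not_mem x ℓ hℓ))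
    (T.c₁_dHomG hx)) (fun w => ?_) z).symm,
    (T.red_map _ _ _ _ (hst _ (fun ℓ hℓ => T.c₂_Tc hx (L.ne_qn_of_not_mem x ℓ hℓ))
    (T.c₂_dHomG hx)) (fun w => ?_) z).symm⟩
  · exact (T.isStep hx).cores_cores' (L.isStep hx) (T.base_dvd (U.erase x)) w
  · show T.corU (U.erase x) (T.dHomG (U.erase x) (T.σ (qn x))⁻¹ ((T.isStep hx).J2'.act w)) =
      (L.isStep hx).J2'.act (T.corU U w)
    rw [T.corU_dHomG]
    exact (T.isStep hx).J2_cores' (L.isStep hx) (T.base_dvd (U.erase x)) w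

theorem depthLevels_up_apply {U : Finset X} {x : X} (hx : x ∈ U)
    (a b : Fin (T.frame (U.erase x)).d → MonoidAlgebra O G) :
    T.depthLevels.up U x (a, b) = T.upA hx a + T.upB hx b := by
  show (if hx : x ∈ U then (T.upA hx).coprod (T.upB hx) else 0) (a, b) = _
  rw [dif_pos hx]
  rfl

theorem depthLevels_down_apply {U : Finset X} {x : X} (hx : x ∈ U)
    (w : Fin (T.frame U).d → MonoidAlgebra O G) :
    T.depthLevels.down U x w = (T.downA hx w, T.downB hx w) := by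
  show (if hx : x ∈ U then (T.downA hx).prod (T.downB hx) else 0) w = _
  rw [dif_pos hx]
  rfl

/-- The reduction to the base. -/
def red (U : Finset X) : T.depthLevels.M U →+ (L.baseLevels c).M U := (T.redL U).toAddMonoidHom

theorem red_smul (U : Finset X) (r : MonoidAlgebra O G) (z : T.depthLevels.M U) :
    T.red U (r • z) = MonoidAlgebra.lift O O G 1 r • T.red U z := T.redL_smul U r z

theorem red_surjective (U : Finset X) : Function.Surjective (T.red U) := T.redL_surjective U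

theorem red_T (U : Finset X) (ℓ : ℕ) (hℓ : ℓ.Prime) (hb : ℓ ∉ bad') (z : T.depthLevels.M U) :
    T.red U (T.depthLevels.act U (T.depthLevels.T U ℓ) z) =
      (L.baseLevels c).act U ((L.baseLevels c).T U ℓ) (T.red U z) := T.redL_T U ℓ hℓ hb z

theorem red_up (U : Finset X) (x : X) (hx : x ∈ U) (a b : T.depthLevels.M (U.erase x)) :
    T.red U (T.depthLevels.up U x (a, b)) =
      (L.baseLevels c).up U x (T.red (U.erase x) a, T.red (U.erase x) b) :=
  ((congrArg (T.redL U) (T.depthLevels_up_apply hx a b)).trans (T.redL_up hx a b)).trans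
    (L.baseLevels_up_apply c hx _ _).symm

theorem red_down (U : Finset X) (x : X) (hx : x ∈ U) (z : T.depthLevels.M U) :
    (L.baseLevels c).down U x (T.red U z) =
      (T.red (U.erase x) (T.depthLevels.down U x z).1,
        T.red (U.erase x) (T.depthLevels.down U x z).2) := by
  refine (L.baseLevels_down_apply c hx _).trans ?_
  refine Eq.trans ?_ (congrArg (fun w => (T.redL (U.erase x) w.1, T.redL (U.erase x) w.2))
    (T.depthLevels_down_apply hx z)).symm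
  exact Prod.ext (T.redL_down hx z).1 (T.redL_down hx z).2

end TWPart

end depth

section setup

open FA.RT

local notation "GQ" => AlgebraicClosure ℚ ≃ₐ[ℚ] AlgebraicClosure ℚ
local notation "M2" => Matrix (Fin 2) (Fin 2)

variable {O : Type} [CommRing O] [IsDomain O] [IsDiscreteValuationRing O]
  [IsAdicComplete (maximalIdeal O) O] [CharZero O] {S : Setup O} {Q : Type} [DecidableEq Q]
  {emb : Q → ↥S.Sig} {bad : Finset ℕ}
  {AtP : ∀ (B : Type) [CommRing B] [IsLocalRing B] [Algebra O B], (GQ →* M2 B) → Prop}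
  {L : LevelSet (fun x => (emb x).1) bad} {c : Nat.Primes → ResidueField O}
  {hNE : ∀ N : ℕ, N ≠ 0 → ∃ ℓ : Nat.Primes, ¬ (ℓ : ℕ) ∣ N ∧
    ((ℓ : ℕ) : ZMod N) = 1 ∧ c ℓ ≠ ((ℓ : ℕ) : ResidueField O) + 1}
  {sep₀ : ∀ U, S.Separation emb (L.baseLevels c) U (S.BaseAllowed AtP)}
  {r n : ℕ} {D : S.TWSet r n} {ab : Fin r → ResidueField O}

/-- **The tower at one set of Taylor-Wiles primes, with separating lifts.** -/
def TWPart.depthTower
    (T : haveI : NeZero S.p := ⟨S.hp.ne_zero⟩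
      TWPart L c (DGroup S.p D.expo) (bad ∪ Finset.univ.image D.qv))
    (sep : haveI : NeZero S.p := ⟨S.hp.ne_zero⟩
      ∀ U, S.Separation emb T.depthLevels U (D.Allowed AtP))
    (ev_dia : haveI : NeZero S.p := ⟨S.hp.ne_zero⟩
      ∀ U (i : Fin r) (j : (sep U).pts.J), ∃ a : (sep U).pts.B j, (sep U).pts.ε j a = ab i ∧
        a * a - ((sep U).pts.r j (D.φ i)).trace * a + ((sep U).pts.r j (D.φ i)).det = 0 ∧
        (2 * a - ((sep U).pts.r j (D.φ i)).trace) * (sep U).ev (T.diaA U (dGen S.p D.expo i)) j =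
          ((sep U).pts.r j (D.φ i) * (sep U).pts.r j (D.s i)).trace -
            (((sep U).pts.r j (D.φ i)).trace - a) * ((sep U).pts.r j (D.s i)).trace) :
    Setup.DepthTower (L.baseTower S c hNE sep₀) D ab :=
  haveI : NeZero S.p := ⟨S.hp.ne_zero⟩
  { levels := T.depthLevels
    dia := T.diaA
    act_dia := T.act_diaA
    sep := sep
    ev_dia := ev_dia
    red := T.red
    red_smul := T.red_smul
    red_surjective := T.red_surjective
    rank_eq := T.rank_eq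
    red_T := T.red_T
    red_up := T.red_up
    red_down := T.red_down }

end setup

end FA.HeckeH1

end
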