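import Fermat.Agent.HeckeH1.QInt

/-!
Elementary generation of `SL(2, ℤ[1/q])` and strong approximation by elementary matrices.
-/

set_option autoImplicit false

namespace FA.HeckeH1

/-- Conjugates of elementary matrices of level `L`. -/
def conjSet (q L : ℕ) : Set SLQ :=
  {g | ∃ h ∈ Lvl q 1, ∃ a, Idl q L a ∧ g = h * ex a * h⁻¹}

/-- The normal subgroup generated by elementary matrices of level `L`. -/
def EL (q L : ℕ) : Subgroup SLQ := Subgroup.closure (conjSet q L)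

theorem conjSet_subset (q L : ℕ) : conjSet q L ⊆ Lvl q L := by
  rintro g ⟨h, hh, a, ha, rfl⟩
  exact conj_mem hh (ex_mem ha)

theorem EL_le (q L : ℕ) : EL q L ≤ Lvl q L := (Subgroup.closure_le _).2 (conjSet_subset q L)

theorem ex_mem_EL {q L : ℕ} {a : ℚ} (ha : Idl q L a) : ex a ∈ EL q L :=
  Subgroup.subset_closure ⟨1, one_mem _, a, ha, by simp⟩

theorem ey_mem_EL {q L : ℕ} {a : ℚ} (ha : Idl q L a) : ey a ∈ EL q L :=
  Subgroup.subset_closure ⟨ew, ew_mem, -a, ha.neg, by rw [ew_ex, neg_neg]⟩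

theorem conj_mem_EL {q L : ℕ} {h e : SLQ} (hh : h ∈ Lvl q 1) (he : e ∈ EL q L) :
    h * e * h⁻¹ ∈ EL q L := by
  refine Subgroup.closure_induction (p := fun x _ => h * x * h⁻¹ ∈ EL q L) ?_ ?_ ?_ ?_ he
  · rintro x ⟨k, hk, a, ha, rfl⟩
    exact Subgroup.subset_closure ⟨h * k, mul_mem hh hk, a, ha, by group⟩
  · simp [one_mem]
  · intro x y _ _ hx hy
    have e : h * (x * y) * h⁻¹ = h * x * h⁻¹ * (h * y * h⁻¹) := by group
    rw [e]; exact mul_mem hx hy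
  · intro x _ hx
    have e : h * x⁻¹ * h⁻¹ = (h * x * h⁻¹)⁻¹ := by group
    rw [e]; exact inv_mem hx

theorem inv_mul_mem_Lvl {q M : ℕ} {g k : SLQ} (hg : g ∈ Lvl q 1)
    (h00 : Idl q M (k.1 0 0 - g.1 0 0)) (h01 : Idl q M (k.1 0 1 - g.1 0 1))
    (h10 : Idl q M (k.1 1 0 - g.1 1 0)) (h11 : Idl q M (k.1 1 1 - g.1 1 1)) :
    g⁻¹ * k ∈ Lvl q M := by
  obtain ⟨a, b, c, d⟩ := mem_Lvl_one_iff.1 hg
  have hd := det_entries g
  refine ⟨?_, ?_, ?_, ?_⟩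
  · rw [mul00, inv00, inv01]
    convert (h00.mul_left d).sub (h10.mul_left b) using 1
    linear_combination hd
  · rw [mul01, inv00, inv01]
    convert (h01.mul_left d).sub (h11.mul_left b) using 1
    ring
  · rw [mul10, inv10, inv11]
    convert (h10.mul_left a).sub (h00.mul_left c) using 1
    ring
  · rw [mul11, inv10, inv11]
    convert (h11.mul_left a).sub (h01.mul_left c) using 1
    linear_combination hd

theorem exists_coprime_shift {M : ℕ} (hM : M ≠ 0) {L d c : ℤ}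
    (h : ∀ p : ℕ, p.Prime → p ∣ M → ((p : ℤ) ∣ L → ¬ (p : ℤ) ∣ d) ∧ ((p : ℤ) ∣ d → ¬ (p : ℤ) ∣ c)) :
    ∃ t : ℤ, IsCoprime (d + L * c * t) (M : ℤ) := by
  classical
  let T : Finset ℕ := M.primeFactors.filter (fun p : ℕ => ¬ (p : ℤ) ∣ d)
  refine ⟨((∏ p ∈ T, p : ℕ) : ℤ), ?_⟩
  rw [Int.isCoprime_iff_nat_coprime, Int.natAbs_natCast]
  refine Nat.coprime_of_dvd fun p hp h1 h2 => ?_
  have hpz : Prime (p : ℤ) := Nat.prime_iff_prime_int.1 hp
  have h1' : (p : ℤ) ∣ d + L * c * ((∏ p ∈ T, p : ℕ) : ℤ) := Int.natCast_dvd.2 h1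
  by_cases hpd : (p : ℤ) ∣ d
  · have h3 : (p : ℤ) ∣ L * c * ((∏ p ∈ T, p : ℕ) : ℤ) := (dvd_add_right hpd).1 h1'
    rcases hpz.dvd_mul.1 h3 with h4 | h4
    · rcases hpz.dvd_mul.1 h4 with h5 | h5
      · exact (h p hp h2).1 h5 hpd
      · exact (h p hp h2).2 hpd h5
    · obtain ⟨r, hr, hpr⟩ := (hp.prime.dvd_finsetProd_iff _).1 (Int.natCast_dvd_natCast.1 h4)
      rw [Finset.mem_filter] at hr
      have : p = r := (Nat.prime_dvd_prime_iff_eq hp (Nat.prime_of_mem_primeFactors hr.1)).1 hpr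
      exact hr.2 (this ▸ hpd)
  · have hpT : p ∈ T := Finset.mem_filter.2 ⟨(Nat.mem_primeFactors_of_ne_zero hM).2 ⟨hp, h2⟩, hpd⟩
    have h3 : (p : ℤ) ∣ ((∏ p ∈ T, p : ℕ) : ℤ) :=
      Int.natCast_dvd_natCast.2 (Finset.dvd_prod_of_mem _ hpT)
    exact hpd ((dvd_add_left (h3.mul_left _)).1 h1')

/-- Strong approximation by elementary matrices. -/
theorem exists_EL_mul_mem {q : ℕ} {L M : ℕ} (hM : M ≠ 0) (hqM : q.Coprime M)
    {g : SLQ} (hg : g ∈ Lvl q L) :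
    ∃ e ∈ EL q L, e * g ∈ Lvl q M := by
  obtain ⟨hga, hgb, hgc, hgd⟩ := id hg
  have hg1 : g ∈ Lvl q 1 := Lvl_le (one_dvd L) hg
  obtain ⟨ga, gb, gc, gd⟩ := mem_Lvl_one_iff.1 hg1
  obtain ⟨a', ha'⟩ := exists_int_idl hqM ga
  obtain ⟨b', hb'⟩ := exists_int_idl hqM gb
  obtain ⟨c', hc'⟩ := exists_int_idl hqM gc
  obtain ⟨d', hd'⟩ := exists_int_idl hqM gd
  have key : (M : ℤ) ∣ a' * d' - b' * c' - 1 := by
    apply int_dvd_of_idl hqM
    have e : (((a' * d' - b' * c' - 1 : ℤ)) : ℚ) =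
        -(g.1 0 0 - a') * g.1 1 1 - (a' : ℚ) * (g.1 1 1 - d') +
        (g.1 0 1 - b') * g.1 1 0 + (b' : ℚ) * (g.1 1 0 - c') := by
      push_cast; linear_combination det_entries g
    rw [e]
    exact (((ha'.neg.mul_right gd).sub (hd'.mul_left (int_mem_QInt _))).add
      (hb'.mul_right gc)).add (hc'.mul_left (int_mem_QInt _))
  obtain ⟨t, ht⟩ : ∃ t : ℤ, IsCoprime (d' + (L : ℤ) * c' * t) (M : ℤ) := by
    refine exists_coprime_shift hM fun p hp hpM => ⟨fun hpL hpd => ?_, fun hpd hpc => ?_⟩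
    · have hqp : q.Coprime p := Nat.Coprime.coprime_dvd_right hpM hqM
      have h1 : Idl q p ((d' : ℚ) - 1) := by
        have e : (d' : ℚ) - 1 = -(g.1 1 1 - d') + (g.1 1 1 - 1) := by ring
        rw [e]
        exact (hd'.of_dvd hpM).neg.add (hgd.of_dvd (Int.natCast_dvd_natCast.1 hpL))
      have h2 : (p : ℤ) ∣ d' - 1 := int_dvd_of_idl hqp (by push_cast; exact h1)
      exact (Nat.prime_iff_prime_int.1 hp).not_dvd_one (by simpa using dvd_sub hpd h2)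
    · have h1 : (p : ℤ) ∣ a' * d' - b' * c' - 1 := (Int.natCast_dvd_natCast.2 hpM).trans key
      exact (Nat.prime_iff_prime_int.1 hp).not_dvd_one
        (by simpa using dvd_sub (dvd_sub (hpd.mul_left a') (hpc.mul_left b')) h1)
  obtain ⟨u, v, huv⟩ := ht
  set s : ℚ := (L : ℚ) * (t : ℚ) with hs
  have hsI : Idl q L s := ⟨t, int_mem_QInt t, hs⟩
  set g1 : SLQ := g * ex s with hg1'
  have hg1m : g1 ∈ Lvl q L := mul_mem hg (ex_mem hsI)
  obtain ⟨h1a, h1b, h1c, h1d⟩ := id hg1m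
  obtain ⟨A, B, C, D⟩ := mem_Lvl_one_iff.1 (Lvl_le (one_dvd L) hg1m)
  have hD : Idl q M (g1.1 1 1 * (u : ℚ) - 1) := by
    have huv' : (u : ℚ) * ((d' : ℚ) + (L : ℚ) * c' * t) + (v : ℚ) * M = 1 := by
      exact_mod_cast huv
    have e : g1.1 1 1 * (u : ℚ) - 1 =
        ((g.1 1 1 - d') + (g.1 1 0 - c') * s) * (u : ℚ) - (v : ℚ) * M := by
      rw [hg1', mul11, ex01, ex11, hs]; linear_combination huv'
    rw [e]
    exact ((hd'.add (hc'.mul_right hsI.mem)).mul_right (int_mem_QInt u)).sub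
      (Idl.self.mul_left (int_mem_QInt v))
  set d := g1.1 1 1 with hdd
  set b := g1.1 0 1 with hbd
  set c := g1.1 1 0 with hcd
  set β : ℚ := (b - (d - 1)) * u with hβ
  set γ : ℚ := ((d - 1) + c) * u with hγ
  have hβI : Idl q L β := (h1b.sub h1d).mul_right (int_mem_QInt u)
  have hγI : Idl q L γ := (h1d.add h1c).mul_right (int_mem_QInt u)
  set E : SLQ := ex β * (ey 1 * ex (d - 1) * ey (-1)) * ey γ with hE
  have hey1 : ey (1 : ℚ) ∈ Lvl q 1 := ey_mem (Idl.one_iff.2 (one_mem _))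
  have hEm : E ∈ EL q L := by
    refine mul_mem (mul_mem (ex_mem_EL hβI) ?_) (ey_mem_EL hγI)
    rw [show ey (-1 : ℚ) = (ey 1)⁻¹ from ey_neg 1]
    exact conj_mem_EL hey1 (ex_mem_EL h1d)
  have hEL1 : E ∈ Lvl q 1 := Lvl_le (one_dvd L) (EL_le q L hEm)
  obtain ⟨EA, EB, EC, -⟩ := mem_Lvl_one_iff.1 hEL1
  have e11 : E.1 1 1 = d := by simp [hE, mul00, mul01, mul10, mul11]
  have e01 : E.1 0 1 = d - 1 + β * d := by simp [hE, mul00, mul01, mul10, mul11]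
  have e10 : E.1 1 0 = 1 - d + d * γ := by
    simp [hE, mul00, mul01, mul10, mul11]; ring
  have i01 : Idl q M (g1.1 0 1 - E.1 0 1) := by
    convert (hD.mul_left (sub_mem B (sub_mem D (one_mem _)))).neg using 1
    rw [e01, hβ, ← hbd]; ring
  have i10 : Idl q M (g1.1 1 0 - E.1 1 0) := by
    convert (hD.mul_left (add_mem (sub_mem D (one_mem _)) C)).neg using 1
    rw [e10, hγ, ← hcd]; ring
  have i11 : Idl q M (g1.1 1 1 - E.1 1 1) := by
    rw [e11, ← hdd, sub_self]; exact Idl.zero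
  have i00 : Idl q M (g1.1 0 0 - E.1 0 0) := by
    have h1 := det_entries g1
    have h2 := det_entries E
    rw [e11] at h2
    rw [← hdd] at h1
    have e : g1.1 0 0 - E.1 0 0 =
        (u : ℚ) * ((g1.1 0 1 - E.1 0 1) * g1.1 1 0 + E.1 0 1 * (g1.1 1 0 - E.1 1 0))
        - (d * (u : ℚ) - 1) * (g1.1 0 0 - E.1 0 0) := by
      linear_combination (u : ℚ) * h1 - (u : ℚ) * h2
    rw [e]
    exact (((i01.mul_right C).add (i10.mul_left EB)).mul_left (int_mem_QInt u)).sub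
      (hD.mul_right (sub_mem A EA))
  have hfin : E⁻¹ * g1 ∈ Lvl q M := inv_mul_mem_Lvl hEL1 i00 i01 i10 i11
  refine ⟨E⁻¹ * (g * ex s * g⁻¹), mul_mem (inv_mem hEm) (conj_mem_EL hg1 (ex_mem_EL hsI)), ?_⟩
  have e : E⁻¹ * (g * ex s * g⁻¹) * g = E⁻¹ * g1 := by rw [hg1']; group
  rw [e]; exact hfin

/-- The subgroup generated by elementary matrices over `ℤ[1/q]`. -/
def GenSub (q : ℕ) : Subgroup SLQ :=
  Subgroup.closure {g | ∃ a ∈ QInt q, g = ex a ∨ g = ey a}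

theorem ex_mem_GenSub {q : ℕ} {a : ℚ} (ha : a ∈ QInt q) : ex a ∈ GenSub q :=
  Subgroup.subset_closure ⟨a, ha, Or.inl rfl⟩

theorem ey_mem_GenSub {q : ℕ} {a : ℚ} (ha : a ∈ QInt q) : ey a ∈ GenSub q :=
  Subgroup.subset_closure ⟨a, ha, Or.inr rfl⟩

theorem ew_eq : ew = ey 1 * ex (-1) * ey 1 := by
  apply slq_ext <;> simp [mul00, mul01, mul10, mul11]

theorem ew_mem_GenSub {q : ℕ} : ew ∈ GenSub q := by
  rw [ew_eq]
  exact mul_mem (mul_mem (ey_mem_GenSub (one_mem _)) (ex_mem_GenSub (neg_mem (one_mem _))))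
    (ey_mem_GenSub (one_mem _))

theorem dg_eq (u : ℚˣ) : dg u = ex u * ey (-((u⁻¹ : ℚˣ) : ℚ)) * ex u * ew := by
  apply slq_ext <;> simp [mul00, mul01, mul10, mul11]

/-- The map `SL(2, ℤ) → SL(2, ℚ)`. -/
def toSLQ : Matrix.SpecialLinearGroup (Fin 2) ℤ →* SLQ :=
  Matrix.SpecialLinearGroup.map (Int.castRingHom ℚ)

@[simp] theorem toSLQ_apply (g : Matrix.SpecialLinearGroup (Fin 2) ℤ) (i j : Fin 2) :
    (toSLQ g).1 i j = (g.1 i j : ℚ) := rfl

theorem toSLQ_mem_GenSub {q : ℕ} (g : Matrix.SpecialLinearGroup (Fin 2) ℤ) :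
    toSLQ g ∈ GenSub q := by
  have h : g ∈ Subgroup.closure {ModularGroup.S, ModularGroup.T} := by
    rw [SpecialLinearGroup.SL2Z_generators]; trivial
  refine Subgroup.closure_induction (p := fun x _ => toSLQ x ∈ GenSub q) ?_ ?_ ?_ ?_ h
  · rintro x (rfl | rfl)
    · convert ew_mem_GenSub (q := q) using 1
      apply slq_ext <;> simp [ModularGroup.coe_S]
    · convert ex_mem_GenSub (q := q) (one_mem _) using 1
      apply slq_ext <;> simp [ModularGroup.coe_T]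
  · simp [one_mem]
  · intro x y _ _ hx hy
    rw [map_mul]; exact mul_mem hx hy
  · intro x _ hx
    rw [map_inv]; exact inv_mem hx

theorem Lvl_one_le_GenSub {q : ℕ} (hq : q.Prime) : Lvl q 1 ≤ GenSub q := by
  intro g hg
  obtain ⟨ga, gb, gc, gd⟩ := mem_Lvl_one_iff.1 hg
  obtain ⟨k1, A, hA⟩ := mem_QInt.1 ga
  obtain ⟨k2, C, hC⟩ := mem_QInt.1 gc
  obtain ⟨k3, B, hB⟩ := mem_QInt.1 gb
  obtain ⟨k4, D, hD⟩ := mem_QInt.1 gd
  set A0 : ℤ := A * (q : ℤ) ^ k2 with hA0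
  set C0 : ℤ := C * (q : ℤ) ^ k1 with hC0
  have hq0 : (q : ℚ) ≠ 0 := by exact_mod_cast hq.ne_zero
  have ha0 : g.1 0 0 * (q : ℚ) ^ (k1 + k2) = (A0 : ℚ) := by
    rw [hA0, pow_add]; push_cast; rw [← hA]; ring
  have hc0 : g.1 1 0 * (q : ℚ) ^ (k1 + k2) = (C0 : ℚ) := by
    rw [hC0, pow_add]; push_cast; rw [← hC]; ring
  have hdet : A0 * (D * (q : ℤ) ^ k3) - C0 * (B * (q : ℤ) ^ k4) =
      (q : ℤ) ^ (k1 + k2 + k3 + k4) := by
    have h := det_entries g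
    have : (A0 : ℚ) * ((D : ℚ) * (q : ℚ) ^ k3) - (C0 : ℚ) * ((B : ℚ) * (q : ℚ) ^ k4) =
        (q : ℚ) ^ (k1 + k2 + k3 + k4) := by
      rw [← ha0, ← hc0, ← hD, ← hB]
      simp only [pow_add]
      linear_combination ((q : ℚ) ^ k1 * (q : ℚ) ^ k2 * (q : ℚ) ^ k3 * (q : ℚ) ^ k4) * h
    exact_mod_cast this
  set G : ℕ := Int.gcd A0 C0 with hG
  have hGd : (G : ℤ) ∣ (q : ℤ) ^ (k1 + k2 + k3 + k4) :=
    hdet ▸ dvd_sub ((Int.gcd_dvd_left _ _).mul_right _) ((Int.gcd_dvd_right _ _).mul_right _)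
  obtain ⟨j, -, hj⟩ := (Nat.dvd_prime_pow hq).1 (by exact_mod_cast hGd : G ∣ q ^ (k1 + k2 + k3 + k4))
  have hG0 : (G : ℤ) ≠ 0 := by
    rw [hj]; exact_mod_cast (pow_pos hq.pos j).ne'
  obtain ⟨A', hA'⟩ : (G : ℤ) ∣ A0 := Int.gcd_dvd_left _ _
  obtain ⟨C', hC'⟩ : (G : ℤ) ∣ C0 := Int.gcd_dvd_right _ _
  have hbez := Int.gcd_eq_gcd_ab A0 C0
  have hone : Int.gcdA A0 C0 * A' + Int.gcdB A0 C0 * C' = 1 := by
    apply mul_left_cancel₀ hG0
    rw [← hG] at hbez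
    linear_combination -(hbez) - Int.gcdA A0 C0 * hA' - Int.gcdB A0 C0 * hC'
  let h : Matrix.SpecialLinearGroup (Fin 2) ℤ :=
    ⟨!![Int.gcdA A0 C0, Int.gcdB A0 C0; -C', A'], by
      rw [Matrix.det_fin_two_of]; linear_combination hone⟩
  set k : SLQ := toSLQ h * g with hk
  have hk10 : k.1 1 0 = 0 := by
    have h1 : k.1 1 0 * (q : ℚ) ^ (k1 + k2) = 0 := by
      rw [hk, mul10, add_mul, mul_assoc, mul_assoc, ha0, hc0, hA', hC']
      simp only [toSLQ_apply]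
      simp [h]; ring
    exact (mul_eq_zero.1 h1).resolve_right (pow_ne_zero _ hq0)
  have hk00 : k.1 0 0 * (q : ℚ) ^ (k1 + k2) = (q : ℚ) ^ j := by
    rw [hk, mul00, add_mul, mul_assoc, mul_assoc, ha0, hc0]
    have : ((G : ℤ) : ℚ) = (q : ℚ) ^ j := by rw [hj]; push_cast; rfl
    rw [← this]
    simp only [toSLQ_apply]
    simp [h]
    rw [← hG] at hbez
    have h2 : ((G : ℤ) : ℚ) = (A0 : ℚ) * (Int.gcdA A0 C0 : ℚ) + (C0 : ℚ) * (Int.gcdB A0 C0 : ℚ) := by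
      exact_mod_cast hbez
    rw [Int.cast_natCast] at h2
    linear_combination -h2
  set U : ℚˣ := qu q hq.ne_zero j * (qu q hq.ne_zero (k1 + k2))⁻¹ with hU
  have hUval : (U : ℚ) = k.1 0 0 := by
    rw [hU, Units.val_mul, qu_val, qu_inv_val, ← hk00, mul_assoc,
      mul_inv_cancel₀ (pow_ne_zero _ hq0), mul_one]
  have hUmem : (U : ℚ) ∈ QInt q := by
    rw [hU, Units.val_mul, qu_val, qu_inv_val]
    exact mul_mem (pow_mem (nat_mem_QInt q) _) (inv_pow_mem_QInt hq.ne_zero _)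
  have hUinv : ((U⁻¹ : ℚˣ) : ℚ) ∈ QInt q := by
    rw [hU, mul_inv_rev, inv_inv, Units.val_mul, qu_val, qu_inv_val]
    exact mul_mem (pow_mem (nat_mem_QInt q) _) (inv_pow_mem_QInt hq.ne_zero _)
  have hkd : k.1 1 1 = ((U⁻¹ : ℚˣ) : ℚ) := by
    have h1 := det_entries k
    rw [hk10, mul_zero, sub_zero, ← hUval] at h1
    rw [Units.val_inv_eq_inv_val]
    exact eq_inv_of_mul_eq_one_right h1
  have hkb : k.1 0 1 ∈ QInt q := by
    rw [hk, mul01]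
    exact add_mem (mul_mem (by simp) gb) (mul_mem (by simp) gd)
  have hkeq : k = ex (k.1 0 1 * (U : ℚ)) * dg U := by
    apply slq_ext
    · simp [mul00, ← hUval]
    · simp [mul01]
    · simp [mul10, hk10]
    · simp [mul11, hkd]
  have hkm : k ∈ GenSub q := by
    rw [hkeq, dg_eq]
    exact mul_mem (ex_mem_GenSub (mul_mem hkb hUmem))
      (mul_mem (mul_mem (mul_mem (ex_mem_GenSub hUmem) (ey_mem_GenSub (neg_mem hUinv)))
        (ex_mem_GenSub hUmem)) ew_mem_GenSub)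
  have : g = (toSLQ h)⁻¹ * k := by rw [hk]; group
  rw [this]
  exact mul_mem (inv_mem (toSLQ_mem_GenSub h)) hkm

end FA.HeckeH1
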