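import Fermat.Agent.HeckeH1.SLMod

/-!
For exponent `p` coefficients, homomorphisms on `Γ*(N)` are invariant under conjugation by
`diag(1, l)` on a deep congruence subgroup: central extensions of `SL(2, 𝔽_l)` by `p`-groups
are trivial.
-/

set_option autoImplicit false

namespace FA.HeckeH1

variable {C : Type*} [AddCommGroup C]

theorem killMod_dvd {q a b : ℕ} (h : a ∣ b) : killMod q a ∣ killMod q b := by
  refine mul_dvd_mul h ?_
  obtain ⟨c, hc⟩ := Nat.totient_dvd_of_dvd h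
  rw [hc, ← mul_assoc, pow_mul q (2 * a.totient) c]
  simpa using Nat.sub_dvd_pow_sub_pow (q ^ (2 * a.totient)) 1 c

theorem killMod_dvd_centralMod {q N : ℕ} : killMod q N ∣ centralMod q N :=
  dvd_mul_of_dvd_left (dvd_mul_of_dvd_left
    (killMod_dvd (dvd_mul_of_dvd_left (dvd_mul_right N _) _)) _) _

/-- Elements of `SL(2, ℤ[1/q])` with upper right entry divisible by `l`. -/
def Up (q l : ℕ) : Subgroup SLQ where
  carrier := {g | g ∈ Lvl q 1 ∧ Idl q l (g.1 0 1)}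
  one_mem' := ⟨one_mem _, by simp [Idl.zero]⟩
  mul_mem' := by
    rintro g k ⟨hg, hg'⟩ ⟨hk, hk'⟩
    refine ⟨mul_mem hg hk, ?_⟩
    rw [mul01]
    exact (hk'.mul_left (mem_Lvl_one_iff.1 hg).1).add (hg'.mul_right (mem_Lvl_one_iff.1 hk).2.2.2)
  inv_mem' := by
    rintro g ⟨hg, hg'⟩
    exact ⟨inv_mem hg, by rw [inv01]; exact hg'.neg⟩

theorem Lvl_le_Up (q l : ℕ) : Lvl q l ≤ Up q l := fun _ hg =>
  ⟨Lvl_le (one_dvd l) hg, hg.2.1⟩

theorem dconj_defect {q M l : ℕ} (hl : l ≠ 0) (hMl : (l : ℤ) ≡ 1 [ZMOD (M : ℤ)]) (L : ℚˣ)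
    (hL : (L : ℚ) = l) {g : SLQ} (hg : g ∈ Up q l) : dconj L g * g⁻¹ ∈ Lvl q M := by
  obtain ⟨hg1, hb⟩ := hg
  obtain ⟨a, b, c, d⟩ := mem_Lvl_one_iff.1 hg1
  have hLi : ((L⁻¹ : ℚˣ) : ℚ) = (l : ℚ)⁻¹ := by rw [Units.val_inv_eq_inv_val, hL]
  have hne : (l : ℚ) ≠ 0 := by exact_mod_cast hl
  obtain ⟨y, hy, hby⟩ := hb
  obtain ⟨e, he⟩ := hMl.symm.dvd
  have he' : (l : ℚ) - 1 = (M : ℚ) * e := by exact_mod_cast he
  have hI : Idl q M ((l : ℚ) - 1) := ⟨e, int_mem_QInt e, he'⟩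
  have h1 : g⁻¹ * dconj L g ∈ Lvl q M := by
    refine inv_mul_mem_Lvl hg1 (by simp [Idl.zero]) ?_ ?_ (by simp [Idl.zero])
    · convert (hI.mul_right hy).neg using 1
      rw [dconj01, hLi, hby]; field_simp; ring
    · convert hI.mul_right c using 1
      rw [dconj10, hL]; ring
  have := conj_mem hg1 h1
  rwa [show g * (g⁻¹ * dconj L g) * g⁻¹ = dconj L g * g⁻¹ by group] at this

section defect

variable {q N l : ℕ} (hq : q.Prime) (hN : 0 < N) (hqN : q.Coprime N) [hl : Fact l.Prime]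
  (hMl : (l : ℤ) ≡ 1 [ZMOD (centralMod q N : ℤ)]) {F : SLQ → C} (hF : AddOn (Lvl q N) F)
  (L : ℚˣ) (hL : (L : ℚ) = l)

include hq hN hqN hMl hF hL in
theorem defect_addOn : AddOn (Up q l) (fun g => F (dconj L g * g⁻¹)) := by
  intro g hg k hk
  have hk' := dconj_defect hl.out.ne_zero hMl L hL hk
  have hg' := dconj_defect hl.out.ne_zero hMl L hL hg
  have e : dconj L (g * k) * (g * k)⁻¹ =
      dconj L g * g⁻¹ * (g * (dconj L k * k⁻¹) * g⁻¹) := by rw [map_mul]; group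
  have hN' := Lvl_le (q := q) (dvd_centralMod q N)
  simp only
  rw [e, hF _ (hN' hg') _ (hN' (conj_mem hg.1 hk')), central hq hN hqN hF hk' hg.1]

include hq hqN hMl hF hL in
theorem defect_ey {a : ℚ} (ha : a ∈ QInt q) : F (dconj L (ey a) * (ey a)⁻¹) = 0 := by
  have e : dconj L (ey a) * (ey a)⁻¹ = ey (((l : ℚ) - 1) * a) := by
    apply slq_ext <;> simp [mul00, mul01, mul10, mul11, inv00, inv01, inv10, inv11, hL]
    ring
  rw [e]
  refine kill hq hqN hF (ey_mem_EL (Idl.of_dvd killMod_dvd_centralMod ?_))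
  obtain ⟨c, hc⟩ := hMl.symm.dvd
  refine Idl.mul_right ⟨c, int_mem_QInt c, by exact_mod_cast hc⟩ ha

include hq hqN hMl hF hL in
theorem defect_ex {a : ℚ} (ha : Idl q l a) : F (dconj L (ex a) * (ex a)⁻¹) = 0 := by
  obtain ⟨y, hy, rfl⟩ := ha
  have hne : (l : ℚ) ≠ 0 := by exact_mod_cast hl.out.ne_zero
  have hLi : ((L⁻¹ : ℚˣ) : ℚ) = (l : ℚ)⁻¹ := by rw [Units.val_inv_eq_inv_val, hL]
  have e : dconj L (ex ((l : ℚ) * y)) * (ex ((l : ℚ) * y))⁻¹ = ex (-(((l : ℚ) - 1) * y)) := by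
    apply slq_ext <;> simp [mul00, mul01, mul10, mul11, inv00, inv01, inv10, inv11, hLi]
    field_simp
    ring
  rw [e]
  refine kill hq hqN hF (ex_mem_EL (Idl.of_dvd killMod_dvd_centralMod ?_))
  obtain ⟨c, hc⟩ := hMl.symm.dvd
  exact (Idl.mul_right ⟨c, int_mem_QInt c, by exact_mod_cast hc⟩ hy).neg

include hq hN hqN hMl hF hL in
theorem defect_EL (hql : q.Coprime l) {g : SLQ} (hg : g ∈ EL q l) :
    F (dconj L g * g⁻¹) = 0 := by
  have hd := defect_addOn hq hN hqN hMl hF L hL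
  refine hd.map_closure_eq_zero ?_ ?_ hg
  · exact fun x hx => Lvl_le_Up q l (conjSet_subset _ _ hx)
  rintro _ ⟨h, hh, a, ha, rfl⟩
  obtain ⟨A, B, -, -⟩ := mem_Lvl_one_iff.1 hh
  by_cases h0 : red hql ⟨_, A⟩ = 0
  · have h0' : Idl q l (h.1 0 0) := (red_eq_zero_iff hql ⟨_, A⟩).1 h0
    set k := h * ew⁻¹
    have hk : k ∈ Up q l := ⟨mul_mem hh (inv_mem ew_mem), by
      simp only [k, mul01, inv01, inv11, ew01, ew00]
      simpa using h0'⟩
    have e : h * ex a * h⁻¹ = k * ey (-a) * k⁻¹ := by rw [← ew_ex]; simp only [k]; group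
    rw [e]
    refine (hd.map_conj hk (Lvl_le_Up q l (ey_mem ha.neg))).trans ?_
    exact defect_ey hq hqN hMl hF L hL (neg_mem ha.mem)
  · obtain ⟨j, hj⟩ := ZMod.intCast_surjective (red hql ⟨_, B⟩ / red hql ⟨_, A⟩)
    set k := h * ex (-(j : ℚ))
    have hj' : Idl q l (h.1 0 1 - h.1 0 0 * j) := by
      have : red hql (⟨_, B⟩ : QInt q) = red hql (⟨_, A⟩ * (j : QInt q)) := by
        rw [map_mul, red_intCast, hj]; field_simp
      simpa using (red_eq_iff hql _ _).1 this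
    have hk : k ∈ Up q l := ⟨mul_mem hh (ex_mem (Idl.one_iff.2 (neg_mem (int_mem_QInt j)))), by
      simp only [k, mul01, ex01, ex11]
      convert hj' using 1; ring⟩
    have e : h * ex a * h⁻¹ = k * ex a * k⁻¹ := by
      have e1 : ex (-(j : ℚ)) * ex a = ex a * ex (-(j : ℚ)) := by rw [← ex_add, ← ex_add, add_comm]
      simp only [k]
      rw [mul_assoc h _ (ex a), e1]
      group
    rw [e]
    refine (hd.map_conj hk (Lvl_le_Up q l (ex_mem ha))).trans ?_
    exact defect_ex hq hqN hMl hF L hL ha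

include hq hN hqN hMl hF hL in
theorem defect_invariant (hql : q.Coprime l) {h g : SLQ} (hh : h ∈ Lvl q 1) (hg : g ∈ Lvl q l) :
    F (dconj L (h * g * h⁻¹) * (h * g * h⁻¹)⁻¹) = F (dconj L g * g⁻¹) := by
  set d : SLQ → C := fun g => F (dconj L g * g⁻¹)
  have hd : AddOn (Lvl q l) d := (defect_addOn hq hN hqN hMl hF L hL).mono (Lvl_le_Up q l)
  have hl0 : 0 < l := hl.out.pos
  obtain ⟨e, he, heg⟩ := exists_EL_mul_mem (M := centralMod q l)
    (centralMod_pos hq hl0).ne' (centralMod_coprime hq hql) hg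
  have hel : e ∈ Lvl q l := EL_le q l he
  have heg' : e * g ∈ Lvl q l := mul_mem hel hg
  have e1 : h * g * h⁻¹ = (h * e * h⁻¹)⁻¹ * (h * (e * g) * h⁻¹) := by group
  have e2 : g = e⁻¹ * (e * g) := by group
  show d (h * g * h⁻¹) = d g
  conv_rhs => rw [e2]
  rw [e1, hd _ (inv_mem (conj_mem hh hel)) _ (conj_mem hh heg'), hd.map_inv (conj_mem hh hel),
    hd _ (inv_mem hel) _ heg', hd.map_inv hel]
  rw [show d (h * e * h⁻¹) = 0 from defect_EL hq hN hqN hMl hF L hL hql (conj_mem_EL hh he),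
    show d e = 0 from defect_EL hq hN hqN hMl hF L hL hql he,
    central hq hl0 hql hd heg hh]

end defect

theorem slf_ext' {R : Type*} [CommRing R] {g k : Matrix.SpecialLinearGroup (Fin 2) R}
    (h00 : g.1 0 0 = k.1 0 0) (h01 : g.1 0 1 = k.1 0 1) (h10 : g.1 1 0 = k.1 1 0)
    (h11 : g.1 1 1 = k.1 1 1) : g = k := by
  apply Subtype.ext
  ext i j
  fin_cases i <;> fin_cases j <;> assumption

theorem mulR {R : Type*} [CommRing R] (g k : Matrix.SpecialLinearGroup (Fin 2) R) (i j : Fin 2) :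
    (g * k).1 i j = g.1 i 0 * k.1 0 j + g.1 i 1 * k.1 1 j := by
  simp [Matrix.mul_apply, Fin.sum_univ_two]

/-- The underlying function of the reduction `SL(2, ℤ[1/q]) → SL(2, ℤ/l)`. -/
noncomputable def rhoFun {q l : ℕ} (h : q.Coprime l) (g : Lvl q 1) :
    Matrix.SpecialLinearGroup (Fin 2) (ZMod l) :=
  ⟨!![red h ⟨_, (mem_Lvl_one_iff.1 g.2).1⟩, red h ⟨_, (mem_Lvl_one_iff.1 g.2).2.1⟩;
      red h ⟨_, (mem_Lvl_one_iff.1 g.2).2.2.1⟩, red h ⟨_, (mem_Lvl_one_iff.1 g.2).2.2.2⟩], by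
    rw [Matrix.det_fin_two_of, ← map_mul, ← map_mul, ← map_sub]
    convert map_one (red h) using 2
    exact Subtype.ext (det_entries g.1)⟩

section rhoFun

variable {q l : ℕ} (h : q.Coprime l) (g : Lvl q 1)

theorem rhoFun00 : (rhoFun h g).1 0 0 = red h ⟨_, (mem_Lvl_one_iff.1 g.2).1⟩ := rfl
theorem rhoFun01 : (rhoFun h g).1 0 1 = red h ⟨_, (mem_Lvl_one_iff.1 g.2).2.1⟩ := rfl
theorem rhoFun10 : (rhoFun h g).1 1 0 = red h ⟨_, (mem_Lvl_one_iff.1 g.2).2.2.1⟩ := rfl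
theorem rhoFun11 : (rhoFun h g).1 1 1 = red h ⟨_, (mem_Lvl_one_iff.1 g.2).2.2.2⟩ := rfl

end rhoFun

/-- Reduction `SL(2, ℤ[1/q]) → SL(2, ℤ/l)`. -/
noncomputable def rho {q l : ℕ} (h : q.Coprime l) :
    Lvl q 1 →* Matrix.SpecialLinearGroup (Fin 2) (ZMod l) :=
  MonoidHom.mk' (rhoFun h) fun g k => by
    have key : ∀ (v x z y w : QInt q), (v : ℚ) = x * z + y * w →
        red h v = red h x * red h z + red h y * red h w := by
      intro v x z y w hv
      rw [← map_mul, ← map_mul, ← map_add]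
      exact congrArg (red h) (Subtype.ext hv)
    refine slf_ext' ?_ ?_ ?_ ?_ <;> simp only [mulR, rhoFun00, rhoFun01, rhoFun10, rhoFun11]
    · exact key _ _ _ _ _ (mul00 g.1 k.1)
    · exact key _ _ _ _ _ (mul01 g.1 k.1)
    · exact key _ _ _ _ _ (mul10 g.1 k.1)
    · exact key _ _ _ _ _ (mul11 g.1 k.1)

theorem rho_eq_one_iff {q l : ℕ} (h : q.Coprime l) (g : Lvl q 1) :
    rho h g = 1 ↔ (g : SLQ) ∈ Lvl q l := by
  obtain ⟨A, B, Cc, D⟩ := mem_Lvl_one_iff.1 g.2
  have e1 : ∀ x : QInt q, red h x = 1 ↔ Idl q l ((x : ℚ) - 1) := fun x => by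
    rw [← map_one (red h), red_eq_iff]; simp
  constructor
  · intro hg
    have h00 := congrArg (fun m : Matrix.SpecialLinearGroup (Fin 2) (ZMod l) => m.1 0 0) hg
    have h01 := congrArg (fun m : Matrix.SpecialLinearGroup (Fin 2) (ZMod l) => m.1 0 1) hg
    have h10 := congrArg (fun m : Matrix.SpecialLinearGroup (Fin 2) (ZMod l) => m.1 1 0) hg
    have h11 := congrArg (fun m : Matrix.SpecialLinearGroup (Fin 2) (ZMod l) => m.1 1 1) hg
    simp [rho, rhoFun] at h00 h01 h10 h11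
    exact ⟨(e1 ⟨_, A⟩).1 h00, (red_eq_zero_iff h ⟨_, B⟩).1 h01,
      (red_eq_zero_iff h ⟨_, Cc⟩).1 h10, (e1 ⟨_, D⟩).1 h11⟩
  · rintro ⟨a, b, c, d⟩
    apply Subtype.ext
    ext i j
    fin_cases i <;> fin_cases j <;> simp [rho, rhoFun]
    · exact (e1 ⟨_, A⟩).2 a
    · exact (red_eq_zero_iff h ⟨_, B⟩).2 b
    · exact (red_eq_zero_iff h ⟨_, Cc⟩).2 c
    · exact (e1 ⟨_, D⟩).2 d

theorem rho_toSLQ {q l : ℕ} (h : q.Coprime l) (g : Matrix.SpecialLinearGroup (Fin 2) ℤ)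
    (hg : toSLQ g ∈ Lvl q 1) : rho h ⟨toSLQ g, hg⟩ = toF l g := by
  apply Subtype.ext
  ext i j
  fin_cases i <;> fin_cases j <;> simp [rho, rhoFun] <;>
    (rw [← red_intCast h]; congr 1)

theorem toSLQ_mem_one {q : ℕ} (g : Matrix.SpecialLinearGroup (Fin 2) ℤ) : toSLQ g ∈ Lvl q 1 :=
  mem_Lvl_one_iff.2 ⟨int_mem_QInt _, int_mem_QInt _, int_mem_QInt _, int_mem_QInt _⟩

theorem rho_surjective {q l : ℕ} [Fact l.Prime] (h : q.Coprime l) :
    Function.Surjective (rho h) := by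
  intro s
  obtain ⟨g, -, hg⟩ := exists_lift (N := 1) (Nat.coprime_one_right l) s
  exact ⟨⟨toSLQ g, toSLQ_mem_one g⟩, by rw [rho_toSLQ, hg]⟩

/-- A central extension of `SL(2, 𝔽_l)` by an exponent `p` group, generated by elements whose
`l`-th powers are trivial, is trivial when `4p ∣ l - 1`. -/
theorem central_extension_trivial {G : Type*} [Group G] {l p : ℕ} [Fact l.Prime] (hp : p.Prime)
    (hpl : 4 * p ∣ l - 1) (π : G →* SLF (ZMod l)) (hπ : Function.Surjective π)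
    (hc : ∀ c, π c = 1 → ∀ g, Commute c g) (hexp : ∀ c, π c = 1 → c ^ p = 1)
    (S : Set G) (hS : Subgroup.closure S = ⊤) (hSl : ∀ s ∈ S, s ^ l = 1) :
    ∀ c, π c = 1 → c = 1 := by
  classical
  have hl2 : 2 ≤ l := (Fact.out : l.Prime).two_le
  obtain ⟨m, hm⟩ : ∃ m, l - 1 = 2 * m := ⟨2 * p * ((l - 1) / (4 * p)), by
    conv_lhs => rw [← Nat.mul_div_cancel' hpl]
    ring⟩
  have hpm : p ∣ m := by
    obtain ⟨r, hr⟩ := hpl
    exact ⟨2 * r, by linarith⟩
  have hm2 : Even m := by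
    obtain ⟨r, hr⟩ := hpl
    exact ⟨p * r, by linarith⟩
  obtain ⟨γ, hγ⟩ := IsCyclic.exists_generator (α := (ZMod l)ˣ)
  have hγo : orderOf γ = l - 1 := by
    rw [orderOf_eq_card_of_forall_mem_zpowers hγ, Nat.card_eq_fintype_card, ZMod.card_units]
  have hγm : γ ^ m = -1 := by
    have h1 : ((γ ^ m : (ZMod l)ˣ) : ZMod l) * ((γ ^ m : (ZMod l)ˣ) : ZMod l) = 1 := by
      rw [← Units.val_mul, ← pow_add, ← two_mul, ← hm, ← hγo, pow_orderOf_eq_one, Units.val_one]
    rcases mul_self_eq_one_iff.1 h1 with h2 | h2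
    · exfalso
      have h3 : γ ^ m = 1 := Units.ext h2
      have h4 := Nat.le_of_dvd (by have := hp.pos; omega) (orderOf_dvd_of_pow_eq_one h3)
      have : 0 < l - 1 := by omega
      omega
    · exact Units.ext (by simpa using h2)
  obtain ⟨A, hA⟩ := hπ (dF γ)
  obtain ⟨B, hB⟩ := hπ wF
  set c2 := (A ^ m)⁻¹ * (B * B) with hc2
  have hc2' : π c2 = 1 := by
    rw [hc2, map_mul, map_inv, map_pow, map_mul, hA, hB, ← map_pow, hγm, wF_sq, inv_mul_cancel]
  set c1 := B * A * B⁻¹ * A with hc1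
  have hc1' : π c1 = 1 := by
    rw [hc1, map_mul, map_mul, map_mul, map_inv, hA, hB, wF_mul_dF, ← map_mul, inv_mul_cancel,
      map_one]
  have cc1 : ∀ g, Commute c1 g := hc c1 hc1'
  have hBAB : B * A * B⁻¹ = c1 * A⁻¹ := by rw [hc1]; group
  have hc1m : c1 ^ m = 1 := by
    obtain ⟨r, hr⟩ := hpm
    rw [hr, pow_mul, hexp c1 hc1', one_pow]
  have hBB : B * B = A ^ m * c2 := by rw [hc2]; group
  have hA2m : A ^ (2 * m) = 1 := by
    have h2 : B * (A ^ m * c2) * B⁻¹ = A ^ m * c2 := by rw [← hBB]; group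
    have h3 : B * (A ^ m * c2) * B⁻¹ = (c1 * A⁻¹) ^ m * c2 := by
      rw [← hBAB, conj_pow, mul_assoc _ B⁻¹ c2, ← ((hc c2 hc2') B⁻¹).eq]
      group
    rw [h2, mul_left_inj, (cc1 A⁻¹).mul_pow, hc1m, one_mul, inv_pow] at h3
    rw [two_mul, pow_add]
    nth_rewrite 1 [h3]
    rw [inv_mul_cancel]
  set e := c1 * (A ^ 2)⁻¹ with he
  have hce : ∀ g, Commute g (A ^ 2) → Commute g e := fun g hg =>
    ((cc1 g).symm).mul_right hg.inv_right
  set P := (NT (ZMod l)).comap π with hP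
  have hAP : A ∈ P := by rw [hP, Subgroup.mem_comap, hA]; exact dF_mem γ
  have hBP : B ∈ P := by rw [hP, Subgroup.mem_comap, hB]; exact wF_mem
  have heP : e ∈ P := by
    rw [he]; exact mul_mem (by rw [hP, Subgroup.mem_comap, hc1']; exact one_mem _)
      (inv_mem (pow_mem hAP 2))
  have hdec : ∀ x ∈ P, ∃ (k : ℕ) (c : G), π c = 1 ∧ (x = A ^ k * c ∨ x = A ^ k * B * c) := by
    intro x hx
    obtain ⟨u, hu⟩ := mem_NT_iff.1 (show π x ∈ NT (ZMod l) from hx)
    obtain ⟨k, hk⟩ : ∃ k : ℕ, γ ^ k = u := mem_powers_iff_mem_zpowers.2 (hγ u)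
    rcases hu with hu | hu
    · refine ⟨k, (A ^ k)⁻¹ * x, ?_, Or.inl (by group)⟩
      rw [map_mul, map_inv, map_pow, hA, ← map_pow, hk, hu, inv_mul_cancel]
    · refine ⟨k, (A ^ k * B)⁻¹ * x, ?_, Or.inr (by group)⟩
      rw [map_mul, map_inv, map_mul, map_pow, hA, hB, ← map_pow, hk, hu, inv_mul_cancel]
  -- `zpowers e` is normalised by `P`
  let N' : Subgroup P := (Subgroup.zpowers e).subgroupOf P
  have hBe : B * e * B⁻¹ = e⁻¹ := by
    rw [he, ← mul_assoc B, ← ((cc1 B)).eq, mul_assoc c1 B, mul_assoc c1, ← conj_inv,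
      ← conj_pow, hBAB, (cc1 A⁻¹).mul_pow, mul_inv_rev, inv_pow, inv_inv, mul_inv_rev, inv_inv]
    rw [pow_two c1]
    have h5 := (cc1 (A ^ 2)).eq
    calc c1 * (A ^ 2 * (c1 * c1)⁻¹) = c1 * A ^ 2 * (c1 * c1)⁻¹ := by group
      _ = A ^ 2 * c1 * (c1 * c1)⁻¹ := by rw [h5]
      _ = A ^ 2 * c1⁻¹ := by group
  have hAe : A * e * A⁻¹ = e := by
    rw [mul_inv_eq_iff_eq_mul]
    exact hce A ((Commute.refl A).pow_right 2)
  have hN' : N'.Normal := ⟨by
    rintro ⟨z, hz⟩ hzN ⟨x, hx⟩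
    rw [Subgroup.mem_subgroupOf] at hzN ⊢
    simp only [Subgroup.coe_mul, Subgroup.coe_inv]
    obtain ⟨j, rfl⟩ := Subgroup.mem_zpowers_iff.1 hzN
    obtain ⟨k, c, hc', hx'⟩ := hdec x hx
    have hcz : ∀ y, Commute c y := hc c hc'
    have hAk : A ^ k * e ^ j * (A ^ k)⁻¹ = e ^ j := by
      rw [mul_inv_eq_iff_eq_mul]
      exact ((hce A ((Commute.refl A).pow_right 2)).pow_left k).zpow_right j
    rcases hx' with rfl | rfl
    · rw [show A ^ k * c * e ^ j * (A ^ k * c)⁻¹ = A ^ k * (c * e ^ j * c⁻¹) * (A ^ k)⁻¹ by group,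
        (hcz _).eq, mul_inv_cancel_right, hAk]
      exact Subgroup.zpow_mem_zpowers _ _
    · rw [show A ^ k * B * c * e ^ j * (A ^ k * B * c)⁻¹ =
          A ^ k * (B * (c * e ^ j * c⁻¹) * B⁻¹) * (A ^ k)⁻¹ by group,
        (hcz _).eq, mul_inv_cancel_right, ← conj_zpow, hBe, inv_zpow']
      have : A ^ k * e ^ (-j) * (A ^ k)⁻¹ = e ^ (-j) := by
        rw [mul_inv_eq_iff_eq_mul]
        exact ((hce A ((Commute.refl A).pow_right 2)).pow_left k).zpow_right (-j)
      rw [this]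
      exact Subgroup.zpow_mem_zpowers _ _⟩
  set a : P := ⟨A, hAP⟩
  set b : P := ⟨B, hBP⟩
  let mk : P →* P ⧸ N' := QuotientGroup.mk' N'
  have hab : Commute (mk b) (mk a) := by
    show mk b * mk a = mk a * mk b
    rw [← map_mul, ← map_mul, eq_comm]
    apply QuotientGroup.eq.2
    rw [Subgroup.mem_subgroupOf]
    simp only [Subgroup.coe_mul, Subgroup.coe_inv, a, b]
    have : (A * B)⁻¹ * (B * A) = B⁻¹ * (c1 * (A ^ 2)⁻¹) * B := by
      rw [show B * A = B * A * B⁻¹ * B by group, hBAB, mul_inv_rev, pow_two, mul_inv_rev,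
        show B⁻¹ * A⁻¹ * (c1 * A⁻¹ * B) = B⁻¹ * (A⁻¹ * c1) * A⁻¹ * B by group,
        ← (cc1 A⁻¹).eq]
      group
    rw [this, ← he]
    have h6 : B⁻¹ * e * B = e⁻¹ := by
      have h7 := congrArg (fun t => B⁻¹ * t⁻¹ * B) hBe
      simp only [inv_inv] at h7
      rw [← h7]; group
    rw [h6]
    exact inv_mem (Subgroup.mem_zpowers e)
  have hcent : ∀ (c : P), π c = 1 → ∀ y, Commute (mk c) y := by
    intro c hc' y
    obtain ⟨y, rfl⟩ := QuotientGroup.mk'_surjective N' y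
    exact Commute.map (show Commute c y from Subtype.ext (hc _ hc' y.1).eq) mk
  have hform : ∀ y : P ⧸ N', ∃ (k i : ℕ) (c : P), π c = 1 ∧ y = mk a ^ k * mk b ^ i * mk c := by
    intro y
    obtain ⟨⟨x, hx⟩, rfl⟩ := QuotientGroup.mk'_surjective N' y
    obtain ⟨k, c, hc', hx'⟩ := hdec x hx
    have hcP : c ∈ P := by rw [hP, Subgroup.mem_comap, hc']; exact one_mem _
    rcases hx' with rfl | rfl
    · exact ⟨k, 0, ⟨c, hcP⟩, hc', by rw [pow_zero, mul_one, ← map_pow, ← map_mul]; rfl⟩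
    · exact ⟨k, 1, ⟨c, hcP⟩, hc', by rw [pow_one, ← map_pow, ← map_mul, ← map_mul]; rfl⟩
  let instQ : CommGroup (P ⧸ N') :=
    { (inferInstance : Group (P ⧸ N')) with
      mul_comm := fun x y => by
        obtain ⟨k, i, c, hc', rfl⟩ := hform x
        obtain ⟨k', i', c', hc'', rfl⟩ := hform y
        have ha : Commute (mk a) (mk a ^ k' * mk b ^ i' * mk c') :=
          (((Commute.refl _).pow_right k').mul_right (hab.symm.pow_right i')).mul_right
            (hcent c' hc'' _).symm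
        have hb : Commute (mk b) (mk a ^ k' * mk b ^ i' * mk c') :=
          ((hab.pow_right k').mul_right ((Commute.refl _).pow_right i')).mul_right
            (hcent c' hc'' _).symm
        exact (((ha.pow_left k).mul_left (hb.pow_left i)).mul_left (hcent c hc' _)).eq }
  have hidx : P.index * 2 = l * (l + 1) := by
    rw [hP, Subgroup.index_comap_of_surjective _ hπ, index_NT_mul_two, Nat.card_zmod]
  have : P.FiniteIndex := ⟨fun h => by
    rw [h, zero_mul] at hidx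
    rcases Nat.mul_eq_zero.1 hidx.symm with h' | h' <;> omega⟩
  let φ : P →* P ⧸ N' := mk
  set ψ := MonoidHom.transfer φ with hψ
  have hQexp : ∀ y : P ⧸ N', y ^ (2 * (l - 1) * p) = 1 := by
    intro y
    obtain ⟨k, i, c, hc', rfl⟩ := hform y
    have hAE : mk a ^ (2 * (l - 1) * p) = 1 := by
      rw [← map_pow]
      have : a ^ (2 * (l - 1) * p) = 1 := Subtype.ext (by
        simp only [SubmonoidClass.coe_pow, Subgroup.coe_one, a]
        rw [show 2 * (l - 1) * p = 2 * m * (2 * p) by rw [hm]; ring, pow_mul, hA2m, one_pow])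
      rw [this, map_one]
    have hcE : mk c ^ (2 * (l - 1) * p) = 1 := by
      rw [← map_pow]
      have : c ^ (2 * (l - 1) * p) = 1 := Subtype.ext (by
        simp only [SubmonoidClass.coe_pow, Subgroup.coe_one]
        rw [mul_comm, pow_mul, hexp _ hc', one_pow])
      rw [this, map_one]
    have hBE : mk b ^ (2 * (l - 1) * p) = 1 := by
      rw [← map_pow]
      have : b ^ (2 * (l - 1) * p) = 1 := Subtype.ext (by
        simp only [SubmonoidClass.coe_pow, Subgroup.coe_one, b]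
        rw [show 2 * (l - 1) * p = 2 * ((l - 1) * p) by ring, pow_mul, pow_two, hBB,
          ((hc c2 hc2') (A ^ m)).symm.mul_pow]
        have h1 : (A ^ m) ^ ((l - 1) * p) = 1 := by
          rw [← pow_mul, show m * ((l - 1) * p) = 2 * m * (m * p) by rw [hm]; ring, pow_mul, hA2m,
            one_pow]
        have h2 : c2 ^ ((l - 1) * p) = 1 := by rw [mul_comm, pow_mul, hexp _ hc2', one_pow]
        rw [h1, h2, one_mul])
      rw [this, map_one]
    have hc3 : Commute (mk a ^ k * mk b ^ i) (mk c) := (hcent c hc' _).symm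
    have hab' : Commute (mk a ^ k) (mk b ^ i) := (hab.symm.pow_left k).pow_right i
    rw [hc3.mul_pow, hab'.mul_pow, pow_right_comm (mk a), pow_right_comm (mk b), hAE, hBE,
      hcE, one_pow, one_pow, one_mul, one_mul]
  have hcop : Nat.Coprime l (2 * (l - 1) * p) := by
    have hl := (Fact.out : l.Prime)
    have hl5 : 4 * p ≤ l - 1 := Nat.le_of_dvd (by omega) hpl
    have := hp.two_le
    rw [hl.coprime_iff_not_dvd]
    intro h
    rcases hl.dvd_mul.1 h with h | h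
    · rcases hl.dvd_mul.1 h with h | h
      · have := Nat.le_of_dvd (by norm_num) h; omega
      · have := Nat.le_of_dvd (by omega) h; omega
    · have := Nat.le_of_dvd hp.pos h; omega
  have hψ1 : ∀ g, ψ g = 1 := by
    have h2 : Subgroup.closure S ≤ ψ.ker := by
      rw [Subgroup.closure_le]
      intro s hs
      have h1 : ψ s ^ l = 1 := by rw [← map_pow, hSl s hs, map_one]
      exact (pow_one (ψ s)).symm.trans
        (hcop.gcd_eq_one ▸ pow_gcd_eq_one.2 ⟨h1, hQexp _⟩)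
    intro g
    exact h2 (hS ▸ Subgroup.mem_top g)
  intro c hc'
  have key : ∀ (k : ℕ) (g₀ : G), g₀⁻¹ * c ^ k * g₀ ∈ P → g₀⁻¹ * c ^ k * g₀ = c ^ k := by
    intro k g₀ _
    rw [mul_assoc, ((hc c hc' g₀).pow_left k).eq, inv_mul_cancel_left]
  have h1 : φ ⟨c ^ P.index, MonoidHom.transfer_eq_pow_aux c key⟩ = 1 := by
    rw [← MonoidHom.transfer_eq_pow φ c key]
    exact hψ1 c
  have h2 : c ^ P.index ∈ Subgroup.zpowers e := by
    have := (QuotientGroup.eq_one_iff _).1 h1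
    rwa [Subgroup.mem_subgroupOf] at this
  obtain ⟨j, hj⟩ := Subgroup.mem_zpowers_iff.1 h2
  have h3 : π (c ^ P.index) = 1 := by rw [map_pow, hc', one_pow]
  have h4 : ((2 * m : ℕ) : ℤ) ∣ 2 * j := by
    have h5 : π e = (dF γ ^ 2)⁻¹ := by rw [he, map_mul, map_inv, map_pow, hc1', hA, one_mul]
    rw [← hj, map_zpow, h5, inv_zpow, inv_eq_one, ← zpow_natCast, ← zpow_mul,
      ← map_zpow] at h3
    have h6 : γ ^ (((2 : ℕ) : ℤ) * j) = 1 := dF_injective (by rw [h3, map_one])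
    have h7 := orderOf_dvd_iff_zpow_eq_one.2 h6
    rw [hγo, hm] at h7
    exact h7
  obtain ⟨r, hr⟩ : (m : ℤ) ∣ j :=
    (mul_dvd_mul_iff_left (two_ne_zero (α := ℤ))).1 (by push_cast at h4; exact h4)
  have h8 : c ^ P.index = 1 := by
    rw [← hj, hr, zpow_mul, zpow_natCast, he, (cc1 _).mul_pow, hc1m, inv_pow, ← pow_mul, hA2m]
    simp
  have hcopi : Nat.Coprime P.index p := by
    rw [Nat.coprime_comm, hp.coprime_iff_not_dvd]
    intro h
    obtain ⟨r, hr⟩ := h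
    have h9 : p ∣ l - 1 := dvd_trans (dvd_mul_left p 4) hpl
    obtain ⟨s, hs⟩ := hpl
    have hl' : l = 4 * p * s + 1 := by omega
    rw [hr, hl'] at hidx
    have h10 : p ∣ 1 := by
      have e1 : p * r = (4 * p * s + 1) * (2 * p * s + 1) := by
        have : (4 * p * s + 1) * (4 * p * s + 1 + 1) = 2 * ((4 * p * s + 1) * (2 * p * s + 1)) := by
          ring
        omega
      have e2 : (4 * p * s + 1) * (2 * p * s + 1) = p * (8 * p * s * s + 6 * s) + 1 := by ring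
      rw [e2] at e1
      exact (Nat.dvd_add_right (dvd_mul_right p _)).1 ⟨r, e1.symm⟩
    exact hp.not_dvd_one h10
  exact (pow_one c).symm.trans (hcopi.gcd_eq_one ▸ pow_gcd_eq_one.2 ⟨h8, hexp c hc'⟩)

/-- Deep invariance under `diag(1, l)`. -/
theorem dconj_invariant {q N l p : ℕ} (hq : q.Prime) (hN : 0 < N) (hqN : q.Coprime N)
    (hp : p.Prime) (hl : l.Prime) (hql : q.Coprime l)
    (hMl : (l : ℤ) ≡ 1 [ZMOD (centralMod q N : ℤ)]) (hpl : 4 * p ∣ l - 1)
    {F : SLQ → C} (hF : AddOn (Lvl q N) F) (hC : ∀ x : C, p • x = 0)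
    (L : ℚˣ) (hL : (L : ℚ) = l) {g : SLQ} (hgl : g ∈ Lvl q l) (hgM : g ∈ Lvl q (centralMod q N)) :
    F (dconj L g) = F g := by
  have : Fact l.Prime := ⟨hl⟩
  have hd : AddOn (Lvl q l) (fun g => F (dconj L g * g⁻¹)) :=
    (defect_addOn hq hN hqN hMl hF L hL).mono (Lvl_le_Up q l)
  let K : Subgroup (Lvl q 1) :=
    { carrier := {g | (g : SLQ) ∈ Lvl q l ∧ F (dconj L (g : SLQ) * (g : SLQ)⁻¹) = 0}
      one_mem' := ⟨one_mem _, hd.map_one⟩
      mul_mem' := by
        rintro a b ⟨ha, ha'⟩ ⟨hb, hb'⟩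
        refine ⟨mul_mem ha hb, ?_⟩
        have := hd _ ha _ hb
        simp only at this
        simp only [Subgroup.coe_mul]
        rw [this, ha', hb', add_zero]
      inv_mem' := by
        rintro a ⟨ha, ha'⟩
        refine ⟨inv_mem ha, ?_⟩
        have := hd.map_inv ha
        try simp only at this
        try simp only [Subgroup.coe_inv]
        rw [this, ha', neg_zero] }
  have hKn : K.Normal := ⟨by
    rintro a ⟨ha, ha'⟩ h
    refine ⟨conj_mem h.2 ha, ?_⟩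
    simp only [Subgroup.coe_mul, Subgroup.coe_inv]
    rw [defect_invariant hq hN hqN hMl hF L hL hql h.2 ha]
    exact ha'⟩
  let π : (Lvl q 1) ⧸ K →* SLF (ZMod l) :=
    QuotientGroup.lift K (rho hql) (fun x hx => (rho_eq_one_iff hql x).2 hx.1)
  have hmem : ∀ x : Lvl q 1, π (QuotientGroup.mk x) = 1 → (x : SLQ) ∈ Lvl q l := fun x hx =>
    (rho_eq_one_iff hql x).1 hx
  let S : Set ((Lvl q 1) ⧸ K) :=
    {s | ∃ x : Lvl q 1, (∃ a ∈ QInt q, (x : SLQ) = ex a ∨ (x : SLQ) = ey a) ∧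
      s = QuotientGroup.mk x}
  have hext := central_extension_trivial hp hpl π
    (fun s => by obtain ⟨x, hx⟩ := rho_surjective hql s; exact ⟨QuotientGroup.mk x, hx⟩)
    (fun c hc g => by
      obtain ⟨x, rfl⟩ := QuotientGroup.mk_surjective c
      obtain ⟨y, rfl⟩ := QuotientGroup.mk_surjective g
      have hx := hmem x hc
      show QuotientGroup.mk x * QuotientGroup.mk y = QuotientGroup.mk y * QuotientGroup.mk x
      rw [← QuotientGroup.mk_mul, ← QuotientGroup.mk_mul, QuotientGroup.eq]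
      have hy' : (y : SLQ)⁻¹ * x⁻¹ * y ∈ Lvl q l := by
        have := conj_mem (inv_mem y.2) (inv_mem hx)
        rwa [inv_inv] at this
      have e : (((x * y)⁻¹ * (y * x) : Lvl q 1) : SLQ) = (y : SLQ)⁻¹ * x⁻¹ * y * x := by
        simp only [Subgroup.coe_mul, Subgroup.coe_inv]; group
      refine ⟨by rw [e]; exact mul_mem hy' hx, ?_⟩
      rw [e]
      refine (hd _ hy' _ hx).trans ?_
      have h1 := defect_invariant hq hN hqN hMl hF L hL hql (inv_mem y.2) (inv_mem hx)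
      simp only [inv_inv, InvMemClass.coe_inv] at h1 ⊢
      rw [h1]
      have h2 := hd.map_inv hx
      simp only [inv_inv] at h2
      rw [h2, neg_add_cancel])
    (fun c hc => by
      obtain ⟨x, rfl⟩ := QuotientGroup.mk_surjective c
      have hx := hmem x hc
      rw [← QuotientGroup.mk_pow, QuotientGroup.eq_one_iff]
      refine ⟨pow_mem hx p, ?_⟩
      have : ∀ n : ℕ, F (dconj L ((x : SLQ) ^ n) * ((x : SLQ) ^ n)⁻¹) =
          n • F (dconj L (x : SLQ) * (x : SLQ)⁻¹) := by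
        intro n
        induction n with
        | zero => simpa using hd.map_one
        | succ n ih =>
          rw [pow_succ, succ_nsmul, ← ih]
          exact hd _ (pow_mem hx n) _ hx
      simp only [SubmonoidClass.coe_pow]
      rw [this, hC])
    S (by
      rw [eq_top_iff]
      intro s _
      obtain ⟨x, rfl⟩ := QuotientGroup.mk_surjective s
      have hx := Lvl_one_le_GenSub hq x.2
      suffices ∀ y ∈ GenSub q, ∃ hy : y ∈ Lvl q 1,
          (QuotientGroup.mk (⟨y, hy⟩ : Lvl q 1) : (Lvl q 1) ⧸ K) ∈ Subgroup.closure S by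
        obtain ⟨hy, h⟩ := this _ hx
        exact h
      intro y hy
      refine Subgroup.closure_induction (p := fun y _ => ∃ hy : y ∈ Lvl q 1,
          (QuotientGroup.mk (⟨y, hy⟩ : Lvl q 1) : (Lvl q 1) ⧸ K) ∈ Subgroup.closure S)
        ?_ ?_ ?_ ?_ hy
      · rintro y ⟨a, ha, hya⟩
        have hy1 : y ∈ Lvl q 1 := by
          rcases hya with rfl | rfl
          · exact ex_mem (Idl.one_iff.2 ha)
          · exact ey_mem (Idl.one_iff.2 ha)
        exact ⟨hy1, Subgroup.subset_closure ⟨⟨y, hy1⟩, ⟨a, ha, hya⟩, rfl⟩⟩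
      · exact ⟨one_mem _, one_mem _⟩
      · rintro y z - - ⟨hy, h1⟩ ⟨hz, h2⟩
        exact ⟨mul_mem hy hz, mul_mem h1 h2⟩
      · rintro y - ⟨hy, h1⟩
        exact ⟨inv_mem hy, inv_mem h1⟩)
    (by
      rintro _ ⟨x, ⟨a, ha, hxa⟩, rfl⟩
      have hla : Idl q l ((l : ℚ) * a) := ⟨a, ha, rfl⟩
      rw [← QuotientGroup.mk_pow, QuotientGroup.eq_one_iff]
      have hx : ((x ^ l : Lvl q 1) : SLQ) = ex ((l : ℚ) * a) ∨
          ((x ^ l : Lvl q 1) : SLQ) = ey ((l : ℚ) * a) := by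
        have hpx : ∀ n : ℕ, ex a ^ n = ex ((n : ℚ) * a) ∧ ey a ^ n = ey ((n : ℚ) * a) := by
          intro n
          induction n with
          | zero => constructor <;> simp <;> apply slq_ext <;> simp
          | succ n ih =>
            rw [pow_succ, pow_succ, ih.1, ih.2, ← ex_add, ← ey_add]
            push_cast; constructor <;> ring_nf
        rcases hxa with h | h
        · exact Or.inl (by simp only [SubmonoidClass.coe_pow, h, (hpx l).1])
        · exact Or.inr (by simp only [SubmonoidClass.coe_pow, h, (hpx l).2])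
      refine ⟨?_, ?_⟩
      · rcases hx with h | h <;> rw [h]
        · exact ex_mem hla
        · exact ey_mem hla
      · rcases hx with h | h <;> rw [h]
        · exact defect_ex hq hqN hMl hF L hL hla
        · exact defect_ey hq hqN hMl hF L hL hla.mem)
  have h0 : F (dconj L g * g⁻¹) = 0 := by
    have hg1 : g ∈ Lvl q 1 := Lvl_le (one_dvd l) hgl
    have := hext (QuotientGroup.mk ⟨g, hg1⟩) ((rho_eq_one_iff hql ⟨g, hg1⟩).2 hgl)
    exact ((QuotientGroup.eq_one_iff _).1 this).2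
  have hmem' := dconj_defect hl.ne_zero hMl L hL (Lvl_le_Up q l hgl)
  have hN' := Lvl_le (q := q) (dvd_centralMod q N)
  have e : dconj L g = dconj L g * g⁻¹ * g := by group
  rw [e, hF _ (hN' hmem') _ (hN' hgM), h0, zero_add]

end FA.HeckeH1
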