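import Fermat.Agent.HeckeH1.Amalgam
import Fermat.Agent.HeckeH1.Vanishing

/-!
Ihara's lemma for `Γ(N)`: a homomorphism `Γ(N) → C` (`C` killed by `p`) whose restriction to
`Γ(N) ∩ Γ₀(q)` comes from `Γ(N)` through conjugation by `diag(1, q)` satisfies
`u (β γ β⁻¹) = u γ` for `det β = l` prime, `l ≡ 1` modulo a fixed modulus and `γ` deep enough.
-/

set_option autoImplicit false

namespace FA.HeckeH1

open CongruenceSubgroup (Gamma)

/-- The modulus in Ihara's lemma. -/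
def iharaMod (q N p : ℕ) : ℕ := centralMod q N * (4 * p)

theorem iharaMod_pos {q N p : ℕ} (hq : q.Prime) (hN : 0 < N) (hp : p.Prime) : 0 < iharaMod q N p :=
  Nat.mul_pos (centralMod_pos hq hN) (Nat.mul_pos (by norm_num) hp.pos)

theorem dvd_iharaMod (q N p : ℕ) : N ∣ iharaMod q N p :=
  dvd_mul_of_dvd_left (dvd_centralMod q N) _

theorem one_lt_iharaMod {q N p : ℕ} (hq : q.Prime) (hN : 0 < N) (hp : p.Prime) :
    1 < iharaMod q N p := by
  have h1 := centralMod_pos (q := q) hq hN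
  have h2 := hp.two_le
  calc 1 < 1 * (4 * p) := by omega
    _ ≤ iharaMod q N p := Nat.mul_le_mul_right _ h1

/-- Integral matrices of prime determinant are in the double coset of `diag(1, l)`. -/
theorem exists_double_coset {l : ℕ} (hl : l.Prime) (β : Matrix (Fin 2) (Fin 2) ℤ)
    (hβ : β.det = l) :
    ∃ h k : Matrix.SpecialLinearGroup (Fin 2) ℤ,
      h.1 * β = !![1, 0; 0, (l : ℤ)] * k.1 := by
  have : Fact l.Prime := ⟨hl⟩
  have hdet : (β 0 0 : ZMod l) * β 1 1 - β 0 1 * β 1 0 = 0 := by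
    have := congrArg (fun z : ℤ => (z : ZMod l)) hβ
    simpa [Matrix.det_fin_two] using this
  obtain ⟨j₀, hj₀⟩ : ∃ j₀, (β 0 j₀ : ZMod l) ≠ 0 ∨ (β 1 j₀ : ZMod l) ≠ 0 := by
    by_contra h
    push Not at h
    choose V hV using fun i j => (ZMod.intCast_zmod_eq_zero_iff_dvd (β i j) l).1
      (by fin_cases i; exacts [(h j).1, (h j).2])
    have h1 : (l : ℤ) = (l : ℤ) * l * (V 0 0 * V 1 1 - V 0 1 * V 1 0) := by
      have h0 : β.det = (l : ℤ) * l * (V 0 0 * V 1 1 - V 0 1 * V 1 0) := by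
        rw [Matrix.det_fin_two, hV 0 0, hV 1 1, hV 0 1, hV 1 0]; ring
      exact hβ.symm.trans h0
    have h2 : (l : ℤ) ∣ 1 := by
      refine ⟨V 0 0 * V 1 1 - V 0 1 * V 1 0, mul_left_cancel₀
        (show (l : ℤ) ≠ 0 by exact_mod_cast hl.ne_zero) ?_⟩
      rw [mul_one, ← mul_assoc]; exact h1
    exact (Nat.prime_iff_prime_int.1 hl).not_dvd_one h2
  set x : ZMod l := (β 0 j₀ : ZMod l) with hx
  set y : ZMod l := (β 1 j₀ : ZMod l) with hy
  obtain ⟨a, b, hab⟩ : ∃ a b : ZMod l, a * x + b * y = 1 := by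
    by_cases hx0 : x = 0
    · exact ⟨0, y⁻¹, by rw [zero_mul, zero_add, inv_mul_cancel₀ (hj₀.resolve_left (not_not.2 hx0))]⟩
    · exact ⟨x⁻¹, 0, by rw [zero_mul, add_zero, inv_mul_cancel₀ hx0]⟩
  obtain ⟨γ, -, hγq⟩ := exists_lift (N := 1) (Nat.coprime_one_right l)
    (mkF a b (-y) x (by linear_combination hab))
  have eγ : ∀ i j, ((γ.1 i j : ℤ) : ZMod l) = (mkF a b (-y) x (by linear_combination hab) :
      SLF (ZMod l)).1 i j := fun i j => by rw [← hγq, toF_apply]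
  have hr1 : ∀ j, (((γ.1 * β) 1 j : ℤ) : ZMod l) = 0 := by
    intro j
    simp [Matrix.mul_apply, Fin.sum_univ_two, eγ, hx, hy]
    fin_cases j <;> fin_cases j₀ <;> simp
    all_goals first
      | ring1
      | linear_combination hdet
      | linear_combination -hdet
  choose R hR using fun j => (ZMod.intCast_zmod_eq_zero_iff_dvd _ _).1 (hr1 j)
  let k : Matrix (Fin 2) (Fin 2) ℤ := !![(γ.1 * β) 0 0, (γ.1 * β) 0 1; R 0, R 1]
  have heq : γ.1 * β = !![1, 0; 0, (l : ℤ)] * k := by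
    ext i j
    fin_cases i <;> fin_cases j <;> simp [k, Matrix.mul_apply, Fin.sum_univ_two]
    · simpa [Matrix.mul_apply, Fin.sum_univ_two] using hR 0
    · simpa [Matrix.mul_apply, Fin.sum_univ_two] using hR 1
  have hk : k.det = 1 := by
    have := congrArg Matrix.det heq
    rw [Matrix.det_mul, Matrix.det_mul, γ.2, hβ, one_mul, Matrix.det_fin_two_of] at this
    refine mul_left_cancel₀ (show (l : ℤ) ≠ 0 by exact_mod_cast hl.ne_zero) ?_
    rw [mul_one]
    linear_combination -this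
  exact ⟨γ, ⟨k, hk⟩, heq⟩

theorem gamma_le_gamma {M N : ℕ} (h : N ∣ M) : Gamma M ≤ Gamma N := by
  intro g hg
  obtain ⟨a, b, c, d⟩ := CongruenceSubgroup.Gamma_mem.1 hg
  have key : ∀ x y : ℤ, (x : ZMod M) = y → (x : ZMod N) = y := fun x y hxy => by
    rw [ZMod.intCast_eq_intCast_iff_dvd_sub] at hxy ⊢
    exact (Int.natCast_dvd_natCast.2 h).trans hxy
  exact CongruenceSubgroup.Gamma_mem.2 ⟨by simpa using key _ 1 (by simpa using a),
    by simpa using key _ 0 (by simpa using b), by simpa using key _ 0 (by simpa using c),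
    by simpa using key _ 1 (by simpa using d)⟩

/-- **Ihara's lemma**, group-theoretic form. -/
theorem ihara {C : Type*} [AddCommGroup C] {q N p : ℕ} (hq : q.Prime) (hqN : q.Coprime N)
    (hN : 0 < N) (hp : p.Prime) (hC : ∀ x : C, p • x = 0)
    (u v : Matrix.SpecialLinearGroup (Fin 2) ℤ → C)
    (hu : ∀ γ ∈ Gamma N, ∀ δ ∈ Gamma N, u (γ * δ) = u γ + u δ)
    (hv : ∀ γ ∈ Gamma N, ∀ δ ∈ Gamma N, v (γ * δ) = v γ + v δ)
    (huv : ∀ γ ∈ Gamma N, ∀ δ ∈ Gamma N, δ.1 0 0 = γ.1 0 0 → (q : ℤ) * δ.1 0 1 = γ.1 0 1 →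
      δ.1 1 0 = q * γ.1 1 0 → δ.1 1 1 = γ.1 1 1 → u δ = v γ)
    {l : ℕ} (hl : l.Prime) (hlq : l ≠ q) (hlM : l % iharaMod q N p = 1)
    {γ δ : Matrix.SpecialLinearGroup (Fin 2) ℤ} (hγ : γ ∈ Gamma (iharaMod q N p * l))
    (hδ : δ ∈ Gamma N) (β : Matrix (Fin 2) (Fin 2) ℤ) (hβ : β.det = l)
    (hconj : β * γ.1 = δ.1 * β) : u δ = u γ := by
  have hqp : Fact q.Prime := ⟨hq⟩
  have hql : q.Coprime l := (Nat.coprime_primes hq hl).2 (Ne.symm hlq)
  set σ : ℚˣ := Units.mk0 (q : ℚ) (by exact_mod_cast hq.ne_zero)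
  have hσ : (σ : ℚ) = q := rfl
  set L : ℚˣ := Units.mk0 (l : ℚ) (by exact_mod_cast hl.ne_zero)
  have hL : (L : ℚ) = l := rfl
  have hinjZ : Function.Injective toSLQ := by
    intro a b h
    apply Subtype.ext
    ext i j
    have h1 := congrArg (fun g : SLQ => g.1 i j) h
    simpa using h1
  classical
  let f : SLQ → C := fun g => if h : g ∈ IntLvl N then u h.choose else 0
  let f' : SLQ → C := fun g => if h : (dconj σ).symm g ∈ IntLvl N then v h.choose else 0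
  have hf1 : ∀ γ ∈ Gamma N, f (toSLQ γ) = u γ := by
    intro γ hγ
    have h : toSLQ γ ∈ IntLvl N := ⟨γ, hγ, rfl⟩
    simp only [f, dif_pos h]
    rw [hinjZ h.choose_spec.2]
  have hf2 : ∀ γ ∈ Gamma N, f' (dconj σ (toSLQ γ)) = v γ := by
    intro γ hγ
    have h : (dconj σ).symm (dconj σ (toSLQ γ)) ∈ IntLvl N := by
      rw [MulEquiv.symm_apply_apply]; exact ⟨γ, hγ, rfl⟩
    simp only [f', dif_pos h]
    rw [hinjZ (h.choose_spec.2.trans ((dconj σ).symm_apply_apply (toSLQ γ)))]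
  have hfa : AddOn (IntLvl N) f := by
    rintro _ ⟨a, ha, rfl⟩ _ ⟨b, hb, rfl⟩
    rw [← map_mul, hf1 _ (mul_mem ha hb), hf1 _ ha, hf1 _ hb, hu a ha b hb]
  have hfb : AddOn (IntLvl' σ N) f' := by
    rintro _ ⟨_, ⟨a, ha, rfl⟩, rfl⟩ _ ⟨_, ⟨b, hb, rfl⟩, rfl⟩
    simp only [MulEquiv.coe_toMonoidHom]
    rw [← map_mul, ← map_mul, hf2 _ (mul_mem ha hb), hf2 _ ha, hf2 _ hb, hv a ha b hb]
  obtain ⟨F, hF, hFu, -⟩ := amalgam hqp hqN σ hσ hN hfa hfb (by
    rintro g ⟨⟨a, ha, rfl⟩, _, ⟨b, hb, rfl⟩, hg⟩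
    simp only [MulEquiv.coe_toMonoidHom] at hg
    rw [hf1 a ha, ← hg, hf2 b hb]
    have e00 := congrArg (fun g : SLQ => g.1 0 0) hg
    have e01 := congrArg (fun g : SLQ => g.1 0 1) hg
    have e10 := congrArg (fun g : SLQ => g.1 1 0) hg
    have e11 := congrArg (fun g : SLQ => g.1 1 1) hg
    simp only [dconj00, dconj01, dconj10, dconj11, toSLQ_apply, sigma_inv hqp σ hσ, hσ] at e00 e01 e10 e11
    refine huv b hb a ha (by exact_mod_cast e00.symm) ?_ ?_ (by exact_mod_cast e11.symm)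
    · have hne : (q : ℚ) ≠ 0 := by exact_mod_cast hq.ne_zero
      have : (((q : ℤ) * a.1 0 1 : ℤ) : ℚ) = ((b.1 0 1 : ℤ) : ℚ) := by
        push_cast; rw [← e01]; field_simp
      exact_mod_cast this
    · exact_mod_cast e10.symm)
  -- divisibilities
  set M := centralMod q N with hM
  have hlM' : (l : ℤ) ≡ 1 [ZMOD (M : ℤ)] := by
    have h1 : (l : ℤ) ≡ 1 [ZMOD (iharaMod q N p : ℤ)] := by
      show (l : ℤ) % (iharaMod q N p : ℤ) = 1 % (iharaMod q N p : ℤ)
      have := one_lt_iharaMod hq hN hp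
      rw [← Int.natCast_mod, hlM, Int.emod_eq_of_lt (by norm_num) (by exact_mod_cast this)]
      rfl
    exact h1.of_dvd (Int.natCast_dvd_natCast.2 (dvd_mul_right M _))
  have hpl : 4 * p ∣ l - 1 := by
    have h1 : iharaMod q N p ∣ l - 1 :=
      ⟨l / iharaMod q N p, by have := Nat.div_add_mod l (iharaMod q N p); omega⟩
    exact (dvd_mul_left _ M).trans h1
  obtain ⟨h, k, hhk⟩ := exists_double_coset hl β hβ
  -- the conjugation relation
  set X := k * γ * k⁻¹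
  set Y := h * δ * h⁻¹
  have hrel : dconj L (toSLQ X) = toSLQ Y := by
    have h1 : !![1, 0; 0, (l : ℤ)] * X.1 = Y.1 * !![1, 0; 0, (l : ℤ)] := by
      have e1 : (k⁻¹).1 * k.1 = 1 := by
        rw [← Matrix.SpecialLinearGroup.coe_mul, inv_mul_cancel, Matrix.SpecialLinearGroup.coe_one]
      have e2 : (h⁻¹).1 * h.1 = 1 := by
        rw [← Matrix.SpecialLinearGroup.coe_mul, inv_mul_cancel, Matrix.SpecialLinearGroup.coe_one]
      calc !![1, 0; 0, (l : ℤ)] * X.1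
          = (h.1 * β) * γ.1 * (k⁻¹).1 := by
            simp only [X, Matrix.SpecialLinearGroup.coe_mul, ← Matrix.mul_assoc, hhk]
        _ = h.1 * δ.1 * β * (k⁻¹).1 := by rw [Matrix.mul_assoc h.1 β, hconj, ← Matrix.mul_assoc]
        _ = Y.1 * ((h.1 * β) * (k⁻¹).1) := by
            simp only [Y, Matrix.SpecialLinearGroup.coe_mul]
            rw [Matrix.mul_assoc (h.1 * δ.1) (h⁻¹).1, ← Matrix.mul_assoc (h⁻¹).1,
              ← Matrix.mul_assoc (h⁻¹).1, e2, Matrix.one_mul]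
            simp only [Matrix.mul_assoc]
        _ = Y.1 * !![1, 0; 0, (l : ℤ)] := by
            rw [hhk, Matrix.mul_assoc !![1, 0; 0, (l : ℤ)], ← Matrix.SpecialLinearGroup.coe_mul,
              mul_inv_cancel, Matrix.SpecialLinearGroup.coe_one, Matrix.mul_one]
    have hne : (l : ℚ) ≠ 0 := by exact_mod_cast hl.ne_zero
    have p00 := congrFun (congrFun h1 0) 0
    have p01 := congrFun (congrFun h1 0) 1
    have p10 := congrFun (congrFun h1 1) 0
    have p11 := congrFun (congrFun h1 1) 1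
    simp [Matrix.mul_apply, Fin.sum_univ_two] at p00 p01 p10 p11
    have q00 : (X.1 0 0 : ℚ) = Y.1 0 0 := by exact_mod_cast p00
    have q01 : (X.1 0 1 : ℚ) = (Y.1 0 1 : ℚ) * l := by exact_mod_cast p01
    have q10 : (l : ℚ) * X.1 1 0 = Y.1 1 0 := by exact_mod_cast p10
    have q11 : (l : ℚ) * X.1 1 1 = (Y.1 1 1 : ℚ) * l := by exact_mod_cast p11
    apply slq_ext
    · simpa using q00
    · rw [dconj01, toSLQ_apply, toSLQ_apply, q01, Units.val_inv_eq_inv_val, hL]; field_simp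
    · rw [dconj10, toSLQ_apply, toSLQ_apply, hL]; exact q10
    · simp only [dconj11, toSLQ_apply]
      apply mul_left_cancel₀ hne
      rw [q11]; ring
  have hγl : toSLQ γ ∈ Lvl q l := Lvl_le (dvd_mul_left l _) (toSLQ_mem_Lvl hγ)
  have hγM : toSLQ γ ∈ Lvl q M :=
    Lvl_le ((dvd_mul_right M _).trans (dvd_mul_right _ l)) (toSLQ_mem_Lvl hγ)
  have hXl : toSLQ X ∈ Lvl q l := by
    rw [map_mul, map_mul, map_inv]; exact conj_mem (toSLQ_mem_one k) hγl
  have hXM : toSLQ X ∈ Lvl q M := by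
    rw [map_mul, map_mul, map_inv]; exact conj_mem (toSLQ_mem_one k) hγM
  have hYM : toSLQ Y ∈ Lvl q M := by
    rw [← hrel, show dconj L (toSLQ X) = dconj L (toSLQ X) * (toSLQ X)⁻¹ * toSLQ X by group]
    exact mul_mem (dconj_defect hl.ne_zero hlM' L hL (Lvl_le_Up q l hXl)) hXM
  have hFY : F (toSLQ Y) = F (toSLQ γ) := by
    rw [← hrel, dconj_invariant hq hN hqN hp hl hql hlM' hpl hF hC L hL hXl hXM, map_mul, map_mul,
      map_inv]
    exact central hq hN hqN hF hγM (toSLQ_mem_one k)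
  have hδ' : F (toSLQ δ) = F (toSLQ Y) := by
    have e : toSLQ δ = (toSLQ h)⁻¹ * toSLQ Y * (toSLQ h)⁻¹⁻¹ := by
      simp only [Y, map_mul, map_inv]; group
    rw [e]
    exact central hq hN hqN hF hYM (inv_mem (toSLQ_mem_one h))
  have hγN : γ ∈ Gamma N := gamma_le_gamma
    ((dvd_iharaMod q N p).trans (dvd_mul_right _ l)) hγ
  rw [← hf1 δ hδ, ← hFu _ ⟨δ, hδ, rfl⟩, hδ', hFY, hFu _ ⟨γ, hγN, rfl⟩, hf1 γ hγN]

end FA.HeckeH1
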