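import Fermat.Agent.HeckeH1.Semisimple
import Fermat.Agent.HeckeH1.Eigenvector

/-!
The good operators on the image of an idempotent commuting with them form a reduced algebra, when
that image is parabolic, and its points are eigenclasses of parabolic homomorphisms with
nebentypus. This applies at the base and at the Taylor-Wiles levels.
-/

set_option autoImplicit false

noncomputable section

namespace FA.HeckeH1

open IsLocalRing Matrix
open scoped MatrixGroups

section good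

variable (M : ℕ) [NeZero M] (H : Subgroup (ZMod M)ˣ) (O : Type) [CommRing O]

/-- The good operators and the diamonds. -/
def pairGood : Subalgebra O (pairAlg M H O) :=
  Algebra.adjoin O (Set.range (fun ℓ : GP M =>
      (⟨_, Tpair_mem M H O ⟨ℓ.1, ℓ.2.1⟩⟩ : pairAlg M H O)) ∪
    Set.range (fun x => (⟨_, diaPair_mem M H O x⟩ : pairAlg M H O)))

/-- A good Hecke element. -/
def goodTp (ℓ : GP M) : pairGood M H O :=
  ⟨⟨_, Tpair_mem M H O ⟨ℓ.1, ℓ.2.1⟩⟩, Algebra.subset_adjoin (Or.inl ⟨ℓ, rfl⟩)⟩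

/-- The diamond elements. -/
def goodDp : (ZMod M)ˣ ⧸ H →* pairGood M H O where
  toFun x := ⟨⟨_, diaPair_mem M H O x⟩, Algebra.subset_adjoin (Or.inr ⟨x, rfl⟩)⟩
  map_one' := Subtype.ext (Subtype.ext (Prod.ext (map_one (diaHom M H O)) rfl))
  map_mul' x y := Subtype.ext (Subtype.ext (Prod.ext (map_mul (diaHom M H O) x y)
    (mul_one (1 : Module.End O (Hom1 (GamH M ⊤) O))).symm))

/-- The operator at level `Γ_H(M)`. -/
def goodOp : pairGood M H O →ₐ[O] Module.End O (Hom1 (GamH M H) O) :=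
  ((AlgHom.fst O (Module.End O (Hom1 (GamH M H) O)) (Module.End O (Hom1 (GamH M ⊤) O))).comp
    (pairAlg M H O).val).comp (pairGood M H O).val

theorem goodOp_apply (a : pairGood M H O) : goodOp M H O a = a.1.1.1 := rfl

theorem goodOp_goodTp (ℓ : GP M) (z : Hom1 (GamH M H) O) :
    goodOp M H O (goodTp M H O ℓ) z = (Tc M H ℓ.1).act z := rfl

theorem goodOp_goodDp (x : (ZMod M)ˣ ⧸ H) (z : Hom1 (GamH M H) O) :
    goodOp M H O (goodDp M H O x) z = diaHom M H O x z := rfl

/-- Good operators commute with every member of the full algebra. -/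
theorem goodOp_comm (a : pairGood M H O) {x : PairEnd M H O} (hx : x ∈ pairAlg M H O)
    (z : Hom1 (GamH M H) O) : goodOp M H O a (x.1 z) = x.1 (goodOp M H O a z) :=
  LinearMap.congr_fun (congrArg Prod.fst (setLike_mul_comm a.1.2 hx)) z

/-- Good operators preserve parabolic homomorphisms, compatibly with extension of scalars. -/
theorem exists_good_lift (F : Type*) [Field F] [Algebra O F] (a : pairGood M H O) :
    ∃ aF ∈ Algebra.adjoin F
        (Set.range (fun ℓ : GP M => TPar F M H ℓ.1) ∪ Set.range (diaPar M H F)),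
      ∀ z : Par (GamH M H) O, ∃ hz : a.1.1.1 z.1 ∈ Par (GamH M H) O,
        aF ⟨(algebraMap O F).toAddMonoidHom.comp z.1, Par_comp _ z.2⟩ =
          ⟨(algebraMap O F).toAddMonoidHom.comp (a.1.1.1 z.1), Par_comp _ hz⟩ := by
  obtain ⟨a, ha⟩ := a
  induction ha using Algebra.adjoin_induction with
  | mem y hy =>
    rcases hy with ⟨ℓ, rfl⟩ | ⟨x, rfl⟩
    · refine ⟨TPar F M H ℓ.1, Algebra.subset_adjoin (Or.inl ⟨ℓ, rfl⟩), fun z => ?_⟩
      refine ⟨(TPar O M H ℓ.1 z).2, Subtype.ext ?_⟩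
      show (Tc M H ℓ.1).act ((algebraMap O F).toAddMonoidHom.comp z.1) = _
      rw [Corr.act_comp_hom]
      rfl
    · refine ⟨diaPar M H F x, Algebra.subset_adjoin (Or.inr ⟨x, rfl⟩), fun z => ?_⟩
      exact ⟨(diaPar M H O x z).2, Subtype.ext rfl⟩
  | algebraMap c =>
    refine ⟨algebraMap F _ (algebraMap O F c), Subalgebra.algebraMap_mem _ _, fun z => ?_⟩
    refine ⟨(Par (GamH M H) O).smul_mem c z.2, Subtype.ext (AddMonoidHom.ext fun γ => ?_)⟩
    show algebraMap O F c * algebraMap O F (z.1 γ) = algebraMap O F (c * z.1 γ)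
    rw [map_mul]
  | add a b _ _ ha hb =>
    obtain ⟨aF, haF, ha⟩ := ha; obtain ⟨bF, hbF, hb⟩ := hb
    refine ⟨aF + bF, add_mem haF hbF, fun z => ?_⟩
    obtain ⟨h1, e1⟩ := ha z; obtain ⟨h2, e2⟩ := hb z
    refine ⟨add_mem h1 h2, ?_⟩
    rw [LinearMap.add_apply, e1, e2]
    exact Subtype.ext ((AddMonoidHom.comp_add _ _ _).symm)
  | mul a b _ _ ha hb =>
    obtain ⟨aF, haF, ha⟩ := ha; obtain ⟨bF, hbF, hb⟩ := hb
    refine ⟨aF * bF, mul_mem haF hbF, fun z => ?_⟩
    obtain ⟨h2, e2⟩ := hb z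
    obtain ⟨h1, e1⟩ := ha ⟨_, h2⟩
    exact ⟨h1, by rw [Module.End.mul_apply, e2, e1]; rfl⟩

variable {M H O}

/-- The annihilator of the image of `e`. -/
def annE (e : Module.End O (Hom1 (GamH M H) O)) : Ideal (pairGood M H O) where
  carrier := {a | ∀ v, goodOp M H O a (e v) = 0}
  add_mem' {a b} ha hb v := by rw [map_add, LinearMap.add_apply, ha v, hb v, add_zero]
  zero_mem' v := by rw [map_zero, LinearMap.zero_apply]
  smul_mem' c a ha v := by rw [smul_eq_mul, map_mul, Module.End.mul_apply, ha v, map_zero]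

theorem mem_annE {e : Module.End O (Hom1 (GamH M H) O)} {a : pairGood M H O} :
    a ∈ annE e ↔ ∀ v, goodOp M H O a (e v) = 0 := Iff.rfl

/-- The algebra of good operators on the image of `e`. -/
abbrev GoodAlg (e : Module.End O (Hom1 (GamH M H) O)) : Type := pairGood M H O ⧸ annE e

/-- A good Hecke operator on the image of `e`. -/
def goodT (e : Module.End O (Hom1 (GamH M H) O)) (ℓ : GP M) : GoodAlg e :=
  Ideal.Quotient.mk _ (goodTp M H O ℓ)

/-- The diamonds on the image of `e`. -/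
def goodDia (e : Module.End O (Hom1 (GamH M H) O)) : (ZMod M)ˣ ⧸ H →* GoodAlg e :=
  (Ideal.Quotient.mk (annE e)).toMonoidHom.comp (goodDp M H O)

theorem goodDia_apply (e : Module.End O (Hom1 (GamH M H) O)) (x : (ZMod M)ˣ ⧸ H) :
    goodDia e x = Ideal.Quotient.mk _ (goodDp M H O x) := rfl

end good

section points

variable {M : ℕ} [NeZero M] {H : Subgroup (ZMod M)ˣ} {O : Type} [CommRing O] [IsDomain O]
  [IsDiscreteValuationRing O] [IsAdicComplete (maximalIdeal O) O] [CharZero O]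
  [Finite (GamH M ⊤ ⧸ (GamH M H).subgroupOf (GamH M ⊤))]
  (e : Module.End O (Hom1 (GamH M H) O))

instance GoodAlg.instFinite : Module.Finite O (GoodAlg e) := by
  have := pairAlg_finite (M := M) (H := H) (O := O)
  have : Module.Finite O (pairGood M H O) :=
    Module.Finite.of_injective (pairGood M H O).val.toLinearMap Subtype.val_injective
  exact Module.Finite.of_surjective (Ideal.Quotient.mkₐ O (annE e)).toLinearMap
    (Ideal.Quotient.mkₐ_surjective O (annE e))

instance GoodAlg.instIsTorsionFree : Module.IsTorsionFree O (GoodAlg e) :=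
  .of_smul_eq_zero fun c x h => (eq_or_ne c 0).imp id fun hc => by
    obtain ⟨a, rfl⟩ := Ideal.Quotient.mk_surjective x
    have h' : c • a ∈ annE e := Ideal.Quotient.eq_zero_iff_mem.1 h
    refine Ideal.Quotient.eq_zero_iff_mem.2 fun v => AddMonoidHom.ext fun γ => ?_
    have h1 := DFunLike.congr_fun (h' v) γ
    rw [map_smul, LinearMap.smul_apply] at h1
    exact (mul_eq_zero.1 h1).resolve_left hc

variable (hpar : ∀ v, e v ∈ Par (GamH M H) O)

include hpar in
/-- **Reducedness.** -/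
theorem isReduced_goodAlg (Qn : Finset ℕ) (hQn : ∀ q ∈ Qn, q.Prime ∧ q ∣ M ∧ ¬ q * q ∣ M)
    (hH : ∀ u : (ZMod M)ˣ, (∀ q ∈ Qn, (ZMod.cast (u : ZMod M) : ZMod q) ^ 2 = 1) → u ∈ H) :
    IsReduced (GoodAlg e) := by
  refine ⟨fun x hx => ?_⟩
  obtain ⟨n, hn⟩ := hx
  obtain ⟨a, rfl⟩ := Ideal.Quotient.mk_surjective x
  rw [← map_pow, Ideal.Quotient.eq_zero_iff_mem, mem_annE] at hn
  refine Ideal.Quotient.eq_zero_iff_mem.2 fun w => ?_
  let F := AlgebraicClosure (FractionRing O)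
  have hinj : Function.Injective (algebraMap O F) := by
    rw [IsScalarTower.algebraMap_eq O (FractionRing O) F]
    exact (algebraMap (FractionRing O) F).injective.comp (IsFractionRing.injective O (FractionRing O))
  have : CharZero F := charZero_of_injective_algebraMap hinj
  obtain ⟨aF, haF, ha⟩ := exists_good_lift M H O F a
  let ψ : Par (GamH M H) O → Par (GamH M H) F := fun z =>
    ⟨(algebraMap O F).toAddMonoidHom.comp z.1, Par_comp _ z.2⟩
  have hpow : ∀ (k : ℕ) (z : Par (GamH M H) O), ∃ hz : ((a ^ k).1.1.1) z.1 ∈ Par (GamH M H) O,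
      (aF ^ k) (ψ z) = ψ ⟨_, hz⟩ := by
    intro k
    induction k with
    | zero => intro z; exact ⟨z.2, rfl⟩
    | succ k ih =>
      intro z
      obtain ⟨h1, e1⟩ := ha z
      obtain ⟨h2, e2⟩ := ih ⟨_, h1⟩
      refine ⟨by rw [pow_succ]; exact h2, ?_⟩
      rw [pow_succ, Module.End.mul_apply, show aF (ψ z) = ψ ⟨_, h1⟩ from e1, e2]
      refine congrArg ψ (Subtype.ext ?_)
      simp [pow_succ]
  obtain ⟨h2, e2⟩ := hpow n ⟨_, hpar w⟩
  have h0 : (aF ^ n) (ψ ⟨_, hpar w⟩) = 0 := by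
    rw [e2]
    refine Subtype.ext ?_
    show (algebraMap O F).toAddMonoidHom.comp ((a ^ n).1.1.1 (e w)) = 0
    rw [show (a ^ n).1.1.1 (e w) = 0 from hn w, AddMonoidHom.comp_zero]
  have hss := isSemisimple_of_mem_good (H := H) Qn hQn hH F haF
  have h1 := apply_eq_zero_of_pow_apply hss h0
  obtain ⟨h3, e3⟩ := ha ⟨_, hpar w⟩
  rw [show aF (ψ ⟨_, hpar w⟩) = _ from e3] at h1
  refine AddMonoidHom.ext fun γ => hinj ?_
  exact (DFunLike.congr_fun (congrArg Subtype.val h1) γ).trans (map_zero _).symm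

variable (hcomm : ∀ a v, goodOp M H O a (e v) = e (goodOp M H O a v))

include hpar hcomm in
/-- **Points are eigenclasses.** -/
theorem exists_eigenclass {O' : Type} [CommRing O'] [IsDomain O'] [Algebra O O']
    [Module.IsTorsionFree O O'] (f : GoodAlg e →ₐ[O] O') :
    ∃ z : Hom1 (GamH M H) O', z ∈ Par (GamH M H) O' ∧ z ≠ 0 ∧
      (∀ g : GamH M ⊤, dia M H O' g z =
        f (goodDia e (QuotientGroup.mk (ulHom M g))) • z) ∧
      ∀ ℓ : GP M, (Tc M H ℓ.1).act z = f (goodT e ℓ) • z := by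
  let V : Submodule O (Hom1 (GamH M H) O) := LinearMap.range e
  have hV : ∀ a, ∀ v ∈ V, goodOp M H O a v ∈ V := by
    rintro a _ ⟨w, rfl⟩
    exact ⟨goodOp M H O a w, (hcomm a w).symm⟩
  let fA : pairGood M H O →ₐ[O] O' := f.comp (Ideal.Quotient.mkₐ O (annE e))
  obtain ⟨n, v, w, hv, hne, heig⟩ := exists_eigen_hom V (goodOp M H O) hV fA fun a ha => by
    show f (Ideal.Quotient.mk (annE e) a) = 0
    rw [Ideal.Quotient.eq_zero_iff_mem.2 (show a ∈ annE e from fun u => ha _ ⟨u, rfl⟩), map_zero]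
  refine ⟨_, ?_, hne, fun g => ?_, fun ℓ => ?_⟩
  · refine Submodule.sum_mem _ fun i _ => Submodule.smul_mem _ _ (Par_comp _ ?_)
    obtain ⟨u, hu⟩ := hv i
    rw [← hu]
    exact hpar u
  · have h := heig (goodDp M H O (QuotientGroup.mk (ulHom M g)))
    refine Eq.trans ?_ h
    rw [map_sum]
    refine Finset.sum_congr rfl fun i _ => ?_
    rw [map_smul, goodOp_goodDp, diaHom_mk]
    rfl
  · have h := heig (goodTp M H O ℓ)
    refine Eq.trans ?_ h
    rw [map_sum]
    refine Finset.sum_congr rfl fun i _ => ?_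
    rw [Corr.act_smul, goodOp_goodTp, ← Corr.act_comp_hom]

end points

section nebentypus

variable {M : ℕ} [NeZero M] {G : Type*} [CommGroup G] (κ : (ZMod M)ˣ →* G)
  (Q : Finset ℕ) (hQ : ∀ q ∈ Q, q.Prime ∧ q ∣ M ∧ ¬ q * q ∣ M)
  (hκ : ∀ u : (ZMod M)ˣ, (∀ q ∈ Q, (ZMod.cast (u : ZMod M) : ZMod q) = 1) → κ u = 1)

/-- Half of an element of a group of odd order. -/
def halfExp (G : Type*) : ℕ := (Nat.card G + 1) / 2

omit [CommGroup G] in
theorem halfExp_two_mul (h : Odd (Nat.card G)) : 2 * halfExp G = Nat.card G + 1 := by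
  obtain ⟨k, hk⟩ := h
  rw [halfExp, hk]
  omega

theorem pow_halfExp_sq (h : Odd (Nat.card G)) (g : G) : (g ^ halfExp G) ^ 2 = g := by
  rw [← pow_mul, mul_comm, halfExp_two_mul h, pow_succ, pow_card_eq_one', one_mul]

omit [NeZero M] in
include hκ in
theorem eq_one_of_sq (h : Odd (Nat.card G)) (u : (ZMod M)ˣ)
    (hQ' : ∀ q ∈ Q, q ∣ M) (hu : ∀ q ∈ Q, (ZMod.cast (u : ZMod M) : ZMod q) ^ 2 = 1) :
    u ∈ κ.ker := by
  have h2 : κ u ^ 2 = 1 := by
    rw [← map_pow]
    refine hκ _ fun q hq => ?_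
    haveI : CharP (ZMod q) q := ZMod.charP q
    rw [Units.val_pow_eq_pow_val, ← ZMod.castHom_apply (h := hQ' q hq), map_pow, ZMod.castHom_apply,
      hu q hq]
  rw [MonoidHom.mem_ker, ← pow_halfExp_sq h (κ u), ← pow_mul, mul_comm, pow_mul, h2, one_pow]

include hQ hκ in
/-- **Nebentypus.** A character of a group of odd order under the units modulo `M` is the square
of a family of characters modulo primes exactly dividing `M`. -/
theorem exists_nebentypus (h : Odd (Nat.card G)) {A : Type*} [CommRing A] (χ : G →* A) :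
    ∃ η : ∀ q : ℕ, MulChar (ZMod q) A,
      (∀ u : (ZMod M)ˣ, ∏ q ∈ Q, η q (ZMod.cast (u : ZMod M)) = χ (κ u ^ halfExp G)) ∧
      (∀ u : (ZMod M)ˣ, ∏ q ∈ Q, η q (ZMod.cast (u : ZMod M)) ^ 2 = χ (κ u)) ∧
      ∀ q ∈ Q, η q ^ 2 = 1 → η q = 1 := by
  classical
  choose ε hε hε' using fun q : {q // q ∈ Q} =>
    exists_local_lift (hQ q.1 q.2).1 (hQ q.1 q.2).2.1 (hQ q.1 q.2).2.2
  let η : ∀ q : ℕ, MulChar (ZMod q) A := fun q => if hq : q ∈ Q then
    MulChar.ofUnitHom ((χ.comp ((powMonoidHom (halfExp G)).comp (κ.comp (ε ⟨q, hq⟩)))).toHomUnits)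
    else 1
  have hval : ∀ (q : {q // q ∈ Q}) (v : (ZMod q.1)ˣ),
      η q.1 v = χ (κ (ε q v) ^ halfExp G) := fun q v => by
    simp only [η, dif_pos q.2, MulChar.ofUnitHom_coe]
    rfl
  have hprod : ∀ u : (ZMod M)ˣ,
      ∏ q ∈ Q, η q (ZMod.cast (u : ZMod M)) = χ (κ u ^ halfExp G) := by
    intro u
    have hu : κ u = ∏ q ∈ Q.attach, κ (ε q (ZMod.unitsMap (hQ q.1 q.2).2.1 u)) := by
      rw [← map_prod, ← div_eq_one, ← map_div]
      refine hκ _ fun r hr => ?_
      have hrd := (hQ r hr).2.1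
      haveI : CharP (ZMod r) r := ZMod.charP r
      rw [← ZMod.castHom_apply (h := hrd)]
      show ((ZMod.unitsMap hrd (u / ∏ q ∈ Q.attach, _) : (ZMod r)ˣ) : ZMod r) = 1
      rw [map_div, map_prod, Finset.prod_eq_single (⟨r, hr⟩ : {q // q ∈ Q})
        (fun q _ hne => hε' q r hrd (hQ r hr).1 (fun e => hne (Subtype.ext e.symm)) _)
        (fun hn => absurd (Finset.mem_attach _ _) hn), hε ⟨r, hr⟩, div_self', Units.val_one]
    rw [hu, ← Finset.prod_pow, map_prod, ← Finset.prod_attach Q]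
    refine Finset.prod_congr rfl fun q _ => ?_
    rw [← hval]
    congr 1
  refine ⟨η, hprod, fun u => ?_, fun q hq h2 => ?_⟩
  · rw [Finset.prod_pow, hprod, ← map_pow, pow_halfExp_sq h]
  · refine MulChar.ext fun v => ?_
    have h1 := congrArg (fun θ : MulChar (ZMod q) A => θ v) h2
    simp only [MulChar.pow_apply_coe, MulChar.one_apply_coe] at h1
    rw [hval ⟨q, hq⟩] at h1 ⊢
    rw [← map_pow, pow_halfExp_sq h] at h1
    rw [MulChar.one_apply_coe, map_pow, h1, one_pow]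

end nebentypus

end FA.HeckeH1

end
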