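import Fermat.Agent.HeckeH1.Periods
import Fermat.Agent.HeckeH1.Points
import Fermat.Agent.ModField.Semistable.Mono.Statement

/-!
# The torsion of `J₀(N)` inside the homomorphisms on `Γ₀(N)` with values in a finite field

The lattice of the torsion, twisted by `w_N`, is the lattice of integral parabolic homomorphisms,
compatibly with the Hecke operators; its reduction over a finite field is the reduction of the
parabolic homomorphisms with values in a coefficient ring.
-/

set_option autoImplicit false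
set_option linter.style.haveILetI false
set_option linter.unusedSectionVars false
set_option synthInstance.maxHeartbeats 200000

noncomputable section

namespace FA.HeckeH1

open CongruenceSubgroup FA.Level FA.JTorsion ModularCurve ModularCurve.Period
open scoped TensorProduct MatrixGroups

local notation "Qb" => AlgebraicClosure ℚ

variable [Algebra Qb ℂ] (N : ℕ) [NeZero N]

/-- An element of the lattice as a homomorphism on `Γ₀(N)`, twisted by `w_N`. -/
def latFun : LatMod N (∅ : Set ℕ) →+ Hom1 (GamH N ⊤) ℤ where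
  toFun φ := (LatMod.val N (∅ : Set ℕ) φ : Additive (lvlGamma0 N).grp →+ ℤ).comp
    (MonoidHom.toAdditive ((wConj N).comp (inclG N ⊤)))
  map_zero' := rfl
  map_add' _ _ := rfl

theorem latFun_apply (φ : LatMod N (∅ : Set ℕ)) (γ : GamH N ⊤) :
    latFun N φ (Additive.ofMul γ) = (LatMod.val N (∅ : Set ℕ) φ : Additive (lvlGamma0 N).grp →+ ℤ)
      (Additive.ofMul (wConj N (inclG N ⊤ γ))) := rfl

/-- The complex homomorphism of a lattice element. -/
theorem cast_latFun (φ : LatMod N (∅ : Set ℕ)) :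
    (Int.castAddHom ℂ).comp (latFun N φ) =
      resG N ⊤ (twistW N (toComplex N (LatMod.val N (∅ : Set ℕ) φ))) :=
  AddMonoidHom.ext fun _ => rfl

/-- The twisted periods of a pair are the periods. -/
theorem resG_twistW_pairPeriod (x : FormPair N) :
    resG N ⊤ (twistW N (pairPeriod N x)) = perP N ⊤ x := by
  refine AddMonoidHom.ext fun γ => ?_
  show periodHomPair N x (Additive.ofMul (wConj N (wConj N (inclG N ⊤ γ.toMul)))) = _
  rw [wConj_wConj]
  rfl

theorem latFun_mem_Par (φ : LatMod N (∅ : Set ℕ)) : latFun N φ ∈ Par (GamH N ⊤) ℤ := by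
  intro γ s hs
  obtain ⟨x, hx⟩ := exists_pairPeriod_eq N (toComplex_mem N (LatMod.val N (∅ : Set ℕ) φ))
  have h1 := perP_mem_Par (M := N) (H := ⊤) x γ s hs
  rw [← resG_twistW_pairPeriod, hx, ← cast_latFun] at h1
  exact Int.cast_eq_zero.1 h1

theorem latFun_injective : Function.Injective (latFun N) := by
  intro φ ψ h
  refine (LatMod.val N (∅ : Set ℕ)).injective (Subtype.ext (AddMonoidHom.ext fun g => ?_))
  let g₀ : Gamma0 N := g.toMul
  have hg : ((wConj N g₀ : Gamma0 N) : SL(2, ℤ)) ∈ GamH N ⊤ := by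
    rw [GamH_top]; exact (wConj N g₀).2
  have h1 := DFunLike.congr_fun h (Additive.ofMul (⟨_, hg⟩ : GamH N ⊤))
  rw [latFun_apply, latFun_apply, show inclG N ⊤ ⟨_, hg⟩ = wConj N g₀ from Subtype.ext rfl,
    wConj_wConj] at h1
  exact h1

/-- Every integral parabolic homomorphism comes from the lattice. -/
theorem exists_latFun_eq {z : Hom1 (GamH N ⊤) ℤ} (hz : z ∈ Par (GamH N ⊤) ℤ) :
    ∃ φ, latFun N φ = z := by
  obtain ⟨x, hx⟩ := exists_perP_eq (M := N) (H := ⊤) rfl (Par_comp (Int.castAddHom ℂ) hz)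
  let incl : Gamma0 N →* GamH N ⊤ := Subgroup.inclusion (le_of_eq (GamH_top (M := N)).symm)
  let φ₀ : Additive (Gamma0 N) →+ ℤ := z.comp (MonoidHom.toAdditive (incl.comp (wConj N)))
  have hpar : IsParabolicHom (Gamma0 N) φ₀ := by
    intro γ hγ
    have h0 : periodHomPair N x ∈ parabolicHoms ℂ (Gamma0 N) ℂ :=
      (Fermat.Agent.S21.result N).2 ▸ LinearMap.mem_range_self _ _
    have h1 := mem_parabolicHoms_iff.1 h0 (wConj N γ) (by rw [wConj_trace]; exact hγ)
    have h2 : perP N ⊤ x (Additive.ofMul (incl (wConj N γ))) = 0 := h1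
    rw [hx] at h2
    exact Int.cast_eq_zero.1 h2
  refine ⟨(LatMod.val N (∅ : Set ℕ)).symm ⟨φ₀, killsCusps_of_parabolic N hpar⟩,
    AddMonoidHom.ext fun γ => ?_⟩
  show z (Additive.ofMul (incl (wConj N (wConj N (inclG N ⊤ γ.toMul))))) = z γ
  rw [wConj_wConj]
  rfl

/-- The lattice is compatible with the Hecke operators. -/
theorem latFun_T_smul {ℓ : ℕ} [hℓ : Fact ℓ.Prime] (hℓN : ¬ ℓ ∣ N) (φ : LatMod N (∅ : Set ℕ)) :
    latFun N (CuspForm.heckeAlgebra.T (k := 2) hℓ.out hℓN (Set.notMem_empty ℓ) • φ) =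
      (Tc N ⊤ ℓ).act (latFun N φ) := by
  haveI : NeZero ℓ := ⟨hℓ.out.ne_zero⟩
  obtain ⟨x, hx⟩ := exists_pairPeriod_eq N (toComplex_mem N (LatMod.val N (∅ : Set ℕ) φ))
  set t := CuspForm.heckeAlgebra.T (k := 2) hℓ.out hℓN (Set.notMem_empty ℓ) with ht
  have h1 := compat_latRep N (∅ : Set ℕ) t (LatMod.val N (∅ : Set ℕ) φ) x hx
  rw [← LatMod.val_smul] at h1
  have h2 : (Int.castAddHom ℂ).comp (latFun N (t • φ)) =
      (Int.castAddHom ℂ).comp ((Tc N ⊤ ℓ).act (latFun N φ)) := by
    rw [cast_latFun, ← h1, resG_twistW_pairPeriod, ← Corr.act_comp_hom, cast_latFun, ← hx,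
      resG_twistW_pairPeriod, perP_Tc fun h => coprime_mem_top hℓ.out h]
    simp only [heckeForm, dif_neg hℓN, ht, CuspForm.heckeAlgebra.coe_T]
  exact AddMonoidHom.ext fun γ => Int.cast_injective (α := ℂ) (DFunLike.congr_fun h2 γ)

variable (p : ℕ) [NeZero p] (k : Type) [Field k] [CharP k p]

/-- The reduction of the lattice modulo `p`. -/
def modFun : ModN N (∅ : Set ℕ) p →+ Hom1 (GamH N ⊤) k :=
  QuotientAddGroup.lift _
    (AddMonoidHom.mk' (fun φ => (Int.castAddHom k).comp (latFun N φ)) fun φ ψ => by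
      rw [map_add, AddMonoidHom.comp_add])
    fun φ hφ => by
      obtain ⟨ψ, rfl⟩ := (mem_nMultiples N _).1 hφ
      refine AddMonoidHom.ext fun γ => ?_
      show ((latFun N (p • ψ) γ : ℤ) : k) = 0
      rw [map_nsmul, AddMonoidHom.smul_apply, nsmul_eq_mul, Int.cast_mul, Int.cast_natCast,
        CharP.cast_eq_zero, zero_mul]

theorem modFun_mk (φ : LatMod N (∅ : Set ℕ)) :
    modFun N p k (Submodule.Quotient.mk φ) = (Int.castAddHom k).comp (latFun N φ) := rfl

/-- The torsion over `k` as homomorphisms on `Γ₀(N)`. -/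
def torsFun : FA.ModField.ModK N p k →ₗ[k] Hom1 (GamH N ⊤) k :=
  LinearMap.liftBaseChange k (modFun N p k).toIntLinearMap

theorem torsFun_tmul (c : k) (v : ModN N (∅ : Set ℕ) p) :
    torsFun N p k (c ⊗ₜ v) = c • modFun N p k v :=
  LinearMap.liftBaseChange_tmul _ _ _ v

theorem modFun_eq_zero [Fact p.Prime] {v : ModN N (∅ : Set ℕ) p}
    (h : modFun N p k v = 0) : v = 0 := by
  obtain ⟨φ, rfl⟩ := Submodule.Quotient.mk_surjective _ v
  have hp : p.Prime := Fact.out
  have hall : ∀ γ, (p : ℤ) ∣ latFun N φ γ := fun γ =>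
    (CharP.intCast_eq_zero_iff k p _).1 (DFunLike.congr_fun h γ)
  let y : Hom1 (GamH N ⊤) ℤ := AddMonoidHom.mk' (fun γ => latFun N φ γ / (p : ℤ)) fun γ δ => by
    rw [map_add, Int.add_ediv_of_dvd_left (hall γ)]
  have hy : ∀ γ, latFun N φ γ = (p : ℤ) * y γ := fun γ => (Int.mul_ediv_cancel' (hall γ)).symm
  obtain ⟨ψ, hψ⟩ := exists_latFun_eq N (z := y) fun γ s hs =>
    (mul_eq_zero.1 ((hy _).symm.trans (latFun_mem_Par N φ γ s hs))).resolve_left
      (Int.natCast_ne_zero.2 hp.ne_zero)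
  refine (Submodule.Quotient.mk_eq_zero _).2 ((mem_nMultiples N _).2 ⟨ψ, latFun_injective N ?_⟩)
  refine AddMonoidHom.ext fun γ => ?_
  rw [map_nsmul, hψ, AddMonoidHom.smul_apply, nsmul_eq_mul, hy γ]

/-- The torsion injects. -/
theorem torsFun_injective [Fact p.Prime] [Finite k] : Function.Injective (torsFun N p k) := by
  classical
  letI : Algebra (ZMod p) k := ZMod.algebra k p
  let b := Module.finBasis (ZMod p) k
  have hrep : ∀ x : FA.ModField.ModK N p k, ∃ w : Fin _ → ModN N (∅ : Set ℕ) p,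
      x = ∑ j, b j ⊗ₜ w j := by
    intro x
    induction x using TensorProduct.induction_on with
    | zero => exact ⟨0, by simp⟩
    | tmul c v =>
      refine ⟨fun j => ((b.repr c j).val : ℤ) • v, ?_⟩
      conv_lhs => rw [← b.sum_repr c, TensorProduct.sum_tmul]
      refine Finset.sum_congr rfl fun j _ => ?_
      rw [TensorProduct.tmul_smul, TensorProduct.smul_tmul']
      congr 1
      rw [natCast_zsmul, ← Nat.cast_smul_eq_nsmul (ZMod p), ZMod.natCast_zmod_val]
    | add x y hx hy =>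
      obtain ⟨u, rfl⟩ := hx
      obtain ⟨w, rfl⟩ := hy
      exact ⟨u + w, by simp [TensorProduct.tmul_add, Finset.sum_add_distrib]⟩
  refine (injective_iff_map_eq_zero _).2 fun x hx => ?_
  obtain ⟨w, rfl⟩ := hrep x
  have hw : ∀ j, w j = 0 := by
    choose φ hφ using fun j => Submodule.Quotient.mk_surjective _ (w j)
    have h0 : ∀ γ j, ((latFun N (φ j) γ : ℤ) : ZMod p) = 0 := fun γ => by
      refine Fintype.linearIndependent_iff.1 b.linearIndependent _ ?_
      have h1 := DFunLike.congr_fun hx γ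
      rw [map_sum, AddMonoidHom.finsetSum_apply, AddMonoidHom.zero_apply] at h1
      refine Eq.trans (Finset.sum_congr rfl fun j _ => ?_) h1
      rw [torsFun_tmul, ← hφ j, modFun_mk, Algebra.smul_def, map_intCast]
      exact mul_comm _ _
    intro j
    refine modFun_eq_zero N p k (v := w j) ?_
    rw [← hφ j, modFun_mk]
    refine AddMonoidHom.ext fun γ => (CharP.intCast_eq_zero_iff k p _).2 ?_
    exact (ZMod.intCast_zmod_eq_zero_iff_dvd _ p).1 (h0 γ j)
  simp [hw]

/-- The operators correspond. -/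
theorem torsFun_heckeK {ℓ : ℕ} [hℓ : Fact ℓ.Prime] (hℓN : ¬ ℓ ∣ N)
    (x : FA.ModField.ModK N p k) :
    torsFun N p k (FA.ModField.heckeK N p k
        (CuspForm.heckeAlgebra.T (k := 2) hℓ.out hℓN (Set.notMem_empty ℓ)) x) =
      (Tc N ⊤ ℓ).act (torsFun N p k x) := by
  induction x using TensorProduct.induction_on with
  | zero => simp
  | tmul c v =>
    obtain ⟨φ, rfl⟩ := Submodule.Quotient.mk_surjective _ v
    rw [FA.ModField.heckeK, LinearMap.baseChange_tmul, torsFun_tmul, torsFun_tmul, Corr.act_smul,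
      modFun_mk, Corr.act_comp_hom, ← latFun_T_smul N hℓN]
    rfl
  | add x y hx hy => rw [map_add, map_add, map_add, hx, hy, map_add]

end FA.HeckeH1

end
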