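import Fermat.Agent.HeckeH1.Cusp

/-!
The pairing between homomorphisms and modular symbols, Manin symbols, perfectness.
-/

set_option autoImplicit false

noncomputable section

namespace FA.HeckeH1

open ModularGroup
open scoped MatrixGroups

variable {Γ : Subgroup SL(2, ℤ)} {A : Type*}

theorem S_mem_zpowers : S ∈ Subgroup.zpowers (S : SL(2, ℤ)) := Subgroup.mem_zpowers _

theorem neg_one_mem_zpowers_S : (-1 : SL(2, ℤ)) ∈ Subgroup.zpowers (S : SL(2, ℤ)) := by
  rw [← S_sq]; exact mul_mem S_mem_zpowers S_mem_zpowers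

theorem neg_one_mem_zpowers_Ug : (-1 : SL(2, ℤ)) ∈ Subgroup.zpowers (Ug : SL(2, ℤ)) := by
  rw [← Ug_cube]
  exact mul_mem (mul_mem (Subgroup.mem_zpowers _) (Subgroup.mem_zpowers _)) (Subgroup.mem_zpowers _)

/-- The function `potS - potU`, left `Γ`-invariant. -/
def pairFun [AddCommGroup A] (z : Hom1 Γ A) (g : SL(2, ℤ)) : A := pot S z g - pot Ug z g

theorem pairFun_linv [AddCommGroup A] [IsAddTorsionFree A] (z : Hom1 Γ A) :
    LInv Γ (pairFun z) := fun γ hγ g => by
  have h1 := pot_left S_finOrder (ell_of_torsionFree z) ⟨γ, hγ⟩ g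
  have h2 := pot_left Ug_finOrder (ell_of_torsionFree z) ⟨γ, hγ⟩ g
  simp only [pairFun] at *
  rw [h1, h2]; abel

theorem pairFun_neg [AddCommGroup A] [IsAddTorsionFree A] (z : Hom1 Γ A) (g : SL(2, ℤ)) :
    pairFun z (-g) = pairFun z g := by
  rw [show -g = g * (-1) by simp]
  simp only [pairFun]
  rw [pot_right S_finOrder (ell_of_torsionFree z) g neg_one_mem_zpowers_S,
    pot_right Ug_finOrder (ell_of_torsionFree z) g neg_one_mem_zpowers_Ug]

section Manin

variable [AddCommGroup A] (φ : Symb Γ A)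

/-- The Manin symbol function of a modular symbol. -/
def msym (g : SL(2, ℤ)) : A := φ.1 (glQ g • cinf) (glQ g • czero)

theorem msym_linv : LInv Γ (msym φ) := fun γ hγ g => by
  simp only [msym, map_mul, mul_smul]
  exact Symb.invariant φ hγ _ _

theorem msym_neg (g : SL(2, ℤ)) : msym φ (-g) = msym φ g := by
  simp only [msym, glQ_neg_smul]

theorem msym_S (g : SL(2, ℤ)) : msym φ g + msym φ (g * S) = 0 := by
  simp only [msym, map_mul, mul_smul, glQ_S_inf, glQ_S_zero]
  rw [Symb.add_eq, Symb.self_eq]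

theorem msym_Ug (g : SL(2, ℤ)) :
    msym φ g + msym φ (g * Ug) + msym φ (g * Ug * Ug) = 0 := by
  simp only [msym, map_mul, mul_smul, glQ_Ug_inf, glQ_Ug_zero, glQ_Ug_one]
  rw [add_assoc, add_comm (φ.1 (glQ g • ((1 : ℚ) : P1)) _) _, Symb.add_eq, Symb.add_eq,
    Symb.self_eq]

theorem symb_eq_zero_of_msym (h : ∀ g, msym φ g = 0) : φ = 0 := by
  let Ψ : SL(2, ℤ) → A := fun g => φ.1 cinf (glQ g • cinf)
  have hS : ∀ g, Ψ (g * S) = Ψ g := fun g => by
    simp only [Ψ, map_mul, mul_smul, glQ_S_inf]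
    rw [← Symb.add_eq φ cinf (glQ g • cinf) (glQ g • czero)]
    rw [show φ.1 (glQ g • cinf) (glQ g • czero) = 0 from h g, add_zero]
  have hT : ∀ g, Ψ (g * T) = Ψ g := fun g => by
    have := glQ_T_zpow_smul 1
    rw [zpow_one] at this
    simp only [Ψ, map_mul, mul_smul, this]
  have hU : ∀ g, Ψ (g * Ug) = Ψ g := fun g => by
    rw [show g * Ug = g * T * S by rw [Ug, mul_assoc], hS, hT]
  have h0 : ∀ g, Ψ g = 0 := fun g => by
    rw [const_of_invariant Ψ hS hU g]
    simp only [Ψ, map_one, one_smul]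
    exact Symb.self_eq φ _
  apply Subtype.ext
  funext a b
  obtain ⟨ga, rfl⟩ := exists_glQ_smul a
  obtain ⟨gb, rfl⟩ := exists_glQ_smul b
  have e := Symb.add_eq φ cinf (glQ ga • cinf) (glQ gb • cinf)
  have ha : φ.1 cinf (glQ ga • cinf) = 0 := h0 ga
  have hb : φ.1 cinf (glQ gb • cinf) = 0 := h0 gb
  rw [ha, hb, zero_add] at e
  exact e

omit φ in
/-- Manin's theorem. -/
theorem exists_symb (m : SL(2, ℤ) → A) (hl : LInv Γ m) (hneg : ∀ g, m (-g) = m g)
    (hS : ∀ g, m g + m (g * S) = 0) (hU : ∀ g, m g + m (g * Ug) + m (g * Ug * Ug) = 0) :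
    ∃ φ : Symb Γ A, ∀ g, msym φ g = m g := by
  have hSi : ∀ g, m (g * S⁻¹) = -m g := fun g => by
    refine eq_neg_of_add_eq_zero_left ?_
    have := hS (g * S⁻¹)
    rwa [inv_mul_cancel_right] at this
  have hc : ∀ g, m (g * T) + m (g * Ug * T) + m (g * Ug * Ug * T) = 0 := by
    intro g
    simp only [T_eq, ← mul_assoc, hSi, Ug_mul_Ug_mul, hneg]
    have := hU g
    rw [← neg_eq_zero] at this
    rw [← this]; abel
  obtain ⟨Φ, hΦS, hΦU, -⟩ := integrate m (fun g => m (g * T)) hS hc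
  have hΦneg : ∀ g, Φ (-g) = Φ g := fun g => by
    rw [← S_mul_S_mul, hΦS, hΦS, add_assoc, hS, add_zero]
  have hΦT : ∀ g, Φ (g * T) = Φ g := fun g => by
    have h1 := hΦS (g * T)
    rw [mul_assoc g T S, show T * S = Ug from rfl, hΦU] at h1
    exact (add_right_cancel h1).symm
  have hΦTn : ∀ (n : ℤ) g, Φ (g * T ^ n) = Φ g := by
    intro n
    induction n using Int.induction_on with
    | zero => intro g; simp
    | succ k ih => intro g; rw [zpow_add_one, ← mul_assoc, hΦT, ih]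
    | pred k ih =>
      intro g
      rw [zpow_sub_one, ← mul_assoc, ← hΦT (g * T ^ (-(k : ℤ)) * T⁻¹), inv_mul_cancel_right, ih]
  have hwd : ∀ g g', glQ g • cinf = glQ g' • cinf → Φ g = Φ g' := by
    intro g g' h
    have h1 : glQ (g⁻¹ * g') • cinf = cinf := by
      rw [map_mul, map_inv, mul_smul, ← h, inv_smul_smul]
    obtain ⟨n, hn | hn⟩ := eq_T_zpow_of_smul h1
    · rw [show g' = g * T ^ n by rw [← hn]; group, hΦTn]
    · rw [show g' = -(g * T ^ n) by rw [← mul_neg, ← hn]; group, hΦneg, hΦTn]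
  let Φb : P1 → A := fun s => Φ (exists_glQ_smul s).choose
  have hΦb : ∀ g, Φb (glQ g • cinf) = Φ g := fun g =>
    hwd _ _ (exists_glQ_smul (glQ g • cinf)).choose_spec
  have hinv : ∀ γ ∈ Γ, ∀ g, Φ (γ * g) - Φ g = Φ γ - Φ 1 := by
    intro γ hγ g
    have := sub_eq_of_increments (Φ := fun g => Φ (γ * g)) (Ψ := Φ)
      (fun g => by simp only [← mul_assoc]; rw [hΦS, hΦS, hl γ hγ]; abel)
      (fun g => by
        simp only [← mul_assoc]
        rw [hΦU, hΦU, mul_assoc γ g T, hl γ hγ]; abel) g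
    simpa using this
  refine ⟨⟨fun a b => Φb b - Φb a, fun a b c => (add_comm _ _).trans (sub_add_sub_cancel (Φb c) (Φb b) (Φb a)),
    fun γ hγ a b => ?_⟩, fun g => ?_⟩
  · obtain ⟨ga, rfl⟩ := exists_glQ_smul a
    obtain ⟨gb, rfl⟩ := exists_glQ_smul b
    simp only [smul_smul, ← map_mul, hΦb]
    have h1 := hinv γ hγ ga
    have h2 := hinv γ hγ gb
    rw [sub_eq_iff_eq_add] at h1 h2
    rw [h1, h2]; abel
  · show Φb (glQ g • czero) - Φb (glQ g • cinf) = m g
    rw [← glQ_S_inf, smul_smul, ← map_mul, hΦb, hΦb, hΦS]; abel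

end Manin

section pairing

variable [CommRing A] [IsAddTorsionFree A] [Γ.FiniteIndex]

/-- The pairing. -/
def pr (z : Hom1 Γ A) (φ : Symb Γ A) : A := qsum Γ (fun g => pairFun z g * msym φ g)

theorem qsum_mul_msym_S (φ : Symb Γ A) {u : SL(2, ℤ) → A} (hl : LInv Γ u)
    (hu : ∀ g, u (g * S) = u g) : qsum Γ (fun g => u g * msym φ g) = 0 := by
  have hF : LInv Γ (fun g => u g * msym φ g) := fun γ hγ g => by
    simp only [hl γ hγ, msym_linv φ γ hγ]
  have h2 : (2 : ℕ) • qsum Γ (fun g => u g * msym φ g) = 0 := by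
    rw [two_nsmul]
    nth_rewrite 2 [← qsum_translate hF S]
    rw [← qsum_add]
    refine (qsum_congr fun g => ?_).trans qsum_zero
    rw [hu, ← mul_add, msym_S, mul_zero]
  exact (nsmul_eq_zero_iff_right two_ne_zero).1 h2

theorem qsum_mul_msym_Ug (φ : Symb Γ A) {u : SL(2, ℤ) → A} (hl : LInv Γ u)
    (hu : ∀ g, u (g * Ug) = u g) : qsum Γ (fun g => u g * msym φ g) = 0 := by
  have hF : LInv Γ (fun g => u g * msym φ g) := fun γ hγ g => by
    simp only [hl γ hγ, msym_linv φ γ hγ]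
  have h3 : (3 : ℕ) • qsum Γ (fun g => u g * msym φ g) = 0 := by
    have e1 := qsum_translate hF Ug
    have e2 := qsum_translate hF (Ug * Ug)
    calc (3 : ℕ) • qsum Γ (fun g => u g * msym φ g)
        = qsum Γ (fun g => u g * msym φ g) +
          qsum Γ (fun g => u (g * Ug) * msym φ (g * Ug)) +
          qsum Γ (fun g => u (g * (Ug * Ug)) * msym φ (g * (Ug * Ug))) := by
          rw [e1, e2, show (3 : ℕ) = 1 + 1 + 1 from rfl, add_nsmul, add_nsmul, one_nsmul]
      _ = 0 := by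
          rw [← qsum_add, ← qsum_add]
          refine (qsum_congr fun g => ?_).trans qsum_zero
          rw [← mul_assoc g, hu (g * Ug), hu g, ← mul_add, ← mul_add, msym_Ug, mul_zero]
  exact (nsmul_eq_zero_iff_right (by norm_num)).1 h3

/-- The pairing can be computed with any pair of potentials. -/
theorem pr_eq (z : Hom1 Γ A) (φ : Symb Γ A) (P Q : SL(2, ℤ) → A)
    (hP : ∀ (γ : Γ) g, P (γ * g) = hv z γ + P g) (hPS : ∀ g, P (g * S) = P g)
    (hQ : ∀ (γ : Γ) g, Q (γ * g) = hv z γ + Q g) (hQU : ∀ g, Q (g * Ug) = Q g) :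
    pr z φ = qsum Γ (fun g => (P g - Q g) * msym φ g) := by
  have hz := ell_of_torsionFree z
  rw [← sub_eq_zero, pr, ← qsum_sub]
  have e : ∀ g, pairFun z g * msym φ g - (P g - Q g) * msym φ g =
      (pot S z g - P g) * msym φ g - (pot Ug z g - Q g) * msym φ g := fun g => by
    simp only [pairFun]; ring
  rw [qsum_congr e, qsum_sub, qsum_mul_msym_S φ, qsum_mul_msym_Ug φ, sub_self]
  · intro γ hγ g
    show pot Ug z (γ * g) - Q (γ * g) = pot Ug z g - Q g
    have h1 := pot_left Ug_finOrder hz ⟨γ, hγ⟩ g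
    have h2 := hQ ⟨γ, hγ⟩ g
    simp only at h1 h2
    rw [h1, h2]; abel
  · intro g
    rw [pot_right Ug_finOrder hz g (Subgroup.mem_zpowers _), hQU]
  · intro γ hγ g
    show pot S z (γ * g) - P (γ * g) = pot S z g - P g
    have h1 := pot_left S_finOrder hz ⟨γ, hγ⟩ g
    have h2 := hP ⟨γ, hγ⟩ g
    simp only at h1 h2
    rw [h1, h2]; abel
  · intro g
    rw [pot_right S_finOrder hz g S_mem_zpowers, hPS]

omit [Γ.FiniteIndex] in
theorem pot_spec_all (e : SL(2, ℤ)) (he : IsOfFinOrder e) (z : Hom1 Γ A) :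
    (∀ (γ : Γ) g, pot e z (γ * g) = hv z γ + pot e z g) ∧
      ∀ g, pot e z (g * e) = pot e z g :=
  ⟨fun γ g => pot_left he (ell_of_torsionFree z) γ g,
    fun g => pot_right he (ell_of_torsionFree z) g (Subgroup.mem_zpowers e)⟩

theorem pr_add_left (z w : Hom1 Γ A) (φ : Symb Γ A) : pr (z + w) φ = pr z φ + pr w φ := by
  obtain ⟨hzS, hzS'⟩ := pot_spec_all S S_finOrder z
  obtain ⟨hzU, hzU'⟩ := pot_spec_all Ug Ug_finOrder z
  obtain ⟨hwS, hwS'⟩ := pot_spec_all S S_finOrder w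
  obtain ⟨hwU, hwU'⟩ := pot_spec_all Ug Ug_finOrder w
  rw [pr_eq (z + w) φ (fun g => pot S z g + pot S w g) (fun g => pot Ug z g + pot Ug w g)
    (fun γ g => by simp only [hzS, hwS, hv, AddMonoidHom.add_apply]; abel)
    (fun g => by simp only [hzS', hwS'])
    (fun γ g => by simp only [hzU, hwU, hv, AddMonoidHom.add_apply]; abel)
    (fun g => by simp only [hzU', hwU'])]
  simp only [pr, ← qsum_add, pairFun]
  exact qsum_congr fun g => by ring

theorem pr_add_right (z : Hom1 Γ A) (φ ψ : Symb Γ A) : pr z (φ + ψ) = pr z φ + pr z ψ := by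
  simp only [pr, ← qsum_add]
  refine qsum_congr fun g => ?_
  rw [← mul_add]; rfl

/-- The pairing as a biadditive map. -/
def prHom : Hom1 Γ A →+ Symb Γ A →+ A :=
  AddMonoidHom.mk' (fun z => AddMonoidHom.mk' (pr z) (pr_add_right z))
    (fun z w => AddMonoidHom.ext fun φ => pr_add_left z w φ)

@[simp] theorem prHom_apply (z : Hom1 Γ A) (φ : Symb Γ A) : prHom z φ = pr z φ := rfl

end pairing

end FA.HeckeH1

end
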