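import Fermat.Agent.HeckeH1.TWGroup

/-!
For a prime `ℓ ≡ 1` modulo the level, `T ℓ - ℓ - 1` maps homomorphisms to parabolic ones. So pieces
on which such an operator is invertible are parabolic.
-/

set_option autoImplicit false

noncomputable section

namespace FA.HeckeH1

open IsLocalRing Matrix ModularGroup
open scoped MatrixGroups

variable {M : ℕ} {H : Subgroup (ZMod M)ˣ}

/-- Representatives in determinant `ℓ` adapted to the translation by `M`. -/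
def cuspMat (M ℓ : ℕ) : Option (Fin ℓ) → MatZ
  | none => !![(ℓ : ℤ), 0; 0, 1]
  | some j => !![1, (M : ℤ) * j; 0, (ℓ : ℤ)]

/-- The exponents of the translation. -/
def cuspExp (ℓ : ℕ) : Option (Fin ℓ) → ℤ
  | none => ℓ
  | some j => ((((j : ℕ) + 1) / ℓ : ℕ) : ℤ)

theorem cuspMat_det (ℓ : ℕ) (x : Option (Fin ℓ)) : (cuspMat M ℓ x).det = ℓ := by
  cases x <;> simp [cuspMat, det_fin_two_of]

theorem sum_cuspExp {ℓ : ℕ} (hℓ : 0 < ℓ) : ∑ x, cuspExp ℓ x = ℓ + 1 := by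
  rw [Fintype.sum_option]
  refine congrArg (_ + ·) ((Finset.sum_eq_single_of_mem (⟨ℓ - 1, by omega⟩ : Fin ℓ)
    (Finset.mem_univ _) fun j _ hj => ?_).trans ?_)
  · show ((((j : ℕ) + 1) / ℓ : ℕ) : ℤ) = 0
    have h := j.2
    have hj' : (j : ℕ) ≠ ℓ - 1 := fun e => hj (Fin.ext e)
    rw [Nat.div_eq_of_lt (by omega), Nat.cast_zero]
  · show (((ℓ - 1 + 1) / ℓ : ℕ) : ℤ) = 1
    rw [Nat.sub_add_cancel hℓ, Nat.div_self hℓ, Nat.cast_one]

theorem cuspMat_shift {ℓ : ℕ} [NeZero ℓ] (x : Option (Fin ℓ)) :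
    cuspMat M ℓ x * (T ^ (M : ℤ) : SL(2, ℤ)).1 =
      (T ^ ((M : ℤ) * cuspExp ℓ x) : SL(2, ℤ)).1 *
        cuspMat M ℓ (Equiv.optionCongr (Equiv.addRight (1 : Fin ℓ)) x) := by
  rw [coe_T_zpow, coe_T_zpow]
  rcases x with _ | j
  · ext r s
    fin_cases r <;> fin_cases s <;>
      simp [cuspMat, cuspExp, Matrix.mul_apply, Fin.sum_univ_two, mul_comm]
  · have h : ((j : ℕ) : ℤ) + 1 = ((j + 1 : Fin ℓ) : ℕ) + (ℓ : ℤ) * cuspExp ℓ (some j) := by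
      show _ = _ + (ℓ : ℤ) * ((((j : ℕ) + 1) / ℓ : ℕ) : ℤ)
      rw [Fin.val_add, Fin.val_one', Nat.add_mod_mod]
      exact_mod_cast (Nat.mod_add_div ((j : ℕ) + 1) ℓ).symm
    ext r s
    fin_cases r <;> fin_cases s <;>
      simp [cuspMat, Matrix.mul_apply, Fin.sum_univ_two] <;>
      linear_combination (M : ℤ) * h

theorem cuspMat_inj {ℓ : ℕ} (hℓ : ℓ.Prime) (hℓM : ¬ ℓ ∣ M) {x y : Option (Fin ℓ)}
    {Y : MatZ} (h : cuspMat M ℓ x = Y * cuspMat M ℓ y) : x = y := by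
  have h00 := congrFun (congrFun h 0) 0
  have h10 := congrFun (congrFun h 1) 0
  have h01 := congrFun (congrFun h 0) 1
  have h11 := congrFun (congrFun h 1) 1
  simp only [Matrix.mul_apply, Fin.sum_univ_two] at h00 h10 h01 h11
  rcases x with _ | a <;> rcases y with _ | b <;>
    simp [cuspMat] at h00 h10 h01 h11
  · rfl
  · rw [← h10, zero_mul, zero_add] at h11
    exfalso
    have h1 : (ℓ : ℤ) ∣ 1 := ⟨Y 1 1, by linear_combination h11⟩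
    exact hℓ.not_dvd_one (by exact_mod_cast h1)
  · exfalso
    have h1 : (ℓ : ℤ) ∣ 1 := ⟨Y 0 0, by linear_combination h00⟩
    exact hℓ.not_dvd_one (by exact_mod_cast h1)
  · rw [← h00] at h01
    have h1 : (ℓ : ℤ) ∣ (M : ℤ) * ((a : ℤ) - b) := ⟨Y 0 1, by linear_combination h01⟩
    have h2 := ((Nat.prime_iff_prime_int.1 hℓ).dvd_mul.1 h1).resolve_left
      (by exact_mod_cast hℓM)
    have h3 : (a : ℤ) - b = 0 := Int.eq_zero_of_abs_lt_dvd h2 (by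
      rw [abs_lt]; have := a.isLt; have := b.isLt; constructor <;> omega)
    exact congrArg some (Fin.ext (by omega))

/-- Matrices congruent to one, conjugated. -/
theorem conj_cuspMat_mem {ℓ : ℕ} (hℓ1 : (ℓ : ZMod M) = 1) (g : SL(2, ℤ))
    (x : Option (Fin ℓ)) : g.1 * cuspMat M ℓ x * (g⁻¹ : SL(2, ℤ)).1 ∈ Dl M H ℓ := by
  have hred : (g.1 * cuspMat M ℓ x * (g⁻¹ : SL(2, ℤ)).1).map (Int.castRingHom (ZMod M)) = 1 := by
    rw [Matrix.map_mul, Matrix.map_mul,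
      show (cuspMat M ℓ x).map (Int.castRingHom (ZMod M)) = 1 by
        rcases x with _ | j <;> ext r s <;> fin_cases r <;> fin_cases s <;> simp [cuspMat, hℓ1],
      mul_one, ← Matrix.map_mul, ← Matrix.SpecialLinearGroup.coe_mul, mul_inv_cancel,
      Matrix.SpecialLinearGroup.coe_one, Matrix.map_one _ (map_zero _) (map_one _)]
  refine ⟨?_, ?_, 1, one_mem H, ?_⟩
  · rw [det_mul, det_mul, g.2, (g⁻¹ : SL(2, ℤ)).2, one_mul, mul_one, cuspMat_det]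
  · rw [← ZMod.intCast_zmod_eq_zero_iff_dvd]
    simpa using congrFun (congrFun hred 1) 0
  · simpa using (congrFun (congrFun hred 0) 0).symm

theorem conj_T_mem (g : SL(2, ℤ)) (n : ℤ) : g * T ^ ((M : ℤ) * n) * g⁻¹ ∈ GamH M H := by
  refine Gamma_le_GamH ((CongruenceSubgroup.Gamma_normal M).conj_mem _ ?_ g)
  rw [CongruenceSubgroup.Gamma_mem, coe_T_zpow]
  simp

/-- The element `g T ^ (M n) g⁻¹` of `Γ_H(M)`. -/
def cuspEl (H : Subgroup (ZMod M)ˣ) (g : SL(2, ℤ)) (n : ℤ) : GamH M H :=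
  ⟨g * T ^ ((M : ℤ) * n) * g⁻¹, conj_T_mem g n⟩

theorem cuspEl_zpow (g : SL(2, ℤ)) (n : ℤ) : cuspEl H g 1 ^ n = cuspEl H g n := by
  apply Subtype.ext
  rw [SubgroupClass.coe_zpow]
  show (g * T ^ ((M : ℤ) * 1) * g⁻¹) ^ n = g * T ^ ((M : ℤ) * n) * g⁻¹
  rw [conj_zpow, mul_one, ← _root_.zpow_mul]

theorem hv_zpow {Γ : Subgroup SL(2, ℤ)} {A : Type*} [AddCommGroup A] (z : Hom1 Γ A) (γ : Γ)
    (n : ℤ) : hv z (γ ^ n) = n • hv z γ := map_zsmul z n (Additive.ofMul γ)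

/-- `T ℓ` on the translations at a cusp, `ℓ ≡ 1` modulo the level. -/
theorem Tc_cuspEl {A : Type*} [AddCommGroup A] {ℓ : ℕ} [Fact ℓ.Prime]
    (hℓ1 : (ℓ : ZMod M) = 1) (hℓM : ¬ ℓ ∣ M) (g : SL(2, ℤ)) (z : Hom1 (GamH M H) A) :
    hv ((Tc M H ℓ).act z) (cuspEl H g 1) = ((ℓ + 1 : ℕ) : ℤ) • hv z (cuspEl H g 1) := by
  have hℓ : ℓ.Prime := Fact.out
  have : NeZero ℓ := ⟨hℓ.ne_zero⟩
  have hd : ∀ x, (cuspMat M ℓ x).det ≠ 0 := fun x => by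
    rw [cuspMat_det]; exact_mod_cast hℓ.ne_zero
  choose σ h e using fun x => exists_class hℓ (conj_cuspMat_mem (H := H) hℓ1 g x)
  have hgl : ∀ x, gl (g.1 * cuspMat M ℓ x * (g⁻¹ : SL(2, ℤ)).1) =
      glQ g * gl (cuspMat M ℓ x) * glQ g⁻¹ := fun x => by
    rw [gl_mul (by rw [det_mul, g.2, one_mul]; exact hd x)
      (by rw [(g⁻¹ : SL(2, ℤ)).2]; exact one_ne_zero),
      gl_mul (by rw [g.2]; exact one_ne_zero) (hd x), gl_coe, gl_coe]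
  simp only [hgl] at e
  have hσ : Function.Injective σ := fun x y hxy => by
    let k : GamH M H := h x * (h y)⁻¹
    refine cuspMat_inj hℓ hℓM (Y := (g⁻¹ * (k : SL(2, ℤ)) * g : SL(2, ℤ)).1)
      (gl_inj (hd x) (by rw [det_mul, (g⁻¹ * (k : SL(2, ℤ)) * g : SL(2, ℤ)).2, one_mul]
                         exact hd y) ?_)
    rw [gl_mul (by rw [(g⁻¹ * (k : SL(2, ℤ)) * g : SL(2, ℤ)).2]; exact one_ne_zero) (hd y), gl_coe]
    have e1 := e x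
    rw [hxy, show gl (rep M ℓ (σ y)) = (glQ (h y : SL(2, ℤ)))⁻¹ *
      (glQ g * gl (cuspMat M ℓ y) * glQ g⁻¹) by rw [e y, inv_mul_cancel_left]] at e1
    simp only [k, map_mul, map_inv, Subgroup.coe_mul, Subgroup.coe_inv] at e1 ⊢
    have e2 := congrArg (fun w => (glQ g)⁻¹ * w * glQ g) e1
    simp only [mul_assoc, inv_mul_cancel_left, inv_mul_cancel, mul_one] at e2 ⊢
    exact e2
  let σe : Option (Fin ℓ) ≃ RIdx M ℓ := Equiv.ofBijective σ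
    ((Fintype.bijective_iff_injective_and_card σ).2 ⟨hσ, by
      exact (Fintype.card_congr (Equiv.subtypeUnivEquiv fun x _ => hℓM)).symm⟩)
  let π : Equiv.Perm (Option (Fin ℓ)) := Equiv.optionCongr (Equiv.addRight 1)
  let k : Option (Fin ℓ) → GamH M H := fun x => (h x)⁻¹ * cuspEl H g (cuspExp ℓ x) * h (π x)
  have key : ∀ i : RIdx M ℓ, gl (rep M ℓ i) * glQ (cuspEl H g 1 : SL(2, ℤ)) =
      glQ (k (σe.symm i) : SL(2, ℤ)) * gl (rep M ℓ (((σe.symm.trans π).trans σe) i)) := fun i => by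
    obtain ⟨x, rfl⟩ := σe.surjective i
    simp only [Equiv.trans_apply, Equiv.symm_apply_apply]
    show gl (rep M ℓ (σ x)) * glQ (g * T ^ ((M : ℤ) * 1) * g⁻¹) =
      glQ (((h x : SL(2, ℤ))⁻¹ * (g * T ^ ((M : ℤ) * cuspExp ℓ x) * g⁻¹)) * (h (π x) : SL(2, ℤ))) *
        gl (rep M ℓ (σ (π x)))
    rw [show gl (rep M ℓ (σ x)) = (glQ (h x : SL(2, ℤ)))⁻¹ *
      (glQ g * gl (cuspMat M ℓ x) * glQ g⁻¹) by rw [e x, inv_mul_cancel_left],
      map_mul _ _ (h (π x) : SL(2, ℤ)), mul_assoc _ (glQ (h (π x) : SL(2, ℤ))), ← e (π x)]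
    have hs : gl (cuspMat M ℓ x) * glQ (T ^ (M : ℤ)) =
        glQ (T ^ ((M : ℤ) * cuspExp ℓ x)) * gl (cuspMat M ℓ (π x)) := by
      rw [← gl_coe, ← gl_coe, ← gl_mul (hd _) (by rw [(T ^ (M : ℤ) : SL(2, ℤ)).2]; exact one_ne_zero),
        ← gl_mul (by rw [(T ^ ((M : ℤ) * cuspExp ℓ x) : SL(2, ℤ)).2]; exact one_ne_zero) (hd _),
        cuspMat_shift]
    simp only [map_mul, map_inv, mul_one, mul_assoc, inv_mul_cancel_left]
    rw [← mul_assoc (gl (cuspMat M ℓ x)), hs, mul_assoc]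
  refine ((Tc M H ℓ).act_eq z (cuspEl H g 1) ((σe.symm.trans π).trans σe)
    (fun i => k (σe.symm i)) key).trans ?_
  show ∑ i : RIdx M ℓ, hv z (k (σe.symm i)) = _
  rw [Equiv.sum_comp σe.symm (fun x => hv z (k x))]
  simp only [k, hv_mul, hv_inv, Finset.sum_add_distrib, Finset.sum_neg_distrib]
  rw [Equiv.sum_comp π (fun x => hv z (h x))]
  simp only [← cuspEl_zpow (H := H) g (cuspExp ℓ _), hv_zpow, ← Finset.sum_smul,
    sum_cuspExp hℓ.pos]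
  push_cast
  abel

/-- **`T ℓ - ℓ - 1` has parabolic values**, `ℓ ≡ 1` modulo the level. -/
theorem Tc_sub_mem_Par {A : Type*} [CommRing A] [IsAddTorsionFree A] [NeZero M] {ℓ : ℕ}
    [Fact ℓ.Prime] (hℓ1 : (ℓ : ZMod M) = 1) (hℓM : ¬ ℓ ∣ M) (z : Hom1 (GamH M H) A) :
    (Tc M H ℓ).act z - (ℓ + 1 : ℕ) • z ∈ Par (GamH M H) A := by
  intro γ s hs
  set w := (Tc M H ℓ).act z - (ℓ + 1 : ℕ) • z
  obtain ⟨g, rfl⟩ := exists_glQ_smul s
  have hw : hv w (cuspEl H g 1) = 0 := by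
    show hv ((Tc M H ℓ).act z) _ - (ℓ + 1 : ℕ) • hv z _ = 0
    rw [Tc_cuspEl hℓ1 hℓM, natCast_zsmul, sub_self]
  obtain ⟨n, hn⟩ := eq_T_zpow_of_smul (g := g⁻¹ * (γ : SL(2, ℤ)) * g)
    (by rw [map_mul, map_mul, map_inv, mul_smul, mul_smul, hs, inv_smul_smul])
  have hpow : γ ^ (2 * M) = cuspEl H g 1 ^ (2 * n) := by
    apply Subtype.ext
    rw [cuspEl_zpow, SubgroupClass.coe_pow]
    show _ = g * T ^ ((M : ℤ) * (2 * n)) * g⁻¹
    have h1 : ((g⁻¹ * (γ : SL(2, ℤ)) * g) ^ (2 * M)) = T ^ ((M : ℤ) * (2 * n)) := by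
      rcases hn with hn | hn <;> rw [hn]
      · rw [← zpow_natCast, ← _root_.zpow_mul]; congr 1; push_cast; ring
      · rw [Even.neg_pow (even_two_mul M), ← zpow_natCast, ← _root_.zpow_mul]; congr 1; push_cast; ring
    rw [← h1, show g⁻¹ * (γ : SL(2, ℤ)) * g = g⁻¹ * (γ : SL(2, ℤ)) * g⁻¹⁻¹ by rw [inv_inv],
      conj_pow, inv_inv]
    group
  have h : (2 * M) • hv w γ = 0 := by
    rw [← natCast_zsmul, ← hv_zpow, zpow_natCast, hpow, hv_zpow, hw, smul_zero]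
  exact (nsmul_eq_zero_iff_right (by simp [NeZero.ne M])).1 h

section piece

variable [NeZero M] {O : Type} [CommRing O] [IsAddTorsionFree O]

/-- A piece on which `T ℓ - ℓ - 1` is invertible is parabolic. -/
theorem pair_mem_Par {ℓ : Nat.Primes} (hℓ1 : ((ℓ : ℕ) : ZMod M) = 1) (hℓM : ¬ (ℓ : ℕ) ∣ M)
    {e s : pairAlg M H O}
    (hs : s * (⟨_, Tpair_mem M H O ℓ⟩ - ((ℓ : ℕ) + 1 : ℕ)) * e = e) (v : Hom1 (GamH M H) O) :
    e.1.1 v ∈ Par (GamH M H) O := by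
  have h : (⟨_, Tpair_mem M H O ℓ⟩ - ((ℓ : ℕ) + 1 : ℕ)) * (s * e) = e := by
    rw [← mul_assoc, mul_comm _ s, hs]
  rw [← h]
  simpa [Tpair, Corr.actLin_apply, add_smul] using Tc_sub_mem_Par hℓ1 hℓM ((s * e).1.1 v)

end piece

section twAct

variable {N : ℕ} [NeZero N] {O : Type} [CommRing O] [IsDomain O] [IsDiscreteValuationRing O]
  [IsAdicComplete (maximalIdeal O) O] [CharZero O] {S : Finset Nat.Primes}
  {χ₀ : heckeAlg N ⊤ O S →ₐ[O] ResidueField O} {Q : Finset Nat.Primes} {α : Nat.Primes → O}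
  [NeZero M] [Finite (GamH M ⊤ ⧸ (GamH M H).subgroupOf (GamH M ⊤))] [Fintype ((ZMod M)ˣ ⧸ H)]
  {d : ℕ} {b : Fin d → Hom1 (GamH N ⊤) O}

omit [NeZero N] in
/-- **The piece of a Taylor-Wiles level is parabolic.** -/
theorem TWAct.mem_Par (T : TWAct χ₀ Q α M H b) (hQ : ∀ q ∈ Q, (q : ℕ) ∣ M)
    (hNE : ∀ L : ℕ, L ≠ 0 → ∃ ℓ : Nat.Primes, ¬ (ℓ : ℕ) ∣ L ∧ ((ℓ : ℕ) : ZMod L) = 1 ∧
      χ₀ (Tgen N ⊤ O S ℓ) ≠ ((ℓ : ℕ) : ResidueField O) + 1)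
    (v : Hom1 (GamH M H) O) : T.e.1.1 v ∈ Par (GamH M H) O := by
  obtain ⟨ℓ, hℓL, hℓ1, hℓ⟩ := hNE (M * ∏ r ∈ S, (r : ℕ))
    (mul_ne_zero (NeZero.ne M) (Finset.prod_ne_zero_iff.2 fun r _ => r.2.ne_zero))
  have hℓM : ¬ (ℓ : ℕ) ∣ M := fun h => hℓL (h.mul_right _)
  have hℓS : ℓ ∉ S := fun h => hℓL ((Finset.dvd_prod_of_mem _ h).mul_left M)
  have hℓ1' : ((ℓ : ℕ) : ZMod M) = 1 := by
    simpa using congrArg (ZMod.castHom (dvd_mul_right M (∏ r ∈ S, (r : ℕ))) (ZMod M)) hℓ1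
  have hℓQ : ℓ ∉ Q := fun h => hℓM (hQ ℓ h)
  obtain ⟨s, hs⟩ := T.piece.inv (Tp M H O S ℓ - ((ℓ : ℕ) + 1 : ℕ)) (by
    rw [map_sub, map_natCast, sub_ne_zero, T.χ_T ℓ hℓQ, Nat.cast_add, Nat.cast_one]
    exact hℓ)
  have hs' := congrArg (incl M H O S) hs
  rw [map_mul, map_mul, map_sub, map_natCast, Tp_incl M H O S hℓS] at hs'
  have h := pair_mem_Par hℓ1' hℓM hs' v
  rwa [incl_val] at h

end twAct

end FA.HeckeH1

end
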