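import Fermat.Agent.HeckeH1.Pairing

/-!
Perfectness of the pairing over a principal ideal domain of characteristic zero.
-/

set_option autoImplicit false

noncomputable section

namespace FA.HeckeH1

open ModularGroup
open scoped MatrixGroups

section module

variable {Γ : Subgroup SL(2, ℤ)} {R A : Type*} [Semiring R] [AddCommGroup A] [Module R A]

theorem Symb.smul_mem (r : R) {φ : P1 → P1 → A} (h : φ ∈ Symb Γ A) : r • φ ∈ Symb Γ A :=
  ⟨fun a b c => by simp only [Pi.smul_apply, ← smul_add, h.1 a b c],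
    fun γ hγ a b => by simp only [Pi.smul_apply, h.2 γ hγ a b]⟩

instance Symb.instSMulScalar : SMul R (Symb Γ A) := ⟨fun r φ => ⟨r • φ.1, Symb.smul_mem r φ.2⟩⟩

@[simp] theorem Symb.coe_smul (r : R) (φ : Symb Γ A) : (r • φ).1 = r • φ.1 := rfl

instance Symb.instModule : Module R (Symb Γ A) :=
  Function.Injective.module R (Symb Γ A).subtype Subtype.val_injective fun _ _ => rfl

theorem msym_smul (r : R) (φ : Symb Γ A) (g : SL(2, ℤ)) : msym (r • φ) g = r • msym φ g := rfl

theorem msym_add (φ ψ : Symb Γ A) (g : SL(2, ℤ)) : msym (φ + ψ) g = msym φ g + msym ψ g := rfl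

theorem Corr.symb_smul {Γ' : Subgroup SL(2, ℤ)} (C : Corr Γ Γ') (r : R) (φ : Symb Γ A) :
    C.symb (r • φ) = r • C.symb φ := by
  apply Subtype.ext
  funext a b
  simp [Corr.symb_apply, Finset.smul_sum]

end module

variable {Γ : Subgroup SL(2, ℤ)} {A : Type*}

section funs

variable [CommRing A] [IsAddTorsionFree A]

/-- `z` has a pair of potentials with difference `F`. -/
def IsFun (z : Hom1 Γ A) (F : SL(2, ℤ) → A) : Prop :=
  ∃ P Q : SL(2, ℤ) → A, (∀ (γ : Γ) g, P (γ * g) = hv z γ + P g) ∧ (∀ g, P (g * S) = P g) ∧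
    (∀ (γ : Γ) g, Q (γ * g) = hv z γ + Q g) ∧ (∀ g, Q (g * Ug) = Q g) ∧ ∀ g, F g = P g - Q g

theorem isFun_pairFun (z : Hom1 Γ A) : IsFun z (pairFun z) :=
  ⟨pot S z, pot Ug z, (pot_spec_all S S_finOrder z).1, (pot_spec_all S S_finOrder z).2,
    (pot_spec_all Ug Ug_finOrder z).1, (pot_spec_all Ug Ug_finOrder z).2, fun _ => rfl⟩

omit [IsAddTorsionFree A] in
theorem IsFun.add {z w : Hom1 Γ A} {F G : SL(2, ℤ) → A} (h : IsFun z F) (h' : IsFun w G) :
    IsFun (z + w) (fun g => F g + G g) := by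
  obtain ⟨P, Q, hP, hPS, hQ, hQU, hF⟩ := h
  obtain ⟨P', Q', hP', hPS', hQ', hQU', hF'⟩ := h'
  refine ⟨fun g => P g + P' g, fun g => Q g + Q' g, fun γ g => ?_, fun g => ?_, fun γ g => ?_,
    fun g => ?_, fun g => ?_⟩
  · simp only [hv, AddMonoidHom.add_apply, hP, hP']; abel
  · simp only [hPS, hPS']
  · simp only [hv, AddMonoidHom.add_apply, hQ, hQ']; abel
  · simp only [hQU, hQU']
  · simp only [hF, hF']; abel

omit [IsAddTorsionFree A] in
theorem IsFun.smul {z : Hom1 Γ A} {F : SL(2, ℤ) → A} (h : IsFun z F) (r : A) :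
    IsFun (r • z) (fun g => r * F g) := by
  obtain ⟨P, Q, hP, hPS, hQ, hQU, hF⟩ := h
  exact ⟨fun g => r * P g, fun g => r * Q g,
    fun γ g => by simp only [hv, AddMonoidHom.smul_apply, smul_eq_mul, hP]; ring,
    fun g => by simp only [hPS], fun γ g => by
      simp only [hv, AddMonoidHom.smul_apply, smul_eq_mul, hQ]; ring,
    fun g => by simp only [hQU], fun g => by simp only [hF]; ring⟩

theorem isFun_zero : IsFun (0 : Hom1 Γ A) (fun _ => 0) :=
  ⟨fun _ => 0, fun _ => 0, fun _ _ => by simp [hv], fun _ => rfl, fun _ _ => by simp [hv],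
    fun _ => rfl, fun _ => by simp⟩

theorem IsFun.sum {ι : Type*} (s : Finset ι) {z : ι → Hom1 Γ A} {F : ι → SL(2, ℤ) → A}
    (h : ∀ i ∈ s, IsFun (z i) (F i)) : IsFun (∑ i ∈ s, z i) (fun g => ∑ i ∈ s, F i g) := by
  classical
  induction s using Finset.induction_on with
  | empty => simpa using isFun_zero (Γ := Γ) (A := A)
  | @insert a s ha ih =>
    simp only [Finset.sum_insert ha]
    exact (h a (Finset.mem_insert_self a s)).add (ih fun i hi => h i (Finset.mem_insert_of_mem hi))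

omit [IsAddTorsionFree A] in
theorem IsFun.unique {z w : Hom1 Γ A} {F : SL(2, ℤ) → A} (h : IsFun z F) (h' : IsFun w F) :
    z = w := by
  obtain ⟨P, Q, hP, hPS, hQ, hQU, hF⟩ := h
  obtain ⟨P', Q', hP', hPS', hQ', hQU', hF'⟩ := h'
  have e : ∀ g, P g - P' g = Q g - Q' g := fun g => by
    rw [sub_eq_sub_iff_sub_eq_sub, ← hF, ← hF']
  have hc := const_of_invariant (fun g => P g - P' g) (fun g => by simp only [hPS, hPS'])
    (fun g => by simp only [e, hQU, hQU'])
  apply AddMonoidHom.ext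
  intro γ
  show hv z γ.toMul = hv w γ.toMul
  have h1 : P ((γ.toMul : Γ) : SL(2, ℤ)) - P' ((γ.toMul : Γ) : SL(2, ℤ)) = P 1 - P' 1 := hc _
  have h2 := hP γ.toMul 1
  have h3 := hP' γ.toMul 1
  rw [mul_one] at h2 h3
  rw [h2, h3] at h1
  linear_combination h1

omit [IsAddTorsionFree A] in
theorem exists_isFun {F : SL(2, ℤ) → A} (hl : LInv Γ F) (hn : ∀ g, F (-g) = F g) :
    ∃ z : Hom1 Γ A, IsFun z F := by
  obtain ⟨Φ, hΦS, hΦU, -⟩ := integrate (fun _ => (0 : A)) (fun g => F (g * Ug) - F g)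
    (fun _ => add_zero 0)
    (fun g => by
      have h := congrArg F (Ug_mul_Ug_mul g)
      rw [hn] at h
      linear_combination h)
  have hinv : ∀ γ ∈ Γ, ∀ g, Φ (γ * g) - Φ g = Φ γ - Φ 1 := by
    intro γ hγ g
    have := sub_eq_of_increments (Φ := fun g => Φ (γ * g)) (Ψ := Φ)
      (fun g => by simp only [← mul_assoc, hΦS]; abel)
      (fun g => by
        simp only [← mul_assoc, hΦU]
        rw [mul_assoc γ g Ug, hl γ hγ, hl γ hγ]; abel) g
    simpa using this
  let z : Hom1 Γ A := AddMonoidHom.mk' (fun γ => Φ (γ.toMul : Γ) - Φ 1) (fun γ δ => by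
    rw [toMul_add, Subgroup.coe_mul]
    have := hinv (γ.toMul : Γ) (γ.toMul).2 (δ.toMul : Γ)
    linear_combination this)
  have hP : ∀ (γ : Γ) g, Φ (γ * g) = hv z γ + Φ g := fun γ g => by
    show Φ (γ * g) = (Φ γ - Φ 1) + Φ g
    linear_combination hinv γ γ.2 g
  refine ⟨z, Φ, fun g => Φ g - F g, hP, fun g => by rw [hΦS, add_zero], fun γ g => ?_, fun g => ?_,
    fun g => by ring⟩
  · simp only [hP, hl γ γ.2]; ring
  · simp only [hΦU]; ring

variable [Γ.FiniteIndex]

theorem IsFun.pr_eq_sum {z : Hom1 Γ A} {F : SL(2, ℤ) → A} (h : IsFun z F) (φ : Symb Γ A) :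
    pr z φ = qsum Γ (fun g => F g * msym φ g) := by
  obtain ⟨P, Q, hP, hPS, hQ, hQU, hF⟩ := h
  rw [pr_eq z φ P Q hP hPS hQ hQU]
  simp only [hF]

theorem pr_smul_left (r : A) (z : Hom1 Γ A) (φ : Symb Γ A) : pr (r • z) φ = r * pr z φ := by
  rw [((isFun_pairFun z).smul r).pr_eq_sum, pr]
  simp only [qsum, Finset.mul_sum, mul_assoc]

theorem pr_smul_right (r : A) (z : Hom1 Γ A) (φ : Symb Γ A) : pr z (r • φ) = r * pr z φ := by
  simp only [pr, qsum, Finset.mul_sum, msym_smul, smul_eq_mul]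
  exact Finset.sum_congr rfl fun x _ => by ring

/-- The pairing as a bilinear map. -/
def prLin : Hom1 Γ A →ₗ[A] Symb Γ A →ₗ[A] A :=
  LinearMap.mk₂ A pr pr_add_left (fun r z φ => pr_smul_left r z φ) pr_add_right
    (fun r z φ => pr_smul_right r z φ)

@[simp] theorem prLin_apply (z : Hom1 Γ A) (φ : Symb Γ A) : prLin z φ = pr z φ := rfl

open Classical in
/-- The indicator function of a coset. -/
def delta (Γ : Subgroup SL(2, ℤ)) (A : Type*) [CommRing A] (x : SL(2, ℤ) ⧸ Γ) (g : SL(2, ℤ)) : A :=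
  if (QuotientGroup.mk g⁻¹ : SL(2, ℤ) ⧸ Γ) = x then 1 else 0

omit [IsAddTorsionFree A] [Γ.FiniteIndex] in
theorem delta_linv (x : SL(2, ℤ) ⧸ Γ) : LInv Γ (delta Γ A x) := fun γ hγ g => by
  classical
  have : (QuotientGroup.mk (γ * g)⁻¹ : SL(2, ℤ) ⧸ Γ) = QuotientGroup.mk g⁻¹ := by
    rw [QuotientGroup.eq]; simpa using hγ
  simp only [delta]
  exact if_congr (by rw [this]) rfl rfl

omit [IsAddTorsionFree A] [Γ.FiniteIndex] in
theorem delta_neg (hΓ : -1 ∈ Γ) (x : SL(2, ℤ) ⧸ Γ) (g : SL(2, ℤ)) :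
    delta Γ A x (-g) = delta Γ A x g := by
  rw [show -g = (-1) * g by simp, delta_linv x (-1) hΓ]

omit [IsAddTorsionFree A] in
theorem qsum_delta_mul (x : SL(2, ℤ) ⧸ Γ) (F : SL(2, ℤ) → A) :
    qsum Γ (fun g => delta Γ A x g * F g) = F x.out⁻¹ := by
  classical
  let := Γ.fintypeQuotientOfFiniteIndex
  show ∑ y : SL(2, ℤ) ⧸ Γ, delta Γ A x y.out⁻¹ * F y.out⁻¹ = _
  rw [Finset.sum_eq_single x (fun y _ hy => by simp [delta, hy])
    (fun h => absurd (Finset.mem_univ x) h)]
  simp [delta]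

end funs

section perfect

variable [CommRing A] [IsAddTorsionFree A] [Γ.FiniteIndex]

omit [Γ.FiniteIndex] in
theorem eq_zero_of_pairFun {z : Hom1 Γ A} (h : ∀ g, pairFun z g = 0) : z = 0 :=
  (show IsFun z (fun _ => 0) from
    (funext fun g => (h g).symm : (fun _ => (0 : A)) = pairFun z) ▸ isFun_pairFun z).unique isFun_zero

/-- `z ↦` the values of its Manin function on coset representatives. -/
def funLin (Γ : Subgroup SL(2, ℤ)) (A : Type*) [CommRing A] :
    Hom1 Γ A →ₗ[A] (SL(2, ℤ) ⧸ Γ → A) where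
  toFun z x := pairFun z x.out⁻¹
  map_add' z w := by
    funext x
    simp only [pairFun, pot, hv, AddMonoidHom.add_apply, Pi.add_apply]; abel
  map_smul' r z := by
    funext x
    simp only [pairFun, pot, hv, AddMonoidHom.smul_apply, Pi.smul_apply, smul_eq_mul,
      RingHom.id_apply, mul_sub]

omit [Γ.FiniteIndex] in
theorem funLin_injective : Function.Injective (funLin Γ A) := by
  rw [injective_iff_map_eq_zero]
  intro z hz
  refine eq_zero_of_pairFun fun g => ?_
  have := congrFun hz (QuotientGroup.mk g⁻¹)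
  simp only [funLin, LinearMap.coe_mk, AddHom.coe_mk, Pi.zero_apply] at this
  rwa [(pairFun_linv z).eval_out, inv_inv] at this

/-- `φ ↦` its Manin symbols. -/
def msymLin (Γ : Subgroup SL(2, ℤ)) (A : Type*) [CommRing A] :
    Symb Γ A →ₗ[A] (SL(2, ℤ) ⧸ Γ → A) where
  toFun φ x := msym φ x.out⁻¹
  map_add' φ ψ := rfl
  map_smul' r φ := rfl

omit [IsAddTorsionFree A] [Γ.FiniteIndex] in
theorem msymLin_injective : Function.Injective (msymLin Γ A) := by
  rw [injective_iff_map_eq_zero]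
  intro φ hφ
  refine symb_eq_zero_of_msym φ fun g => ?_
  have := congrFun hφ (QuotientGroup.mk g⁻¹)
  simp only [msymLin, LinearMap.coe_mk, AddHom.coe_mk, Pi.zero_apply] at this
  rwa [(msym_linv φ).eval_out, inv_inv] at this

instance hom1_finite [IsNoetherianRing A] : Module.Finite A (Hom1 Γ A) :=
  Module.Finite.of_injective (funLin Γ A) funLin_injective

instance symb_finite [IsNoetherianRing A] : Module.Finite A (Symb Γ A) :=
  Module.Finite.of_injective (msymLin Γ A) msymLin_injective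

theorem prLin_flip_bijective (hΓ : -1 ∈ Γ) :
    Function.Bijective (prLin (Γ := Γ) (A := A)).flip := by
  classical
  let := Γ.fintypeQuotientOfFiniteIndex
  choose zd hzd using fun x : SL(2, ℤ) ⧸ Γ =>
    exists_isFun (delta_linv (A := A) x) (delta_neg hΓ x)
  constructor
  · rw [injective_iff_map_eq_zero]
    intro φ hφ
    refine symb_eq_zero_of_msym φ fun g => ?_
    have := LinearMap.congr_fun hφ (zd (QuotientGroup.mk g⁻¹))
    rw [LinearMap.flip_apply, prLin_apply, (hzd _).pr_eq_sum, qsum_delta_mul,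
      (msym_linv φ).eval_out, inv_inv] at this
    simpa using this
  · intro L
    let m : SL(2, ℤ) → A := fun g => L (zd (QuotientGroup.mk g⁻¹))
    have hval : ∀ (z : Hom1 Γ A) (F : SL(2, ℤ) → A), LInv Γ F → IsFun z F →
        L z = qsum Γ (fun g => F g * m g) := by
      intro z F hF hz
      have h1 : IsFun (∑ x : SL(2, ℤ) ⧸ Γ, F x.out⁻¹ • zd x) F := by
        have h2 := IsFun.sum Finset.univ fun x _ => (hzd x).smul (F x.out⁻¹)
        convert h2 using 1
        funext g
        rw [Finset.sum_eq_single (QuotientGroup.mk g⁻¹) (fun y _ hy => by simp [delta, Ne.symm hy])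
          (fun h => absurd (Finset.mem_univ _) h)]
        simp [delta, hF.eval_out]
      rw [hz.unique h1, map_sum]
      unfold qsum
      refine Finset.sum_congr rfl fun x _ => ?_
      simp only [map_smul, smul_eq_mul, m, inv_inv, QuotientGroup.out_eq']
    have hrel : ∀ (z : Hom1 Γ A) (F : SL(2, ℤ) → A), LInv Γ F → IsFun z F → z = 0 →
        qsum Γ (fun g => F g * m g) = 0 := fun z F hF hz h0 => by
      rw [← hval z F hF hz, h0, map_zero]
    have hml : LInv Γ m := fun γ hγ g => by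
      simp only [m, _root_.mul_inv_rev, QuotientGroup.mk_mul_of_mem _ (inv_mem hγ)]
    have hmn : ∀ g, m (-g) = m g := fun g => by
      rw [show -g = (-1) * g by simp, hml (-1) hΓ]
    have hd : ∀ g : SL(2, ℤ),
        qsum Γ (fun k => delta Γ A (QuotientGroup.mk g⁻¹) k * m k) = m g := fun g => by
      rw [qsum_delta_mul, hml.eval_out, inv_inv]
    have hS : ∀ g, m g + m (g * S) = 0 := by
      intro g
      have h := hrel 0 (fun k => delta Γ A (QuotientGroup.mk g⁻¹) k +
        delta Γ A (QuotientGroup.mk (g * S)⁻¹) k)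
        (fun γ hγ k => by simp only [delta_linv _ γ hγ]) ?_ rfl
      · simp only [add_mul, qsum_add] at h
        rwa [hd, hd] at h
      refine ⟨fun k => delta Γ A (QuotientGroup.mk g⁻¹) k +
        delta Γ A (QuotientGroup.mk (g * S)⁻¹) k, fun _ => 0, fun γ k => ?_, fun k => ?_,
        fun γ k => by simp [hv], fun _ => rfl, fun k => by simp⟩
      · simp only [delta_linv _ (γ : SL(2, ℤ)) γ.2, hv, AddMonoidHom.zero_apply, zero_add]
      · simp only
        rw [add_comm]
        congr 1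
        · simp only [delta]
          refine if_congr ?_ rfl rfl
          rw [← (MulAction.injective (S : SL(2, ℤ))).eq_iff]
          show (QuotientGroup.mk (S * (k * S)⁻¹) : SL(2, ℤ) ⧸ Γ) =
            QuotientGroup.mk (S * (g * S)⁻¹) ↔ _
          rw [show S * (k * S)⁻¹ = k⁻¹ by group, show S * (g * S)⁻¹ = g⁻¹ by group]
        · simp only [delta]
          refine if_congr ?_ rfl rfl
          rw [← (MulAction.injective (S : SL(2, ℤ))⁻¹).eq_iff (a := QuotientGroup.mk k⁻¹)]
          show _ ↔ (QuotientGroup.mk (S⁻¹ * k⁻¹) : SL(2, ℤ) ⧸ Γ) =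
            QuotientGroup.mk (S⁻¹ * (g * S)⁻¹)
          rw [_root_.mul_inv_rev k S]
          have e : (QuotientGroup.mk (S⁻¹ * (g * S)⁻¹) : SL(2, ℤ) ⧸ Γ) = QuotientGroup.mk g⁻¹ := by
            rw [QuotientGroup.eq,
              show (S⁻¹ * (g * S)⁻¹)⁻¹ * g⁻¹ = g * S * S * g⁻¹ by
                rw [_root_.mul_inv_rev, inv_inv, inv_inv], S_mul_S_mul]
            simpa using hΓ
          rw [e]
    have hU : ∀ g, m g + m (g * Ug) + m (g * Ug * Ug) = 0 := by
      intro g
      let d : SL(2, ℤ) → SL(2, ℤ) → A := fun g k => delta Γ A (QuotientGroup.mk g⁻¹) k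
      have hshift : ∀ g k, d g (k * Ug) = d (g * Ug⁻¹) k := by
        intro g k
        simp only [d, delta]
        refine if_congr ?_ rfl rfl
        rw [← (MulAction.injective (Ug : SL(2, ℤ))).eq_iff]
        show (QuotientGroup.mk (Ug * (k * Ug)⁻¹) : SL(2, ℤ) ⧸ Γ) =
          QuotientGroup.mk (Ug * g⁻¹) ↔ _
        rw [show Ug * (k * Ug)⁻¹ = k⁻¹ by group, show Ug * g⁻¹ = (g * Ug⁻¹)⁻¹ by group]
      have hdneg : ∀ g k, d (-g) k = d g k := by
        intro g k
        simp only [d, delta]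
        have : (QuotientGroup.mk (-g)⁻¹ : SL(2, ℤ) ⧸ Γ) = QuotientGroup.mk g⁻¹ := by
          rw [QuotientGroup.eq, inv_inv, show -g * g⁻¹ = -1 by simp]; exact hΓ
        rw [this]
      have h := hrel 0 (fun k => d g k + d (g * Ug) k + d (g * Ug * Ug) k)
        (fun γ hγ k => by simp only [d, delta_linv _ γ hγ]) ?_ rfl
      · simp only [d, add_mul, qsum_add] at h
        rwa [hd, hd, hd] at h
      refine ⟨fun _ => 0, fun k => -(d g k + d (g * Ug) k + d (g * Ug * Ug) k),
        fun γ k => by simp [hv], fun _ => rfl, fun γ k => ?_, fun k => ?_, fun k => by simp⟩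
      · simp only [d, delta_linv _ (γ : SL(2, ℤ)) γ.2, hv, AddMonoidHom.zero_apply, zero_add]
      · have e1 : g * Ug⁻¹ = -(g * Ug * Ug) := by
          rw [mul_inv_eq_iff_eq_mul, neg_mul, Ug_mul_Ug_mul, neg_neg]
        simp only [hshift, mul_inv_cancel_right, e1, hdneg]
        abel
    obtain ⟨φ, hφ⟩ := exists_symb m hml hmn hS hU
    refine ⟨φ, LinearMap.ext fun z => ?_⟩
    rw [LinearMap.flip_apply, prLin_apply, hval z _ (pairFun_linv z) (isFun_pairFun z), pr]
    simp only [hφ]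

variable [IsDomain A] [IsPrincipalIdealRing A]

instance hom1_free : Module.Free A (Hom1 Γ A) :=
  Module.Free.of_equiv (LinearEquiv.ofInjective (funLin Γ A) funLin_injective).symm

instance symb_free : Module.Free A (Symb Γ A) :=
  Module.Free.of_equiv (LinearEquiv.ofInjective (msymLin Γ A) msymLin_injective).symm

/-- **Perfectness.** -/
theorem prLin_bijective (hΓ : -1 ∈ Γ) : Function.Bijective (prLin (Γ := Γ) (A := A)) := by
  have hb := prLin_flip_bijective (A := A) hΓ
  let e : Symb Γ A ≃ₗ[A] Module.Dual A (Hom1 Γ A) := LinearEquiv.ofBijective _ hb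
  have : prLin (Γ := Γ) (A := A) = e.dualMap.toLinearMap ∘ₗ Module.Dual.eval A (Hom1 Γ A) :=
    LinearMap.ext fun z => LinearMap.ext fun φ => rfl
  rw [this, LinearMap.coe_comp]
  exact e.dualMap.bijective.comp (Module.bijective_dual_eval A (Hom1 Γ A))

end perfect

end FA.HeckeH1

end
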