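import Fermat.Agent.HeckeH1.Raise
import Fermat.Agent.JTorsion.Periods
import Fermat.Agent.JTorsion.PeriodPair

/-!
Periods of cusp forms as parabolic homomorphisms on `Γ_H(M)`, compatibly with the Hecke
correspondences.
-/

set_option autoImplicit false

noncomputable section

namespace FA.HeckeH1

open CongruenceSubgroup UpperHalfPlane ModularCurve ModularCurve.Period
open FA.JTorsion (FormPair heckeForm heckePt heckeIdx isPrimitive_heckeForm)
open scoped MatrixGroups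

section conjugate

variable {Γ : Subgroup SL(2, ℤ)} {A : Type*} [AddCommGroup A]

/-- A correspondence stable under an automorphism of the level commutes with it. -/
theorem Corr.act_conjugate (C : Corr Γ Γ) (j : Γ →* Γ) (J : GL (Fin 2) ℚ)
    (hj : ∀ γ : Γ, glQ (j γ : SL(2, ℤ)) = J * glQ (γ : SL(2, ℤ)) * J⁻¹)
    (σ : Equiv.Perm C.ι) (k : C.ι → Γ)
    (hk : ∀ i, J * C.α i * J⁻¹ = glQ (k i : SL(2, ℤ)) * C.α (σ i)) (z : Hom1 Γ A) (γ : Γ) :
    hv (C.act (z.comp (MonoidHom.toAdditive j))) γ = hv (C.act z) (j γ) := by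
  let g : C.ι → Γ := fun i => (k i)⁻¹ * j (C.fac γ i) * k (C.perm γ i)
  rw [C.act_eq z (j γ) ((σ.symm.trans (C.perm γ)).trans σ) (fun i => g (σ.symm i)) (fun i => by
    have h1 := congrArg (fun x => J * x * J⁻¹) (C.fac_spec γ (σ.symm i))
    have e1 : J * (C.α (σ.symm i) * glQ (γ : SL(2, ℤ))) * J⁻¹ =
        (J * C.α (σ.symm i) * J⁻¹) * (J * glQ (γ : SL(2, ℤ)) * J⁻¹) := by group
    have e2 : J * (glQ (C.fac γ (σ.symm i) : SL(2, ℤ)) * C.α (C.perm γ (σ.symm i))) * J⁻¹ =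
        (J * glQ (C.fac γ (σ.symm i) : SL(2, ℤ)) * J⁻¹) *
          (J * C.α (C.perm γ (σ.symm i)) * J⁻¹) := by group
    simp only [e1, e2, hk, ← hj, Equiv.apply_symm_apply, mul_assoc] at h1
    simp only [g, Equiv.trans_apply, Subgroup.coe_mul, Subgroup.coe_inv, map_mul, map_inv,
      mul_assoc]
    rw [eq_inv_mul_iff_mul_eq]
    exact h1), Equiv.sum_comp σ.symm (fun i => hv z (g i)), C.act_apply]
  simp only [g, hv_mul, hv_inv, Finset.sum_add_distrib, Finset.sum_neg_distrib]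
  rw [Equiv.sum_comp (C.perm γ) (fun i => hv z (k i)), neg_add_eq_sub, sub_add_cancel]
  rfl

end conjugate

/-- `GL(2, ℚ) → GL(2, ℝ)`. -/
def toR : GL (Fin 2) ℚ →* GL (Fin 2) ℝ :=
  Matrix.GeneralLinearGroup.map (Rat.castHom ℝ)

theorem toR_glQ_smul (g : SL(2, ℤ)) (z : ℍ) : toR (glQ g) • z = g • z := by
  rw [show toR (glQ g) = (g : GL (Fin 2) ℝ) by ext i j; simp [toR]]
  rfl

theorem coe_toR_gl {X : MatZ} (hX : X.det ≠ 0) :
    (toR (gl X)).1 = X.map (Int.cast : ℤ → ℝ) := by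
  ext i j
  simp [toR, coe_gl hX]

/-- Conjugation by `diag(-1, 1)`. -/
def jMat : MatZ := !![-1, 0; 0, 1]

theorem jMat_det : jMat.det = -1 := by simp [jMat, Matrix.det_fin_two_of]

theorem gl_jConj {X : MatZ} (hX : X.det ≠ 0) :
    gl (jConjMat X) = gl jMat * gl X * (gl jMat)⁻¹ := by
  have hJ : jMat.det ≠ 0 := by rw [jMat_det]; norm_num
  rw [eq_mul_inv_iff_mul_eq, ← gl_mul (by rw [jConjMat_det]; exact hX) hJ, ← gl_mul hJ hX]
  congr 1
  ext i j
  fin_cases i <;> fin_cases j <;> simp [jMat, jConjMat, Matrix.mul_apply, Fin.sum_univ_two]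

variable {M : ℕ} {H : Subgroup (ZMod M)ˣ}

theorem jConj_mem_Dl {n : ℤ} {X : MatZ} (hX : X ∈ Dl M H n) : jConjMat X ∈ Dl M H n := by
  obtain ⟨hd, hc, u, hu, hua⟩ := hX
  exact ⟨by rw [jConjMat_det, hd], by simpa using hc, u, hu, by simpa using hua⟩

variable (M H) in
/-- Conjugation by `diag(-1, 1)` on `Γ_H(M)`. -/
def jGam : GamH M H →* GamH M H where
  toFun γ := ⟨jConjSL γ, jConj_mem_Dl γ.2⟩
  map_one' := Subtype.ext (map_one jConjSL)
  map_mul' _ _ := Subtype.ext (map_mul jConjSL _ _)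

theorem glQ_jGam (γ : GamH M H) :
    glQ (jGam M H γ : SL(2, ℤ)) = gl jMat * glQ (γ : SL(2, ℤ)) * (gl jMat)⁻¹ := by
  rw [← gl_coe, ← gl_coe, ← gl_jConj (by rw [(γ : SL(2, ℤ)).2]; exact one_ne_zero)]
  rfl

theorem Tc_jGam {ℓ : ℕ} [Fact ℓ.Prime] {A : Type*} [AddCommGroup A] (z : Hom1 (GamH M H) A)
    (γ : GamH M H) :
    hv ((Tc M H ℓ).act (z.comp (MonoidHom.toAdditive (jGam M H)))) γ =
      hv ((Tc M H ℓ).act z) (jGam M H γ) := by
  have hℓ : ℓ.Prime := Fact.out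
  have hd : ∀ i, (rep M ℓ i).det ≠ 0 := fun i => by rw [rep_det hℓ]; exact_mod_cast hℓ.ne_zero
  have h1 : ∀ i : RIdx M ℓ, ∃ k : RIdx M ℓ, ∃ h : GamH M H,
      gl jMat * gl (rep M ℓ i) * (gl jMat)⁻¹ = glQ (h : SL(2, ℤ)) * gl (rep M ℓ k) := fun i => by
    obtain ⟨k, h, e⟩ := exists_class hℓ (jConj_mem_Dl (rep_mem hℓ H i))
    exact ⟨k, h, by rw [← e, gl_jConj (hd i)]⟩
  choose σ h e using h1
  have hσ : Function.Injective σ := fun i i' hii => by
    refine rep_class_inj hℓ (g := ((jGam M H (h i * (h i')⁻¹) : GamH M H) : SL(2, ℤ))) ?_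
    rw [glQ_jGam, Subgroup.coe_mul, map_mul, Subgroup.coe_inv, map_inv]
    have e1 := e i
    rw [hii] at e1
    rw [eq_mul_inv_iff_mul_eq.2 e1.symm, eq_mul_inv_iff_mul_eq.2 (e i').symm]
    have hJ : (gl jMat)⁻¹ = gl jMat := by
      rw [inv_eq_iff_mul_eq_one, ← gl_mul (by rw [jMat_det]; norm_num) (by rw [jMat_det]; norm_num),
        show jMat * jMat = ((1 : SL(2, ℤ)) : MatZ) by
          ext a b; fin_cases a <;> fin_cases b <;> simp [jMat, Matrix.mul_apply, Fin.sum_univ_two],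
        gl_coe, map_one]
    simp only [hJ]
    have hJJ : gl jMat * gl jMat = 1 := by nth_rw 2 [← hJ]; exact mul_inv_cancel _
    simp only [mul_inv_rev, inv_inv, hJ, mul_assoc]
    simp [← mul_assoc, hJJ]
  exact Corr.act_conjugate (Tc M H ℓ) (jGam M H) (gl jMat) glQ_jGam
    (Equiv.ofBijective σ (Finite.injective_iff_bijective.1 hσ)) h e z γ

variable (M H) in
/-- The inclusion in `Γ₀(M)`. -/
def inclG : GamH M H →* Gamma0 M := Subgroup.inclusion GamH_le_Gamma0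

variable (M H) in
/-- Restriction of homomorphisms from `Γ₀(M)`. -/
def resG : (Additive (Gamma0 M) →+ ℂ) →ₗ[ℂ] Hom1 (GamH M H) ℂ where
  toFun z := z.comp (MonoidHom.toAdditive (inclG M H))
  map_add' _ _ := rfl
  map_smul' _ _ := rfl

variable [NeZero M]

variable (M H) in
/-- The periods of a pair of forms. -/
def perP : FormPair M →ₗ[ℂ] Hom1 (GamH M H) ℂ := (resG M H).comp (periodHomPair M)

/-- Periods of `T ℓ f`. -/
theorem periodMap_Tc {ℓ : ℕ} [Fact ℓ.Prime] [NeZero ℓ]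
    (hℓH : ¬ ℓ ∣ M → ∃ u ∈ H, (u : ZMod M) = (ℓ : ZMod M)) (f : CuspForm (Gamma0 M) 2) :
    (Tc M H ℓ).act (resG M H (periodMap M f)) =
      resG M H (periodMap M (heckeForm M ℓ Fact.out f)) := by
  classical
  have hℓ : ℓ.Prime := Fact.out
  obtain ⟨F, hF⟩ := FA.Period.exists_hasEquivariantPrimitive f
  have hG := isPrimitive_heckeForm M ℓ hℓ hF.1
  have hshift : ∀ i : RIdx M ℓ, ∃ c : ℂ, ∀ z : ℍ,
      F (heckePt ℓ i.1 z) = F (toR (gl (rep M ℓ i)) • z) + c := by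
    intro i
    obtain ⟨_ | j, hi⟩ := i
    · have hX : !![(ℓ : ℤ), 0; 0, 1] ∈ Dl M H ℓ := by
        obtain ⟨u, hu, hue⟩ := hℓH (hi rfl)
        exact ⟨by simp [Matrix.det_fin_two_of], by simp, u, hu, by simpa using hue⟩
      obtain ⟨k, g, e⟩ := exists_class hℓ hX
      obtain rfl : k = ⟨none, hi⟩ := by
        obtain ⟨_ | b, hb⟩ := k
        · rfl
        exfalso
        have hdet : ((g : SL(2, ℤ)).1 * rep M ℓ ⟨some b, hb⟩).det = (ℓ : ℤ) := by
          rw [Matrix.det_mul, (g : SL(2, ℤ)).2, one_mul, rep_det hℓ]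
        rw [← gl_coe, ← gl_mul (by rw [(g : SL(2, ℤ)).2]; exact one_ne_zero)
          (by rw [rep_det hℓ]; exact_mod_cast hℓ.ne_zero)] at e
        have e2 := gl_inj (by simp [Matrix.det_fin_two_of, hℓ.ne_zero])
          (by rw [hdet]; exact_mod_cast hℓ.ne_zero) e
        have e0 := congrFun (congrFun e2 0) 0
        have e1 := congrFun (congrFun e2 1) 0
        rw [(mul_rep_some _ b hb 0).1] at e0
        rw [(mul_rep_some _ b hb 1).1] at e1
        simp at e0 e1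
        have h1 := (g : SL(2, ℤ)).2
        rw [Matrix.det_fin_two, ← e0, ← e1, mul_zero, sub_zero] at h1
        exact hℓ.ne_one (Nat.eq_one_of_dvd_one (Int.natCast_dvd_natCast.1 ⟨_, h1.symm⟩))
      refine ⟨periodMap M f (Additive.ofMul (inclG M H g)), fun z => ?_⟩
      have hpt : heckePt ℓ none z = (g : SL(2, ℤ)) • toR (gl (rep M ℓ ⟨none, hi⟩)) • z := by
        rw [← toR_glQ_smul, ← mul_smul, ← map_mul, ← e]
        apply UpperHalfPlane.ext
        show ((ModularForm.heckeDiagMatrix ℓ • z : ℍ) : ℂ) = _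
        rw [ModularForm.coe_heckeDiagMatrix_smul (NeZero.ne ℓ), UpperHalfPlane.coe_smul_of_det_pos]
        · simp [UpperHalfPlane.num, UpperHalfPlane.denom, coe_toR_gl, Matrix.det_fin_two_of, hℓ.ne_zero]
        · simp [Matrix.GeneralLinearGroup.val_det_apply, coe_toR_gl, Matrix.det_fin_two,
            hℓ.ne_zero, hℓ.pos]
      rw [hpt, FA.Period.periodMap_apply f hF.1 (inclG M H g) (toR (gl (rep M ℓ ⟨none, hi⟩)) • z)]
      show F ((g : SL(2, ℤ)) • _) = _
      simp [inclG]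
    · refine ⟨0, fun z => ?_⟩
      rw [add_zero]
      congr 1
      apply UpperHalfPlane.ext
      show ((ModularForm.heckeMatrix ℓ (j : ℕ) • z : ℍ) : ℂ) = _
      rw [ModularForm.coe_heckeMatrix_smul (NeZero.ne ℓ), UpperHalfPlane.coe_smul_of_det_pos]
      · simp [UpperHalfPlane.num, UpperHalfPlane.denom, coe_toR_gl, rep, Matrix.det_fin_two_of,
          hℓ.ne_zero]
      · simp [Matrix.GeneralLinearGroup.val_det_apply, coe_toR_gl, rep, Matrix.det_fin_two,
          hℓ.ne_zero, hℓ.pos]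
  choose c hc using hshift
  let G' : ℍ → ℂ := fun z => ∑ i : RIdx M ℓ, F (toR (gl (rep M ℓ i)) • z)
  have hG' : ∀ z, ∑ x ∈ heckeIdx M ℓ, F (heckePt ℓ x z) = G' z + ∑ i, c i := fun z => by
    rw [Finset.sum_subtype (p := fun x : Option (Fin ℓ) => x = none → ¬ ℓ ∣ M) (heckeIdx M ℓ)
      (fun x => by cases x <;> simp [heckeIdx] <;> split_ifs <;> simp_all) fun x => F (heckePt ℓ x z),
      ← Finset.sum_add_distrib]
    exact Finset.sum_congr rfl fun i _ => hc i z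
  apply AddMonoidHom.ext
  intro γ
  show hv ((Tc M H ℓ).act (resG M H (periodMap M f))) γ.toMul =
    periodMap M (heckeForm M ℓ hℓ f) (Additive.ofMul (inclG M H γ.toMul))
  generalize γ.toMul = γ
  rw [FA.Period.periodMap_apply _ hG (inclG M H γ) UpperHalfPlane.I, hG', hG',
    add_sub_add_right_eq_sub, Corr.act_apply]
  have key : ∀ i : RIdx M ℓ,
      hv (resG M H (periodMap M f)) ((Tc M H ℓ).fac γ i) =
        F (toR (gl (rep M ℓ i)) • (γ : SL(2, ℤ)) • UpperHalfPlane.I) -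
          F (toR (gl (rep M ℓ ((Tc M H ℓ).perm γ i))) • UpperHalfPlane.I) := fun i => by
    rw [← toR_glQ_smul (γ : SL(2, ℤ)), ← mul_smul, ← map_mul,
      show gl (rep M ℓ i) * glQ (γ : SL(2, ℤ)) = _ from (Tc M H ℓ).fac_spec γ i, map_mul, mul_smul,
      toR_glQ_smul]
    exact FA.Period.periodMap_apply f hF.1 (inclG M H ((Tc M H ℓ).fac γ i)) _
  refine (Fintype.sum_congr _ _ key).trans ?_
  rw [Finset.sum_sub_distrib]
  refine congrArg (_ - ·) ?_
  exact Equiv.sum_comp ((Tc M H ℓ).perm γ)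
    (fun i : RIdx M ℓ => F (toR (gl (rep M ℓ i)) • UpperHalfPlane.I))

/-- Periods intertwine the Hecke operators. -/
theorem perP_Tc {ℓ : ℕ} [Fact ℓ.Prime]
    (hℓH : ¬ ℓ ∣ M → ∃ u ∈ H, (u : ZMod M) = (ℓ : ZMod M)) (p : FormPair M) :
    haveI : NeZero ℓ := ⟨(Fact.out : ℓ.Prime).ne_zero⟩
    (Tc M H ℓ).act (perP M H p) =
      perP M H (heckeForm M ℓ Fact.out p.1, heckeForm M ℓ Fact.out p.2) := by
  have : NeZero ℓ := ⟨(Fact.out : ℓ.Prime).ne_zero⟩
  obtain ⟨pml, hpml, hdef⟩ := periodHomPair_def M FA.Period.existsPeriodMapLinear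
  obtain ⟨f, g⟩ := p
  have hval : ∀ u v : CuspForm (Gamma0 M) 2, perP M H (u, v) =
      (resG M H (periodMap M u) +
        (resG M H (periodMap M u)).comp (MonoidHom.toAdditive (jGam M H))) +
      (resG M H (periodMap M v) -
        (resG M H (periodMap M v)).comp (MonoidHom.toAdditive (jGam M H))) := fun u v => by
    rw [perP, LinearMap.comp_apply, hdef, ← hpml, ← hpml]
    rfl
  have hj : ∀ z : Hom1 (GamH M H) ℂ,
      (Tc M H ℓ).act (z.comp (MonoidHom.toAdditive (jGam M H))) =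
        ((Tc M H ℓ).act z).comp (MonoidHom.toAdditive (jGam M H)) := fun z =>
    AddMonoidHom.ext fun γ => Tc_jGam z γ.toMul
  simp only [hval, map_add, map_sub, hj, periodMap_Tc hℓH]

/-- An element fixing a cusp has trace `± 2`. -/
theorem trace_sq_of_fixes {γ : SL(2, ℤ)} {s : P1} (hs : glQ γ • s = s) :
    (γ : Matrix (Fin 2) (Fin 2) ℤ).trace ^ 2 = 4 := by
  obtain ⟨g, rfl⟩ := exists_glQ_smul s
  obtain ⟨n, hn⟩ := eq_T_zpow_of_smul (g := g⁻¹ * γ * g)
    (by rw [map_mul, map_mul, map_inv, mul_smul, mul_smul, hs, inv_smul_smul])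
  have h : (γ : MatZ).trace = ((g⁻¹ * γ * g : SL(2, ℤ)) : MatZ).trace := by
    rw [Matrix.SpecialLinearGroup.coe_mul (g⁻¹ * γ) g, Matrix.trace_mul_comm,
      ← Matrix.SpecialLinearGroup.coe_mul, ← mul_assoc, mul_inv_cancel, one_mul]
  rw [h]
  rcases hn with hn | hn <;> rw [hn] <;>
    simp [Matrix.trace_fin_two, ModularGroup.coe_T_zpow]

theorem perP_mem_Par (p : FormPair M) : perP M H p ∈ Par (GamH M H) ℂ := fun γ _ hs => by
  have h : periodHomPair M p ∈ parabolicHoms ℂ (Gamma0 M) ℂ :=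
    (Fermat.Agent.S21.result M).2 ▸ LinearMap.mem_range_self _ _
  exact h (inclG M H γ) (trace_sq_of_fixes hs)

omit [NeZero M] in
theorem resG_injective (hH : H = ⊤) : Function.Injective (resG M H) := fun x y h => by
  apply AddMonoidHom.ext
  intro g
  have hg : ((g.toMul : Gamma0 M) : SL(2, ℤ)) ∈ GamH M H := by
    rw [hH, GamH_top]; exact g.toMul.2
  exact DFunLike.congr_fun h (Additive.ofMul ⟨_, hg⟩)

theorem perP_injective (hH : H = ⊤) : Function.Injective (perP M H) :=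
  (resG_injective hH).comp (Fermat.Agent.S21.result M).1

theorem exists_perP_eq (hH : H = ⊤) {z : Hom1 (GamH M H) ℂ} (hz : z ∈ Par (GamH M H) ℂ) :
    ∃ p : FormPair M, perP M H p = z := by
  have hle : Gamma0 M ≤ GamH M H := by rw [hH, GamH_top]
  let z' : Additive (Gamma0 M) →+ ℂ := z.comp (MonoidHom.toAdditive (Subgroup.inclusion hle))
  have hz' : z' ∈ parabolicHoms ℂ (Gamma0 M) ℂ := mem_parabolicHoms_iff.2 fun γ hγ => by
    obtain ⟨δ, m, hm⟩ := FA.Period.exists_conj_eq_of_trace_sq hγ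
    refine hz ⟨(γ : SL(2, ℤ)), hle γ.2⟩ (glQ δ • cinf) ?_
    show glQ (γ : SL(2, ℤ)) • glQ δ • cinf = _
    rw [← mul_smul, ← map_mul]
    rcases hm with hm | hm <;> rw [hm]
    · rw [map_mul, mul_smul, glQ_T_zpow_smul]
    · rw [glQ_neg_smul, map_mul, mul_smul, glQ_T_zpow_smul]
  rw [← (Fermat.Agent.S21.result M).2, LinearMap.mem_range] at hz'
  obtain ⟨p, hp⟩ := hz'
  exact ⟨p, by rw [perP, LinearMap.comp_apply, hp]; rfl⟩

end FA.HeckeH1

end
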