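import Fermat.Agent.HeckeH1.Present
import Fermat.Agent.HeckeH1.Corr

/-!
Integration on `SL(2, ℤ)`, equivariant potentials of homomorphisms, sums over cosets.
-/

set_option autoImplicit false

noncomputable section

namespace FA.HeckeH1

open ModularGroup
open scoped MatrixGroups

theorem closure_S_Ug : Subgroup.closure {S, Ug} = (⊤ : Subgroup SL(2, ℤ)) := by
  rw [eq_top_iff, ← SpecialLinearGroup.SL2Z_generators, Subgroup.closure_le]
  rintro g (rfl | rfl)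
  · exact Subgroup.subset_closure (Or.inl rfl)
  · have : T = Ug * S⁻¹ := by rw [Ug]; group
    rw [this]
    exact mul_mem (Subgroup.subset_closure (Or.inr rfl))
      (inv_mem (Subgroup.subset_closure (Or.inl rfl)))

/-- A function invariant under right translation by `S` and `U` is constant. -/
theorem const_of_invariant {B : Type*} (D : SL(2, ℤ) → B) (hS : ∀ g, D (g * S) = D g)
    (hU : ∀ g, D (g * Ug) = D g) (g : SL(2, ℤ)) : D g = D 1 := by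
  have h : g ∈ Subgroup.closure {S, Ug} := by rw [closure_S_Ug]; trivial
  have key : ∀ k, D (k * g) = D k := by
    refine Subgroup.closure_induction (p := fun x _ => ∀ k, D (k * x) = D k) ?_ ?_ ?_ ?_ h
    · rintro x (rfl | rfl)
      exacts [hS, hU]
    · intro k; rw [mul_one]
    · intro x y _ _ hx hy k; rw [← mul_assoc, hy, hx]
    · intro x _ hx k; rw [← hx (k * x⁻¹), inv_mul_cancel_right]
  simpa using key 1

/-- Two functions with the same increments differ by a constant. -/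
theorem sub_eq_of_increments {B : Type*} [AddCommGroup B] {Φ Ψ : SL(2, ℤ) → B}
    (hS : ∀ g, Φ (g * S) - Φ g = Ψ (g * S) - Ψ g)
    (hU : ∀ g, Φ (g * Ug) - Φ g = Ψ (g * Ug) - Ψ g) (g : SL(2, ℤ)) :
    Φ g - Ψ g = Φ 1 - Ψ 1 :=
  const_of_invariant (fun g => Φ g - Ψ g)
    (fun g => by rw [sub_eq_sub_iff_sub_eq_sub]; exact hS g)
    (fun g => by rw [sub_eq_sub_iff_sub_eq_sub]; exact hU g) g

theorem S_mul_S_mul (g : SL(2, ℤ)) : g * S * S = -g := by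
  rw [mul_assoc, S_sq, mul_neg, mul_one]

theorem Ug_mul_Ug_mul (g : SL(2, ℤ)) : g * Ug * Ug * Ug = -g := by
  rw [mul_assoc, mul_assoc, ← mul_assoc Ug, Ug_cube, mul_neg, mul_one]

/-- Integration of increments along `S` and `U`. -/
theorem integrate {B : Type*} [AddCommGroup B] (a c : SL(2, ℤ) → B)
    (ha : ∀ g, a g + a (g * S) = 0)
    (hc : ∀ g, c g + c (g * Ug) + c (g * Ug * Ug) = 0) :
    ∃ Φ : SL(2, ℤ) → B, (∀ g, Φ (g * S) = Φ g + a g) ∧ (∀ g, Φ (g * Ug) = Φ g + c g) ∧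
      Φ 1 = 0 := by
  let X := SL(2, ℤ) × B
  let s : Equiv.Perm X :=
    { toFun := fun x => (x.1 * S⁻¹, x.2 - a (x.1 * S⁻¹))
      invFun := fun x => (x.1 * S, x.2 + a x.1)
      left_inv := fun x => by simp
      right_inv := fun x => by simp }
  let u : Equiv.Perm X :=
    { toFun := fun x => (x.1 * Ug⁻¹, x.2 - c (x.1 * Ug⁻¹))
      invFun := fun x => (x.1 * Ug, x.2 + c x.1)
      left_inv := fun x => by simp
      right_inv := fun x => by simp }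
  have hs2 : ∀ x : X, (s * s) x = (-x.1, x.2) := by
    rintro ⟨g, b⟩
    have e : g * S⁻¹ * S⁻¹ = -g := by
      rw [mul_inv_eq_iff_eq_mul, mul_inv_eq_iff_eq_mul, neg_mul, neg_mul, S_mul_S_mul, neg_neg]
    show ((g * S⁻¹ * S⁻¹, b - a (g * S⁻¹) - a (g * S⁻¹ * S⁻¹)) : X) = (-g, b)
    refine Prod.ext e ?_
    have h := ha (g * S⁻¹ * S⁻¹)
    rw [inv_mul_cancel_right] at h
    show b - a (g * S⁻¹) - a (g * S⁻¹ * S⁻¹) = b
    rw [sub_sub, add_comm, h, sub_zero]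
  have hu3 : ∀ x : X, (u * u * u) x = (-x.1, x.2) := by
    rintro ⟨g, b⟩
    have e : g * Ug⁻¹ * Ug⁻¹ * Ug⁻¹ = -g := by
      rw [mul_inv_eq_iff_eq_mul, mul_inv_eq_iff_eq_mul, mul_inv_eq_iff_eq_mul, neg_mul, neg_mul,
        neg_mul, Ug_mul_Ug_mul, neg_neg]
    show ((g * Ug⁻¹ * Ug⁻¹ * Ug⁻¹,
      b - c (g * Ug⁻¹) - c (g * Ug⁻¹ * Ug⁻¹) - c (g * Ug⁻¹ * Ug⁻¹ * Ug⁻¹)) : X) = (-g, b)
    refine Prod.ext e ?_
    have h := hc (g * Ug⁻¹ * Ug⁻¹ * Ug⁻¹)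
    rw [inv_mul_cancel_right, inv_mul_cancel_right] at h
    show b - c (g * Ug⁻¹) - c (g * Ug⁻¹ * Ug⁻¹) - c (g * Ug⁻¹ * Ug⁻¹ * Ug⁻¹) = b
    rw [sub_sub, sub_sub, sub_eq_self, ← h]
    abel
  have h1 : s * s = u * u * u := Equiv.ext fun x => by rw [hs2, hu3]
  have h2 : s * s * (s * s) = 1 := Equiv.ext fun x => by
    rw [Equiv.Perm.mul_apply, hs2, hs2]; simp
  obtain ⟨ρ, hρS, hρU⟩ := exists_hom s u h1 h2
  have hfst : ∀ (g : SL(2, ℤ)) (x : X), (ρ g x).1 = x.1 * g⁻¹ := by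
    intro g
    have hg : g ∈ Subgroup.closure {S, Ug} := by rw [closure_S_Ug]; trivial
    refine Subgroup.closure_induction (p := fun y _ => ∀ x : X, (ρ y x).1 = x.1 * y⁻¹) ?_ ?_ ?_ ?_ hg
    · rintro y (rfl | rfl) x
      · rw [hρS]; rfl
      · rw [hρU]; rfl
    · intro x; simp
    · intro y z _ _ hy hz x
      rw [map_mul, Equiv.Perm.mul_apply, hy, hz, mul_inv_rev, mul_assoc]
    · intro y _ hy x
      have := hy (ρ y⁻¹ x)
      rw [map_inv, ← Equiv.Perm.mul_apply, mul_inv_cancel, Equiv.Perm.one_apply] at this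
      rw [map_inv, this]; simp
  refine ⟨fun g => (ρ g⁻¹ (1, 0)).2, fun g => ?_, fun g => ?_, by simp⟩
  · show (ρ (g * S)⁻¹ (1, 0)).2 = _
    rw [mul_inv_rev, map_mul, Equiv.Perm.mul_apply, map_inv, hρS]
    show (ρ g⁻¹ (1, 0)).2 + a (ρ g⁻¹ (1, 0)).1 = _
    rw [hfst]; simp
  · show (ρ (g * Ug)⁻¹ (1, 0)).2 = _
    rw [mul_inv_rev, map_mul, Equiv.Perm.mul_apply, map_inv, hρU]
    show (ρ g⁻¹ (1, 0)).2 + c (ρ g⁻¹ (1, 0)).1 = _
    rw [hfst]; simp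

theorem S_finOrder : IsOfFinOrder (S : SL(2, ℤ)) := by
  refine isOfFinOrder_iff_pow_eq_one.2 ⟨4, by norm_num, ?_⟩
  rw [show (4 : ℕ) = 2 * 2 from rfl, pow_mul, pow_two, pow_two, S_sq]; simp

theorem Ug_finOrder : IsOfFinOrder (Ug : SL(2, ℤ)) := by
  refine isOfFinOrder_iff_pow_eq_one.2 ⟨6, by norm_num, ?_⟩
  rw [show (6 : ℕ) = 3 * 2 from rfl, pow_mul, pow_three, ← mul_assoc, Ug_cube, pow_two]; simp

variable {Γ : Subgroup SL(2, ℤ)} {A : Type*} [AddCommGroup A]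

/-- Relation for potentials: same double coset in `Γ \ SL(2, ℤ) / ⟨e⟩`. -/
def potSetoid (Γ : Subgroup SL(2, ℤ)) (e : SL(2, ℤ)) : Setoid SL(2, ℤ) where
  r g g' := ∃ γ ∈ Γ, ∃ k ∈ Subgroup.zpowers e, g' = γ * g * k
  iseqv := ⟨fun g => ⟨1, Γ.one_mem, 1, one_mem _, by group⟩,
    fun {g g'} ⟨γ, hγ, k, hk, h⟩ => ⟨γ⁻¹, inv_mem hγ, k⁻¹, inv_mem hk, by rw [h]; group⟩,
    fun {g g' g''} ⟨γ, hγ, k, hk, h⟩ ⟨γ', hγ', k', hk', h'⟩ =>
      ⟨γ' * γ, mul_mem hγ' hγ, k * k', mul_mem hk hk', by rw [h', h]; group⟩⟩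

theorem exists_decomp (Γ : Subgroup SL(2, ℤ)) (e g : SL(2, ℤ)) :
    ∃ γ : Γ, ∃ k ∈ Subgroup.zpowers e,
      g = γ * (Quotient.mk (potSetoid Γ e) g).out * k := by
  obtain ⟨γ, hγ, k, hk, h⟩ := Quotient.exact (Quotient.out_eq (Quotient.mk (potSetoid Γ e) g))
  exact ⟨⟨γ, hγ⟩, k, hk, h⟩

/-- The potential of `z` constant on right cosets of `⟨e⟩`. -/
def pot (e : SL(2, ℤ)) (z : Hom1 Γ A) (g : SL(2, ℤ)) : A := hv z (exists_decomp Γ e g).choose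

/-- `z` kills the elements of finite order. -/
def Ell (z : Hom1 Γ A) : Prop := ∀ γ : Γ, IsOfFinOrder (γ : SL(2, ℤ)) → hv z γ = 0

theorem ell_of_torsionFree [IsAddTorsionFree A] (z : Hom1 Γ A) : Ell z := by
  intro γ hγ
  obtain ⟨n, hn, hpow⟩ := isOfFinOrder_iff_pow_eq_one.1 hγ
  have h1 : γ ^ n = 1 := Subtype.ext (by simpa using hpow)
  have h2 : n • hv z γ = 0 := by
    have := congrArg (hv z) h1
    rwa [hv_one, hv, ofMul_pow, map_nsmul] at this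
  exact (nsmul_eq_zero_iff_right hn.ne').1 h2

theorem pot_spec {e : SL(2, ℤ)} (he : IsOfFinOrder e) {z : Hom1 Γ A} (hz : Ell z) (g : SL(2, ℤ))
    (γ : Γ) {k : SL(2, ℤ)} (hk : k ∈ Subgroup.zpowers e) :
    pot e z (γ * g * k) = hv z γ + pot e z g := by
  set γ₁ := (exists_decomp Γ e g).choose
  obtain ⟨k₁, hk₁, h₁⟩ := (exists_decomp Γ e g).choose_spec
  set γ₂ := (exists_decomp Γ e (γ * g * k)).choose
  obtain ⟨k₂, hk₂, h₂⟩ := (exists_decomp Γ e (γ * g * k)).choose_spec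
  have hq : Quotient.mk (potSetoid Γ e) (γ * g * k) = Quotient.mk (potSetoid Γ e) g :=
    (Quotient.sound (s := potSetoid Γ e) ⟨γ, γ.2, k, hk, rfl⟩).symm
  set r := (Quotient.mk (potSetoid Γ e) g).out
  have h₂' : (γ : SL(2, ℤ)) * g * k = (γ₂ : SL(2, ℤ)) * r * k₂ :=
    h₂.trans (congrArg (fun t => (γ₂ : SL(2, ℤ)) * Quotient.out t * k₂) hq)
  show hv z γ₂ = hv z γ + hv z γ₁
  have h3 : (((γ * γ₁)⁻¹ * γ₂ : Γ) : SL(2, ℤ)) = r * (k₁ * k * k₂⁻¹) * r⁻¹ := by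
    have e2 : (γ₂ : SL(2, ℤ)) = γ * g * k * k₂⁻¹ * r⁻¹ := by rw [h₂']; group
    have h₁' : g = (γ₁ : SL(2, ℤ)) * r * k₁ := h₁
    simp only [Subgroup.coe_mul, Subgroup.coe_inv]
    rw [e2, h₁']; group
  have hfin : IsOfFinOrder (((γ * γ₁)⁻¹ * γ₂ : Γ) : SL(2, ℤ)) := by
    obtain ⟨m, hm⟩ := Subgroup.mem_zpowers_iff.1 (mul_mem (mul_mem hk₁ hk) (inv_mem hk₂))
    rw [h3, ← hm]
    exact MonoidHom.isOfFinOrder (MulAut.conj r).toMonoidHom (he.zpow (i := m))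
  have := hz _ hfin
  rwa [hv_mul, hv_inv, hv_mul, neg_add_eq_zero, eq_comm] at this

theorem pot_left {e : SL(2, ℤ)} (he : IsOfFinOrder e) {z : Hom1 Γ A} (hz : Ell z) (γ : Γ)
    (g : SL(2, ℤ)) : pot e z (γ * g) = hv z γ + pot e z g := by
  simpa using pot_spec he hz g γ (one_mem (Subgroup.zpowers e))

theorem pot_right {e : SL(2, ℤ)} (he : IsOfFinOrder e) {z : Hom1 Γ A} (hz : Ell z)
    (g : SL(2, ℤ)) {k : SL(2, ℤ)} (hk : k ∈ Subgroup.zpowers e) :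
    pot e z (g * k) = pot e z g := by
  simpa [hv_one] using pot_spec he hz g 1 hk

/-- Left `Γ`-invariant functions. -/
def LInv (Γ : Subgroup SL(2, ℤ)) {B : Type*} (F : SL(2, ℤ) → B) : Prop :=
  ∀ γ ∈ Γ, ∀ g, F (γ * g) = F g

/-- Sum over `Γ \ SL(2, ℤ)`. -/
def qsum (Γ : Subgroup SL(2, ℤ)) [Γ.FiniteIndex] (F : SL(2, ℤ) → A) : A :=
  letI := Γ.fintypeQuotientOfFiniteIndex
  ∑ x : SL(2, ℤ) ⧸ Γ, F x.out⁻¹

theorem LInv.eval_out {B : Type*} {F : SL(2, ℤ) → B} (hF : LInv Γ F) (g : SL(2, ℤ)) :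
    F ((QuotientGroup.mk g : SL(2, ℤ) ⧸ Γ).out)⁻¹ = F g⁻¹ := by
  obtain ⟨⟨h, hh⟩, e⟩ := QuotientGroup.mk_out_eq_mul Γ g
  rw [e, _root_.mul_inv_rev]
  exact hF _ (inv_mem hh) _

variable [Γ.FiniteIndex]

theorem qsum_translate {F : SL(2, ℤ) → A} (hF : LInv Γ F) (h : SL(2, ℤ)) :
    qsum Γ (fun g => F (g * h)) = qsum Γ F := by
  unfold qsum
  letI := Γ.fintypeQuotientOfFiniteIndex
  rw [← Equiv.sum_comp (MulAction.toPerm h⁻¹) (fun x : SL(2, ℤ) ⧸ Γ => F x.out⁻¹)]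
  refine Finset.sum_congr rfl fun x _ => ?_
  have : (MulAction.toPerm h⁻¹) x = (QuotientGroup.mk (h⁻¹ * x.out) : SL(2, ℤ) ⧸ Γ) := by
    show h⁻¹ • x = _
    conv_lhs => rw [← QuotientGroup.out_eq' x]
    rfl
  rw [this, hF.eval_out]
  simp only [_root_.mul_inv_rev, inv_inv]

theorem qsum_congr {F G : SL(2, ℤ) → A} (h : ∀ g, F g = G g) : qsum Γ F = qsum Γ G := by
  rw [funext h]

theorem qsum_add (F G : SL(2, ℤ) → A) :
    qsum Γ (fun g => F g + G g) = qsum Γ F + qsum Γ G := by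
  unfold qsum; exact Finset.sum_add_distrib

theorem qsum_sub (F G : SL(2, ℤ) → A) :
    qsum Γ (fun g => F g - G g) = qsum Γ F - qsum Γ G := by
  unfold qsum; exact Finset.sum_sub_distrib _ _

theorem qsum_zero : qsum Γ (fun _ => (0 : A)) = 0 := by
  unfold qsum; exact Finset.sum_const_zero

theorem qsum_subgroup {Γ' : Subgroup SL(2, ℤ)} [Γ'.FiniteIndex] (h : Γ' ≤ Γ)
    [Fintype (Γ ⧸ Γ'.subgroupOf Γ)] {F : SL(2, ℤ) → A} (hF : LInv Γ' F) :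
    qsum Γ' F =
      qsum Γ (fun g => ∑ y : Γ ⧸ Γ'.subgroupOf Γ, F (((y.out : Γ) : SL(2, ℤ))⁻¹ * g)) := by
  letI := Γ.fintypeQuotientOfFiniteIndex
  letI := Γ'.fintypeQuotientOfFiniteIndex
  have key : ∑ x : SL(2, ℤ) ⧸ Γ', F x.out⁻¹ = ∑ x : SL(2, ℤ) ⧸ Γ, ∑ y : Γ ⧸ Γ'.subgroupOf Γ,
      F (((y.out : Γ) : SL(2, ℤ))⁻¹ * x.out⁻¹) := by
    rw [← Fintype.sum_prod_type', ← Equiv.sum_comp (Subgroup.quotientEquivProdOfLE h).symm]
    refine Finset.sum_congr rfl fun p _ => ?_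
    obtain ⟨x, y⟩ := p
    have : (Subgroup.quotientEquivProdOfLE h).symm (x, y) =
        QuotientGroup.mk (x.out * ((y.out : Γ) : SL(2, ℤ))) := by
      conv_lhs => rw [← QuotientGroup.out_eq' y]
      rfl
    rw [this, hF.eval_out, _root_.mul_inv_rev]
  exact key

end FA.HeckeH1

end
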