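import Mathlib

/-!
`SL(2, ℤ)` is generated by `S` and `U = T S` with defining relations `S ^ 2 = U ^ 3`,
`S ^ 4 = 1`: the universal property.
-/

set_option autoImplicit false

namespace FA.HeckeH1

open Matrix ModularGroup
open scoped MatrixGroups

/-- The element `T S` of order six. -/
def Ug : SL(2, ℤ) := T * S

theorem coe_Ug : (Ug : SL(2, ℤ)).1 = !![1, -1; 1, 0] := by
  rw [Ug, Matrix.SpecialLinearGroup.coe_mul, coe_T, coe_S]; decide +kernel

/-- Sign pattern of nonempty reduced words in `S U` and `S U²`. -/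
def SignPat (m : Matrix (Fin 2) (Fin 2) ℤ) : Prop :=
  (0 < m 0 0 ∧ 0 < m 1 1 ∧ m 0 1 ≤ 0 ∧ m 1 0 ≤ 0 ∧ m 0 1 + m 1 0 < 0) ∨
  (m 0 0 < 0 ∧ m 1 1 < 0 ∧ 0 ≤ m 0 1 ∧ 0 ≤ m 1 0 ∧ 0 < m 0 1 + m 1 0)

/-- The two letters. -/
def letter (b : Bool) : SL(2, ℤ) := if b then S * Ug * Ug else S * Ug

theorem coe_letter_false : (letter false).1 = !![-1, 0; 1, -1] := by
  simp only [letter, Bool.false_eq_true, if_false, Matrix.SpecialLinearGroup.coe_mul, coe_S, coe_Ug]
  decide +kernel

theorem coe_letter_true : (letter true).1 = !![-1, 1; 0, -1] := by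
  simp only [letter, if_true, Matrix.SpecialLinearGroup.coe_mul, coe_S, coe_Ug]
  decide +kernel

theorem signPat_word : ∀ L : List Bool, L ≠ [] → SignPat (L.map letter).prod.1 := by
  intro L
  induction L using List.reverseRecOn with
  | nil => intro h; exact absurd rfl h
  | append_singleton L b ih =>
    intro _
    rw [List.map_append, List.prod_append, List.map_singleton, List.prod_singleton]
    by_cases hL : L = []
    · subst hL
      simp only [List.map_nil, List.prod_nil, one_mul, SignPat]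
      cases b <;> simp [coe_letter_false, coe_letter_true]
    · have h := ih hL
      simp only [SignPat, Matrix.SpecialLinearGroup.coe_mul] at h ⊢
      cases b <;>
        simp [coe_letter_false, coe_letter_true, Matrix.mul_apply, Fin.sum_univ_two] <;>
        omega

theorem S_sq : S * S = (-1 : SL(2, ℤ)) := by
  apply Subtype.ext
  rw [Matrix.SpecialLinearGroup.coe_mul, Matrix.SpecialLinearGroup.coe_neg,
    Matrix.SpecialLinearGroup.coe_one, coe_S]
  decide +kernel

theorem Ug_cube : Ug * Ug * Ug = (-1 : SL(2, ℤ)) := by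
  apply Subtype.ext
  rw [Matrix.SpecialLinearGroup.coe_mul, Matrix.SpecialLinearGroup.coe_mul,
    Matrix.SpecialLinearGroup.coe_neg, Matrix.SpecialLinearGroup.coe_one, coe_Ug]
  decide +kernel

section

variable {K : Type*} [Group K] (s u : K) (h1 : s * s = u * u * u) (h2 : s * s * (s * s) = 1)

/-- The subgroup of `K × SL(2, ℤ)` generated by the pairs of generators. -/
def graphSub : Subgroup (K × SL(2, ℤ)) := Subgroup.closure {(s, S), (u, Ug)}

/-- Normal forms. -/
def IsNF (x : K × SL(2, ℤ)) : Prop :=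
  ∃ (e i : ℕ) (L : List Bool) (j : Bool), i < 3 ∧
    x = ((s, S) * (s, S)) ^ e * (u, Ug) ^ i *
      (L.map fun b => if b then (s, S) * (u, Ug) * (u, Ug) else (s, S) * (u, Ug)).prod *
      (if j then (s, S) else 1)

include h1 h2 in
theorem isNF_of_mem {x : K × SL(2, ℤ)} (hx : x ∈ graphSub s u) : IsNF s u x := by
  classical
  set X : K × SL(2, ℤ) := (s, S) with hX
  set Y : K × SL(2, ℤ) := (u, Ug) with hY
  set c := X * X with hc
  have hYc : Y * Y * Y = c := by
    rw [hc, hX, hY]; ext1
    · exact h1.symm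
    · exact Ug_cube.trans S_sq.symm
  have hc2 : c * c = 1 := by
    rw [hc, hX]; ext1
    · exact h2
    · show S * S * (S * S) = 1
      rw [S_sq]; simp
  have hcX : Commute c X := (Commute.refl X).mul_left (Commute.refl X)
  have hcY : Commute c Y := by
    rw [← hYc]
    exact ((Commute.refl Y).mul_left (Commute.refl Y)).mul_left (Commute.refl Y)
  let w : List Bool → K × SL(2, ℤ) := fun L =>
    (L.map fun b => if b then X * Y * Y else X * Y).prod
  have hwc : ∀ L, Commute c (w L) := fun L => by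
    induction L with
    | nil => exact Commute.one_right c
    | cons b L ih =>
      simp only [w, List.map_cons, List.prod_cons]
      refine Commute.mul_right ?_ ih
      cases b
      · exact hcX.mul_right hcY
      · exact (hcX.mul_right hcY).mul_right hcY
  have key : ∀ (e : ℕ) (A : K × SL(2, ℤ)), Commute c A → c ^ e * A * c = c ^ (e + 1) * A :=
    fun e A h => by rw [mul_assoc, ← h.eq, ← mul_assoc, ← pow_succ]
  -- right multiplication by the generators
  have mulX : ∀ y, IsNF s u y → IsNF s u (y * X) := by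
    rintro y ⟨e, i, L, j, hi, rfl⟩
    cases j with
    | false =>
      refine ⟨e, i, L, true, hi, ?_⟩
      simp [hX]
    | true =>
      refine ⟨e + 1, i, L, false, hi, ?_⟩
      show c ^ e * Y ^ i * w L * X * X = c ^ (e + 1) * Y ^ i * w L * 1
      rw [mul_one, mul_assoc _ X X, ← hc, mul_assoc (c ^ e),
        key e _ ((hcY.pow_right i).mul_right (hwc L)), ← mul_assoc]
  have mulY : ∀ y, IsNF s u y → IsNF s u (y * Y) := by
    rintro y ⟨e, i, L, j, hi, rfl⟩
    cases j with
    | true =>
      refine ⟨e, i, L ++ [false], false, hi, ?_⟩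
      show c ^ e * Y ^ i * w L * X * Y = c ^ e * Y ^ i * w (L ++ [false]) * 1
      simp [w, mul_assoc]
    | false =>
      rcases List.eq_nil_or_concat L with rfl | ⟨L', b, rfl⟩
      · by_cases hi2 : i + 1 < 3
        · refine ⟨e, i + 1, [], false, hi2, ?_⟩
          show c ^ e * Y ^ i * w [] * 1 * Y = c ^ e * Y ^ (i + 1) * w [] * 1
          simp [w, pow_succ, mul_assoc]
        · have hi' : i = 2 := by omega
          subst hi'
          refine ⟨e + 1, 0, [], false, by norm_num, ?_⟩
          show c ^ e * Y ^ 2 * w [] * 1 * Y = c ^ (e + 1) * Y ^ 0 * w [] * 1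
          simp [w, pow_succ, mul_assoc, ← hYc]
      · cases b with
        | false =>
          refine ⟨e, i, L' ++ [true], false, hi, ?_⟩
          show c ^ e * Y ^ i * w (L'.concat false) * 1 * Y = c ^ e * Y ^ i * w (L' ++ [true]) * 1
          simp [w, List.concat_eq_append, mul_assoc]
        | true =>
          refine ⟨e + 1, i, L', true, hi, ?_⟩
          show c ^ e * Y ^ i * w (L'.concat true) * 1 * Y = c ^ (e + 1) * Y ^ i * w L' * X
          have h3 : w (L'.concat true) = w L' * (X * Y * Y) := by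
            simp [w, List.concat_eq_append]
          have e1 : X * Y * Y * Y = c * X := by
            rw [mul_assoc X Y, mul_assoc X, hYc, hcX.eq]
          have e2 : c ^ e * Y ^ i * (w L' * (X * Y * Y)) * Y =
              c ^ e * (Y ^ i * w L') * (X * Y * Y * Y) := by simp only [mul_assoc]
          rw [h3, mul_one, e2, e1, ← mul_assoc, key e _ ((hcY.pow_right i).mul_right (hwc L')),
            ← mul_assoc (c ^ (e + 1))]
  have inv_eq : X⁻¹ = c * X ∧ Y⁻¹ = c * (Y * Y) := by
    constructor
    · refine inv_eq_of_mul_eq_one_left ?_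
      rw [mul_assoc, ← hc, hc2]
    · refine inv_eq_of_mul_eq_one_left ?_
      rw [mul_assoc, hYc, hc2]
  refine Subgroup.closure_induction_right (p := fun x _ => IsNF s u x) ?_ ?_ ?_ hx
  · exact ⟨0, 0, [], false, by norm_num, by simp⟩
  · rintro y - z (rfl | rfl) hy
    · exact mulX y hy
    · exact mulY y hy
  · rintro y - z (rfl | rfl) hy
    · rw [inv_eq.1, hc, ← mul_assoc, ← mul_assoc]
      exact mulX _ (mulX _ (mulX y hy))
    · rw [inv_eq.2, hc, ← mul_assoc, ← mul_assoc, ← mul_assoc]
      exact mulY _ (mulY _ (mulX _ (mulX y hy)))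

include h1 h2 in
theorem graphSub_ker {k : K} (hk : (k, (1 : SL(2, ℤ))) ∈ graphSub s u) : k = 1 := by
  obtain ⟨e, i, L, j, hi, hx⟩ := isNF_of_mem s u h1 h2 hk
  have hG := congrArg Prod.snd hx
  have hL : ∀ L : List Bool,
      ((L.map fun b : Bool => if b then (s, S) * (u, Ug) * (u, Ug) else (s, S) * (u, Ug)).prod).2
      = (L.map letter).prod := by
    intro L
    induction L with
    | nil => rfl
    | cons b L ih =>
      simp only [List.map_cons, List.prod_cons, Prod.snd_mul]
      rw [ih]
      cases b <;> rfl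
  simp only [Prod.snd_mul, Prod.pow_snd, hL] at hG
  set w := (L.map letter).prod
  have hw : w = (Ug ^ i)⁻¹ * ((S * S) ^ e)⁻¹ * (if j then S else 1)⁻¹ := by
    have : (if j then ((s, S) : K × SL(2, ℤ)) else 1).2 = if j then S else 1 := by
      cases j <;> rfl
    rw [this] at hG
    calc w = (Ug ^ i)⁻¹ * ((S * S) ^ e)⁻¹ *
        ((S * S) ^ e * Ug ^ i * w * (if j then S else 1)) * (if j then S else 1)⁻¹ := by group
      _ = _ := by rw [← hG]; group
  have hpm : ((S * S) ^ e)⁻¹ = 1 ∨ ((S * S) ^ e)⁻¹ = -1 := by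
    rw [S_sq]
    rcases Nat.even_or_odd e with he | he
    · exact Or.inl (by rw [he.neg_one_pow, inv_one])
    · exact Or.inr (by rw [he.neg_one_pow]; exact inv_eq_of_mul_eq_one_left (by simp))
  have hnil : L = [] := by
    by_contra hne
    have hs := signPat_word L hne
    rw [show (L.map letter).prod = w from rfl, hw] at hs
    rcases hpm with h | h <;> rw [h] at hs <;> interval_cases i <;> cases j <;>
      simp [SignPat, coe_Ug, coe_S, pow_succ, Matrix.SpecialLinearGroup.coe_inv,
        Matrix.adjugate_fin_two, Matrix.mul_apply, Fin.sum_univ_two] at hs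
  subst hnil
  have hw1 : (1 : SL(2, ℤ)) = (Ug ^ i)⁻¹ * ((S * S) ^ e)⁻¹ * (if j then S else 1)⁻¹ := hw
  have hij : i = 0 ∧ j = false := by
    have h00 := congrArg (fun g : SL(2, ℤ) => g.1 0 0) hw1
    have h01 := congrArg (fun g : SL(2, ℤ) => g.1 0 1) hw1
    have h10 := congrArg (fun g : SL(2, ℤ) => g.1 1 0) hw1
    rcases hpm with h | h <;> rw [h] at h00 h01 h10 <;> interval_cases i <;> cases j <;>
      simp [coe_Ug, coe_S, pow_succ, Matrix.SpecialLinearGroup.coe_inv,
        Matrix.adjugate_fin_two, Matrix.mul_apply, Fin.sum_univ_two] at h00 h01 h10 ⊢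
  obtain ⟨rfl, rfl⟩ := hij
  have hK := congrArg Prod.fst hx
  simp only [List.map_nil, List.prod_nil, Prod.fst_mul, Prod.pow_fst, pow_zero, mul_one,
    Bool.false_eq_true, if_false, Prod.fst_one] at hK
  have he : Even e := by
    by_contra he
    rw [Nat.not_even_iff_odd] at he
    simp only [pow_zero, inv_one, one_mul, Bool.false_eq_true, if_false, mul_one] at hw1
    rw [S_sq, he.neg_one_pow] at hw1
    have h00 := congrArg (fun g : SL(2, ℤ) => g.1 0 0) hw1
    simp [Matrix.SpecialLinearGroup.coe_inv, Matrix.adjugate_fin_two] at h00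
  obtain ⟨m, rfl⟩ := he
  rw [hK, ← two_mul, pow_mul, sq, h2, one_pow]

theorem graphSub_proj : (graphSub s u).map (MonoidHom.snd K SL(2, ℤ)) = ⊤ := by
  rw [eq_top_iff, ← SpecialLinearGroup.SL2Z_generators, Subgroup.closure_le]
  have hS : S ∈ (graphSub s u).map (MonoidHom.snd K SL(2, ℤ)) :=
    ⟨(s, S), Subgroup.subset_closure (Or.inl rfl), rfl⟩
  have hU : Ug ∈ (graphSub s u).map (MonoidHom.snd K SL(2, ℤ)) :=
    ⟨(u, Ug), Subgroup.subset_closure (Or.inr rfl), rfl⟩
  rintro g (rfl | rfl)
  · exact hS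
  · have : T = Ug * S⁻¹ := by rw [Ug]; group
    rw [this]
    exact mul_mem hU (inv_mem hS)

include h1 h2 in
/-- The universal property of `SL(2, ℤ)`. -/
theorem exists_hom : ∃ φ : SL(2, ℤ) →* K, φ S = s ∧ φ Ug = u := by
  let π : graphSub s u →* SL(2, ℤ) := (MonoidHom.snd K SL(2, ℤ)).comp (graphSub s u).subtype
  have hinj : Function.Injective π := by
    rw [injective_iff_map_eq_one]
    rintro ⟨⟨k, g⟩, hkg⟩ (h : g = 1)
    subst h
    exact Subtype.ext (Prod.ext (graphSub_ker s u h1 h2 hkg) rfl)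
  have hsurj : Function.Surjective π := by
    intro g
    have hg : g ∈ (graphSub s u).map (MonoidHom.snd K SL(2, ℤ)) := by
      rw [graphSub_proj]; trivial
    obtain ⟨x, hx, rfl⟩ := hg
    exact ⟨⟨x, hx⟩, rfl⟩
  let e := MulEquiv.ofBijective π ⟨hinj, hsurj⟩
  refine ⟨((MonoidHom.fst K SL(2, ℤ)).comp (graphSub s u).subtype).comp e.symm.toMonoidHom, ?_, ?_⟩
  · have : e.symm S = ⟨(s, S), Subgroup.subset_closure (Or.inl rfl)⟩ := e.symm_apply_eq.2 rfl
    simp only [MonoidHom.comp_apply, MulEquiv.coe_toMonoidHom, this]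
    rfl
  · have : e.symm Ug = ⟨(u, Ug), Subgroup.subset_closure (Or.inr rfl)⟩ := e.symm_apply_eq.2 rfl
    simp only [MonoidHom.comp_apply, MulEquiv.coe_toMonoidHom, this]
    rfl

end

end FA.HeckeH1
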