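import Mathlib

/-!
`ℤ[1/q]`, its ideals and congruence subgroups of `SL(2, ℤ[1/q])` inside `SL(2, ℚ)`.
-/

set_option autoImplicit false

namespace FA.HeckeH1

/-- The ring `ℤ[1/q]` inside `ℚ`. -/
def QInt (q : ℕ) : Subring ℚ where
  carrier := {x | ∃ k : ℕ, ∃ a : ℤ, x * (q : ℚ) ^ k = a}
  one_mem' := ⟨0, 1, by simp⟩
  zero_mem' := ⟨0, 0, by simp⟩
  mul_mem' := by
    rintro x y ⟨k, a, ha⟩ ⟨l, b, hb⟩
    exact ⟨k + l, a * b, by rw [pow_add]; push_cast; rw [← ha, ← hb]; ring⟩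
  add_mem' := by
    rintro x y ⟨k, a, ha⟩ ⟨l, b, hb⟩
    exact ⟨k + l, a * (q : ℤ) ^ l + b * (q : ℤ) ^ k, by
      rw [pow_add]; push_cast; rw [← ha, ← hb]; ring⟩
  neg_mem' := by
    rintro x ⟨k, a, ha⟩
    exact ⟨k, -a, by push_cast; rw [← ha]; ring⟩

theorem mem_QInt {q : ℕ} {x : ℚ} : x ∈ QInt q ↔ ∃ k : ℕ, ∃ a : ℤ, x * (q : ℚ) ^ k = a := Iff.rfl

theorem int_mem_QInt {q : ℕ} (a : ℤ) : (a : ℚ) ∈ QInt q := intCast_mem _ a

theorem nat_mem_QInt {q : ℕ} (a : ℕ) : (a : ℚ) ∈ QInt q := natCast_mem _ a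

theorem inv_pow_mem_QInt {q : ℕ} (hq : q ≠ 0) (k : ℕ) : ((q : ℚ) ^ k)⁻¹ ∈ QInt q :=
  ⟨k, 1, by
    have : (q : ℚ) ^ k ≠ 0 := pow_ne_zero _ (by exact_mod_cast hq)
    push_cast; field_simp⟩

/-- `x ∈ M·ℤ[1/q]`. -/
def Idl (q M : ℕ) (x : ℚ) : Prop := ∃ y ∈ QInt q, x = (M : ℚ) * y

namespace Idl

variable {q M : ℕ} {x y : ℚ}

theorem zero : Idl q M 0 := ⟨0, zero_mem _, by simp⟩

theorem add (hx : Idl q M x) (hy : Idl q M y) : Idl q M (x + y) := by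
  obtain ⟨a, ha, rfl⟩ := hx
  obtain ⟨b, hb, rfl⟩ := hy
  exact ⟨a + b, add_mem ha hb, by ring⟩

theorem neg (hx : Idl q M x) : Idl q M (-x) := by
  obtain ⟨a, ha, rfl⟩ := hx
  exact ⟨-a, neg_mem ha, by ring⟩

theorem sub (hx : Idl q M x) (hy : Idl q M y) : Idl q M (x - y) := by
  rw [sub_eq_add_neg]; exact hx.add hy.neg

theorem mul_left {a : ℚ} (ha : a ∈ QInt q) (hx : Idl q M x) : Idl q M (a * x) := by
  obtain ⟨b, hb, rfl⟩ := hx
  exact ⟨a * b, mul_mem ha hb, by ring⟩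

theorem mul_right {a : ℚ} (hx : Idl q M x) (ha : a ∈ QInt q) : Idl q M (x * a) := by
  rw [mul_comm]; exact hx.mul_left ha

theorem mem (hx : Idl q M x) : x ∈ QInt q := by
  obtain ⟨a, ha, rfl⟩ := hx
  exact mul_mem (nat_mem_QInt M) ha

theorem of_dvd {L : ℕ} (h : L ∣ M) (hx : Idl q M x) : Idl q L x := by
  obtain ⟨a, ha, rfl⟩ := hx
  obtain ⟨c, rfl⟩ := h
  exact ⟨(c : ℚ) * a, mul_mem (nat_mem_QInt c) ha, by push_cast; ring⟩

theorem self : Idl q M (M : ℚ) := ⟨1, one_mem _, by simp⟩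

theorem one_iff : Idl q 1 x ↔ x ∈ QInt q :=
  ⟨fun h => h.mem, fun h => ⟨x, h, by simp⟩⟩

theorem mul_mul {L : ℕ} (hx : Idl q L x) (hy : Idl q M y) : Idl q (L * M) (x * y) := by
  obtain ⟨a, ha, rfl⟩ := hx
  obtain ⟨b, hb, rfl⟩ := hy
  exact ⟨a * b, mul_mem ha hb, by push_cast; ring⟩

end Idl

section red

variable {q M : ℕ}

theorem den_unit (h : q.Coprime M) (x : QInt q) : IsUnit ((x : ℚ).den : ZMod M) := by
  obtain ⟨k, a, ha⟩ := x.2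
  have h1 : (x : ℚ).num * (q : ℤ) ^ k = a * (x : ℚ).den := by
    have h2 : ((x : ℚ).num : ℚ) * (q : ℚ) ^ k = a * ((x : ℚ).den : ℚ) := by
      rw [← ha, ← Rat.mul_den_eq_num (x : ℚ)]; ring
    exact_mod_cast h2
  have h3 : ((x : ℚ).den : ℤ) ∣ (x : ℚ).num * (q : ℤ) ^ k := h1 ▸ dvd_mul_left _ _
  have h4 : IsCoprime ((x : ℚ).den : ℤ) (x : ℚ).num := by
    rw [Int.isCoprime_iff_nat_coprime]
    simpa [Nat.coprime_comm] using (x : ℚ).reduced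
  have h5 : ((x : ℚ).den : ℤ) ∣ (q : ℤ) ^ k := h4.dvd_of_dvd_mul_left h3
  have h6 : (x : ℚ).den ∣ q ^ k := by exact_mod_cast h5
  rw [ZMod.isUnit_iff_coprime]
  exact Nat.Coprime.coprime_dvd_left h6 (h.pow_left k)

theorem q_unit (h : q.Coprime M) : IsUnit ((q : ZMod M)) := (ZMod.isUnit_iff_coprime q M).2 h

/-- Underlying function of the reduction map. -/
noncomputable def redFun (M : ℕ) {q : ℕ} (x : QInt q) : ZMod M :=
  ((x : ℚ).num : ZMod M) * ((x : ℚ).den : ZMod M)⁻¹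

theorem redFun_spec (h : q.Coprime M) {x : QInt q} {k : ℕ} {a : ℤ}
    (ha : (x : ℚ) * (q : ℚ) ^ k = a) : redFun M x * (q : ZMod M) ^ k = (a : ZMod M) := by
  have h1 : (x : ℚ).num * (q : ℤ) ^ k = a * (x : ℚ).den := by
    have h2 : ((x : ℚ).num : ℚ) * (q : ℚ) ^ k = a * ((x : ℚ).den : ℚ) := by
      rw [← ha, ← Rat.mul_den_eq_num (x : ℚ)]; ring
    exact_mod_cast h2
  have h3 := congrArg (fun z : ℤ => (z : ZMod M)) h1
  simp only [Int.cast_mul, Int.cast_pow, Int.cast_natCast] at h3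
  rw [redFun, mul_right_comm, h3, mul_assoc, ZMod.mul_inv_of_unit _ (den_unit h x), mul_one]

/-- Reduction `ℤ[1/q] → ℤ/M`. -/
noncomputable def red (h : q.Coprime M) : QInt q →+* ZMod M where
  toFun := redFun M
  map_one' := by simp [redFun]
  map_zero' := by simp [redFun]
  map_mul' := by
    intro x y
    obtain ⟨k, a, ha⟩ := x.2
    obtain ⟨l, b, hb⟩ := y.2
    have hab : ((x * y : QInt q) : ℚ) * (q : ℚ) ^ (k + l) = ((a * b : ℤ) : ℚ) := by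
      rw [pow_add]; push_cast; rw [← ha, ← hb]; ring
    have hu : IsUnit ((q : ZMod M) ^ (k + l)) := (q_unit h).pow _
    refine hu.mul_right_cancel ?_
    rw [redFun_spec h hab, pow_add, mul_mul_mul_comm, redFun_spec h ha, redFun_spec h hb,
      Int.cast_mul]
  map_add' := by
    intro x y
    obtain ⟨k, a, ha⟩ := x.2
    obtain ⟨l, b, hb⟩ := y.2
    have hab : ((x + y : QInt q) : ℚ) * (q : ℚ) ^ (k + l) =
        ((a * (q : ℤ) ^ l + b * (q : ℤ) ^ k : ℤ) : ℚ) := by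
      rw [pow_add]; push_cast; rw [← ha, ← hb]; ring
    have hu : IsUnit ((q : ZMod M) ^ (k + l)) := (q_unit h).pow _
    refine hu.mul_right_cancel ?_
    rw [redFun_spec h hab]
    push_cast
    rw [← redFun_spec h ha, ← redFun_spec h hb, pow_add]
    ring

theorem red_intCast (h : q.Coprime M) (a : ℤ) : red h (a : QInt q) = (a : ZMod M) := map_intCast _ a

theorem red_eq_zero_iff (h : q.Coprime M) (x : QInt q) : red h x = 0 ↔ Idl q M (x : ℚ) := by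
  constructor
  · intro hx
    obtain ⟨k, a, ha⟩ := x.2
    have h1 : (a : ZMod M) = 0 := by
      rw [← redFun_spec h ha]
      show red h x * _ = 0
      rw [hx, zero_mul]
    obtain ⟨c, rfl⟩ := (ZMod.intCast_zmod_eq_zero_iff_dvd a M).1 h1
    rcases Nat.eq_zero_or_pos q with hq0 | hq0
    · subst hq0
      have hM1 : M = 1 := by simpa using h
      subst hM1
      exact Idl.one_iff.2 x.2
    · refine ⟨(c : ℚ) * ((q : ℚ) ^ k)⁻¹, mul_mem (int_mem_QInt c) (inv_pow_mem_QInt hq0.ne' k), ?_⟩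
      have hne : (q : ℚ) ^ k ≠ 0 := pow_ne_zero _ (by exact_mod_cast hq0.ne')
      rw [← mul_assoc, ← div_eq_mul_inv, eq_div_iff hne, ha]
      push_cast; rfl
  · rintro ⟨y, hy, hxy⟩
    have : x = ((M : ℤ) : QInt q) * ⟨y, hy⟩ := by
      apply Subtype.ext
      simpa using hxy
    rw [this, map_mul, red_intCast]
    simp

theorem red_eq_iff (h : q.Coprime M) (x y : QInt q) :
    red h x = red h y ↔ Idl q M ((x : ℚ) - (y : ℚ)) := by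
  rw [← sub_eq_zero, ← map_sub, red_eq_zero_iff]
  simp

theorem exists_int_idl (h : q.Coprime M) {x : ℚ} (hx : x ∈ QInt q) :
    ∃ a : ℤ, Idl q M (x - a) := by
  obtain ⟨a, ha⟩ := ZMod.intCast_surjective (red h ⟨x, hx⟩)
  refine ⟨a, ?_⟩
  rw [← red_intCast h] at ha
  simpa using (red_eq_iff h _ _).1 ha.symm

theorem int_dvd_of_idl (h : q.Coprime M) {a : ℤ} (ha : Idl q M (a : ℚ)) : (M : ℤ) ∣ a := by
  rw [← ZMod.intCast_zmod_eq_zero_iff_dvd, ← red_intCast h, red_eq_zero_iff]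
  simpa using ha

end red

/-- `SL(2, ℚ)`. -/
abbrev SLQ := Matrix.SpecialLinearGroup (Fin 2) ℚ

/-- Constructor of elements of `SL(2, ℚ)` from entries. -/
def mk2 (a b c d : ℚ) (h : a * d - b * c = 1) : SLQ :=
  ⟨!![a, b; c, d], by rw [Matrix.det_fin_two_of]; exact h⟩

section entries

variable (g k : SLQ)

theorem det_entries : g.1 0 0 * g.1 1 1 - g.1 0 1 * g.1 1 0 = 1 := by
  rw [← Matrix.det_fin_two]; exact g.2

theorem mul00 : (g * k).1 0 0 = g.1 0 0 * k.1 0 0 + g.1 0 1 * k.1 1 0 := by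
  simp [Matrix.mul_apply, Fin.sum_univ_two]
theorem mul01 : (g * k).1 0 1 = g.1 0 0 * k.1 0 1 + g.1 0 1 * k.1 1 1 := by
  simp [Matrix.mul_apply, Fin.sum_univ_two]
theorem mul10 : (g * k).1 1 0 = g.1 1 0 * k.1 0 0 + g.1 1 1 * k.1 1 0 := by
  simp [Matrix.mul_apply, Fin.sum_univ_two]
theorem mul11 : (g * k).1 1 1 = g.1 1 0 * k.1 0 1 + g.1 1 1 * k.1 1 1 := by
  simp [Matrix.mul_apply, Fin.sum_univ_two]
theorem inv00 : (g⁻¹).1 0 0 = g.1 1 1 := by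
  simp [Matrix.SpecialLinearGroup.coe_inv, Matrix.adjugate_fin_two]
theorem inv01 : (g⁻¹).1 0 1 = -g.1 0 1 := by
  simp [Matrix.SpecialLinearGroup.coe_inv, Matrix.adjugate_fin_two]
theorem inv10 : (g⁻¹).1 1 0 = -g.1 1 0 := by
  simp [Matrix.SpecialLinearGroup.coe_inv, Matrix.adjugate_fin_two]
theorem inv11 : (g⁻¹).1 1 1 = g.1 0 0 := by
  simp [Matrix.SpecialLinearGroup.coe_inv, Matrix.adjugate_fin_two]

@[ext]
theorem slq_ext {g k : SLQ} (h00 : g.1 0 0 = k.1 0 0) (h01 : g.1 0 1 = k.1 0 1)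
    (h10 : g.1 1 0 = k.1 1 0) (h11 : g.1 1 1 = k.1 1 1) : g = k := by
  apply Subtype.ext
  ext i j
  fin_cases i <;> fin_cases j <;> assumption

theorem slq_ext_of_ne_zero {g k : SLQ} (h01 : g.1 0 1 = k.1 0 1) (h10 : g.1 1 0 = k.1 1 0)
    (h11 : g.1 1 1 = k.1 1 1) (hd : g.1 1 1 ≠ 0) : g = k := by
  refine slq_ext ?_ h01 h10 h11
  have h1 := det_entries g
  have h2 := det_entries k
  rw [← h01, ← h10, ← h11] at h2
  exact mul_right_cancel₀ hd (by linarith)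

end entries

@[simp] theorem mk2_00 (a b c d : ℚ) (h) : (mk2 a b c d h).1 0 0 = a := rfl
@[simp] theorem mk2_01 (a b c d : ℚ) (h) : (mk2 a b c d h).1 0 1 = b := rfl
@[simp] theorem mk2_10 (a b c d : ℚ) (h) : (mk2 a b c d h).1 1 0 = c := rfl
@[simp] theorem mk2_11 (a b c d : ℚ) (h) : (mk2 a b c d h).1 1 1 = d := rfl

/-- Upper elementary matrix. -/
def ex (s : ℚ) : SLQ := mk2 1 s 0 1 (by ring)

/-- Lower elementary matrix. -/
def ey (s : ℚ) : SLQ := mk2 1 0 s 1 (by ring)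

/-- `diag(u, u⁻¹)`. -/
def dg (u : ℚˣ) : SLQ := mk2 u 0 0 ((u⁻¹ : ℚˣ) : ℚ) (by simp)

/-- The Weyl element. -/
def ew : SLQ := mk2 0 (-1) 1 0 (by ring)

@[simp] theorem ex00 (s : ℚ) : (ex s).1 0 0 = 1 := rfl
@[simp] theorem ex01 (s : ℚ) : (ex s).1 0 1 = s := rfl
@[simp] theorem ex10 (s : ℚ) : (ex s).1 1 0 = 0 := rfl
@[simp] theorem ex11 (s : ℚ) : (ex s).1 1 1 = 1 := rfl
@[simp] theorem ey00 (s : ℚ) : (ey s).1 0 0 = 1 := rfl
@[simp] theorem ey01 (s : ℚ) : (ey s).1 0 1 = 0 := rfl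
@[simp] theorem ey10 (s : ℚ) : (ey s).1 1 0 = s := rfl
@[simp] theorem ey11 (s : ℚ) : (ey s).1 1 1 = 1 := rfl
@[simp] theorem dg00 (u : ℚˣ) : (dg u).1 0 0 = (u : ℚ) := rfl
@[simp] theorem dg01 (u : ℚˣ) : (dg u).1 0 1 = 0 := rfl
@[simp] theorem dg10 (u : ℚˣ) : (dg u).1 1 0 = 0 := rfl
@[simp] theorem dg11 (u : ℚˣ) : (dg u).1 1 1 = ((u⁻¹ : ℚˣ) : ℚ) := rfl
@[simp] theorem ew00 : ew.1 0 0 = 0 := rfl
@[simp] theorem ew01 : ew.1 0 1 = -1 := rfl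
@[simp] theorem ew10 : ew.1 1 0 = 1 := rfl
@[simp] theorem ew11 : ew.1 1 1 = 0 := rfl

theorem ex_add (s t : ℚ) : ex (s + t) = ex s * ex t := by
  apply slq_ext <;> simp [mul00, mul01, mul10, mul11]; ring

theorem ey_add (s t : ℚ) : ey (s + t) = ey s * ey t := by
  apply slq_ext <;> simp [mul00, mul01, mul10, mul11]

theorem ex_neg (s : ℚ) : ex (-s) = (ex s)⁻¹ := by
  apply slq_ext <;> simp [inv00, inv01, inv10, inv11]

theorem ey_neg (s : ℚ) : ey (-s) = (ey s)⁻¹ := by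
  apply slq_ext <;> simp [inv00, inv01, inv10, inv11]

theorem ew_ex (s : ℚ) : ew * ex s * ew⁻¹ = ey (-s) := by
  apply slq_ext <;> simp [mul00, mul01, mul10, mul11, inv00, inv01, inv10, inv11]

theorem ew_ey (s : ℚ) : ew * ey s * ew⁻¹ = ex (-s) := by
  apply slq_ext <;> simp [mul00, mul01, mul10, mul11, inv00, inv01, inv10, inv11]

theorem dg_ex (u : ℚˣ) (s : ℚ) : dg u * ex s * (dg u)⁻¹ = ex ((u : ℚ) ^ 2 * s) := by
  apply slq_ext <;> simp [mul00, mul01, mul10, mul11, inv00, inv01, inv10, inv11]; ring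

theorem dg_inv_ey (u : ℚˣ) (s : ℚ) : (dg u)⁻¹ * ey s * dg u = ey ((u : ℚ) ^ 2 * s) := by
  apply slq_ext <;> simp [mul00, mul01, mul10, mul11, inv00, inv01, inv10, inv11]; ring

/-- Conjugation by `diag(1, l)`: `(a, b; c, d) ↦ (a, b/l; l c, d)`. -/
def dconj (l : ℚˣ) : SLQ ≃* SLQ where
  toFun g := mk2 (g.1 0 0) (g.1 0 1 * ((l⁻¹ : ℚˣ) : ℚ)) ((l : ℚ) * g.1 1 0) (g.1 1 1) (by
    have h := det_entries g
    calc g.1 0 0 * g.1 1 1 - g.1 0 1 * ((l⁻¹ : ℚˣ) : ℚ) * ((l : ℚ) * g.1 1 0)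
        = g.1 0 0 * g.1 1 1 - g.1 0 1 * g.1 1 0 * (((l⁻¹ : ℚˣ) : ℚ) * (l : ℚ)) := by ring
      _ = 1 := by rw [Units.inv_mul, mul_one, h])
  invFun g := mk2 (g.1 0 0) (g.1 0 1 * (l : ℚ)) (((l⁻¹ : ℚˣ) : ℚ) * g.1 1 0) (g.1 1 1) (by
    have h := det_entries g
    calc g.1 0 0 * g.1 1 1 - g.1 0 1 * (l : ℚ) * (((l⁻¹ : ℚˣ) : ℚ) * g.1 1 0)
        = g.1 0 0 * g.1 1 1 - g.1 0 1 * g.1 1 0 * ((l : ℚ) * ((l⁻¹ : ℚˣ) : ℚ)) := by ring
      _ = 1 := by rw [Units.mul_inv, mul_one, h])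
  left_inv g := by apply slq_ext <;> simp [mk2]
  right_inv g := by apply slq_ext <;> simp [mk2]
  map_mul' g k := by
    apply slq_ext <;> simp only [mk2_00, mk2_01, mk2_10, mk2_11, mul00, mul01, mul10, mul11]
    · linear_combination -(g.1 0 1 * k.1 1 0) * l.inv_mul
    · ring
    · ring
    · linear_combination -(g.1 1 0 * k.1 0 1) * l.mul_inv

@[simp] theorem dconj00 (l : ℚˣ) (g : SLQ) : (dconj l g).1 0 0 = g.1 0 0 := rfl
@[simp] theorem dconj01 (l : ℚˣ) (g : SLQ) :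
    (dconj l g).1 0 1 = g.1 0 1 * ((l⁻¹ : ℚˣ) : ℚ) := rfl
@[simp] theorem dconj10 (l : ℚˣ) (g : SLQ) : (dconj l g).1 1 0 = (l : ℚ) * g.1 1 0 := rfl
@[simp] theorem dconj11 (l : ℚˣ) (g : SLQ) : (dconj l g).1 1 1 = g.1 1 1 := rfl

/-- Principal congruence subgroup of level `M` of `SL(2, ℤ[1/q])`. -/
def Lvl (q M : ℕ) : Subgroup SLQ where
  carrier := {g | Idl q M (g.1 0 0 - 1) ∧ Idl q M (g.1 0 1) ∧ Idl q M (g.1 1 0) ∧
    Idl q M (g.1 1 1 - 1)}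
  one_mem' := by simp [Idl.zero]
  mul_mem' := by
    rintro g k ⟨a1, b1, c1, d1⟩ ⟨a2, b2, c2, d2⟩
    refine ⟨?_, ?_, ?_, ?_⟩
    · rw [mul00]
      convert ((a1.mul_right a2.mem).add (a1.add a2)).add (b1.mul_right c2.mem) using 1; ring
    · rw [mul01]
      convert ((a1.mul_right b2.mem).add b2).add ((b1.mul_right d2.mem).add b1) using 1; ring
    · rw [mul10]
      convert ((c1.mul_right a2.mem).add c1).add ((d1.mul_right c2.mem).add c2) using 1; ring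
    · rw [mul11]
      convert ((d1.mul_right d2.mem).add (d1.add d2)).add (c1.mul_right b2.mem) using 1; ring
  inv_mem' := by
    rintro g ⟨a, b, c, d⟩
    exact ⟨by rw [inv00]; exact d, by rw [inv01]; exact b.neg, by rw [inv10]; exact c.neg,
      by rw [inv11]; exact a⟩

theorem mem_Lvl {q M : ℕ} {g : SLQ} : g ∈ Lvl q M ↔ Idl q M (g.1 0 0 - 1) ∧ Idl q M (g.1 0 1) ∧
    Idl q M (g.1 1 0) ∧ Idl q M (g.1 1 1 - 1) := Iff.rfl

theorem Lvl_le {q L M : ℕ} (h : L ∣ M) : Lvl q M ≤ Lvl q L := fun _ ⟨a, b, c, d⟩ =>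
  ⟨a.of_dvd h, b.of_dvd h, c.of_dvd h, d.of_dvd h⟩

theorem mem_Lvl_one_iff {q : ℕ} {g : SLQ} : g ∈ Lvl q 1 ↔ g.1 0 0 ∈ QInt q ∧ g.1 0 1 ∈ QInt q ∧
    g.1 1 0 ∈ QInt q ∧ g.1 1 1 ∈ QInt q := by
  simp only [mem_Lvl, Idl.one_iff]
  constructor
  · rintro ⟨a, b, c, d⟩
    exact ⟨by simpa using add_mem a (one_mem _), b, c, by simpa using add_mem d (one_mem _)⟩
  · rintro ⟨a, b, c, d⟩
    exact ⟨sub_mem a (one_mem _), b, c, sub_mem d (one_mem _)⟩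

theorem ex_mem {q M : ℕ} {s : ℚ} (hs : Idl q M s) : ex s ∈ Lvl q M :=
  ⟨by simp [Idl.zero], by simpa using hs, by simp [Idl.zero], by simp [Idl.zero]⟩

theorem ey_mem {q M : ℕ} {s : ℚ} (hs : Idl q M s) : ey s ∈ Lvl q M :=
  ⟨by simp [Idl.zero], by simp [Idl.zero], by simpa using hs, by simp [Idl.zero]⟩

theorem ew_mem {q : ℕ} : ew ∈ Lvl q 1 :=
  mem_Lvl_one_iff.2 ⟨by simp [zero_mem], by simp [neg_mem (one_mem _)], by simp [one_mem],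
    by simp [zero_mem]⟩

theorem conj_mem {q M : ℕ} {h g : SLQ} (hh : h ∈ Lvl q 1) (hg : g ∈ Lvl q M) :
    h * g * h⁻¹ ∈ Lvl q M := by
  obtain ⟨a, b, c, d⟩ := hg
  obtain ⟨a', b', c', d'⟩ := mem_Lvl_one_iff.1 hh
  have hd := det_entries h
  refine ⟨?_, ?_, ?_, ?_⟩
  · rw [mul00, mul00, mul01, inv00, inv10]
    have e : (h.1 0 0 * g.1 0 0 + h.1 0 1 * g.1 1 0) * h.1 1 1 +
        (h.1 0 0 * g.1 0 1 + h.1 0 1 * g.1 1 1) * -h.1 1 0 - 1 =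
        h.1 0 0 * h.1 1 1 * (g.1 0 0 - 1) + h.1 0 1 * h.1 1 1 * g.1 1 0
        - h.1 0 0 * h.1 1 0 * g.1 0 1 - h.1 0 1 * h.1 1 0 * (g.1 1 1 - 1) := by
      linear_combination hd
    rw [e]
    exact (((a.mul_left (mul_mem a' d')).add (c.mul_left (mul_mem b' d'))).sub
      (b.mul_left (mul_mem a' c'))).sub (d.mul_left (mul_mem b' c'))
  · rw [mul01, mul00, mul01, inv01, inv11]
    have e : (h.1 0 0 * g.1 0 0 + h.1 0 1 * g.1 1 0) * -h.1 0 1 +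
        (h.1 0 0 * g.1 0 1 + h.1 0 1 * g.1 1 1) * h.1 0 0 =
        h.1 0 0 * h.1 0 1 * (g.1 1 1 - 1) - h.1 0 0 * h.1 0 1 * (g.1 0 0 - 1)
        - h.1 0 1 * h.1 0 1 * g.1 1 0 + h.1 0 0 * h.1 0 0 * g.1 0 1 := by ring
    rw [e]
    exact (((d.mul_left (mul_mem a' b')).sub (a.mul_left (mul_mem a' b'))).sub
      (c.mul_left (mul_mem b' b'))).add (b.mul_left (mul_mem a' a'))
  · rw [mul10, mul10, mul11, inv00, inv10]
    have e : (h.1 1 0 * g.1 0 0 + h.1 1 1 * g.1 1 0) * h.1 1 1 +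
        (h.1 1 0 * g.1 0 1 + h.1 1 1 * g.1 1 1) * -h.1 1 0 =
        h.1 1 0 * h.1 1 1 * (g.1 0 0 - 1) - h.1 1 0 * h.1 1 1 * (g.1 1 1 - 1)
        + h.1 1 1 * h.1 1 1 * g.1 1 0 - h.1 1 0 * h.1 1 0 * g.1 0 1 := by ring
    rw [e]
    exact (((a.mul_left (mul_mem c' d')).sub (d.mul_left (mul_mem c' d'))).add
      (c.mul_left (mul_mem d' d'))).sub (b.mul_left (mul_mem c' c'))
  · rw [mul11, mul10, mul11, inv01, inv11]
    have e : (h.1 1 0 * g.1 0 0 + h.1 1 1 * g.1 1 0) * -h.1 0 1 +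
        (h.1 1 0 * g.1 0 1 + h.1 1 1 * g.1 1 1) * h.1 0 0 - 1 =
        h.1 0 0 * h.1 1 1 * (g.1 1 1 - 1) - h.1 0 1 * h.1 1 1 * g.1 1 0
        + h.1 0 0 * h.1 1 0 * g.1 0 1 - h.1 0 1 * h.1 1 0 * (g.1 0 0 - 1) := by
      linear_combination hd
    rw [e]
    exact (((d.mul_left (mul_mem a' d')).sub (c.mul_left (mul_mem b' d'))).add
      (b.mul_left (mul_mem a' c'))).sub (a.mul_left (mul_mem b' c'))

/-- `q ^ r` as a unit of `ℚ`. -/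
def qu (q : ℕ) (hq : q ≠ 0) (r : ℕ) : ℚˣ := Units.mk0 ((q : ℚ) ^ r) (pow_ne_zero _ (by exact_mod_cast hq))

@[simp] theorem qu_val {q : ℕ} (hq : q ≠ 0) (r : ℕ) : (qu q hq r : ℚ) = (q : ℚ) ^ r := rfl

@[simp] theorem qu_inv_val {q : ℕ} (hq : q ≠ 0) (r : ℕ) :
    (((qu q hq r)⁻¹ : ℚˣ) : ℚ) = ((q : ℚ) ^ r)⁻¹ := by
  simp [Units.val_inv_eq_inv_val]

theorem idl_pow_sub_one {q M r : ℕ} (hr : q ^ r % M = 1 % M) : Idl q M ((q : ℚ) ^ r - 1) := by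
  have h1 : (M : ℤ) ∣ (q : ℤ) ^ r - 1 := by
    rw [← ZMod.intCast_zmod_eq_zero_iff_dvd]
    have : ((q ^ r : ℕ) : ZMod M) = ((1 : ℕ) : ZMod M) := (ZMod.natCast_eq_natCast_iff' _ _ _).2 hr
    push_cast at this ⊢
    rw [this, sub_self]
  obtain ⟨c, hc⟩ := h1
  exact ⟨c, int_mem_QInt c, by exact_mod_cast hc⟩

theorem dg_mem {q M r : ℕ} (hq : q ≠ 0) (hr : q ^ r % M = 1 % M) : dg (qu q hq r) ∈ Lvl q M := by
  have h1 := idl_pow_sub_one hr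
  refine ⟨by simpa using h1, by simp [Idl.zero], by simp [Idl.zero], ?_⟩
  simp only [dg11, qu_inv_val]
  have hne : (q : ℚ) ^ r ≠ 0 := pow_ne_zero _ (by exact_mod_cast hq)
  have e : ((q : ℚ) ^ r)⁻¹ - 1 = -((q : ℚ) ^ r)⁻¹ * ((q : ℚ) ^ r - 1) := by field_simp; ring
  rw [e]
  exact h1.mul_left (neg_mem (inv_pow_mem_QInt hq r))

/-- `F` is additive on the subgroup `H`. -/
def AddOn {C : Type*} [AddCommGroup C] (H : Subgroup SLQ) (F : SLQ → C) : Prop :=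
  ∀ g ∈ H, ∀ k ∈ H, F (g * k) = F g + F k

namespace AddOn

variable {C : Type*} [AddCommGroup C] {H : Subgroup SLQ} {F : SLQ → C}

theorem map_one (hF : AddOn H F) : F 1 = 0 := by
  have h := hF 1 H.one_mem 1 H.one_mem
  simpa using h

theorem map_inv (hF : AddOn H F) {g : SLQ} (hg : g ∈ H) : F g⁻¹ = -F g := by
  have h := hF g hg g⁻¹ (H.inv_mem hg)
  rw [mul_inv_cancel, hF.map_one] at h
  exact eq_neg_of_add_eq_zero_right h.symm

theorem map_conj (hF : AddOn H F) {h g : SLQ} (hh : h ∈ H) (hg : g ∈ H) :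
    F (h * g * h⁻¹) = F g := by
  rw [hF _ (H.mul_mem hh hg) _ (H.inv_mem hh), hF h hh g hg, hF.map_inv hh]
  abel

theorem mono {H' : Subgroup SLQ} (hF : AddOn H F) (h : H' ≤ H) : AddOn H' F :=
  fun g hg k hk => hF g (h hg) k (h hk)

theorem comp {H' : Subgroup SLQ} (hF : AddOn H F) (φ : SLQ →* SLQ) (h : ∀ g ∈ H', φ g ∈ H) :
    AddOn H' (fun g => F (φ g)) := fun g hg k hk => by
  show F (φ (g * k)) = _
  rw [_root_.map_mul, hF _ (h g hg) _ (h k hk)]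

theorem map_closure_eq_zero (hF : AddOn H F) {S : Set SLQ} (hS : S ⊆ H) (h0 : ∀ g ∈ S, F g = 0)
    {g : SLQ} (hg : g ∈ Subgroup.closure S) : F g = 0 := by
  refine (Subgroup.closure_induction (p := fun x _ => x ∈ H ∧ F x = 0) ?_ ?_ ?_ ?_ hg).2
  · exact fun x hx => ⟨hS hx, h0 x hx⟩
  · exact ⟨H.one_mem, hF.map_one⟩
  · rintro x y - - ⟨hx, hx'⟩ ⟨hy, hy'⟩
    exact ⟨H.mul_mem hx hy, by rw [hF x hx y hy, hx', hy', add_zero]⟩
  · rintro x - ⟨hx, hx'⟩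
    exact ⟨H.inv_mem hx, by rw [hF.map_inv hx, hx', neg_zero]⟩

end AddOn

end FA.HeckeH1
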