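import Fermat.Agent.HeckeH1.Parabolic
import Fermat.Agent.Petersson.Semisimple
import Fermat.Agent.Twist.System
import Mathlib.LinearAlgebra.JordanChevalley

/-!
Good Hecke operators and diamond operators act semisimply on parabolic homomorphisms: at `Γ₀` by
the Petersson form, at `Γ_H` by twisting the nebentypus away.
-/

set_option autoImplicit false

noncomputable section

namespace FA.HeckeH1

open Polynomial CongruenceSubgroup
open FA.JTorsion (FormPair heckeForm)
open scoped MatrixGroups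

section linear

variable {K V : Type*} [Field K] [AddCommGroup V] [Module K V]

/-- A semisimple operator has no Jordan blocks at zero. -/
theorem apply_eq_zero_of_pow_apply {f : Module.End K V} (hf : f.IsSemisimple) {n : ℕ} {v : V}
    (h : (f ^ n) v = 0) : f v = 0 := by
  have hW : ∀ x ∈ LinearMap.ker (f ^ n), f x ∈ LinearMap.ker (f ^ n) := fun x hx => by
    rw [LinearMap.mem_ker, ← Module.End.mul_apply, ← pow_succ, pow_succ',
      Module.End.mul_apply, LinearMap.mem_ker.1 hx, map_zero]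
  have hnil : IsNilpotent (f.restrict hW) := ⟨n, LinearMap.ext fun x => Subtype.ext (by
    rw [Module.End.pow_restrict]
    exact x.2)⟩
  have h0 := Module.End.eq_zero_of_isNilpotent_isSemisimple hnil (hf.restrict hW)
  exact congrArg Subtype.val (LinearMap.congr_fun h0 ⟨v, h⟩)

/-- Semisimple commuting operators generate semisimple operators. -/
theorem isSemisimple_of_mem_adjoin [PerfectField K] [FiniteDimensional K V]
    {s : Set (Module.End K V)} (hcomm : ∀ a ∈ s, ∀ b ∈ s, Commute a b)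
    (hs : ∀ a ∈ s, a.IsSemisimple) {x : Module.End K V} (hx : x ∈ Algebra.adjoin K s) :
    x.IsSemisimple := by
  have := Algebra.isMulCommutative_adjoin K hcomm
  induction hx using Algebra.adjoin_induction with
  | mem y hy => exact hs y hy
  | algebraMap c =>
    rw [Algebra.algebraMap_eq_smul_one]
    exact Module.End.IsSemisimple_smul c Module.End.isSemisimple_id
  | add a b ha' hb' ha hb => exact ha.add_of_commute (setLike_mul_comm ha' hb') hb
  | mul a b ha' hb' ha hb => exact ha.mul_of_commute (setLike_mul_comm ha' hb') hb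

/-- An element of `K[f]` preserves what commutes with `f`. -/
theorem aeval_commute {f g : Module.End K V} (h : Commute f g) (P : K[X]) :
    Commute (aeval f P) g := by
  induction P using Polynomial.induction_on' with
  | add p q hp hq => rw [map_add]; exact hp.add_left hq
  | monomial n c =>
    rw [aeval_monomial]
    exact (Algebra.commute_algebraMap_left c g).mul_left (h.pow_left n)

/-- Intertwiners of operators intertwine polynomials. -/
theorem aeval_intertwine {W : Type*} [AddCommGroup W] [Module K W] (φ : V →ₗ[K] W)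
    {f : Module.End K V} {g : Module.End K W} (h : ∀ v, φ (f v) = g (φ v)) (P : K[X]) (v : V) :
    φ (aeval f P v) = aeval g P (φ v) := by
  induction P using Polynomial.induction_on' with
  | add p q hp hq => simp [hp, hq]
  | monomial n c =>
    have hn : ∀ v, φ ((f ^ n) v) = (g ^ n) (φ v) := by
      induction n with
      | zero => intro v; simp
      | succ n ih => intro v; rw [pow_succ', pow_succ', Module.End.mul_apply, h, ih]; rfl
    simp [aeval_monomial, Module.algebraMap_end_apply, hn]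

end linear

section lattice

variable {M : ℕ} [NeZero M] {H : Subgroup (ZMod M)ˣ} {ℓ : ℕ} [Fact ℓ.Prime]

theorem hact_aeval {A : Type*} [CommRing A] (hℓM : ¬ ℓ ∣ M) (P : ℤ[X]) :
    hact A M H M (aeval (MvPolynomial.X (⟨ℓ, Fact.out, hℓM⟩ : GP M)) P) =
      aeval (TPar A M H ℓ) P := by
  induction P using Polynomial.induction_on' with
  | add p q hp hq => simp only [map_add, hp, hq]
  | monomial n c =>
    rw [aeval_monomial, aeval_monomial, map_mul, map_pow, hact_X, eq_intCast, map_intCast,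
      eq_intCast]

/-- A polynomial killing the integral lattice kills every torsion free extension. -/
theorem aeval_TPar_eq_zero_of_int {A : Type*} [CommRing A] [IsAddTorsionFree A] (hℓM : ¬ ℓ ∣ M)
    {P : ℤ[X]} (h : aeval (TPar ℤ M H ℓ) P = 0) : aeval (TPar A M H ℓ) P = 0 := by
  refine LinearMap.ext fun z => ?_
  obtain ⟨n, c, zk, hz⟩ := FA.Twist.exists_par_coord z.1 z.2
  have e : z = ∑ k, c k • (⟨(Int.castAddHom A).comp (zk k).1, Par_comp _ (zk k).2⟩ :
      Par (GamH M H) A) := Subtype.ext (by rw [Submodule.coe_sum]; exact hz)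
  rw [LinearMap.zero_apply, e, map_sum]
  refine Finset.sum_eq_zero fun k _ => ?_
  rw [map_smul, ← hact_aeval hℓM]
  refine smul_eq_zero_of_right _ (Subtype.ext ?_)
  rw [← hact_comp (Int.castAddHom A) M H M _ (zk k), hact_aeval hℓM, h]
  exact AddMonoidHom.comp_zero _

/-- A polynomial killing an extension of characteristic zero kills the integral lattice. -/
theorem aeval_TPar_int_eq_zero {A : Type*} [CommRing A] [CharZero A] (hℓM : ¬ ℓ ∣ M)
    {P : ℤ[X]} (h : aeval (TPar A M H ℓ) P = 0) : aeval (TPar ℤ M H ℓ) P = 0 := by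
  refine LinearMap.ext fun z => Subtype.ext (AddMonoidHom.ext fun γ => ?_)
  have h1 := hact_comp (Int.castAddHom A) M H M
    (aeval (MvPolynomial.X (⟨ℓ, Fact.out, hℓM⟩ : GP M)) P) z
  rw [hact_aeval hℓM, hact_aeval hℓM, h] at h1
  have h2 := DFunLike.congr_fun h1 γ
  exact Int.cast_injective (α := A) (h2.trans (Int.cast_zero).symm)

theorem par_finite (F : Type*) [CommRing F] [IsNoetherianRing F] :
    Module.Finite F (Par (GamH M H) F) :=
  have := hom1_finite_of_noetherian (GamH M H) F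
  inferInstance

end lattice

section top

variable {M : ℕ} [NeZero M] {ℓ : ℕ} [Fact ℓ.Prime]

/-- Over `ℂ`, integral polynomials in `T ℓ` have no Jordan blocks at zero. -/
theorem aeval_TPar_complex (hℓM : ¬ ℓ ∣ M) {P : ℤ[X]} {k : ℕ}
    (h : aeval (TPar ℂ M ⊤ ℓ) P ^ k = 0) : aeval (TPar ℂ M ⊤ ℓ) P = 0 := by
  have hℓ : ℓ.Prime := Fact.out
  have : NeZero ℓ := ⟨hℓ.ne_zero⟩
  let S : Set ℕ := (↑M.primeFactors : Set ℕ)
  have hS : ∀ q : ℕ, q.Prime → q ∣ M → q ∈ S := fun q hq hd => by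
    simp [S, Nat.mem_primeFactors, hq, hd, NeZero.ne M]
  have hℓS : ℓ ∉ S := fun hm => hℓM (Nat.dvd_of_mem_primeFactors (by simpa [S] using hm))
  let t : CuspForm.heckeAlgebra M 2 S := CuspForm.heckeAlgebra.T (k := 2) hℓ hℓM hℓS
  have hT : ∀ f, heckeForm M ℓ hℓ f = (t : Module.End ℂ (CuspForm (Gamma0 M) 2)) f := fun f => by
    rw [heckeForm, dif_neg hℓM, CuspForm.heckeAlgebra.coe_T]
  have hper : ∀ (Q : ℤ[X]) (p : FormPair M) (z : Par (GamH M ⊤) ℂ), z.1 = perP M ⊤ p →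
      (aeval (TPar ℂ M ⊤ ℓ) Q z).1 = perP M ⊤
        ((aeval t Q : CuspForm.heckeAlgebra M 2 S).1 p.1,
          (aeval t Q : CuspForm.heckeAlgebra M 2 S).1 p.2) := by
    intro Q
    induction Q using Polynomial.induction_on with
    | C a =>
      intro p z hz
      rw [aeval_C, aeval_C, Module.algebraMap_end_apply, Submodule.coe_smul_of_tower, hz,
        ← map_zsmul]
      rfl
    | add Q R hQ hR =>
      intro p z hz
      simp only [map_add, LinearMap.add_apply, Submodule.coe_add, hQ p z hz, hR p z hz,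
        Subalgebra.coe_add]
      rw [← map_add]
      rfl
    | monomial n a ih =>
      intro p z hz
      have hz' : (TPar ℂ M ⊤ ℓ z).1 = perP M ⊤
          ((t : Module.End ℂ (CuspForm (Gamma0 M) 2)) p.1, (t : Module.End ℂ _) p.2) := by
        rw [← hT, ← hT, ← perP_Tc (fun h => ⟨ZMod.unitOfCoprime ℓ
          (hℓ.coprime_iff_not_dvd.2 h), Subgroup.mem_top _, rfl⟩), ← hz]
        rfl
      simp only [pow_succ, ← mul_assoc, map_mul (aeval _) _ X, aeval_X, Module.End.mul_apply,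
        Subalgebra.coe_mul]
      exact ih _ _ hz'
  refine LinearMap.ext fun z => Subtype.ext ?_
  obtain ⟨p, hp⟩ := exists_perP_eq rfl z.2
  have h0 := hper (P ^ k) p z hp.symm
  rw [map_pow, map_pow, h, LinearMap.zero_apply, ZeroMemClass.coe_zero, eq_comm,
    ← map_zero (perP M ⊤)] at h0
  have h1 := perP_injective rfl h0
  rw [SubmonoidClass.coe_pow, Prod.mk_eq_zero] at h1
  have hsym := FA.Petersson.isSymm_of_mem hS (aeval t P).2
  rw [hper P p z hp.symm, hsym.eq_zero_of_pow h1.1, hsym.eq_zero_of_pow h1.2,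
    LinearMap.zero_apply, ZeroMemClass.coe_zero]
  exact map_zero (perP M ⊤)

/-- **`T ℓ` is semisimple at `Γ₀(M)`**, over any field of characteristic zero. -/
theorem isSemisimple_TPar_top (hℓM : ¬ ℓ ∣ M) (F : Type*) [Field F] [CharZero F] :
    (TPar F M ⊤ ℓ).IsSemisimple := by
  have := par_finite (M := M) (H := ⊤) ℚ
  obtain ⟨g, k, hg, -, hdvd⟩ := exists_squarefree_dvd_pow_of_ne_zero
    (minpoly.ne_zero_of_finite ℚ (TPar ℚ M ⊤ ℓ))
  have hgT : aeval (TPar ℚ M ⊤ ℓ) g ^ k = 0 := by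
    obtain ⟨r, hr⟩ := hdvd
    rw [← map_pow, hr, map_mul]
    exact (congrArg (· * _) (minpoly.aeval ℚ (TPar ℚ M ⊤ ℓ))).trans (zero_mul _)
  obtain ⟨b, hbmem, hb⟩ := IsLocalization.integerNormalization_spec (nonZeroDivisors ℤ) g
  set g₀ := IsLocalization.integerNormalization (nonZeroDivisors ℤ) g
  have hb0 : ((b : ℤ) : ℚ) ≠ 0 := by exact_mod_cast nonZeroDivisors.ne_zero hbmem
  have hb' : g₀.map (algebraMap ℤ ℚ) = C ((b : ℤ) : ℚ) * g := by
    rw [hb, ← Polynomial.smul_eq_C_mul, Int.cast_smul_eq_zsmul]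
  have h1 : aeval (TPar ℚ M ⊤ ℓ) (g₀ ^ k) = 0 := by
    rw [← aeval_map_algebraMap ℚ, Polynomial.map_pow, hb', mul_pow, map_mul, map_pow _ g, hgT,
      mul_zero]
  have h2 : aeval (TPar ℂ M ⊤ ℓ) g₀ = 0 := aeval_TPar_complex hℓM (k := k) (by
    rw [← map_pow]
    exact aeval_TPar_eq_zero_of_int hℓM (aeval_TPar_int_eq_zero hℓM h1))
  have h3 : aeval (TPar F M ⊤ ℓ) g₀ = 0 :=
    aeval_TPar_eq_zero_of_int hℓM (aeval_TPar_int_eq_zero hℓM h2)
  refine Module.End.isSemisimple_of_squarefree_aeval_eq_zero (p := g₀.map (algebraMap ℤ F)) ?_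
    (by rw [aeval_map_algebraMap, h3])
  have hsep : (g₀.map (algebraMap ℤ ℚ)).Separable := by
    rw [hb', PerfectField.separable_iff_squarefree]
    exact (associated_unit_mul_left g _ (isUnit_C.2 (IsUnit.mk0 _ hb0))).squarefree_iff.2 hg
  rw [show g₀.map (algebraMap ℤ F) = (g₀.map (algebraMap ℤ ℚ)).map (algebraMap ℚ F) by
    rw [Polynomial.map_map]; congr 1; exact RingHom.ext_int _ _]
  exact hsep.map.squarefree

end top

section twist

variable {A : Type*} [CommRing A] [IsDomain A] [CharZero A]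

open FA.Twist in
/-- **Twisting, linearly.** -/
theorem exists_twist_lin (η : ∀ q : ℕ, MulChar (ZMod q) A) (Q : Finset ℕ) :
    ∀ (M : ℕ) [NeZero M] (H : Subgroup (ZMod M)ˣ),
      (∀ q ∈ Q, q.Prime ∧ q ∣ M ∧ ¬ q * q ∣ M ∧ η q ^ 2 ≠ 1) →
      ∃ Φ : Hom1 (GamH M H) A →ₗ[A]
          Hom1 (GamH (M * ∏ q ∈ Q, q) (⊤ : Subgroup (ZMod (M * ∏ q ∈ Q, q))ˣ)) A,
        (∀ z ∈ Par (GamH M H) A, Φ z ∈ Par (GamH (M * ∏ q ∈ Q, q) ⊤) A) ∧
        (∀ z, (∀ g : GamH M ⊤, dia M H A g z =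
          (∏ q ∈ Q, η q (ZMod.cast (ulHom M g : ZMod M)) ^ 2) • z) → Φ z = 0 → z = 0) ∧
        ∀ ℓ : ℕ, [Fact ℓ.Prime] → ¬ ℓ ∣ M → ∀ z,
          (Tc (M * ∏ q ∈ Q, q) ⊤ ℓ).act (Φ z) =
            (∏ q ∈ Q, (η q)⁻¹ (ℓ : ZMod q)) • Φ ((Tc M H ℓ).act z) := by
  classical
  induction Q using Finset.induction with
  | empty =>
    intro M _ H _
    rw [Finset.prod_empty, mul_one]
    refine ⟨(Corr.cores (Γ := GamH M ⊤)).actLin, fun z hz => Par_act _ hz, fun z hdia h => ?_,
      fun ℓ _ _ z => ?_⟩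
    · have hfin : Finite (GamH M ⊤ ⧸ (GamH M H).subgroupOf (GamH M ⊤)) := inferInstance
      have := Fintype.ofFinite (GamH M ⊤ ⧸ (GamH M H).subgroupOf (GamH M ⊤))
      have h1 := res_cores (H := H) z
      rw [show (Corr.cores (Γ := GamH M ⊤)).act z = 0 from h, map_zero] at h1
      simp only [hdia, Finset.prod_empty, one_smul, Finset.sum_const] at h1
      apply AddMonoidHom.ext
      intro γ
      have h2 := (DFunLike.congr_fun h1 γ).symm
      rw [AddMonoidHom.smul_apply, AddMonoidHom.zero_apply, nsmul_eq_mul] at h2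
      refine (mul_eq_zero.1 h2).resolve_left (Nat.cast_ne_zero.2 ?_)
      exact Finset.card_ne_zero.2 ⟨QuotientGroup.mk 1, Finset.mem_univ _⟩
    · rw [Finset.prod_empty, one_smul]
      exact cores_Tc_diamond z
  | insert q Q hqQ ih =>
    intro M _ H hQ
    obtain ⟨hq, hqM, hqq, hη2⟩ := hQ q (Finset.mem_insert_self q Q)
    haveI : Fact q.Prime := ⟨hq⟩
    haveI : NeZero q := ⟨hq.ne_zero⟩
    haveI : Fact (q ∣ M) := ⟨hqM⟩
    haveI : NeZero (M * q) := ⟨mul_ne_zero (NeZero.ne M) hq.ne_zero⟩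
    obtain ⟨N', hN'⟩ := hqM
    have hcop : q.Coprime N' := hq.coprime_iff_not_dvd.2 fun ⟨d, hd⟩ =>
      hqq ⟨d, by rw [hN', hd, mul_assoc]⟩
    have hη1 : η q ≠ 1 := fun h => hη2 (by rw [h, one_pow])
    have hQ' : ∀ r ∈ Q, r.Prime ∧ r ∣ M * q ∧ ¬ r * r ∣ M * q ∧ η r ^ 2 ≠ 1 := fun r hr => by
      obtain ⟨hrp, hrM, hrr, hr2⟩ := hQ r (Finset.mem_insert_of_mem hr)
      refine ⟨hrp, hrM.mul_right q, fun h => hrr ?_, hr2⟩
      have hcp : (r * r).Coprime q := Nat.Coprime.mul_left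
        ((Nat.coprime_primes hrp hq).2 fun h' => hqQ (h' ▸ hr))
        ((Nat.coprime_primes hrp hq).2 fun h' => hqQ (h' ▸ hr))
      exact hcp.dvd_of_dvd_mul_right h
    obtain ⟨Φ, hΦp, hΦi, hΦT⟩ := ih (M * q) (Hsq M H q) hQ'
    rw [Finset.prod_insert hqQ, ← mul_assoc]
    refine ⟨Φ.comp (tw M H q (η q)), fun z hz => hΦp _ (tw_mem_Par _ hz), fun z hdia h => ?_,
      fun ℓ _ hℓM z => ?_⟩
    · by_contra hz0
      let ψ : (ZMod M)ˣ →* A :=
        ∏ r ∈ insert q Q, if hr : r ∣ M then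
          ((powMonoidHom 2).comp ((η r).toMonoidHom.comp
            ((ZMod.castHom hr (ZMod r)).toMonoidHom.comp (Units.coeHom (ZMod M))))) else 1
      have hψ : ∀ u : (ZMod M)ˣ,
          ψ u = ∏ r ∈ insert q Q, η r (ZMod.cast (u : ZMod M)) ^ 2 := fun u => by
        rw [MonoidHom.finsetProd_apply]
        refine Finset.prod_congr rfl fun r hr => ?_
        rw [dif_pos (hQ r hr).2.1]
        rfl
      have hz' : ∀ g, dia M H A g z = ψ (ulHom M g) • z := fun g => by rw [hdia, hψ]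
      obtain ⟨u, hu, hψu⟩ : ∃ u : (ZMod M)ˣ,
          ZMod.castHom (Dvd.intro_left q hN'.symm) (ZMod N') (u : ZMod M) = 1 ∧ ψ u ≠ 1 := by
        obtain ⟨v, hv⟩ := MulChar.ne_one_iff.1 hη2
        subst hN'
        let u : (ZMod (q * N'))ˣ :=
          (Units.mapEquiv (ZMod.chineseRemainder hcop).toMulEquiv).symm
            (MulEquiv.prodUnits.symm (v, 1))
        have hu : ZMod.chineseRemainder hcop (u : ZMod (q * N')) =
            ((v : ZMod q), (1 : ZMod N')) :=
          (ZMod.chineseRemainder hcop).apply_symm_apply ((v : ZMod q), (1 : ZMod N'))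
        have h1 : ZMod.castHom (dvd_mul_right q N') (ZMod q) (u : ZMod (q * N')) = v := by
          have := congrArg Prod.fst hu
          simpa [ZMod.chineseRemainder] using this
        have h2 : ZMod.castHom (dvd_mul_left N' q) (ZMod N') (u : ZMod (q * N')) = 1 := by
          have := congrArg Prod.snd hu
          simpa [ZMod.chineseRemainder] using this
        refine ⟨u, h2, ?_⟩
        rw [hψ, Finset.prod_insert hqQ, Finset.prod_eq_one fun r hr => ?_, mul_one]
        · rw [show (ZMod.cast (u : ZMod (q * N')) : ZMod q) = v from h1]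
          rwa [MulChar.pow_apply_coe] at hv
        · obtain ⟨hrp, hrM, -, -⟩ := hQ r (Finset.mem_insert_of_mem hr)
          have hrq : r ≠ q := fun h => hqQ (h ▸ hr)
          have hrN : r ∣ N' := ((Nat.Prime.dvd_mul hrp).1 hrM).resolve_left
            fun h => hrq ((Nat.prime_dvd_prime_iff_eq hrp hq).1 h)
          have h3 : ZMod.castHom hrM (ZMod r) (u : ZMod (q * N')) = 1 := by
            rw [show ZMod.castHom hrM (ZMod r) =
                (ZMod.castHom hrN (ZMod r)).comp (ZMod.castHom (dvd_mul_left N' q) (ZMod N')) from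
              RingHom.ext_zmod _ _, RingHom.comp_apply, h2, map_one]
          rw [show (ZMod.cast (u : ZMod (q * N')) : ZMod r) = 1 from h3, map_one, one_pow]
      refine tw_ne_zero hη1 hz0 hN' hcop ψ hz' u hu hψu (hΦi _ (fun g => ?_) h)
      rw [dia_tw (η q) z ψ hz' g, hψ]
      congr 1
      rw [Finset.prod_insert hqQ, mul_comm (η q (ZMod.cast _) ^ 2), mul_assoc]
      refine Eq.trans (congrArg₂ (· * ·) (Finset.prod_congr rfl fun r hr => ?_) ?_) (mul_one _)
      · have hrM := (hQ r (Finset.mem_insert_of_mem hr)).2.1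
        exact congrArg (fun x => η r x ^ 2) (cast_toM hrM (ulHom (M * q) g))
      · have e : (ZMod.cast (toM M q (ulHom (M * q) g) : ZMod M) : ZMod q) =
            (toQ M q (ulHom (M * q) g) : ZMod q) :=
          (cast_toM (Fact.out : q ∣ M) (ulHom (M * q) g))
        rw [e, ← map_pow, ← MulChar.mul_apply, mul_inv_cancel, ← Units.val_pow_eq_pow_val,
          MulChar.one_apply_coe]
    · have hℓq : ¬ ℓ ∣ q := fun h => hℓM (h.trans ⟨N', hN'⟩)
      have hℓMq : ¬ ℓ ∣ M * q := fun h =>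
        ((Nat.Prime.dvd_mul Fact.out).1 h).elim hℓM hℓq
      show (Tc _ _ ℓ).act (Φ (tw M H q (η q) z)) = _ • Φ (tw M H q (η q) _)
      rw [hΦT ℓ hℓMq, Tc_tw (η q) z ℓ hℓq, map_smul, smul_smul, Finset.prod_insert hqQ,
        mul_comm (∏ _ ∈ _, _)]

end twist

section level

variable {M : ℕ} [NeZero M]

/-- A unit modulo a prime exactly dividing `M`, one elsewhere. -/
theorem exists_local_lift {q : ℕ} (hq : q.Prime) (hqM : q ∣ M) (hqq : ¬ q * q ∣ M) :
    ∃ ε : (ZMod q)ˣ →* (ZMod M)ˣ, (∀ v, ZMod.unitsMap hqM (ε v) = v) ∧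
      ∀ (r : ℕ) (hr : r ∣ M), r.Prime → r ≠ q → ∀ v, ZMod.unitsMap hr (ε v) = 1 := by
  obtain ⟨N', rfl⟩ := hqM
  have hcop : q.Coprime N' := hq.coprime_iff_not_dvd.2 fun ⟨d, hd⟩ =>
    hqq ⟨d, by rw [hd, mul_assoc]⟩
  let ε : (ZMod q)ˣ →* (ZMod (q * N'))ˣ :=
    (Units.mapEquiv (ZMod.chineseRemainder hcop).toMulEquiv).symm.toMonoidHom.comp
      (MulEquiv.prodUnits.symm.toMonoidHom.comp (MonoidHom.inl (ZMod q)ˣ (ZMod N')ˣ))
  have hε : ∀ v, ZMod.chineseRemainder hcop (ε v : ZMod (q * N')) = ((v : ZMod q), (1 : ZMod N')) :=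
    fun v => (ZMod.chineseRemainder hcop).apply_symm_apply ((v : ZMod q), (1 : ZMod N'))
  have h1 : ∀ v, ZMod.castHom (dvd_mul_right q N') (ZMod q) (ε v : ZMod (q * N')) = v := fun v => by
    have := congrArg Prod.fst (hε v)
    simpa [ZMod.chineseRemainder] using this
  have h2 : ∀ v, ZMod.castHom (dvd_mul_left N' q) (ZMod N') (ε v : ZMod (q * N')) = 1 := fun v => by
    have := congrArg Prod.snd (hε v)
    simpa [ZMod.chineseRemainder] using this
  refine ⟨ε, fun v => Units.ext (h1 v), fun r hr hrp hrq v => Units.ext ?_⟩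
  have hrN : r ∣ N' := ((Nat.Prime.dvd_mul hrp).1 hr).resolve_left
    fun h => hrq ((Nat.prime_dvd_prime_iff_eq hrp hq).1 h)
  show ZMod.castHom hr (ZMod r) (ε v : ZMod (q * N')) = 1
  rw [show ZMod.castHom hr (ZMod r) =
      (ZMod.castHom hrN (ZMod r)).comp (ZMod.castHom (dvd_mul_left N' q) (ZMod N')) from
    RingHom.ext_zmod _ _, RingHom.comp_apply, h2, map_one]

/-- A character which is trivial at `-1` is a square. -/
theorem exists_sqrt_char {F : Type*} [Field F] [IsAlgClosed F] {q : ℕ} [Fact q.Prime]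
    (χ : (ZMod q)ˣ →* Fˣ) (h : χ (-1) = 1) :
    ∃ η : MulChar (ZMod q) F, ∀ v : (ZMod q)ˣ, η v ^ 2 = χ v := by
  rcases (Fact.out : q.Prime).eq_two_or_odd' with rfl | hodd
  · refine ⟨1, fun v => ?_⟩
    rw [MulChar.one_apply_coe, one_pow, Subsingleton.elim v 1, map_one, Units.val_one]
  obtain ⟨g, hg⟩ := IsCyclic.exists_generator (α := (ZMod q)ˣ)
  obtain ⟨s, hs⟩ := IsAlgClosed.exists_pow_nat_eq (χ g : F) two_pos
  have hs0 : s ≠ 0 := fun h0 => (χ g).ne_zero (by rw [← hs, h0]; simp)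
  have hord : orderOf g = q - 1 := by
    rw [orderOf_eq_card_of_forall_mem_zpowers hg, Nat.card_eq_fintype_card, ZMod.card_units]
  obtain ⟨m, hm⟩ := hodd
  have hgm : g ^ m = -1 := by
    have h1 : (g ^ m) ^ 2 = 1 := by
      rw [← pow_mul, ← orderOf_dvd_iff_pow_eq_one, hord, hm, Nat.add_sub_cancel, mul_comm]
    have h2 : g ^ m ≠ 1 := fun hc => by
      have h3 := Nat.le_of_dvd ?_ (orderOf_dvd_of_pow_eq_one hc)
      · rw [hord, hm] at h3
        have := (Fact.out : q.Prime).two_le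
        omega
      · have := (Fact.out : q.Prime).two_le
        omega
    have h4 : ((g ^ m : (ZMod q)ˣ) : ZMod q) = 1 ∨ ((g ^ m : (ZMod q)ˣ) : ZMod q) = -1 := by
      rw [← sq_eq_one_iff, ← Units.val_pow_eq_pow_val, h1, Units.val_one]
    rcases h4 with h4 | h4
    · exact absurd (Units.ext h4) h2
    · exact Units.ext (by rw [h4, Units.val_neg, Units.val_one])
  have hsord : orderOf (Units.mk0 s hs0) ∣ orderOf g := by
    refine orderOf_dvd_of_pow_eq_one (Units.ext ?_)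
    rw [hord, Units.val_pow_eq_pow_val, Units.val_mk0, hm, Nat.add_sub_cancel, pow_mul, hs,
      ← Units.val_pow_eq_pow_val, ← map_pow, hgm, h]
  let η₀ : (ZMod q)ˣ →* Fˣ := monoidHomOfForallMemZpowers hg hsord
  have hη : ∀ v, η₀ v ^ 2 = χ v := fun v => by
    obtain ⟨n, rfl⟩ := hg v
    show η₀ (g ^ n) ^ 2 = χ (g ^ n)
    rw [map_zpow, map_zpow, monoidHomOfForallMemZpowers_apply_gen]
    rw [← zpow_natCast, ← zpow_mul, mul_comm, zpow_mul]
    congr 1
    exact Units.ext (by rw [zpow_natCast, Units.val_pow_eq_pow_val, Units.val_mk0, hs])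
  exact ⟨MulChar.ofUnitHom η₀, fun v => by
    rw [MulChar.ofUnitHom_coe, ← Units.val_pow_eq_pow_val, hη]⟩

variable {H : Subgroup (ZMod M)ˣ}

omit [NeZero M] in
theorem dia_mem_Par {A : Type*} [CommRing A] (g : GamH M ⊤) {z : Hom1 (GamH M H) A}
    (hz : z ∈ Par (GamH M H) A) : dia M H A g z ∈ Par (GamH M H) A := fun γ s hs => by
  rw [dia_apply]
  refine hz _ (glQ ((g⁻¹ : GamH M ⊤) : SL(2, ℤ)) • s) ?_
  show glQ (((g⁻¹ : GamH M ⊤) : SL(2, ℤ)) * (γ : SL(2, ℤ)) * ((g⁻¹ : GamH M ⊤) : SL(2, ℤ))⁻¹) • _ = _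
  rw [map_mul, map_mul, map_inv, mul_smul, mul_smul, inv_smul_smul, hs]

variable (M H) in
/-- The diamond operators on parabolic homomorphisms. -/
def diaPar (A : Type*) [CommRing A] : (ZMod M)ˣ ⧸ H →* Module.End A (Par (GamH M H) A) where
  toFun x := (dia M H A (gOf M x.out)).restrict fun _ hz => dia_mem_Par _ hz
  map_one' := LinearMap.ext fun z => Subtype.ext (by
    refine dia_of_mem ?_ z.1
    rw [mem_GamH_iff, ulHom_gOf]
    exact (QuotientGroup.eq_one_iff _).1 (QuotientGroup.out_eq' (1 : (ZMod M)ˣ ⧸ H)))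
  map_mul' x y := LinearMap.ext fun z => Subtype.ext (by
    show dia M H A _ z.1 = dia M H A _ (dia M H A _ z.1)
    rw [← dia_mul]
    refine dia_congr (QuotientGroup.eq.1 ?_) z.1
    rw [map_mul, ulHom_gOf, ulHom_gOf, ulHom_gOf, QuotientGroup.mk_mul, QuotientGroup.out_eq',
      QuotientGroup.out_eq', QuotientGroup.out_eq'])

theorem diaPar_apply {A : Type*} [CommRing A] (g : GamH M ⊤) (z : Par (GamH M H) A) :
    (diaPar M H A (QuotientGroup.mk (ulHom M g)) z).1 = dia M H A g z.1 := by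
  refine dia_congr (QuotientGroup.eq.1 ?_) z.1
  rw [ulHom_gOf, QuotientGroup.out_eq']

theorem TPar_diaPar {A : Type*} [CommRing A] (ℓ : ℕ) [Fact ℓ.Prime] (x : (ZMod M)ˣ ⧸ H) :
    Commute (TPar A M H ℓ) (diaPar M H A x) :=
  LinearMap.ext fun z => Subtype.ext (Tc_dia _ z.1)

theorem diaPar_commute {A : Type*} [CommRing A] (x y : (ZMod M)ˣ ⧸ H) :
    Commute (diaPar M H A x) (diaPar M H A y) :=
  ((map_mul (diaPar M H A) x y).symm.trans
    ((congrArg (diaPar M H A) (mul_comm x y)).trans (map_mul (diaPar M H A) y x)))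

theorem isSemisimple_diaPar (F : Type*) [Field F] [CharZero F] (x : (ZMod M)ˣ ⧸ H) :
    (diaPar M H F x).IsSemisimple := by
  refine Module.End.isSemisimple_of_squarefree_aeval_eq_zero
    (p := X ^ orderOf x - C 1) (separable_X_pow_sub_C 1 ?_ one_ne_zero).squarefree ?_
  · exact_mod_cast (orderOf_pos x).ne'
  · rw [map_sub, map_pow, aeval_X, aeval_C, map_one, ← map_pow, pow_orderOf_eq_one, map_one,
      sub_self]

/-- **Good Hecke operators are semisimple at `Γ_H(M)`** when the diamond operators come from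
squares at primes exactly dividing `M`. -/
theorem isSemisimple_TPar (Q : Finset ℕ) (hQ : ∀ q ∈ Q, q.Prime ∧ q ∣ M ∧ ¬ q * q ∣ M)
    (hH : ∀ u : (ZMod M)ˣ, (∀ q ∈ Q, (ZMod.cast (u : ZMod M) : ZMod q) ^ 2 = 1) → u ∈ H)
    (F : Type*) [Field F] [IsAlgClosed F] [CharZero F] {ℓ : ℕ} [Fact ℓ.Prime] (hℓM : ¬ ℓ ∣ M) :
    (TPar F M H ℓ).IsSemisimple := by
  classical
  have := par_finite (M := M) (H := H) F
  obtain ⟨g, k, hg, -, hdvd⟩ := exists_squarefree_dvd_pow_of_ne_zero
    (minpoly.ne_zero_of_finite F (TPar F M H ℓ))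
  have hgT : aeval (TPar F M H ℓ) g ^ k = 0 := by
    obtain ⟨r, hr⟩ := hdvd
    rw [← map_pow, hr, map_mul]
    exact (congrArg (· * _) (minpoly.aeval F (TPar F M H ℓ))).trans (zero_mul _)
  refine Module.End.isSemisimple_of_squarefree_aeval_eq_zero hg ?_
  have htop : ⨆ χ : (ZMod M)ˣ ⧸ H → F, ⨅ x, (diaPar M H F x).maxGenEigenspace (χ x) = ⊤ :=
    Module.End.iSup_iInf_maxGenEigenspace_eq_top_of_iSup_maxGenEigenspace_eq_top_of_commute _
      (fun x y _ => diaPar_commute x y) fun x => Module.End.iSup_maxGenEigenspace_eq_top _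
  rw [← LinearMap.ker_eq_top, eq_top_iff, ← htop, iSup_le_iff]
  intro χ z hz
  rw [LinearMap.mem_ker]
  have hzx : ∀ x, diaPar M H F x z = χ x • z := fun x => by
    have h := (Submodule.mem_iInf _).1 hz x
    rwa [(isSemisimple_diaPar F x).isFinitelySemisimple.maxGenEigenspace_eq_eigenspace,
      Module.End.mem_eigenspace_iff] at h
  rcases eq_or_ne z 0 with rfl | hz0
  · rw [map_zero]
  have hne : ∀ x, χ x ≠ 0 := fun x h0 => hz0 (by
    have h := hzx x
    rw [h0, zero_smul] at h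
    have h2 := congrArg (diaPar M H F x⁻¹) h
    rwa [map_zero, ← Module.End.mul_apply, ← map_mul, inv_mul_cancel, map_one,
      Module.End.one_apply] at h2)
  -- the character of the component
  let ψ : (ZMod M)ˣ →* Fˣ :=
    { toFun := fun u => Units.mk0 (χ u) (hne _)
      map_one' := Units.ext (smul_left_injective F hz0 (by
        show χ _ • z = (1 : F) • z
        rw [one_smul, ← hzx, QuotientGroup.mk_one, map_one, Module.End.one_apply]))
      map_mul' := fun u v => Units.ext (smul_left_injective F hz0 (by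
        show χ _ • z = (χ _ * χ _) • z
        rw [mul_comm, mul_smul, ← hzx, ← hzx, ← map_smul, ← hzx, QuotientGroup.mk_mul, map_mul,
          Module.End.mul_apply])) }
  have hψH : ∀ u ∈ H, ψ u = 1 := fun u hu => Units.ext (smul_left_injective F hz0 (by
    show χ _ • z = (1 : F) • z
    rw [one_smul, ← hzx, (QuotientGroup.eq_one_iff u).2 hu, map_one, Module.End.one_apply]))
  choose ε hε₁ hε₂ using fun q : {q // q ∈ Q} =>
    exists_local_lift (M := M) (hQ q.1 q.2).1 (hQ q.1 q.2).2.1 (hQ q.1 q.2).2.2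
  have hcast : ∀ (q : ℕ) (hq : q ∣ M) (u : (ZMod M)ˣ),
      (ZMod.cast (u : ZMod M) : ZMod q) = (ZMod.unitsMap hq u : ZMod q) := fun q hq u => rfl
  have hη : ∀ q : ℕ, ∃ η : MulChar (ZMod q) F, ∀ hq : q ∈ Q, ∀ v : (ZMod q)ˣ,
      η v ^ 2 = ψ (ε ⟨q, hq⟩ v) := by
    intro q
    by_cases hq : q ∈ Q
    · haveI := Fact.mk (hQ q hq).1
      obtain ⟨η, hη⟩ := exists_sqrt_char (ψ.comp (ε ⟨q, hq⟩)) (hψH _ (hH _ fun r hr => by
        rw [hcast r (hQ r hr).2.1, ← Units.val_pow_eq_pow_val]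
        rcases eq_or_ne r q with rfl | hne
        · rw [show ZMod.unitsMap (hQ r hr).2.1 (ε ⟨r, hq⟩ (-1)) = -1 from hε₁ ⟨r, hq⟩ (-1),
            neg_one_sq, Units.val_one]
        · rw [hε₂ _ _ _ (hQ r hr).1 hne, one_pow, Units.val_one]))
      exact ⟨η, fun _ => hη⟩
    · exact ⟨1, fun h => absurd h hq⟩
  choose η hη using hη
  have hψ : ∀ u : (ZMod M)ˣ,
      (ψ u : F) = ∏ q ∈ Q, η q (ZMod.cast (u : ZMod M)) ^ 2 := fun u => by
    let w : (ZMod M)ˣ := ∏ q ∈ Q.attach, ε q (ZMod.unitsMap (hQ q.1 q.2).2.1 u)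
    have hw : u * w⁻¹ ∈ H := hH _ fun r hr => by
      have h1 : ZMod.unitsMap (hQ r hr).2.1 w = ZMod.unitsMap (hQ r hr).2.1 u := by
        rw [map_prod, Finset.prod_eq_single_of_mem ⟨r, hr⟩ (Finset.mem_attach _ _)
          (fun q _ hne => hε₂ q r _ (hQ r hr).1 (fun e => hne (Subtype.ext e.symm)) _)]
        exact hε₁ ⟨r, hr⟩ _
      rw [hcast r (hQ r hr).2.1, map_mul, map_inv, h1, mul_inv_cancel, Units.val_one, one_pow]
    have hw' : ψ u = ψ w := by
      have h := hψH _ hw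
      rwa [map_mul, map_inv, mul_inv_eq_one] at h
    rw [hw', map_prod, Units.coe_prod,
      ← Finset.prod_attach Q (fun q => η q (ZMod.cast (u : ZMod M)) ^ 2)]
    refine Finset.prod_congr rfl fun q _ => ?_
    rw [hcast q.1 (hQ q.1 q.2).2.1, hη q.1 q.2]
  let Q' := Q.filter fun q => η q ^ 2 ≠ 1
  have hψ' : ∀ u : (ZMod M)ˣ,
      (ψ u : F) = ∏ q ∈ Q', η q (ZMod.cast (u : ZMod M)) ^ 2 := fun u => by
    rw [hψ u]
    refine (Finset.prod_filter_of_ne (p := fun q => η q ^ 2 ≠ 1) fun q hq hne hq2 => hne ?_).symm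
    have hu : IsUnit (ZMod.cast (u : ZMod M) : ZMod q) := by
      rw [hcast q (hQ q hq).2.1]
      exact Units.isUnit _
    obtain ⟨v, hv⟩ := hu
    rw [← hv, ← MulChar.pow_apply_coe, hq2, MulChar.one_apply_coe]
  have hQ' : ∀ q ∈ Q', q.Prime ∧ q ∣ M ∧ ¬ q * q ∣ M ∧ η q ^ 2 ≠ 1 := fun q hq => by
    obtain ⟨h1, h2⟩ := Finset.mem_filter.1 hq
    exact ⟨(hQ q h1).1, (hQ q h1).2.1, (hQ q h1).2.2, h2⟩
  obtain ⟨Φ, hΦp, hΦi, hΦT⟩ := exists_twist_lin η Q' M H hQ'
  have : NeZero (M * ∏ q ∈ Q', q) :=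
    ⟨mul_ne_zero (NeZero.ne M) (Finset.prod_ne_zero_iff.2 fun q hq => (hQ' q hq).1.ne_zero)⟩
  have hℓM' : ¬ ℓ ∣ M * ∏ q ∈ Q', q := fun h => by
    rcases (Nat.Prime.dvd_mul Fact.out).1 h with h | h
    · exact hℓM h
    · obtain ⟨q, hq, hd⟩ := (Prime.dvd_finsetProd_iff (Fact.out : ℓ.Prime).prime _).1 h
      exact hℓM (hd.trans (hQ' q hq).2.1)
  set c : F := ∏ q ∈ Q', (η q)⁻¹ (ℓ : ZMod q)
  have hc : c ≠ 0 := Finset.prod_ne_zero_iff.2 fun q hq => by
    haveI := Fact.mk (hQ' q hq).1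
    have hu : IsUnit (ℓ : ZMod q) := (ZMod.isUnit_iff_coprime ℓ q).2
      ((Fact.out : ℓ.Prime).coprime_iff_not_dvd.2 fun h => hℓM (h.trans (hQ' q hq).2.1))
    exact (hu.map ((η q)⁻¹)).ne_zero
  let Φ' : Par (GamH M H) F →ₗ[F] Par (GamH (M * ∏ q ∈ Q', q) ⊤) F := Φ.restrict hΦp
  have hint : ∀ v, Φ' (TPar F M H ℓ v) = (c⁻¹ • TPar F (M * ∏ q ∈ Q', q) ⊤ ℓ) (Φ' v) :=
    fun v => Subtype.ext (by
      show Φ ((Tc M H ℓ).act v.1) = c⁻¹ • (Tc _ ⊤ ℓ).act (Φ v.1)
      rw [hΦT ℓ hℓM, inv_smul_smul₀ hc])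
  have hss : (aeval (c⁻¹ • TPar F (M * ∏ q ∈ Q', q) ⊤ ℓ) g).IsSemisimple :=
    have := par_finite (M := M * ∏ q ∈ Q', q) (H := ⊤) F
    (Module.End.IsSemisimple_smul c⁻¹ (isSemisimple_TPar_top hℓM' F)).aeval g
  have h0 : Φ' (aeval (TPar F M H ℓ) g z) = 0 := by
    rw [aeval_intertwine Φ' hint]
    refine apply_eq_zero_of_pow_apply hss (n := k) ?_
    rw [← map_pow, ← aeval_intertwine Φ' hint, map_pow, hgT, LinearMap.zero_apply, map_zero]
  refine Subtype.ext (hΦi _ (fun γ => ?_) (congrArg Subtype.val h0))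
  have h1 := congrArg (aeval (TPar F M H ℓ) g) (hzx (QuotientGroup.mk (ulHom M γ)))
  rw [← Module.End.mul_apply, (aeval_commute (TPar_diaPar ℓ _) g).eq, Module.End.mul_apply,
    map_smul] at h1
  rw [← diaPar_apply, h1, ← hψ' (ulHom M γ)]
  rfl

/-- **Every operator generated by good Hecke and diamond operators is semisimple.** -/
theorem isSemisimple_of_mem_good (Q : Finset ℕ) (hQ : ∀ q ∈ Q, q.Prime ∧ q ∣ M ∧ ¬ q * q ∣ M)
    (hH : ∀ u : (ZMod M)ˣ, (∀ q ∈ Q, (ZMod.cast (u : ZMod M) : ZMod q) ^ 2 = 1) → u ∈ H)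
    (F : Type*) [Field F] [IsAlgClosed F] [CharZero F] {x : Module.End F (Par (GamH M H) F)}
    (hx : x ∈ Algebra.adjoin F
      (Set.range (fun ℓ : GP M => TPar F M H ℓ.1) ∪ Set.range (diaPar M H F))) :
    x.IsSemisimple := by
  have := par_finite (M := M) (H := H) F
  refine isSemisimple_of_mem_adjoin ?_ ?_ hx
  · rintro _ (⟨ℓ, rfl⟩ | ⟨x, rfl⟩) _ (⟨r, rfl⟩ | ⟨y, rfl⟩)
    · exact TPar_commute M H _ _
    · exact TPar_diaPar _ y
    · exact (TPar_diaPar _ x).symm
    · exact diaPar_commute x y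
  · rintro _ (⟨ℓ, rfl⟩ | ⟨x, rfl⟩)
    · exact isSemisimple_TPar Q hQ hH F ℓ.2.2
    · exact isSemisimple_diaPar F x

end level

end FA.HeckeH1

end
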