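import Fermat.Agent.HeckeH1.OldPiece
import Fermat.Agent.HeckeH1.CoresTrans

/-!
Taylor-Wiles levels: over `Γ_H(N ∏ q)`, the piece of a residual eigen system with chosen roots at
the primes `q` is free over the diamond group ring, with the piece of level `N` as base.
-/

set_option autoImplicit false

noncomputable section

namespace FA.HeckeH1

open IsLocalRing Matrix
open scoped MatrixGroups

section piece

variable {O : Type} [CommRing O] [IsLocalRing O] {A B : Type} [CommRing A] [Algebra O A]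
  [CommRing B] [Algebra O B]

theorem IsPiece.unique {χ : A →ₐ[O] ResidueField O} {e e' : A} (h : IsPiece χ e)
    (h' : IsPiece χ e') : e = e' := by
  have key : ∀ {e e' : A}, IsPiece χ e → IsPiece χ e' → e = e * e' := fun {e e'} h h' => by
    have h1 := h.cancel (x := e') (y := 1 - e') (by rw [h'.char]; exact one_ne_zero)
      (by rw [mul_sub, mul_one, h'.idem.eq, sub_self, mul_zero])
    rwa [mul_sub, mul_one, sub_eq_zero] at h1
  rw [key h h', mul_comm, ← key h' h]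

/-- A surjection carries pieces to pieces. -/
theorem IsPiece.map {g : A →ₐ[O] B} (hg : Function.Surjective g) {χ : B →ₐ[O] ResidueField O}
    {e : A} (h : IsPiece (χ.comp g) e) : IsPiece χ (g e) where
  idem := h.idem.map g
  char := h.char
  inv x hx := by
    obtain ⟨x, rfl⟩ := hg x
    obtain ⟨s, hs⟩ := h.inv x hx
    exact ⟨g s, by rw [← map_mul, ← map_mul, hs]⟩

end piece

section away

variable (M : ℕ) [NeZero M] (H : Subgroup (ZMod M)ˣ) (O : Type) [CommRing O]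
  (S : Finset Nat.Primes)

/-- The Hecke pair, omitted at the primes of `S`. -/
def Tpair1 (ℓ : Nat.Primes) : PairEnd M H O := if ℓ ∈ S then 0 else Tpair M H O ℓ

/-- The algebra generated by the diamonds and the Hecke operators away from `S`. -/
def pairAway : Subalgebra O (PairEnd M H O) :=
  Algebra.adjoin O (Set.range (Tpair1 M H O S) ∪ Set.range (diaPair M H O))

/-- The Hecke element of a prime. -/
def Tp (ℓ : Nat.Primes) : pairAway M H O S :=
  ⟨Tpair1 M H O S ℓ, Algebra.subset_adjoin (Or.inl ⟨ℓ, rfl⟩)⟩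

/-- The diamond element. -/
def diaP (x : (ZMod M)ˣ ⧸ H) : pairAway M H O S :=
  ⟨diaPair M H O x, Algebra.subset_adjoin (Or.inr ⟨x, rfl⟩)⟩

theorem pairAway_le : pairAway M H O S ≤ pairAlg M H O := by
  refine Algebra.adjoin_le ?_
  rintro _ (⟨ℓ, rfl⟩ | ⟨x, rfl⟩)
  · show Tpair1 M H O S ℓ ∈ pairAlg M H O
    rw [Tpair1]
    split_ifs
    · exact zero_mem _
    · exact Tpair_mem M H O ℓ
  · exact diaPair_mem M H O x

instance pairAway.instCommRing : CommRing (pairAway M H O S) :=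
  { (pairAway M H O S).toRing with
    mul_comm := fun a b => Subtype.ext
      (setLike_mul_comm (pairAway_le M H O S a.2) (pairAway_le M H O S b.2)) }

/-- The inclusion in the full algebra. -/
def incl : pairAway M H O S →ₐ[O] pairAlg M H O := Subalgebra.inclusion (pairAway_le M H O S)

theorem incl_val (x : pairAway M H O S) : (incl M H O S x).1 = x.1 :=
  Subalgebra.coe_inclusion (pairAway_le M H O S) x

theorem Tp_incl {ℓ : Nat.Primes} (h : ℓ ∉ S) :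
    incl M H O S (Tp M H O S ℓ) = ⟨_, Tpair_mem M H O ℓ⟩ := Subtype.ext <| by
  rw [incl_val]
  show Tpair1 M H O S ℓ = _
  rw [Tpair1, if_neg h]

theorem Tp_apply {ℓ : Nat.Primes} (h : ℓ ∉ S) (z : Hom1 (GamH M H) O) :
    (Tp M H O S ℓ).1.1 z = (Tc M H (ℓ : ℕ)).act z := by
  show (Tpair1 M H O S ℓ).1 z = _
  rw [Tpair1, if_neg h]
  rfl

theorem Tp_of_mem {ℓ : Nat.Primes} (h : ℓ ∈ S) : Tp M H O S ℓ = 0 := Subtype.ext <| by
  show Tpair1 M H O S ℓ = 0
  rw [Tpair1, if_pos h]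

theorem diaP_incl (x : (ZMod M)ˣ ⧸ H) :
    incl M H O S (diaP M H O S x) = ⟨_, diaPair_mem M H O x⟩ :=
  Subtype.ext ((incl_val M H O S _).trans rfl)

theorem pair_snd_mem (x : pairAway M H O S) : x.1.2 ∈ heckeAlg M ⊤ O S := by
  obtain ⟨x, hx⟩ := x
  induction hx using Algebra.adjoin_induction with
  | mem y hy =>
    rcases hy with ⟨ℓ, rfl⟩ | ⟨g, rfl⟩
    · convert (Tgen M ⊤ O S ℓ).2 using 1
      show (Tpair1 M H O S ℓ).2 = Top1 M ⊤ O S ℓ
      rw [Tpair1, Top1]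
      split_ifs <;> rfl
    · exact one_mem _
  | algebraMap c => exact (heckeAlg M ⊤ O S).algebraMap_mem c
  | add a b _ _ ha hb => exact add_mem ha hb
  | mul a b _ _ ha hb => exact mul_mem ha hb

/-- Projection to level `Γ₀(M)`. -/
def sndHom : pairAway M H O S →ₐ[O] heckeAlg M ⊤ O S :=
  ((AlgHom.snd O (Module.End O (Hom1 (GamH M H) O)) (Module.End O (Hom1 (GamH M ⊤) O))).comp
    (pairAway M H O S).val).codRestrict (heckeAlg M ⊤ O S) (pair_snd_mem M H O S)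

theorem sndHom_val (x : pairAway M H O S) : (sndHom M H O S x).1 = x.1.2 := rfl

theorem sndHom_Tp (ℓ : Nat.Primes) : sndHom M H O S (Tp M H O S ℓ) = Tgen M ⊤ O S ℓ :=
  Subtype.ext <| by
    show (Tpair1 M H O S ℓ).2 = Top1 M ⊤ O S ℓ
    rw [Tpair1, Top1]
    split_ifs <;> rfl

theorem sndHom_diaP (x : (ZMod M)ˣ ⧸ H) : sndHom M H O S (diaP M H O S x) = 1 := rfl

theorem sndHom_surjective : Function.Surjective (sndHom M H O S) := by
  rintro ⟨x, hx⟩
  induction hx using Algebra.adjoin_induction with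
  | mem y hy =>
    obtain ⟨ℓ, rfl⟩ := hy
    exact ⟨Tp M H O S ℓ, sndHom_Tp M H O S ℓ⟩
  | algebraMap c => exact ⟨algebraMap O _ c, (sndHom M H O S).commutes c⟩
  | add a b _ _ ha hb =>
    obtain ⟨a, ha⟩ := ha; obtain ⟨b, hb⟩ := hb
    exact ⟨a + b, by rw [map_add, ha, hb]; rfl⟩
  | mul a b _ _ ha hb =>
    obtain ⟨a, ha⟩ := ha; obtain ⟨b, hb⟩ := hb
    exact ⟨a * b, by rw [map_mul, ha, hb]; rfl⟩

theorem pairAway_finite [IsNoetherianRing O] [Module.Finite O (pairAlg M H O)] :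
    Module.Finite O (pairAway M H O S) :=
  Module.Finite.of_injective (incl M H O S).toLinearMap
    (Subalgebra.inclusion_injective (pairAway_le M H O S))

end away

section self

theorem GamH_top_le_of_dvd {M N : ℕ} (h : N ∣ M) : GamH M ⊤ ≤ GamH N ⊤ := fun g hg => by
  rw [GamH_top] at hg ⊢
  rw [CongruenceSubgroup.Gamma0_mem, ZMod.intCast_zmod_eq_zero_iff_dvd] at hg ⊢
  exact (Int.natCast_dvd_natCast.2 h).trans hg

/-- Corestriction from a group to itself is the identity. -/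
theorem cores_self {Γ : Subgroup SL(2, ℤ)} [Finite (Γ ⧸ Γ.subgroupOf Γ)] {A : Type*}
    [AddCommGroup A] (z : Hom1 Γ A) : (Corr.cores (Γ := Γ) (Γ' := Γ)).act z = z := by
  classical
  have hs : Subsingleton (Γ ⧸ Γ.subgroupOf Γ) := by
    rw [Subgroup.subgroupOf_self]
    exact QuotientGroup.subsingleton_quotient_top
  let x₀ : Γ ⧸ Γ.subgroupOf Γ := QuotientGroup.mk 1
  refine AddMonoidHom.ext fun γ => ?_
  refine ((Corr.cores (Γ := Γ) (Γ' := Γ)).act_eq z γ.toMul 1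
    (fun _ => x₀.out⁻¹ * γ.toMul * x₀.out) (fun x => ?_)).trans ?_
  · show glQ ((x.out : Γ) : SL(2, ℤ))⁻¹ * glQ (γ.toMul : SL(2, ℤ)) =
      glQ ((x₀.out⁻¹ * γ.toMul * x₀.out : Γ) : SL(2, ℤ)) * glQ ((x.out : Γ) : SL(2, ℤ))⁻¹
    rw [hs.elim x x₀, ← map_mul, ← map_mul]
    congr 1
    simp
  · have hu : Unique (Γ ⧸ Γ.subgroupOf Γ) := ⟨⟨x₀⟩, fun x => hs.elim x x₀⟩
    letI : Unique (Corr.cores (Γ := Γ) (Γ' := Γ)).ι := hu
    refine (Fintype.sum_unique (ι := (Corr.cores (Γ := Γ) (Γ' := Γ)).ι) _).trans ?_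
    rw [hv_mul, hv_mul, hv_inv, neg_add_cancel_comm]
    rfl

end self

section iterate

variable {N : ℕ} [NeZero N] {O : Type} [CommRing O] [IsDomain O] [IsDiscreteValuationRing O]
  [IsAdicComplete (maximalIdeal O) O] [CharZero O] {S : Finset Nat.Primes}

/-- Operators upstairs pull back along an intertwiner. -/
theorem exists_pullback {M : ℕ} [NeZero M] (χ₀ : heckeAlg N ⊤ O S →ₐ[O] ResidueField O)
    (χ : heckeAlg M ⊤ O S →ₐ[O] ResidueField O) (Φ : Hom1 (GamH N ⊤) O →ₗ[O] Hom1 (GamH M ⊤) O)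
    (g : Nat.Primes → heckeAlg N ⊤ O S) (hg : ∀ ℓ z, (Tgen M ⊤ O S ℓ).1 (Φ z) = Φ ((g ℓ).1 z))
    (hχ : ∀ ℓ, χ (Tgen M ⊤ O S ℓ) = χ₀ (g ℓ)) (x : heckeAlg M ⊤ O S) :
    ∃ y : heckeAlg N ⊤ O S, χ₀ y = χ x ∧ ∀ z, x.1 (Φ z) = Φ (y.1 z) := by
  obtain ⟨p, rfl⟩ := heckePoly_surjective M ⊤ O S x
  refine ⟨MvPolynomial.aeval g p, ?_, ?_⟩
  · have h : χ₀.comp (MvPolynomial.aeval g) = χ.comp (heckePoly M ⊤ O S) :=
      MvPolynomial.algHom_ext fun ℓ => by simp [heckePoly, hχ]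
    exact AlgHom.congr_fun h p
  · induction p using MvPolynomial.induction_on with
    | C c =>
      intro z
      rw [heckePoly, MvPolynomial.aeval_C, MvPolynomial.aeval_C]
      exact (Φ.map_smul c z).symm
    | add p p' hp hp' =>
      intro z
      rw [map_add, map_add]
      show (heckePoly M ⊤ O S p).1 _ + (heckePoly M ⊤ O S p').1 _ = Φ (_ + _)
      rw [hp, hp', map_add]
    | mul_X p ℓ hp =>
      intro z
      rw [map_mul, map_mul]
      show (heckePoly M ⊤ O S p).1 ((heckePoly M ⊤ O S (.X ℓ)).1 _) =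
        Φ ((MvPolynomial.aeval g p).1 ((MvPolynomial.aeval g (.X ℓ)).1 z))
      rw [← hp, heckePoly, MvPolynomial.aeval_X, MvPolynomial.aeval_X, hg]

/-- The old piece, with the level written as `⊤`. -/
theorem exists_old_piece_top {M q : ℕ} [NeZero M] [Fact q.Prime] (hqM : ¬ q ∣ M)
    (hqS : qPrime q ∉ S) (H' : Subgroup (ZMod (M * q))ˣ) (hH' : H' = Hup M q ⊤)
    {χ₀ : heckeAlg M ⊤ O S →ₐ[O] ResidueField O} {e₀ : heckeAlg M ⊤ O S} (h₀ : IsPiece χ₀ e₀)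
    (α : O) (hroot : residue O α ^ 2 - χ₀ (Tgen M ⊤ O S (qPrime q)) * residue O α +
      (q : ResidueField O) = 0)
    (hsimple : 2 * residue O α - χ₀ (Tgen M ⊤ O S (qPrime q)) ≠ 0)
    (hq1 : (q : ResidueField O) = 1) [NeZero (M * q)] :
    ∃ (χ₁ : heckeAlg (M * q) H' O S →ₐ[O] ResidueField O)
      (e₁ : heckeAlg (M * q) H' O S) (a : heckeAlg M ⊤ O S)
      (Φ : Hom1 (GamH M ⊤) O →ₗ[O] Hom1 (GamH (M * q) H') O),
      IsPiece χ₁ e₁ ∧ χ₀ a = residue O α ∧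
      (∀ ℓ : Nat.Primes, (ℓ : ℕ) ≠ q → χ₁ (Tgen _ _ O S ℓ) = χ₀ (Tgen M ⊤ O S ℓ)) ∧
      χ₁ (Tgen _ _ O S (qPrime q)) = residue O α ∧
      (∀ z, Φ (e₀.1 z) = Φ z) ∧ (∀ z, e₁.1 (Φ z) = Φ z) ∧
      (∀ z, e₀.1 z = z → Φ z = 0 → z = 0) ∧
      (∀ w, e₁.1 w = w → ∃ z, e₀.1 z = z ∧ Φ z = w) ∧
      (∀ ℓ : Nat.Primes, (ℓ : ℕ) ≠ q → ∀ z,
        (Tgen (M * q) H' O S ℓ).1 (Φ z) = Φ ((Tgen M ⊤ O S ℓ).1 z)) ∧
      (∀ z, (Tgen (M * q) H' O S (qPrime q)).1 (Φ z) = Φ (a.1 z)) ∧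
      ∃ c : heckeAlg M ⊤ O S, χ₀ c ≠ 0 ∧
        ∀ z, (Corr.cores (Γ := GamH M ⊤)).act (Φ z) = c.1 (e₀.1 z) := by
  subst hH'
  exact exists_old_piece hqM (coprime_mem_top (Fact.out : q.Prime) hqM) hqS h₀ α hroot hsimple hq1

variable (χ₀ : heckeAlg N ⊤ O S →ₐ[O] ResidueField O) {e₀ : heckeAlg N ⊤ O S}

/-- **Iterated old pieces.** -/
theorem exists_old_pieces (h₀ : IsPiece χ₀ e₀) (α : Nat.Primes → O) (Q : Finset Nat.Primes)
    (hQ : ∀ q ∈ Q, ¬ (q : ℕ) ∣ N) (hQS : ∀ q ∈ Q, q ∉ S)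
    (hroot : ∀ q ∈ Q, residue O (α q) ^ 2 - χ₀ (Tgen N ⊤ O S q) * residue O (α q) +
      ((q : ℕ) : ResidueField O) = 0)
    (hsimple : ∀ q ∈ Q, 2 * residue O (α q) - χ₀ (Tgen N ⊤ O S q) ≠ 0)
    (hq1 : ∀ q ∈ Q, ((q : ℕ) : ResidueField O) = 1)
    (M : ℕ) [NeZero M] (hM : M = N * ∏ q ∈ Q, (q : ℕ)) :
    ∃ (χ : heckeAlg M ⊤ O S →ₐ[O] ResidueField O) (e : heckeAlg M ⊤ O S)
      (g : Nat.Primes → heckeAlg N ⊤ O S)
      (Φ : Hom1 (GamH N ⊤) O →ₗ[O] Hom1 (GamH M ⊤) O),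
      IsPiece χ e ∧ (∀ ℓ, ℓ ∉ Q → g ℓ = Tgen N ⊤ O S ℓ) ∧
      (∀ q ∈ Q, χ₀ (g q) = residue O (α q)) ∧ (∀ ℓ, χ (Tgen M ⊤ O S ℓ) = χ₀ (g ℓ)) ∧
      (∀ ℓ z, (Tgen M ⊤ O S ℓ).1 (Φ z) = Φ ((g ℓ).1 z)) ∧
      (∀ z, Φ (e₀.1 z) = Φ z) ∧ (∀ z, e.1 (Φ z) = Φ z) ∧
      (∀ z, e₀.1 z = z → Φ z = 0 → z = 0) ∧
      (∀ w, e.1 w = w → ∃ z, e₀.1 z = z ∧ Φ z = w) ∧
      ∃ c : heckeAlg N ⊤ O S, χ₀ c ≠ 0 ∧
        ∀ z, (Corr.cores (Γ := GamH N ⊤)).act (Φ z) = c.1 (e₀.1 z) := by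
  classical
  induction Q using Finset.induction_on generalizing M with
  | empty =>
    obtain rfl : M = N := by simpa using hM
    have hee : ∀ z, e₀.1 (e₀.1 z) = e₀.1 z := fun z =>
      LinearMap.congr_fun (congrArg Subtype.val h₀.idem.eq) z
    refine ⟨χ₀, e₀, Tgen M ⊤ O S, e₀.1, h₀, fun _ _ => rfl,
      fun q hq => absurd hq (Finset.notMem_empty q), fun _ => rfl, fun ℓ z => ?_, hee, hee,
      fun z hz h => hz ▸ h, fun w hw => ⟨w, hw, hw⟩, 1, by simp, fun z => ?_⟩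
    swap
    · rw [cores_self]; rfl
    exact LinearMap.congr_fun (setLike_mul_comm (Tgen M ⊤ O S ℓ).2 e₀.2) z
  | @insert q Q hqQ ih =>
    obtain rfl : M = N * (∏ r ∈ Q, (r : ℕ)) * (q : ℕ) := by
      rw [hM, Finset.prod_insert hqQ]; ring
    set M' := N * ∏ r ∈ Q, (r : ℕ) with hM'
    have : NeZero M' := ⟨left_ne_zero_of_mul (NeZero.ne (M' * (q : ℕ)))⟩
    obtain ⟨χ', e', g', Φ', he', hg'T, hg'α, hχ', hint', hΦ'e, he'Φ, hinj', hsurj', c', hc',
      hcores'⟩ :=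
      ih (fun r hr => hQ r (Finset.mem_insert_of_mem hr))
        (fun r hr => hQS r (Finset.mem_insert_of_mem hr))
        (fun r hr => hroot r (Finset.mem_insert_of_mem hr))
        (fun r hr => hsimple r (Finset.mem_insert_of_mem hr))
        (fun r hr => hq1 r (Finset.mem_insert_of_mem hr)) M' rfl
    have hqM' : ¬ (q : ℕ) ∣ M' := fun h => by
      rcases (Nat.Prime.dvd_mul q.2).1 h with h | h
      · exact hQ q (Finset.mem_insert_self q Q) h
      · obtain ⟨r, hr, hd⟩ := (Prime.dvd_finsetProd_iff q.2.prime _).1 h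
        exact hqQ (by rwa [show q = r from Subtype.ext ((Nat.prime_dvd_prime_iff_eq q.2 r.2).1 hd)])
    have hTq : χ' (Tgen M' ⊤ O S (qPrime (q : ℕ))) = χ₀ (Tgen N ⊤ O S q) := by
      rw [show qPrime (q : ℕ) = q from rfl, hχ', hg'T q hqQ]
    obtain ⟨χ, e, a, Ψ, he, hχa, hχT, hχU, hΨe, heΨ, hinj, hsurj, hΨT, hΨU, c₁, hc₁, hcores⟩ :=
      exists_old_piece_top (M := M') hqM' (hQS q (Finset.mem_insert_self q Q)) ⊤ (by simp [Hup])
        he' (α q)
        (by rw [hTq]; exact hroot q (Finset.mem_insert_self q Q))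
        (by rw [hTq]; exact hsimple q (Finset.mem_insert_self q Q))
        (hq1 q (Finset.mem_insert_self q Q))
    obtain ⟨a₀, ha₀, haint⟩ := exists_pullback χ₀ χ' Φ' g' hint' hχ' a
    refine ⟨χ, e, fun ℓ => if ℓ = q then a₀ else g' ℓ, Ψ.comp Φ', he, fun ℓ hℓ => ?_,
      fun r hr => ?_, fun ℓ => ?_, fun ℓ z => ?_, fun z => congrArg Ψ (hΦ'e z),
      fun z => heΨ _, fun z hz h => hinj' z hz (hinj _ (he'Φ z) h), fun w hw => ?_, ?_⟩
    · dsimp only
      rw [Finset.mem_insert, not_or] at hℓ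
      rw [if_neg hℓ.1, hg'T ℓ hℓ.2]
    · dsimp only
      rcases Finset.mem_insert.1 hr with rfl | hrQ
      · rw [if_pos rfl, ha₀, hχa]
      · rw [if_neg (by rintro rfl; exact hqQ hrQ), hg'α r hrQ]
    · dsimp only
      split_ifs with h
      · subst h; rw [ha₀, hχa]; exact hχU
      · rw [hχT ℓ (fun h' => h (Subtype.ext h')), hχ']
    · dsimp only
      split_ifs with h
      · subst h
        exact (hΨU (Φ' z)).trans (congrArg Ψ (haint z))
      · exact (hΨT ℓ (fun h' => h (Subtype.ext h')) (Φ' z)).trans (congrArg Ψ (hint' ℓ z))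
    · obtain ⟨v, hv, rfl⟩ := hsurj w hw
      obtain ⟨z, hz, rfl⟩ := hsurj' v hv
      exact ⟨z, hz, rfl⟩
    · obtain ⟨y, hy, hyint⟩ := exists_pullback χ₀ χ' Φ' g' hint' hχ' c₁
      refine ⟨c' * y, by rw [map_mul, hy]; exact mul_ne_zero hc' hc₁, fun z => ?_⟩
      show (Corr.cores (Γ := GamH N ⊤)).act (Ψ (Φ' z)) = c'.1 (y.1 (e₀.1 z))
      rw [← cores_trans (GamH_top_le_of_dvd (dvd_mul_right N _)) (GamH_top_le_of_dvd (dvd_mul_right M' _)),
        hcores, he'Φ, hyint, hcores']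
      exact congrArg c'.1 (LinearMap.congr_fun (setLike_mul_comm e₀.2 y.2) z)

end iterate

section change

variable {M : ℕ} [NeZero M] {H : Subgroup (ZMod M)ˣ} {O : Type} [CommRing O] [IsDomain O]
  [IsDiscreteValuationRing O] [IsAdicComplete (maximalIdeal O) O] [CharZero O]
  [Finite (GamH M ⊤ ⧸ (GamH M H).subgroupOf (GamH M ⊤))] [Fintype ((ZMod M)ˣ ⧸ H)]
  {e : pairAlg M H O}

/-- Prescribing the basis at level `Γ₀(M)`. -/
theorem FreeData.exists_change (D : FreeData M H O e) (hL : GoodLevel M H O)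
    (he : IsIdempotentElem e) {d : ℕ} (w : Fin d → Hom1 (GamH M ⊤) O)
    (hw : ∀ i, e.1.2 (w i) = w i) (hwli : LinearIndependent O w)
    (hwsp : ∀ v, e.1.2 v = v → ∃ c : Fin d → O, ∑ i, c i • w i = v) :
    ∃ D' : FreeData M H O e, ∃ h : D'.d = d, ∀ i : Fin D'.d, D'.bu i = w (Fin.cast h i) := by
  classical
  choose C hC using fun j => D.bu_span hL (hw j) he
  choose C' hC' using fun i => hwsp (D.bu i) (D.e_bu i)
  let u' : Fin d → Hom1 (GamH M H) O := fun j => ∑ i, C j i • D.u i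
  have hbu : ∀ j, (Corr.cores (Γ := GamH M ⊤)).act (u' j) = w j := fun j => by
    simp only [u', map_sum, Corr.act_smul, ← hC j]
    rfl
  have h1 : ∀ j k, ∑ i, C j i * C' i k = if j = k then 1 else 0 := fun j k => by
    have e1 : ∑ k, (∑ i, C j i * C' i k) • w k = w j := by
      simp only [Finset.sum_smul, mul_smul]
      rw [Finset.sum_comm]
      simp only [← Finset.smul_sum, hC', hC]
    have h0 : ∑ k, ((∑ i, C j i * C' i k) - if j = k then 1 else 0) • w k = 0 := by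
      simp only [sub_smul, Finset.sum_sub_distrib, e1, ite_smul, one_smul, zero_smul,
        Finset.sum_ite_eq, Finset.mem_univ, if_true, sub_self]
    exact sub_eq_zero.1 (Fintype.linearIndependent_iff.1 hwli _ h0 k)
  have h2 : ∀ i l, ∑ k, C' i k * C k l = if i = l then 1 else 0 := fun i l => by
    have e1 : ∑ l, (∑ k, C' i k * C k l) • D.bu l = D.bu i := by
      simp only [Finset.sum_smul, mul_smul]
      rw [Finset.sum_comm]
      simp only [← Finset.smul_sum, hC, hC']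
    have h0 : ∑ l, ((∑ k, C' i k * C k l) - if i = l then 1 else 0) • D.bu l = 0 := by
      simp only [sub_smul, Finset.sum_sub_distrib, e1, ite_smul, one_smul, zero_smul,
        Finset.sum_ite_eq, Finset.mem_univ, if_true, sub_self]
    exact sub_eq_zero.1 (Fintype.linearIndependent_iff.1 D.bu_linearIndependent _ h0 l)
  have hcombo : ∀ a : Fin d → MonoidAlgebra O ((ZMod M)ˣ ⧸ H),
      combo (diaHom M H O) u' a = combo (diaHom M H O) D.u fun i => ∑ j, C j i • a j := by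
    intro a
    simp only [combo_apply, u', map_sum, map_smul, LinearMap.sum_apply, LinearMap.smul_apply]
    exact Finset.sum_comm
  refine ⟨⟨d, u', fun j => ?_, fun a b hab => ?_, fun v hv => ?_⟩, rfl, hbu⟩
  · simp only [u', map_sum, map_smul, D.e_u]
  · rw [hcombo, hcombo] at hab
    have h := D.inj hab
    funext k
    have e1 : ∀ a : Fin d → MonoidAlgebra O ((ZMod M)ˣ ⧸ H),
        ∑ i, C' i k • ∑ j, C j i • a j = a k := fun a => by
      simp only [Finset.smul_sum, smul_smul]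
      rw [Finset.sum_comm]
      simp only [← Finset.sum_smul, mul_comm (C' _ _), h1, ite_smul, one_smul, zero_smul,
        Finset.sum_ite_eq', Finset.mem_univ, if_true]
    rw [← e1 a, ← e1 b]
    exact Finset.sum_congr rfl fun i _ => congrArg (C' i k • ·) (congrFun h i)
  · obtain ⟨b, hb⟩ := D.span v hv
    refine ⟨fun j => ∑ i, C' i j • b i, ?_⟩
    rw [hcombo, ← hb]
    congr 1
    funext l
    simp only [Finset.smul_sum, smul_smul]
    rw [Finset.sum_comm]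
    simp only [← Finset.sum_smul, mul_comm (C _ _), h2, ite_smul, one_smul, zero_smul,
      Finset.sum_ite_eq', Finset.mem_univ, if_true]

end change

section main

variable {N : ℕ} [NeZero N] {O : Type} [CommRing O] [IsDomain O] [IsDiscreteValuationRing O]
  [IsAdicComplete (maximalIdeal O) O] [CharZero O] {S : Finset Nat.Primes}
  {χ₀ : heckeAlg N ⊤ O S →ₐ[O] ResidueField O} {e₀ : heckeAlg N ⊤ O S}

/-- The representation at a Taylor-Wiles level, with its base. -/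
structure TWAct (χ₀ : heckeAlg N ⊤ O S →ₐ[O] ResidueField O) (Q : Finset Nat.Primes)
    (α : Nat.Primes → O) (M : ℕ) [NeZero M] (H : Subgroup (ZMod M)ˣ)
    [Finite (GamH M ⊤ ⧸ (GamH M H).subgroupOf (GamH M ⊤))] [Fintype ((ZMod M)ˣ ⧸ H)] {d : ℕ}
    (b : Fin d → Hom1 (GamH N ⊤) O) where
  /-- the character of the piece -/
  χ : pairAway M H O S →ₐ[O] ResidueField O
  /-- the idempotent -/
  e : pairAway M H O S
  piece : IsPiece χ e
  χ_T : ∀ ℓ, ℓ ∉ Q → χ (Tp M H O S ℓ) = χ₀ (Tgen N ⊤ O S ℓ)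
  χ_U : ∀ q ∈ Q, χ (Tp M H O S q) = residue O (α q)
  χ_dia : ∀ g, χ (diaP M H O S g) = 1
  /-- the free basis -/
  D : FreeData M H O (incl M H O S e)
  d_eq : D.d = d
  /-- corestriction to level `N` gives the prescribed basis -/
  cores_u : ∀ j : Fin D.d,
    (Corr.cores (Γ := GamH N ⊤)).act (D.u j) = b (Fin.cast d_eq j)
  /-- the images at level `N` of the operators -/
  base : Nat.Primes → heckeAlg N ⊤ O S
  base_T : ∀ ℓ, ℓ ∉ Q → base ℓ = Tgen N ⊤ O S ℓ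
  base_U : ∀ q ∈ Q, χ₀ (base q) = residue O (α q)
  act0_T : ∀ ℓ (j : Fin D.d), (base ℓ).1 (b (Fin.cast d_eq j)) =
    ∑ i, D.act0 (incl M H O S (Tp M H O S ℓ)) i j • b (Fin.cast d_eq i)

/-- **Taylor-Wiles levels.** -/
theorem exists_twAct {p : ℕ} [Fact p.Prime] [CharP (ResidueField O) p] (h₀ : IsPiece χ₀ e₀)
    {d : ℕ} (b : Fin d → Hom1 (GamH N ⊤) O) (hb : ∀ i, e₀.1 (b i) = b i)
    (hbli : LinearIndependent O b)
    (hbsp : ∀ v, e₀.1 v = v → ∃ c : Fin d → O, ∑ i, c i • b i = v)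
    (hNE : ∀ L : ℕ, L ≠ 0 → ∃ ℓ : Nat.Primes,
      ¬ (ℓ : ℕ) ∣ L ∧ χ₀ (Tgen N ⊤ O S ℓ) ≠ ((ℓ : ℕ) : ResidueField O) + 1)
    (α : Nat.Primes → O) (Q : Finset Nat.Primes) (hQ : ∀ q ∈ Q, ¬ (q : ℕ) ∣ N)
    (hQS : ∀ q ∈ Q, q ∉ S)
    (hroot : ∀ q ∈ Q, residue O (α q) ^ 2 - χ₀ (Tgen N ⊤ O S q) * residue O (α q) +
      ((q : ℕ) : ResidueField O) = 0)
    (hsimple : ∀ q ∈ Q, 2 * residue O (α q) - χ₀ (Tgen N ⊤ O S q) ≠ 0)
    (hq1 : ∀ q ∈ Q, ((q : ℕ) : ResidueField O) = 1)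
    (M : ℕ) [NeZero M] (hM : M = N * ∏ q ∈ Q, (q : ℕ)) (H : Subgroup (ZMod M)ˣ)
    (hL : GoodLevel M H O) [Finite (GamH M ⊤ ⧸ (GamH M H).subgroupOf (GamH M ⊤))]
    [Fintype ((ZMod M)ˣ ⧸ H)] (hG : IsPGroup p ((ZMod M)ˣ ⧸ H)) :
    Nonempty (TWAct χ₀ Q α M H b) := by
  classical
  obtain ⟨χt, et, g, Φ, het, hgT, hgα, hχ, hint, hΦe, heΦ, hinj, hsurj, c, hc, hcores⟩ :=
    exists_old_pieces χ₀ h₀ α Q hQ hQS hroot hsimple hq1 M hM
  have := pairAlg_finite (M := M) (H := H) (O := O)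
  have := pairAway_finite M H O S
  let χ : pairAway M H O S →ₐ[O] ResidueField O := χt.comp (sndHom M H O S)
  obtain ⟨e, he⟩ := exists_piece χ
  have hetop : sndHom M H O S e = et := (he.map (sndHom_surjective M H O S)).unique het
  have he2 : ∀ v, (incl M H O S e).1.2 v = et.1 v := fun v => by
    rw [incl_val, ← sndHom_val, hetop]
  -- the non-Eisenstein prime
  obtain ⟨ℓ, hℓL, hℓ⟩ := hNE (M * ∏ r ∈ S, (r : ℕ))
    (mul_ne_zero (NeZero.ne M) (Finset.prod_ne_zero_iff.2 fun r _ => r.2.ne_zero))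
  have hℓM : ¬ (ℓ : ℕ) ∣ M := fun h => hℓL (h.mul_right _)
  have hℓS : ℓ ∉ S := fun h => hℓL ((Finset.dvd_prod_of_mem _ h).mul_left M)
  have hℓQ : ℓ ∉ Q := fun h => hℓM (hM ▸ (Finset.dvd_prod_of_mem _ h).mul_left N)
  obtain ⟨s, hs⟩ := he.inv (Tp M H O S ℓ - ((ℓ : ℕ) + 1 : ℕ)) (by
    rw [map_sub, map_natCast, sub_ne_zero, show χ (Tp M H O S ℓ) = χt (sndHom M H O S _) from rfl,
      sndHom_Tp, hχ, hgT ℓ hℓQ, Nat.cast_add, Nat.cast_one]
    exact hℓ)
  have hs' : incl M H O S s * (⟨_, Tpair_mem M H O ℓ⟩ - ((ℓ : ℕ) + 1 : ℕ)) * incl M H O S e =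
      incl M H O S e := by
    have h := congrArg (incl M H O S) hs
    rwa [map_mul, map_mul, map_sub, map_natCast, Tp_incl M H O S hℓS] at h
  obtain ⟨D₀⟩ := exists_freeData (p := p) hL hG (he.idem.map (incl M H O S)) hℓM hs'
  -- the basis at level `Γ₀(M)`
  obtain ⟨sc, hsc⟩ := h₀.inv c hc
  have comm : ∀ (x y : heckeAlg N ⊤ O S) (v : Hom1 (GamH N ⊤) O), x.1 (y.1 v) = y.1 (x.1 v) :=
    fun x y v => LinearMap.congr_fun (setLike_mul_comm x.2 y.2) v
  have hscv : ∀ v, e₀.1 v = v → sc.1 (c.1 v) = v := fun v hv => by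
    have h := LinearMap.congr_fun (congrArg Subtype.val hsc) v
    show sc.1 (c.1 v) = v
    calc sc.1 (c.1 v) = sc.1 (c.1 (e₀.1 v)) := by rw [hv]
      _ = v := h.trans hv
  have hb' : ∀ i, e₀.1 (sc.1 (b i)) = sc.1 (b i) := fun i => by rw [comm, hb]
  have hwli : LinearIndependent O fun i => Φ (sc.1 (b i)) := by
    rw [Fintype.linearIndependent_iff]
    intro a ha
    have h0 : sc.1 (∑ i, a i • b i) = 0 := by
      refine hinj _ ?_ ?_
      · simp only [map_sum, map_smul, hb']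
      · simpa only [map_sum, map_smul] using ha
    refine Fintype.linearIndependent_iff.1 hbli a ?_
    have hfix : e₀.1 (∑ i, a i • b i) = ∑ i, a i • b i := by simp only [map_sum, map_smul, hb]
    rw [← hscv _ hfix, comm sc c, h0, map_zero]
  obtain ⟨D, hd, hD⟩ := D₀.exists_change hL (he.idem.map (incl M H O S))
    (fun i => Φ (sc.1 (b i)))
    (fun i => by rw [he2, heΦ]) hwli (fun v hv => by
      rw [he2] at hv
      obtain ⟨z, hz, rfl⟩ := hsurj v hv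
      obtain ⟨a, ha⟩ := hbsp (c.1 z) (by rw [comm, hz])
      refine ⟨a, ?_⟩
      rw [← hscv z hz, ← ha]
      simp only [map_sum, map_smul])
  refine ⟨⟨χ, e, he, fun ℓ hℓ => ?_, fun q hq => ?_, fun x => ?_, D, hd, fun j => ?_, g, hgT,
    hgα, fun ℓ j => ?_⟩⟩
  · show χt (sndHom M H O S _) = _
    rw [sndHom_Tp, hχ, hgT ℓ hℓ]
  · show χt (sndHom M H O S _) = _
    rw [sndHom_Tp, hχ, hgα q hq]
  · show χt (sndHom M H O S _) = 1
    rw [sndHom_diaP, map_one]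
  · rw [← cores_trans (GamH_top_le_of_dvd (hM ▸ dvd_mul_right N _)) GamH_le_top]
    show (Corr.cores (Γ := GamH N ⊤)).act (D.bu j) = _
    rw [hD, hcores, hb', comm c sc, hscv _ (hb _)]
  · have h := D.pair_bu (incl M H O S (Tp M H O S ℓ)) j
    have h2 : (incl M H O S (Tp M H O S ℓ)).1.2 = (Tgen M ⊤ O S ℓ).1 := by
      rw [incl_val M H O S (Tp M H O S ℓ), ← sndHom_Tp M H O S ℓ]
      exact (sndHom_val M H O S (Tp M H O S ℓ)).symm
    rw [h2] at h
    simp only [hD, hint] at h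
    have h0 : sc.1 ((g ℓ).1 (b (Fin.cast hd j)) -
        ∑ i, D.act0 (incl M H O S (Tp M H O S ℓ)) i j • b (Fin.cast hd i)) = 0 := by
      refine hinj _ ?_ ?_
      · simp only [map_sub, map_sum, map_smul, hb', comm sc (g ℓ), comm e₀ (g ℓ)]
      · rw [map_sub, map_sub, comm sc (g ℓ), sub_eq_zero]
        exact h.trans (by simp only [map_sum, map_smul])
    rw [← sub_eq_zero, ← hscv ((g ℓ).1 (b (Fin.cast hd j)) -
      ∑ i, D.act0 (incl M H O S (Tp M H O S ℓ)) i j • b (Fin.cast hd i))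
      (by simp only [map_sub, map_sum, map_smul, hb, comm e₀ (g ℓ)]), comm sc c, h0, map_zero]

end main

end FA.HeckeH1

end
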