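import Fermat.Agent.HeckeH1.Adjoint
import Fermat.Agent.HeckeH1.Delta

/-!
Scalars, sums of correspondences, double coset description of the Hecke correspondences and
their transposition for the pairing.
-/

set_option autoImplicit false

noncomputable section

namespace FA.HeckeH1

open Matrix CongruenceSubgroup
open scoped MatrixGroups

section generalities

variable {Γ Γ' : Subgroup SL(2, ℤ)} {A : Type*} [AddCommGroup A]

theorem scal_comm (c : ℚˣ) (g : GL (Fin 2) ℚ) :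
    Matrix.GeneralLinearGroup.scalar (Fin 2) c * g = g * Matrix.GeneralLinearGroup.scalar (Fin 2) c := by
  apply Units.ext
  rw [Units.val_mul, Units.val_mul]
  exact ((Matrix.scalar_commute (c : ℚ) (fun _ => mul_comm _ _) g.1)).eq

theorem scal_smul (c : ℚˣ) (x : P1) : Matrix.GeneralLinearGroup.scalar (Fin 2) c • x = x :=
  scalar_smul c.ne_zero (by
    ext i j
    fin_cases i <;> fin_cases j <;> simp [Matrix.GeneralLinearGroup.scalar]) x

/-- Multiplication of all matrices by a scalar. -/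
def Corr.scale (c : ℚˣ) (C : Corr Γ Γ') : Corr Γ Γ' where
  ι := C.ι
  α i := Matrix.GeneralLinearGroup.scalar (Fin 2) c * C.α i
  exists_perm γ := ⟨C.perm γ, fun i => ⟨C.fac γ i, by
    rw [mul_assoc, C.fac_spec, ← mul_assoc, scal_comm, mul_assoc]⟩⟩

theorem Corr.scale_act (c : ℚˣ) (C : Corr Γ Γ') (z : Hom1 Γ A) : (C.scale c).act z = C.act z := by
  apply AddMonoidHom.ext
  intro γ
  show hv ((C.scale c).act z) γ.toMul = hv (C.act z) γ.toMul
  rw [(C.scale c).act_eq z γ.toMul (C.perm γ.toMul) (C.fac γ.toMul) (fun i => by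
    show _ * C.α i * _ = _ * (_ * C.α _)
    rw [mul_assoc, C.fac_spec, ← mul_assoc, scal_comm, mul_assoc]
    rfl)]
  rfl

theorem Corr.scale_symb (c : ℚˣ) (C : Corr Γ Γ') (φ : Symb Γ A) :
    (C.scale c).symb φ = C.symb φ := by
  apply Subtype.ext
  funext a b
  simp only [Corr.symb_apply]
  refine Finset.sum_congr rfl fun i _ => ?_
  simp [Corr.scale, mul_smul, scal_smul]

theorem Corr.Same.assoc_res {Γ'' Δ Δ' : Subgroup SL(2, ℤ)} (hle : Δ ≤ Γ) {α : GL (Fin 2) ℚ}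
    {hα : ∀ γ ∈ Δ', ∃ δ ∈ Δ, α * glQ γ = glQ δ * α}
    {hβ : ∀ γ ∈ Δ', ∃ δ ∈ Γ, α * glQ γ = glQ δ * α} {D : Corr Δ' Γ''} {R : Corr Γ Γ''}
    (h : ((Corr.single α hβ).comp D).Same R) :
    (((Corr.res hle).comp (Corr.single α hα)).comp D).Same R := by
  obtain ⟨e, he⟩ := h
  refine ⟨((Equiv.punitProd PUnit).prodCongr (Equiv.refl _)).trans e, fun x => ?_⟩
  obtain ⟨m, hm⟩ := he (x.1.2, x.2)
  refine ⟨m, ?_⟩
  show (1 : GL (Fin 2) ℚ) * α * D.α x.2 = _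
  rw [one_mul]
  exact hm

theorem Corr.Same.assoc_res_scale {Γ'' Δ Δ' : Subgroup SL(2, ℤ)} (hle : Δ ≤ Γ) (c : ℚˣ)
    {α β : GL (Fin 2) ℚ} (hc : Matrix.GeneralLinearGroup.scalar (Fin 2) c * α = β)
    {hα : ∀ γ ∈ Δ', ∃ δ ∈ Δ, α * glQ γ = glQ δ * α}
    {hβ : ∀ γ ∈ Δ', ∃ δ ∈ Γ, β * glQ γ = glQ δ * β} {D : Corr Δ' Γ''} {R : Corr Γ Γ''}
    (h : ((Corr.single β hβ).comp D).Same R) :
    ((((Corr.res hle).comp (Corr.single α hα)).comp D).scale c).Same R := by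
  obtain ⟨e, he⟩ := h
  refine ⟨((Equiv.punitProd PUnit).prodCongr (Equiv.refl _)).trans e, fun x => ?_⟩
  obtain ⟨m, hm⟩ := he (x.1.2, x.2)
  refine ⟨m, ?_⟩
  show Matrix.GeneralLinearGroup.scalar (Fin 2) c * (1 * α * D.α x.2) = _
  rw [one_mul, ← mul_assoc, hc]
  exact hm

/-- Sum of two correspondences. -/
def Corr.add (C D : Corr Γ Γ') : Corr Γ Γ' where
  ι := C.ι ⊕ D.ι
  α := Sum.elim C.α D.α
  exists_perm γ := ⟨Equiv.sumCongr (C.perm γ) (D.perm γ), fun x => by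
    cases x with
    | inl i => exact ⟨C.fac γ i, C.fac_spec γ i⟩
    | inr i => exact ⟨D.fac γ i, D.fac_spec γ i⟩⟩

theorem Corr.add_act (C D : Corr Γ Γ') (z : Hom1 Γ A) :
    (C.add D).act z = C.act z + D.act z := by
  apply AddMonoidHom.ext
  intro γ
  show hv ((C.add D).act z) γ.toMul = hv (C.act z) γ.toMul + hv (D.act z) γ.toMul
  rw [(C.add D).act_eq z γ.toMul (Equiv.sumCongr (C.perm γ.toMul) (D.perm γ.toMul))
    (Sum.elim (C.fac γ.toMul) (D.fac γ.toMul)) (fun x => by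
      cases x with
      | inl i => exact C.fac_spec γ.toMul i
      | inr i => exact D.fac_spec γ.toMul i)]
  exact Fintype.sum_sum_type _

/-- A single matrix followed by a corestriction, in terms of any system of representatives. -/
theorem same_double {Γ₁ Γ₂ : Subgroup SL(2, ℤ)} (h₂ : Γ' ≤ Γ₂)
    [Finite (Γ₂ ⧸ Γ'.subgroupOf Γ₂)] (β : GL (Fin 2) ℚ)
    (hβ : ∀ γ ∈ Γ', ∃ h ∈ Γ₁, β * glQ γ = glQ h * β) (R : Corr Γ₁ Γ₂)
    (cover : ∀ γ ∈ Γ₂, ∃ i, ∃ h ∈ Γ₁, β * glQ γ = glQ h * R.α i)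
    (surj : ∀ i, ∃ γ ∈ Γ₂, ∃ h ∈ Γ₁, β * glQ γ = glQ h * R.α i)
    (stab : ∀ γ ∈ Γ₂, ∀ h ∈ Γ₁, β * glQ γ = glQ h * β → γ ∈ Γ')
    (inj : ∀ i k, (∃ h ∈ Γ₁, R.α i = glQ h * R.α k) → i = k) :
    ((Corr.single β hβ).comp (Corr.cores (Γ := Γ₂) (Γ' := Γ'))).Same R := by
  letI : Fintype (Γ₂ ⧸ Γ'.subgroupOf Γ₂) := Fintype.ofFinite _
  choose e m hm he using fun y : Γ₂ ⧸ Γ'.subgroupOf Γ₂ =>
    cover ((y.out : Γ₂) : SL(2, ℤ))⁻¹ (inv_mem (y.out : Γ₂).2)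
  have hbij : Function.Bijective e := by
    constructor
    · intro y y' hyy
      have h1 : β * glQ (((y.out : Γ₂) : SL(2, ℤ))⁻¹ * ((y'.out : Γ₂) : SL(2, ℤ))) =
          glQ (m y * (m y')⁻¹) * β := by
        have e' := he y'
        rw [← hyy, map_inv, mul_inv_eq_iff_eq_mul] at e'
        rw [map_mul, ← mul_assoc, he y, map_mul, map_inv]
        conv_rhs => rw [e']
        group
      have h3 := stab _ (mul_mem (inv_mem (y.out : Γ₂).2) (y'.out : Γ₂).2) _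
        (mul_mem (hm y) (inv_mem (hm y'))) h1
      rw [← QuotientGroup.out_eq' y, ← QuotientGroup.out_eq' y', QuotientGroup.eq,
        Subgroup.mem_subgroupOf]
      simpa using h3
    · intro i
      obtain ⟨γ, hγ, h, hh, hi⟩ := surj i
      refine ⟨QuotientGroup.mk (⟨γ, hγ⟩⁻¹ : Γ₂), inj _ _ ?_⟩
      obtain ⟨⟨d, hd⟩, hout⟩ := QuotientGroup.mk_out_eq_mul (Γ'.subgroupOf Γ₂) (⟨γ, hγ⟩⁻¹ : Γ₂)
      have e1 := he (QuotientGroup.mk (⟨γ, hγ⟩⁻¹ : Γ₂))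
      rw [hout] at e1
      obtain ⟨b, hb, hbe⟩ := hβ _ (inv_mem (Subgroup.mem_subgroupOf.1 hd))
      simp only [Subgroup.coe_mul, Subgroup.coe_inv, _root_.mul_inv_rev, inv_inv, map_mul] at e1
      rw [← mul_assoc, hbe, mul_assoc, hi] at e1
      refine ⟨(m (QuotientGroup.mk (⟨γ, hγ⟩⁻¹ : Γ₂)))⁻¹ * b * h,
        mul_mem (mul_mem (inv_mem (hm _)) hb) hh, ?_⟩
      rw [map_mul, map_mul, mul_assoc, mul_assoc, e1, map_inv, inv_mul_cancel_left]
  exact ⟨(Equiv.punitProd _).trans (Equiv.ofBijective e hbij), fun x =>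
    ⟨⟨m x.2, hm x.2⟩, he x.2⟩⟩

end generalities

section groups

/-- The subgroup of matrices with upper right entry divisible by `n`. -/
def upGam (n : ℕ) : Subgroup SL(2, ℤ) where
  carrier := {g | (n : ℤ) ∣ g.1 0 1}
  one_mem' := by simp
  mul_mem' {a b} ha hb := by
    show (n : ℤ) ∣ (a * b : SL(2, ℤ)).1 0 1
    rw [Matrix.SpecialLinearGroup.coe_mul, Matrix.mul_apply, Fin.sum_univ_two]
    exact dvd_add (hb.mul_left _) (ha.mul_right _)
  inv_mem' {a} ha := by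
    show (n : ℤ) ∣ (a⁻¹ : SL(2, ℤ)).1 0 1
    rw [Matrix.SpecialLinearGroup.coe_inv, adjugate_fin_two]
    simpa using ha

theorem mem_upGam {n : ℕ} {g : SL(2, ℤ)} : g ∈ upGam n ↔ (n : ℤ) ∣ g.1 0 1 := Iff.rfl

instance upGam.finiteIndex (n : ℕ) [NeZero n] : (upGam n).FiniteIndex :=
  Subgroup.finiteIndex_of_le (H := Gamma n) fun g hg => by
    rw [Gamma_mem] at hg
    exact (ZMod.intCast_zmod_eq_zero_iff_dvd _ _).1 hg.2.1

variable {M : ℕ} {H : Subgroup (ZMod M)ˣ}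

theorem conj_mem_GamH {g h : SL(2, ℤ)} (hg : g ∈ Gamma0 M) (hh : h ∈ GamH M H) :
    g * h * g⁻¹ ∈ GamH M H := by
  rw [← GamH_top, mem_GamH] at hg
  obtain ⟨hd, hc, u, hu, hua⟩ := hh
  have hgi : g⁻¹ ∈ GamH M (⊤ : Subgroup (ZMod M)ˣ) := inv_mem (mem_GamH.2 hg)
  have hh' : h ∈ GamH M (⊤ : Subgroup (ZMod M)ˣ) := ⟨hd, hc, u, trivial, hua⟩
  have htop := mem_GamH.1 (mul_mem (mul_mem (mem_GamH.2 hg) hh') hgi)
  refine ⟨(g * h * g⁻¹ : SL(2, ℤ)).2, htop.2.1, u, hu, ?_⟩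
  have z10 : ∀ k : SL(2, ℤ), k ∈ GamH M (⊤ : Subgroup (ZMod M)ˣ) → (k.1 1 0 : ZMod M) = 0 :=
    fun k hk => (ZMod.intCast_zmod_eq_zero_iff_dvd _ _).2 hk.2.1
  have h1 : (g.1 0 0 : ZMod M) * ((g⁻¹ : SL(2, ℤ)).1 0 0 : ZMod M) = 1 := by
    have := congrArg (fun k : SL(2, ℤ) => (k.1 0 0 : ZMod M)) (mul_inv_cancel g)
    simp only [Matrix.SpecialLinearGroup.coe_mul, Matrix.mul_apply, Fin.sum_univ_two, Int.cast_add,
      Int.cast_mul, z10 _ hgi, mul_zero, add_zero, Matrix.SpecialLinearGroup.coe_one,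
      Matrix.one_apply_eq, Int.cast_one] at this
    exact this
  rw [hua]
  simp only [Matrix.SpecialLinearGroup.coe_mul, Matrix.mul_apply, Fin.sum_univ_two, Int.cast_add,
    Int.cast_mul, z10 _ hgi, z10 _ hh', mul_zero, add_zero]
  linear_combination (-(h.1 0 0 : ZMod M)) * h1

end groups

section transpose

variable {M : ℕ} {H : Subgroup (ZMod M)ˣ}

/-- `diag (1, ℓ)`. -/
def del (ℓ : ℕ) : MatZ := !![1, 0; 0, (ℓ : ℤ)]

/-- `diag (ℓ, 1)`. -/
def eps (ℓ : ℕ) : MatZ := !![(ℓ : ℤ), 0; 0, 1]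

theorem del_det (ℓ : ℕ) : (del ℓ).det = ℓ := by simp [del, det_fin_two_of]

theorem eps_det (ℓ : ℕ) : (eps ℓ).det = ℓ := by simp [eps, det_fin_two_of]

theorem del_mem (ℓ : ℕ) : del ℓ ∈ Dl M H ℓ :=
  ⟨del_det ℓ, by simp [del], 1, one_mem H, by simp [del]⟩

variable {ℓ : ℕ}

theorem gl_det_ne [Fact ℓ.Prime] : (ℓ : ℤ) ≠ 0 := by
  exact_mod_cast (Fact.out : ℓ.Prime).ne_zero

theorem mul_glQ [Fact ℓ.Prime] {X : MatZ} (hX : X.det = ℓ) (g : SL(2, ℤ)) :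
    gl X * glQ g = gl (X * g.1) ∧ glQ g * gl X = gl (g.1 * X) := by
  have h0 : X.det ≠ 0 := by rw [hX]; exact gl_det_ne
  exact ⟨by rw [gl_mul h0 (by rw [g.2]; exact one_ne_zero), gl_coe],
    by rw [gl_mul (by rw [g.2]; exact one_ne_zero) h0, gl_coe]⟩

theorem mul_glQ_eq [Fact ℓ.Prime] {X Y : MatZ} (hX : X.det = ℓ) (hY : Y.det = ℓ)
    {g h : SL(2, ℤ)} (e : gl X * glQ g = glQ h * gl Y) : X * g.1 = h.1 * Y := by
  rw [(mul_glQ hX g).1, (mul_glQ hY h).2] at e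
  exact gl_inj (by rw [det_mul, hX, g.2, mul_one]; exact gl_det_ne)
    (by rw [det_mul, hY, h.2, one_mul]; exact gl_det_ne) e

theorem del_conj [Fact ℓ.Prime] : ∀ γ ∈ GamH M H ⊓ upGam ℓ, ∃ h ∈ GamH M H ⊓ Gamma0 ℓ,
    gl (del ℓ) * glQ γ = glQ h * gl (del ℓ) := by
  rintro γ ⟨⟨hd, hc, u, hu, hua⟩, hb⟩
  obtain ⟨b, hb⟩ := hb
  refine ⟨⟨!![γ.1 0 0, b; (ℓ : ℤ) * γ.1 1 0, γ.1 1 1], ?_⟩, ⟨⟨?_, ?_, u, hu, ?_⟩, ?_⟩, ?_⟩
  · have hd' := hd
    rw [det_fin_two, hb] at hd'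
    rw [det_fin_two_of]; linear_combination hd'
  · have hd' := hd
    rw [det_fin_two, hb] at hd'
    rw [det_fin_two_of]; linear_combination hd'
  · simpa using hc.mul_left _
  · simpa using hua
  · exact Gamma0_mem.2 (by simp)
  · rw [(mul_glQ (del_det ℓ) _).1, (mul_glQ (del_det ℓ) _).2]
    congr 1
    ext i j
    fin_cases i <;> fin_cases j <;>
      simp [del, Matrix.mul_apply, Fin.sum_univ_two, hb] <;> ring

theorem del_conj_inv [Fact ℓ.Prime] (hlM : ¬ ℓ ∣ M) :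
    ∀ h ∈ GamH M H ⊓ Gamma0 ℓ, ∃ γ ∈ GamH M H ⊓ upGam ℓ,
      (gl (del ℓ))⁻¹ * glQ h = glQ γ * (gl (del ℓ))⁻¹ := by
  rintro h ⟨⟨hd, hc, u, hu, hua⟩, hℓ⟩
  obtain ⟨c, hc'⟩ := (ZMod.intCast_zmod_eq_zero_iff_dvd _ _).1 (Gamma0_mem.1 hℓ)
  refine ⟨⟨!![h.1 0 0, (ℓ : ℤ) * h.1 0 1; c, h.1 1 1], ?_⟩, ⟨⟨?_, ?_, u, hu, ?_⟩, ?_⟩, ?_⟩
  · have hd' := hd
    rw [det_fin_two, hc'] at hd'
    rw [det_fin_two_of]; linear_combination hd'
  · have hd' := hd
    rw [det_fin_two, hc'] at hd'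
    rw [det_fin_two_of]; linear_combination hd'
  · rw [hc'] at hc
    have hco : IsCoprime (M : ℤ) (ℓ : ℤ) := by
      rw [Int.isCoprime_iff_nat_coprime, Nat.coprime_comm]
      simpa using ((Fact.out : ℓ.Prime).coprime_iff_not_dvd.2 hlM)
    simpa using hco.dvd_of_dvd_mul_left hc
  · simpa using hua
  · simp [mem_upGam]
  · rw [eq_mul_inv_iff_mul_eq, mul_assoc, inv_mul_eq_iff_eq_mul, (mul_glQ (del_det ℓ) _).1,
      (mul_glQ (del_det ℓ) _).2]
    congr 1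
    ext i j
    fin_cases i <;> fin_cases j <;>
      simp [del, Matrix.mul_apply, Fin.sum_univ_two, hc'] <;> ring

/-- Classes with equal index differ by an element of the level. -/
theorem Tc_inj [Fact ℓ.Prime] {i k : RIdx M ℓ}
    (h : ∃ g ∈ GamH M H, gl (rep M ℓ i) = glQ g * gl (rep M ℓ k)) : i = k := by
  obtain ⟨g, -, e⟩ := h
  exact rep_class_inj Fact.out e

theorem exists_class_mul [Fact ℓ.Prime] {X : MatZ} (hX : X ∈ Dl M H ℓ) (γ : SL(2, ℤ))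
    (hγ : γ ∈ GamH M H) : ∃ i : RIdx M ℓ, ∃ h ∈ GamH M H, gl X * glQ γ = glQ h * gl (rep M ℓ i) := by
  have hm : X * γ.1 ∈ Dl M H ℓ := by
    have := Dl.mul hX (mem_GamH.1 hγ)
    rwa [mul_one] at this
  obtain ⟨i, h, e⟩ := exists_class Fact.out hm
  exact ⟨i, h, h.2, by rw [(mul_glQ hX.1 _).1, e]⟩

/-- `T ℓ` as a double coset. -/
theorem Tc_double [Fact ℓ.Prime] [NeZero M] (hlM : ¬ ℓ ∣ M) :
    (((Corr.res (inf_le_left : GamH M H ⊓ Gamma0 ℓ ≤ GamH M H)).comp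
      (Corr.single (gl (del ℓ)) del_conj)).comp
        (Corr.cores (Γ := GamH M H) (Γ' := GamH M H ⊓ upGam ℓ))).Same (Tc M H ℓ) := by
  have hℓ : ℓ.Prime := Fact.out
  have : NeZero ℓ := ⟨hℓ.ne_zero⟩
  have key := same_double (Γ₁ := GamH M H) (Γ₂ := GamH M H) (Γ' := GamH M H ⊓ upGam ℓ)
    inf_le_left (gl (del ℓ)) (fun γ hγ => by
      obtain ⟨h, hh, e⟩ := del_conj γ hγ
      exact ⟨h, hh.1, e⟩) (Tc M H ℓ) (fun γ hγ => exists_class_mul (del_mem ℓ) γ hγ)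
    (fun i => ?_) (fun γ hγ h _ e => ?_) (fun i k => Tc_inj)
  · exact key.assoc_res _
  · have h1 : ∃ γ ∈ GamH M H, del ℓ * γ.1 = rep M ℓ i := by
      obtain ⟨_ | j, hi⟩ := i
      · refine ⟨⟨sGam M ℓ, (sGam_mem hℓ hlM H).1⟩, sGam_mem hℓ hlM H, ?_⟩
        ext r s
        fin_cases r <;> fin_cases s <;>
          simp [del, rep, sGam, Matrix.mul_apply, Fin.sum_univ_two, mul_comm]
      · refine ⟨⟨!![1, (j : ℤ); 0, 1], by simp [det_fin_two_of]⟩,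
          ⟨by simp [det_fin_two_of], by simp, 1, one_mem H, by simp⟩, ?_⟩
        ext r s
        fin_cases r <;> fin_cases s <;> simp [del, rep, Matrix.mul_apply, Fin.sum_univ_two]
    obtain ⟨γ, hγ, e⟩ := h1
    exact ⟨γ, hγ, 1, one_mem _, by rw [map_one, one_mul, (mul_glQ (del_det ℓ) _).1, e]; rfl⟩
  · refine ⟨hγ, ?_⟩
    have := congrFun (congrFun (mul_glQ_eq (del_det ℓ) (del_det ℓ) e) 0) 1
    simp [del, Matrix.mul_apply, Fin.sum_univ_two] at this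
    exact ⟨h.1 0 1, by rw [this, mul_comm]⟩

/-- The transpose of `T ℓ`, described by representatives. -/
theorem Tc_transpose [Fact ℓ.Prime] [NeZero M] (hlM : ¬ ℓ ∣ M) (g : SL(2, ℤ))
    (hg : g ∈ Gamma0 M) (hg0 : (g.1 0 0 : ZMod M) = (ℓ : ZMod M)) :
    ((((Corr.res (inf_le_left : GamH M H ⊓ upGam ℓ ≤ GamH M H)).comp
      (Corr.single (gl (del ℓ))⁻¹ (del_conj_inv hlM))).comp
        (Corr.cores (Γ := GamH M H) (Γ' := GamH M H ⊓ Gamma0 ℓ))).scale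
          (Units.mk0 (ℓ : ℚ) (by exact_mod_cast (Fact.out : ℓ.Prime).ne_zero))).Same
      ((Corr.single (glQ g) (fun γ hγ => ⟨g * γ * g⁻¹, conj_mem_GamH hg hγ, by
        rw [← map_mul, ← map_mul, inv_mul_cancel_right]⟩) : Corr (GamH M H) (GamH M H)).comp
          (Tc M H ℓ)) := by
  have hℓ : ℓ.Prime := Fact.out
  have : NeZero ℓ := ⟨hℓ.ne_zero⟩
  set c : ℚˣ := Units.mk0 (ℓ : ℚ) (by exact_mod_cast hℓ.ne_zero)
  have heps : Matrix.GeneralLinearGroup.scalar (Fin 2) c * (gl (del ℓ))⁻¹ = gl (eps ℓ) := by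
    rw [mul_inv_eq_iff_eq_mul, ← gl_mul (by rw [eps_det]; exact gl_det_ne)
      (by rw [del_det]; exact gl_det_ne)]
    apply Units.ext
    rw [coe_gl (by rw [det_mul, eps_det, del_det]; exact mul_ne_zero gl_det_ne gl_det_ne)]
    ext i j
    fin_cases i <;> fin_cases j <;>
      simp [eps, del, c, Matrix.GeneralLinearGroup.scalar, Matrix.mul_apply, Fin.sum_univ_two, Matrix.natCast_apply]
  have hconj : ∀ γ ∈ GamH M H, g * γ * g⁻¹ ∈ GamH M H := fun γ hγ => conj_mem_GamH hg hγ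
  have hconj' : ∀ γ ∈ GamH M H, g⁻¹ * γ * g ∈ GamH M H := fun γ hγ => by
    simpa using conj_mem_GamH (inv_mem hg) hγ
  let R : Corr (GamH M H) (GamH M H) := (Corr.single (glQ g) (fun γ hγ => ⟨g * γ * g⁻¹,
    hconj γ hγ, by rw [← map_mul, ← map_mul, inv_mul_cancel_right]⟩) :
      Corr (GamH M H) (GamH M H)).comp (Tc M H ℓ)
  have hgi : (g⁻¹).1 * eps ℓ ∈ Dl M H ℓ := by
    refine ⟨by rw [det_mul, (g⁻¹).2, eps_det, one_mul], ?_, 1, one_mem H, ?_⟩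
    · have h1 := (ZMod.intCast_zmod_eq_zero_iff_dvd _ _).1 (Gamma0_mem.1 (inv_mem hg))
      simp [eps, Matrix.mul_apply, Fin.sum_univ_two, adjugate_fin_two]
      exact (show (M : ℤ) ∣ g.1 1 0 by simpa [adjugate_fin_two] using h1).mul_right _
    · have h1 : (g.1 0 0 : ZMod M) * (g.1 1 1 : ZMod M) = 1 := by
        have := congrArg (fun x : ℤ => (x : ZMod M)) g.2
        simp only [det_fin_two, Int.cast_sub, Int.cast_mul, Int.cast_one] at this
        rwa [Gamma0_mem.1 hg, mul_zero, sub_zero] at this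
      simp [eps, Matrix.mul_apply, Fin.sum_univ_two, adjugate_fin_two]
      rw [← hg0, mul_comm, h1]
  have hfwd : ∀ γ ∈ GamH M H ⊓ Gamma0 ℓ, ∃ h ∈ GamH M H,
      gl (eps ℓ) * glQ γ = glQ h * gl (eps ℓ) := fun γ hγ => by
    obtain ⟨h, hh, e⟩ := del_conj_inv hlM γ hγ
    exact ⟨h, hh.1, by rw [← heps, mul_assoc, e, ← mul_assoc, scal_comm, mul_assoc]⟩
  have key := same_double (Γ₁ := GamH M H) (Γ₂ := GamH M H) (Γ' := GamH M H ⊓ Gamma0 ℓ)
    inf_le_left (gl (eps ℓ)) hfwd R (fun γ hγ => ?_) (fun x => ?_) (fun γ hγ h _ e => ?_)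
    (fun x y => ?_)
  · exact key.assoc_res_scale _ c heps
  · obtain ⟨i, h, hh, e⟩ := exists_class_mul hgi γ hγ
    refine ⟨(PUnit.unit, i), g * h * g⁻¹, hconj h hh, ?_⟩
    show _ = glQ (g * h * g⁻¹) * (glQ g * gl (rep M ℓ i))
    rw [(mul_glQ hgi.1 _).1, Matrix.mul_assoc, gl_mul (by rw [(g⁻¹).2]; exact one_ne_zero)
      (by rw [det_mul, eps_det, γ.2, mul_one]; exact gl_det_ne), gl_coe, map_inv,
      inv_mul_eq_iff_eq_mul, ← (mul_glQ (eps_det ℓ) _).1] at e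
    rw [e, map_mul, map_mul, map_inv]
    group
  · have hbij : ∀ i : RIdx M ℓ, ∃ γ ∈ GamH M H, ∃ h ∈ GamH M H,
        gl ((g⁻¹).1 * eps ℓ) * glQ γ = glQ h * gl (rep M ℓ i) := by
      let pt : RIdx M ℓ → SL(2, ℤ) := fun i => match i with
        | ⟨none, _⟩ => 1
        | ⟨some j, _⟩ => ⟨!![1, (j : ℤ); (M : ℤ), 1 + (M : ℤ) * j], by simp [det_fin_two_of, mul_comm]⟩
      have hpt : ∀ i, pt i ∈ GamH M H := by
        rintro ⟨_ | j, hi⟩
        · exact one_mem _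
        · exact ⟨(pt ⟨some j, hi⟩).2, by simp [pt], 1, one_mem H, by simp [pt]⟩
      choose k h hh e using fun i => exists_class_mul hgi (pt i) (hpt i)
      have hk : Function.Injective k := by
        intro i i' hii
        have e' := e i'
        rw [← hii] at e'
        have e1 : (g⁻¹).1 * eps ℓ * (pt i).1 = (h i).1 * rep M ℓ (k i) :=
          mul_glQ_eq hgi.1 (rep_det hℓ _) (e i)
        have e2 : (g⁻¹).1 * eps ℓ * (pt i').1 = (h i').1 * rep M ℓ (k i) :=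
          mul_glQ_eq hgi.1 (rep_det hℓ _) e'
        have e3 : eps ℓ * (pt i).1 =
            ((g * h i * (h i')⁻¹ * g⁻¹ : SL(2, ℤ)) : MatZ) * (eps ℓ * (pt i').1) := by
          rw [Matrix.mul_assoc] at e1 e2
          have c1 : eps ℓ * (pt i).1 = ((g * h i : SL(2, ℤ)) : MatZ) * rep M ℓ (k i) := by
            rw [Matrix.SpecialLinearGroup.coe_mul, Matrix.mul_assoc, ← e1, ← Matrix.mul_assoc,
              ← Matrix.SpecialLinearGroup.coe_mul, mul_inv_cancel, Matrix.SpecialLinearGroup.coe_one,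
              Matrix.one_mul]
          have c2 : eps ℓ * (pt i').1 = ((g * h i' : SL(2, ℤ)) : MatZ) * rep M ℓ (k i) := by
            rw [Matrix.SpecialLinearGroup.coe_mul, Matrix.mul_assoc, ← e2, ← Matrix.mul_assoc,
              ← Matrix.SpecialLinearGroup.coe_mul, mul_inv_cancel, Matrix.SpecialLinearGroup.coe_one,
              Matrix.one_mul]
          rw [c2, ← Matrix.mul_assoc, ← Matrix.SpecialLinearGroup.coe_mul, c1]
          congr 2
          group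
        set m : SL(2, ℤ) := g * h i * (h i')⁻¹ * g⁻¹
        have z : ∀ r, (((eps ℓ * (pt i).1) 0 r : ℤ) : ZMod ℓ) = 0 := fun r => by
          simp [eps, Matrix.mul_apply, Fin.sum_univ_two]
        have z' : ∀ r, (((eps ℓ * (pt i').1) 0 r : ℤ) : ZMod ℓ) = 0 := fun r => by
          simp [eps, Matrix.mul_apply, Fin.sum_univ_two]
        have bot : ∀ r, ((pt i).1 1 r : ZMod ℓ) = (m.1 1 1 : ZMod ℓ) * ((pt i').1 1 r : ZMod ℓ) := by
          intro r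
          have := congrArg (fun x : ℤ => (x : ZMod ℓ)) (congrFun (congrFun e3 1) r)
          rw [Matrix.mul_apply (M := (m : MatZ)), Fin.sum_univ_two, Int.cast_add, Int.cast_mul,
            Int.cast_mul, z', mul_zero, zero_add] at this
          simpa [eps, Matrix.mul_apply, Fin.sum_univ_two] using this
        have hMl : (M : ZMod ℓ) ≠ 0 := fun hM => hlM ((ZMod.natCast_eq_zero_iff _ _).1 hM)
        have b0 := bot 0
        have b1 := bot 1
        obtain ⟨_ | a, hi⟩ := i <;> obtain ⟨_ | b, hi'⟩ := i'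
        · rfl
        · simp [pt] at b0 b1
          rcases b0 with h0 | h0
          · rw [h0, zero_mul] at b1; exact absurd b1 one_ne_zero
          · exact absurd h0 hMl
        · simp [pt] at b0
          exact absurd b0 hMl
        · simp [pt] at b0 b1
          have hm1 : (m.1 1 1 : ZMod ℓ) = 1 := (mul_eq_right₀ hMl).1 b0.symm
          rw [hm1, one_mul] at b1
          have hab : ((a : ℕ) : ZMod ℓ) = ((b : ℕ) : ZMod ℓ) :=
            mul_left_cancel₀ hMl (add_left_cancel b1)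
          have := (ZMod.natCast_eq_natCast_iff' _ _ _).1 hab
          rw [Nat.mod_eq_of_lt a.isLt, Nat.mod_eq_of_lt b.isLt] at this
          exact Subtype.ext (congrArg some (Fin.ext this))
      intro i
      obtain ⟨i', rfl⟩ := (Finite.injective_iff_surjective.1 hk) i
      exact ⟨pt i', hpt i', h i', hh i', e i'⟩
    obtain ⟨γ, hγ, h, hh, e⟩ := hbij x.2
    refine ⟨γ, hγ, g * h * g⁻¹, hconj h hh, ?_⟩
    show _ = glQ (g * h * g⁻¹) * (glQ g * gl (rep M ℓ x.2))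
    rw [(mul_glQ hgi.1 _).1, Matrix.mul_assoc, gl_mul (by rw [(g⁻¹).2]; exact one_ne_zero)
      (by rw [det_mul, eps_det, γ.2, mul_one]; exact gl_det_ne), gl_coe, map_inv,
      inv_mul_eq_iff_eq_mul, ← (mul_glQ (eps_det ℓ) _).1] at e
    rw [e, map_mul, map_mul, map_inv]
    group
  · refine ⟨hγ, Gamma0_mem.2 ?_⟩
    have := congrFun (congrFun (mul_glQ_eq (eps_det ℓ) (eps_det ℓ) e) 1) 0
    simp [eps, Matrix.mul_apply, Fin.sum_univ_two] at this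
    simp [this]
  · rintro ⟨h, hh, e⟩
    refine Prod.ext rfl (Tc_inj (H := H) ⟨g⁻¹ * h * g, hconj' h hh, ?_⟩)
    have e' : glQ g * gl (rep M ℓ x.2) = glQ h * (glQ g * gl (rep M ℓ y.2)) := e
    rw [← eq_inv_mul_iff_mul_eq] at e'
    rw [e', map_mul, map_mul, map_inv]
    group

/-- The diamond correspondence of an element of `Γ₀(M)`. -/
def Dg (H : Subgroup (ZMod M)ˣ) (g : SL(2, ℤ)) (hg : g ∈ Gamma0 M) :
    Corr (GamH M H) (GamH M H) :=
  Corr.single (glQ g) (fun γ hγ => ⟨g * γ * g⁻¹, conj_mem_GamH hg hγ, by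
    rw [← map_mul, ← map_mul, inv_mul_cancel_right]⟩)

theorem Dg_symb_of_mem {g : SL(2, ℤ)} (hg : g ∈ GamH M H) {A : Type*} [AddCommGroup A]
    (φ : Symb (GamH M H) A) : (Dg H g (GamH_le_Gamma0 hg)).symb φ = φ := by
  apply Subtype.ext
  funext a b
  rw [Dg, Corr.single_symb, Symb.invariant φ hg]

/-- Transposition of `T ℓ`. -/
theorem pr_Tc [Fact ℓ.Prime] [NeZero M] (hlM : ¬ ℓ ∣ M) (hH : (-1 : (ZMod M)ˣ) ∈ H)
    (g : SL(2, ℤ)) (hg : g ∈ Gamma0 M) (hg0 : (g.1 0 0 : ZMod M) = (ℓ : ZMod M))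
    {A : Type*} [CommRing A] [IsAddTorsionFree A]
    (z : Hom1 (GamH M H) A) (φ : Symb (GamH M H) A) :
    pr ((Tc M H ℓ).act z) φ = pr z ((Tc M H ℓ).symb ((Dg H g hg).symb φ)) := by
  have : NeZero ℓ := ⟨(Fact.out : ℓ.Prime).ne_zero⟩
  have h1 : -1 ∈ GamH M H := neg_one_mem_GamH hH
  rw [← (Tc_double hlM).act_eq z, pr_double _ inf_le_left _
    (det_gl_pos (by rw [del_det]; exact_mod_cast (Fact.out : ℓ.Prime).pos)) _
    (del_conj_inv hlM) ⟨h1, Gamma0_mem.2 (by simp)⟩ ⟨h1, by simp [mem_upGam]⟩ z φ,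
    ← Corr.scale_symb, (Tc_transpose hlM g hg hg0).symb_eq, Corr.comp_symb]
  rfl

/-- `T ℓ` is self-adjoint when the class of `ℓ` is trivial at the level. -/
theorem pr_Tc_self [Fact ℓ.Prime] [NeZero M] (hlM : ¬ ℓ ∣ M) (hH : (-1 : (ZMod M)ˣ) ∈ H)
    (hℓH : ∃ u ∈ H, (u : ZMod M) = (ℓ : ZMod M))
    {A : Type*} [CommRing A] [IsAddTorsionFree A]
    (z : Hom1 (GamH M H) A) (φ : Symb (GamH M H) A) :
    pr ((Tc M H ℓ).act z) φ = pr z ((Tc M H ℓ).symb φ) := by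
  have hℓ : ℓ.Prime := Fact.out
  obtain ⟨u, hu, hul⟩ := hℓH
  have hb := bezout_eq hℓ hlM
  let g : SL(2, ℤ) := ⟨!![(ℓ : ℤ), -Nat.gcdB ℓ M; (M : ℤ), Nat.gcdA ℓ M],
    by rw [det_fin_two_of]; linear_combination hb⟩
  have hgH : g ∈ GamH M H := ⟨g.2, by simp [g], u, hu, by simp [g, hul]⟩
  rw [pr_Tc hlM hH g (GamH_le_Gamma0 hgH) (by simp [g]) z φ, Dg_symb_of_mem hgH]

end transpose

end FA.HeckeH1

end
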